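import Fermat.Agent.Tau.RingClassJ
import Fermat.Agent.ThirteenOrders.Stabiliser
import Fermat.Agent.Root.SummaryGenus
import Mathlib.AlgebraicGeometry.EllipticCurve.ModelsWithJ

/-!
# Complex multiplication over number fields

The multipliers of the lattice of a root of a primitive form of discriminant `D` form the ring
`ℤ[(D + √D)/2]`; so a curve over a number field with this multiplier ring has `j` of degree
`h(D)`, and there is one over a field of exactly this degree.
-/

set_option autoImplicit false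
set_option linter.style.haveILetI false

noncomputable section

namespace FA.CMFields

open UpperHalfPlane hiding I
open FA.ModField FA.JInj FA.Mazur.Wp
open FA.Singular hiding IsRoot
open scoped MatrixGroups

/-- The generator `(D + √D)/2` of the order of discriminant `D`. -/
def omega (D : ℤ) : ℂ := ((D : ℂ) + Complex.I * (Real.sqrt (-(D : ℝ)) : ℂ)) / 2

/-- The multipliers of `L` form the order of discriminant `D`. -/
def IsMultiplierRing (L : PeriodPair) (D : ℤ) : Prop :=
  ∀ w : ℂ, Stable L w ↔ ∃ x y : ℤ, w = (x : ℂ) + (y : ℂ) * omega D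

theorem omega_im (D : ℤ) : (omega D).im = Real.sqrt (-(D : ℝ)) / 2 := by
  simp [omega, Complex.div_ofNat_im]

/-- `a τ` differs from `(D + √D)/2` by an integer. -/
theorem exists_smul_eq {a b c D : ℤ} (ha : 0 < a) (hd : b ^ 2 - 4 * a * c = D) {τ : ℍ}
    (hτ : FA.Singular.IsRoot (a, b, c) τ) : ∃ m : ℤ, (a : ℂ) * τ = omega D - (m : ℂ) := by
  obtain ⟨m, hm⟩ := (Int.even_mul_succ_self b).two_dvd
  refine ⟨m - 2 * a * c, ?_⟩
  obtain ⟨hre, hns⟩ := root_re_normSq hτ
  rw [Complex.normSq_apply] at hns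
  simp only [UpperHalfPlane.coe_re, UpperHalfPlane.coe_im] at hre hns
  have ha' : (0 : ℝ) < a := by exact_mod_cast ha
  have hs : Real.sqrt (-(D : ℝ)) = 2 * a * τ.im := by
    have e : -(D : ℝ) = (2 * a * τ.im) ^ 2 := by
      rw [← hd]; push_cast
      linear_combination (-4 * (a : ℝ)) * hns + (2 * (a : ℝ) * τ.re - b) * hre
    rw [e, Real.sqrt_sq (by have := τ.im_pos; positivity)]
  have hm' : (b : ℝ) * (b + 1) = 2 * m := by exact_mod_cast hm
  have hd' : (D : ℝ) = b ^ 2 - 4 * a * c := by rw [← hd]; push_cast; ring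
  refine Complex.ext ?_ ?_
  · simp [omega, Complex.div_ofNat_re, hd']
    linear_combination (1 / 2 : ℝ) * hre - (1 / 2 : ℝ) * hm'
  · simp [omega, Complex.div_ofNat_im, hs]
    ring

/-- **The multiplier ring at a root of a primitive form.** -/
theorem isMultiplierRing_of_root {a b c D : ℤ} (ha : 0 < a) (hd : b ^ 2 - 4 * a * c = D)
    (hg : Int.gcd (Int.gcd a b) c = 1) {τ : ℍ} (hτ : FA.Singular.IsRoot (a, b, c) τ) :
    IsMultiplierRing (latPair τ) D := by
  obtain ⟨m, hm⟩ := exists_smul_eq ha hd hτ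
  have hst : Stable (latPair τ) ((a : ℂ) * τ) := (stable_of_form hτ).1
  intro w
  constructor
  · intro hw
    obtain ⟨p, q, e1⟩ := mem_latPair.mp (hw 1 (mem_latPair.mpr ⟨0, 1, by simp⟩))
    obtain ⟨r, s, e2⟩ := mem_latPair.mp (hw τ (mem_latPair.mpr ⟨1, 0, by simp⟩))
    rw [mul_one] at e1
    simp only [FA.Singular.IsRoot] at hτ
    obtain ⟨h1, h2⟩ : a * (q - r) - p * b = 0 ∧ a * (-s) - p * c = 0 := eq_zero_of_add (z := τ) (by
      push_cast
      linear_combination (a : ℂ) * ((τ : ℂ) * e1 - e2) - (p : ℂ) * hτ)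
    obtain ⟨u₁, u₂, u₃, hu⟩ := FA.OrderTheta.exists_bezout hg
    obtain ⟨k, hk⟩ : a ∣ p := ⟨u₁ * p + u₃ * (q - r) + u₂ * (-s), by
      linear_combination -p * hu - u₃ * h1 - u₂ * h2⟩
    refine ⟨q - k * m, k, ?_⟩
    rw [← e1, hk]
    push_cast
    linear_combination (k : ℂ) * hm
  · rintro ⟨x, y, rfl⟩ l hl
    rw [show ((x : ℂ) + (y : ℂ) * omega D) * l =
        ((x + y * m : ℤ) : ℂ) * l + (y : ℂ) * ((a : ℂ) * τ * l) by
      push_cast; linear_combination -((y : ℂ) * l) * hm]
    refine Submodule.add_mem _ ?_ ?_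
    · rw [← zsmul_eq_mul]; exact Submodule.smul_mem _ _ hl
    · rw [← zsmul_eq_mul]; exact Submodule.smul_mem _ _ (hst l hl)

/-- The discriminant is determined by the multipliers. -/
theorem eq_of_isMultiplierRing {L : PeriodPair} {D D' : ℤ} (hD : D < 0) (hD' : D' < 0)
    (h : IsMultiplierRing L D) (h' : IsMultiplierRing L D') : D = D' := by
  obtain ⟨x, y, e⟩ := (h' (omega D)).1 ((h _).2 ⟨0, 1, by simp⟩)
  obtain ⟨x', y', e'⟩ := (h (omega D')).1 ((h' _).2 ⟨0, 1, by simp⟩)
  have hs : 0 < Real.sqrt (-(D : ℝ)) :=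
    Real.sqrt_pos.2 (by rw [neg_pos]; exact_mod_cast hD)
  have hs' : 0 < Real.sqrt (-(D' : ℝ)) :=
    Real.sqrt_pos.2 (by rw [neg_pos]; exact_mod_cast hD')
  have h1 := congrArg Complex.im e
  have h2 := congrArg Complex.im e'
  simp [omega_im] at h1 h2
  have hyy : y * y' = 1 := by
    have : ((y : ℝ) * y' - 1) * Real.sqrt (-(D : ℝ)) = 0 := by
      linear_combination -2 * h1 - 2 * (y : ℝ) * h2
    rw [mul_eq_zero, sub_eq_zero] at this
    exact_mod_cast this.resolve_right hs.ne'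
  rcases Int.eq_one_or_neg_one_of_mul_eq_one hyy with rfl | rfl
  · have : Real.sqrt (-(D : ℝ)) = Real.sqrt (-(D' : ℝ)) := by push_cast at h1; linarith
    rw [Real.sqrt_inj (by rw [neg_nonneg]; exact_mod_cast hD.le)
      (by rw [neg_nonneg]; exact_mod_cast hD'.le), neg_inj] at this
    exact_mod_cast this
  · push_cast at h1; linarith

theorem isMultiplierRing_scale {L : PeriodPair} {τ : ℍ} {c : ℂ} {hc : c ≠ 0}
    (hlat : L.lattice = (scalePair (latPair τ) c hc).lattice) (D : ℤ) :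
    IsMultiplierRing L D ↔ IsMultiplierRing (latPair τ) D :=
  forall_congr' fun w => iff_congr ((stable_congr hlat w).trans (stable_scale _ hc w)) Iff.rfl

/-- A lattice with this multiplier ring comes from a form of discriminant `D`. -/
theorem mem_values_of_ring {D : ℤ} (hD : D < 0) {τ : ℍ}
    (h : IsMultiplierRing (latPair τ) D) : jfun τ ∈ values D := by
  have him : (omega D).im ≠ 0 := by
    rw [omega_im]
    have : 0 < Real.sqrt (-(D : ℝ)) := Real.sqrt_pos.2 (by rw [neg_pos]; exact_mod_cast hD)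
    positivity
  obtain ⟨A, B, C, hA, hg, heq⟩ :=
    FA.ThirteenOrders.exists_isRootOf him ((h _).2 ⟨0, 1, by simp⟩)
  have hroot : FA.Singular.IsRoot (A, B, C) τ := heq
  obtain ⟨hre, hns⟩ := root_re_normSq hroot
  rw [Complex.normSq_apply] at hns
  simp only [UpperHalfPlane.coe_re, UpperHalfPlane.coe_im] at hre hns
  have hneg : B ^ 2 - 4 * A * C < 0 := by
    have : ((B : ℝ) ^ 2 - 4 * A * C) = -(2 * A * τ.im) ^ 2 := by
      linear_combination (4 * (A : ℝ)) * hns - (2 * (A : ℝ) * τ.re - B) * hre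
    have hpos : (0 : ℝ) < 2 * A * τ.im := by
      have : (0 : ℝ) < A := by exact_mod_cast hA
      have := τ.im_pos
      positivity
    have : ((B : ℝ) ^ 2 - 4 * A * C) < 0 := by rw [this, neg_lt_zero]; positivity
    exact_mod_cast this
  have e := eq_of_isMultiplierRing hD hneg h (isMultiplierRing_of_root hA rfl hg hroot)
  have hv := jfun_mem_values (t := (A, B, C)) hA hneg hg hroot
  rwa [show disc (A, B, C) = D from e.symm] at hv

/-- The invariant of the lattice of a curve. -/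
theorem exists_latPair_curve (W : WeierstrassCurve ℂ) [W.IsElliptic] {L : PeriodPair}
    (h2 : L.g₂ = W.c₄ / 12) (h3 : L.g₃ = W.c₆ / 216) :
    ∃ (τ : ℍ) (c : ℂ) (hc : c ≠ 0), L.lattice = (scalePair (latPair τ) c hc).lattice ∧
      jfun τ = W.j := by
  obtain ⟨τ, c, hc, hlat⟩ := exists_latPair L
  refine ⟨τ, c, hc, hlat, ?_⟩
  rw [jfun_eq_invariant, ← invariant_scale hlat, h2, h3, WeierstrassCurve.j,
    Units.val_inv_eq_inv_val, WeierstrassCurve.coe_Δ',
    show (W.c₄ / 12) ^ 3 - 27 * (W.c₆ / 216) ^ 2 = W.Δ by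
      linear_combination (-(1 / 1728) : ℂ) * W.c_relation]
  ring

/-- A curve over a subfield of `ℂ` with multiplier ring of discriminant `D`. -/
def CMBy {K : IntermediateField ℚ ℂ} (E : WeierstrassCurve K) (D : ℤ) : Prop :=
  ∃ L : PeriodPair, L.g₂ = (E.c₄ : ℂ) / 12 ∧ L.g₃ = (E.c₆ : ℂ) / 216 ∧ IsMultiplierRing L D

/-- **The field of definition has degree a multiple of the class number.** -/
theorem degree_of_cmBy {K : IntermediateField ℚ ℂ} [FiniteDimensional ℚ K]
    (E : WeierstrassCurve K) [E.IsElliptic] {D : ℤ} (hD : D < 0) (h : CMBy E D) :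
    (minpoly ℚ (E.j : ℂ)).natDegree = (Red D).ncard ∧
      (Red D).ncard ∣ Module.finrank ℚ K := by
  obtain ⟨L, h2, h3, hring⟩ := h
  set W := E.map K.val.toRingHom with hW
  have h4 : W.c₄ = (E.c₄ : ℂ) := E.map_c₄ _
  have h6 : W.c₆ = (E.c₆ : ℂ) := E.map_c₆ _
  obtain ⟨τ, c, hc, hlat, hj⟩ := exists_latPair_curve W (by rw [h4]; exact h2)
    (by rw [h6]; exact h3)
  have hjE : W.j = (E.j : ℂ) := E.map_j _
  have hv := mem_values_of_ring hD ((isMultiplierRing_scale hlat D).1 hring)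
  rw [hj, hjE] at hv
  have hdeg := natDegree_minpoly hD hv
  refine ⟨hdeg, ?_⟩
  rw [← hdeg, show minpoly ℚ (E.j : ℂ) = minpoly ℚ E.j from
    minpoly.algHom_eq K.val K.val.injective E.j]
  exact minpoly.degree_dvd (Algebra.IsIntegral.isIntegral E.j)

/-- **A curve over a field of degree `h(D)`.** -/
theorem exists_cmBy {a b c D : ℤ} (ha : 0 < a) (hd : b ^ 2 - 4 * a * c = D) (hD : D < 0)
    (hg : Int.gcd (Int.gcd a b) c = 1) :
    ∃ (K : IntermediateField ℚ ℂ) (_ : FiniteDimensional ℚ K) (E : WeierstrassCurve K)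
      (_ : E.IsElliptic), CMBy E D ∧ Module.finrank ℚ K = (Red D).ncard := by
  obtain ⟨τ, hτ⟩ := exists_isRoot (t := (a, b, c)) ha (hd.trans_lt hD)
  have hv : jfun τ ∈ values D := by
    have := jfun_mem_values (t := (a, b, c)) ha (hd.trans_lt hD) hg hτ
    rwa [show disc (a, b, c) = D from hd] at this
  have hi : IsIntegral ℚ (jfun τ) := (isIntegral_values hD hv).tower_top
  set K := IntermediateField.adjoin ℚ {jfun τ} with hK
  haveI : FiniteDimensional ℚ K := IntermediateField.adjoin.finiteDimensional hi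
  set x : K := ⟨jfun τ, IntermediateField.mem_adjoin_simple_self ℚ _⟩
  set E := WeierstrassCurve.ofJ x with hE
  set W := E.map K.val.toRingHom with hW
  have h4 : W.c₄ = (E.c₄ : ℂ) := E.map_c₄ _
  have h6 : W.c₆ = (E.c₆ : ℂ) := E.map_c₆ _
  obtain ⟨L, h2, h3⟩ := exists_g₂_g₃ (a := W.c₄ / 12) (b := W.c₆ / 216) (by
    rw [show (W.c₄ / 12) ^ 3 - 27 * (W.c₆ / 216) ^ 2 = W.Δ by
      linear_combination (-(1 / 1728) : ℂ) * W.c_relation]
    exact W.isUnit_Δ.ne_zero)
  obtain ⟨τ', s, hs, hlat, hj⟩ := exists_latPair_curve W h2 h3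
  have hjj : jfun τ = jfun τ' := by
    rw [hj, show W.j = (E.j : ℂ) from E.map_j _, show E.j = x from WeierstrassCurve.ofJ_j x]
  obtain ⟨g, hg'⟩ := (jfun_eq_iff _ _).1 hjj
  refine ⟨K, inferInstance, E, inferInstance, ⟨L, h4 ▸ h2, h6 ▸ h3,
    (isMultiplierRing_scale hlat D).2 fun w => ?_⟩, ?_⟩
  · rw [← hg', stable_smul]
    exact isMultiplierRing_of_root ha hd hg hτ w
  · rw [hK, IntermediateField.adjoin.finrank hi, natDegree_minpoly hD hv]

/-- `μ = 1` exactly for `2`, `4` and the odd powers of primes `3 (mod 4)`. -/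
theorem genusMu_eq_one_iff {n : ℕ} (hn : 1 < n) :
    FA.OrderTheta.genusMu n = 1 ↔
      n = 2 ∨ n = 4 ∨ ∃ p k : ℕ, p.Prime ∧ p % 4 = 3 ∧ Odd k ∧ n = p ^ k := by
  have hpow : ∀ p k : ℕ, p % 4 = 3 → (p ^ k % 4 = 3 ↔ Odd k) := by
    intro p k hp
    rw [Nat.pow_mod, hp]
    obtain ⟨j, rfl⟩ | ⟨j, rfl⟩ := k.even_or_odd
    · rw [← two_mul, pow_mul, Nat.pow_mod]
      simp [Nat.not_odd_iff_even]
    · rw [pow_add, pow_mul, Nat.mul_mod, Nat.pow_mod]
      simp
  constructor
  · intro h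
    unfold FA.OrderTheta.genusMu at h
    split_ifs at h with h3 h8
    · have hodd : ¬ 2 ∣ n := by omega
      rw [Finset.erase_eq_of_notMem fun hm => hodd (Nat.dvd_of_mem_primeFactors hm)] at h
      obtain ⟨p, k, hp, hk, rfl⟩ := (isPrimePow_nat_iff n).1
        (isPrimePow_iff_card_primeFactors_eq_one.2 h)
      have hp4 : p % 4 = 3 := by
        by_contra hne
        rcases (show p % 4 = 1 ∨ p % 2 = 0 by omega) with e | e
        · rw [Nat.pow_mod, e, one_pow] at h3; omega
        · exact hodd ((Nat.dvd_of_mod_eq_zero e).trans (dvd_pow_self p hk.ne'))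
      exact Or.inr (Or.inr ⟨p, k, hp, hp4, (hpow p k hp4).1 h3, rfl⟩)
    · omega
    · have h0 : n.primeFactors.erase 2 = ∅ := Finset.card_eq_zero.1 (by omega)
      have hsub : n.primeFactors = {2} := by
        refine Finset.eq_singleton_iff_nonempty_unique_mem.2
          ⟨Nat.nonempty_primeFactors.2 hn, fun q hq => ?_⟩
        by_contra hne
        have : q ∈ n.primeFactors.erase 2 := Finset.mem_erase.2 ⟨hne, hq⟩
        rw [h0] at this
        exact Finset.notMem_empty q this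
      obtain ⟨p, k, hp, hk, rfl⟩ := (isPrimePow_nat_iff n).1
        (isPrimePow_iff_card_primeFactors_eq_one.2 (by rw [hsub, Finset.card_singleton]))
      rw [Nat.primeFactors_prime_pow hk.ne' hp, Finset.singleton_inj] at hsub
      subst hsub
      rcases (show k = 1 ∨ k = 2 ∨ 3 ≤ k by omega) with rfl | rfl | h3k
      · exact Or.inl rfl
      · exact Or.inr (Or.inl rfl)
      · exact absurd (Nat.mod_eq_zero_of_dvd (pow_dvd_pow 2 h3k)) h8
  · rintro (rfl | rfl | ⟨p, k, hp, hp4, hk, rfl⟩)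
    · unfold FA.OrderTheta.genusMu
      rw [Nat.prime_two.primeFactors]; simp
    · unfold FA.OrderTheta.genusMu
      rw [show (4 : ℕ) = 2 ^ 2 from rfl, Nat.primeFactors_prime_pow two_ne_zero Nat.prime_two]
      simp
    · unfold FA.OrderTheta.genusMu
      have hp2 : p ≠ 2 := by omega
      rw [if_pos ((hpow p k hp4).2 hk), Nat.primeFactors_prime_pow (ne_of_gt
        hk.pos) hp, Finset.erase_eq_of_notMem (by simp [hp2.symm]), Finset.card_singleton]

/-- The class number of `ℤ[√-n]` is odd exactly for `1`, `2`, `4` and odd powers of `p ≡ 3`. -/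
theorem odd_classNumber_iff (n : ℕ) [NeZero n] :
    Odd (Nat.card (FA.OrderTheta.Cl n)) ↔
      n = 1 ∨ n = 2 ∨ n = 4 ∨ ∃ p k : ℕ, p.Prime ∧ p % 4 = 3 ∧ Odd k ∧ n = p ^ k := by
  rcases (show n = 1 ∨ 1 < n by have := NeZero.pos n; omega) with rfl | hn
  · simp [FA.OrderTheta.card_cl_examples.1]
  · rw [FA.Summary.classNumber_odd_iff n hn, genusMu_eq_one_iff hn]
    simp [hn.ne']

end FA.CMFields

end
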