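import Fermat.Agent.Tau.SingularIntegral
import Fermat.Prelude.Thm_ModularCurve_coeffMap_qExpand
import Mathlib.RingTheory.IntegralClosure.IntegrallyClosed

/-!
# The modular polynomial

The product of `Y - j(N γ z)` over the cosets of `Γ₀(N)` has polynomials in `j` as coefficients.
Their own coefficients are algebraic integers, by the expansions at infinity, and rational, as a
rational relation has the same distinct roots; so they are integers.
-/

set_option autoImplicit false
set_option linter.style.haveILetI false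

noncomputable section

namespace FA.ModPoly

open UpperHalfPlane hiding I
open FA.ModField FA.SingularIntegral HahnSeries
open scoped MatrixGroups Polynomial

variable (N : ℕ) [NeZero N]

/-- `j(N z)`. -/
def fN (z : ℍ) : ℂ := jfun (scaleH N z)

theorem fN_mem : fN N ∈ modFuns N := scale_mem_modFuns N N dvd_rfl

/-- The expansion of `j(N γ z)`, with integral coefficients. -/
theorem exists_conj_series (γ : SL(2, ℤ)) :
    ∃ S ∈ intSeries, HasExp (qp N) (fun z => jfun (scaleH N (γ • z))) S := by
  obtain ⟨a, δ, b, ha, haδ, -, hw⟩ := exists_upper N γ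
  haveI : NeZero (a * a) := ⟨(Nat.mul_pos ha ha).ne'⟩
  choose w hwc hwj using hw
  have hc : ((zetaN N ^ (b * (a : ℤ)) : ℂˣ) : ℂ) ^ N = 1 := by
    rw [Units.val_zpow_eq_zpow_val, ← zpow_natCast ((zetaN N : ℂ) ^ _), ← zpow_mul,
      (zetaN_prim N).zpow_eq_one_iff_dvd]
    exact Dvd.intro_left _ rfl
  refine ⟨_, series_mem (a * a) (Nat.pos_of_ne_zero (NeZero.ne N)) hc, ?_⟩
  have h := hasExp_jfun.comp (U := qp N) w (a * a) (zetaN N ^ (b * (a : ℤ))) ?_
  · exact h.congr (funext fun z => (hwj z).symm)
  intro z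
  rw [qp_eq, qp_eq, Units.val_zpow_eq_zpow_val, zetaN, Units.val_mk0, ← Complex.exp_int_mul,
    ← Complex.exp_nat_mul, ← Complex.exp_add, hwc]
  congr 1
  have hN : (N : ℂ) = (a : ℂ) * δ := by exact_mod_cast haδ.symm
  have hδ : (δ : ℂ) ≠ 0 := fun h => by
    rw [h, mul_zero] at hN; exact NeZero.ne N (by exact_mod_cast hN)
  have ha' : (a : ℂ) ≠ 0 := by exact_mod_cast ha.ne'
  push_cast
  rw [hN]
  field_simp
  ring

theorem exists_cos_series (i : FA.Dim.Cos N) :
    ∃ S ∈ intSeries, HasExp (qp N) (cosVal N (fN N) i) S :=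
  exists_conj_series N (Quotient.out i)⁻¹

/-- The series of `j(N γ z)` for the coset of `γ`. -/
def ser (i : FA.Dim.Cos N) : LaurentSeries ℂ := (exists_cos_series N i).choose

theorem ser_mem (i : FA.Dim.Cos N) : ser N i ∈ intSeries :=
  (exists_cos_series N i).choose_spec.1

theorem hasExp_ser (i : FA.Dim.Cos N) : HasExp (qp N) (cosVal N (fN N) i) (ser N i) :=
  (exists_cos_series N i).choose_spec.2

attribute [irreducible] ser

theorem ser_injective : Function.Injective (ser N) := by
  intro i j h
  have hi := hasExp_ser N i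
  rw [h] at hi
  have hf : cosVal N (fN N) i = cosVal N (fN N) j := hi.fun_unique (hasExp_ser N j)
  induction i using QuotientGroup.induction_on with
  | H g =>
  induction j using QuotientGroup.induction_on with
  | H g' =>
  refine QuotientGroup.eq.mpr (mem_Gamma0_of_scale_invariant N fun z => ?_)
  have := congrFun hf (g' • z)
  rw [cosVal_mk (fN_mem N), cosVal_mk (fN_mem N), inv_smul_smul, ← mul_smul] at this
  exact this

variable [Fintype (FA.Dim.Cos N)]

/-- The product over the cosets, in series. -/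
def prodSer : (LaurentSeries ℂ)[X] := ∏ i, (Polynomial.X - Polynomial.C (ser N i))

theorem prodSer_monic : (prodSer N).Monic := Polynomial.monic_prod_X_sub_C _ _

theorem prodSer_natDegree : (prodSer N).natDegree = Nat.card (FA.Dim.Cos N) := by
  rw [prodSer, Polynomial.natDegree_finsetProd_X_sub_C_eq_card, Finset.card_univ,
    Nat.card_eq_fintype_card]

omit [Fintype (FA.Dim.Cos N)] in
theorem hasExp_eval (Q : ℂ[X]) :
    HasExp (qp N) (fun z => Q.eval (jfun z)) (Q.eval₂ HahnSeries.C (Jp N)) := by
  induction Q using Polynomial.induction_on' with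
  | add a b ha hb => simp only [Polynomial.eval_add, Polynomial.eval₂_add]; exact ha.add hb
  | monomial n a =>
    simp only [Polynomial.eval_monomial, Polynomial.eval₂_monomial]
    exact (hasExp_C a).mul (qp_ne_zero N)
      ((FA.SingularIntegral.hasExp_jfun_qp N).pow (qp_ne_zero N) n)

/-- The coefficients: polynomials in `j` with algebraic integer coefficients. -/
theorem exists_coeff_poly (k : ℕ) : ∃ P : ℂ[X], (∀ i, IsIntegral ℤ (P.coeff i)) ∧
    P.eval₂ HahnSeries.C (Jp N) = (prodSer N).coeff k ∧
    ∀ z, P.eval (jfun z) =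
      (∏ i, (Polynomial.X - Polynomial.C (cosVal N (fN N) i z))).coeff k := by
  classical
  let pr : FA.Dim.Cos N → expPairs (qp_ne_zero N) := fun i =>
    ⟨(cosVal N (fN N) i, ser N i), hasExp_ser N i⟩
  let Q : (expPairs (qp_ne_zero N))[X] := ∏ i, (Polynomial.X - Polynomial.C (pr i))
  set e : ℍ → ℂ := (Q.coeff k : (ℍ → ℂ) × LaurentSeries ℂ).1 with he
  have hz : ∀ z, e z = (∏ i, (Polynomial.X - Polynomial.C (cosVal N (fN N) i z))).coeff k :=
    fun z => by
    have h1 : Q.map ((Pi.evalRingHom (fun _ : ℍ => ℂ) z).comp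
        ((RingHom.fst _ _).comp (expPairs (qp_ne_zero N)).subtype)) =
        ∏ i, (Polynomial.X - Polynomial.C (cosVal N (fN N) i z)) := by
      simp [Q, pr, Polynomial.map_prod]
    rw [← h1, Polynomial.coeff_map]
    rfl
  have hser : (Q.coeff k : (ℍ → ℂ) × LaurentSeries ℂ).2 = (prodSer N).coeff k := by
    have h1 : Q.map ((RingHom.snd _ _).comp (expPairs (qp_ne_zero N)).subtype) = prodSer N := by
      simp [Q, pr, prodSer, Polynomial.map_prod]
    rw [← h1, Polynomial.coeff_map]
    rfl
  have hexp : HasExp (qp N) e ((prodSer N).coeff k) := hser ▸ (Q.coeff k).2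
  have hinv : ∀ (g : SL(2, ℤ)) z, e (g • z) = e z := fun g z => by
    refine (hz _).trans (Eq.trans ?_ (hz _).symm)
    refine congrArg (Polynomial.coeff · k) ?_
    simp only [cosVal_smul (fN_mem N)]
    exact Fintype.prod_equiv (MulAction.toPerm g⁻¹) _ _ fun i => rfl
  have hmd : e ∈ expFuns N := by
    let Q' : (expFuns N)[X] := ∏ i, (Polynomial.X - Polynomial.C
      (⟨cosVal N (fN N) i, mdiff_comp_smul (fN_mem N).1 _, _, hasExp_ser N i⟩ : expFuns N))
    have : e = (Q'.coeff k : ℍ → ℂ) := by
      funext z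
      rw [hz]
      have h1 : Q'.map ((Pi.evalRingHom (fun _ : ℍ => ℂ) z).comp (expFuns N).subtype) =
          ∏ i, (Polynomial.X - Polynomial.C (cosVal N (fN N) i z)) := by
        simp [Q', Polynomial.map_prod]
      rw [← h1, Polynomial.coeff_map]
      rfl
    rw [this]
    exact (Q'.coeff k).2
  clear_value e
  obtain ⟨L', hL'⟩ := hasExp_descend (fun z => hinv ModularGroup.T z) hexp
  obtain ⟨P, hP⟩ := exists_polynomial_of_invariant hinv hmd.1 hL'
  have heq : P.eval₂ HahnSeries.C (Jp N) = (prodSer N).coeff k :=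
    (hasExp_eval N P).unique (covers_qp N) (hexp.congr hP)
  obtain ⟨h1, h2, h3⟩ := Jp_low N
  have hm : -(N : ℤ) < 0 := by have := NeZero.pos N; omega
  refine ⟨P, poly_integral hm h3 h1 h2 _ P le_rfl ?_, heq, fun z => ?_⟩
  · have hint : prodSer N ∈ Polynomial.lifts intSeries.subtype := by
      refine (Polynomial.mem_lifts _).mpr
        ⟨∏ i, (Polynomial.X - Polynomial.C (⟨ser N i, ser_mem N i⟩ : intSeries)), ?_⟩
      simp [prodSer, Polynomial.map_prod]
    obtain ⟨x, hx⟩ := (Polynomial.lifts_iff_coeff_lifts _).mp hint k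
    rw [heq, ← hx]
    exact x.2
  · rw [← hz, congrFun hP z]

omit [Fintype (FA.Dim.Cos N)] in
/-- A relation of degree the index over a subfield `L`. -/
theorem exists_relation (L : Type) [Field L] [Algebra L ℂ] :
    ∃ R : ℕ → L[X], R (Nat.card (FA.Dim.Cos N)) = 1 ∧
    ∀ i, ∑ k ∈ Finset.range (Nat.card (FA.Dim.Cos N) + 1),
      ((R k).map (algebraMap L ℂ)).eval₂ HahnSeries.C (Jp N) * ser N i ^ k = 0 := by
  classical
  set n := Nat.card (FA.Dim.Cos N)
  obtain ⟨R, hRn, hR⟩ := exists_monic_relation (L := L) (N := N)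
    ⟨ModularCurve.qExpand L N (ModularCurve.jqModC L),
      Algebra.subset_adjoin (ModularCurve.mem_divisorExpansionsC L N dvd_rfl)⟩
  refine ⟨R, hRn, fun i => ?_⟩
  have h1 := congrArg (ModularCurve.coeffMap (algebraMap L ℂ)) hR
  simp only [map_sum, map_mul, map_pow, map_zero, ModularCurve.coeffMap_qExpand,
    ModularCurve.coeffMap_jqModC] at h1
  have hpol : ∀ k, ModularCurve.coeffMap (algebraMap L ℂ)
      (Polynomial.aeval (ModularCurve.jqModC L) (R k)) =
        ((R k).map (algebraMap L ℂ)).eval₂ HahnSeries.C (ModularCurve.jqModC ℂ) := fun k => by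
    rw [Polynomial.aeval_def, Polynomial.hom_eval₂, Polynomial.eval₂_map,
      ModularCurve.coeffMap_jqModC]
    congr 1
    ext a : 1
    simp [ModularCurve.algebraMap_laurentSeries_eq_single, HahnSeries.C_apply,
      ModularCurve.coeffMap_single]
  simp only [hpol] at h1
  -- the relation between the functions
  have hev : ∀ Q : ℂ[X], HasExp (qp 1) (fun z => Q.eval (jfun z))
      (Q.eval₂ HahnSeries.C (ModularCurve.jqModC ℂ)) := fun Q => by
    induction Q using Polynomial.induction_on' with
    | add a b ha hb => simp only [Polynomial.eval_add, Polynomial.eval₂_add]; exact ha.add hb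
    | monomial n a =>
      simp only [Polynomial.eval_monomial, Polynomial.eval₂_monomial]
      exact (hasExp_C a).mul (qp_ne_zero 1) (hasExp_jfun.pow (qp_ne_zero 1) n)
  have hfun : (∑ k ∈ Finset.range (n + 1),
      (fun z => ((R k).map (algebraMap L ℂ)).eval (jfun z)) * fN N ^ k) = 0 := by
    refine HasExp.fun_unique ?_ (hasExp_zero (T := qp 1))
    rw [← h1]
    exact hasExp_sum _ fun k _ => (hev _).mul (qp_ne_zero 1)
      ((hasExp_scale N).pow (qp_ne_zero 1) k)
  refine hasExp_eq_zero (covers_qp N) ((hasExp_sum _ fun k _ => (hasExp_eval N _).mul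
    (qp_ne_zero N) ((hasExp_ser N i).pow (qp_ne_zero N) k)).congr ?_)
  funext z
  have := congrFun hfun ((Quotient.out i)⁻¹ • z)
  simp only [Finset.sum_apply, Pi.mul_apply, Pi.pow_apply, Pi.zero_apply, jfun_smul] at this ⊢
  exact this

/-- **The integral coefficients.** -/
theorem exists_int_coeff (k : ℕ) : ∃ Φ : ℤ[X],
    (Φ.map (Int.castRingHom ℂ)).eval₂ HahnSeries.C (Jp N) = (prodSer N).coeff k ∧
    ∀ z, Polynomial.aeval (jfun z) Φ =
      (∏ i, (Polynomial.X - Polynomial.C (cosVal N (fN N) i z))).coeff k := by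
  classical
  obtain ⟨P, hint, hP, hPz⟩ := exists_coeff_poly N k
  obtain ⟨R, hRn, hR⟩ := exists_relation N ℚ
  set n := Nat.card (FA.Dim.Cos N) with hn
  obtain ⟨h1, h2, -⟩ := Jp_low N
  have hm : -(N : ℤ) < 0 := by have := NeZero.pos N; omega
  set Rs : (LaurentSeries ℂ)[X] := ∑ k ∈ Finset.range (n + 1),
    Polynomial.C (((R k).map (algebraMap ℚ ℂ)).eval₂ HahnSeries.C (Jp N)) * Polynomial.X ^ k
    with hRs
  have hcoef : ∀ k, Rs.coeff k = if k ≤ n then
      ((R k).map (algebraMap ℚ ℂ)).eval₂ HahnSeries.C (Jp N) else 0 := fun k => by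
    simp only [hRs, Polynomial.finsetSum_coeff, Polynomial.coeff_C_mul_X_pow,
      Finset.sum_ite_eq, Finset.mem_range, Nat.lt_succ_iff]
  have hRm : Rs.natDegree ≤ n := Polynomial.natDegree_le_iff_coeff_eq_zero.mpr fun m hm' => by
    rw [hcoef, if_neg (by omega)]
  have hR1 : Rs.coeff n = 1 := by
    rw [hcoef, if_pos le_rfl, hRn]; simp
  have hsame : Rs = prodSer N := by
    have hmon : Rs.Monic := Polynomial.monic_of_natDegree_le_of_coeff_eq_one n hRm hR1
    refine sub_eq_zero.mp (Polynomial.eq_zero_of_natDegree_lt_card_of_eval_eq_zero (Rs - prodSer N)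
      (ser_injective N) (fun i => ?_) ?_)
    · rw [Polynomial.eval_sub, prodSer, Polynomial.eval_prod, Finset.prod_eq_zero
        (Finset.mem_univ i) (by simp), sub_zero, hRs, Polynomial.eval_finsetSum]
      simpa using hR i
    · have hc : Fintype.card (FA.Dim.Cos N) = n := Nat.card_eq_fintype_card.symm
      have hn0 : 0 < n := Nat.card_pos
      rw [hc]
      refine Nat.lt_of_le_of_lt (Polynomial.natDegree_le_iff_coeff_eq_zero.mpr fun m hm' => ?_)
        (Nat.sub_one_lt_of_lt hn0)
      rw [Polynomial.coeff_sub]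
      rcases Nat.lt_or_ge n m with h | h
      · rw [hcoef, if_neg (by omega), Polynomial.coeff_eq_zero_of_natDegree_lt
          (by rw [prodSer_natDegree]; omega), sub_zero]
      · obtain rfl : m = n := by omega
        have h' := (prodSer_monic N).coeff_natDegree
        rw [prodSer_natDegree] at h'
        rw [hR1, show (prodSer N).coeff n = 1 from h', sub_self]
  have hPR : P = if k ≤ n then (R k).map (algebraMap ℚ ℂ) else 0 := by
    refine sub_eq_zero.mp (by_contra fun hne => ?_)
    set D := P - if k ≤ n then (R k).map (algebraMap ℚ ℂ) else 0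
    have hD : D.eval₂ HahnSeries.C (Jp N) = 0 := by
      simp only [D, Polynomial.eval₂_sub, hP, ← hsame, hcoef]
      split_ifs <;> simp
    have := (eval_top hm h1 h2 (le_refl D.natDegree)).2
    rw [hD, coeff_zero, Polynomial.coeff_natDegree] at this
    exact hne (Polynomial.leadingCoeff_eq_zero.mp this.symm)
  have hrat : ∀ m, ∃ r : ℤ, P.coeff m = r := fun m => by
    obtain ⟨q, hq⟩ : ∃ q : ℚ, P.coeff m = algebraMap ℚ ℂ q := by
      rw [hPR]
      split_ifs
      · exact ⟨_, Polynomial.coeff_map _ _⟩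
      · exact ⟨0, by simp⟩
    have hi := hint m
    rw [hq, isIntegral_algebraMap_iff (algebraMap ℚ ℂ).injective] at hi
    obtain ⟨r, hr⟩ := IsIntegrallyClosed.isIntegral_iff.mp hi
    exact ⟨r, by rw [hq, ← hr]; simp⟩
  obtain ⟨Φ, hΦ⟩ := (Polynomial.lifts_iff_coeff_lifts (f := Int.castRingHom ℂ) P).mpr
    fun m => (hrat m).imp fun r hr => by simp [hr]
  simp only [Polynomial.coe_mapRingHom] at hΦ
  refine ⟨Φ, by rw [hΦ]; exact hP, fun z => ?_⟩
  rw [← hPz, Polynomial.aeval_def, algebraMap_int_eq, ← Polynomial.eval_map, hΦ]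

/-- `Φ_N`. -/
def phi : ℤ[X][X] := ∑ k ∈ Finset.range (Nat.card (FA.Dim.Cos N) + 1),
  Polynomial.C (exists_int_coeff N k).choose * Polynomial.X ^ k

/-- Evaluation of the coefficients at the series of `j`. -/
def evJp : ℤ[X] →+* LaurentSeries ℂ :=
  (Polynomial.eval₂RingHom HahnSeries.C (Jp N)).comp (Polynomial.mapRingHom (Int.castRingHom ℂ))

omit [Fintype (FA.Dim.Cos N)] in
theorem evJp_injective : Function.Injective (evJp N) := by
  refine (injective_iff_map_eq_zero _).mpr fun D hD => ?_
  obtain ⟨h1, h2, -⟩ := Jp_low N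
  have hm : -(N : ℤ) < 0 := by have := NeZero.pos N; omega
  have := (eval_top hm h1 h2 (le_refl (D.map (Int.castRingHom ℂ)).natDegree)).2
  simp only [evJp, RingHom.coe_comp, Function.comp_apply, Polynomial.coe_mapRingHom,
    Polynomial.coe_eval₂RingHom] at hD
  rw [hD, coeff_zero, Polynomial.coeff_natDegree, eq_comm, Polynomial.leadingCoeff_eq_zero,
    ← Polynomial.map_zero (Int.castRingHom ℂ)] at this
  exact Polynomial.map_injective _ Int.cast_injective this

theorem map_phi : (phi N).map (evJp N) = prodSer N := by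
  ext1 k
  rw [phi, Polynomial.map_sum]
  simp only [Polynomial.map_mul, Polynomial.map_C, Polynomial.map_pow, Polynomial.map_X,
    Polynomial.finsetSum_coeff, Polynomial.coeff_C_mul_X_pow, Finset.sum_ite_eq,
    Finset.mem_range]
  split_ifs with h
  · exact (exists_int_coeff N k).choose_spec.1
  · rw [Polynomial.coeff_eq_zero_of_natDegree_lt (by rw [prodSer_natDegree]; omega)]

theorem phi_monic : (phi N).Monic :=
  Polynomial.monic_of_injective (evJp_injective N) (by rw [map_phi]; exact prodSer_monic N)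

theorem phi_natDegree : (phi N).natDegree = Nat.card (FA.Dim.Cos N) := by
  rw [← Polynomial.natDegree_map_eq_of_injective (evJp_injective N), map_phi, prodSer_natDegree]

/-- **`Φ_N(j z, j(N γ z)) = 0`.** -/
theorem phi_eval (z : ℍ) (γ : SL(2, ℤ)) :
    (phi N).eval₂ (Polynomial.aeval (R := ℤ) (jfun z)).toRingHom (fN N (γ • z)) = 0 := by
  set φ := (Polynomial.aeval (R := ℤ) (jfun z)).toRingHom
  have hmap : (phi N).map φ =
      ∏ i, (Polynomial.X - Polynomial.C (cosVal N (fN N) i z)) := by
    ext1 k
    rw [phi, Polynomial.map_sum]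
    simp only [Polynomial.map_mul, Polynomial.map_C, Polynomial.map_pow, Polynomial.map_X,
      Polynomial.finsetSum_coeff, Polynomial.coeff_C_mul_X_pow, Finset.sum_ite_eq,
      Finset.mem_range]
    split_ifs with h
    · exact (exists_int_coeff N k).choose_spec.2 z
    · rw [Polynomial.coeff_eq_zero_of_natDegree_lt]
      rw [Polynomial.natDegree_finsetProd_X_sub_C_eq_card, Finset.card_univ,
        ← Nat.card_eq_fintype_card]
      omega
  rw [← Polynomial.eval_map, hmap, Polynomial.eval_prod]
  refine Finset.prod_eq_zero (Finset.mem_univ (QuotientGroup.mk γ⁻¹ : FA.Dim.Cos N)) ?_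
  rw [cosVal_mk (fN_mem N), inv_inv]
  simp

/-- **`Φ_N` is irreducible.** -/
theorem phi_irreducible : Irreducible (phi N) := by
  classical
  have h1 : phi N ≠ 1 := fun h => by
    have h2 := phi_natDegree N
    rw [h, Polynomial.natDegree_one] at h2
    exact (Nat.card_pos (α := FA.Dim.Cos N)).ne h2
  rw [(phi_monic N).irreducible_iff_natDegree]
  refine ⟨h1, fun G H hG hH hGH => ?_⟩
  have hmem : ∀ G : ℤ[X][X], G.Monic → ∀ i, (G.map (evJp N)).eval (ser N i) = 0 →
      ∀ i', (G.map (evJp N)).eval (ser N i') = 0 := by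
    intro G hG i hi i'
    have hexp : ∀ i, HasExp (qp N) (∑ k ∈ Finset.range (G.natDegree + 1),
        (fun z => ((G.coeff k).map (Int.castRingHom ℂ)).eval (jfun z)) * cosVal N (fN N) i ^ k)
        ((G.map (evJp N)).eval (ser N i)) := fun i => by
      rw [Polynomial.eval_map, Polynomial.eval₂_eq_sum_range]
      exact hasExp_sum _ fun k _ => (hasExp_eval N _).mul (qp_ne_zero N)
        ((hasExp_ser N i).pow (qp_ne_zero N) k)
    have h0 := hexp i
    rw [hi] at h0
    have hz := h0.fun_unique hasExp_zero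
    induction i using QuotientGroup.induction_on with
    | H g =>
    induction i' using QuotientGroup.induction_on with
    | H g' =>
    refine hasExp_eq_zero (covers_qp N) ((hexp _).congr ?_)
    funext z
    have := congrFun hz (g • g'⁻¹ • z)
    simp only [Finset.sum_apply, Pi.mul_apply, Pi.pow_apply, Pi.zero_apply, jfun_smul,
      cosVal_mk (fN_mem N), inv_smul_smul] at this ⊢
    exact this
  have hfull : ∀ G : ℤ[X][X], G.Monic → (∀ i, (G.map (evJp N)).eval (ser N i) = 0) →
      Nat.card (FA.Dim.Cos N) ≤ G.natDegree := by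
    intro G hG hall
    by_contra hlt
    have := Polynomial.eq_zero_of_natDegree_lt_card_of_eval_eq_zero (G.map (evJp N))
      (ser_injective N) hall (by
        rw [← Nat.card_eq_fintype_card, hG.natDegree_map]; omega)
    exact (hG.map (evJp N)).ne_zero this
  let i₀ : FA.Dim.Cos N := QuotientGroup.mk 1
  have h0 : (G.map (evJp N)).eval (ser N i₀) * (H.map (evJp N)).eval (ser N i₀) = 0 := by
    rw [← Polynomial.eval_mul, ← Polynomial.map_mul, hGH, map_phi, prodSer, Polynomial.eval_prod]
    exact Finset.prod_eq_zero (Finset.mem_univ i₀) (by simp)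
  have hdeg : G.natDegree + H.natDegree = Nat.card (FA.Dim.Cos N) := by
    rw [← hG.natDegree_mul hH, hGH, phi_natDegree]
  rcases mul_eq_zero.mp h0 with h | h
  · have := hfull G hG (hmem G hG i₀ h); omega
  · have := hfull H hH (hmem H hH i₀ h); omega

/-- **The data of the modular polynomial.** -/
def data : ModularCurve.ModularPolynomialData N where
  Φ := phi N
  monic := phi_monic N
  natDegree_eq := by rw [phi_natDegree, FA.Dim.card_cos]
  eval_eq_zero := by
    set φ := ModularCurve.coeffMap (algebraMap ℚ ℂ)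
    have hφ : Function.Injective φ := fun x y h => by
      refine HahnSeries.ext (funext fun n => (algebraMap ℚ ℂ).injective ?_)
      rw [← ModularCurve.coeffMap_coeff, ← ModularCurve.coeffMap_coeff, h]
    refine hφ ?_
    rw [map_zero, Polynomial.hom_eval₂]
    -- as functions on the upper half plane
    have hev : ∀ D : ℤ[X], HasExp (qp 1) (fun z => Polynomial.aeval (jfun z) D)
        ((φ.comp ModularCurve.evalAtJ) D) := fun D => by
      induction D using Polynomial.induction_on' with
      | add a b ha hb => simp only [map_add]; exact ha.add hb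
      | monomial n a =>
        simp only [RingHom.comp_apply, ModularCurve.evalAtJ, AlgHom.toRingHom_eq_coe,
          RingHom.coe_coe, Polynomial.aeval_monomial, map_mul, map_pow, algebraMap_int_eq,
          eq_intCast, map_intCast, ← ModularCurve.jqModC_rat, φ, ModularCurve.coeffMap_jqModC]
        have h := (hasExp_C (T := qp 1) (a : ℂ)).mul (qp_ne_zero 1)
          (hasExp_jfun.pow (qp_ne_zero 1) n)
        rw [map_intCast] at h
        exact h
    refine hasExp_eq_zero (covers_qp 1) ?_
    rw [Polynomial.eval₂_eq_sum_range]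
    have hq : φ (ModularCurve.jqN N) =
        ModularCurve.qExpand ℂ N (ModularCurve.jqModC ℂ) := by
      rw [ModularCurve.jqN, ← ModularCurve.jqModC_rat, ModularCurve.coeffMap_qExpand,
        ModularCurve.coeffMap_jqModC]
    rw [hq]
    refine (hasExp_sum _ fun k _ => (hev _).mul (qp_ne_zero 1)
      ((hasExp_scale N).pow (qp_ne_zero 1) k)).congr ?_
    funext z
    have h := phi_eval N z 1
    rw [one_smul, Polynomial.eval₂_eq_sum_range] at h
    simp only [Finset.sum_apply, Pi.mul_apply, Pi.pow_apply, Pi.zero_apply]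
    exact h

theorem isIntegral_adjoin (z : ℍ) (γ : SL(2, ℤ)) :
    IsIntegral (Algebra.adjoin ℤ ({jfun z} : Set ℂ)) (fN N (γ • z)) := by
  let x : Algebra.adjoin ℤ ({jfun z} : Set ℂ) := ⟨jfun z, Algebra.subset_adjoin rfl⟩
  refine ⟨(phi N).map (Polynomial.aeval (R := ℤ) x).toRingHom, (phi_monic N).map _, ?_⟩
  rw [Polynomial.eval₂_map]
  have hφ : (algebraMap (Algebra.adjoin ℤ ({jfun z} : Set ℂ)) ℂ).comp
      (Polynomial.aeval (R := ℤ) x).toRingHom = (Polynomial.aeval (R := ℤ) (jfun z)).toRingHom := by
    refine Polynomial.ringHom_ext' (Subsingleton.elim _ _) ?_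
    simp [x]
  rw [hφ]
  exact phi_eval N z γ

theorem isIntegral_scale {z : ℍ} (hz : IsIntegral ℤ (jfun z)) (γ : SL(2, ℤ)) :
    IsIntegral ℤ (fN N (γ • z)) := by
  haveI : Algebra.IsIntegral ℤ (Algebra.adjoin ℤ ({jfun z} : Set ℂ)) :=
    Algebra.IsIntegral.adjoin fun x hx => by rw [Set.mem_singleton_iff.mp hx]; exact hz
  exact isIntegral_trans _ (isIntegral_adjoin N z γ)

end FA.ModPoly

end
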