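import Fermat.Agent.Tau.SingularConjugate
import Fermat.Agent.Tau.ModularPolynomial
import Fermat.Agent.Tau.CMFields
import Fermat.Agent.Root.SummarySiegel

/-!
# Siegel's bound for every negative discriminant

`h(D)` is the number of reduced primitive forms of discriminant `D`. For `D` odd the point `2 τ`,
`τ` the root of the principal form, has discriminant `4 D` and `j(2 τ)` is a root of `Φ_2(j(τ), Y)`,
so `h(4 D) ≤ 3 h(D)`; this carries the bound for `h(-4 n)` to all discriminants.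
-/

set_option autoImplicit false
set_option linter.style.haveILetI false

noncomputable section

namespace FA.SiegelDiscriminant

open UpperHalfPlane hiding I
open FA.ModField FA.JInj FA.Singular
open scoped MatrixGroups IntermediateField

theorem dedekindPsi_two : ModularCurve.dedekindPsi 2 = 3 := by
  rw [ModularCurve.dedekindPsi, show (2 : ℕ).divisors = {1, 2} from rfl, Finset.sum_filter,
    Finset.sum_insert (by simp), Finset.sum_singleton, if_pos squarefree_one,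
    if_pos Nat.prime_two.squarefree]

/-- `deg j(2 τ) ≤ 3 deg j(τ)`. -/
theorem natDegree_jfun_scale_le {τ : ℍ} (hi : IsIntegral ℚ (jfun τ)) :
    (minpoly ℚ (jfun (scaleH 2 τ))).natDegree ≤ 3 * (minpoly ℚ (jfun τ)).natDegree := by
  letI := Fintype.ofFinite (FA.Dim.Cos 2)
  set u := jfun τ
  set x := jfun (scaleH 2 τ)
  set K := IntermediateField.adjoin ℚ ({u} : Set ℂ) with hK
  haveI : FiniteDimensional ℚ K := IntermediateField.adjoin.finiteDimensional hi
  set uK : K := ⟨u, IntermediateField.mem_adjoin_simple_self ℚ u⟩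
  set P := (FA.ModPoly.phi 2).map (Polynomial.aeval (R := ℤ) uK).toRingHom with hP
  have hPm : P.Monic := (FA.ModPoly.phi_monic 2).map _
  have hPd : P.natDegree = 3 := by
    rw [hP, (FA.ModPoly.phi_monic 2).natDegree_map, FA.ModPoly.phi_natDegree, FA.Dim.card_cos,
      dedekindPsi_two]
  have hroot : Polynomial.aeval x P = 0 := by
    rw [Polynomial.aeval_def, hP, Polynomial.eval₂_map]
    have hφ : (algebraMap K ℂ).comp (Polynomial.aeval (R := ℤ) uK).toRingHom =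
        (Polynomial.aeval (R := ℤ) u).toRingHom := by
      refine Polynomial.ringHom_ext' (Subsingleton.elim _ _) ?_
      simp [uK]
    rw [hφ]
    simpa [FA.ModPoly.fN] using FA.ModPoly.phi_eval 2 τ 1
  have hx : IsIntegral K x := ⟨P, hPm, hroot⟩
  set M := IntermediateField.adjoin K ({x} : Set ℂ) with hM
  haveI : FiniteDimensional K M := IntermediateField.adjoin.finiteDimensional hx
  haveI : FiniteDimensional ℚ M := FiniteDimensional.trans ℚ K M
  have h1 : Module.finrank K M ≤ 3 := by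
    rw [hM, IntermediateField.adjoin.finrank hx, ← hPd]
    exact Polynomial.natDegree_le_of_dvd (minpoly.dvd K x hroot) hPm.ne_zero
  set xM : M := ⟨x, IntermediateField.mem_adjoin_simple_self K x⟩
  have h2 : minpoly ℚ x = minpoly ℚ xM :=
    minpoly.algHom_eq (M.val.restrictScalars ℚ) M.val.injective xM
  rw [h2, ← IntermediateField.adjoin.finrank hi, ← hK, mul_comm]
  exact (minpoly.natDegree_le xM).trans
    ((Module.finrank_mul_finrank ℚ K M).symm.le.trans (Nat.mul_le_mul_left _ h1))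

/-- `h(4 D) ≤ 3 h(D)` for odd `D`. -/
theorem ncard_red_four_mul_le (k : ℕ) (hk : 0 < k) :
    (Red (-4 * (4 * k - 1 : ℤ))).ncard ≤ 3 * (Red (1 - 4 * k : ℤ)).ncard := by
  have hD : (1 - 4 * k : ℤ) < 0 := by omega
  have hd : disc (1, 1, (k : ℤ)) = 1 - 4 * k := by simp [disc]
  obtain ⟨τ, hτ⟩ := exists_isRoot (t := (1, 1, (k : ℤ))) one_pos (hd.trans_lt hD)
  have hv : jfun τ ∈ values (1 - 4 * k : ℤ) :=
    hd ▸ jfun_mem_values one_pos (hd.trans_lt hD) (by simp) hτ
  have hd2 : disc (1, 2, 4 * (k : ℤ)) = -4 * (4 * k - 1 : ℤ) := by simp [disc]; ring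
  have hτ2 : FA.Singular.IsRoot (1, 2, 4 * (k : ℤ)) (scaleH 2 τ) := by
    simp only [FA.Singular.IsRoot, coe_scaleH] at hτ ⊢
    push_cast at hτ ⊢
    linear_combination 4 * hτ
  have hv2 : jfun (scaleH 2 τ) ∈ values (-4 * (4 * k - 1 : ℤ)) :=
    hd2 ▸ jfun_mem_values one_pos (by rw [hd2]; omega) (by simp) hτ2
  rw [← natDegree_minpoly hD hv, ← natDegree_minpoly (by omega) hv2]
  exact natDegree_jfun_scale_le (isIntegral_values hD hv).tower_top

/-- `h(4 D) ≤ 3 h(D)` with `D = -n`. -/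
theorem card_cl_le (n : ℕ) [NeZero n] (hn : n % 4 = 3) :
    Nat.card (FA.OrderTheta.Cl n) ≤ 3 * (Red (-(n : ℤ))).ncard := by
  have h := ncard_red_four_mul_le ((n + 1) / 4) (by omega)
  rw [show (4 * ((n + 1) / 4 : ℕ) - 1 : ℤ) = n by omega,
    show (1 - 4 * ((n + 1) / 4 : ℕ) : ℤ) = -(n : ℤ) by omega, FA.RingClassJ.ncard_red_eq] at h
  exact h

/-- A negative discriminant is `-4 n` or `-n`, `n ≡ 3 (mod 4)`. -/
theorem disc_cases {D : ℤ} (hD : D < 0) (h4 : D % 4 = 0 ∨ D % 4 = 1) :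
    (∃ n : ℕ, 0 < n ∧ D = -4 * (n : ℤ)) ∨ ∃ n : ℕ, n % 4 = 3 ∧ D = -(n : ℤ) := by
  rcases h4 with h | h
  · exact Or.inl ⟨((-D) / 4).toNat, by omega, by omega⟩
  · exact Or.inr ⟨(-D).toNat, by omega, by omega⟩

/-- The residue of the discriminant of a form. -/
theorem disc_mod_four (a b c : ℤ) :
    (b ^ 2 - 4 * a * c) % 4 = 0 ∨ (b ^ 2 - 4 * a * c) % 4 = 1 := by
  rcases Int.even_or_odd' b with ⟨k, rfl | rfl⟩
  · left; ring_nf; omega
  · right; ring_nf; omega

/-- **Siegel's bound for every negative discriminant.** -/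
theorem ncard_red_lower_bound (ε : ℝ) (hε : 0 < ε) :
    ∃ C : ℝ, 0 < C ∧ ∀ D : ℤ, D < 0 → D % 4 = 0 ∨ D % 4 = 1 →
      C * |(D : ℝ)| ^ (1 / 2 - ε) ≤ (Red D).ncard := by
  obtain ⟨C, hC, h⟩ := FA.Siegel.classNumber_lower_bound ε hε
  refine ⟨min (C * (4 : ℝ) ^ (-(1 / 2 - ε))) (C / 3), lt_min (by positivity) (by positivity),
    fun D hD h4 => ?_⟩
  rcases disc_cases hD h4 with ⟨n, hn, rfl⟩ | ⟨n, hn, rfl⟩
  · haveI : NeZero n := ⟨hn.ne'⟩
    rw [FA.RingClassJ.ncard_red_eq]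
    refine le_trans ?_ (h n)
    push_cast
    rw [abs_of_neg (by simpa using hn), neg_mul, neg_neg,
      Real.mul_rpow (by norm_num) (Nat.cast_nonneg n)]
    refine (mul_le_mul_of_nonneg_right (min_le_left _ _) (by positivity)).trans (le_of_eq ?_)
    rw [mul_assoc, ← mul_assoc ((4 : ℝ) ^ _), ← Real.rpow_add (by norm_num), neg_add_cancel,
      Real.rpow_zero, one_mul]
  · haveI : NeZero n := ⟨by omega⟩
    have h1 : (Nat.card (FA.OrderTheta.Cl n) : ℝ) ≤ 3 * (Red (-(n : ℤ))).ncard := by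
      exact_mod_cast card_cl_le n hn
    push_cast
    rw [abs_neg, Nat.abs_cast]
    refine (mul_le_mul_of_nonneg_right (min_le_right _ _) (by positivity)).trans ?_
    rw [div_mul_eq_mul_div, div_le_iff₀ (by norm_num), mul_comm _ (3 : ℝ)]
    exact (h n).trans h1

/-- **Finitely many discriminants of bounded class number.** -/
theorem finite_red_le (B : ℕ) :
    {D : ℤ | D < 0 ∧ (D % 4 = 0 ∨ D % 4 = 1) ∧ (Red D).ncard ≤ B}.Finite := by
  refine (((FA.Siegel.classNumber_finite B).image fun m => -4 * ((m + 1 : ℕ) : ℤ)).union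
    ((FA.Siegel.classNumber_finite (3 * B)).image fun m => -((m + 1 : ℕ) : ℤ))).subset ?_
  rintro D ⟨hD, h4, hB⟩
  rcases disc_cases hD h4 with ⟨n, hn, rfl⟩ | ⟨n, hn, rfl⟩
  · obtain ⟨m, rfl⟩ : ∃ m, n = m + 1 := ⟨n - 1, by omega⟩
    exact Or.inl ⟨m, show _ ≤ B by rwa [← FA.RingClassJ.ncard_red_eq], rfl⟩
  · obtain ⟨m, rfl⟩ : ∃ m, n = m + 1 := ⟨n - 1, by omega⟩
    exact Or.inr ⟨m, (card_cl_le _ hn).trans (Nat.mul_le_mul_left _ hB), rfl⟩

/-- The value at a quadratic point is a value of some discriminant. -/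
theorem exists_mem_values {a b c : ℤ} (ha : a ≠ 0) {τ : ℍ}
    (hτ : (a : ℂ) * (τ : ℂ) ^ 2 + b * (τ : ℂ) + c = 0) :
    ∃ D : ℤ, D < 0 ∧ (D % 4 = 0 ∨ D % 4 = 1) ∧ jfun τ ∈ values D := by
  obtain ⟨A, B, C, hA, hp, heq⟩ := FA.ThirteenOrders.exists_isRootOf (τ := τ)
    (x := (a : ℂ) * τ) (by simp [ha, τ.im_pos.ne']) (stable_of_form (t := (a, b, c)) hτ).1
  obtain ⟨hre, hns⟩ := root_re_normSq (t := (A, B, C)) heq
  rw [Complex.normSq_apply] at hns
  simp only [UpperHalfPlane.coe_re, UpperHalfPlane.coe_im] at hre hns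
  have hD : B ^ 2 - 4 * A * C < 0 := by
    have e : ((B : ℝ) ^ 2 - 4 * A * C) = -(2 * A * τ.im) ^ 2 := by
      linear_combination (4 * (A : ℝ)) * hns - (2 * (A : ℝ) * τ.re - B) * hre
    have hA' : (0 : ℝ) < A := Int.cast_pos.2 hA
    have := τ.im_pos
    have : ((B : ℝ) ^ 2 - 4 * A * C) < 0 := by rw [e, neg_lt_zero]; positivity
    exact_mod_cast this
  exact ⟨_, hD, disc_mod_four A B C, jfun_mem_values (t := (A, B, C)) hA hD hp heq⟩

/-- **Finitely many singular moduli of bounded degree.** -/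
theorem finite_values_natDegree_le (d : ℕ) :
    {z : ℂ | ∃ (a b c : ℤ) (τ : ℍ), a ≠ 0 ∧ (a : ℂ) * (τ : ℂ) ^ 2 + b * (τ : ℂ) + c = 0 ∧
      jfun τ = z ∧ (minpoly ℚ z).natDegree ≤ d}.Finite := by
  refine ((finite_red_le d).biUnion fun D _ => (values_finite_card D).1).subset ?_
  rintro z ⟨a, b, c, τ, ha, hτ, rfl, hd⟩
  obtain ⟨D, hD, h4, hv⟩ := exists_mem_values ha hτ
  exact Set.mem_biUnion (show D ∈ _ from ⟨hD, h4, (natDegree_minpoly hD hv).symm.le.trans hd⟩) hv

/-- A lattice with a nonreal multiplier has `j` at a quadratic point. -/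
theorem exists_quadratic {W : WeierstrassCurve ℂ} [W.IsElliptic] {L : PeriodPair}
    (h2 : L.g₂ = W.c₄ / 12) (h3 : L.g₃ = W.c₆ / 216) {w : ℂ} (hw : w.im ≠ 0)
    (hs : Stable L w) :
    ∃ (a b c : ℤ) (τ : ℍ), a ≠ 0 ∧ (a : ℂ) * (τ : ℂ) ^ 2 + b * (τ : ℂ) + c = 0 ∧
      jfun τ = W.j := by
  obtain ⟨τ, k, hk, hlat, hj⟩ := FA.CMFields.exists_latPair_curve W h2 h3
  obtain ⟨A, B, C, h⟩ := FA.ThirteenOrders.exists_isRootOf (τ := τ) hw
    ((stable_scale _ hk w).1 ((stable_congr hlat w).1 hs))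
  exact ⟨A, B, C, τ, h.pos.ne', h.eq, hj⟩

end FA.SiegelDiscriminant

end
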