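import Fermat.Agent.Tau.FieldClassBound
import Fermat.Agent.Tau.SiegelDiscriminant

/-!
# The class number of an imaginary quadratic field counts reduced forms

A non-zero ideal of `ℤ + ℤ w`, `w = (D + √D)/2`, is `g (a, w - m)` with `a` dividing the norm of
`w - m`; for the field discriminant the form `(a, 2 m - D, c)` is primitive and has the same class.
The equivalence `τ' ↦ τ` of a reduced form multiplies the lattice by a number of the field, so
every class comes from a reduced form. `Φ_2` bounds `h(D)` by `h(4 D)` for odd `D`.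
-/

set_option autoImplicit false
set_option linter.style.haveILetI false

noncomputable section

namespace FA.FieldClassBound

open NumberField Module
open UpperHalfPlane hiding I
open FA.ModField FA.JInj FA.Mazur.Wp
open FA.Singular hiding IsRoot
open scoped nonZeroDivisors MatrixGroups

variable {K : Type*} [Field K] [NumberField K] {d : ℤ} {s : K} (e : K →+* ℂ)

/-- The image of a multiple of the ideal of a form. -/
theorem mem_span_mul_iff (hK : finrank ℚ K = 2) (hd : Squarefree d) (hd0 : d < 0)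
    (hs : s ^ 2 = (d : K)) (he : e s = Complex.I * (Real.sqrt (-(d : ℝ)) : ℂ))
    {f : ℤ × ℤ × ℤ} {τ : ℍ} {α : 𝓞 K} (hf : 0 < f.1) (hdisc : disc f = discK d)
    (hp : Int.gcd (Int.gcd f.1 f.2.1) f.2.2 = 1) (hg : IsGen e f τ α) (t r : 𝓞 K) :
    r ∈ Ideal.span {t} * formIdeal f α ↔
      ∃ l ∈ (latPair τ).lattice, e (t : K) * (f.1 : ℂ) * l = e (r : K) := by
  obtain ⟨a, b, c⟩ := f
  obtain ⟨hroot, hα⟩ := hg
  have hst : ∀ x : 𝓞 K, ∀ l ∈ (latPair τ).lattice,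
      e (x : K) * l ∈ (latPair τ).lattice := fun x => by
    obtain ⟨m, n, hx⟩ := exists_omega_coord hK hd hd0 hs he x
    exact ((FA.CMFields.isMultiplierRing_of_root hf hdisc hp hroot) _).2 ⟨m, n, hx⟩
  constructor
  · intro hr
    obtain ⟨r', hr', rfl⟩ := Ideal.mem_span_singleton_mul.1 hr
    obtain ⟨p, q, rfl⟩ := Ideal.mem_span_pair.1 hr'
    refine ⟨e (p : K) * 1 + e (q : K) * τ, Submodule.add_mem _
      (hst p 1 (mem_latPair.2 ⟨0, 1, by simp⟩)) (hst q τ (mem_latPair.2 ⟨1, 0, by simp⟩)), ?_⟩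
    simp only [map_add, map_mul, map_intCast, hα]
    ring
  · rintro ⟨l, hl, h⟩
    obtain ⟨m, n, rfl⟩ := mem_latPair.1 hl
    refine Ideal.mem_span_singleton_mul.2 ⟨(n : 𝓞 K) * (a : 𝓞 K) + (m : 𝓞 K) * α,
      Ideal.mem_span_pair.2 ⟨_, _, rfl⟩, RingOfIntegers.coe_injective (e.injective ?_)⟩
    simp only [map_add, map_mul, map_intCast, hα, ← h]
    ring

/-- Forms with roots in one orbit have one class. -/
theorem formClass_eq_of_smul (hK : finrank ℚ K = 2) (hd : Squarefree d) (hd0 : d < 0)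
    (hs : s ^ 2 = (d : K)) (he : e s = Complex.I * (Real.sqrt (-(d : ℝ)) : ℂ))
    {f f' : ℤ × ℤ × ℤ} {τ τ' : ℍ} {α α' : 𝓞 K} (hf : 0 < f.1) (hf' : 0 < f'.1)
    (hdisc : disc f = discK d) (hdisc' : disc f' = discK d)
    (hp : Int.gcd (Int.gcd f.1 f.2.1) f.2.2 = 1) (hp' : Int.gcd (Int.gcd f'.1 f'.2.1) f'.2.2 = 1)
    (hg : IsGen e f τ α) (hg' : IsGen e f' τ' α') {g : SL(2, ℤ)} (hgτ : g • τ' = τ) :
    formClass f hf α = formClass f' hf' α' := by
  set δ : 𝓞 K := (g 1 0 : 𝓞 K) * α' + (g 1 1 : 𝓞 K) * (f'.1 : 𝓞 K)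
  have hδ : e (δ : K) = (f'.1 : ℂ) * den g τ' := by
    simp only [δ, map_add, map_mul, map_intCast, hg'.2, den]
    ring
  have hδ0 : δ ≠ 0 := fun h => by
    rw [h] at hδ
    simp [den_ne_zero, hf'.ne'] at hδ
  refine ClassGroup.mk0_eq_mk0_iff.2
    ⟨δ, (f.1 : 𝓞 K), hδ0, Int.cast_ne_zero.2 hf.ne', Ideal.ext fun r => ?_⟩
  show r ∈ Ideal.span {δ} * formIdeal f α ↔ r ∈ Ideal.span {(f.1 : 𝓞 K)} * formIdeal f' α'
  rw [mem_span_mul_iff e hK hd hd0 hs he hf hdisc hp hg,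
    mem_span_mul_iff e hK hd hd0 hs he hf' hdisc' hp' hg', hδ, ← hgτ]
  simp only [map_intCast]
  constructor
  · rintro ⟨l, hl, h⟩
    exact ⟨l * den g τ', (mem_latPair_smul (τ := τ') g l).1 hl, by rw [← h]; ring⟩
  · rintro ⟨l, hl, h⟩
    refine ⟨l / den g τ', (mem_latPair_smul (τ := τ') g _).2 ?_, ?_⟩
    · rwa [div_mul_cancel₀ _ (den_ne_zero g τ')]
    · rw [← h]; field_simp [den_ne_zero g τ']

/-- A common divisor of a form of field discriminant is a unit. -/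
theorem gcd_eq_one_of_disc {a b c : ℤ} (hd : Squarefree d)
    (h : b ^ 2 - 4 * a * c = discK d) : Int.gcd (Int.gcd a b) c = 1 := by
  by_contra hne
  obtain ⟨p, hp, hdvd⟩ := Nat.exists_prime_and_dvd hne
  have hpc : (p : ℤ) ∣ c := (Int.natCast_dvd_natCast.2 hdvd).trans (Int.gcd_dvd_right _ _)
  have hpg : (p : ℤ) ∣ (Int.gcd a b : ℤ) :=
    (Int.natCast_dvd_natCast.2 hdvd).trans (Int.gcd_dvd_left _ _)
  obtain ⟨a', rfl⟩ := hpg.trans (Int.gcd_dvd_left a b)
  obtain ⟨b', rfl⟩ := hpg.trans (Int.gcd_dvd_right _ b)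
  obtain ⟨c', rfl⟩ := hpc
  have hnu : ¬ IsUnit (p : ℤ) := by
    rw [Int.ofNat_isUnit, Nat.isUnit_iff]
    exact hp.ne_one
  have hsq : ¬ (p : ℤ) * p ∣ d := fun hdd => hnu (hd _ hdd)
  have hpd : (p : ℤ) * p ∣ discK d :=
    ⟨b' ^ 2 - 4 * a' * c', by rw [← h]; ring⟩
  by_cases hp2 : p = 2
  · subst hp2
    unfold discK at h hpd
    have hmod : (b' ^ 2 - 4 * a' * c') % 4 = 0 ∨ (b' ^ 2 - 4 * a' * c') % 4 = 1 :=
      FA.SiegelDiscriminant.disc_mod_four a' b' c'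
    have e2 : ((2 * b') ^ 2 - 4 * (2 * a') * (2 * c') : ℤ) = 4 * (b' ^ 2 - 4 * a' * c') := by ring
    push_cast at h hpd hsq
    rw [e2] at h
    generalize b' ^ 2 - 4 * a' * c' = T at h hmod
    split_ifs at h hpd with h1
    · exact hsq hpd
    · rcases hmod with h0 | h0
      · exact hsq ⟨d / 4, by omega⟩
      · omega
  · refine hsq ?_
    unfold discK at hpd
    split_ifs at hpd with h1
    · exact hpd
    · have hcop : IsCoprime ((p : ℤ) * p) 4 := by
        have : IsCoprime (p : ℤ) 2 := by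
          rw [Int.isCoprime_iff_gcd_eq_one]
          exact (Nat.coprime_primes hp Nat.prime_two).2 hp2
        have h4 : IsCoprime (p : ℤ) 4 := by
          simpa using this.pow_right (n := 2)
        exact h4.mul_left h4
      exact hcop.dvd_of_dvd_mul_left hpd

/-- **Every class comes from a primitive form.** -/
theorem exists_form_class (hK : finrank ℚ K = 2) (hd : Squarefree d) (hd0 : d < 0)
    (hs : s ^ 2 = (d : K)) (he : e s = Complex.I * (Real.sqrt (-(d : ℝ)) : ℂ))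
    (C : ClassGroup (𝓞 K)) :
    ∃ (f : ℤ × ℤ × ℤ) (hf : 0 < f.1) (τ : ℍ) (α : 𝓞 K), disc f = discK d ∧
      Int.gcd (Int.gcd f.1 f.2.1) f.2.2 = 1 ∧ IsGen e f τ α ∧ formClass f hf α = C := by
  obtain ⟨⟨I, hI⟩, rfl⟩ := ClassGroup.mk0_surjective C
  set D := discK d with hD
  have hD0 : D < 0 := discK_neg hd0
  obtain ⟨w, hw⟩ := exists_omega hs he
  obtain ⟨Q, hQ⟩ : (4 : ℤ) ∣ D * D - D := by
    rcases discK_mod_four d with h | h
    · obtain ⟨t, ht⟩ : (4 : ℤ) ∣ D := by omega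
      exact ⟨t * (D - 1), by rw [ht]; ring⟩
    · obtain ⟨t, ht⟩ : (4 : ℤ) ∣ D - 1 := by omega
      exact ⟨t * D, by linear_combination D * ht⟩
  have hw2 : w * w = (D : 𝓞 K) * w - (Q : 𝓞 K) := RingOfIntegers.coe_injective (e.injective (by
    simp only [map_mul, map_sub, map_intCast, hw, FA.CMFields.omega, ← hD]
    have hsq : ((Real.sqrt (-(D : ℝ)) : ℂ)) ^ 2 = -(D : ℂ) := by
      rw [← Complex.ofReal_pow, Real.sq_sqrt (by
        have : (D : ℝ) < 0 := Int.cast_lt_zero.2 hD0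
        linarith)]
      push_cast; ring
    have hQ' : (D : ℂ) * D - D = 4 * Q := by exact_mod_cast hQ
    linear_combination ((Complex.I ^ 2) / 4) * hsq + (-(D : ℂ) / 4) * Complex.I_sq -
      (1 / 4 : ℂ) * hQ'))
  have hcoord : ∀ r : 𝓞 K, ∃ x y : ℤ, r = (x : 𝓞 K) + (y : 𝓞 K) * w := fun r => by
    obtain ⟨x, y, h⟩ := exists_omega_coord hK hd hd0 hs he r
    exact ⟨x, y, RingOfIntegers.coe_injective (e.injective (by simp [h, hw]))⟩
  have huniq : ∀ x y : ℤ, (x : 𝓞 K) + (y : 𝓞 K) * w = 0 → x = 0 ∧ y = 0 := fun x y h => by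
    have h1 := congrArg (fun r : 𝓞 K => e (r : K)) h
    simp only [map_add, map_mul, map_intCast, map_zero, hw] at h1
    have h2 := congrArg Complex.im h1
    have hpos : 0 < Real.sqrt (-(D : ℝ)) := Real.sqrt_pos.2 (by
      have : (D : ℝ) < 0 := Int.cast_lt_zero.2 hD0
      linarith)
    simp [FA.CMFields.omega_im, ← hD, hpos.ne'] at h2
    subst h2
    simpa using h1
  -- the least `A` and `g`
  obtain ⟨A, hA⟩ := Submodule.IsPrincipal.principal (Ideal.comap (Int.castRingHom (𝓞 K)) I)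
  have hAmem : ∀ z : ℤ, (z : 𝓞 K) ∈ I ↔ A ∣ z := fun z => by
    rw [← Ideal.mem_span_singleton, show Ideal.span {A} = Ideal.comap (Int.castRingHom (𝓞 K)) I from
      hA.symm]
    simp
  let Y : Ideal ℤ :=
    { carrier := {y | ∃ x : ℤ, (x : 𝓞 K) + (y : 𝓞 K) * w ∈ I}
      add_mem' := fun {y y'} ⟨x, hx⟩ ⟨x', hx'⟩ => ⟨x + x', by
        convert I.add_mem hx hx' using 1; push_cast; ring⟩
      zero_mem' := ⟨0, by simp⟩
      smul_mem' := fun k y ⟨x, hx⟩ => ⟨k * x, by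
        convert I.mul_mem_left (k : 𝓞 K) hx using 1; push_cast [smul_eq_mul]; ring⟩ }
  obtain ⟨g, hg⟩ := Submodule.IsPrincipal.principal Y
  have hgmem : ∀ y : ℤ, (∃ x : ℤ, (x : 𝓞 K) + (y : 𝓞 K) * w ∈ I) ↔ g ∣ y := fun y => by
    rw [← Ideal.mem_span_singleton, show Ideal.span {g} = Y from hg.symm]
    rfl
  obtain ⟨x₀, hx₀⟩ := (hgmem g).2 dvd_rfl
  -- they are not zero
  have hI0 : I ≠ ⊥ := nonZeroDivisors.ne_zero hI
  obtain ⟨r, hr, hr0⟩ := Submodule.exists_mem_ne_zero_of_ne_bot hI0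
  obtain ⟨x, y, rfl⟩ := hcoord r
  have hNmem : ((x * x + D * x * y + Q * y * y : ℤ) : 𝓞 K) ∈ I := by
    convert I.mul_mem_left ((x + D * y : ℤ) - (y : 𝓞 K) * w) hr using 1
    push_cast
    linear_combination (y : 𝓞 K) ^ 2 * hw2
  have hN0 : x * x + D * x * y + Q * y * y ≠ 0 := fun h0 => by
    have h4 : (2 * x + D * y) ^ 2 - D * y ^ 2 = 0 := by linear_combination 4 * h0 + y ^ 2 * hQ
    have hy : y = 0 := by
      by_contra hy
      nlinarith [sq_nonneg (2 * x + D * y), mul_pos (neg_pos.2 hD0) (sq_pos_of_ne_zero hy)]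
    subst hy
    obtain rfl : x = 0 := by simpa using h4
    simp at hr0
  have hA0 : A ≠ 0 := fun h => hN0 (zero_dvd_iff.1 (h ▸ (hAmem _).1 hNmem))
  have hgA : g ∣ A := (hgmem A).1 ⟨0, by
    convert I.mul_mem_right w ((hAmem A).2 dvd_rfl) using 1; push_cast; ring⟩
  have hg0 : g ≠ 0 := fun h => hA0 (zero_dvd_iff.1 (h ▸ hgA))
  have hgx : g ∣ x₀ := by
    have : g ∣ x₀ + g * D := (hgmem _).1 ⟨-(g * Q), by
      convert I.mul_mem_right w hx₀ using 1
      push_cast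
      linear_combination -(g : 𝓞 K) * hw2⟩
    simpa using dvd_sub this (dvd_mul_right g D)
  obtain ⟨m, hm⟩ : ∃ m, x₀ = -(g * m) := ⟨-(x₀ / g), by
    rw [mul_neg, neg_neg, Int.mul_ediv_cancel' hgx]⟩
  obtain ⟨a, rfl⟩ := hgA
  subst hm
  -- `a` divides the norm of `w - m`
  obtain ⟨c, hc⟩ : a ∣ m * m - D * m + Q := by
    have : g * a ∣ g * (m * m - D * m + Q) := (hAmem _).1 (by
      convert I.mul_mem_left ((D - m : ℤ) - w) hx₀ using 1
      push_cast
      linear_combination (g : 𝓞 K) * hw2)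
    exact (mul_dvd_mul_iff_left hg0).1 this
  -- the sign of `a`
  obtain ⟨ε, hε, hεa⟩ : ∃ ε : ℤ, ε * ε = 1 ∧ 0 < ε * a := by
    have : a ≠ 0 := right_ne_zero_of_mul hA0
    rcases lt_or_gt_of_ne this with h | h
    · exact ⟨-1, by ring, by linarith⟩
    · exact ⟨1, by ring, by linarith⟩
  have hdisc : disc (ε * a, 2 * m - D, ε * c) = D := by
    simp only [disc]
    linear_combination 4 * hc + hQ - 4 * a * c * hε
  obtain ⟨τ, hτ⟩ := exists_isRoot (t := (ε * a, 2 * m - D, ε * c)) hεa (hdisc.trans_lt hD0)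
  have hgen : IsGen e (ε * a, 2 * m - D, ε * c) τ (w - (m : 𝓞 K)) := by
    refine ⟨hτ, ?_⟩
    obtain ⟨m', hm'⟩ := FA.CMFields.exists_smul_eq (a := ε * a) (b := 2 * m - D) (c := ε * c)
      (D := D) hεa hdisc hτ
    obtain ⟨hre, -⟩ := root_re_normSq hτ
    have h1 := congrArg Complex.re hm'
    have hmm : m' = m := by
      push_cast at hre
      simp [FA.CMFields.omega] at h1
      have : (m' : ℝ) = m := by linarith
      exact_mod_cast this
    rw [hm', hmm]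
    simp [hw, hD]
  refine ⟨_, hεa, τ, _, hdisc, gcd_eq_one_of_disc hd hdisc, hgen, ?_⟩
  refine ClassGroup.mk0_eq_mk0_iff.2
    ⟨(g : 𝓞 K), 1, Int.cast_ne_zero.2 hg0, one_ne_zero, ?_⟩
  rw [Ideal.span_singleton_one, Ideal.top_mul]
  show Ideal.span {(g : 𝓞 K)} * formIdeal (ε * a, 2 * m - D, ε * c) (w - (m : 𝓞 K)) = I
  refine le_antisymm ?_ fun r hr => ?_
  · rw [formIdeal, Ideal.span_mul_span', Ideal.span_le]
    rintro z ⟨u, rfl : u = (g : 𝓞 K), v, rfl | rfl, rfl⟩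
    · show (g : 𝓞 K) * ((ε * a : ℤ) : 𝓞 K) ∈ I
      rw [← Int.cast_mul]
      exact (hAmem _).2 ⟨ε, by ring⟩
    · show (g : 𝓞 K) * (w - (m : 𝓞 K)) ∈ I
      convert hx₀ using 1
      push_cast; ring
  · obtain ⟨x', y', rfl⟩ := hcoord r
    obtain ⟨k, rfl⟩ := (hgmem y').1 ⟨x', hr⟩
    obtain ⟨l, hl⟩ : g * a ∣ x' + k * (g * m) := (hAmem _).1 (by
      convert I.sub_mem hr (I.mul_mem_left (k : 𝓞 K) hx₀) using 1
      push_cast; ring)
    refine Ideal.mem_span_singleton_mul.2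
      ⟨((l * ε : ℤ) : 𝓞 K) * ((ε * a : ℤ) : 𝓞 K) + (k : 𝓞 K) * (w - (m : 𝓞 K)),
        Ideal.mem_span_pair.2 ⟨_, _, rfl⟩, ?_⟩
    have hl' := congrArg (Int.cast : ℤ → 𝓞 K) hl
    have hε' := congrArg (Int.cast : ℤ → 𝓞 K) hε
    push_cast at hl' hε' ⊢
    linear_combination -hl' + (l : 𝓞 K) * g * a * hε'

/-- **`h_K = h(D)`.** -/
theorem classNumber_eq_ncard_red (hK : finrank ℚ K = 2) (hd : Squarefree d) (hd0 : d < 0)
    (hs : s ^ 2 = (d : K)) : classNumber K = (Red (discK d)).ncard := by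
  refine le_antisymm ?_ (ncard_red_le_classNumber hK hd hd0 hs)
  obtain ⟨e, he⟩ := exists_emb hd0 hs
  choose τ α hg using fun f : Red (discK d) =>
    exists_gen e hd0 hs he (f := (f : ℤ × ℤ × ℤ)) f.2.2.2.1 f.2.1
  haveI : Finite (Red (discK d)) := (red_finite _).to_subtype
  rw [← Nat.card_coe_set_eq, classNumber, ← Nat.card_eq_fintype_card]
  refine Nat.card_le_card_of_surjective
    (fun f : Red (discK d) => formClass _ f.2.2.2.1 (α f)) fun C => ?_
  obtain ⟨f₀, hf₀, τ₀, α₀, hdisc, hp, hgen, rfl⟩ := exists_form_class e hK hd hd0 hs he C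
  have hv := jfun_mem_values (t := f₀) hf₀ (hdisc.trans_lt (discK_neg hd0)) hp hgen.1
  rw [hdisc] at hv
  obtain ⟨f, hf, σ, hσ, hj⟩ := hv
  obtain ⟨g, hgτ⟩ := (jfun_eq_iff σ τ₀).1 hj
  refine ⟨⟨f, hf⟩, ?_⟩
  have hσ' : τ ⟨f, hf⟩ = σ := root_unique hf.2.2.1.ne' (hg ⟨f, hf⟩).1 hσ
  exact (formClass_eq_of_smul e hK hd hd0 hs he hf₀ hf.2.2.1 hdisc hf.1 hp hf.2.1 hgen
    (hg ⟨f, hf⟩) (g := g) (by rw [hσ', hgτ])).symm

/-- `h(D) ≤ 3 h(4 D)` for odd `D`. -/
theorem ncard_red_le_four_mul (k : ℕ) (hk : 0 < k) :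
    (Red (1 - 4 * k : ℤ)).ncard ≤ 3 * (Red (-4 * (4 * k - 1 : ℤ))).ncard := by
  have hD : (1 - 4 * k : ℤ) < 0 := by omega
  have hd : disc (1, 1, (k : ℤ)) = 1 - 4 * k := by simp [disc]
  obtain ⟨τ, hτ⟩ := exists_isRoot (t := (1, 1, (k : ℤ))) one_pos (hd.trans_lt hD)
  have hv : jfun τ ∈ values (1 - 4 * k : ℤ) :=
    hd ▸ jfun_mem_values one_pos (hd.trans_lt hD) (by simp) hτ
  have hd2 : disc (1, 2, 4 * (k : ℤ)) = -4 * (4 * k - 1 : ℤ) := by simp [disc]; ring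
  have hτ2 : FA.Singular.IsRoot (1, 2, 4 * (k : ℤ)) (scaleH 2 τ) := by
    simp only [FA.Singular.IsRoot, coe_scaleH] at hτ ⊢
    push_cast at hτ ⊢
    linear_combination 4 * hτ
  have hv2 : jfun (scaleH 2 τ) ∈ values (-4 * (4 * k - 1 : ℤ)) :=
    hd2 ▸ jfun_mem_values one_pos (by rw [hd2]; omega) (by simp) hτ2
  set τ₁ := ModularGroup.S • scaleH 2 τ with hτ₁
  have hscale : scaleH 2 τ₁ = ModularGroup.S • τ := by
    apply UpperHalfPlane.ext
    rw [coe_scaleH, hτ₁, UpperHalfPlane.modular_S_smul, UpperHalfPlane.modular_S_smul,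
      UpperHalfPlane.coe_mk, UpperHalfPlane.coe_mk, coe_scaleH]
    have := τ.ne_zero
    push_cast
    field_simp
  rw [← natDegree_minpoly hD hv, ← natDegree_minpoly (by omega) hv2,
    ← jfun_smul ModularGroup.S τ, ← hscale, ← jfun_smul ModularGroup.S (scaleH 2 τ), ← hτ₁]
  refine FA.SiegelDiscriminant.natDegree_jfun_scale_le ?_
  rw [hτ₁, jfun_smul]
  exact (isIntegral_values (by omega) hv2).tower_top

/-- **The upper bound for every negative discriminant.** -/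
theorem ncard_red_upper_bound {D : ℤ} (hD : D < 0) (h4 : D % 4 = 0 ∨ D % 4 = 1) :
    ((Red D).ncard : ℝ) ≤ 6 * (√|(D : ℝ)| * (1 + Real.log (4 * |(D : ℝ)|))) := by
  have hbound : ∀ (n : ℕ) [NeZero n], 1 < n → (n : ℝ) ≤ |(D : ℝ)| →
      (Nat.card (FA.OrderTheta.Cl n) : ℝ) ≤ √|(D : ℝ)| * (1 + Real.log (4 * |(D : ℝ)|)) :=
    fun n _ hn hle => by
      have hn' : (1 : ℝ) ≤ n := by exact_mod_cast hn.le
      refine (FA.Siegel.classNumber_upper_bound n hn).trans ?_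
      have hl : Real.log (4 * n) ≤ Real.log (4 * |(D : ℝ)|) :=
        Real.log_le_log (by positivity) (by linarith)
      exact mul_le_mul (Real.sqrt_le_sqrt hle) (by linarith)
        (by linarith [Real.log_nonneg (show (1 : ℝ) ≤ 4 * n by linarith)]) (Real.sqrt_nonneg _)
  have hD1 : (1 : ℝ) ≤ |(D : ℝ)| := by exact_mod_cast Int.one_le_abs hD.ne
  have hR : (1 : ℝ) ≤ √|(D : ℝ)| * (1 + Real.log (4 * |(D : ℝ)|)) :=
    one_le_mul_of_one_le_of_one_le (Real.one_le_sqrt.2 hD1)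
      (by linarith [Real.log_nonneg (show (1 : ℝ) ≤ 4 * |(D : ℝ)| by linarith)])
  rcases FA.SiegelDiscriminant.disc_cases hD h4 with ⟨n, hn, rfl⟩ | ⟨n, hn, rfl⟩
  · haveI : NeZero n := ⟨hn.ne'⟩
    rcases eq_or_lt_of_le (show 1 ≤ n from hn) with h1 | h1
    · subst h1
      have hsub : Red (-4 * ((1 : ℕ) : ℤ)) ⊆ {(1, 0, 1)} := by
        rintro ⟨a, b, c⟩ ⟨hd, -, ha, hb, hc, hbd⟩
        simp only at hd ha hb hc hbd
        push_cast at hd
        have h1 : b ^ 2 ≤ a ^ 2 := sq_le_sq.2 (by rwa [abs_of_pos ha])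
        have h2 := mul_le_mul_of_nonneg_left hc ha.le
        obtain rfl : a = 1 := by nlinarith
        obtain ⟨hb1, hb2⟩ := abs_le.1 hb
        rcases (show b = -1 ∨ b = 0 ∨ b = 1 by omega) with rfl | rfl | rfl <;>
          simp only [Set.mem_singleton_iff, Prod.mk.injEq] <;> norm_num at * <;> omega
      have := (Set.ncard_le_ncard hsub).trans (Set.ncard_singleton _).le
      have h' : ((Red (-4 * ((1 : ℕ) : ℤ))).ncard : ℝ) ≤ 1 := by exact_mod_cast this
      linarith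
    · rw [FA.RingClassJ.ncard_red_eq]
      have := hbound n h1 (by
        push_cast
        rw [abs_mul, abs_neg, Nat.abs_cast]
        norm_num
        linarith [(Nat.cast_nonneg n : (0 : ℝ) ≤ n)])
      linarith
  · haveI : NeZero n := ⟨by omega⟩
    have h := ncard_red_le_four_mul ((n + 1) / 4) (by omega)
    rw [show (4 * ((n + 1) / 4 : ℕ) - 1 : ℤ) = n by omega,
      show (1 - 4 * ((n + 1) / 4 : ℕ) : ℤ) = -(n : ℤ) by omega, FA.RingClassJ.ncard_red_eq] at h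
    have h' : ((Red (-(n : ℤ))).ncard : ℝ) ≤ 3 * (Nat.card (FA.OrderTheta.Cl n) : ℝ) := by
      exact_mod_cast h
    have := hbound n (by omega) (by push_cast; rw [abs_neg, Nat.abs_cast])
    linarith

end FA.FieldClassBound

end
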