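import Fermat.Agent.Tau.Uniformisation
import Mathlib.Topology.Instances.AddCircle.Real

/-!
# Homothetic lattices

Two lattices are homothetic exactly when their curves have the same `j`; as a group a torus is
`(ℝ/ℤ)²`.
-/

set_option autoImplicit false

noncomputable section

namespace FA.Homothety

open FA.Mazur.Wp FA.JInj FA.Uniformisation

/-- `M = c L` for a non-zero `c`. -/
def Homothetic (L M : PeriodPair) : Prop :=
  ∃ c : ℂ, c ≠ 0 ∧ (M.lattice : Set ℂ) = (fun z => c * z) '' L.lattice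

theorem homothetic_iff_scale (L M : PeriodPair) :
    Homothetic L M ↔ ∃ (c : ℂ) (hc : c ≠ 0), M.lattice = (scalePair L c hc).lattice := by
  have e : ∀ (c : ℂ) (hc : c ≠ 0), ((scalePair L c hc).lattice : Set ℂ) =
      (fun z => c * z) '' L.lattice := fun c hc => by
    ext x
    simp [mem_scalePair]
  exact ⟨fun ⟨c, hc, h⟩ => ⟨c, hc, SetLike.coe_injective (by rw [e c hc]; exact h)⟩,
    fun ⟨c, hc, h⟩ => ⟨c, hc, by rw [h, e c hc]⟩⟩

theorem j_latCurve (L : PeriodPair) :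
    (latCurve L).j = 1728 * (L.g₂ ^ 3 / (L.g₂ ^ 3 - 27 * L.g₃ ^ 2)) := by
  simp only [WeierstrassCurve.j, Units.val_inv_eq_inv_val, WeierstrassCurve.coe_Δ', latCurve_c₄,
    latCurve_Δ]
  ring

theorem homothetic_iff_j (L M : PeriodPair) :
    Homothetic L M ↔ (latCurve L).j = (latCurve M).j := by
  have hL := FA.Summary.lattice_discriminant_ne_zero L
  have hM := FA.Summary.lattice_discriminant_ne_zero M
  rw [homothetic_iff_scale, j_latCurve, j_latCurve, mul_right_inj' (by norm_num : (1728 : ℂ) ≠ 0),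
    div_eq_div_iff hL hM]
  constructor
  · rintro ⟨c, hc, h⟩
    obtain ⟨e2, e3⟩ := (lattice_eq_iff _ _).mp h
    rw [e2, e3, g₂_scalePair, g₃_scalePair]
    field_simp
  · intro h
    obtain ⟨s, hs, e2, e3⟩ := exists_scale (k := 27) (sub_ne_zero.mp hL) (sub_ne_zero.mp hM)
      (show L.g₂ ^ 3 * M.g₃ ^ 2 = M.g₂ ^ 3 * L.g₃ ^ 2 by linear_combination (-(1 / 27 : ℂ)) * h)
    refine ⟨s⁻¹, inv_ne_zero hs, (lattice_eq_iff _ _).mpr ⟨?_, ?_⟩⟩
    · rw [g₂_scalePair, inv_pow, inv_inv, e2]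
    · rw [g₃_scalePair, inv_pow, inv_inv, e3]

theorem homothetic_iff_iso (L M : PeriodPair) :
    Homothetic L M ↔ ∃ C : WeierstrassCurve.VariableChange ℂ, C • latCurve L = latCurve M := by
  rw [homothetic_iff_j]
  refine ⟨WeierstrassCurve.exists_variableChange_of_j_eq _ _, fun ⟨C, hC⟩ => ?_⟩
  simp only [← hC, WeierstrassCurve.variableChange_j]

theorem repr_add (L : PeriodPair) (a b : ℝ) :
    L.basis.repr ((a : ℂ) * L.ω₁ + (b : ℂ) * L.ω₂) 0 = a ∧
      L.basis.repr ((a : ℂ) * L.ω₁ + (b : ℂ) * L.ω₂) 1 = b := by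
  rw [← L.basis_zero, ← L.basis_one, ← Complex.real_smul, ← Complex.real_smul, map_add, map_smul,
    map_smul, Module.Basis.repr_self, Module.Basis.repr_self]
  simp

/-- The coordinates along the periods. -/
def coordHom (L : PeriodPair) : ℂ →+ UnitAddCircle × UnitAddCircle where
  toFun z := ((L.basis.repr z 0 : ℝ), (L.basis.repr z 1 : ℝ))
  map_zero' := by simp
  map_add' z w := by simp

theorem coordHom_surjective (L : PeriodPair) : Function.Surjective (coordHom L) := by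
  rintro ⟨x, y⟩
  obtain ⟨a, rfl⟩ := QuotientAddGroup.mk_surjective x
  obtain ⟨b, rfl⟩ := QuotientAddGroup.mk_surjective y
  refine ⟨(a : ℂ) * L.ω₁ + (b : ℂ) * L.ω₂, ?_⟩
  simp only [coordHom, AddMonoidHom.coe_mk, ZeroHom.coe_mk, (repr_add L a b).1, (repr_add L a b).2]

theorem coordHom_eq_zero (L : PeriodPair) (z : ℂ) : coordHom L z = 0 ↔ z ∈ L.lattice := by
  simp only [coordHom, AddMonoidHom.coe_mk, ZeroHom.coe_mk, Prod.mk_eq_zero,
    AddCircle.coe_eq_zero_iff, zsmul_one]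
  constructor
  · rintro ⟨⟨m, hm⟩, n, hn⟩
    refine PeriodPair.mem_lattice.mpr ⟨m, n, ?_⟩
    rw [← L.basis.sum_repr z, Fin.sum_univ_two, ← hm, ← hn]
    simp
  · intro h
    obtain ⟨m, n, rfl⟩ := PeriodPair.mem_lattice.mp h
    rw [← Complex.ofReal_intCast m, ← Complex.ofReal_intCast n]
    exact ⟨⟨m, (repr_add L _ _).1.symm⟩, n, (repr_add L _ _).2.symm⟩

/-- `ℂ/L ≅ (ℝ/ℤ)²`. -/
def torusEquiv (L : PeriodPair) :
    ℂ ⧸ L.lattice.toAddSubgroup ≃+ UnitAddCircle × UnitAddCircle :=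
  (QuotientAddGroup.quotientAddEquivOfEq
    (AddSubgroup.ext fun z => (coordHom_eq_zero L z).symm)).trans
    (QuotientAddGroup.quotientKerEquivOfSurjective (coordHom L) (coordHom_surjective L))

end FA.Homothety

end
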