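import Fermat.Agent.Tau.LevelOneRing
import Fermat.Agent.Mazur.Wp.Curve
import Mathlib.Analysis.Normed.Module.Connected
import Mathlib.Analysis.Analytic.Uniqueness

/-!
# The `j`-invariant separates the orbits of `SL₂(ℤ)`

A lattice is determined by its Eisenstein sums, as `℘` has poles exactly at the lattice, and these
sums are polynomials in `G₄` and `G₆`.
-/

set_option autoImplicit false

noncomputable section

open UpperHalfPlane hiding I
open Filter ModularForm EisensteinSeries FA.ModField FA.Mazur.Wp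
open Complex (I)
open scoped Topology MatrixGroups Real

namespace FA.JInj

/-! ### Lattices and their sums -/

/-- The lattice `c L`. -/
def scalePair (L : PeriodPair) (c : ℂ) (hc : c ≠ 0) : PeriodPair where
  ω₁ := c * L.ω₁
  ω₂ := c * L.ω₂
  indep := by
    rw [LinearIndependent.pair_iff]
    intro s t h
    refine LinearIndependent.pair_iff.mp L.indep s t (mul_left_cancel₀ hc ?_)
    simp only [Complex.real_smul] at h ⊢
    rw [mul_zero]
    linear_combination h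

theorem mem_scalePair {L : PeriodPair} {c : ℂ} {hc : c ≠ 0} {x : ℂ} :
    x ∈ (scalePair L c hc).lattice ↔ ∃ y ∈ L.lattice, c * y = x := by
  simp only [PeriodPair.mem_lattice, scalePair]
  constructor
  · rintro ⟨m, n, rfl⟩
    exact ⟨_, ⟨m, n, rfl⟩, by ring⟩
  · rintro ⟨_, ⟨m, n, rfl⟩, rfl⟩
    exact ⟨m, n, by ring⟩

theorem G_scalePair (L : PeriodPair) (c : ℂ) (hc : c ≠ 0) (n : ℕ) :
    (scalePair L c hc).G n = (c ^ n)⁻¹ * L.G n := by
  let e : L.lattice ≃ (scalePair L c hc).lattice :=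
    (Equiv.mulLeft₀ c hc).subtypeEquiv fun x => by
      rw [mem_scalePair]
      exact ⟨fun h => ⟨x, h, rfl⟩, fun ⟨y, hy, h⟩ => mul_left_cancel₀ hc h ▸ hy⟩
  simp only [PeriodPair.G]
  rw [← tsum_mul_left, ← e.tsum_eq]
  refine tsum_congr fun l => ?_
  show ((c * (l : ℂ)) ^ n)⁻¹ = _
  rw [mul_pow, mul_inv]

theorem G_congr {L M : PeriodPair} (h : L.lattice = M.lattice) (n : ℕ) : L.G n = M.G n := by
  simp only [PeriodPair.G]
  rw [h]

theorem weierstrassP_eq_except (L : PeriodPair) (z : ℂ) :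
    (L.weierstrassP) z = (L.weierstrassPExcept 0) z + 1 / z ^ 2 := by
  have h := L.weierstrassPExcept_add 0 z
  simp only [ZeroMemClass.coe_zero, sub_zero] at h
  rw [← h]
  simp

theorem except_eventuallyEq {L M : PeriodPair} (hG : ∀ n, 3 ≤ n → L.G n = M.G n) :
    (L.weierstrassPExcept 0) =ᶠ[𝓝 0] (M.weierstrassPExcept 0) := by
  have h1 := L.hasFPowerSeriesAt_weierstrassPExcept 0
  have h2 := M.hasFPowerSeriesAt_weierstrassPExcept 0
  have e : (fun i : ℕ =>
      if i = 0 then L.weierstrassPExcept 0 0 else ((i : ℂ) + 1) * L.sumInvPow 0 (i + 2)) =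
      fun i : ℕ =>
      if i = 0 then M.weierstrassPExcept 0 0 else ((i : ℂ) + 1) * M.sumInvPow 0 (i + 2) := by
    funext i
    rcases i with _ | i
    · simp
    · simp [hG (i + 1 + 2) (by omega)]
  rw [e] at h1
  exact (h1.eventually_hasSum_sub.and h2.eventually_hasSum_sub).mono fun z hz => hz.1.unique hz.2

theorem lattice_le_of_G {L M : PeriodPair} (hG : ∀ n, 3 ≤ n → L.G n = M.G n) :
    L.lattice ≤ M.lattice := by
  intro w hw
  by_contra hw'
  set S : Set ℂ := ((L.lattice : Set ℂ) ∪ M.lattice) \ {0}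
  have hcount : ∀ N : PeriodPair, (N.lattice : Set ℂ).Countable := fun N =>
    Set.countable_coe_iff.mp (N.latticeEquivProd.toEquiv.injective.countable)
  have hS : IsConnected Sᶜ := (((hcount L).union (hcount M)).mono Set.sdiff_subset
    ).isConnected_compl_of_one_lt_rank (by rw [Complex.rank_real_complex]; norm_num)
  have hL : AnalyticOnNhd ℂ (L.weierstrassPExcept 0) Sᶜ :=
    (L.analyticOnNhd_weierstrassPExcept 0).mono
    fun z hz h => hz ⟨Or.inl h.1, h.2⟩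
  have hM : AnalyticOnNhd ℂ (M.weierstrassPExcept 0) Sᶜ :=
    (M.analyticOnNhd_weierstrassPExcept 0).mono
    fun z hz h => hz ⟨Or.inr h.1, h.2⟩
  have heq : Set.EqOn (L.weierstrassPExcept 0) (M.weierstrassPExcept 0) Sᶜ :=
    hL.eqOn_of_preconnected_of_eventuallyEq hM hS.isPreconnected (z₀ := 0)
      (fun h => h.2 rfl) (except_eventuallyEq hG)
  have hev : (L.weierstrassP) =ᶠ[𝓝[≠] w] (M.weierstrassP) := by
    filter_upwards [self_mem_nhdsWithin,
      mem_nhdsWithin_of_mem_nhds (L.compl_lattice_sdiff_singleton_mem_nhds w),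
      mem_nhdsWithin_of_mem_nhds (M.isClosed_lattice.isOpen_compl.mem_nhds hw')]
      with z hz hzL hzM
    rw [weierstrassP_eq_except, weierstrassP_eq_except, heq ?_]
    rintro ⟨h | h, -⟩
    · exact hzL ⟨h, hz⟩
    · exact hzM h
  have h1 := meromorphicOrderAt_congr hev
  rw [L.order_weierstrassP w hw] at h1
  have h2 := (M.analyticOnNhd_weierstrassP w hw').meromorphicOrderAt_nonneg
  rw [← h1] at h2
  exact absurd h2 (by decide)

theorem lattice_eq_of_G {L M : PeriodPair} (hG : ∀ n, 3 ≤ n → L.G n = M.G n) :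
    L.lattice = M.lattice :=
  le_antisymm (lattice_le_of_G hG) (lattice_le_of_G fun n hn => (hG n hn).symm)

/-! ### Rescaling -/

theorem form_scale {n : ℕ} (f : ModularForm 𝒮ℒ (n : ℤ)) {z w : ℍ} {s : ℂ}
    (h4 : E₄ w = s ^ 4 * E₄ z) (h6 : E₆ w = s ^ 6 * E₆ z) : f w = s ^ n * f z := by
  suffices H : ∀ h ∈ Submodule.span ℂ (Set.range (FA.LevelOneRing.monomials (n : ℤ))),
      h w = s ^ n * h z from H _ (FA.LevelOneRing.mem_span (n + 1) _ (by push_cast; omega) f)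
  intro h hh
  induction hh using Submodule.span_induction with
  | mem x hx =>
    obtain ⟨⟨⟨a, b⟩, hab⟩, rfl⟩ := hx
    have hn : n = 4 * a + 6 * b := by exact_mod_cast hab.symm
    simp only [FA.LevelOneRing.monomials, Pi.mul_apply, Pi.pow_apply, h4, h6, mul_pow, ← pow_mul,
      hn, pow_add]
    ring
  | zero => simp
  | add x y _ _ hx hy => simp [hx, hy, mul_add]
  | smul r x _ hx => simp [hx]; ring

theorem G_latPair_scale {z w : ℍ} {s : ℂ} (h4 : E₄ w = s ^ 4 * E₄ z) (h6 : E₆ w = s ^ 6 * E₆ z)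
    {n : ℕ} (hn : 3 ≤ n) : (latPair w).G n = s ^ n * (latPair z).G n := by
  rw [G_latPair w hn, G_latPair z hn, form_scale (ModularForm.E hn) h4 h6]
  ring

theorem exists_scale {A B a b k : ℂ} (h : A ^ 3 ≠ k * B ^ 2) (h' : a ^ 3 ≠ k * b ^ 2)
    (hc : A ^ 3 * b ^ 2 = a ^ 3 * B ^ 2) :
    ∃ s : ℂ, s ≠ 0 ∧ a = s ^ 4 * A ∧ b = s ^ 6 * B := by
  by_cases hA : A = 0
  · subst hA
    have hB : B ≠ 0 := fun hB => h (by simp [hB])
    have ha : a = 0 := by simpa [hB] using hc.symm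
    subst ha
    have hb : b ≠ 0 := fun hb => h' (by simp [hb])
    obtain ⟨s, hs⟩ := IsAlgClosed.exists_pow_nat_eq (b / B) (n := 6) (by norm_num)
    exact ⟨s, fun h0 => div_ne_zero hb hB (by rw [← hs, h0]; norm_num), by simp,
      by rw [hs, div_mul_cancel₀ _ hB]⟩
  have ha : a ≠ 0 := fun ha => by
    have hb : b = 0 := by simpa [hA, ha] using hc
    exact h' (by simp [ha, hb])
  by_cases hB : B = 0
  · subst hB
    have hb : b = 0 := by simpa [hA] using hc
    subst hb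
    obtain ⟨s, hs⟩ := IsAlgClosed.exists_pow_nat_eq (a / A) (n := 4) (by norm_num)
    exact ⟨s, fun h0 => div_ne_zero ha hA (by rw [← hs, h0]; norm_num),
      by rw [hs, div_mul_cancel₀ _ hA], by simp⟩
  have hb : b ≠ 0 := fun hb => by simp [hb, ha, hB] at hc
  obtain ⟨s, hs⟩ := IsAlgClosed.exists_pow_nat_eq (b / B / (a / A)) (n := 2) (by norm_num)
  refine ⟨s, fun h0 => div_ne_zero (div_ne_zero hb hB) (div_ne_zero ha hA)
    (by rw [← hs, h0]; norm_num), ?_, ?_⟩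
  · rw [show s ^ 4 = (s ^ 2) ^ 2 by ring, hs]
    field_simp
    linear_combination (-1 : ℂ) * hc
  · rw [show s ^ 6 = (s ^ 2) ^ 3 by ring, hs]
    field_simp
    linear_combination (-1 : ℂ) * hc

/-! ### The orbit -/

theorem eq_zero_of_add {z : ℍ} {u v : ℤ} (h : (u : ℂ) * z + v = 0) : u = 0 ∧ v = 0 := by
  have h1 := congrArg Complex.im h
  simp [z.im_pos.ne'] at h1
  subst h1
  simpa using h

theorem exists_smul_eq_of_lattice_eq {z w : ℍ} {c : ℂ} (hc : c ≠ 0)
    (h : (latPair w).lattice = (scalePair (latPair z) c hc).lattice) :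
    ∃ g : SL(2, ℤ), g • z = w := by
  obtain ⟨y₁, hy₁, e₁⟩ := mem_scalePair.mp (h ▸ (mem_latPair.mpr ⟨1, 0, by simp⟩ :
    (w : ℂ) ∈ (latPair w).lattice))
  obtain ⟨y₂, hy₂, e₂⟩ := mem_scalePair.mp (h ▸ (mem_latPair.mpr ⟨0, 1, by simp⟩ :
    (1 : ℂ) ∈ (latPair w).lattice))
  obtain ⟨a, b, rfl⟩ := mem_latPair.mp hy₁
  obtain ⟨a', b', rfl⟩ := mem_latPair.mp hy₂
  obtain ⟨m, n, e₃⟩ := mem_latPair.mp (h ▸ (mem_scalePair.mpr
    ⟨_, mem_latPair.mpr ⟨1, 0, rfl⟩, rfl⟩) : c * ((1 : ℤ) * (z : ℂ) + (0 : ℤ)) ∈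
      (latPair w).lattice)
  obtain ⟨p, q, e₄⟩ := mem_latPair.mp (h ▸ (mem_scalePair.mpr
    ⟨_, mem_latPair.mpr ⟨0, 1, rfl⟩, rfl⟩) : c * ((0 : ℤ) * (z : ℂ) + (1 : ℤ)) ∈
      (latPair w).lattice)
  push_cast at e₃ e₄
  obtain ⟨h11, h12⟩ := eq_zero_of_add (z := z) (u := m * a + n * a' - 1) (v := m * b + n * b') (by
    refine mul_left_cancel₀ hc ?_
    push_cast
    linear_combination (m : ℂ) * e₁ + (n : ℂ) * e₂ + e₃)
  obtain ⟨h21, h22⟩ := eq_zero_of_add (z := z) (u := p * a + q * a') (v := p * b + q * b' - 1) (by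
    refine mul_left_cancel₀ hc ?_
    push_cast
    linear_combination (p : ℂ) * e₁ + (q : ℂ) * e₂ + e₄)
  have hdet : (m * q - n * p) * (a * b' - b * a') = 1 := by
    have e11 : m * a + n * a' = 1 := by linarith
    have e22 : p * b + q * b' = 1 := by linarith
    linear_combination (p * b + q * b') * e11 + e22 - (p * a + q * a') * h12
  have hwz : (w : ℂ) * ((a' : ℂ) * z + b') = (a : ℂ) * z + b := by
    refine mul_left_cancel₀ hc ?_
    linear_combination (w : ℂ) * e₂ - e₁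
  have him : w.im * Complex.normSq ((a' : ℂ) * z + b') = ((a * b' - b * a' : ℤ) : ℝ) * z.im := by
    have h1 : (w : ℂ) * (Complex.normSq ((a' : ℂ) * z + b') : ℂ) =
        ((a : ℂ) * z + b) * (starRingEnd ℂ) ((a' : ℂ) * z + b') := by
      rw [← Complex.mul_conj, ← mul_assoc, hwz]
    have h2 := congrArg Complex.im h1
    simp [Complex.mul_im, Complex.mul_re, map_add, map_mul] at h2
    push_cast
    linear_combination h2
  have hpos : 0 < a * b' - b * a' := by
    have hne : (a' : ℂ) * z + b' ≠ 0 := fun h0 => by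
      rw [h0, mul_zero] at e₂
      exact zero_ne_one e₂
    have h3 : 0 < w.im * Complex.normSq ((a' : ℂ) * z + b') :=
      mul_pos w.im_pos (Complex.normSq_pos.mpr hne)
    rw [him] at h3
    exact_mod_cast pos_of_mul_pos_left h3 z.im_pos.le
  have hone : a * b' - b * a' = 1 := by
    rcases Int.eq_one_or_neg_one_of_mul_eq_one' hdet with ⟨-, h1⟩ | ⟨-, h1⟩ <;> omega
  let g : SL(2, ℤ) := ⟨!![a, b; a', b'], by rw [Matrix.det_fin_two_of]; exact hone⟩
  refine ⟨g, UpperHalfPlane.ext (mul_right_cancel₀ (den_ne_zero g z) ?_)⟩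
  rw [smul_mul_den]
  simpa [den, g] using hwz.symm

theorem exists_smul_eq_of_scale {z w : ℍ} {s : ℂ} (hs : s ≠ 0) (h4 : E₄ w = s ^ 4 * E₄ z)
    (h6 : E₆ w = s ^ 6 * E₆ z) : ∃ g : SL(2, ℤ), g • z = w :=
  exists_smul_eq_of_lattice_eq (inv_ne_zero hs) <| lattice_eq_of_G fun n hn => by
    rw [G_latPair_scale h4 h6 hn, G_scalePair, inv_pow, inv_inv]

theorem E4_cube_ne (z : ℍ) : E₄ z ^ 3 ≠ 1 * E₆ z ^ 2 := fun h =>
  ModularForm.discriminant_ne_zero z (by rw [discriminant_eq_E₄_cube_sub_E₆_sq, h]; ring)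

/-- **`j` separates the orbits.** -/
theorem jfun_eq_iff (z w : ℍ) : jfun z = jfun w ↔ ∃ g : SL(2, ℤ), g • z = w := by
  refine ⟨fun h => ?_, fun ⟨g, hg⟩ => by rw [← hg, jfun_smul]⟩
  rw [jfun, jfun, div_eq_div_iff (ModularForm.discriminant_ne_zero z)
    (ModularForm.discriminant_ne_zero w), discriminant_eq_E₄_cube_sub_E₆_sq,
    discriminant_eq_E₄_cube_sub_E₆_sq] at h
  obtain ⟨s, hs, h4, h6⟩ := exists_scale (E4_cube_ne z) (E4_cube_ne w)
    (by linear_combination (-1728 : ℂ) * h)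
  exact exists_smul_eq_of_scale hs h4 h6

theorem E4_eq_zero_iff (z : ℍ) : E₄ z = 0 ↔ ∃ g : SL(2, ℤ), g • rho = z := by
  rw [← jfun_eq_iff, jfun, jfun, E4_rho, zero_pow three_ne_zero, zero_div, eq_comm (a := (0 : ℂ)),
    div_eq_zero_iff, or_iff_left (ModularForm.discriminant_ne_zero z),
    pow_eq_zero_iff three_ne_zero]

theorem E6_eq_zero_iff (z : ℍ) :
    E₆ z = 0 ↔ ∃ g : SL(2, ℤ), g • UpperHalfPlane.I = z := by
  rw [← jfun_eq_iff, ← sub_left_inj (a := (1728 : ℂ)) (b := jfun UpperHalfPlane.I), jfun_sub_1728,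
    jfun_sub_1728, E6_I, zero_pow two_ne_zero, zero_div, eq_comm (a := (0 : ℂ)),
    div_eq_zero_iff, or_iff_left (ModularForm.discriminant_ne_zero z),
    pow_eq_zero_iff two_ne_zero]

/-- **`j` is a bijection of the orbits with `ℂ`.** -/
def orbitEquiv : MulAction.orbitRel.Quotient SL(2, ℤ) ℍ ≃ ℂ :=
  Equiv.ofBijective
    (Quotient.lift jfun fun z w h => by
      obtain ⟨g, hg⟩ := MulAction.orbitRel_apply.mp h
      rw [← hg]
      exact jfun_smul g w)
    ⟨fun x y => Quotient.inductionOn₂ x y fun z w h => Quotient.sound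
        (MulAction.orbitRel_apply.mpr ((jfun_eq_iff w z).mp h.symm)),
      fun a => (exists_jfun_eq a).elim fun z hz => ⟨⟦z⟧, hz⟩⟩

/-! ### Uniformisation -/

theorem exists_latPair (L : PeriodPair) :
    ∃ (τ : ℍ) (c : ℂ) (hc : c ≠ 0), L.lattice = (scalePair (latPair τ) c hc).lattice := by
  have h1 : L.ω₁ ≠ 0 := L.indep.ne_zero 0
  have h2 : L.ω₂ ≠ 0 := L.indep.ne_zero 1
  have him : (L.ω₁ / L.ω₂).im ≠ 0 := fun h => by
    have hx : L.ω₁ / L.ω₂ = ((L.ω₁ / L.ω₂).re : ℂ) := Complex.ext (by simp) (by simp [h])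
    have := LinearIndependent.pair_iff.mp L.indep 1 (-(L.ω₁ / L.ω₂).re) (by
      simp only [Complex.real_smul, Complex.ofReal_one, Complex.ofReal_neg, ← hx]
      field_simp
      ring)
    exact one_ne_zero this.1
  rcases him.lt_or_gt with h | h
  · refine ⟨⟨L.ω₂ / L.ω₁, ?_⟩, L.ω₁, h1, ?_⟩
    · have : L.ω₂ / L.ω₁ = (L.ω₁ / L.ω₂)⁻¹ := by rw [inv_div]
      rw [this, Complex.inv_im]
      exact div_pos (by linarith) (Complex.normSq_pos.mpr (div_ne_zero h1 h2))
    · simp only [PeriodPair.lattice, scalePair, latPair, mul_one, mul_div_cancel₀ _ h1]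
      rw [Set.pair_comm]
  · refine ⟨⟨L.ω₁ / L.ω₂, h⟩, L.ω₂, h2, ?_⟩
    simp only [PeriodPair.lattice, scalePair, latPair, mul_one, mul_div_cancel₀ _ h2]

theorem g₂_scalePair (L : PeriodPair) (c : ℂ) (hc : c ≠ 0) :
    (scalePair L c hc).g₂ = (c ^ 4)⁻¹ * L.g₂ := by
  rw [PeriodPair.g₂, PeriodPair.g₂, G_scalePair]; ring

theorem g₃_scalePair (L : PeriodPair) (c : ℂ) (hc : c ≠ 0) :
    (scalePair L c hc).g₃ = (c ^ 6)⁻¹ * L.g₃ := by
  rw [PeriodPair.g₃, PeriodPair.g₃, G_scalePair]; ring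

/-- **A lattice is determined by `g₂` and `g₃`.** -/
theorem lattice_eq_iff (L M : PeriodPair) :
    L.lattice = M.lattice ↔ L.g₂ = M.g₂ ∧ L.g₃ = M.g₃ := by
  refine ⟨fun h => ⟨by rw [PeriodPair.g₂, PeriodPair.g₂, G_congr h],
    by rw [PeriodPair.g₃, PeriodPair.g₃, G_congr h]⟩, fun ⟨e2, e3⟩ => ?_⟩
  obtain ⟨τ, c, hc, hL⟩ := exists_latPair L
  obtain ⟨σ, d, hd, hM⟩ := exists_latPair M
  rw [PeriodPair.g₂, PeriodPair.g₂, G_congr hL, G_congr hM, ← PeriodPair.g₂, ← PeriodPair.g₂,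
    g₂_scalePair, g₂_scalePair, g₂_latPair, g₂_latPair] at e2
  rw [PeriodPair.g₃, PeriodPair.g₃, G_congr hL, G_congr hM, ← PeriodPair.g₃, ← PeriodPair.g₃,
    g₃_scalePair, g₃_scalePair, g₃_latPair, g₃_latPair] at e3
  have ht := tpi_ne_zero
  have h4 : E₄ σ = (d / c) ^ 4 * E₄ τ := by
    field_simp at e2 ⊢
    linear_combination (-1 : ℂ) * e2
  have h6 : E₆ σ = (d / c) ^ 6 * E₆ τ := by
    field_simp at e3 ⊢
    linear_combination e3
  refine lattice_eq_of_G fun n hn => ?_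
  rw [G_congr hL, G_congr hM, G_scalePair, G_scalePair, G_latPair_scale h4 h6 hn, div_pow]
  field_simp

/-- **The uniformisation theorem.** -/
theorem exists_g₂_g₃ {a b : ℂ} (h : a ^ 3 - 27 * b ^ 2 ≠ 0) :
    ∃ L : PeriodPair, L.g₂ = a ∧ L.g₃ = b := by
  obtain ⟨τ, hτ⟩ := exists_jfun_eq (1728 * a ^ 3 / (a ^ 3 - 27 * b ^ 2))
  have hA := discr_latPair_ne_zero τ
  have hc : (latPair τ).g₂ ^ 3 * b ^ 2 = a ^ 3 * (latPair τ).g₃ ^ 2 := by
    rw [jfun, div_eq_div_iff (ModularForm.discriminant_ne_zero τ) h,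
      discriminant_eq_E₄_cube_sub_E₆_sq] at hτ
    rw [g₂_latPair, g₃_latPair]
    linear_combination (-(tpi ^ 12 / (1728 * 27))) * hτ
  obtain ⟨s, hs, e2, e3⟩ := exists_scale (k := 27) (sub_ne_zero.mp hA) (sub_ne_zero.mp h) hc
  refine ⟨scalePair (latPair τ) s⁻¹ (inv_ne_zero hs), ?_, ?_⟩
  · rw [g₂_scalePair, inv_pow, inv_inv, e2]
  · rw [g₃_scalePair, inv_pow, inv_inv, e3]

end FA.JInj

end
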