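import Mathlib.NumberTheory.LSeries.Nonvanishing
import Mathlib.NumberTheory.LSeries.SumCoeff
import Mathlib.NumberTheory.ZetaValues
import Mathlib.Analysis.MellinTransform
import Mathlib.MeasureTheory.Function.Floor
import Mathlib.Analysis.SpecialFunctions.Integrals.Basic
import Mathlib.Analysis.Real.Pi.Bounds

/-!
# Dirichlet L-functions in the half plane `re s > 0`

For a nontrivial character modulo `q` one has `L(s, χ) = s ∫_{t > 1} S(t) t^(-s-1)`, `S` the partial
sums, so `|L(s, χ)| ≤ q |s| / re s` and `|L(1, χ)| ≤ 1 + log q`; for a real character the values on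
the real axis are real, positive to the right of the real zeros.
-/

set_option autoImplicit false

noncomputable section

namespace FA.Siegel

open MeasureTheory Filter Topology Asymptotics Complex DirichletCharacter

variable {q : ℕ}

/-- The partial sums of a character. -/
def charSum (χ : DirichletCharacter ℂ q) (t : ℝ) : ℂ := ∑ k ∈ Finset.Icc 1 ⌊t⌋₊, χ k

/-- The integral of the representation. -/
def tail (χ : DirichletCharacter ℂ q) (s : ℂ) : ℂ :=
  ∫ t in Set.Ioi (1 : ℝ), charSum χ t * (t : ℂ) ^ (-(s + 1))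

theorem norm_sum_range_le_of_periodic {g : ℕ → ℂ} (hper : ∀ k, g (k + q) = g k)
    (hzero : ∑ k ∈ Finset.range q, g k = 0) (hle : ∀ k, ‖g k‖ ≤ 1) (hq : 0 < q) (N : ℕ) :
    ‖∑ k ∈ Finset.range N, g k‖ ≤ q := by
  have hper' : ∀ j k, g (q * j + k) = g k := fun j => by
    induction j with
    | zero => simp
    | succ j ih => intro k; rw [show q * (j + 1) + k = q * j + k + q by ring, hper, ih]
  have hfull : ∀ j, ∑ k ∈ Finset.range (q * j), g k = 0 := fun j => by
    induction j with
    | zero => simp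
    | succ j ih =>
      rw [Nat.mul_succ, Finset.sum_range_add, ih, zero_add]
      exact (Finset.sum_congr rfl fun k _ => hper' j k).trans hzero
  rw [← Nat.div_add_mod N q, Finset.sum_range_add, hfull, zero_add]
  refine (norm_sum_le _ _).trans ((Finset.sum_le_sum fun k _ => hle _).trans ?_)
  simp [(Nat.mod_lt N hq).le]

theorem sum_period [NeZero q] {χ : DirichletCharacter ℂ q} (hχ : χ ≠ 1) :
    ∑ k ∈ Finset.range q, χ ((k + 1 : ℕ) : ZMod q) = 0 := by
  rw [← MulChar.sum_eq_zero_of_ne_one hχ]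
  refine Finset.sum_nbij' (fun k => ((k + 1 : ℕ) : ZMod q)) (fun x => (x - 1).val) (by simp)
    (fun x _ => Finset.mem_coe.2 (Finset.mem_range.2 (ZMod.val_lt _))) (fun k hk => ?_)
    (fun x _ => by simp) (fun _ _ => rfl)
  rw [Nat.cast_add, Nat.cast_one, add_sub_cancel_right,
    ZMod.val_cast_of_lt (Finset.mem_range.1 hk)]

theorem norm_charSum_le [NeZero q] {χ : DirichletCharacter ℂ q} (hχ : χ ≠ 1) (t : ℝ) :
    ‖charSum χ t‖ ≤ q := by
  rw [charSum, show Finset.Icc 1 ⌊t⌋₊ = Finset.Ico (0 + 1) (⌊t⌋₊ + 1) from rfl,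
    ← Finset.sum_Ico_add' (fun k : ℕ => χ k) 0 ⌊t⌋₊ 1, ← Finset.range_eq_Ico]
  exact norm_sum_range_le_of_periodic (fun k => by simp) (sum_period hχ) (fun k => χ.norm_le_one _)
    (NeZero.pos q) _

theorem norm_charSum_le_self {χ : DirichletCharacter ℂ q} {t : ℝ} (ht : 0 ≤ t) :
    ‖charSum χ t‖ ≤ t := by
  refine (norm_sum_le _ _).trans ((Finset.sum_le_sum fun k _ => χ.norm_le_one _).trans ?_)
  simpa using Nat.floor_le ht

theorem measurable_charSum (χ : DirichletCharacter ℂ q) : Measurable (charSum χ) :=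
  (measurable_of_countable fun n : ℕ => ∑ k ∈ Finset.Icc 1 n, χ k).comp Nat.measurable_floor

theorem norm_integrand {χ : DirichletCharacter ℂ q} {s : ℂ} {t : ℝ} (ht : 0 < t) :
    ‖charSum χ t * (t : ℂ) ^ (-(s + 1))‖ = ‖charSum χ t‖ * t ^ (-(s.re + 1)) := by
  rw [norm_mul, Complex.norm_cpow_eq_rpow_re_of_pos ht]
  simp

theorem norm_integrand_le [NeZero q] {χ : DirichletCharacter ℂ q} (hχ : χ ≠ 1) {s : ℂ} {t : ℝ}
    (ht : 0 < t) :
    ‖charSum χ t * (t : ℂ) ^ (-(s + 1))‖ ≤ q * t ^ (-(s.re + 1)) := by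
  rw [norm_integrand ht]
  exact mul_le_mul_of_nonneg_right (norm_charSum_le hχ t) (Real.rpow_nonneg ht.le _)

theorem measurable_integrand (χ : DirichletCharacter ℂ q) (s : ℂ) :
    Measurable fun t : ℝ => charSum χ t * (t : ℂ) ^ (-(s + 1)) :=
  (measurable_charSum χ).mul (Complex.measurable_ofReal.pow_const _)

theorem integrable_integrand [NeZero q] {χ : DirichletCharacter ℂ q} (hχ : χ ≠ 1) {s : ℂ}
    (hs : 0 < s.re) :
    IntegrableOn (fun t : ℝ => charSum χ t * (t : ℂ) ^ (-(s + 1))) (Set.Ioi 1) := by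
  refine ((integrableOn_Ioi_rpow_of_lt (a := -(s.re + 1)) (by linarith) one_pos).const_mul
    (q : ℝ)).mono' (measurable_integrand χ s).aestronglyMeasurable ?_
  filter_upwards [ae_restrict_mem measurableSet_Ioi] with t ht
  exact norm_integrand_le hχ (zero_lt_one.trans (Set.mem_Ioi.1 ht))

theorem norm_tail_le [NeZero q] {χ : DirichletCharacter ℂ q} (hχ : χ ≠ 1) {s : ℂ}
    (hs : 0 < s.re) : ‖tail χ s‖ ≤ q / s.re := by
  refine (norm_integral_le_of_norm_le ((integrableOn_Ioi_rpow_of_lt (a := -(s.re + 1))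
    (by linarith) one_pos).const_mul (q : ℝ)) ?_).trans (le_of_eq ?_)
  · filter_upwards [ae_restrict_mem measurableSet_Ioi] with t ht
    exact norm_integrand_le hχ (zero_lt_one.trans (Set.mem_Ioi.1 ht))
  · rw [integral_const_mul, integral_Ioi_rpow_of_lt (by linarith) one_pos, Real.one_rpow,
      show -(s.re + 1) + 1 = -s.re by ring, neg_div_neg_eq]
    ring

/-- **The continuation to `re s > 0`.** -/
theorem lfunction_eq [NeZero q] {χ : DirichletCharacter ℂ q} (hχ : χ ≠ 1) {s : ℂ}
    (hs : 0 < s.re) : LFunction χ s = s * tail χ s := by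
  have hU : IsOpen {z : ℂ | 0 < z.re} := isOpen_lt continuous_const Complex.continuous_re
  let g : ℝ → ℂ := (Set.Ioi 1).indicator (charSum χ)
  have hloc : LocallyIntegrableOn g (Set.Ioi 0) := by
    refine ((locallyIntegrable_const (q : ℝ)).mono
      ((measurable_charSum χ).indicator measurableSet_Ioi).aestronglyMeasurable
      (Eventually.of_forall fun t => ?_)).locallyIntegrableOn _
    rw [Real.norm_natCast]
    exact (norm_indicator_le_norm_self _ _).trans (norm_charSum_le hχ t)
  have htail : ∀ z : ℂ, mellin g (-z) = tail χ z := fun z => by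
    rw [tail, mellin]
    refine ((setIntegral_congr_fun measurableSet_Ioi fun t ht => ?_).trans
      (setIntegral_indicator measurableSet_Ioi)).trans
      (by rw [Set.inter_eq_right.2 (Set.Ioi_subset_Ioi zero_le_one)])
    show (t : ℂ) ^ (-z - 1) • (Set.Ioi 1).indicator (charSum χ) t =
      (Set.Ioi 1).indicator (fun t : ℝ => charSum χ t * (t : ℂ) ^ (-(z + 1))) t
    by_cases h : t ∈ Set.Ioi (1 : ℝ)
    · rw [Set.indicator_of_mem h, Set.indicator_of_mem h, smul_eq_mul, mul_comm, neg_add']
    · rw [Set.indicator_of_notMem h, Set.indicator_of_notMem h, smul_zero]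
  have hdiff : ∀ z : ℂ, 0 < z.re → DifferentiableAt ℂ (fun z => z * tail χ z) z := fun z hz => by
    refine differentiableAt_fun_id.mul ?_
    have h := mellin_differentiableAt_of_isBigO_rpow (f := g) (a := 0) (b := -z.re - 1) (s := -z)
      hloc ?_ (by simpa using hz) ?_ (by simp)
    · exact (h.comp z differentiableAt_fun_id.neg).congr_of_eventuallyEq
        (Eventually.of_forall fun w => (htail w).symm)
    · refine IsBigO.of_bound q (Eventually.of_forall fun t => ?_)
      simp only [neg_zero, Real.rpow_zero, norm_one, mul_one]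
      exact (norm_indicator_le_norm_self _ _).trans (norm_charSum_le hχ t)
    · refine (isBigO_zero _ _).congr' ?_ EventuallyEq.rfl
      filter_upwards [nhdsWithin_le_nhds (Iio_mem_nhds one_pos)] with t ht
      exact (Set.indicator_of_notMem (fun h => lt_asymm (Set.mem_Ioi.1 h) ht) _).symm
  have heq : ∀ z : ℂ, 1 < z.re → LFunction χ z = z * tail χ z := fun z hz => by
    rw [LFunction_eq_LSeries χ hz, tail]
    refine LSeries_eq_mul_integral _ le_rfl (zero_lt_one.trans hz)
      (LSeriesSummable_of_one_lt_re χ hz) (IsBigO.of_bound q (Eventually.of_forall fun n => ?_))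
    have h := norm_charSum_le hχ n
    rw [charSum, Nat.floor_natCast] at h
    simpa using h
  refine AnalyticOnNhd.eqOn_of_preconnected_of_eventuallyEq
    ((differentiable_LFunction hχ).differentiableOn.analyticOnNhd hU)
    (DifferentiableOn.analyticOnNhd (fun z hz => (hdiff z hz).differentiableWithinAt) hU)
    (convex_halfSpace_re_gt 0).isPreconnected (z₀ := 2) (by simp) ?_ hs
  filter_upwards [(isOpen_lt continuous_const Complex.continuous_re).mem_nhds
    (show (1 : ℝ) < (2 : ℂ).re by norm_num)] with z hz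
  exact heq z hz

/-- `|L(s, χ)| ≤ q |s| / re s`. -/
theorem norm_LFunction_le [NeZero q] {χ : DirichletCharacter ℂ q} (hχ : χ ≠ 1) {s : ℂ}
    (hs : 0 < s.re) : ‖LFunction χ s‖ ≤ ‖s‖ * (q / s.re) := by
  rw [lfunction_eq hχ hs, norm_mul]
  exact mul_le_mul_of_nonneg_left (norm_tail_le hχ hs) (norm_nonneg _)

/-- `|L(1, χ)| ≤ 1 + log q`. -/
theorem norm_LFunction_one_le [NeZero q] {χ : DirichletCharacter ℂ q} (hχ : χ ≠ 1) :
    ‖LFunction χ 1‖ ≤ 1 + Real.log q := by
  have hq : (1 : ℝ) ≤ q := by exact_mod_cast NeZero.one_le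
  have hint := integrable_integrand hχ (s := 1) (by simp)
  rw [lfunction_eq hχ (by simp), one_mul, tail,
    ← Set.Ioc_union_Ioi_eq_Ioi hq,
    setIntegral_union (Set.Ioc_disjoint_Ioi le_rfl) measurableSet_Ioi
      (hint.mono_set Set.Ioc_subset_Ioi_self) (hint.mono_set (Set.Ioi_subset_Ioi hq))]
  refine (norm_add_le _ _).trans ?_
  have h1 : ‖∫ t in Set.Ioc (1 : ℝ) q, charSum χ t * (t : ℂ) ^ (-((1 : ℂ) + 1))‖ ≤ Real.log q := by
    have hi : IntegrableOn (fun t : ℝ => t⁻¹) (Set.Ioc 1 q) :=
      ((continuousOn_id.inv₀ fun t ht => (zero_lt_one.trans_le ht.1).ne').integrableOn_Icc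
        ).mono_set Set.Ioc_subset_Icc_self
    refine (norm_integral_le_of_norm_le hi ?_).trans (le_of_eq ?_)
    · filter_upwards [ae_restrict_mem measurableSet_Ioc] with t ht
      have ht0 : 0 < t := zero_lt_one.trans ht.1
      rw [norm_integrand ht0, Complex.one_re]
      refine (mul_le_mul_of_nonneg_right (norm_charSum_le_self ht0.le)
        (Real.rpow_nonneg ht0.le _)).trans (le_of_eq ?_)
      rw [show -((1 : ℝ) + 1) = ((-2 : ℤ) : ℝ) by norm_num, Real.rpow_intCast]
      field_simp
    · rw [← intervalIntegral.integral_of_le hq, integral_inv_of_pos one_pos (by positivity),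
        div_one]
  have h2 : ‖∫ t in Set.Ioi (q : ℝ), charSum χ t * (t : ℂ) ^ (-((1 : ℂ) + 1))‖ ≤ 1 := by
    refine (norm_integral_le_of_norm_le ((integrableOn_Ioi_rpow_of_lt (a := -((1 : ℝ) + 1))
      (by norm_num) (by positivity)).const_mul (q : ℝ)) ?_).trans (le_of_eq ?_)
    · filter_upwards [ae_restrict_mem measurableSet_Ioi] with t ht
      simpa using norm_integrand_le hχ (s := 1) ((by positivity : (0 : ℝ) < q).trans ht)
    · rw [integral_const_mul, integral_Ioi_rpow_of_lt (by norm_num) (by positivity),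
        show -((1 : ℝ) + 1) + 1 = ((-1 : ℤ) : ℝ) by norm_num, Real.rpow_intCast]
      field_simp
      simp
  linarith

theorem apply_im_of_sq_eq_one {χ : DirichletCharacter ℂ q} (hχ : χ ^ 2 = 1) (x : ZMod q) :
    (χ x).im = 0 := by
  rcases MulChar.isQuadratic_iff_sq_eq_one.2 hχ x with h | h | h <;> simp [h]

/-- A real character has real values on the real axis. -/
theorem LFunction_ofReal_im [NeZero q] {χ : DirichletCharacter ℂ q} (hχ : χ ≠ 1)
    (h2 : χ ^ 2 = 1) {x : ℝ} (hx : 0 < x) : (LFunction χ x).im = 0 := by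
  have h : tail χ x = ((∫ t in Set.Ioi (1 : ℝ), (charSum χ t).re * t ^ (-(x + 1)) : ℝ) : ℂ) := by
    rw [tail, ← integral_complex_ofReal]
    refine setIntegral_congr_fun measurableSet_Ioi fun t ht => ?_
    have hS : (charSum χ t).im = 0 := by
      rw [charSum, Complex.im_sum]
      exact Finset.sum_eq_zero fun k _ => apply_im_of_sq_eq_one h2 _
    rw [Complex.ofReal_mul, Complex.ofReal_cpow (zero_le_one.trans ht.out.le),
      show ((charSum χ t).re : ℂ) = charSum χ t from Complex.ext rfl (by simp [hS])]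
    push_cast
    ring
  rw [lfunction_eq hχ (by simpa using hx), h, ← Complex.ofReal_mul, Complex.ofReal_im]

theorem LFunction_two_re_pos [NeZero q] (χ : DirichletCharacter ℂ q) :
    0 < (LFunction χ 2).re := by
  have hs : 1 < (2 : ℂ).re := by norm_num
  rw [LFunction_eq_LSeries χ hs]
  have h := Complex.hasSum_re (LSeriesSummable_of_one_lt_re χ hs).hasSum
  have hsum := h.add hasSum_zeta_two
  have hle : (2 : ℝ) ≤ (LSeries (fun n => χ n) 2).re + Real.pi ^ 2 / 6 := by
    refine le_trans ?_ (sum_le_hasSum {1} (fun n _ => ?_) hsum)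
    · rw [Finset.sum_singleton, LSeries.term_of_ne_zero one_ne_zero]
      norm_num
    · rcases eq_or_ne n 0 with rfl | hn
      · simp
      have h1 : |(LSeries.term (fun m => χ m) 2 n).re| ≤ 1 / (n : ℝ) ^ 2 := by
        refine (Complex.abs_re_le_norm _).trans ?_
        rw [LSeries.term_of_ne_zero hn, norm_div, Complex.norm_natCast_cpow_of_pos
          (Nat.pos_of_ne_zero hn), show (2 : ℂ).re = ((2 : ℕ) : ℝ) by norm_num, Real.rpow_natCast]
        exact div_le_div_of_nonneg_right (χ.norm_le_one _) (by positivity)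
      linarith [neg_le_of_abs_le h1]
  nlinarith [Real.pi_pos, Real.pi_lt_d2]

/-- Positivity to the right of the real zeros. -/
theorem LFunction_re_pos [NeZero q] {χ : DirichletCharacter ℂ q} (hχ : χ ≠ 1) (h2 : χ ^ 2 = 1)
    {β : ℝ} (hβ : 0 < β) (hβ2 : β ≤ 2)
    (hne : ∀ x : ℝ, β ≤ x → x < 1 → LFunction χ x ≠ 0) : 0 < (LFunction χ β).re := by
  by_contra hle
  have hc : ContinuousOn (fun x : ℝ => (LFunction χ x).re) (Set.Icc β 2) :=
    ((Complex.continuous_re.comp (differentiable_LFunction hχ).continuous).comp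
      Complex.continuous_ofReal).continuousOn
  obtain ⟨x, hx, hx0⟩ := intermediate_value_Icc hβ2 hc
    (show (0 : ℝ) ∈ Set.Icc (LFunction χ β).re (LFunction χ (2 : ℝ)).re from
      ⟨not_lt.1 hle, by exact_mod_cast (LFunction_two_re_pos χ).le⟩)
  have hz : LFunction χ x = 0 :=
    Complex.ext hx0 (LFunction_ofReal_im hχ h2 (hβ.trans_le hx.1))
  rcases lt_or_ge x 1 with h | h
  · exact hne x hx.1 h hz
  · exact LFunction_ne_zero_of_one_le_re χ (Or.inl hχ) (by simpa using h) hz

theorem LFunction_one_re_pos [NeZero q] {χ : DirichletCharacter ℂ q} (hχ : χ ≠ 1)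
    (h2 : χ ^ 2 = 1) : 0 < (LFunction χ 1).re := by
  simpa using LFunction_re_pos hχ h2 one_pos one_le_two fun x hx hx1 =>
    absurd hx1 (not_lt.2 hx)

end FA.Siegel

end
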