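import Mathlib.Analysis.Complex.Liouville
import Mathlib.Analysis.Complex.TaylorSeries
import Mathlib.Analysis.Complex.RemovableSingularity
import Mathlib.Analysis.Calculus.Deriv.ZPow
import Mathlib.NumberTheory.LSeries.Positivity
import Mathlib.Analysis.SpecialFunctions.Log.Deriv
import Mathlib.Analysis.Complex.ExponentialBounds

/-!
# A lower bound for the residue of a Dirichlet series with nonnegative coefficients

If `∑ a(n) n^(-s) = G(s)/(s - 1)` with `a ≥ 0`, `a(1) ≥ 1`, `G` entire, `|G| ≤ M` on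
`|s - 2| = 3/2`, and `G(β) ≥ 0` for some `β ∈ [3/4, 1)`, then the residue `G(1)` is at least
`(1 - β) M^(-6 (1 - β))` up to a constant: the Taylor coefficients at `2` of the regular part are
at least minus the residue.
-/

set_option autoImplicit false

noncomputable section

namespace FA.Siegel

open Complex Filter Topology Metric
open scoped ComplexOrder Nat

theorem iteratedDeriv_inv_sub_one (c : ℂ) (m : ℕ) :
    iteratedDeriv m (fun z : ℂ => c * (z - 1)⁻¹) 2 = c * ((-1) ^ m * m !) := by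
  rw [iteratedDeriv_const_mul_field, iteratedDeriv_comp_sub_const (f := fun z : ℂ => z⁻¹),
    iteratedDeriv_eq_iterate]
  show c * deriv^[m] Inv.inv (2 - 1 : ℂ) = _
  rw [iter_deriv_inv, show (2 : ℂ) - 1 = 1 by norm_num, one_zpow, mul_one]

/-- The Taylor coefficients of the regular part, with alternating signs. -/
def regCoeff (G : ℂ → ℂ) (m : ℕ) : ℂ :=
  (-1) ^ m * ((m ! : ℂ)⁻¹ * iteratedDeriv m (dslope G 1) 2)

variable {a : ℕ → ℂ} {G : ℂ → ℂ}

theorem differentiable_regPart (hG : Differentiable ℂ G) : Differentiable ℂ (dslope G 1) := by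
  rw [← differentiableOn_univ, Complex.differentiableOn_dslope univ_mem, differentiableOn_univ]
  exact hG

theorem dslope_apply_of_ne {z : ℂ} (hz : z ≠ 1) :
    dslope G 1 z = (G z - G 1) * (z - 1)⁻¹ := by
  rw [dslope_of_ne _ hz, slope_def_field, div_eq_mul_inv]

theorem regCoeff_eq (hG : Differentiable ℂ G)
    (hF : ∀ s : ℂ, 1 < s.re → LSeries a s = G s * (s - 1)⁻¹) (m : ℕ) :
    regCoeff G m = (-1) ^ m * iteratedDeriv m (LSeries a) 2 * (m ! : ℂ)⁻¹ - G 1 := by
  have hU : IsOpen {z : ℂ | 1 < z.re} := isOpen_lt continuous_const Complex.continuous_re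
  have h2 : (2 : ℂ) ∈ {z : ℂ | 1 < z.re} := by norm_num
  have heq : Set.EqOn (LSeries a) (fun z => dslope G 1 z + G 1 * (z - 1)⁻¹) {z : ℂ | 1 < z.re} :=
    fun z hz => by
      have hz1 : z ≠ 1 := fun h => by simp [h] at hz
      rw [hF z hz]
      beta_reduce
      rw [dslope_apply_of_ne hz1]
      ring
  have h := heq.iteratedDeriv_of_isOpen hU m h2
  rw [show (fun z => dslope G 1 z + G 1 * (z - 1)⁻¹) =
      dslope G 1 + fun z => G 1 * (z - 1)⁻¹ from rfl,
    iteratedDeriv_add (differentiable_regPart hG).contDiff.contDiffAt ?_,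
    iteratedDeriv_inv_sub_one] at h
  · rw [regCoeff, h]
    have hm : (m ! : ℂ) ≠ 0 := Nat.cast_ne_zero.2 m.factorial_ne_zero
    have h1 : ((-1 : ℂ) ^ m) * (-1) ^ m = 1 := by
      rw [← pow_add, Even.neg_one_pow ⟨m, rfl⟩]
    field_simp
    linear_combination (-(G 1) * (m ! : ℂ)) * h1
  · exact contDiffAt_const.mul ((contDiffAt_id.sub contDiffAt_const).inv (by norm_num))

theorem regCoeff_bounds (ha0 : 0 ≤ a) (ha1 : 1 ≤ a 1)
    (ha : ∀ s : ℂ, 1 < s.re → LSeriesSummable a s) (hG : Differentiable ℂ G)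
    (hF : ∀ s : ℂ, 1 < s.re → LSeries a s = G s * (s - 1)⁻¹) (m : ℕ) :
    -(G 1).re ≤ (regCoeff G m).re ∧ 1 - (G 1).re ≤ (regCoeff G 0).re := by
  have habs : LSeries.abscissaOfAbsConv a < (2 : ℝ) :=
    lt_of_le_of_lt ((ha ((3 / 2 : ℝ) : ℂ) (by norm_num)).abscissaOfAbsConv_le)
      (by rw [Complex.ofReal_re]; exact EReal.coe_lt_coe_iff.2 (by norm_num))
  refine ⟨?_, ?_⟩
  · have h := LSeries.iteratedDeriv_alternating ha0 habs m
    rw [Complex.ofReal_ofNat] at h
    rw [regCoeff_eq hG hF, Complex.sub_re, ← Complex.ofReal_natCast, ← Complex.ofReal_inv,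
      Complex.re_mul_ofReal]
    have h' : 0 ≤ ((-1 : ℂ) ^ m * iteratedDeriv m (LSeries a) 2).re := (Complex.nonneg_iff.1 h).1
    have : 0 ≤ ((m ! : ℕ) : ℝ)⁻¹ := by positivity
    nlinarith
  · rw [regCoeff_eq hG hF, pow_zero, one_mul, iteratedDeriv_zero, Nat.factorial_zero,
      Nat.cast_one, inv_one, mul_one, Complex.sub_re, sub_le_sub_iff_right, LSeries,
      Complex.re_tsum (ha 2 (by norm_num))]
    refine le_trans ?_ (Summable.le_tsum (Complex.hasSum_re (ha 2 (by norm_num)).hasSum).summable 1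
      fun n _ => ?_)
    · rw [LSeries.term_of_ne_zero one_ne_zero, Nat.cast_one, Complex.one_cpow, div_one]
      simpa using (Complex.le_def.1 ha1).1
    · have := LSeries.term_nonneg (ha0 n) 2
      rw [Complex.ofReal_ofNat] at this
      exact (Complex.nonneg_iff.1 this).1

/-- **The residue is not too small.** -/
theorem residue_lower_bound (ha0 : 0 ≤ a) (ha1 : 1 ≤ a 1)
    (ha : ∀ s : ℂ, 1 < s.re → LSeriesSummable a s) (hG : Differentiable ℂ G)
    (hF : ∀ s : ℂ, 1 < s.re → LSeries a s = G s * (s - 1)⁻¹)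
    {M : ℝ} (hM : 1 ≤ M) (hsph : ∀ z ∈ sphere (2 : ℂ) (3 / 2), ‖G z‖ ≤ M) (hone : ‖G 1‖ ≤ M)
    {β : ℝ} (hβ : 3 / 4 ≤ β) (hβ1 : β < 1) (hGβ : 0 ≤ (G β).re) :
    (1 - β) / 6 * ((48 * M) ^ (-(6 * (1 - β))) : ℝ) ≤ (G 1).re := by
  set r : ℝ := 2 - β with hr
  set l : ℝ := (G 1).re with hl
  -- Cauchy's bound
  have hcauchy : ∀ m, |(regCoeff G m).re| ≤ 4 * M * (2 / 3) ^ m := fun m => by
    refine (Complex.abs_re_le_norm _).trans ?_
    have hb : ∀ z ∈ sphere (2 : ℂ) (3 / 2), ‖dslope G 1 z‖ ≤ 4 * M := fun z hz => by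
      have hz' : ‖z - 2‖ = 3 / 2 := mem_sphere_iff_norm.1 hz
      have hdist : 1 / 2 ≤ ‖z - 1‖ := by
        have := norm_sub_norm_le (z - 2) (-1)
        rw [norm_neg, norm_one, show z - 2 - -1 = z - 1 by ring] at this
        linarith
      have hz1 : z ≠ 1 := fun h => by rw [h, sub_self, norm_zero] at hdist; linarith
      rw [dslope_apply_of_ne hz1, norm_mul, norm_inv]
      calc ‖G z - G 1‖ * ‖z - 1‖⁻¹ ≤ (M + M) * 2 := by
            refine mul_le_mul ((norm_sub_le _ _).trans (add_le_add (hsph z hz) hone)) ?_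
              (by positivity) (by linarith)
            rw [inv_le_comm₀ (by linarith) two_pos]
            linarith
        _ = 4 * M := by ring
    have h := Complex.norm_iteratedDeriv_le_of_forall_mem_sphere_norm_le m (by norm_num)
      (differentiable_regPart hG).diffContOnCl hb
    rw [regCoeff, norm_mul, norm_pow, norm_neg, norm_one, one_pow, one_mul, norm_mul, norm_inv,
      Complex.norm_natCast]
    refine (mul_le_mul_of_nonneg_left h (by positivity)).trans (le_of_eq ?_)
    rw [show (2 / 3 : ℝ) = (3 / 2)⁻¹ by norm_num, inv_pow]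
    field_simp
  have hsum : HasSum (fun m => (regCoeff G m).re * r ^ m) (dslope G 1 β).re := by
    have h := Complex.hasSum_re (Complex.hasSum_taylorSeries_of_entire
      (differentiable_regPart hG) 2 (β : ℂ))
    convert h using 1
    funext m
    rw [smul_eq_mul, smul_eq_mul, regCoeff,
      show ((β : ℂ) - 2) ^ m = (-1) ^ m * ((r : ℂ)) ^ m by
        rw [← mul_pow]; congr 1; rw [hr]; push_cast; ring,
      ← Complex.re_mul_ofReal]
    push_cast
    congr 1
    ring
  obtain ⟨-, h0⟩ := regCoeff_bounds ha0 ha1 ha hG hF 0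
  set K := ⌈6 * Real.log (48 * M)⌉₊
  have hlog : 0 < Real.log (48 * M) := Real.log_pos (by linarith)
  have hK : 0 < K := Nat.ceil_pos.2 (by positivity)
  -- head and tail
  have hhead : 1 - l * ∑ m ∈ Finset.range K, r ^ m ≤
      ∑ m ∈ Finset.range K, (regCoeff G m).re * r ^ m := by
    obtain ⟨k, hk⟩ := Nat.exists_eq_succ_of_ne_zero hK.ne'
    rw [hk, Finset.sum_range_succ' _ k, Finset.sum_range_succ' _ k, pow_zero, mul_one, mul_add,
      Finset.mul_sum, mul_one]
    have h : ∑ i ∈ Finset.range k, -(l * r ^ (i + 1)) ≤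
        ∑ i ∈ Finset.range k, (regCoeff G (i + 1)).re * r ^ (i + 1) :=
      Finset.sum_le_sum fun i _ => by
        rw [← neg_mul]
        exact mul_le_mul_of_nonneg_right (regCoeff_bounds ha0 ha1 ha hG hF (i + 1)).1
          (pow_nonneg (by linarith) _)
    rw [Finset.sum_neg_distrib] at h
    linarith
  have hgeo : HasSum (fun i => -(4 * M * (5 / 6 : ℝ) ^ (i + K)))
      (-(4 * M * (5 / 6) ^ K * 6)) := by
    have := ((hasSum_geometric_of_lt_one (r := (5 / 6 : ℝ)) (by norm_num) (by norm_num)).mul_left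
      (4 * M * (5 / 6) ^ K)).neg
    convert this using 1
    all_goals first | rfl | (funext i; rw [pow_add]; ring) | norm_num
  have htail := hasSum_le (fun i => ?_) hgeo ((hasSum_nat_add_iff' K).2 hsum)
  swap
  · refine le_trans ?_ (neg_abs_le _)
    rw [neg_le_neg_iff, abs_mul, abs_pow, abs_of_nonneg (show 0 ≤ r by linarith)]
    refine (mul_le_mul_of_nonneg_right (hcauchy (i + K)) (pow_nonneg (by linarith) _)).trans ?_
    rw [mul_assoc, ← mul_pow]
    gcongr
    · linarith
    · linarith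
  have hsmall : 24 * M * (5 / 6 : ℝ) ^ K ≤ 1 / 2 := by
    have h1 : ((5 : ℝ) / 6) ^ K ≤ (48 * M)⁻¹ := by
      calc ((5 : ℝ) / 6) ^ K ≤ Real.exp (-(1 / 6)) ^ K :=
            pow_le_pow_left₀ (by norm_num) (by linarith [Real.add_one_le_exp (-(1 / 6 : ℝ))]) K
        _ = Real.exp (-((K : ℝ) / 6)) := by rw [← Real.exp_nat_mul]; congr 1; ring
        _ ≤ Real.exp (-Real.log (48 * M)) := Real.exp_le_exp.2 (by
            have := Nat.le_ceil (6 * Real.log (48 * M))
            linarith)
        _ = (48 * M)⁻¹ := by rw [Real.exp_neg, Real.exp_log (by linarith)]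
    refine (mul_le_mul_of_nonneg_left h1 (by linarith)).trans (le_of_eq ?_)
    field_simp
    norm_num
  have hval : (dslope G 1 β).re = ((G β).re - l) / (β - 1) := by
    rw [dslope_apply_of_ne (by exact_mod_cast hβ1.ne), ← Complex.ofReal_one,
      ← Complex.ofReal_sub, ← Complex.ofReal_inv, Complex.re_mul_ofReal, Complex.sub_re,
      Complex.ofReal_one, div_eq_mul_inv]
  have hmain : 1 / 2 ≤ l * r ^ K / (1 - β) := by
    have h : (dslope G 1 β).re ≤ l / (1 - β) := by
      rw [hval, ← neg_div_neg_eq, neg_sub, neg_sub]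
      exact div_le_div_of_nonneg_right (by linarith) (by linarith)
    have hgs : (∑ m ∈ Finset.range K, r ^ m) = (r ^ K - 1) / (1 - β) := by
      rw [geom_sum_eq (by linarith : r ≠ 1), hr]
      ring_nf
    rw [hgs] at hhead
    have e : l * r ^ K / (1 - β) = l * ((r ^ K - 1) / (1 - β)) + l / (1 - β) := by ring
    linarith
  have hrK : r ^ K ≤ 3 * (48 * M) ^ (6 * (1 - β)) := by
    calc r ^ K ≤ Real.exp (1 - β) ^ K :=
          pow_le_pow_left₀ (by linarith) (by linarith [Real.add_one_le_exp (1 - β)]) K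
      _ = Real.exp ((K : ℝ) * (1 - β)) := by rw [← Real.exp_nat_mul]
      _ ≤ Real.exp (1 + Real.log (48 * M) * (6 * (1 - β))) := Real.exp_le_exp.2 (by
          have h2 := Nat.ceil_lt_add_one (show 0 ≤ 6 * Real.log (48 * M) by positivity)
          have h3 := mul_le_mul_of_nonneg_right h2.le (sub_pos.2 hβ1).le
          linarith)
      _ ≤ _ := by
          rw [Real.exp_add, Real.rpow_def_of_pos (by linarith)]
          gcongr
          exact (Real.exp_one_lt_d9.trans (by norm_num)).le
  have hl0 : 0 < l := by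
    by_contra hle
    have : l * r ^ K / (1 - β) ≤ 0 :=
      div_nonpos_of_nonpos_of_nonneg
        (mul_nonpos_of_nonpos_of_nonneg (not_lt.1 hle) (pow_nonneg (by linarith) K))
        (by linarith)
    linarith
  rw [Real.rpow_neg (by linarith), ← div_eq_mul_inv,
    div_le_iff₀ (Real.rpow_pos_of_pos (by linarith) _)]
  rw [le_div_iff₀ (by linarith)] at hmain
  have := mul_le_mul_of_nonneg_left hrK hl0.le
  linarith

end FA.Siegel

end
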