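import Mathlib.NumberTheory.LSeries.Nonvanishing

/-!
# The coefficients of `ζ(s) L(s, χ₁) L(s, χ₂) L(s, χ₁χ₂)` are nonnegative

For real characters the product is multiplicative, and at a prime power it is
`∑ b(pⁱ) χ₂(p)^(k-i) b(p^(k-i))` with `b = 1 * χ₁`.
-/

set_option autoImplicit false

noncomputable section

namespace FA.Siegel

open DirichletCharacter
open ArithmeticFunction hiding log
open scoped ComplexOrder

/-- The closed forms of `∑_{i ≤ k} (i + 1) (-1)^(k-i)` and `∑_{i ≤ k} (i+1)(k-i+1) (-1)^(k-i)`. -/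
theorem alternating_sums (k : ℕ) :
    (∑ i ∈ Finset.range (k + 1), ((i : ℂ) + 1) * (-1) ^ (k - i) =
      (2 * k + 3 + (-1) ^ k) / 4) ∧
    ∑ i ∈ Finset.range (k + 1), ((i : ℂ) + 1) * (-1) ^ (k - i) * (((k - i : ℕ) : ℂ) + 1) =
      (1 + (-1) ^ k) * (k + 2) / 4 := by
  induction k with
  | zero => norm_num
  | succ k ih =>
    obtain ⟨hU, hS⟩ := ih
    have e : ∀ i ∈ Finset.range (k + 1), k + 1 - i = (k - i) + 1 := fun i hi => by
      rw [Finset.mem_range] at hi
      omega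
    have hU' : ∑ i ∈ Finset.range (k + 1), ((i : ℂ) + 1) * (-1) ^ (k + 1 - i) =
        -((2 * k + 3 + (-1) ^ k) / 4) := by
      rw [← hU, ← Finset.sum_neg_distrib]
      exact Finset.sum_congr rfl fun i hi => by rw [e i hi, pow_succ]; ring
    refine ⟨?_, ?_⟩
    · rw [Finset.sum_range_succ, hU', Nat.sub_self]
      push_cast
      ring
    · have hS' : ∑ i ∈ Finset.range (k + 1),
          ((i : ℂ) + 1) * (-1) ^ (k + 1 - i) * (((k + 1 - i : ℕ) : ℂ) + 1) =
          -((1 + (-1) ^ k) * (k + 2) / 4) - (2 * k + 3 + (-1) ^ k) / 4 := by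
        rw [← hU, ← hS, ← Finset.sum_neg_distrib, ← Finset.sum_sub_distrib]
        exact Finset.sum_congr rfl fun i hi => by rw [e i hi, pow_succ]; push_cast; ring
      rw [Finset.sum_range_succ, hS', Nat.sub_self]
      push_cast
      ring

/-- The local coefficients are nonnegative. -/
theorem local_nonneg {ε δ : ℂ} (hε : ε = 0 ∨ ε = 1 ∨ ε = -1) (hδ : δ = 0 ∨ δ = 1 ∨ δ = -1)
    (k : ℕ) :
    0 ≤ ∑ i ∈ Finset.range (k + 1), (∑ j ∈ Finset.range (i + 1), ε ^ j) *
      (δ ^ (k - i) * ∑ j ∈ Finset.range (k - i + 1), ε ^ j) := by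
  have hb : ∀ i, 0 ≤ ∑ j ∈ Finset.range (i + 1), ε ^ j := fun i => by
    rcases hε with h | h | h
    · exact Finset.sum_nonneg fun j _ => by rw [h]; exact pow_nonneg le_rfl j
    · exact Finset.sum_nonneg fun j _ => by rw [h, one_pow]; exact zero_le_one
    · rw [h, neg_one_geom_sum]
      split_ifs
      exacts [le_rfl, zero_le_one]
  rcases hδ with rfl | rfl | rfl
  · exact Finset.sum_nonneg fun i _ => mul_nonneg (hb i) (mul_nonneg (pow_nonneg le_rfl _) (hb _))
  · exact Finset.sum_nonneg fun i _ =>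
      mul_nonneg (hb i) (mul_nonneg (pow_nonneg zero_le_one _) (hb _))
  rcases hε with rfl | rfl | rfl
  · rw [← Finset.sum_range_reflect]
    have h0 : ∀ i : ℕ, ∑ j ∈ Finset.range (i + 1), (0 : ℂ) ^ j = 1 := fun i => by
      rw [Finset.sum_range_succ']
      simp
    rw [Finset.sum_congr rfl fun i hi => show _ = (-1 : ℂ) ^ i by
      rw [h0, h0, one_mul, mul_one]
      congr 1
      rw [Finset.mem_range] at hi
      omega]
    rw [neg_one_geom_sum]
    split_ifs
    exacts [le_rfl, zero_le_one]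
  · simp only [one_pow, Finset.sum_const, Finset.card_range, nsmul_eq_mul, mul_one, Nat.cast_add,
      Nat.cast_one, ← mul_assoc]
    rw [(alternating_sums k).2]
    rcases Nat.even_or_odd k with h | h
    · rw [h.neg_one_pow, show ((1 : ℂ) + 1) * (k + 2) / 4 = (((k : ℝ) + 2) / 2 : ℝ) by
        push_cast; ring]
      exact Complex.zero_le_real.2 (by positivity)
    · rw [h.neg_one_pow]
      simp
  · refine Finset.sum_nonneg fun i _ => ?_
    rcases Nat.even_or_odd (k - i) with h | h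
    · rw [h.neg_one_pow, one_mul]
      exact mul_nonneg (hb i) (hb _)
    · rw [neg_one_geom_sum (n := k - i + 1), if_pos h.add_one]
      simp

/-- A character as an arithmetic function. -/
abbrev chiFun {q : ℕ} (χ : DirichletCharacter ℂ q) : ArithmeticFunction ℂ :=
  toArithmeticFunction (χ ·)

theorem chiFun_apply {q : ℕ} (χ : DirichletCharacter ℂ q) {n : ℕ} (hn : n ≠ 0) :
    chiFun χ n = χ n := by
  simp [chiFun, toArithmeticFunction, hn]

/-- The coefficients of the product of the four functions. -/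
def fourCoeff {q₁ q₂ Q : ℕ} (χ₁ : DirichletCharacter ℂ q₁) (χ₂ : DirichletCharacter ℂ q₂)
    (χ : DirichletCharacter ℂ Q) : ArithmeticFunction ℂ :=
  zetaMul χ₁ * (chiFun χ₂ * chiFun χ)

variable {q₁ q₂ Q : ℕ} {χ₁ : DirichletCharacter ℂ q₁} {χ₂ : DirichletCharacter ℂ q₂}
  {χ : DirichletCharacter ℂ Q}

theorem zetaMul_prime_pow (χ₁ : DirichletCharacter ℂ q₁) {p : ℕ} (hp : p.Prime) (k : ℕ) :
    zetaMul χ₁ (p ^ k) = ∑ j ∈ Finset.range (k + 1), χ₁ (p : ZMod q₁) ^ j := by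
  simp only [zetaMul, toArithmeticFunction, coe_zeta_mul_apply, coe_mk,
    Nat.sum_divisors_prime_pow hp, pow_eq_zero_iff', hp.ne_zero, ne_eq, false_and, ↓reduceIte,
    Nat.cast_pow, map_pow]

/-- If `χ = χ₁ χ₂`, then `χ₂ * χ` is the twist of `1 * χ₁` by `χ₂`. -/
theorem conv_eq_twist (h : ∀ n : ℕ, χ (n : ZMod Q) = χ₁ (n : ZMod q₁) * χ₂ (n : ZMod q₂)) :
    chiFun χ₂ * chiFun χ = (chiFun χ₂).pmul (zetaMul χ₁) := by
  ext n
  rcases eq_or_ne n 0 with rfl | hn
  · simp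
  rw [pmul_apply, chiFun_apply _ hn, zetaMul, coe_zeta_mul_apply, ArithmeticFunction.mul_apply,
    Nat.sum_divisorsAntidiagonal' (fun a b => chiFun χ₂ a * chiFun χ b), Finset.mul_sum]
  refine Finset.sum_congr rfl fun d hd => ?_
  have hd0 : d ≠ 0 := (Nat.pos_of_mem_divisors hd).ne'
  have hdn : n / d ≠ 0 := by
    rw [Nat.div_ne_zero_iff]
    exact ⟨hd0, Nat.divisor_le hd⟩
  show chiFun χ₂ (n / d) * chiFun χ d = χ₂ n * chiFun χ₁ d
  rw [chiFun_apply _ hdn, chiFun_apply _ hd0, chiFun_apply _ hd0, h, mul_comm (χ₁ _), ← mul_assoc,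
    ← map_mul, ← Nat.cast_mul, Nat.div_mul_cancel (Nat.dvd_of_mem_divisors hd)]

/-- **The coefficients are nonnegative.** -/
theorem fourCoeff_nonneg (h1 : χ₁ ^ 2 = 1) (h2 : χ₂ ^ 2 = 1)
    (h : ∀ n : ℕ, χ (n : ZMod Q) = χ₁ (n : ZMod q₁) * χ₂ (n : ZMod q₂)) (n : ℕ) :
    0 ≤ fourCoeff χ₁ χ₂ χ n := by
  rcases eq_or_ne n 0 with rfl | hn
  · simp
  have hmult : (fourCoeff χ₁ χ₂ χ).IsMultiplicative := by
    rw [fourCoeff, conv_eq_twist h]
    exact χ₁.isMultiplicative_zetaMul.mul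
      ((isMultiplicative_toArithmeticFunction χ₂).pmul χ₁.isMultiplicative_zetaMul)
  rw [hmult.multiplicative_factorization _ hn]
  refine Finset.prod_nonneg fun p hp => ?_
  dsimp only
  set k := n.factorization p
  have hp' := Nat.prime_of_mem_primeFactors hp
  rw [fourCoeff, conv_eq_twist h, ArithmeticFunction.mul_apply,
    Nat.sum_divisorsAntidiagonal (fun a b => zetaMul χ₁ a * (chiFun χ₂).pmul (zetaMul χ₁) b),
    Nat.sum_divisors_prime_pow hp']
  refine le_of_le_of_eq (local_nonneg (MulChar.isQuadratic_iff_sq_eq_one.2 h1 (p : ZMod q₁))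
    (MulChar.isQuadratic_iff_sq_eq_one.2 h2 (p : ZMod q₂)) k) (Finset.sum_congr rfl fun i hi => ?_)
  rw [Finset.mem_range] at hi
  rw [Nat.pow_div (by omega) hp'.pos, pmul_apply, zetaMul_prime_pow χ₁ hp',
    zetaMul_prime_pow χ₁ hp', chiFun_apply _ (pow_ne_zero _ hp'.ne_zero), Nat.cast_pow, map_pow]

theorem fourCoeff_one : fourCoeff χ₁ χ₂ χ 1 = 1 := by
  simp [fourCoeff, chiFun, zetaMul, toArithmeticFunction]

theorem zetaMul_one (χ₁ : DirichletCharacter ℂ q₁) : zetaMul χ₁ 1 = 1 := by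
  simp [zetaMul, toArithmeticFunction]

theorem lseriesSummable_chiFun (χ₁ : DirichletCharacter ℂ q₁) {s : ℂ} (hs : 1 < s.re) :
    LSeriesSummable (fun n => chiFun χ₁ n) s :=
  (LSeriesSummable_congr s fun hn => chiFun_apply χ₁ hn).2 (LSeriesSummable_of_one_lt_re χ₁ hs)

theorem lseries_chiFun (χ₁ : DirichletCharacter ℂ q₁) (s : ℂ) :
    LSeries (fun n => chiFun χ₁ n) s = LSeries (fun n => χ₁ n) s :=
  LSeries_congr (fun hn => chiFun_apply χ₁ hn) s

theorem lseries_zetaMul (χ₁ : DirichletCharacter ℂ q₁) {s : ℂ} (hs : 1 < s.re) :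
    LSeries (fun n => zetaMul χ₁ n) s = riemannZeta s * LSeries (fun n => χ₁ n) s := by
  rw [← lseries_chiFun, ← LSeries_zeta_eq_riemannZeta hs]
  exact LSeries_mul' (LSeriesSummable_zeta_iff.2 hs) (lseriesSummable_chiFun χ₁ hs)

theorem lseriesSummable_fourCoeff {s : ℂ} (hs : 1 < s.re) :
    LSeriesSummable (fun n => fourCoeff χ₁ χ₂ χ n) s :=
  ArithmeticFunction.LSeriesSummable_mul (LSeriesSummable_zetaMul χ₁ hs)
    (ArithmeticFunction.LSeriesSummable_mul (lseriesSummable_chiFun χ₂ hs)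
      (lseriesSummable_chiFun χ hs))

theorem lseries_fourCoeff {s : ℂ} (hs : 1 < s.re) :
    LSeries (fun n => fourCoeff χ₁ χ₂ χ n) s = riemannZeta s * LSeries (fun n => χ₁ n) s *
      (LSeries (fun n => χ₂ n) s * LSeries (fun n => χ n) s) := by
  rw [← lseries_zetaMul χ₁ hs, ← lseries_chiFun χ₂, ← lseries_chiFun χ,
    ← LSeries_mul' (lseriesSummable_chiFun χ₂ hs) (lseriesSummable_chiFun χ hs),
    ← LSeries_mul' (LSeriesSummable_zetaMul χ₁ hs) (ArithmeticFunction.LSeriesSummable_mul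
      (lseriesSummable_chiFun χ₂ hs) (lseriesSummable_chiFun χ hs))]
  rfl

end FA.Siegel

end
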