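import Fermat.Agent.Tau.SiegelBound
import Fermat.Agent.Tau.SiegelPositive
import Fermat.Agent.Tau.SiegelCore
import Mathlib.NumberTheory.Harmonic.ZetaAsymp
import Mathlib.NumberTheory.LegendreSymbol.ZModChar

/-!
# Siegel's theorem

For every `ε > 0` there is `C > 0` with `L(1, χ) ≥ C q^(-ε)` for every nontrivial real character
modulo `q`, primitive or not. The constant is ineffective: it depends on whether some L-function of
a real character has a zero in `(1 - ε/24, 1)`.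
-/

set_option autoImplicit false
set_option linter.style.haveILetI false

noncomputable section

namespace FA.Siegel

open Complex DirichletCharacter Filter Topology Metric
open scoped ComplexOrder

theorem lfunction_eq_ofReal {q : ℕ} [NeZero q] {χ : DirichletCharacter ℂ q} (hχ : χ ≠ 1)
    (h2 : χ ^ 2 = 1) {x : ℝ} (hx : 0 < x) :
    LFunction χ x = ((LFunction χ x).re : ℂ) :=
  Complex.ext rfl (by rw [LFunction_ofReal_im hχ h2 hx, Complex.ofReal_im])

theorem exists_zeta_bound :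
    ∃ A : ℝ, 1 ≤ A ∧ ∀ z ∈ sphere (2 : ℂ) (3 / 2), ‖riemannZeta₁ z‖ ≤ A := by
  obtain ⟨A, hA⟩ := (isCompact_sphere (2 : ℂ) (3 / 2)).exists_bound_of_continuousOn
    differentiable_riemannZeta₁.continuous.continuousOn
  exact ⟨max A 1, le_max_right _ _, fun z hz => (hA z hz).trans (le_max_left _ _)⟩

theorem norm_LFunction_sphere {q : ℕ} [NeZero q] {χ : DirichletCharacter ℂ q} (hχ : χ ≠ 1) {z : ℂ}
    (hz : z ∈ sphere (2 : ℂ) (3 / 2)) : ‖LFunction χ z‖ ≤ 7 * q := by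
  have hz' : ‖z - 2‖ = 3 / 2 := mem_sphere_iff_norm.1 hz
  have hre : 1 / 2 ≤ z.re := by
    have := Complex.abs_re_le_norm (z - 2)
    rw [hz', Complex.sub_re, abs_le] at this
    norm_num at this
    linarith [this.1]
  have hnorm : ‖z‖ ≤ 7 / 2 := by
    have := norm_add_le (z - 2) 2
    rw [sub_add_cancel, hz'] at this
    norm_num at this
    linarith
  refine (norm_LFunction_le hχ (by linarith)).trans ?_
  calc ‖z‖ * ((q : ℝ) / z.re) ≤ 7 / 2 * (q * 2) := by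
        refine mul_le_mul hnorm ?_ (by positivity) (by norm_num)
        rw [div_le_iff₀ (by linarith)]
        nlinarith [(Nat.cast_nonneg q : (0 : ℝ) ≤ q)]
    _ = 7 * q := by ring

/-- The reference: a real zero near `1`, or none at all. -/
theorem exists_reference {δ : ℝ} (hδ : 0 < δ) (hδ1 : δ ≤ 1 / 4) :
    ∃ (q₁ : ℕ) (_ : NeZero q₁) (χ₁ : DirichletCharacter ℂ q₁) (β : ℝ),
      χ₁ ≠ 1 ∧ χ₁ ^ 2 = 1 ∧ 1 - δ ≤ β ∧ β < 1 ∧
      (LFunction χ₁ β = 0 ∨ (0 ≤ (riemannZeta₁ β).re ∧ ∀ (q : ℕ) [NeZero q]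
        (χ : DirichletCharacter ℂ q), χ ≠ 1 → χ ^ 2 = 1 → 0 ≤ (LFunction χ β).re)) := by
  by_cases h : ∃ (q₁ : ℕ) (_ : NeZero q₁) (χ₁ : DirichletCharacter ℂ q₁) (β : ℝ),
      χ₁ ≠ 1 ∧ χ₁ ^ 2 = 1 ∧ 1 - δ ≤ β ∧ β < 1 ∧ LFunction χ₁ β = 0
  · obtain ⟨q₁, hq₁, χ₁, β, h1, h2, h3, h4, h5⟩ := h
    exact ⟨q₁, hq₁, χ₁, β, h1, h2, h3, h4, Or.inl h5⟩
  set χ₁ : DirichletCharacter ℂ 4 := ZMod.χ₄.ringHomComp (Int.castRingHom ℂ) with hχ₁
  have h1 : χ₁ ≠ 1 := fun e => by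
    have h3 : χ₁ (3 : ZMod 4) = 1 := by
      rw [e, MulChar.one_apply (by decide)]
    rw [hχ₁, MulChar.ringHomComp_apply, show ZMod.χ₄ (3 : ZMod 4) = -1 from rfl] at h3
    norm_num at h3
  have h2 : χ₁ ^ 2 = 1 := (ZMod.isQuadratic_χ₄.comp _).sq_eq_one
  have hev : ∀ᶠ x : ℝ in 𝓝[<] 1, 0 < (riemannZeta₁ (x : ℂ)).re := by
    refine nhdsWithin_le_nhds (Tendsto.eventually_const_lt (v := (1 : ℝ)) zero_lt_one ?_)
    have hc : Continuous fun x : ℝ => (riemannZeta₁ (x : ℂ)).re :=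
      (Complex.continuous_re.comp differentiable_riemannZeta₁.continuous).comp
        Complex.continuous_ofReal
    simpa using hc.tendsto 1
  obtain ⟨β, hζ, hβ⟩ := (hev.and (Ioo_mem_nhdsLT (show 1 - δ < 1 by linarith))).exists
  refine ⟨4, inferInstance, χ₁, β, h1, h2, hβ.1.le, hβ.2, Or.inr ⟨hζ.le, fun q _ χ hχ hχ2 =>
    (LFunction_re_pos hχ hχ2 (by linarith [hβ.1]) (by linarith [hβ.2]) fun x hx hx1 h0 =>
      h ⟨q, inferInstance, χ, x, hχ, hχ2, hβ.1.le.trans hx, hx1, h0⟩).le⟩⟩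

theorem changeLevel_natCast {q Q : ℕ} (h : q ∣ Q) (χ : DirichletCharacter ℂ q) {n : ℕ}
    (hn : n.Coprime Q) : changeLevel h χ (n : ZMod Q) = χ n := by
  have := changeLevel_eq_cast_of_dvd' χ h (a := (n : ℤ)) (Nat.isCoprime_iff_coprime.2 hn)
  simpa using this

/-- The bound when the two characters come from one primitive character. -/
theorem lower_bound_same {q q₁ : ℕ} [NeZero q] [NeZero q₁] {χ : DirichletCharacter ℂ q}
    {χ₁ : DirichletCharacter ℂ q₁} (hχ : χ ≠ 1) (hχ2 : χ ^ 2 = 1) (h₁ : χ₁ ≠ 1) (h₁2 : χ₁ ^ 2 = 1)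
    (hprod : changeLevel (Nat.dvd_mul_left q q₁) χ * changeLevel (Nat.dvd_mul_right q₁ q) χ₁ = 1)
    {β : ℝ} (hβ : 3 / 4 ≤ β) (hβ1 : β < 1)
    (href : LFunction χ₁ β = 0 ∨ (0 ≤ (riemannZeta₁ β).re ∧ ∀ (k : ℕ) [NeZero k]
      (ψ : DirichletCharacter ℂ k), ψ ≠ 1 → ψ ^ 2 = 1 → 0 ≤ (LFunction ψ β).re))
    {A : ℝ} (hA1 : 1 ≤ A) (hA : ∀ z ∈ sphere (2 : ℂ) (3 / 2), ‖riemannZeta₁ z‖ ≤ A) :
    (1 - β) / 6 * (48 * (7 * A * q)) ^ (-(6 * (1 - β))) ≤ (LFunction χ 1).re := by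
  have hsame : changeLevel (Nat.dvd_mul_left q q₁) χ = changeLevel (Nat.dvd_mul_right q₁ q) χ₁ := by
    rw [← mul_one (changeLevel (Nat.dvd_mul_left q q₁) χ),
      ← map_one (changeLevel (R := ℂ) (Nat.dvd_mul_right q₁ q)), ← h₁2, map_pow, pow_two,
      ← mul_assoc, hprod, one_mul]
  have hq : (1 : ℝ) ≤ q := by exact_mod_cast NeZero.one_le
  have hM : 1 ≤ 7 * A * (q : ℝ) := by nlinarith
  have hGβ : 0 ≤ (riemannZeta₁ β * LFunction χ β).re := by
    rw [lfunction_eq_ofReal hχ hχ2 (by linarith), Complex.re_mul_ofReal]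
    rcases href with h0 | ⟨hζ, hall⟩
    · have h := congrArg (fun ψ => LFunction ψ (β : ℂ)) hsame
      simp only [LFunction_changeLevel _ _ (Or.inl hχ), LFunction_changeLevel _ _ (Or.inl h₁),
        h0, zero_mul] at h
      have hne : ∏ p ∈ (q₁ * q).primeFactors, (1 - χ (p : ZMod q) * (p : ℂ) ^ (-(β : ℂ))) ≠ 0 := by
        refine Finset.prod_ne_zero_iff.2 fun p hp e => ?_
        have hp' := Nat.prime_of_mem_primeFactors hp
        have h1 : ‖χ (p : ZMod q) * (p : ℂ) ^ (-(β : ℂ))‖ < 1 := by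
          rw [norm_mul, Complex.norm_natCast_cpow_of_pos hp'.pos]
          refine lt_of_le_of_lt (mul_le_of_le_one_left (by positivity) (χ.norm_le_one _)) ?_
          rw [Complex.neg_re, Complex.ofReal_re]
          exact Real.rpow_lt_one_of_one_lt_of_neg (by exact_mod_cast hp'.one_lt) (by linarith)
        rw [sub_eq_zero] at e
        rw [← e, norm_one] at h1
        exact lt_irrefl _ h1
      rw [(mul_eq_zero.1 h).resolve_right hne, Complex.zero_re, mul_zero]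
    · exact mul_nonneg hζ (hall q χ hχ hχ2)
  have h := residue_lower_bound (a := fun n => zetaMul χ n)
    (G := fun s => riemannZeta₁ s * LFunction χ s) (fun n => zetaMul_nonneg hχ2 n)
    (zetaMul_one χ).ge (fun s hs => LSeriesSummable_zetaMul χ hs)
    (differentiable_riemannZeta₁.mul (differentiable_LFunction hχ)) (fun s hs => ?_)
    hM (fun z hz => ?_) ?_ hβ hβ1 hGβ
  · simpa using h
  · rw [lseries_zetaMul χ hs, ← LFunction_eq_LSeries χ hs,
      riemannZeta_eq_inv_sub_mul (fun e => by simp [e] at hs)]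
    ring
  · rw [norm_mul, show 7 * A * (q : ℝ) = A * (7 * q) by ring]
    exact mul_le_mul (hA z hz) (norm_LFunction_sphere hχ hz) (norm_nonneg _) (by linarith)
  · rw [riemannZeta₁_one, one_mul]
    refine (norm_LFunction_le hχ (by simp)).trans ?_
    simp only [norm_one, Complex.one_re, div_one, one_mul]
    exact le_mul_of_one_le_left (by linarith) (by linarith)

/-- The bound in general. -/
theorem lower_bound_product {q q₁ : ℕ} [NeZero q] [NeZero q₁] {χ : DirichletCharacter ℂ q}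
    {χ₁ : DirichletCharacter ℂ q₁} (hχ : χ ≠ 1) (hχ2 : χ ^ 2 = 1) (h₁ : χ₁ ≠ 1) (h₁2 : χ₁ ^ 2 = 1)
    (hprod : changeLevel (Nat.dvd_mul_left q q₁) χ * changeLevel (Nat.dvd_mul_right q₁ q) χ₁ ≠ 1)
    {β : ℝ} (hβ : 3 / 4 ≤ β) (hβ1 : β < 1)
    (href : LFunction χ₁ β = 0 ∨ (0 ≤ (riemannZeta₁ β).re ∧ ∀ (k : ℕ) [NeZero k]
      (ψ : DirichletCharacter ℂ k), ψ ≠ 1 → ψ ^ 2 = 1 → 0 ≤ (LFunction ψ β).re))
    {A : ℝ} (hA1 : 1 ≤ A) (hA : ∀ z ∈ sphere (2 : ℂ) (3 / 2), ‖riemannZeta₁ z‖ ≤ A) :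
    (1 - β) / 6 * (48 * (343 * A * (q₁ : ℝ) ^ 2 * (q : ℝ) ^ 2)) ^ (-(6 * (1 - β))) ≤
      (LFunction χ 1).re * ((1 + Real.log q₁) * (1 + Real.log ((q₁ : ℝ) * q))) := by
  haveI : NeZero (q₁ * q) := ⟨mul_ne_zero (NeZero.ne _) (NeZero.ne _)⟩
  set ψ := changeLevel (Nat.dvd_mul_left q q₁) χ * changeLevel (Nat.dvd_mul_right q₁ q) χ₁ with hψ
  have hψ2 : ψ ^ 2 = 1 := by rw [hψ, mul_pow, ← map_pow, ← map_pow, hχ2, h₁2, map_one, map_one,
    one_mul]
  have hmul : ∀ n : ℕ, ψ (n : ZMod (q₁ * q)) = χ₁ (n : ZMod q₁) * χ (n : ZMod q) := fun n => by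
    rw [hψ, MulChar.mul_apply]
    by_cases hn : n.Coprime (q₁ * q)
    · rw [changeLevel_natCast _ χ hn, changeLevel_natCast _ χ₁ hn, mul_comm]
    · rw [MulChar.map_nonunit (changeLevel (Nat.dvd_mul_left q q₁) χ)
        (mt (ZMod.isUnit_iff_coprime _ _).1 hn), zero_mul]
      by_cases hn1 : n.Coprime q₁
      · rw [MulChar.map_nonunit χ (mt (ZMod.isUnit_iff_coprime _ _).1 fun h =>
          hn (Nat.Coprime.mul_right hn1 h)), mul_zero]
      · rw [MulChar.map_nonunit χ₁ (mt (ZMod.isUnit_iff_coprime _ _).1 hn1), zero_mul]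
  have hq : (1 : ℝ) ≤ q := by exact_mod_cast NeZero.one_le
  have hq₁ : (1 : ℝ) ≤ q₁ := by exact_mod_cast NeZero.one_le
  have hQ : ((q₁ * q : ℕ) : ℝ) = (q₁ : ℝ) * q := Nat.cast_mul _ _
  have hM : 1 ≤ 343 * A * (q₁ : ℝ) ^ 2 * (q : ℝ) ^ 2 := by
    have h1 := one_le_pow₀ (n := 2) hq₁
    have h2 := one_le_pow₀ (n := 2) hq
    have h3 : 1 ≤ 343 * A := by linarith
    exact one_le_mul_of_one_le_of_one_le (one_le_mul_of_one_le_of_one_le h3 h1) h2
  have hreal : ∀ {x : ℝ}, 0 < x →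
      (riemannZeta₁ x * (LFunction χ₁ x * (LFunction χ x * LFunction ψ x))).re =
        (riemannZeta₁ x).re * ((LFunction χ₁ x).re * ((LFunction χ x).re * (LFunction ψ x).re)) :=
    fun {x} hx => by
      rw [lfunction_eq_ofReal h₁ h₁2 hx, lfunction_eq_ofReal hχ hχ2 hx,
        lfunction_eq_ofReal hprod hψ2 hx, ← Complex.ofReal_mul, ← Complex.ofReal_mul,
        Complex.re_mul_ofReal]
      simp only [Complex.ofReal_re]
  have hGβ : 0 ≤ (riemannZeta₁ β * (LFunction χ₁ β * (LFunction χ β * LFunction ψ β))).re := by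
    rw [hreal (by linarith)]
    rcases href with h0 | ⟨hζ, hall⟩
    · rw [h0, Complex.zero_re, zero_mul, mul_zero]
    · exact mul_nonneg hζ (mul_nonneg (hall q₁ χ₁ h₁ h₁2)
        (mul_nonneg (hall q χ hχ hχ2) (hall _ ψ hprod hψ2)))
  have h := residue_lower_bound (a := fun n => fourCoeff χ₁ χ ψ n)
    (G := fun s => riemannZeta₁ s * (LFunction χ₁ s * (LFunction χ s * LFunction ψ s)))
    (fun n => fourCoeff_nonneg h₁2 hχ2 hmul n)
    fourCoeff_one.ge (fun s hs => lseriesSummable_fourCoeff hs)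
    (differentiable_riemannZeta₁.mul ((differentiable_LFunction h₁).mul
      ((differentiable_LFunction hχ).mul (differentiable_LFunction hprod)))) (fun s hs => ?_)
    hM (fun z hz => ?_) ?_ hβ hβ1 hGβ
  · refine h.trans ?_
    have h1 := hreal one_pos
    simp only [Complex.ofReal_one] at h1
    rw [h1, riemannZeta₁_one, Complex.one_re, one_mul, mul_left_comm]
    refine mul_le_mul_of_nonneg_left (mul_le_mul ?_ ?_ (LFunction_one_re_pos hprod hψ2).le
      (by linarith [Real.log_nonneg hq₁])) (LFunction_one_re_pos hχ hχ2).le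
    · exact (Complex.re_le_norm _).trans (norm_LFunction_one_le h₁)
    · exact ((Complex.re_le_norm _).trans (norm_LFunction_one_le hprod)).trans
        (le_of_eq (by rw [hQ]))
  · rw [lseries_fourCoeff hs, ← LFunction_eq_LSeries χ₁ hs, ← LFunction_eq_LSeries χ hs,
      ← LFunction_eq_LSeries ψ hs, riemannZeta_eq_inv_sub_mul (fun e => by simp [e] at hs)]
    ring
  · have h2 := norm_LFunction_sphere hprod hz
    rw [hQ] at h2
    rw [norm_mul, norm_mul, norm_mul,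
      show 343 * A * (q₁ : ℝ) ^ 2 * (q : ℝ) ^ 2 =
        A * ((7 * q₁) * ((7 * q) * (7 * ((q₁ : ℝ) * q)))) by ring]
    gcongr
    exacts [hA z hz, norm_LFunction_sphere h₁ hz, norm_LFunction_sphere hχ hz]
  · have hb : ∀ {k : ℕ} [NeZero k] {φ : DirichletCharacter ℂ k}, φ ≠ 1 →
        ‖LFunction φ 1‖ ≤ 7 * k := fun {k} _ {φ} hφ => by
      refine (norm_LFunction_le hφ (by simp)).trans ?_
      simp only [norm_one, Complex.one_re, div_one, one_mul]
      linarith [(Nat.cast_nonneg k : (0 : ℝ) ≤ k)]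
    have h2 := hb hprod
    rw [hQ] at h2
    rw [riemannZeta₁_one, one_mul, norm_mul, norm_mul,
      show 343 * A * (q₁ : ℝ) ^ 2 * (q : ℝ) ^ 2 =
        A * ((7 * q₁) * ((7 * q) * (7 * ((q₁ : ℝ) * q)))) by ring,
      ← one_mul (‖LFunction χ₁ 1‖ * _)]
    gcongr
    exacts [hb h₁, hb hχ]

/-- **Siegel's theorem** (ineffective). -/
theorem siegel (ε : ℝ) (hε : 0 < ε) :
    ∃ C : ℝ, 0 < C ∧ ∀ (q : ℕ) [NeZero q] (χ : DirichletCharacter ℂ q), χ ≠ 1 → χ ^ 2 = 1 →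
      C * (q : ℝ) ^ (-ε) ≤ (LFunction χ 1).re := by
  set δ := min (1 / 4) (ε / 24)
  have hδ : 0 < δ := lt_min (by norm_num) (by linarith)
  have hδ4 : δ ≤ 1 / 4 := min_le_left _ _
  have hδε : δ ≤ ε / 24 := min_le_right _ _
  obtain ⟨q₁, hq₁, χ₁, β, h₁, h₁2, hβδ, hβ1, href⟩ := exists_reference hδ hδ4
  obtain ⟨A, hA1, hA⟩ := exists_zeta_bound
  have hq₁1 : (1 : ℝ) ≤ q₁ := by exact_mod_cast NeZero.one_le
  set e := 6 * (1 - β) with he
  have he0 : 0 < e := by linarith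
  set B := 1 + Real.log q₁ with hBdef
  have hB : 0 < B := by linarith [Real.log_nonneg hq₁1]
  set D := B + 2 / ε with hD
  have hD0 : 0 < D := by positivity
  set a₁ := (1 - β) / 6 * (48 * (7 * A)) ^ (-e) with ha₁
  set a₂ := (1 - β) / 6 * (48 * (343 * A * (q₁ : ℝ) ^ 2)) ^ (-e) / (B * D) with ha₂
  have hβ0 : 0 < (1 - β) / 6 := by linarith
  have ha₁0 : 0 < a₁ := mul_pos hβ0 (Real.rpow_pos_of_pos (by linarith) _)
  have hq₁A : 0 < 48 * (343 * A * (q₁ : ℝ) ^ 2) := by positivity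
  have ha₂0 : 0 < a₂ := div_pos (mul_pos hβ0 (Real.rpow_pos_of_pos hq₁A _)) (mul_pos hB hD0)
  refine ⟨min a₁ a₂, lt_min ha₁0 ha₂0, fun q _ χ hχ hχ2 => ?_⟩
  have hq : (1 : ℝ) ≤ q := by exact_mod_cast NeZero.one_le
  have hq0 : (0 : ℝ) < q := by linarith
  have hβ34 : 3 / 4 ≤ β := by linarith
  by_cases hprod :
      changeLevel (Nat.dvd_mul_left q q₁) χ * changeLevel (Nat.dvd_mul_right q₁ q) χ₁ = 1
  · refine le_trans ?_ (lower_bound_same hχ hχ2 h₁ h₁2 hprod hβ34 hβ1 href hA1 hA)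
    rw [show 48 * (7 * A * (q : ℝ)) = 48 * (7 * A) * q by ring, ← he,
      Real.mul_rpow (by linarith) hq0.le, ← mul_assoc, ← ha₁]
    exact mul_le_mul (min_le_left _ _) (Real.rpow_le_rpow_of_exponent_le hq (by linarith))
      (Real.rpow_nonneg hq0.le _) ha₁0.le
  · have h := lower_bound_product hχ hχ2 h₁ h₁2 hprod hβ34 hβ1 href hA1 hA
    rw [show 48 * (343 * A * (q₁ : ℝ) ^ 2 * (q : ℝ) ^ 2) =
        48 * (343 * A * (q₁ : ℝ) ^ 2) * (q : ℝ) ^ (2 : ℕ) by ring, ← he, ← hBdef,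
      Real.mul_rpow hq₁A.le (by positivity), ← Real.rpow_natCast (q : ℝ) 2, ← Real.rpow_mul hq0.le,
      ← mul_assoc] at h
    push_cast at h
    have hlog : 1 + Real.log ((q₁ : ℝ) * q) ≤ D * (q : ℝ) ^ (ε / 2) := by
      rw [Real.log_mul (by positivity) (by positivity), hD, add_mul]
      have h1 : 1 ≤ (q : ℝ) ^ (ε / 2) := Real.one_le_rpow hq (by linarith)
      have h2 := Real.log_le_rpow_div hq0.le (ε := ε / 2) (by linarith)
      have h3 : (q : ℝ) ^ (ε / 2) / (ε / 2) = 2 / ε * (q : ℝ) ^ (ε / 2) := by field_simp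
      nlinarith
    have hL := (LFunction_one_re_pos hχ hχ2).le
    have h' := h.trans (mul_le_mul_of_nonneg_left (mul_le_mul_of_nonneg_left hlog hB.le) hL)
    refine (mul_le_mul_of_nonneg_right (min_le_right a₁ a₂) (Real.rpow_nonneg hq0.le _)).trans ?_
    rw [ha₂, div_mul_eq_mul_div, div_le_iff₀ (mul_pos hB hD0),
      show -ε = -(ε / 2) + -(ε / 2) by ring, Real.rpow_add hq0, ← mul_assoc]
    have hpow : (q : ℝ) ^ (-(ε / 2)) ≤ (q : ℝ) ^ (2 * -e) :=
      Real.rpow_le_rpow_of_exponent_le hq (by linarith)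
    calc (1 - β) / 6 * (48 * (343 * A * (q₁ : ℝ) ^ 2)) ^ (-e) * (q : ℝ) ^ (-(ε / 2)) *
          (q : ℝ) ^ (-(ε / 2))
        ≤ (LFunction χ 1).re * (B * (D * (q : ℝ) ^ (ε / 2))) * (q : ℝ) ^ (-(ε / 2)) :=
          mul_le_mul_of_nonneg_right (le_trans (mul_le_mul_of_nonneg_left hpow
            (mul_nonneg hβ0.le (Real.rpow_nonneg hq₁A.le _))) h') (Real.rpow_nonneg hq0.le _)
      _ = (LFunction χ 1).re * (B * D) * ((q : ℝ) ^ (ε / 2) * (q : ℝ) ^ (-(ε / 2))) := by ring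
      _ = (LFunction χ 1).re * (B * D) := by
          rw [← Real.rpow_add hq0, add_neg_cancel, Real.rpow_zero, mul_one]

end FA.Siegel

end
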