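import Fermat.Agent.Tau.RingClassJ
import Fermat.Agent.ThetaOne.Ambiguous

/-!
# Real singular moduli

`j` at the root of a reduced form is real iff the form is ambiguous; all singular moduli of
discriminant `-4n` are real iff they all lie in `ℚ(j(√-n))` iff that field is normal.
-/

set_option autoImplicit false
set_option linter.style.haveILetI false

noncomputable section

namespace FA.RealModuli

open UpperHalfPlane hiding I
open FA.ModField FA.JInj FA.RingClassJ Polynomial Module
open FA.Singular hiding IsRoot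
open scoped MatrixGroups

local notation "Qb" => AlgebraicClosure ℚ

/-- An ambiguous form: `b = 0`, `|b| = a` or `a = c`. -/
def Amb (f : ℤ × ℤ × ℤ) : Prop := f.2.1 = 0 ∨ |f.2.1| = f.1 ∨ f.1 = f.2.2

/-- The mirror image `-conj τ`. -/
def mirror (τ : ℍ) : ℍ :=
  ⟨-starRingEnd ℂ (τ : ℂ), by
    rw [Complex.neg_im, Complex.conj_im, neg_neg]; exact τ.im_pos⟩

theorem coe_mirror (τ : ℍ) : ((mirror τ : ℍ) : ℂ) = -starRingEnd ℂ (τ : ℂ) := rfl

/-- `j(-conj τ) = conj j(τ)`. -/
theorem jfun_mirror (τ : ℍ) : jfun (mirror τ) = starRingEnd ℂ (jfun τ) := by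
  have hq : starRingEnd ℂ (qp 1 τ) = qp 1 (mirror τ) := by
    rw [qp_eq, qp_eq, ← Complex.exp_conj]
    congr 1
    rw [coe_mirror]
    simp [Complex.conj_ofReal, map_ofNat]
  have h1 := (hasExp_jfun τ).map (starRingEnd ℂ) Complex.continuous_conj
  refine (HasSum.unique ?_ (hasExp_jfun (mirror τ))).symm
  have e : (⇑(starRingEnd ℂ) ∘ fun n => (ModularCurve.jqModC ℂ).coeff n * qp 1 τ ^ n) =
      fun n => (ModularCurve.jqModC ℂ).coeff n * qp 1 (mirror τ) ^ n := by
    funext n
    rw [Function.comp_apply, map_mul, map_zpow₀, hq,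
      ← ModularCurve.coeffMap_jqModC (R := ℤ) (Int.castRingHom ℂ), ModularCurve.coeffMap_coeff]
    simp
  rw [← e]
  exact h1

theorem isRoot_mirror {a b c : ℤ} {τ : ℍ} (h : FA.Singular.IsRoot (a, b, c) τ) :
    FA.Singular.IsRoot (a, -b, c) (mirror τ) := by
  simp only [FA.Singular.IsRoot] at h ⊢
  have := congrArg (starRingEnd ℂ) h
  simp only [map_add, map_mul, map_pow, map_intCast, map_zero] at this
  rw [coe_mirror]
  push_cast
  linear_combination this

/-- **`j` at the root of a reduced form is real iff the form is ambiguous.** -/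
theorem im_eq_zero_iff {D : ℤ} (hD : D < 0) {f : ℤ × ℤ × ℤ} (hf : f ∈ Red D) {τ : ℍ}
    (hτ : FA.Singular.IsRoot f τ) : (jfun τ).im = 0 ↔ Amb f := by
  rw [← Complex.conj_eq_iff_im, ← jfun_mirror]
  obtain ⟨a, b, c⟩ := f
  obtain ⟨hd, hg, ha, hb, hc, htie⟩ := hf
  simp only [] at hd hg ha hb hc htie
  have hm := isRoot_mirror hτ
  constructor
  · intro h
    by_contra hne
    simp only [Amb, not_or] at hne
    obtain ⟨h0, h1, h2⟩ := hne
    obtain ⟨g, hg'⟩ := (jfun_eq_iff _ _).1 h.symm
    have := red_eq_of_smul hD (f := (a, b, c)) (f' := (a, -b, c)) ⟨hd, hg, ha, hb, hc, htie⟩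
      ⟨by rw [neg_sq]; exact hd, by rw [Int.gcd_neg]; exact hg, ha, by rwa [abs_neg], hc,
      fun k => by
        rw [abs_neg] at k; exact absurd k (not_or.2 ⟨h1, h2⟩)⟩ hτ hm hg'
    simp only [Prod.mk.injEq] at this
    omega
  · simp only [FA.Singular.IsRoot] at hτ hm
    rintro (h | h | h) <;> simp only [] at h
    · subst h
      rw [root_unique (t := (a, 0, c)) ha.ne' (show FA.Singular.IsRoot (a, 0, c) (mirror τ) by
        simpa [FA.Singular.IsRoot] using hm) hτ]
    · have hba : b = a := by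
        rcases abs_choice b with e | e
        · omega
        · have := htie (Or.inl h); omega
      subst hba
      rw [← jfun_smul ModularGroup.T τ]
      refine congrArg jfun (root_unique (t := (b, -b, c)) ha.ne' hm ?_)
      simp only [FA.Singular.IsRoot]
      rw [modular_T_smul, coe_vadd]
      push_cast at hτ ⊢
      linear_combination hτ
    · subst h
      rw [← jfun_smul ModularGroup.S τ]
      refine congrArg jfun (root_unique (t := (a, -b, a)) ha.ne' hm ?_)
      simp only [FA.Singular.IsRoot]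
      rw [modular_S_smul, UpperHalfPlane.coe_mk]
      have := τ.ne_zero
      field_simp
      push_cast at hτ ⊢
      linear_combination hτ

/-- The real values correspond to the ambiguous reduced forms. -/
theorem ncard_real {D : ℤ} (hD : D < 0) :
    {z ∈ values D | z.im = 0}.ncard = {f ∈ Red D | Amb f}.ncard := by
  classical
  have hex : ∀ f ∈ Red D, ∃ τ, FA.Singular.IsRoot f τ := fun f hf =>
    exists_isRoot hf.2.2.1 (show disc f < 0 by rw [disc, hf.1]; exact hD)
  symm
  refine Set.ncard_congr (fun f hf => jfun (hex f hf.1).choose) (fun f hf => ?_)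
    (fun f f' hf hf' e => ?_) ?_
  · exact ⟨⟨f, hf.1, _, (hex f hf.1).choose_spec, rfl⟩,
      (im_eq_zero_iff hD hf.1 (hex f hf.1).choose_spec).2 hf.2⟩
  · obtain ⟨g, hg⟩ := (jfun_eq_iff _ _).1 e
    exact red_eq_of_smul hD hf.1 hf'.1 (hex f hf.1).choose_spec (hex f' hf'.1).choose_spec hg
  · rintro z ⟨⟨f, hf, τ, hτ, rfl⟩, hz⟩
    exact ⟨f, ⟨hf, (im_eq_zero_iff hD hf hτ).1 hz⟩,
      congrArg jfun (root_unique hf.2.2.1.ne' (hex f hf).choose_spec hτ)⟩

/-- The ambiguous forms in the two notations. -/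
theorem amb_toTriple_iff {n : ℕ} [NeZero n] {t : ℕ × ℤ}
    (ht : FA.OrderTheta.IsRed n t.1 t.2) :
    Amb (toTriple n t) ↔ t.2 = 0 ∨ 2 * |t.2| = t.1 ∨ (t.1 : ℤ) * t.1 = t.2 ^ 2 + n := by
  obtain ⟨h0, hdvd, -⟩ := ht
  have ha : (t.1 : ℤ) ≠ 0 := by exact_mod_cast h0.ne'
  simp only [Amb, toTriple, abs_mul, abs_two, mul_eq_zero, two_ne_zero, false_or]
  refine or_congr_right (or_congr_right ⟨fun e => ?_, fun e => ?_⟩)
  · conv_lhs => rw [e]
    rw [← e]; nth_rw 2 [e]; exact Int.mul_ediv_cancel' hdvd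
  · exact mul_left_cancel₀ ha (e.trans (Int.mul_ediv_cancel' hdvd).symm)

/-- The number of ambiguous reduced forms of discriminant `-4n`. -/
theorem ncard_amb (n : ℕ) [NeZero n] (hn : 1 < n) :
    {f ∈ Red (-4 * (n : ℤ)) | Amb f}.ncard =
      (FA.OrderTheta.coprimeSplit n).card + (FA.OrderTheta.evenSplit n).card := by
  have h : {f ∈ Red (-4 * (n : ℤ)) | Amb f} =
      toTriple n '' (FA.OrderTheta.ambSet n (2 * n) : Set (ℕ × ℤ)) := by
    rw [red_eq_image, FA.OrderTheta.ambSet, Finset.coe_filter]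
    refine Set.Subset.antisymm ?_ ?_
    · rintro _ ⟨⟨t, ht, rfl⟩, ha⟩
      exact ⟨t, ⟨ht, (amb_toTriple_iff (Finset.mem_filter.1 ht).2).1 ha⟩, rfl⟩
    · rintro _ ⟨t, ⟨ht, ha⟩, rfl⟩
      exact ⟨⟨t, ht, rfl⟩, (amb_toTriple_iff (Finset.mem_filter.1 ht).2).2 ha⟩
  rw [h, Set.ncard_image_of_injective _ (toTriple_injective n), Set.ncard_coe_finset,
    FA.OrderTheta.card_ambSet hn (by nlinarith)]

/-- A field of real singular moduli inside the ring class field is `ℚ(j(√-n))`. -/
theorem mem_adjoin_of_real (n : ℕ) [NeZero n] {τ : ℍ} (hτ : (τ : ℂ) ^ 2 = -(n : ℂ)) {v : ℂ}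
    (hv : v ∈ values (-4 * (n : ℤ))) (hre : v.im = 0) :
    v ∈ IntermediateField.adjoin ℚ {jfun τ} := by
  obtain ⟨L, hfin, hgal, d, hd, hdeg, -, -, hsplit, -⟩ := FA.Summary.ringClassField_order n
  let ι : Qb →ₐ[ℚ] ℂ := IsAlgClosed.lift
  obtain ⟨y, hy, hdy, -, hall⟩ := eq_adjoin n L d hd hdeg hsplit ι τ hτ
  obtain ⟨f, hf, σ, hσ, rfl⟩ := hv
  obtain ⟨z, hz⟩ := hall f hf σ hσ
  set K := IntermediateField.adjoin ℚ {(y : Qb)} with hK
  set M := IntermediateField.adjoin ℚ {(y : Qb), (z : Qb)} with hM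
  have hML : M ≤ L := IntermediateField.adjoin_le_iff.2 (by
    rintro w (rfl | rfl)
    exacts [y.2, z.2])
  have hKM : K ≤ M :=
    IntermediateField.adjoin.mono ℚ _ _ (Set.singleton_subset_iff.2 (Or.inl rfl))
  haveI : FiniteDimensional ℚ M :=
    Module.Finite.of_injective (IntermediateField.inclusion hML).toLinearMap
      (IntermediateField.inclusion hML).injective
  haveI : FiniteDimensional ℚ K :=
    Module.Finite.of_injective (IntermediateField.inclusion hKM).toLinearMap
      (IntermediateField.inclusion hKM).injective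
  have hreal : ∀ w ∈ M, starRingEnd ℂ (ι w) = ι w := by
    intro w hw
    induction hw using IntermediateField.adjoin_induction with
    | mem x hx =>
      rcases hx with rfl | rfl
      · rw [hy]
        refine conj_jfun ?_
        have him := congrArg Complex.im hτ
        simp [pow_two, Complex.mul_im] at him
        nlinarith [τ.im_pos]
      · rw [hz, Complex.conj_eq_iff_im]; exact hre
    | algebraMap x => simp
    | add x w _ _ hx hw => rw [map_add, map_add, hx, hw]
    | inv x _ hx => rw [map_inv₀, map_inv₀, hx]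
    | mul x w _ _ hx hw => rw [map_mul, map_mul, hx, hw]
  have hne : M ≠ L := fun e => by
    have hc := Complex.conj_eq_iff_im.1 (hreal _ (show (d : Qb) ∈ M by rw [e]; exact d.2))
    have hd' : ι (d : Qb) ^ 2 = -(n : ℂ) := by
      rw [← map_pow, ← map_natCast ι n, ← map_neg]
      exact congrArg ι (congrArg (fun t : L => (t : Qb)) hd |>.trans (by push_cast; rfl))
    have h2 := congrArg Complex.re hd'
    simp [pow_two, Complex.mul_re, hc] at h2
    have : (1 : ℝ) ≤ n := by exact_mod_cast NeZero.pos n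
    nlinarith [mul_self_nonneg (ι (d : Qb)).re]
  have hKdeg : finrank ℚ K = Nat.card (FA.OrderTheta.Cl n) := by
    rw [hK, IntermediateField.adjoin.finrank (Algebra.IsIntegral.isIntegral (y : Qb)), ← hdy]
    exact congrArg natDegree (minpoly.algHom_eq L.val L.val.injective y)
  let _ : Algebra K M := (IntermediateField.inclusion hKM).toRingHom.toAlgebra
  let _ : Algebra M L := (IntermediateField.inclusion hML).toRingHom.toAlgebra
  haveI : IsScalarTower ℚ K M := IsScalarTower.of_algebraMap_eq fun _ => rfl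
  haveI : IsScalarTower ℚ M L := IsScalarTower.of_algebraMap_eq fun _ => rfl
  have h1 := Module.finrank_mul_finrank ℚ K M
  have h2 := Module.finrank_mul_finrank ℚ M L
  have h3 : finrank M L ≠ 1 := fun e => by
    rw [e, mul_one] at h2
    exact hne (IntermediateField.eq_of_le_of_finrank_le hML h2.ge)
  have hLpos : 0 < finrank ℚ L := finrank_pos
  rw [← h2, ← h1, hKdeg] at hdeg
  rw [← h2, ← h1, hKdeg] at hLpos
  have hKM' : finrank K M = 1 := by
    have e : finrank K M * finrank M L = 2 :=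
      Nat.eq_of_mul_eq_mul_left (n := Nat.card (FA.OrderTheta.Cl n))
        (Nat.pos_of_mul_pos_right (Nat.pos_of_mul_pos_right hLpos))
        (by rw [← mul_assoc, hdeg, mul_comm])
    rcases (Nat.dvd_prime Nat.prime_two).1 (Dvd.intro _ e) with h | h
    · exact h
    · rw [h] at e; omega
  rw [hKM', mul_one] at h1
  have hKeq : K = M := IntermediateField.eq_of_le_of_finrank_le hKM h1.ge
  have hzK : (z : Qb) ∈ K := hKeq ▸ IntermediateField.subset_adjoin ℚ _ (Or.inr rfl)
  have hmap : K.map ι = IntermediateField.adjoin ℚ {jfun τ} := by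
    rw [hK, IntermediateField.adjoin_map, Set.image_singleton, hy]
  rw [← hmap, ← hz]
  exact ⟨_, hzK, rfl⟩

/-- Real singular moduli, membership in `ℚ(j(√-n))` and normality. -/
theorem real_tfae (n : ℕ) [NeZero n] {τ : ℍ} (hτ : (τ : ℂ) ^ 2 = -(n : ℂ)) :
    List.TFAE
      [∀ (a : ℕ) (b : ℤ), FA.OrderTheta.IsRed n a b →
          b = 0 ∨ 2 * |b| = a ∨ (a : ℤ) * a = b ^ 2 + n,
        ∀ v ∈ values (-4 * (n : ℤ)), v.im = 0,
        ∀ v ∈ values (-4 * (n : ℤ)), v ∈ IntermediateField.adjoin ℚ {jfun τ},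
        Normal ℚ (IntermediateField.adjoin ℚ {jfun τ})] := by
  set D : ℤ := -4 * (n : ℤ) with hDdef
  have hn : 0 < n := NeZero.pos n
  have hD : D < 0 := by omega
  have hu : jfun τ ∈ values D := by
    have hdisc : disc (1, 0, (n : ℤ)) = D := by simp [disc, hDdef]
    rw [← hdisc]
    exact jfun_mem_values one_pos (by rw [hdisc]; exact hD) (by simp)
      (by simp [FA.Singular.IsRoot, hτ])
  have hi := isIntegral_values hD hu
  have hreal : ∀ w ∈ IntermediateField.adjoin ℚ {jfun τ}, starRingEnd ℂ w = w := by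
    intro w hw
    induction hw using IntermediateField.adjoin_induction with
    | mem x hx =>
      rw [Set.mem_singleton_iff.1 hx]
      refine conj_jfun ?_
      have him := congrArg Complex.im hτ
      simp [pow_two, Complex.mul_im] at him
      nlinarith [τ.im_pos]
    | algebraMap x => simp
    | add x w _ _ hx hw => rw [map_add, hx, hw]
    | inv x _ hx => rw [map_inv₀, hx]
    | mul x w _ _ hx hw => rw [map_mul, hx, hw]
  tfae_have 1 → 2 := by
    rintro h v ⟨f, hf, σ, hσ, rfl⟩
    refine (im_eq_zero_iff hD hf hσ).2 ?_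
    obtain ⟨t, ht, rfl⟩ := red_eq_image n ▸ hf
    exact (amb_toTriple_iff (Finset.mem_filter.1 ht).2).2 (h _ _ (Finset.mem_filter.1 ht).2)
  tfae_have 2 → 1 := by
    intro h a b hr
    have ht : (a, b) ∈ FA.OrderTheta.redSet n (2 * n) :=
      FA.OrderTheta.mem_redSet (by nlinarith) hr
    have hf : toTriple n (a, b) ∈ Red D := by
      rw [hDdef, red_eq_image n]; exact ⟨_, ht, rfl⟩
    obtain ⟨σ, hσ⟩ := exists_isRoot hf.2.2.1 (by rw [disc, hf.1]; exact hD)
    exact (amb_toTriple_iff (t := (a, b)) hr).1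
      ((im_eq_zero_iff hD hf hσ).1 (h _ ⟨_, hf, σ, hσ, rfl⟩))
  tfae_have 2 → 3 := fun h v hv => mem_adjoin_of_real n hτ hv (h v hv)
  tfae_have 3 → 2 := fun h v hv => Complex.conj_eq_iff_im.1 (hreal v (h v hv))
  tfae_have 3 → 4 := by
    intro h
    have e : IntermediateField.adjoin ℚ {jfun τ} =
        IntermediateField.adjoin ℚ ((minpoly ℚ (jfun τ)).rootSet ℂ) := by
      refine le_antisymm (IntermediateField.adjoin.mono ℚ _ _ ?_)
        (IntermediateField.adjoin_le_iff.2 fun x hx => ?_)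
      · rw [Set.singleton_subset_iff, mem_rootSet]
        exact ⟨minpoly.ne_zero hi.tower_top, minpoly.aeval ℚ _⟩
      · refine h x (root_mem_values hD hu ?_)
        have := (mem_rootSet.1 hx).2
        rwa [minpoly.isIntegrallyClosed_eq_field_fractions' ℚ hi, aeval_map_algebraMap] at this
    rw [e]
    exact @Normal.of_isSplittingField _ _ _ _ _ (minpoly ℚ (jfun τ))
      (IntermediateField.adjoin_rootSet_isSplittingField (L := ℂ)
        (IsAlgClosed.splits ((minpoly ℚ (jfun τ)).map (algebraMap ℚ ℂ))))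
  tfae_have 4 → 3 := by
    intro hN v hv
    set K := IntermediateField.adjoin ℚ {jfun τ}
    set x : K := ⟨jfun τ, IntermediateField.mem_adjoin_simple_self ℚ _⟩
    have hsp := hN.splits x
    have hm : minpoly ℚ x = minpoly ℚ (jfun τ) :=
      (minpoly.algHom_eq K.val K.val.injective x).symm
    rw [hm] at hsp
    have him := hsp.image_rootSet (K.val)
    have hv' : v ∈ (minpoly ℚ (jfun τ)).rootSet ℂ := by
      rw [mem_rootSet, minpoly.isIntegrallyClosed_eq_field_fractions' ℚ hi, aeval_map_algebraMap,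
        minpoly_eq_of_mem hD hu hv]
      exact ⟨((minpoly.monic (isIntegral_values hD hv)).map _).ne_zero, minpoly.aeval ℤ _⟩
    rw [← him] at hv'
    obtain ⟨w, -, rfl⟩ := hv'
    exact w.2
  tfae_finish

end FA.RealModuli

end
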