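import Fermat.Agent.Tau.JInjective
import Fermat.Agent.Mazur.Moduli.WeierAdd

/-!
# The invariants of a lattice containing another with prime index

If `M` is the lattice generated by `L` and a point `w` of order `l` modulo `L`, then `g₂(M)` and
`g₃(M)` are those of `L` corrected by sums of polynomials in `℘ (i w)` (Vélu): the sums over the
cosets are Taylor coefficients of `℘` at the points `i w`.
-/

set_option autoImplicit false

noncomputable section

namespace FA.Hatada

open Filter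
open scoped Topology

variable (L : PeriodPair)

theorem except_eq {x : ℂ} (hx : x ∉ L.lattice) : L.weierstrassPExcept x = L.weierstrassP :=
  L.weierstrassPExcept_of_notMem x hx

theorem eventually_notMem_lattice {x : ℂ} (hx : x ∉ L.lattice) : ∀ᶠ y in 𝓝 x, y ∉ L.lattice :=
  L.isClosed_lattice.isOpen_compl.mem_nhds hx

theorem hasDerivAt_P {x : ℂ} (hx : x ∉ L.lattice) :
    HasDerivAt L.weierstrassP (L.derivWeierstrassP x) x := by
  have h := (L.analyticOnNhd_weierstrassP x hx).differentiableAt.hasDerivAt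
  rwa [L.deriv_weierstrassP] at h

theorem hasDerivAt_P' {x : ℂ} (hx : x ∉ L.lattice) :
    HasDerivAt L.derivWeierstrassP (6 * L.weierstrassP x ^ 2 - L.g₂ / 2) x := by
  have h := (L.analyticOnNhd_derivWeierstrassP x hx).differentiableAt.hasDerivAt
  rwa [FA.Mazur.Weier.deriv_derivWeierstrassP L hx] at h

theorem iteratedDeriv_two_P {x : ℂ} (hx : x ∉ L.lattice) :
    iteratedDeriv 2 L.weierstrassP x = 6 * L.weierstrassP x ^ 2 - L.g₂ / 2 := by
  rw [iteratedDeriv_succ, iteratedDeriv_one, L.deriv_weierstrassP]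
  exact (hasDerivAt_P' L hx).deriv

theorem iteratedDeriv_three_P {x : ℂ} (hx : x ∉ L.lattice) :
    iteratedDeriv 3 L.weierstrassP x = 12 * L.weierstrassP x * L.derivWeierstrassP x := by
  have h : iteratedDeriv 2 L.weierstrassP =ᶠ[𝓝 x]
      fun y => 6 * L.weierstrassP y ^ 2 - L.g₂ / 2 :=
    (eventually_notMem_lattice L hx).mono fun y hy => iteratedDeriv_two_P L hy
  rw [iteratedDeriv_succ, h.deriv_eq,
    ((((hasDerivAt_P L hx).fun_pow 2).const_mul 6).sub_const _).deriv]
  push_cast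
  ring

theorem iteratedDeriv_four_P {x : ℂ} (hx : x ∉ L.lattice) :
    iteratedDeriv 4 L.weierstrassP x =
      120 * L.weierstrassP x ^ 3 - 18 * L.g₂ * L.weierstrassP x - 12 * L.g₃ := by
  have h : iteratedDeriv 3 L.weierstrassP =ᶠ[𝓝 x]
      fun y => 12 * L.weierstrassP y * L.derivWeierstrassP y :=
    (eventually_notMem_lattice L hx).mono fun y hy => iteratedDeriv_three_P L hy
  rw [iteratedDeriv_succ, h.deriv_eq,
    (((hasDerivAt_P L hx).const_mul 12).fun_mul (hasDerivAt_P' L hx)).deriv]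
  linear_combination 12 * L.derivWeierstrassP_sq x hx

/-- `∑ (λ - x)⁻⁴ = ℘(x)² - g₂/12`. -/
theorem sumInvPow_four {x : ℂ} (hx : x ∉ L.lattice) :
    L.sumInvPow x 4 = L.weierstrassP x ^ 2 - L.g₂ / 12 := by
  have h := L.iteratedDeriv_weierstrassPExcept_self x (n := 2)
  rw [except_eq L hx, iteratedDeriv_two_P L hx, if_neg (by norm_num)] at h
  norm_num [Nat.factorial] at h
  linear_combination -h / 6

/-- `∑ (λ - x)⁻⁶ = ℘(x)³ - 3 g₂ ℘(x)/20 - g₃/10`. -/
theorem sumInvPow_six {x : ℂ} (hx : x ∉ L.lattice) : L.sumInvPow x 6 =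
    L.weierstrassP x ^ 3 - 3 * L.g₂ * L.weierstrassP x / 20 - L.g₃ / 10 := by
  have h := L.iteratedDeriv_weierstrassPExcept_self x (n := 4)
  rw [except_eq L hx, iteratedDeriv_four_P L hx, if_neg (by norm_num)] at h
  norm_num [Nat.factorial] at h
  linear_combination -h / 120

theorem sumInvPow_neg (x : ℂ) {n : ℕ} (hn : Even n) : L.sumInvPow (-x) n = L.sumInvPow x n := by
  simp only [PeriodPair.sumInvPow]
  rw [← (Equiv.neg L.lattice).tsum_eq]
  refine tsum_congr fun l => ?_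
  simp only [Equiv.neg_apply, NegMemClass.coe_neg]
  rw [show -(l : ℂ) - -x = -((l : ℂ) - x) by ring, hn.neg_pow]

/-- `M` is generated by `L` and `w`, a point of order `l` modulo `L`. -/
structure IsSuper (M : PeriodPair) (w : ℂ) (l : ℕ) : Prop where
  prime : l.Prime
  not_mem : w ∉ L.lattice
  mul_mem : (l : ℂ) * w ∈ L.lattice
  mem_iff : ∀ x : ℂ, x ∈ M.lattice ↔ ∃ i : ℤ, x - (i : ℂ) * w ∈ L.lattice

variable {L} {M : PeriodPair} {w : ℂ} {l : ℕ}

theorem IsSuper.dvd_of_mul_mem (h : IsSuper L M w l) {i : ℤ} (hi : (i : ℂ) * w ∈ L.lattice) :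
    (l : ℤ) ∣ i := by
  by_contra hd
  obtain ⟨a, b, hab⟩ : IsCoprime (l : ℤ) i :=
    (Prime.coprime_iff_not_dvd (Nat.prime_iff_prime_int.1 h.prime)).2 hd
  have hab' : (a : ℂ) * l + b * i = 1 := by exact_mod_cast hab
  refine h.not_mem ?_
  have e : w = a • ((l : ℂ) * w) + b • ((i : ℂ) * w) := by
    rw [zsmul_eq_mul, zsmul_eq_mul]
    linear_combination (-w) * hab'
  rw [e]
  exact add_mem (zsmul_mem h.mul_mem a) (zsmul_mem hi b)

theorem IsSuper.natCast_mul_notMem (h : IsSuper L M w l) {i : ℕ} (hi : ¬l ∣ i) :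
    (i : ℂ) * w ∉ L.lattice := fun hm =>
  hi (Int.natCast_dvd_natCast.1 (h.dvd_of_mul_mem (i := (i : ℤ)) (by exact_mod_cast hm)))

/-- A sum over `M` is the sum over the cosets of `L`. -/
theorem IsSuper.G_eq (h : IsSuper L M w l) {n : ℕ} (hn : 3 ≤ n) (he : Even n) :
    M.G n = L.G n + ∑ i ∈ (Finset.range l).erase 0, L.sumInvPow ((i : ℂ) * w) n := by
  have : NeZero l := ⟨h.prime.ne_zero⟩
  have hmem : ∀ p : Fin l × L.lattice, ((p.1 : ℕ) : ℂ) * w + p.2 ∈ M.lattice := fun p =>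
    (h.mem_iff _).2 ⟨(p.1 : ℕ), by simp⟩
  let f : Fin l × L.lattice → M.lattice := fun p => ⟨_, hmem p⟩
  have hf : Function.Bijective f := by
    constructor
    · rintro ⟨i, x⟩ ⟨j, y⟩ hij
      have e : ((i : ℕ) : ℂ) * w + (x : ℂ) = ((j : ℕ) : ℂ) * w + (y : ℂ) := congrArg Subtype.val hij
      have hd : (l : ℤ) ∣ ((i : ℕ) : ℤ) - ((j : ℕ) : ℤ) := h.dvd_of_mul_mem (by
        rw [show (((((i : ℕ) : ℤ) - ((j : ℕ) : ℤ)) : ℤ) : ℂ) * w = (y : ℂ) - x by
          push_cast; linear_combination e]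
        exact sub_mem y.2 x.2)
      have hij' : i = j := Fin.ext (by
        have := Int.eq_zero_of_abs_lt_dvd hd (by rw [abs_lt]; omega)
        omega)
      subst hij'
      exact Prod.ext rfl (Subtype.ext (add_left_cancel e))
    · rintro ⟨x, hx⟩
      obtain ⟨i, hi⟩ := (h.mem_iff x).1 hx
      have hl0 : (l : ℤ) ≠ 0 := by exact_mod_cast h.prime.ne_zero
      set r : ℕ := (i % l).toNat with hr
      have hrl : r < l := by
        have := Int.emod_lt_of_pos i (show (0 : ℤ) < l by exact_mod_cast h.prime.pos)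
        have := Int.emod_nonneg i hl0
        omega
      have hri : (r : ℤ) = i - l * (i / l) := by
        rw [hr, Int.toNat_of_nonneg (Int.emod_nonneg i hl0), Int.emod_def]
      have hx' : x - (r : ℂ) * w ∈ L.lattice := by
        rw [show x - (r : ℂ) * w = (x - (i : ℂ) * w) + (i / l : ℤ) • ((l : ℂ) * w) by
          rw [zsmul_eq_mul, show (r : ℂ) = ((i - l * (i / l) : ℤ) : ℂ) by rw [← hri]; simp]
          push_cast
          ring]
        exact add_mem hi (zsmul_mem h.mul_mem _)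
      exact ⟨(⟨r, hrl⟩, ⟨_, hx'⟩), Subtype.ext (by simp [f])⟩
  let e : Fin l × L.lattice ≃ M.lattice := Equiv.ofBijective f hf
  have hs : Summable fun x : M.lattice => ((x : ℂ) ^ n)⁻¹ := by
    simpa using (M.hasSum_sumInvPow 0 (r := n) (by omega)).summable
  have hsum := (e.summable_iff.2 hs).tsum_prod' fun i => by
    refine (L.hasSum_sumInvPow (-(((i : ℕ) : ℂ) * w)) (r := n) (by omega)).summable.congr
      fun x => ?_
    simp [e, f, add_comm]
  rw [PeriodPair.G, ← e.tsum_eq, show (fun p => (((e p : M.lattice) : ℂ) ^ n)⁻¹) =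
    (fun x : M.lattice => ((x : ℂ) ^ n)⁻¹) ∘ e from rfl, hsum, tsum_fintype]
  have hterm : ∀ i : Fin l, (∑' x : L.lattice,
      ((fun x : M.lattice => ((x : ℂ) ^ n)⁻¹) ∘ e) (i, x)) =
        L.sumInvPow (((i : ℕ) : ℂ) * w) n := fun i => by
    rw [← sumInvPow_neg L _ he, PeriodPair.sumInvPow]
    refine tsum_congr fun x => ?_
    simp [e, f, add_comm]
  simp only [hterm, Fin.sum_univ_eq_sum_range fun i : ℕ => L.sumInvPow ((i : ℂ) * w) n]
  rw [← Finset.add_sum_erase _ _ (Finset.mem_range.2 h.prime.pos)]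
  simp

/-- **Vélu for `g₂`.** -/
theorem IsSuper.g₂_eq (h : IsSuper L M w l) : M.g₂ = L.g₂ +
    (60 * ∑ i ∈ (Finset.range l).erase 0, L.weierstrassP ((i : ℂ) * w) ^ 2 -
      5 * ((l : ℂ) - 1) * L.g₂) := by
  have hc : (((Finset.range l).erase 0).card : ℂ) = (l : ℂ) - 1 := by
    rw [Finset.card_erase_of_mem (Finset.mem_range.2 h.prime.pos), Finset.card_range,
      Nat.cast_sub h.prime.one_lt.le, Nat.cast_one]
  rw [PeriodPair.g₂, h.G_eq (n := 4) (by norm_num) (by decide), Finset.sum_congr rfl fun i hi =>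
    sumInvPow_four L (h.natCast_mul_notMem (i := i) ?_), Finset.sum_sub_distrib, Finset.sum_const,
    nsmul_eq_mul, hc, PeriodPair.g₂]
  · ring
  · simp only [Finset.mem_erase, Finset.mem_range] at hi
    exact fun hd => hi.1 (Nat.eq_zero_of_dvd_of_lt hd hi.2)

/-- **Vélu for `g₃`.** -/
theorem IsSuper.g₃_eq (h : IsSuper L M w l) : M.g₃ = L.g₃ +
    (140 * ∑ i ∈ (Finset.range l).erase 0, L.weierstrassP ((i : ℂ) * w) ^ 3 -
      21 * L.g₂ * ∑ i ∈ (Finset.range l).erase 0, L.weierstrassP ((i : ℂ) * w) -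
      14 * ((l : ℂ) - 1) * L.g₃) := by
  have hc : (((Finset.range l).erase 0).card : ℂ) = (l : ℂ) - 1 := by
    rw [Finset.card_erase_of_mem (Finset.mem_range.2 h.prime.pos), Finset.card_range,
      Nat.cast_sub h.prime.one_lt.le, Nat.cast_one]
  rw [PeriodPair.g₃, h.G_eq (n := 6) (by norm_num) (by decide), Finset.sum_congr rfl fun i hi =>
    sumInvPow_six L (h.natCast_mul_notMem (i := i) ?_), Finset.sum_sub_distrib,
    Finset.sum_sub_distrib, Finset.sum_const, nsmul_eq_mul, hc, ← Finset.sum_div,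
    ← Finset.mul_sum, PeriodPair.g₃]
  · ring
  · simp only [Finset.mem_erase, Finset.mem_range] at hi
    exact fun hd => hi.1 (Nat.eq_zero_of_dvd_of_lt hd hi.2)

end FA.Hatada

end
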