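import Fermat.Agent.Root.SummaryJBijection
import Fermat.Agent.ClassNumberOne.Ode
import Fermat.Agent.Frob.VarChange
import Mathlib.AlgebraicGeometry.EllipticCurve.IsomOfJ

/-!
# Elliptic curves over `ℂ` are tori

The uniformisation is an isomorphism `ℂ/L ≅ E_L(ℂ)`, and every pair `(c₄, c₆)` comes from a
lattice.
-/

set_option autoImplicit false

noncomputable section

namespace FA.Uniformisation

open FA.Mazur.Wp

variable (L : PeriodPair)

theorem exists_pair_eq {x y : ℂ} (h : y ^ 2 = 4 * x ^ 3 - L.g₂ * x - L.g₃) :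
    ∃ z ∉ L.lattice, L.weierstrassP z = x ∧ L.derivWeierstrassP z = y := by
  obtain ⟨z, hz, rfl⟩ := FA.ClassNumberOne.exists_wp_eq L x
  rw [← L.derivWeierstrassP_sq z hz] at h
  rcases sq_eq_sq_iff_eq_or_eq_neg.mp h with h | h
  · exact ⟨z, hz, rfl, h.symm⟩
  · exact ⟨-z, fun h' => hz (by simpa using neg_mem h'), L.weierstrassP_neg z,
      by rw [L.derivWeierstrassP_neg, h]⟩

instance isElliptic_latCurve : (latCurve L).IsElliptic :=
  ⟨isUnit_iff_ne_zero.mpr (by
    rw [latCurve_Δ]; exact FA.Summary.lattice_discriminant_ne_zero L)⟩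

/-- **`ℂ/L` is the group of points of its curve.** -/
def unifEquiv : ℂ ⧸ L.lattice.toAddSubgroup ≃+ (latCurve L).toAffine.Point :=
  (QuotientAddGroup.quotientAddEquivOfEq (AddSubgroup.ext fun z =>
      (show unifHom L z = 0 ↔ z ∈ L.lattice from unif_eq_zero_iff L).symm)).trans
    (QuotientAddGroup.quotientKerEquivOfSurjective (unifHom L)
      (FA.ClassNumberOne.unif_surjective L))

/-- **Every elliptic curve over `ℂ` is a torus.** -/
theorem exists_torus (E : WeierstrassCurve ℂ) [E.IsElliptic] :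
    ∃ L : PeriodPair, Nonempty (ℂ ⧸ L.lattice.toAddSubgroup ≃+ E.toAffine.Point) := by
  have hΔ : E.Δ ≠ 0 := E.isUnit_Δ.ne_zero
  have hd : (E.c₄ / 12) ^ 3 - 27 * (E.c₆ / 216) ^ 2 = E.Δ := by
    linear_combination (-(1 / 1728 : ℂ)) * E.c_relation
  obtain ⟨L, h2, h3⟩ := FA.JInj.exists_g₂_g₃ (a := E.c₄ / 12) (b := E.c₆ / 216) (by rwa [hd])
  have hj : (latCurve L).j = E.j := by
    have h4 : (latCurve L).c₄ = E.c₄ := by rw [latCurve_c₄, h2]; ring
    have hD : (latCurve L).Δ = E.Δ := by rw [latCurve_Δ, h2, h3, hd]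
    simp only [WeierstrassCurve.j, Units.val_inv_eq_inv_val, WeierstrassCurve.coe_Δ', h4, hD]
  obtain ⟨C, hC⟩ := WeierstrassCurve.exists_variableChange_of_j_eq (latCurve L) E hj
  exact ⟨L, ⟨(unifEquiv L).trans (FA.Frob.vcEquiv C hC).symm⟩⟩

end FA.Uniformisation

end
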