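import Fermat.Agent.Tau.FieldClassBound
import Fermat.Agent.ExceptionalIsCM.SmallClassOne
import Mathlib.RingTheory.Ideal.Norm.AbsNorm

/-!
# Euclidean imaginary quadratic fields

In a ring with a division algorithm a minimal non-unit `x ≠ 0` has every residue class represented
by `0` or a unit. For `d ≤ -5` the units are `± 1`, so `(x)` has norm at most `3`, impossible
unless `d` is `-7` or `-11`. For `-1`, `-2`, `-3`, `-7`, `-11` every element of the field is at
norm distance less than one from an integer.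
-/

set_option autoImplicit false
set_option linter.style.haveILetI false

noncomputable section

namespace FA.Euclidean

open NumberField Module

variable {K : Type*} [Field K] [NumberField K] {d : ℤ} {s : K}

/-- Twice the coordinates, and the norm. -/
theorem exists_coord_norm (hK : finrank ℚ K = 2) (hd : Squarefree d) (hd0 : d < 0)
    (hs : s ^ 2 = (d : K)) (r : 𝓞 K) :
    ∃ A B : ℤ, 2 * (r : K) = (A : K) + (B : K) * s ∧
      A ^ 2 - d * B ^ 2 = 4 * Algebra.norm ℤ r := by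
  obtain ⟨A, B, N, h1, hN⟩ := FA.FieldClassBound.exists_double_coord hK hd hd0 hs r
  refine ⟨A, B, h1, ?_⟩
  obtain ⟨h, -⟩ := FA.ExceptionalIsCM.norm_trace_int hK hd0 hs (z := r)
    (u := (A : ℚ) / 2) (v := (B : ℚ) / 2) (by push_cast; linear_combination h1 / 2)
  have e : ((A ^ 2 - d * B ^ 2 : ℤ) : ℚ) = ((4 * Algebra.norm ℤ r : ℤ) : ℚ) := by
    push_cast; rw [← h]; ring
  exact_mod_cast e

/-- For `d ≤ -5` the units are `± 1`. -/
theorem unit_eq (hK : finrank ℚ K = 2) (hd : Squarefree d) (hd5 : d ≤ -5)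
    (hs : s ^ 2 = (d : K)) {u : 𝓞 K} (hu : IsUnit u) : u = 1 ∨ u = -1 := by
  obtain ⟨A, B, h1, hN⟩ := exists_coord_norm hK hd (by omega) hs u
  have hB2 : 0 ≤ B ^ 2 := sq_nonneg B
  have hn : Algebra.norm ℤ u = 1 := by
    rcases Int.isUnit_iff.1 (hu.map (Algebra.norm ℤ)) with h | h
    · exact h
    · rw [h] at hN; nlinarith [sq_nonneg A]
  rw [hn] at hN
  obtain rfl : B = 0 := by
    by_contra hB
    have : 1 ≤ B ^ 2 := by have := pow_pos (abs_pos.2 hB) 2; rw [sq_abs] at this; omega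
    nlinarith [sq_nonneg A]
  have hA : A = 2 ∨ A = -2 := sq_eq_sq_iff_eq_or_eq_neg.1 (by linarith : A ^ 2 = 2 ^ 2)
  rcases hA with rfl | rfl <;> push_cast at h1
  · exact Or.inl (RingOfIntegers.ext (by push_cast; linear_combination h1 / 2))
  · exact Or.inr (RingOfIntegers.ext (by push_cast; linear_combination h1 / 2))

/-- **A division algorithm forces one of the five fields.** -/
theorem mem_five_of_division (hK : finrank ℚ K = 2) (hd : Squarefree d) (hd0 : d < 0)
    (hs : s ^ 2 = (d : K)) {r : 𝓞 K → 𝓞 K → Prop} (hwf : WellFounded r)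
    (hdiv : ∀ a b : 𝓞 K, b ≠ 0 → ∃ q, a = b * q ∨ r (a - b * q) b) :
    d ∈ ({-1, -2, -3, -7, -11} : Finset ℤ) := by
  by_contra hmem
  simp only [Finset.mem_insert, Finset.mem_singleton, not_or] at hmem
  have hd4 : ¬ (4 : ℤ) ∣ d := fun h => by
    have := hd 2 (by norm_num; exact h)
    simp [Int.isUnit_iff] at this
  have hd5 : d ≤ -5 := by omega
  have h2 : (2 : 𝓞 K) ≠ 0 ∧ ¬ IsUnit (2 : 𝓞 K) := by
    refine ⟨two_ne_zero, fun h => ?_⟩
    rcases unit_eq hK hd hd5 hs h with h | h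
    · exact absurd (show ((2 : ℕ) : 𝓞 K) = ((1 : ℕ) : 𝓞 K) by exact_mod_cast h)
        (fun e => by simp at e)
    · have : ((3 : ℕ) : 𝓞 K) = 0 := by push_cast; linear_combination h
      simp at this
  obtain ⟨x, ⟨hx0, hxu⟩, hmin⟩ := hwf.has_min {x | x ≠ 0 ∧ ¬ IsUnit x} ⟨2, h2⟩
  have hsurj : Function.Surjective
      (fun i : Fin 3 => Ideal.Quotient.mk (Ideal.span {x}) ((i : ℕ) - 1 : 𝓞 K)) := by
    intro y
    obtain ⟨a, rfl⟩ := Ideal.Quotient.mk_surjective y
    obtain ⟨q, hq⟩ := hdiv a x hx0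
    have hmk : ∀ c : 𝓞 K, a - x * q = c →
        Ideal.Quotient.mk (Ideal.span {x}) c = Ideal.Quotient.mk (Ideal.span {x}) a := by
      rintro c rfl
      rw [Ideal.Quotient.mk_eq_mk_iff_sub_mem, Ideal.mem_span_singleton]
      exact ⟨-q, by ring⟩
    rcases hq with hq | hq
    · exact ⟨1, hmk _ (by rw [hq]; simp)⟩
    · by_cases h0 : a - x * q = 0
      · exact ⟨1, hmk _ (by rw [h0]; simp)⟩
      have hu : IsUnit (a - x * q) := by
        by_contra hu
        exact hmin _ ⟨h0, hu⟩ hq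
      rcases unit_eq hK hd hd5 hs hu with e | e
      · exact ⟨2, hmk _ (by rw [e]; norm_num)⟩
      · exact ⟨0, hmk _ (by rw [e]; simp)⟩
  have hcard : Ideal.absNorm (Ideal.span {x}) ≤ 3 := by
    rw [Ideal.absNorm_apply, Submodule.cardQuot_apply]
    exact (Nat.card_le_card_of_surjective _ hsurj).trans (le_of_eq (by simp))
  have hne1 : Ideal.absNorm (Ideal.span {x}) ≠ 1 := by
    rw [Ne, Ideal.absNorm_eq_one_iff, Ideal.span_singleton_eq_top]; exact hxu
  have hne0 : Ideal.absNorm (Ideal.span {x}) ≠ 0 := by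
    rw [Ne, Ideal.absNorm_eq_zero_iff, Ideal.span_singleton_eq_bot]; exact hx0
  rw [Ideal.absNorm_span_singleton] at hcard hne1 hne0
  obtain ⟨A, B, -, hN⟩ := exists_coord_norm hK hd hd0 hs x
  have hB : 0 ≤ -d * B ^ 2 := mul_nonneg (by omega) (sq_nonneg B)
  have hA := sq_nonneg A
  generalize Algebra.norm ℤ x = N at hcard hne1 hne0 hN
  obtain rfl | rfl : N = 2 ∨ N = 3 := by
    have : 0 ≤ N := by linarith
    omega
  all_goals
    have hA3 : -4 < A ∧ A < 4 := by constructor <;> nlinarith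
    rcases eq_or_ne B 0 with rfl | hB0
    · obtain ⟨h3, h4⟩ := hA3
      interval_cases A <;> norm_num at hN
    · have hB1 : 1 ≤ B ^ 2 := by have := pow_pos (abs_pos.2 hB0) 2; rw [sq_abs] at this; omega
      have hd12 : -12 ≤ d := by nlinarith
      have hB3 : B ^ 2 ≤ 2 := by nlinarith
      have hBB : -1 ≤ B ∧ B ≤ 1 := by constructor <;> nlinarith
      obtain ⟨h3, h4⟩ := hA3
      rcases (show B = 1 ∨ B = -1 by omega) with rfl | rfl <;> interval_cases A <;>
        norm_num at hN <;> omega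

/-- **The norm is Euclidean** for the five fields. -/
theorem norm_division (hK : finrank ℚ K = 2) (hd0 : d < 0)
    (hs : s ^ 2 = (d : K)) (hmem : d ∈ ({-1, -2, -3, -7, -11} : Finset ℤ)) (a b : 𝓞 K)
    (hb : b ≠ 0) :
    ∃ q, (Algebra.norm ℤ (a - b * q)).natAbs < (Algebra.norm ℤ b).natAbs := by
  have hb' : (b : K) ≠ 0 := fun h => hb (RingOfIntegers.ext (by simpa using h))
  obtain ⟨u, v, huv⟩ := FA.ExceptionalIsCM.exists_coords hK hd0 hs ((a : K) / b)
  suffices h : ∃ (q : 𝓞 K) (U V : ℚ), (q : K) = (U : K) + (V : K) * s ∧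
      (u - U) ^ 2 - d * (v - V) ^ 2 < 1 by
    obtain ⟨q, U, V, hq, hlt⟩ := h
    refine ⟨q, ?_⟩
    have e : ((a - b * q : 𝓞 K) : K) =
        (b : K) * (((u - U : ℚ) : K) + ((v - V : ℚ) : K) * s) := by
      push_cast
      linear_combination (b : K) * huv - (mul_div_cancel₀ (a : K) hb') - (b : K) * hq
    have h3 : ((Algebra.norm ℤ (a - b * q) : ℤ) : ℚ) =
        (Algebra.norm ℤ b : ℚ) * ((u - U) ^ 2 - d * (v - V) ^ 2) := by
      rw [Algebra.coe_norm_int, Algebra.coe_norm_int, e, map_mul,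
        FA.ExceptionalIsCM.norm_add_mul hK hd0 hs]
    have hpos : (0 : ℚ) < |(Algebra.norm ℤ b : ℚ)| := abs_pos.2 (Int.cast_ne_zero.2
      (Algebra.norm_ne_zero_iff.2 hb))
    have h4 : |((Algebra.norm ℤ (a - b * q) : ℤ) : ℚ)| < |(Algebra.norm ℤ b : ℚ)| := by
      have hd' : (d : ℚ) < 0 := Int.cast_lt_zero.2 hd0
      have hnn : 0 ≤ (u - U) ^ 2 - (d : ℚ) * (v - V) ^ 2 := by
        nlinarith [sq_nonneg (u - U), sq_nonneg (v - V)]
      rw [h3, abs_mul, abs_of_nonneg hnn]
      exact (mul_lt_iff_lt_one_right hpos).2 hlt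
    rw [← Int.cast_abs, ← Int.cast_abs, Int.cast_lt, Int.abs_eq_natAbs, Int.abs_eq_natAbs] at h4
    exact_mod_cast h4
  have hr : ∀ z : ℚ, (z - round z) ^ 2 ≤ 1 / 4 := fun z => by
    have := abs_sub_round z
    nlinarith [abs_nonneg (z - round z), sq_abs (z - round z)]
  have hint : IsIntegral ℤ s :=
    ⟨Polynomial.X ^ 2 - Polynomial.C d, by monicity!, by rw [← Polynomial.aeval_def]; simp [hs]⟩
  by_cases h4 : d % 4 = 1
  · obtain ⟨j, hj⟩ : ∃ j, d = 4 * j + 1 := ⟨d / 4, by omega⟩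
    have hw : IsIntegral ℤ ((1 + s) / 2) := by
      refine ⟨Polynomial.X ^ 2 - Polynomial.X - Polynomial.C j, by monicity!, ?_⟩
      have : (d : K) = 4 * (j : K) + 1 := by exact_mod_cast hj
      rw [← Polynomial.aeval_def]
      simp
      linear_combination hs / 4 + this / 4
    obtain ⟨w, hw'⟩ : ∃ w : 𝓞 K, (w : K) = (1 + s) / 2 := ⟨⟨_, hw⟩, rfl⟩
    refine ⟨(round (u - (round (2 * v) : ℚ) / 2) : ℤ) + (round (2 * v) : ℤ) * w,
      (round (u - (round (2 * v) : ℚ) / 2) : ℚ) + (round (2 * v) : ℚ) / 2,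
      (round (2 * v) : ℚ) / 2, ?_, ?_⟩
    · simp [hw']; ring
    · have h1 := hr (u - (round (2 * v) : ℚ) / 2)
      have h2 := hr (2 * v)
      have hd11 : (-11 : ℚ) ≤ d ∧ (d : ℚ) ≤ 0 := by
        simp only [Finset.mem_insert, Finset.mem_singleton] at hmem
        constructor <;> exact_mod_cast (by omega)
      nlinarith
  · obtain ⟨S, hS⟩ : ∃ S : 𝓞 K, (S : K) = s := ⟨⟨_, hint⟩, rfl⟩
    refine ⟨(round u : ℤ) + (round v : ℤ) * S, round u, round v, ?_, ?_⟩
    · simp [hS]
    · have hd2 : (-2 : ℚ) ≤ d ∧ (d : ℚ) ≤ 0 := by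
        simp only [Finset.mem_insert, Finset.mem_singleton] at hmem
        constructor <;> exact_mod_cast (by omega)
      nlinarith [hr u, hr v]

/-- A Euclidean domain structure is a division algorithm. -/
theorem division_of_euclideanDomain {R : Type*} [I : CommRing R] (E : EuclideanDomain R)
    (h : E.toCommRing = I) :
    ∃ r : R → R → Prop, WellFounded r ∧
      ∀ a b : R, b ≠ 0 → ∃ q, a = b * q ∨ r (a - b * q) b := by
  subst h
  refine ⟨E.r, E.r_wellFounded, fun a b hb => ⟨E.quotient a b, Or.inr ?_⟩⟩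
  have h1 := E.quotient_mul_add_remainder_eq a b
  have h2 : a - b * E.quotient a b = E.remainder a b := by linear_combination -h1
  rw [h2]
  exact E.remainder_lt a hb

end FA.Euclidean

end
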