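import Fermat.Agent.Tau.SingularModuli
import Fermat.Agent.Root.SummaryPrimesForms
import Fermat.Agent.ModField.Degree

/-!
# Singular moduli are algebraic integers

A prime `p` represented by the principal form gives an integral matrix of determinant `p` fixing
`τ`, so `j(τ)` is a zero of the product of `j - j(p γ z)` over the cosets of `Γ₀(p)`. This product
is a polynomial in `j` whose coefficients are algebraic integers and whose leading coefficient is
a root of unity up to sign.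
-/

set_option autoImplicit false
set_option linter.style.haveILetI false

noncomputable section

namespace FA.SingularIntegral

open UpperHalfPlane hiding I
open FA.ModField HahnSeries
open scoped MatrixGroups

/-- The series with algebraic integer coefficients. -/
def intSeries : Subring (LaurentSeries ℂ) :=
  (ModularCurve.coeffMap (algebraMap (integralClosure ℤ ℂ) ℂ)).range

theorem mem_intSeries {f : LaurentSeries ℂ} :
    f ∈ intSeries ↔ ∀ n, IsIntegral ℤ (f.coeff n) := by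
  refine ⟨?_, fun h => ?_⟩
  · rintro ⟨g, rfl⟩ n
    rw [ModularCurve.coeffMap_coeff]
    exact (g.coeff n).2
  · let g : LaurentSeries (integralClosure ℤ ℂ) := ⟨fun n => ⟨f.coeff n, h n⟩,
      f.isPWO_support'.mono fun n hn h0 => hn (Subtype.ext h0)⟩
    exact ⟨g, HahnSeries.ext (funext fun n => rfl)⟩

theorem C_mem {u : ℂ} (hu : IsIntegral ℤ u) : HahnSeries.C u ∈ intSeries :=
  mem_intSeries.mpr fun n => by
    rw [HahnSeries.C_apply, HahnSeries.coeff_single]
    split_ifs
    exacts [hu, isIntegral_zero]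

theorem isIntegral_jq_coeff (n : ℤ) : IsIntegral ℤ ((ModularCurve.jqModC ℂ).coeff n) := by
  rw [← ModularCurve.coeffMap_jqModC (R := ℤ) (Int.castRingHom ℂ), ModularCurve.coeffMap_coeff]
  exact isIntegral_algebraMap

/-- Units of the algebraic integers. -/
def UnitA (u : ℂ) : Prop := u ≠ 0 ∧ IsIntegral ℤ u ∧ IsIntegral ℤ u⁻¹

theorem UnitA.mul {u v : ℂ} (hu : UnitA u) (hv : UnitA v) : UnitA (u * v) :=
  ⟨mul_ne_zero hu.1 hv.1, hu.2.1.mul hv.2.1, by rw [mul_inv]; exact hu.2.2.mul hv.2.2⟩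

theorem unitA_one : UnitA 1 := ⟨one_ne_zero, isIntegral_one, by rw [inv_one]; exact isIntegral_one⟩

theorem UnitA.neg {u : ℂ} (hu : UnitA u) : UnitA (-u) :=
  ⟨neg_ne_zero.mpr hu.1, hu.2.1.neg, by rw [inv_neg]; exact hu.2.2.neg⟩

theorem unitA_of_pow {u : ℂ} {N : ℕ} (hN : 0 < N) (h : u ^ N = 1) : UnitA u := by
  refine ⟨fun e => ?_, IsIntegral.of_pow hN (by rw [h]; exact isIntegral_one),
    IsIntegral.of_pow hN (by rw [inv_pow, h, inv_one]; exact isIntegral_one)⟩
  rw [e, zero_pow hN.ne'] at h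
  exact zero_ne_one h

/-- A series with integral coefficients and a unit in front. -/
def Good (f : LaurentSeries ℂ) : Prop := f ∈ intSeries ∧ UnitA f.leadingCoeff

theorem good_prod {ι : Type*} (s : Finset ι) {f : ι → LaurentSeries ℂ}
    (h : ∀ i ∈ s, Good (f i)) : Good (∏ i ∈ s, f i) := by
  classical
  induction s using Finset.induction with
  | empty => exact ⟨by simp, by simpa using unitA_one⟩
  | @insert a s ha ih =>
    obtain ⟨h1, h2⟩ := h a (Finset.mem_insert_self a s)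
    obtain ⟨h3, h4⟩ := ih fun i hi => h i (Finset.mem_insert_of_mem hi)
    rw [Finset.prod_insert ha]
    exact ⟨mul_mem h1 h3, by
      rw [leadingCoeff_mul_of_ne_zero (mul_ne_zero h2.1 h4.1)]; exact h2.mul h4⟩

theorem order_eq_of {f : LaurentSeries ℂ} {m : ℤ} (h : OrdGE m f) (h0 : f.coeff m ≠ 0) :
    f.order = m :=
  le_antisymm (order_le_of_coeff_ne_zero h0)
    ((ordGE_iff_le_order (ne_zero_of_coeff_ne_zero h0)).1 h)

theorem pow_coeff {J : LaurentSeries ℂ} {m : ℤ} (ho : OrdGE m J) (h1 : J.coeff m = 1) (n : ℕ) :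
    (J ^ n).order = m * n ∧ (J ^ n).leadingCoeff = 1 := by
  have hJo : J.order = m := order_eq_of ho (by rw [h1]; exact one_ne_zero)
  have hJl : J.leadingCoeff = 1 := by rw [leadingCoeff_eq, hJo, h1]
  induction n with
  | zero => simp
  | succ n ih =>
    have hne : (J ^ n).leadingCoeff * J.leadingCoeff ≠ 0 := by rw [ih.2, hJl]; simp
    rw [pow_succ, order_mul_of_ne_zero hne, leadingCoeff_mul_of_ne_zero hne, ih.1, ih.2, hJl, hJo]
    exact ⟨by push_cast; ring, one_mul 1⟩

theorem eval_top {J : LaurentSeries ℂ} {m : ℤ} (hm : m < 0) (ho : OrdGE m J)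
    (h1 : J.coeff m = 1) {n : ℕ} {P : Polynomial ℂ} (hP : P.natDegree ≤ n) :
    OrdGE (m * n) (P.eval₂ HahnSeries.C J) ∧
      (P.eval₂ HahnSeries.C J).coeff (m * n) = P.coeff n := by
  rw [Polynomial.eval₂_eq_sum_range' (HahnSeries.C : ℂ →+* LaurentSeries ℂ)
    (Nat.lt_succ_of_le hP)]
  refine ⟨fun i hi => ?_, ?_⟩
  · rw [coeff_sum]
    refine Finset.sum_eq_zero fun k hk => ?_
    rw [HahnSeries.C_apply, coeff_single_zero_mul]
    have hk' : (k : ℤ) ≤ n := by exact_mod_cast Nat.lt_succ_iff.mp (Finset.mem_range.mp hk)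
    have hlt : i < (J ^ k).order := by rw [(pow_coeff ho h1 k).1]; nlinarith
    rw [coeff_eq_zero_of_lt_order hlt, mul_zero]
  · rw [coeff_sum, Finset.sum_eq_single n]
    · rw [HahnSeries.C_apply, coeff_single_zero_mul, ← (pow_coeff ho h1 n).1, ← leadingCoeff_eq,
        (pow_coeff ho h1 n).2, mul_one]
    · intro k hk hkn
      have hk' : (k : ℤ) < n := by
        exact_mod_cast lt_of_le_of_ne (Nat.lt_succ_iff.mp (Finset.mem_range.mp hk)) hkn
      rw [HahnSeries.C_apply, coeff_single_zero_mul,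
        coeff_eq_zero_of_lt_order (by rw [(pow_coeff ho h1 k).1]; nlinarith), mul_zero]
    · simp

theorem poly_integral {J : LaurentSeries ℂ} {m : ℤ} (hm : m < 0) (hJ : J ∈ intSeries)
    (ho : OrdGE m J) (h1 : J.coeff m = 1) (n : ℕ) :
    ∀ P : Polynomial ℂ, P.natDegree ≤ n → P.eval₂ HahnSeries.C J ∈ intSeries →
      ∀ i, IsIntegral ℤ (P.coeff i) := by
  induction n with
  | zero =>
    intro P hP h i
    have e := (eval_top hm ho h1 hP).2
    rcases Nat.eq_zero_or_pos i with rfl | hi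
    · rw [← e]; exact mem_intSeries.mp h _
    · rw [Polynomial.coeff_eq_zero_of_natDegree_lt (hP.trans_lt hi)]; exact isIntegral_zero
  | succ n ih =>
    intro P hP h i
    have hc : IsIntegral ℤ (P.coeff (n + 1)) := by
      rw [← (eval_top hm ho h1 hP).2]; exact mem_intSeries.mp h _
    set Q := P - Polynomial.C (P.coeff (n + 1)) * Polynomial.X ^ (n + 1) with hQ
    have hQd : Q.natDegree ≤ n := by
      rw [Polynomial.natDegree_le_iff_coeff_eq_zero]
      intro k hk
      rw [hQ, Polynomial.coeff_sub, Polynomial.coeff_C_mul, Polynomial.coeff_X_pow]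
      by_cases hkn : k = n + 1
      · subst hkn; simp
      · rw [if_neg hkn, mul_zero, sub_zero,
          Polynomial.coeff_eq_zero_of_natDegree_lt (hP.trans_lt (by omega))]
    have hQm : Q.eval₂ HahnSeries.C J ∈ intSeries := by
      rw [hQ, Polynomial.eval₂_sub, Polynomial.eval₂_mul, Polynomial.eval₂_C,
        Polynomial.eval₂_X_pow]
      exact sub_mem h (mul_mem (C_mem hc) (pow_mem hJ _))
    have hi := ih Q hQd hQm i
    rw [hQ, Polynomial.coeff_sub, Polynomial.coeff_C_mul, Polynomial.coeff_X_pow] at hi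
    by_cases hin : i = n + 1
    · rw [hin]; exact hc
    · rwa [if_neg hin, mul_zero, sub_zero] at hi

theorem poly_lead {J : LaurentSeries ℂ} {m : ℤ} (hm : m < 0) (ho : OrdGE m J)
    (h1 : J.coeff m = 1) {P : Polynomial ℂ} (h : Good (P.eval₂ HahnSeries.C J)) :
    UnitA P.leadingCoeff := by
  have hP : P ≠ 0 := fun e => h.2.1 (by rw [e, Polynomial.eval₂_zero, leadingCoeff_zero])
  obtain ⟨e1, e2⟩ := eval_top hm ho h1 (le_refl P.natDegree)
  have hne : P.coeff P.natDegree ≠ 0 := by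
    rwa [Polynomial.coeff_natDegree, Polynomial.leadingCoeff_ne_zero]
  have := h.2
  rwa [leadingCoeff_eq, order_eq_of e1 (by rw [e2]; exact hne), e2] at this

/-! ### The product -/

variable (p : ℕ) [NeZero p]

/-- The series of `j` in the parameter `exp(2πiz/p)`. -/
def Jp : LaurentSeries ℂ := ModularCurve.qExpand ℂ p (ModularCurve.jqModC ℂ)

theorem hasExp_jfun_qp : HasExp (qp p) jfun (Jp p) := by
  have h := hasExp_jfun.comp (U := qp p) id p 1
    (fun z => by rw [id_eq, Units.val_one, one_mul, qp_pow_self])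
  rw [twist_one_apply] at h
  exact h

theorem series_mem (k : ℕ) [NeZero k] {c : ℂˣ} {N : ℕ} (hN : 0 < N) (hc : (c : ℂ) ^ N = 1) :
    ModularCurve.qExpand ℂ k (twist c (ModularCurve.jqModC ℂ)) ∈ intSeries :=
  mem_intSeries.mpr fun n => by
    by_cases h : (k : ℤ) ∣ n
    · obtain ⟨m, rfl⟩ := h
      rw [ModularCurve.qExpand_coeff_mul, twist_coeff]
      refine IsIntegral.mul ?_ (isIntegral_jq_coeff m)
      refine (unitA_of_pow hN ?_).2.1
      rw [Units.val_zpow_eq_zpow_val, ← zpow_natCast, ← zpow_mul, mul_comm, zpow_mul, zpow_natCast,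
        hc, one_zpow]
    · rw [ModularCurve.qExpand_coeff_of_not_dvd k _ h]; exact isIntegral_zero

theorem series_low (k : ℕ) [NeZero k] (c : ℂˣ) :
    OrdGE (-(k : ℤ)) (ModularCurve.qExpand ℂ k (twist c (ModularCurve.jqModC ℂ))) ∧
      (ModularCurve.qExpand ℂ k (twist c (ModularCurve.jqModC ℂ))).coeff (-(k : ℤ)) =
        ((c : ℂ))⁻¹ := by
  refine ⟨?_, ?_⟩
  · rw [← order_qExpand_twist_jq k c]; exact ordGE_order _
  · rw [show -(k : ℤ) = (k : ℤ) * (-1) by ring, ModularCurve.qExpand_coeff_mul, twist_coeff,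
      jqModC_coeff_neg_one, mul_one, zpow_neg_one, Units.val_inv_eq_inv_val]

theorem Jp_low : OrdGE (-(p : ℤ)) (Jp p) ∧ (Jp p).coeff (-(p : ℤ)) = 1 ∧ Jp p ∈ intSeries := by
  have h := series_low p (1 : ℂˣ)
  rw [twist_one_apply, Units.val_one, inv_one] at h
  have h' := series_mem p (c := 1) one_pos (by simp)
  rw [twist_one_apply] at h'
  exact ⟨h.1, h.2, h'⟩

/-- The expansion of `j(p γ z)`, with a root of unity. -/
theorem exists_conj_exp (hp : p.Prime) (γ : SL(2, ℤ)) :
    ∃ (k : ℕ) (_ : NeZero k) (c : ℂˣ), k ≠ p ∧ (c : ℂ) ^ p = 1 ∧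
      HasExp (qp p) (fun z => jfun (scaleH p (γ • z)))
        (ModularCurve.qExpand ℂ k (twist c (ModularCurve.jqModC ℂ))) := by
  obtain ⟨a, δ, b, ha, haδ, -, hw⟩ := exists_upper p γ
  haveI : NeZero (a * a) := ⟨(Nat.mul_pos ha ha).ne'⟩
  have hk : a * a ≠ p := fun h => by
    rcases hp.eq_one_or_self_of_dvd a (Dvd.intro a h) with h1 | h1
    · rw [h1, one_mul] at h
      exact hp.one_lt.ne h
    · rw [h1] at h
      nlinarith [hp.one_lt]
  choose w hwc hwj using hw
  refine ⟨a * a, inferInstance, zetaN p ^ (b * (a : ℤ)), hk, ?_, ?_⟩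
  · rw [Units.val_zpow_eq_zpow_val, ← zpow_natCast ((zetaN p : ℂ) ^ _), ← zpow_mul,
      (zetaN_prim p).zpow_eq_one_iff_dvd]
    exact Dvd.intro_left _ rfl
  have h := hasExp_jfun.comp (U := qp p) w (a * a) (zetaN p ^ (b * (a : ℤ))) ?_
  · exact h.congr (funext fun z => (hwj z).symm)
  intro z
  rw [qp_eq, qp_eq, Units.val_zpow_eq_zpow_val, zetaN, Units.val_mk0, ← Complex.exp_int_mul,
    ← Complex.exp_nat_mul, ← Complex.exp_add, hwc]
  congr 1
  have hN : (p : ℂ) = (a : ℂ) * δ := by exact_mod_cast haδ.symm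
  have hδ : (δ : ℂ) ≠ 0 := fun h => by
    rw [h, mul_zero] at hN; exact NeZero.ne p (by exact_mod_cast hN)
  have ha' : (a : ℂ) ≠ 0 := by exact_mod_cast ha.ne'
  push_cast
  rw [hN]
  field_simp
  ring

theorem exists_equation (hp : p.Prime) :
    ∃ P : Polynomial ℂ, UnitA P.leadingCoeff ∧ (∀ i, IsIntegral ℤ (P.coeff i)) ∧
      ∀ (τ : ℍ) (γ : SL(2, ℤ)), jfun (scaleH p (γ • τ)) = jfun τ → P.eval (jfun τ) = 0 := by
  classical
  haveI := Fintype.ofFinite (FA.Dim.Cos p)
  set f : ℍ → ℂ := fun z => jfun (scaleH p z) with hf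
  have hfm : f ∈ modFuns p := scale_mem_modFuns p p dvd_rfl
  choose k hk c hkp hc hexp using fun i : FA.Dim.Cos p => exists_conj_exp p hp (Quotient.out i)⁻¹
  let S : FA.Dim.Cos p → LaurentSeries ℂ := fun i =>
    haveI := hk i
    ModularCurve.qExpand ℂ (k i) (twist (c i) (ModularCurve.jqModC ℂ))
  obtain ⟨hJ1, hJ2, hJ3⟩ := Jp_low p
  have hgood : ∀ i, Good (Jp p - S i) := fun i => by
    haveI := hk i
    obtain ⟨hS1, hS2⟩ := series_low (k i) (c i)
    have hu := unitA_of_pow hp.pos (hc i)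
    refine ⟨sub_mem hJ3 (series_mem (k i) hp.pos (hc i)), ?_⟩
    rcases lt_or_gt_of_ne (hkp i) with hlt | hgt
    · have e : (Jp p - S i).coeff (-(p : ℤ)) = 1 := by
        rw [coeff_sub, hJ2, hS1 _ (by omega), sub_zero]
      have h2 : OrdGE (-(p : ℤ)) (Jp p - S i) := hJ1.sub (hS1.mono (by omega))
      rw [leadingCoeff_eq, order_eq_of h2 (by rw [e]; exact one_ne_zero), e]
      exact unitA_one
    · have e : (Jp p - S i).coeff (-(k i : ℤ)) = -((c i : ℂ))⁻¹ := by
        rw [coeff_sub, hS2, hJ1 _ (by omega), zero_sub]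
      have hu' : UnitA (-((c i : ℂ))⁻¹) :=
        (show UnitA ((c i : ℂ))⁻¹ from
          ⟨inv_ne_zero hu.1, hu.2.2, by rw [inv_inv]; exact hu.2.1⟩).neg
      have h2 : OrdGE (-(k i : ℤ)) (Jp p - S i) := (hJ1.mono (by omega)).sub hS1
      rw [leadingCoeff_eq, order_eq_of h2 (by rw [e]; exact hu'.1), e]
      exact hu'
  let G : ℍ → ℂ := ∏ i, (jfun - cosVal p f i)
  have hG : ∀ z, G z = ∏ i, (jfun z - cosVal p f i z) := fun z => by
    simp only [G, Finset.prod_apply, Pi.sub_apply]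
  have hGexp : HasExp (qp p) G (∏ i, (Jp p - S i)) :=
    hasExp_prod (qp_ne_zero p) _ fun i _ => (hasExp_jfun_qp p).sub (hexp i)
  have hGmem : G ∈ expFuns p :=
    prod_mem fun i _ => sub_mem ⟨mdiff_jfun, _, hasExp_jfun_qp p⟩
      ⟨mdiff_comp_smul hfm.1 _, _, hexp i⟩
  have hinv : ∀ (g : SL(2, ℤ)) z, G (g • z) = G z := fun g z => by
    rw [hG, hG]
    simp only [cosVal_smul hfm, jfun_smul]
    exact Fintype.prod_equiv (MulAction.toPerm g⁻¹) _ _ fun i => rfl
  obtain ⟨L', hL'⟩ := hasExp_descend (fun z => hinv ModularGroup.T z) hGexp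
  obtain ⟨P, hP⟩ := exists_polynomial_of_invariant hinv hGmem.1 hL'
  have hPexp : ∀ Q : Polynomial ℂ,
      HasExp (qp p) (fun z => Q.eval (jfun z)) (Q.eval₂ HahnSeries.C (Jp p)) := fun Q => by
    induction Q using Polynomial.induction_on' with
    | add a b ha hb => simp only [Polynomial.eval_add, Polynomial.eval₂_add]; exact ha.add hb
    | monomial n a =>
      simp only [Polynomial.eval_monomial, Polynomial.eval₂_monomial]
      exact (hasExp_C a).mul (qp_ne_zero p) ((hasExp_jfun_qp p).pow (qp_ne_zero p) n)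
  have heq : P.eval₂ HahnSeries.C (Jp p) = ∏ i, (Jp p - S i) :=
    (hPexp P).unique (covers_qp p) (hGexp.congr hP)
  have hm : -(p : ℤ) < 0 := by have := hp.pos; omega
  have hgood' : Good (P.eval₂ HahnSeries.C (Jp p)) := heq ▸ good_prod _ fun i _ => hgood i
  refine ⟨P, poly_lead hm hJ1 hJ2 hgood',
    poly_integral hm hJ3 hJ1 hJ2 _ P le_rfl hgood'.1, fun τ γ hτ => ?_⟩
  rw [← congrFun hP τ, hG]
  refine Finset.prod_eq_zero (Finset.mem_univ (QuotientGroup.mk γ⁻¹ : FA.Dim.Cos p)) ?_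
  rw [cosVal_mk hfm, inv_inv, hf, sub_eq_zero]
  exact hτ.symm

omit [NeZero p] in
theorem isIntegral_of_root {P : Polynomial ℂ} (hu : UnitA P.leadingCoeff)
    (hc : ∀ i, IsIntegral ℤ (P.coeff i)) {x : ℂ} (hx : P.eval x = 0) : IsIntegral ℤ x := by
  set Q := Polynomial.C P.leadingCoeff⁻¹ * P with hQ
  have hmon : Q.Monic := by
    rw [Polynomial.Monic, hQ, Polynomial.leadingCoeff_mul, Polynomial.leadingCoeff_C,
      inv_mul_cancel₀ hu.1]
  have hlift : Q ∈ Polynomial.lifts (algebraMap (integralClosure ℤ ℂ) ℂ) := by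
    rw [Polynomial.lifts_iff_coeff_lifts]
    intro i
    exact ⟨⟨Q.coeff i, by rw [hQ, Polynomial.coeff_C_mul]; exact hu.2.2.mul (hc i)⟩, rfl⟩
  obtain ⟨R, hR, -, hRm⟩ := Polynomial.lifts_and_degree_eq_and_monic hlift hmon
  refine isIntegral_trans (R := ℤ) (A := integralClosure ℤ ℂ) x ⟨R, hRm, ?_⟩
  rw [← Polynomial.eval_map, hR, hQ, Polynomial.eval_mul, hx, mul_zero]

omit [NeZero p] in
/-- A point fixed by an integral matrix of prime determinant. -/
theorem exists_gamma [NeZero p] (hp : p.Prime) {m n r s : ℤ} {τ : ℍ} (hdet : m * s - n * r = p)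
    (hfix : (m : ℂ) * τ + n = (τ : ℂ) * ((r : ℂ) * τ + s)) :
    ∃ γ : SL(2, ℤ), jfun (scaleH p (γ • τ)) = jfun τ := by
  have hp' : (p : ℤ) ≠ 0 := by exact_mod_cast hp.ne_zero
  have hpr : Prime (p : ℤ) := Nat.prime_iff_prime_int.mp hp
  by_cases hrs : (p : ℤ) ∣ r ∧ (p : ℤ) ∣ s
  · obtain ⟨⟨r', hr⟩, s', hs⟩ := hrs
    subst hr hs
    have hdet' : r' * (-n) - s' * (-m) = 1 :=
      mul_left_cancel₀ hp' (by linear_combination hdet)
    let γ : SL(2, ℤ) := ⟨!![r', s'; -m, -n], by rw [Matrix.det_fin_two_of]; exact hdet'⟩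
    refine ⟨γ, ?_⟩
    rw [← jfun_smul ModularGroup.S τ]
    congr 1
    refine UpperHalfPlane.ext ?_
    rw [coe_scaleH, coe_smul_int, modular_S_smul]
    show _ = (-(τ : ℂ))⁻¹
    simp only [γ, Matrix.of_apply, Matrix.cons_val',
      Matrix.cons_val_zero, Matrix.cons_val_one, Matrix.empty_val', Matrix.cons_val_fin_one]
    have hd := smul_denom_ne γ τ
    simp [γ] at hd
    have hd' : -(m : ℂ) * τ + -(n : ℂ) ≠ 0 := by rw [neg_mul]; exact hd
    push_cast at hfix ⊢
    refine eq_inv_of_mul_eq_one_left ?_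
    rw [← mul_div_assoc, div_mul_eq_mul_div, div_eq_one_iff_eq hd']
    linear_combination hfix
  obtain ⟨lam, h1, h2⟩ : ∃ lam : ℤ, (p : ℤ) ∣ m - lam * r ∧ (p : ℤ) ∣ n - lam * s := by
    rcases not_and_or.mp hrs with h | h
    · obtain ⟨u, v, huv⟩ := (hpr.coprime_iff_not_dvd.mpr h)
      refine ⟨v * m, ⟨u * m, by linear_combination -m * huv⟩, ?_⟩
      refine (hpr.dvd_or_dvd (a := r) (b := n - v * m * s) ?_).resolve_left h
      exact ⟨-1 + u * m * s, by linear_combination -hdet - m * s * huv⟩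
    · obtain ⟨u, v, huv⟩ := (hpr.coprime_iff_not_dvd.mpr h)
      refine ⟨v * n, ?_, ⟨u * n, by linear_combination -n * huv⟩⟩
      refine (hpr.dvd_or_dvd (a := s) (b := m - v * n * r) ?_).resolve_left h
      exact ⟨1 + u * n * r, by linear_combination hdet - n * r * huv⟩
  obtain ⟨x, hx⟩ := h1
  obtain ⟨y, hy⟩ := h2
  have hdet' : x * s - y * r = 1 :=
    mul_left_cancel₀ hp' (by linear_combination hdet - s * hx + r * hy)
  let γ : SL(2, ℤ) := ⟨!![x, y; r, s], by rw [Matrix.det_fin_two_of]; exact hdet'⟩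
  refine ⟨γ, ?_⟩
  rw [← jfun_smul (ModularGroup.T ^ (-lam)) τ]
  congr 1
  refine UpperHalfPlane.ext ?_
  rw [coe_scaleH, coe_smul_int, modular_T_zpow_smul, coe_vadd]
  simp only [γ, Matrix.of_apply, Matrix.cons_val',
    Matrix.cons_val_zero, Matrix.cons_val_one, Matrix.empty_val', Matrix.cons_val_fin_one]
  have hd := smul_denom_ne γ τ
  simp [γ] at hd
  have hx' : (m : ℂ) - lam * r = p * x := by exact_mod_cast hx
  have hy' : (n : ℂ) - lam * s = p * y := by exact_mod_cast hy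
  push_cast
  rw [← mul_div_assoc, div_eq_iff hd]
  linear_combination hfix - (τ : ℂ) * hx' - hy'

omit [NeZero p] in
/-- **Singular moduli are algebraic integers.** -/
theorem isIntegral_jfun {a b c : ℤ}
    (hD : b ^ 2 - 4 * a * c < 0) {τ : ℍ} (hτ : FA.Singular.IsRoot (a, b, c) τ) :
    IsIntegral ℤ (jfun τ) := by
  have hprim' : Int.gcd (Int.gcd 1 b) (a * c) = 1 := by simp
  obtain ⟨q, hq, x, y, hqxy⟩ := (FA.Summary.infinite_primes_primitive_form 1 b (a * c) one_pos
    (by linarith) hprim').nonempty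
  haveI : NeZero q := ⟨hq.ne_zero⟩
  simp only [FA.Singular.IsRoot] at hτ
  obtain ⟨γ, hγ⟩ := exists_gamma q hq (m := x + b * y) (n := y * c) (r := -(y * a)) (s := x)
    (τ := τ) (by rw [hqxy]; ring) (by push_cast; linear_combination (y : ℂ) * hτ)
  obtain ⟨P, hu, hc, hroot⟩ := exists_equation q hq
  exact isIntegral_of_root hu hc (hroot τ γ hγ)

end FA.SingularIntegral

end
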