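import Fermat.Agent.PrimeDivisors.Exceptional
import Fermat.Agent.Root.SummaryAbelianInverseGalois

/-!
# Almost every integer is exactly divisible by a prime of a divergent set

If the reciprocals of a set of primes have divergent sum, the integers which none of them divides
exactly once have natural density zero; this applies to the primes of a residue class.
-/

set_option autoImplicit false
set_option linter.style.haveILetI false

noncomputable section

open Filter Topology IsDedekindDomain NumberField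
open scoped NumberField

local notation "Qb" => AlgebraicClosure ℚ
local notation "GQ" => AlgebraicClosure ℚ ≃ₐ[ℚ] AlgebraicClosure ℚ

namespace FA.Tau

/-- The primes of an invertible residue class have a divergent sum of reciprocals. -/
theorem not_summable_residueClass (m : ℕ) [NeZero m] [Fact (1 < m)] (a : (ZMod m)ˣ) :
    ¬ Summable ({p : ℕ | p.Prime ∧ (p : ZMod m) = a}.indicator fun n : ℕ => (1 : ℝ) / n) := by
  classical
  obtain ⟨L, hL, h⟩ := FA.Weight1.exists_field_cycM m
  have hopen : IsOpen ((FA.Weight1.cycM m).ker : Set GQ) := Subgroup.isOpen_mono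
    (fun g hg => MonoidHom.mem_ker.mpr (h g ((IntermediateField.mem_fixingSubgroup_iff _ _).mp hg)))
    L.fixingSubgroup_isOpen
  have hdens := FA.Chebotarev.hasDirichletDensity_frobSet (FA.Weight1.cycM m)
    (FA.AbelianInverseGalois.cycM_surjective m) hopen (X := {a})
    fun g hg x => by rw [Set.mem_singleton_iff] at hg ⊢; rw [hg, mul_inv_cancel_comm]
  refine FA.PrimeDivisors.not_summable_of_density hdens ?_
    (F := {v | Ideal.absNorm v.asIdeal ∈ m.divisors})
    ((Finset.finite_toSet _).preimage fun x _ y _ e => FA.PrimeDivisors.absNorm_injective e)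
    fun v hv => or_iff_not_imp_left.mpr fun hF => ?_
  · exact div_ne_zero (by simp) (Nat.cast_ne_zero.mpr Fintype.card_ne_zero)
  have hq := FA.Chebotarev.absNorm_prime v
  obtain ⟨A, hA⟩ := FA.Deform.exists_liesOverPrime hq
  obtain ⟨σ, hσ⟩ := FA.Deform.exists_isFrobeniusAt hq hA
  refine ⟨hq, ?_⟩
  rw [← FA.Weight1.cycM_frobenius m hq
    (fun hd => hF (Nat.mem_divisors.mpr ⟨hd, NeZero.ne m⟩)) hA hσ]
  exact congrArg Units.val (Set.mem_singleton_iff.mp (hv A hA σ hσ))

/-- At most `∏ (p² - (p - 1))` residues modulo `∏ p²` are exactly divisible by no `p`. -/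
theorem card_avoid_le (L : Finset ℕ) (hL : ∀ p ∈ L, p.Prime) :
    ((Finset.range (∏ p ∈ L, p ^ 2)).filter fun r => ∀ p ∈ L, p ∣ r → p ^ 2 ∣ r).card ≤
      ∏ p ∈ L, (p ^ 2 - (p - 1)) := by
  classical
  induction L using Finset.induction with
  | empty => simp
  | insert p L hpL ih =>
    have hp : p.Prime := hL p (Finset.mem_insert_self p L)
    have hL' : ∀ q ∈ L, q.Prime := fun q hq => hL q (Finset.mem_insert_of_mem hq)
    rw [Finset.prod_insert hpL, Finset.prod_insert hpL]
    set M := ∏ q ∈ L, q ^ 2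
    have hcop : Nat.Coprime (p ^ 2) M := Nat.Coprime.prod_right fun q hq =>
      Nat.Coprime.pow _ _ ((Nat.coprime_primes hp (hL' q hq)).mpr fun e => hpL (e ▸ hq))
    set S := (Finset.range (p ^ 2)).filter fun r => p ∣ r → p ^ 2 ∣ r
    set T := (Finset.range M).filter fun r => ∀ q ∈ L, q ∣ r → q ^ 2 ∣ r
    have hM : 0 < M := Finset.prod_pos fun q hq => pow_pos (hL' q hq).pos 2
    have hS : S.card ≤ p ^ 2 - (p - 1) := by
      have h : (Finset.Ico 1 p).image (p * ·) ⊆ Finset.range (p ^ 2) \ S := by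
        intro r hr
        obtain ⟨k, hk, rfl⟩ := Finset.mem_image.mp hr
        rw [Finset.mem_Ico] at hk
        have hlt : p * k < p ^ 2 := by rw [pow_two]; exact Nat.mul_lt_mul_of_pos_left hk.2 hp.pos
        refine Finset.mem_sdiff.mpr ⟨Finset.mem_range.mpr hlt, fun h => ?_⟩
        have hd := (Finset.mem_filter.mp h).2 (dvd_mul_right p k)
        have := Nat.le_of_dvd (Nat.mul_pos hp.pos hk.1) hd
        omega
      have hc := Finset.card_le_card h
      rw [Finset.card_image_of_injective _ (mul_right_injective₀ hp.ne_zero), Nat.card_Ico,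
        Finset.card_sdiff_of_subset (show S ⊆ Finset.range (p ^ 2) from Finset.filter_subset _ _),
        Finset.card_range] at hc
      have := Finset.card_le_card (show S ⊆ Finset.range (p ^ 2) from Finset.filter_subset _ _)
      rw [Finset.card_range] at this
      omega
    refine le_trans (Finset.card_le_card_of_injOn (t := S ×ˢ T)
      (fun r => (r % p ^ 2, r % M)) ?_ ?_) ?_
    · intro r hr
      obtain ⟨-, hr⟩ := Finset.mem_filter.mp hr
      refine Finset.mem_product.mpr ⟨Finset.mem_filter.mpr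
        ⟨Finset.mem_range.mpr (Nat.mod_lt _ (pow_pos hp.pos 2)), fun hd => ?_⟩,
        Finset.mem_filter.mpr ⟨Finset.mem_range.mpr (Nat.mod_lt _ hM), fun q hq hd => ?_⟩⟩
      · rw [Nat.dvd_mod_iff (dvd_refl _)]
        exact hr p (Finset.mem_insert_self p L)
          ((Nat.dvd_mod_iff (dvd_pow_self p two_ne_zero)).mp hd)
      · have h2 : q ^ 2 ∣ M := Finset.dvd_prod_of_mem _ hq
        rw [Nat.dvd_mod_iff h2]
        exact hr q (Finset.mem_insert_of_mem hq)
          ((Nat.dvd_mod_iff ((dvd_pow_self q two_ne_zero).trans h2)).mp hd)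
    · intro r hr s hs h
      obtain ⟨h1, h2⟩ := Prod.mk.injEq _ _ _ _ ▸ h
      have hr' := Finset.mem_range.mp (Finset.mem_filter.mp hr).1
      have hs' := Finset.mem_range.mp (Finset.mem_filter.mp hs).1
      have h3 : r ≡ s [MOD p ^ 2 * M] := (Nat.modEq_and_modEq_iff_modEq_mul hcop).mp ⟨h1, h2⟩
      exact Nat.ModEq.eq_of_lt_of_lt h3 hr' hs'
    · rw [Finset.card_product]
      exact Nat.mul_le_mul hS (ih hL')

/-- The proportion of the residues exactly divisible by no `p`. -/
theorem prod_share_le_exp (L : Finset ℕ) (hL : ∀ p ∈ L, p.Prime) :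
    ((∏ p ∈ L, (p ^ 2 - (p - 1)) : ℕ) : ℝ) ≤
      Real.exp (-(∑ p ∈ L, (1 : ℝ) / p) / 2) * ((∏ p ∈ L, p ^ 2 : ℕ) : ℝ) := by
  rw [Nat.cast_prod, Nat.cast_prod, neg_div, Finset.sum_div, ← Finset.sum_neg_distrib,
    Real.exp_sum, ← Finset.prod_mul_distrib]
  refine Finset.prod_le_prod (fun p _ => Nat.cast_nonneg _) fun p hp => ?_
  have h2 := (hL p hp).two_le
  have h2' : (2 : ℝ) ≤ p := by exact_mod_cast h2
  have h0 : (0 : ℝ) < p := by linarith
  have hle : p - 1 ≤ p ^ 2 := (Nat.sub_le _ _).trans (Nat.le_self_pow two_ne_zero p)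
  rw [Nat.cast_sub hle, Nat.cast_pow, Nat.cast_sub (by omega), Nat.cast_one]
  refine le_trans ?_ (mul_le_mul_of_nonneg_right (Real.add_one_le_exp _) (by positivity))
  have e : (-((1 : ℝ) / p / 2) + 1) * (p : ℝ) ^ 2 = (p : ℝ) ^ 2 - p / 2 := by
    field_simp; ring
  rw [e]
  linarith

/-- **Almost every integer is exactly divisible by a prime of a divergent set.** -/
theorem tendsto_zero_of_avoid {P : Set ℕ} (hP : ∀ p ∈ P, p.Prime)
    (hdiv : ¬ Summable (P.indicator fun n : ℕ => (1 : ℝ) / n)) {B : ℕ → Prop}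
    (hB : ∀ p ∈ P, ∀ n, p ∣ n → ¬ p ^ 2 ∣ n → ¬ B n) :
    Tendsto (fun N : ℕ => (Nat.card {n : ℕ // n < N ∧ B n} : ℝ) / N) atTop (𝓝 0) := by
  classical
  rw [tendsto_order]
  refine ⟨fun b hb => Eventually.of_forall fun N =>
    lt_of_lt_of_le hb (div_nonneg (Nat.cast_nonneg _) (Nat.cast_nonneg _)), fun ε hε => ?_⟩
  obtain ⟨L, hL, hC⟩ := FA.PrimeDivisors.exists_finset_sum hdiv 0 (-2 * Real.log (ε / 2))
  have hLp : ∀ p ∈ L, p.Prime := fun p hp => hP p (hL p hp).1
  set M := ∏ p ∈ L, p ^ 2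
  set T := (Finset.range M).filter fun r => ∀ p ∈ L, p ∣ r → p ^ 2 ∣ r
  have hM : 0 < M := Finset.prod_pos fun p hp => pow_pos (hLp p hp).pos 2
  have hM' : (0 : ℝ) < M := by exact_mod_cast hM
  have hT : (T.card : ℝ) ≤ ε / 2 * M := by
    refine le_trans (le_trans (Nat.cast_le.mpr (card_avoid_le L hLp)) (prod_share_le_exp L hLp)) ?_
    refine mul_le_mul_of_nonneg_right ?_ hM'.le
    rw [← Real.exp_log (half_pos hε)]
    exact Real.exp_le_exp.mpr (by linarith)
  have hcount : ∀ N : ℕ, Nat.card {n : ℕ // n < N ∧ B n} ≤ (N / M + 1) * T.card := by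
    intro N
    rw [Nat.subtype_card ((Finset.range N).filter B) (fun n => by simp)]
    refine le_trans (Finset.card_le_card_of_injOn (t := Finset.range (N / M + 1) ×ˢ T)
      (fun n => (n / M, n % M)) ?_ ?_) (by rw [Finset.card_product, Finset.card_range])
    · intro n hn
      obtain ⟨h1, h2⟩ := Finset.mem_filter.mp hn
      refine Finset.mem_product.mpr ⟨Finset.mem_range.mpr
        (Nat.lt_succ_of_le (Nat.div_le_div_right (Finset.mem_range.mp h1).le)),
        Finset.mem_filter.mpr ⟨Finset.mem_range.mpr (Nat.mod_lt _ hM), fun p hp hd => ?_⟩⟩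
      have hpM : p ^ 2 ∣ M := Finset.dvd_prod_of_mem _ hp
      rw [Nat.dvd_mod_iff hpM]
      by_contra hne
      exact hB p (hL p hp).1 n
        ((Nat.dvd_mod_iff ((dvd_pow_self p two_ne_zero).trans hpM)).mp hd) hne h2
    · intro a _ b _ h
      obtain ⟨h1, h2⟩ := Prod.mk.injEq _ _ _ _ ▸ h
      rw [← Nat.div_add_mod a M, h1, h2, Nat.div_add_mod]
  obtain ⟨N₀, hN₀⟩ := exists_nat_gt ((T.card : ℝ) / (ε / 2))
  filter_upwards [eventually_gt_atTop N₀] with N hN
  have hN0 : (0 : ℝ) < N := by exact_mod_cast (Nat.zero_le N₀).trans_lt hN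
  rw [div_lt_iff₀ hN0]
  have h1 : (Nat.card {n : ℕ // n < N ∧ B n} : ℝ) ≤ ((N : ℝ) / M + 1) * T.card := by
    refine le_trans (Nat.cast_le.mpr (hcount N)) ?_
    push_cast
    exact mul_le_mul_of_nonneg_right (by linarith [Nat.cast_div_le (α := ℝ) (m := N) (n := M)])
      (Nat.cast_nonneg _)
  have h2 : (T.card : ℝ) < ε / 2 * N := by
    rw [div_lt_iff₀ (half_pos hε)] at hN₀
    nlinarith [mul_lt_mul_of_pos_left (show ((N₀ : ℝ)) < N from Nat.cast_lt.mpr hN) (half_pos hε)]
  have h3 : (N : ℝ) / M * T.card ≤ ε / 2 * N :=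
    le_trans (mul_le_mul_of_nonneg_left hT (div_nonneg hN0.le hM'.le))
      (le_of_eq (by field_simp))
  linarith

/-- A union of two sets of density zero has density zero. -/
theorem tendsto_zero_or {A B : ℕ → Prop}
    (hA : Tendsto (fun N : ℕ => (Nat.card {n : ℕ // n < N ∧ A n} : ℝ) / N) atTop (𝓝 0))
    (hB : Tendsto (fun N : ℕ => (Nat.card {n : ℕ // n < N ∧ B n} : ℝ) / N) atTop (𝓝 0))
    {C : ℕ → Prop} (h : ∀ n, C n → A n ∨ B n) :
    Tendsto (fun N : ℕ => (Nat.card {n : ℕ // n < N ∧ C n} : ℝ) / N) atTop (𝓝 0) := by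
  classical
  refine squeeze_zero (fun N => div_nonneg (Nat.cast_nonneg _) (Nat.cast_nonneg _)) (fun N => ?_)
    (by simpa using hA.add hB)
  rw [← add_div]
  refine div_le_div_of_nonneg_right ?_ (Nat.cast_nonneg _)
  rw [Nat.subtype_card ((Finset.range N).filter C) (fun n => by simp),
    Nat.subtype_card ((Finset.range N).filter A) (fun n => by simp),
    Nat.subtype_card ((Finset.range N).filter B) (fun n => by simp), ← Nat.cast_add, Nat.cast_le]
  refine le_trans (Finset.card_le_card fun n hn => ?_) (Finset.card_union_le _ _)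
  obtain ⟨h1, h2⟩ := Finset.mem_filter.mp hn
  rw [Finset.mem_union, Finset.mem_filter, Finset.mem_filter]
  exact (h n h2).imp (fun h => ⟨h1, h⟩) fun h => ⟨h1, h⟩

end FA.Tau

end
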