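import Fermat.Agent.Tau.ModEleven
import Fermat.Agent.Eisenstein.LiftLevelOne
import Fermat.Prelude.Def_ModularForm_HeckeOperatorForms
import Fermat.Prelude.Thm_ModularFormClass_qCoeff_heckeT
import Mathlib.NumberTheory.ModularForms.LevelOne.DimensionFormula

/-!
# `Δ` is an eigenform

The cusp forms of weight twelve and level one are the multiples of `Δ`, so `Δ` is an eigenform of
every Hecke operator `T_p`: its coefficients `τ` satisfy
`τ(np) + p¹¹ τ(n/p) = τ(p) τ(n)`, hence Mordell's relations.
-/

set_option autoImplicit false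

noncomputable section

namespace FA.Tau

open UpperHalfPlane hiding I
open CongruenceSubgroup
open scoped MatrixGroups

/-- `Δ` on `Γ₀(1)`. -/
def deltaForm : CuspForm (Gamma0 1) 12 :=
  CuspForm.mcast rfl CuspForm.discriminant FA.EisCong.gamma0_one_coe

theorem qCoeff_deltaForm (n : ℕ) :
    ModularFormClass.qCoeff deltaForm n = ((PowerSeries.coeff n deltaInt : ℤ) : ℂ) :=
  qExpansion_discriminant n

theorem coeff_deltaInt_zero : PowerSeries.coeff 0 deltaInt = 0 := by simp [deltaInt]

theorem coeff_deltaInt_one : PowerSeries.coeff 1 deltaInt = 1 := by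
  rw [deltaInt, PowerSeries.coeff_succ_X_mul, PowerSeries.coeff_zero_eq_constantCoeff,
    ModularCurve.constantCoeff_dedekindEtaUnit]

/-- **The Hecke relation**. -/
theorem coeff_hecke {p : ℕ} (hp : p.Prime) (n : ℕ) :
    PowerSeries.coeff (n * p) deltaInt +
        (if p ∣ n then (p : ℤ) ^ 11 * PowerSeries.coeff (n / p) deltaInt else 0) =
      PowerSeries.coeff p deltaInt * PowerSeries.coeff n deltaInt := by
  have hp1 : ¬ p ∣ 1 := hp.not_dvd_one
  set g := CuspForm.heckeTLin 12 hp hp1 deltaForm with hg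
  obtain ⟨c, hc⟩ := CuspForm.exists_smul_discriminant_of_weight_eq_twelve
    (CuspForm.mcast rfl g FA.EisCong.gamma0_one_coe.symm)
  have hq : ∀ m, ModularFormClass.qCoeff g m = c * ((PowerSeries.coeff m deltaInt : ℤ) : ℂ) := by
    intro m
    have hfun : (⇑g : ℍ → ℂ) = c • ⇑CuspForm.discriminant := by
      have h := congrArg (fun f : CuspForm 𝒮ℒ 12 => (⇑f : ℍ → ℂ)) hc
      exact h.symm
    show (qExpansion 1 ⇑g).coeff m = _
    rw [hfun, ModularForm.qExpansion_smul one_pos one_mem_strictPeriods_SL c CuspForm.discriminant,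
      map_smul, smul_eq_mul, ← qExpansion_discriminant m]
    rfl
  have hT : ∀ m, ModularFormClass.qCoeff g m =
      ModularForm.coeffHeckeT 12 p (ModularFormClass.qCoeff deltaForm) m := fun m =>
    ModularFormClass.qCoeff_heckeT deltaForm (one_mem_strictPeriods_Gamma0 1) hp.ne_zero m
  have hc1 : c = ((PowerSeries.coeff p deltaInt : ℤ) : ℂ) := by
    have h := (hT 1).symm.trans (hq 1)
    rw [ModularForm.coeffHeckeT_of_not_dvd _ hp1, one_mul, qCoeff_deltaForm, coeff_deltaInt_one,
      Int.cast_one, mul_one] at h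
    exact h.symm
  have h := (hT n).symm.trans (hq n)
  rw [ModularForm.coeffHeckeT_apply, qCoeff_deltaForm, qCoeff_deltaForm, hc1,
    show ((p : ℂ) ^ ((12 : ℤ) - 1)) = (p : ℂ) ^ (11 : ℕ) by norm_num] at h
  apply Int.cast_injective (α := ℂ)
  rw [Int.cast_add, Int.cast_mul, apply_ite (Int.cast : ℤ → ℂ)]
  push_cast
  exact h

/-- **Mordell**: the coefficients are multiplicative. -/
theorem coeff_deltaInt_mul {m n : ℕ} (h : m.Coprime n) :
    PowerSeries.coeff (m * n) deltaInt =
      PowerSeries.coeff m deltaInt * PowerSeries.coeff n deltaInt := by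
  induction m using Nat.strongRecOn with
  | ind m ih =>
    rcases eq_or_ne m 1 with rfl | h1
    · rw [one_mul, coeff_deltaInt_one, one_mul]
    rcases eq_or_ne m 0 with rfl | h0
    · rw [show n = 1 by simpa using h, mul_one, coeff_deltaInt_one, mul_one]
    obtain ⟨p, hp, hpm⟩ := Nat.exists_prime_and_dvd h1
    obtain ⟨m', rfl⟩ := hpm
    have hm0 : m' ≠ 0 := right_ne_zero_of_mul h0
    have hlt : m' < p * m' := lt_mul_left (Nat.pos_of_ne_zero hm0) hp.one_lt
    have hcop : m'.Coprime n := h.coprime_mul_left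
    have hpn : ¬ p ∣ n := fun hd => hp.not_dvd_one (by
      have := Nat.dvd_gcd (dvd_mul_right p m') hd
      rwa [h] at this)
    have hiff : p ∣ m' * n ↔ p ∣ m' :=
      ⟨fun hd => (hp.dvd_mul.mp hd).resolve_right hpn, fun hd => hd.mul_right n⟩
    have e := coeff_hecke hp (m' * n)
    have e' := coeff_hecke hp m'
    rw [show p * m' * n = m' * n * p by ring, show p * m' = m' * p by ring]
    by_cases hd : p ∣ m'
    · rw [if_pos (hiff.mpr hd)] at e
      rw [if_pos hd] at e'
      obtain ⟨k, rfl⟩ := hd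
      have hk : k < p * (p * k) :=
        lt_of_le_of_lt (Nat.le_mul_of_pos_left k hp.pos) hlt
      rw [mul_assoc p k n, Nat.mul_div_cancel_left _ hp.pos, ← mul_assoc p k n, ih _ hlt hcop,
        ih _ hk hcop.coprime_mul_left] at e
      rw [Nat.mul_div_cancel_left _ hp.pos] at e'
      linear_combination e - PowerSeries.coeff n deltaInt * e'
    · rw [if_neg fun h => hd (hiff.mp h), add_zero, ih _ hlt hcop] at e
      rw [if_neg hd, add_zero] at e'
      rw [e, e', mul_assoc]

/-- **Mordell**: the recursion at a prime. -/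
theorem coeff_deltaInt_prime_pow {p : ℕ} (hp : p.Prime) (r : ℕ) :
    PowerSeries.coeff (p ^ (r + 2)) deltaInt =
      PowerSeries.coeff p deltaInt * PowerSeries.coeff (p ^ (r + 1)) deltaInt -
        (p : ℤ) ^ 11 * PowerSeries.coeff (p ^ r) deltaInt := by
  have e := coeff_hecke hp (p ^ (r + 1))
  rw [if_pos (dvd_pow_self p r.succ_ne_zero), ← pow_succ, pow_succ p r,
    Nat.mul_div_cancel _ hp.pos] at e
  rw [← pow_succ] at e
  linear_combination e

end FA.Tau

end
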