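import Fermat.Agent.Tau.FieldClassEquality

/-!
# Ambiguous classes of an imaginary quadratic field

Under the bijection between reduced forms and classes a class is its own inverse iff its form is
ambiguous, and the ambiguous forms of a field discriminant correspond to the factorisations
`u v`, `u < v`, of `|d|` (twice over if `d ≡ 3 (mod 4)`): `2 ^ (t - 1)` forms, `t` the number of
primes dividing the discriminant.
-/

set_option autoImplicit false
set_option linter.style.haveILetI false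

noncomputable section

namespace FA.FieldClassBound

open NumberField Module
open UpperHalfPlane hiding I
open FA.ModField FA.JInj FA.Mazur.Wp
open FA.Singular hiding IsRoot
open scoped nonZeroDivisors MatrixGroups

/-- A form with an automorphism reversing `b`. -/
def Amb (f : ℤ × ℤ × ℤ) : Prop := f.2.1 = 0 ∨ f.2.1 = f.1 ∨ f.1 = f.2.2

variable {K : Type*} [Field K] [NumberField K] {d : ℤ} {s : K}

/-- **The classes of order at most two are the ambiguous forms.** -/
theorem card_two_torsion (hK : finrank ℚ K = 2) (hd : Squarefree d) (hd0 : d < 0)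
    (hs : s ^ 2 = (d : K)) :
    Nat.card {x : ClassGroup (𝓞 K) // x * x = 1} =
      {f | f ∈ Red (discK d) ∧ Amb f}.ncard := by
  classical
  obtain ⟨e, he⟩ := exists_emb hd0 hs
  choose τ α hg using fun f : Red (discK d) =>
    exists_gen e hd0 hs he (f := (f : ℤ × ℤ × ℤ)) f.2.2.2.1 f.2.1
  set φ := fun f : Red (discK d) => formClass _ f.2.2.2.1 (α f)
  haveI : Finite (Red (discK d)) := (red_finite _).to_subtype
  haveI : Fintype (Red (discK d)) := Fintype.ofFinite _
  have hinj : Function.Injective φ := fun f f' h =>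
    Subtype.ext (eq_of_formClass_eq e hK hd hd0 hs he f.2 f'.2 (hg f) (hg f') h)
  have hbij : Function.Bijective φ := (Fintype.bijective_iff_injective_and_card φ).2 ⟨hinj, by
    rw [← Nat.card_eq_fintype_card, Nat.card_coe_set_eq,
      ← classNumber_eq_ncard_red hK hd hd0 hs, classNumber]⟩
  have hiff : ∀ f : Red (discK d), φ f * φ f = 1 ↔ Amb (f : ℤ × ℤ × ℤ) := by
    rintro ⟨⟨a, b, c⟩, hf⟩
    obtain ⟨hD, hp, ha, hb, hc, hbd⟩ := id hf
    simp only at hD hp ha hb hc hbd
    have hgf := hg ⟨(a, b, c), hf⟩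
    obtain ⟨τ', α', hg'⟩ := exists_gen e hd0 hs he (f := (a, -b, c)) ha (by simpa [disc] using hD)
    have hp' : Int.gcd (Int.gcd a (-b)) c = 1 := by simpa [Int.gcd_neg] using hp
    have h1 := formClass_mul_flip e hp ha hgf hg'
    constructor
    · intro h2
      by_contra hne
      simp only [Amb, not_or] at hne
      obtain ⟨hb0, hba, hac⟩ := hne
      have hba' : |b| ≠ a := fun h => hba (by rw [← h, abs_of_nonneg (hbd (Or.inl h))])
      have hf' : (a, -b, c) ∈ Red (discK d) := ⟨by simpa using hD, hp', ha,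
        by simpa using hb, hc, fun h => absurd h (by simp [hba', hac])⟩
      have he2 : formClass (a, b, c) ha (α ⟨(a, b, c), hf⟩) = formClass (a, -b, c) ha α' :=
        mul_left_cancel (h2.trans h1.symm)
      have := congrArg (fun t : ℤ × ℤ × ℤ => t.2.1)
        (eq_of_formClass_eq e hK hd hd0 hs he hf hf' hgf hg' he2)
      simp only at this
      omega
    · intro hamb
      obtain ⟨g, hgτ⟩ : ∃ g : SL(2, ℤ), g • τ' = τ ⟨(a, b, c), hf⟩ := by
        have hr' := hg'.1
        have hr := hgf.1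
        rcases hamb with h | h | h <;> simp only at h <;> subst h
        · refine ⟨1, ?_⟩
          rw [one_smul]
          exact root_unique (t := (a, 0, c)) ha.ne' (by simpa using hr') hr
        · refine ⟨ModularGroup.T⁻¹, root_unique (t := (b, b, c)) ha.ne' ?_ hr⟩
          have e' : (τ' : ℂ) = ((ModularGroup.T⁻¹ • τ' : ℍ) : ℂ) + 1 := by
            conv_lhs => rw [← smul_inv_smul ModularGroup.T τ', modular_T_smul, coe_vadd]
            push_cast; ring
          simp only [FA.Singular.IsRoot] at hr' ⊢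
          rw [e'] at hr'
          push_cast at hr'
          linear_combination hr'
        · refine ⟨ModularGroup.S, root_unique (t := (a, b, a)) ha.ne' ?_ hr⟩
          simp only [FA.Singular.IsRoot] at hr' ⊢
          rw [modular_S_smul, UpperHalfPlane.coe_mk]
          have := τ'.ne_zero
          field_simp
          push_cast at hr' ⊢
          linear_combination hr'
      have he2 := formClass_eq_of_smul e hK hd hd0 hs he (f := (a, b, c)) (f' := (a, -b, c))
        ha ha hD
        (by simpa [disc] using hD) hp hp' hgf hg' hgτ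
      calc φ ⟨(a, b, c), hf⟩ * φ ⟨(a, b, c), hf⟩
          = φ ⟨(a, b, c), hf⟩ * formClass (a, -b, c) ha α' := by rw [← he2]
        _ = 1 := h1
  rw [← Nat.card_coe_set_eq]
  refine (Nat.card_congr (Equiv.ofBijective
    (fun f : {f | f ∈ Red (discK d) ∧ Amb f} =>
      (⟨φ ⟨f.1, f.2.1⟩, (hiff ⟨f.1, f.2.1⟩).2 f.2.2⟩ : {x : ClassGroup (𝓞 K) // x * x = 1}))
    ⟨fun f f' h => Subtype.ext
        (congrArg (fun t : Red (discK d) => (t : ℤ × ℤ × ℤ)) (hinj (congrArg Subtype.val h)) :),
      fun x => ?_⟩)).symm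
  obtain ⟨f, hf⟩ := hbij.2 x.1
  exact ⟨⟨f.1, f.2, (hiff f).1 (by rw [hf]; exact x.2)⟩, Subtype.ext hf⟩

/-! ### Factorisations -/

/-- The smaller factors in the factorisations of `n` into two. -/
def lowDivisors (n : ℕ) : Finset ℕ := n.divisors.filter (fun u => u * u < n)

theorem mem_lowDivisors {n u : ℕ} : u ∈ lowDivisors n ↔ ∃ v : ℕ, 0 < u ∧ u < v ∧ u * v = n := by
  rw [lowDivisors, Finset.mem_filter, Nat.mem_divisors]
  constructor
  · rintro ⟨⟨⟨v, rfl⟩, hn⟩, h⟩
    exact ⟨v, Nat.pos_of_ne_zero (left_ne_zero_of_mul hn),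
      lt_of_mul_lt_mul_left h (Nat.zero_le _), rfl⟩
  · rintro ⟨v, hu, huv, rfl⟩
    exact ⟨⟨dvd_mul_right _ _, (Nat.mul_pos hu (hu.trans huv)).ne'⟩,
      Nat.mul_lt_mul_of_pos_left huv hu⟩

theorem two_mul_card_lowDivisors {n : ℕ} (hn : ¬ IsSquare n) :
    2 * (lowDivisors n).card = n.divisors.card := by
  have hn0 : n ≠ 0 := fun h => hn (h ▸ IsSquare.zero)
  have h := Finset.card_filter_add_card_filter_not (s := n.divisors) (p := fun u => u * u < n)
  have hswap : (n.divisors.filter (fun u => u * u < n)).card =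
      (n.divisors.filter (fun u => ¬ u * u < n)).card := by
    refine Finset.card_nbij' (fun u => n / u) (fun u => n / u) ?_ ?_ ?_ ?_
    · intro u hu
      simp only [Finset.coe_filter, Set.mem_ofPred_eq, Nat.mem_divisors] at hu ⊢
      obtain ⟨⟨⟨v, rfl⟩, -⟩, hlt⟩ := hu
      have hu0 : 0 < u := Nat.pos_of_ne_zero (left_ne_zero_of_mul hn0)
      rw [Nat.mul_div_cancel_left v hu0]
      exact ⟨⟨dvd_mul_left _ _, hn0⟩, by nlinarith⟩
    · intro u hu
      simp only [Finset.coe_filter, Set.mem_ofPred_eq, Nat.mem_divisors] at hu ⊢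
      obtain ⟨⟨⟨v, rfl⟩, -⟩, hlt⟩ := hu
      have hu0 : 0 < u := Nat.pos_of_ne_zero (left_ne_zero_of_mul hn0)
      rw [Nat.mul_div_cancel_left v hu0]
      refine ⟨⟨dvd_mul_left _ _, hn0⟩, ?_⟩
      have hle : v ≤ u := Nat.le_of_mul_le_mul_left (not_lt.1 hlt) hu0
      have hne : v ≠ u := fun h => hn ⟨u, by rw [h]⟩
      have hv0 : 0 < v := Nat.pos_of_ne_zero (right_ne_zero_of_mul hn0)
      nlinarith [lt_of_le_of_ne hle hne]
    · intro u hu
      simp only [Finset.coe_filter, Set.mem_ofPred_eq, Nat.mem_divisors] at hu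
      exact Nat.div_div_self hu.1.1 hn0
    · intro u hu
      simp only [Finset.coe_filter, Set.mem_ofPred_eq, Nat.mem_divisors] at hu
      exact Nat.div_div_self hu.1.1 hn0
  rw [lowDivisors]
  omega

theorem card_lowDivisors {n : ℕ} (hn : Squarefree n) (h1 : 1 < n) :
    (lowDivisors n).card = 2 ^ (n.primeFactors.card - 1) := by
  have hnsq : ¬ IsSquare n := fun ⟨u, hu⟩ => by
    have : u = 1 := Nat.isUnit_iff.1 (hn u ⟨1, by omega⟩)
    subst this; omega
  have hω : 0 < n.primeFactors.card :=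
    Finset.card_pos.2 (Nat.nonempty_primeFactors.2 h1)
  have h := two_mul_card_lowDivisors hnsq
  have hdiv : n.divisors.card = 2 ^ n.primeFactors.card := by
    rw [Nat.card_divisors hn.ne_zero]
    refine Finset.prod_eq_pow_card fun p hp => ?_
    rw [Nat.factorization_eq_one_of_squarefree hn (Nat.prime_of_mem_primeFactors hp)
      (Nat.dvd_of_mem_primeFactors hp)]
  rw [hdiv, show n.primeFactors.card = n.primeFactors.card - 1 + 1 by omega, pow_succ] at h
  omega

/-- Odd discriminants `-N`. -/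
theorem ncard_amb_odd {N : ℕ} (hN : Squarefree N) (h4 : N % 4 = 3)
    (hp : ∀ a b c : ℤ, b ^ 2 - 4 * a * c = -(N : ℤ) → Int.gcd (Int.gcd a b) c = 1) :
    {f | f ∈ Red (-(N : ℤ)) ∧ Amb f}.ncard = (lowDivisors N).card := by
  rw [← Set.ncard_coe_finset]
  refine Set.BijOn.ncard_eq (f := fun f : ℤ × ℤ × ℤ =>
    if f.2.1 = f.1 then f.1.natAbs else (2 * f.1 - f.2.1).natAbs) ⟨?_, ?_, ?_⟩
  · rintro ⟨a, b, c⟩ ⟨⟨hd, -, ha, hb, hc, hbd⟩, hamb⟩
    simp only at hd ha hb hc hbd
    rw [Finset.mem_coe, mem_lowDivisors]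
    simp only
    obtain ⟨hb1, hb2⟩ := abs_le.1 hb
    split_ifs with hba
    · subst hba
      refine ⟨(4 * c - b).natAbs, by omega, by omega, ?_⟩
      rw [← Int.natAbs_mul, show b * (4 * c - b) = (N : ℤ) by linear_combination -hd,
        Int.natAbs_natCast]
    · have hac : a = c := by
        rcases hamb with h | h | h
        · simp only at h; subst h
          have h2 : (4 * a * c : ℤ) = N := by linarith
          have : (4 : ℤ) ∣ (N : ℤ) := ⟨a * c, by rw [← h2]; ring⟩
          omega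
        · exact absurd h hba
        · exact h
      subst hac
      have hb0 := hbd (Or.inr rfl)
      have hbne : b ≠ 0 := by
        rintro rfl
        have h2 : (4 * a * a : ℤ) = N := by linarith
        have : (4 : ℤ) ∣ (N : ℤ) := ⟨a * a, by rw [← h2]; ring⟩
        omega
      refine ⟨(2 * a + b).natAbs, by omega, by omega, ?_⟩
      rw [← Int.natAbs_mul, show (2 * a - b) * (2 * a + b) = (N : ℤ) by linear_combination -hd,
        Int.natAbs_natCast]
  · rintro ⟨a, b, c⟩ ⟨⟨hd, -, ha, hb, hc, hbd⟩, hamb⟩ ⟨a', b', c'⟩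
      ⟨⟨hd', -, ha', hb', hc', hbd'⟩, hamb'⟩ heq
    simp only [Amb] at hd ha hb hc hbd hd' ha' hb' hc' hbd' hamb hamb' heq
    have hb0 : ∀ x y z : ℤ, y ^ 2 - 4 * x * z = -(N : ℤ) → y ≠ 0 := fun x y z h0 hy => by
      subst hy
      have : (4 : ℤ) ∣ (N : ℤ) := ⟨x * z, by linarith⟩
      omega
    have h1 := hb0 a b c hd
    have h1' := hb0 a' b' c' hd'
    obtain ⟨hb1, hb2⟩ := abs_le.1 hb
    obtain ⟨hb1', hb2'⟩ := abs_le.1 hb'
    split_ifs at heq with h h' h'
    · subst h h'
      have : b = b' := by omega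
      subst this
      simp only [Prod.mk.injEq, true_and]
      exact mul_left_cancel₀ (mul_ne_zero four_ne_zero h1) (by linear_combination hd' - hd)
    · have hac : a' = c' := (hamb'.resolve_left h1').resolve_left h'
      subst h hac
      have hpos : 0 ≤ b' := hbd' (Or.inr rfl)
      have e : b = 2 * a' - b' := by omega
      have e2 : 4 * c - b = 2 * a' + b' := mul_left_cancel₀ h1 (by
        conv_rhs => rw [e]
        linear_combination hd' - hd)
      omega
    · have hac : a = c := (hamb.resolve_left h1).resolve_left h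
      subst h' hac
      have hpos : 0 ≤ b := hbd (Or.inr rfl)
      have e : b' = 2 * a - b := by omega
      have e2 : 4 * c' - b' = 2 * a + b := mul_left_cancel₀ h1' (by
        conv_rhs => rw [e]
        linear_combination hd - hd')
      omega
    · have hac : a = c := (hamb.resolve_left h1).resolve_left h
      have hac' : a' = c' := (hamb'.resolve_left h1').resolve_left h'
      subst hac hac'
      have e : 2 * a - b = 2 * a' - b' := by omega
      have e2 : 2 * a + b = 2 * a' + b' := mul_left_cancel₀ (a := 2 * a - b) (by omega) (by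
        conv_rhs => rw [e]
        linear_combination hd' - hd)
      simp only [Prod.mk.injEq]
      omega
  · intro u hu
    rw [Finset.mem_coe, mem_lowDivisors] at hu
    obtain ⟨v, hu0, huv, rfl⟩ := hu
    obtain ⟨k, hk⟩ : 4 ∣ u + v := by
      have h1 : (u * v) % 4 = ((u % 4) * (v % 4)) % 4 := Nat.mul_mod u v 4
      have hu4 : u % 4 < 4 := Nat.mod_lt _ (by norm_num)
      have hv4 : v % 4 < 4 := Nat.mod_lt _ (by norm_num)
      have hsum : (u % 4 + v % 4) % 4 = 0 := by
        generalize u % 4 = x at h1 hu4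
        generalize v % 4 = y at h1 hv4
        interval_cases x <;> interval_cases y <;> omega
      omega
    have hk' : (u : ℤ) + v = 4 * k := by exact_mod_cast hk
    rcases le_or_gt (3 * u) v with h | h
    · have hd : (u : ℤ) ^ 2 - 4 * u * k = -((u * v : ℕ) : ℤ) := by
        push_cast; linear_combination (u : ℤ) * hk'
      refine ⟨(u, u, k), ⟨⟨hd, hp _ _ _ hd, show (0 : ℤ) < u by omega,
        show |(u : ℤ)| ≤ u by simp, show (u : ℤ) ≤ k by omega,
        fun _ => show (0 : ℤ) ≤ u by omega⟩, Or.inr (Or.inl rfl)⟩, ?_⟩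
      simp
    · have hw : 2 ∣ v - u := by omega
      obtain ⟨l, hl⟩ := hw
      have hl' : (v : ℤ) = u + 2 * l := by omega
      have hd : (l : ℤ) ^ 2 - 4 * k * k = -((u * v : ℕ) : ℤ) := by
        have hku : (2 : ℤ) * k = u + l := by omega
        push_cast
        rw [hl']
        linear_combination (-(2 : ℤ) * k - (u + l)) * hku
      refine ⟨(k, l, k), ⟨⟨hd, hp _ _ _ hd, show (0 : ℤ) < k by omega,
        show |(l : ℤ)| ≤ k by rw [Nat.abs_cast]; omega, le_rfl,
        fun _ => show (0 : ℤ) ≤ l by omega⟩, Or.inr (Or.inr rfl)⟩, ?_⟩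
      simp only
      rw [if_neg (by omega)]
      omega

/-- Discriminants `-4n`: the forms with `b = 0`. -/
theorem ncard_amb_zero {n : ℕ} (hn : Squarefree n) (h1 : 1 < n)
    (hp : ∀ a b c : ℤ, b ^ 2 - 4 * a * c = -4 * (n : ℤ) → Int.gcd (Int.gcd a b) c = 1) :
    {f | f ∈ Red (-4 * (n : ℤ)) ∧ f.2.1 = 0}.ncard = (lowDivisors n).card := by
  rw [← Set.ncard_coe_finset]
  refine Set.BijOn.ncard_eq (f := fun f : ℤ × ℤ × ℤ => f.1.natAbs) ⟨?_, ?_, ?_⟩
  · rintro ⟨a, b, c⟩ ⟨⟨hd, -, ha, -, hc, -⟩, hb⟩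
    simp only at hd ha hc hb
    subst hb
    rw [Finset.mem_coe, mem_lowDivisors]
    have e : a * c = (n : ℤ) := by linarith
    have hne : a ≠ c := fun h => by
      subst h
      have h2 : a.natAbs * a.natAbs = n := by
        rw [← Int.natAbs_mul, e, Int.natAbs_natCast]
      have h3 : a.natAbs = 1 := Nat.isUnit_iff.1 (hn _ ⟨1, by omega⟩)
      rw [h3] at h2; omega
    refine ⟨c.natAbs, ?_, ?_, by rw [← Int.natAbs_mul, e, Int.natAbs_natCast]⟩ <;> simp only <;>
      omega
  · rintro ⟨a, b, c⟩ ⟨⟨hd, -, ha, -, -, -⟩, hb⟩ ⟨a', b', c'⟩ ⟨⟨hd', -, ha', -, -, -⟩, hb'⟩ heq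
    simp only at hd ha hb hd' ha' hb' heq
    have : a = a' := by omega
    subst this hb hb'
    simp only [Prod.mk.injEq, true_and]
    exact mul_left_cancel₀ (mul_ne_zero four_ne_zero ha.ne') (by linear_combination hd' - hd)
  · intro u hu
    rw [Finset.mem_coe, mem_lowDivisors] at hu
    obtain ⟨v, hu0, huv, rfl⟩ := hu
    have hd : (0 : ℤ) ^ 2 - 4 * u * v = -4 * ((u * v : ℕ) : ℤ) := by push_cast; ring
    exact ⟨((u : ℤ), 0, (v : ℤ)), ⟨⟨hd, hp _ _ _ hd, show (0 : ℤ) < u by omega,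
      show |(0 : ℤ)| ≤ u by simp, show (u : ℤ) ≤ v by omega, fun _ => le_rfl⟩, rfl⟩,
      by simp⟩

/-- Discriminants `-4n`, `n` odd: the other ambiguous forms. -/
theorem ncard_amb_ne_zero {n : ℕ} (h1 : 1 < n) (hn : Squarefree n) (h4 : n % 4 = 1)
    (hp : ∀ a b c : ℤ, b ^ 2 - 4 * a * c = -4 * (n : ℤ) → Int.gcd (Int.gcd a b) c = 1) :
    {f | f ∈ Red (-4 * (n : ℤ)) ∧ Amb f ∧ f.2.1 ≠ 0}.ncard = (lowDivisors n).card := by
  rw [← Set.ncard_coe_finset]
  have heven : ∀ {a b c : ℤ}, b ^ 2 - 4 * a * c = -4 * (n : ℤ) → ∃ l, b = 2 * l :=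
    fun {a b c} h => by
    rcases Int.even_or_odd' b with ⟨l, rfl | rfl⟩
    · exact ⟨l, rfl⟩
    · ring_nf at h; omega
  refine Set.BijOn.ncard_eq (f := fun f : ℤ × ℤ × ℤ =>
    if f.2.1 = f.1 then (f.1 / 2).natAbs else (f.1 - f.2.1 / 2).natAbs) ⟨?_, ?_, ?_⟩
  · rintro ⟨a, b, c⟩ ⟨⟨hd, -, ha, hb, hc, hbd⟩, hamb, hb0⟩
    simp only at hd ha hb hc hbd hb0
    obtain ⟨l, rfl⟩ := heven hd
    obtain ⟨hb1, hb2⟩ := abs_le.1 hb
    rw [Finset.mem_coe, mem_lowDivisors]
    simp only
    split_ifs with hba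
    · subst hba
      rw [Int.mul_ediv_cancel_left _ two_ne_zero]
      refine ⟨(2 * c - l).natAbs, by omega, by omega, ?_⟩
      rw [← Int.natAbs_mul, show l * (2 * c - l) = (n : ℤ) by linarith, Int.natAbs_natCast]
    · have hac : a = c := by
        rcases hamb with h | h | h
        · exact absurd h hb0
        · exact absurd h hba
        · exact h
      subst hac
      have hpos := hbd (Or.inr rfl)
      rw [Int.mul_ediv_cancel_left _ two_ne_zero]
      refine ⟨(a + l).natAbs, by omega, by omega, ?_⟩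
      rw [← Int.natAbs_mul, show (a - l) * (a + l) = (n : ℤ) by linarith, Int.natAbs_natCast]
  · rintro ⟨a, b, c⟩ ⟨⟨hd, -, ha, hb, hc, hbd⟩, hamb, hb0⟩ ⟨a', b', c'⟩
      ⟨⟨hd', -, ha', hb', hc', hbd'⟩, hamb', hb0'⟩ heq
    simp only [Amb] at hd ha hb hc hbd hd' ha' hb' hc' hbd' hamb hamb' hb0 hb0' heq
    obtain ⟨l, rfl⟩ := heven hd
    obtain ⟨l', rfl⟩ := heven hd'
    obtain ⟨hb1, hb2⟩ := abs_le.1 hb
    obtain ⟨hb1', hb2'⟩ := abs_le.1 hb'
    split_ifs at heq with h h' h'
    · subst h h'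
      rw [Int.mul_ediv_cancel_left _ two_ne_zero, Int.mul_ediv_cancel_left _ two_ne_zero] at heq
      have : l = l' := by omega
      subst this
      simp only [Prod.mk.injEq, true_and]
      exact mul_left_cancel₀ (mul_ne_zero four_ne_zero hb0) (by linear_combination hd' - hd)
    · have hac : a' = c' := (hamb'.resolve_left hb0').resolve_left h'
      subst h hac
      have hpos := hbd' (Or.inr rfl)
      rw [Int.mul_ediv_cancel_left _ two_ne_zero, Int.mul_ediv_cancel_left _ two_ne_zero] at heq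
      have e : l = a' - l' := by omega
      have e2 : 2 * c - l = a' + l' := mul_left_cancel₀ (a := 4 * l) (by omega) (by
        conv_rhs => rw [e]
        linear_combination hd' - hd)
      omega
    · have hac : a = c := (hamb.resolve_left hb0).resolve_left h
      subst h' hac
      have hpos := hbd (Or.inr rfl)
      rw [Int.mul_ediv_cancel_left _ two_ne_zero, Int.mul_ediv_cancel_left _ two_ne_zero] at heq
      have e : l' = a - l := by omega
      have e2 : 2 * c' - l' = a + l := mul_left_cancel₀ (a := 4 * l') (by omega) (by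
        conv_rhs => rw [e]
        linear_combination hd - hd')
      omega
    · have hac : a = c := (hamb.resolve_left hb0).resolve_left h
      have hac' : a' = c' := (hamb'.resolve_left hb0').resolve_left h'
      subst hac hac'
      rw [Int.mul_ediv_cancel_left _ two_ne_zero, Int.mul_ediv_cancel_left _ two_ne_zero] at heq
      have e : a - l = a' - l' := by omega
      have e2 : a + l = a' + l' := mul_left_cancel₀ (a := a - l) (by omega) (by
        conv_rhs => rw [e]
        linarith)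
      simp only [Prod.mk.injEq]
      omega
  · intro u hu
    rw [Finset.mem_coe, mem_lowDivisors] at hu
    obtain ⟨v, hu0, huv, rfl⟩ := hu
    obtain ⟨hu2, hv2⟩ : u % 2 = 1 ∧ v % 2 = 1 := by
      have ho : Odd (u * v) := Nat.odd_iff.2 (by omega)
      exact ⟨Nat.odd_iff.1 (Nat.odd_mul.1 ho).1, Nat.odd_iff.1 (Nat.odd_mul.1 ho).2⟩
    obtain ⟨k, hk⟩ : 2 ∣ u + v := by omega
    have hk' : (u : ℤ) + v = 2 * k := by exact_mod_cast hk
    rcases le_or_gt (3 * u) v with h | h
    · have hd : (2 * u : ℤ) ^ 2 - 4 * (2 * u) * k = -4 * ((u * v : ℕ) : ℤ) := by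
        push_cast; linear_combination (4 * (u : ℤ)) * hk'
      refine ⟨(2 * (u : ℤ), 2 * (u : ℤ), (k : ℤ)), ⟨⟨hd, hp _ _ _ hd,
        show (0 : ℤ) < 2 * u by omega, show |(2 * u : ℤ)| ≤ 2 * u by rw [abs_of_pos (by omega)],
        show (2 * u : ℤ) ≤ k by omega, fun _ => show (0 : ℤ) ≤ 2 * u by omega⟩,
        Or.inr (Or.inl rfl), show (2 * u : ℤ) ≠ 0 by omega⟩, ?_⟩
      simp
    · obtain ⟨l, hl⟩ : 2 ∣ v - u := by omega
      have hl' : (v : ℤ) = u + 2 * l := by omega
      have hd : (2 * l : ℤ) ^ 2 - 4 * k * k = -4 * ((u * v : ℕ) : ℤ) := by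
        have hku : (k : ℤ) = u + l := by omega
        push_cast
        rw [hl', hku]
        ring
      refine ⟨((k : ℤ), 2 * (l : ℤ), (k : ℤ)), ⟨⟨hd, hp _ _ _ hd, show (0 : ℤ) < k by omega,
        show |(2 * l : ℤ)| ≤ k by rw [abs_of_pos (by omega)]; omega, le_rfl,
        fun _ => show (0 : ℤ) ≤ 2 * l by omega⟩, Or.inr (Or.inr rfl),
        show (2 * l : ℤ) ≠ 0 by omega⟩, ?_⟩
      simp only
      rw [if_neg (by omega)]
      omega

/-- **The number of ambiguous reduced forms.** -/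
theorem ncard_amb {d : ℤ} (hd : Squarefree d) (hd0 : d < 0) :
    {f | f ∈ Red (discK d) ∧ Amb f}.ncard = 2 ^ ((discK d).natAbs.primeFactors.card - 1) := by
  set n := d.natAbs with hn
  have hsq : Squarefree n := Int.squarefree_natAbs.2 hd
  have hp : ∀ a b c : ℤ, b ^ 2 - 4 * a * c = discK d → Int.gcd (Int.gcd a b) c = 1 :=
    fun a b c h => gcd_eq_one_of_disc hd h
  by_cases h1 : d % 4 = 1
  · have e : discK d = -(n : ℤ) := by simp only [discK, if_pos h1]; omega
    rw [e, Int.natAbs_neg, Int.natAbs_natCast, ncard_amb_odd hsq (by omega) (e ▸ hp),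
      card_lowDivisors hsq (by omega)]
  have e : discK d = -4 * (n : ℤ) := by simp only [discK, if_neg h1]; omega
  rw [e] at hp ⊢
  rw [Int.natAbs_mul, Int.natAbs_natCast, show (-4 : ℤ).natAbs = 4 from rfl]
  have h4 : n % 4 ≠ 0 := fun h => by
    have := Nat.isUnit_iff.1 (hsq 2 (by omega))
    omega
  rcases eq_or_ne n 1 with hn1 | hn1
  · rw [hn1]
    have hone : {f | f ∈ Red (-4 * ((1 : ℕ) : ℤ)) ∧ Amb f} = {(1, 0, 1)} := by
      refine Set.eq_singleton_iff_unique_mem.2 ⟨⟨⟨by simp, by simp, one_pos, by simp, le_rfl,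
        fun _ => le_rfl⟩, Or.inl rfl⟩, ?_⟩
      rintro ⟨a, b, c⟩ ⟨⟨hd, -, ha, hb, hc, hbd⟩, -⟩
      simp only at hd ha hb hc hbd
      push_cast at hd
      have h1 : b ^ 2 ≤ a ^ 2 := sq_le_sq.2 (by rwa [abs_of_pos ha])
      have h2 := mul_le_mul_of_nonneg_left hc ha.le
      obtain rfl : a = 1 := by nlinarith
      obtain ⟨hb1, hb2⟩ := abs_le.1 hb
      rcases (show b = -1 ∨ b = 0 ∨ b = 1 by omega) with rfl | rfl | rfl <;>
        simp only [Prod.mk.injEq] <;> norm_num at * <;> omega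
    rw [hone, Set.ncard_singleton, mul_one, show (4 : ℕ) = 2 ^ 2 from rfl,
      Nat.primeFactors_prime_pow two_ne_zero Nat.prime_two]
    rfl
  have hn2 : 1 < n := by omega
  have h4n : (4 * n).primeFactors = insert 2 n.primeFactors := by
    rw [Nat.primeFactors_mul (by norm_num) hsq.ne_zero, show (4 : ℕ) = 2 ^ 2 from rfl,
      Nat.primeFactors_prime_pow two_ne_zero Nat.prime_two, Finset.singleton_union]
  rw [h4n]
  by_cases h2 : n % 2 = 0
  · rw [Finset.insert_eq_self.2 (Nat.mem_primeFactors.2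
      ⟨Nat.prime_two, Nat.dvd_of_mod_eq_zero h2, hsq.ne_zero⟩)]
    rw [show {f | f ∈ Red (-4 * (n : ℤ)) ∧ Amb f} = {f | f ∈ Red (-4 * (n : ℤ)) ∧ f.2.1 = 0} from
      Set.ext fun ⟨a, b, c⟩ => ⟨fun ⟨hf, hamb⟩ => ⟨hf, ?_⟩, fun ⟨hf, hb⟩ => ⟨hf, Or.inl hb⟩⟩,
      ncard_amb_zero hsq hn2 hp, card_lowDivisors hsq hn2]
    obtain ⟨hd', -, ha, hb, hc, hbd⟩ := hf
    simp only at hd' ha hb hc hbd ⊢
    by_contra hb0
    obtain ⟨m, hm⟩ := Nat.dvd_of_mod_eq_zero h2
    have hm2 : m % 2 = 1 := by omega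
    rcases Int.even_or_odd' b with ⟨l, rfl | rfl⟩
    · have key : ∀ x y : ℤ, x * y = 2 * (m : ℤ) → x % 2 = y % 2 → False := fun x y h hxy => by
        rcases Int.even_or_odd' x with ⟨p, rfl | rfl⟩
        · obtain ⟨q, rfl⟩ : (2 : ℤ) ∣ y := by omega
          have : (2 : ℤ) ∣ (m : ℤ) := ⟨p * q, by linarith⟩
          omega
        · obtain ⟨q, rfl⟩ : ∃ q, y = 2 * q + 1 := ⟨y / 2, by omega⟩
          ring_nf at h; omega
      have hmz : (n : ℤ) = 2 * m := by exact_mod_cast hm
      rcases hamb with h | h | h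
      · exact hb0 h
      · simp only at h; subst h
        exact key l (2 * c - l) (by rw [← hmz]; linarith) (by omega)
      · simp only at h; subst h
        exact key (a - l) (a + l) (by rw [← hmz]; linarith) (by omega)
    · ring_nf at hd'; omega
  rw [Finset.card_insert_of_notMem fun h =>
      h2 (Nat.mod_eq_zero_of_dvd (Nat.dvd_of_mem_primeFactors h)),
    Nat.add_sub_cancel]
  have hsplit : {f | f ∈ Red (-4 * (n : ℤ)) ∧ Amb f} =
      {f | f ∈ Red (-4 * (n : ℤ)) ∧ f.2.1 = 0} ∪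
        {f | f ∈ Red (-4 * (n : ℤ)) ∧ Amb f ∧ f.2.1 ≠ 0} := by
    ext f
    constructor
    · rintro ⟨hf, hamb⟩
      by_cases h : f.2.1 = 0
      exacts [Or.inl ⟨hf, h⟩, Or.inr ⟨hf, hamb, h⟩]
    · rintro (⟨hf, h⟩ | ⟨hf, h, -⟩)
      exacts [⟨hf, Or.inl h⟩, ⟨hf, h⟩]
  rw [hsplit, Set.ncard_union_eq (Set.disjoint_left.2 fun f hf hf' => hf'.2.2 hf.2)
    ((red_finite _).subset fun f hf => hf.1) ((red_finite _).subset fun f hf => hf.1),
    ncard_amb_zero hsq hn2 hp, ncard_amb_ne_zero hn2 hsq (by omega) hp, card_lowDivisors hsq hn2]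
  obtain ⟨w, hw⟩ : ∃ w, n.primeFactors.card = w + 1 :=
    ⟨_, (Nat.succ_pred_eq_of_pos (Finset.card_pos.2 (Nat.nonempty_primeFactors.2 hn2))).symm⟩
  rw [hw, Nat.add_sub_cancel, pow_succ]
  ring

/-- **Gauss**: the ambiguous classes number `2 ^ (t - 1)`. -/
theorem card_two_torsion_eq (hK : finrank ℚ K = 2) (hd : Squarefree d) (hd0 : d < 0)
    (hs : s ^ 2 = (d : K)) :
    Nat.card {x : ClassGroup (𝓞 K) // x * x = 1} =
      2 ^ ((discK d).natAbs.primeFactors.card - 1) :=
  (card_two_torsion hK hd hd0 hs).trans (ncard_amb hd hd0)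

end FA.FieldClassBound

end
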