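import Fermat.Agent.Tau.SingularConjugate
import Fermat.Agent.Tau.CMFields
import Fermat.Agent.ClassNumberOne.Order
import Mathlib.RingTheory.ClassGroup.Basic

/-!
# Reduced forms of the field discriminant inject into the class group

For `d < 0` squarefree and `D` the discriminant of `K = ℚ(√d)`, a form `(a, b, c)` of discriminant
`D` with root `τ` gives the ideal `(a, a τ)`, whose image in `ℂ` is the lattice `a (ℤ τ + ℤ)`. Two
reduced primitive forms give equivalent ideals only when they are equal, so `h(D) ≤ h_K`; the forms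
`(a, ± b, c)` give inverse classes.
-/

set_option autoImplicit false
set_option linter.style.haveILetI false

noncomputable section

namespace FA.FieldClassBound

open NumberField Module
open UpperHalfPlane hiding I
open FA.ModField FA.JInj FA.Mazur.Wp
open FA.Singular hiding IsRoot
open scoped nonZeroDivisors

/-- The discriminant of `ℚ(√d)`. -/
def discK (d : ℤ) : ℤ := if d % 4 = 1 then d else 4 * d

theorem discK_neg {d : ℤ} (hd : d < 0) : discK d < 0 := by unfold discK; split_ifs <;> omega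

theorem discK_mod_four (d : ℤ) : discK d % 4 = 0 ∨ discK d % 4 = 1 := by
  unfold discK; split_ifs <;> omega

variable {K : Type*} [Field K] [NumberField K] {d : ℤ} {s : K}

/-- An embedding with `√d ↦ i √|d|`. -/
theorem exists_emb (hd0 : d < 0) (hs : s ^ 2 = (d : K)) :
    ∃ e : K →+* ℂ, e s = Complex.I * (Real.sqrt (-(d : ℝ)) : ℂ) := by
  have h0 : (0 : ℝ) ≤ -(d : ℝ) := by
    have : (d : ℝ) < 0 := Int.cast_lt_zero.2 hd0
    linarith
  obtain ⟨e⟩ : Nonempty (K →+* ℂ) := inferInstance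
  have h : e s ^ 2 = (Complex.I * (Real.sqrt (-(d : ℝ)) : ℂ)) ^ 2 := by
    rw [← map_pow, hs, map_intCast, mul_pow, Complex.I_sq, ← Complex.ofReal_pow, Real.sq_sqrt h0]
    push_cast; ring
  rcases sq_eq_sq_iff_eq_or_eq_neg.1 h with h' | h'
  · exact ⟨e, h'⟩
  · refine ⟨(starRingEnd ℂ).comp e, ?_⟩
    rw [RingHom.comp_apply, h', map_neg, map_mul, Complex.conj_I, Complex.conj_ofReal]
    ring

/-- Twice the coordinates of an integer are integers, and the norm is integral. -/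
theorem exists_double_coord (hK : finrank ℚ K = 2) (hd : Squarefree d) (hd0 : d < 0)
    (hs : s ^ 2 = (d : K)) (r : 𝓞 K) :
    ∃ a b N : ℤ, 2 * (r : K) = (a : K) + (b : K) * s ∧ a ^ 2 - d * b ^ 2 = 4 * N := by
  obtain ⟨u, v, huv⟩ := FA.ClassNumberOne.exists_coord hK hd0 hs (r : K)
  obtain ⟨hN, a, ha⟩ := FA.ExceptionalIsCM.norm_trace_int hK hd0 hs huv
  generalize Algebra.norm ℤ r = N at hN
  have hv : (d : ℚ) * (2 * v) ^ 2 = ((a ^ 2 - 4 * N : ℤ) : ℚ) := by
    push_cast; rw [← ha, ← hN]; ring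
  generalize hM : a ^ 2 - 4 * N = M at hv
  obtain ⟨c, hc⟩ : ∃ c : ℤ, (d : ℚ) * (2 * v) = c := by
    have h2 : ((d : ℚ) * (2 * v)) ^ 2 = ((d * M : ℤ) : ℚ) := by
      push_cast; rw [← hv]; ring
    refine ⟨((d : ℚ) * (2 * v)).num, (Rat.coe_int_num_of_den_eq_one ?_).symm⟩
    have h3 := congrArg Rat.den h2
    rw [Rat.den_pow, Rat.den_intCast] at h3
    exact (pow_eq_one_iff_left two_ne_zero).mp h3
  obtain ⟨b, rfl⟩ : d ∣ c := (hd.dvd_pow_iff_dvd two_ne_zero).mp ⟨M, by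
    have h4 : ((c ^ 2 : ℤ) : ℚ) = ((d * M : ℤ) : ℚ) := by
      push_cast; rw [← hc, ← hv]; ring
    exact_mod_cast h4⟩
  push_cast at hc
  have hb : 2 * v = b := mul_left_cancel₀ (Int.cast_ne_zero.2 hd0.ne) hc
  refine ⟨a, b, N, ?_, ?_⟩
  · have ha' : (2 : K) * (u : K) = (a : K) := by
      exact_mod_cast congrArg (Rat.cast : ℚ → K) ha
    have hb' : (2 : K) * (v : K) = (b : K) := by
      exact_mod_cast congrArg (Rat.cast : ℚ → K) hb
    rw [huv, ← ha', ← hb']; ring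
  · have h5 : ((a ^ 2 - d * b ^ 2 : ℤ) : ℚ) = ((4 * N : ℤ) : ℚ) := by
      push_cast; rw [← ha, ← hb, ← hN]; ring
    exact_mod_cast h5

/-- `(D + √D) / 2` for the field discriminant. -/
theorem omega_discK (d : ℤ) :
    FA.CMFields.omega (discK d) = if d % 4 = 1
      then ((d : ℂ) + Complex.I * (Real.sqrt (-(d : ℝ)) : ℂ)) / 2
      else 2 * (d : ℂ) + Complex.I * (Real.sqrt (-(d : ℝ)) : ℂ) := by
  unfold discK
  split_ifs
  · rfl
  · have h : Real.sqrt (-((4 * d : ℤ) : ℝ)) = 2 * Real.sqrt (-(d : ℝ)) := by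
      push_cast
      rw [show -(4 * (d : ℝ)) = 2 ^ 2 * -(d : ℝ) by ring, Real.sqrt_mul (by norm_num),
        Real.sqrt_sq (by norm_num)]
    rw [FA.CMFields.omega, h]
    push_cast; ring

/-- The integers are `ℤ + ℤ (D + √D)/2`. -/
theorem exists_omega_coord (hK : finrank ℚ K = 2) (hd : Squarefree d) (hd0 : d < 0)
    (hs : s ^ 2 = (d : K)) {e : K →+* ℂ} (he : e s = Complex.I * (Real.sqrt (-(d : ℝ)) : ℂ))
    (r : 𝓞 K) : ∃ x y : ℤ, e (r : K) = x + y * FA.CMFields.omega (discK d) := by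
  obtain ⟨a, b, N, h2, hN⟩ := exists_double_coord hK hd hd0 hs r
  have h := congrArg e h2
  rw [map_mul, map_add, map_mul, map_intCast, map_intCast, map_ofNat, he] at h
  rw [omega_discK d]
  split_ifs with h1
  · obtain ⟨k, hk⟩ : (2 : ℤ) ∣ a - b * d := by
      show ((2 : ℕ) : ℤ) ∣ a - b * d
      rw [← ZMod.intCast_zmod_eq_zero_iff_dvd]
      have e2 := congrArg (Int.cast : ℤ → ZMod 2) hN
      have hd2 : (d : ZMod 2) = 1 := (ZMod.intCast_eq_intCast_iff' d 1 2).2 (by omega)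
      push_cast at e2 ⊢
      rw [hd2] at e2 ⊢
      rw [show (4 : ZMod 2) = 0 by decide, zero_mul] at e2
      revert e2
      generalize (a : ZMod 2) = x
      generalize (b : ZMod 2) = y
      revert x y; decide
    refine ⟨k, b, mul_left_cancel₀ (two_ne_zero (α := ℂ)) ?_⟩
    rw [h]
    have hk' : (a : ℂ) - b * d = 2 * k := by exact_mod_cast hk
    linear_combination hk'
  · have hdm : d % 4 = 2 ∨ d % 4 = 3 := by
      have : ¬ (4 : ℤ) ∣ d := fun h4 => by
        have := hd 2 (by norm_num; exact h4)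
        simp [Int.isUnit_iff] at this
      omega
    obtain ⟨⟨k, rfl⟩, ⟨l, rfl⟩⟩ : 2 ∣ a ∧ 2 ∣ b := by
      have e4 := congrArg (Int.cast : ℤ → ZMod 4) hN
      push_cast at e4
      rw [show (4 : ZMod 4) = 0 by decide, zero_mul] at e4
      have key : ∀ x y : ZMod 4, (x ^ 2 - 2 * y ^ 2 = 0 ∨ x ^ 2 - 3 * y ^ 2 = 0) →
          (x = 0 ∨ x = 2) ∧ (y = 0 ∨ y = 2) := by decide
      have hd4 : (d : ZMod 4) = 2 ∨ (d : ZMod 4) = 3 := by
        rcases hdm with h | h
        · exact Or.inl ((ZMod.intCast_eq_intCast_iff' d 2 4).2 (by omega))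
        · exact Or.inr ((ZMod.intCast_eq_intCast_iff' d 3 4).2 (by omega))
      have hk := key a b (hd4.imp (fun h => by rwa [h] at e4) fun h => by rwa [h] at e4)
      have hev : ∀ z : ℤ, ((z : ZMod 4) = 0 ∨ (z : ZMod 4) = 2) → 2 ∣ z := fun z hz => by
        rcases hz with h | h
        · have := (ZMod.intCast_eq_intCast_iff' z 0 4).1 (by simpa using h); omega
        · have := (ZMod.intCast_eq_intCast_iff' z 2 4).1 (by simpa using h); omega
      exact ⟨hev a hk.1, hev b hk.2⟩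
    refine ⟨k - 2 * l * d, l, mul_left_cancel₀ (two_ne_zero (α := ℂ)) ?_⟩
    rw [h]
    push_cast; ring

/-- `(D + √D)/2` is an integer of `K`. -/
theorem exists_omega (hs : s ^ 2 = (d : K)) {e : K →+* ℂ}
    (he : e s = Complex.I * (Real.sqrt (-(d : ℝ)) : ℂ)) :
    ∃ w : 𝓞 K, e (w : K) = FA.CMFields.omega (discK d) := by
  have key : ∀ z : K, ∀ p q : ℤ, z ^ 2 + p * z + q = 0 → IsIntegral ℤ z := fun z p q hz => by
    refine ⟨Polynomial.X ^ 2 + Polynomial.C p * Polynomial.X + Polynomial.C q, by monicity!, ?_⟩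
    simp only [Polynomial.eval₂_add, Polynomial.eval₂_mul, Polynomial.eval₂_C,
      Polynomial.eval₂_pow, Polynomial.eval₂_X]
    simpa using hz
  rw [omega_discK d]
  split_ifs with h1
  · obtain ⟨k, hk⟩ : (4 : ℤ) ∣ d * d - d := by
      obtain ⟨t, ht⟩ : (4 : ℤ) ∣ d - 1 := by omega
      exact ⟨d * t, by linear_combination d * ht⟩
    have hk' : (d : K) * d - d = 4 * k := by exact_mod_cast congrArg (Int.cast : ℤ → K) hk
    refine ⟨⟨((d : K) + s) / 2, key _ (-d) k ?_⟩, ?_⟩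
    · push_cast
      linear_combination (1 / 4 : K) * hs - (1 / 4 : K) * hk'
    · show e (((d : K) + s) / 2) = _
      rw [map_div₀, map_add, map_intCast, map_ofNat, he]
  · refine ⟨⟨2 * (d : K) + s, key _ (-4 * d) (4 * d * d - d) ?_⟩, ?_⟩
    · push_cast
      linear_combination hs
    · show e (2 * (d : K) + s) = _
      rw [map_add, map_mul, map_intCast, map_ofNat, he]

section ideals

variable (e : K →+* ℂ)

/-- `α` represents `a τ` for the root `τ` of the form. -/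
def IsGen (f : ℤ × ℤ × ℤ) (τ : ℍ) (α : 𝓞 K) : Prop :=
  FA.Singular.IsRoot f τ ∧ e (α : K) = (f.1 : ℂ) * τ

theorem exists_gen (hd0 : d < 0) (hs : s ^ 2 = (d : K))
    (he : e s = Complex.I * (Real.sqrt (-(d : ℝ)) : ℂ)) {f : ℤ × ℤ × ℤ} (hf : 0 < f.1)
    (hdisc : disc f = discK d) : ∃ τ α, IsGen e f τ α := by
  obtain ⟨a, b, c⟩ := f
  obtain ⟨τ, hτ⟩ := exists_isRoot (t := (a, b, c)) hf (hdisc.trans_lt (discK_neg hd0))
  obtain ⟨m, hm⟩ := FA.CMFields.exists_smul_eq (D := discK d) hf hdisc hτ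
  obtain ⟨w, hw⟩ := exists_omega hs he
  exact ⟨τ, w - (m : 𝓞 K), hτ, by simp [hw, hm]⟩

/-- The ideal of a form. -/
def formIdeal (f : ℤ × ℤ × ℤ) (α : 𝓞 K) : Ideal (𝓞 K) := Ideal.span {(f.1 : 𝓞 K), α}

theorem formIdeal_mem_nonZeroDivisors {f : ℤ × ℤ × ℤ} (hf : 0 < f.1) (α : 𝓞 K) :
    formIdeal f α ∈ (Ideal (𝓞 K))⁰ := by
  refine mem_nonZeroDivisors_of_ne_zero fun h => ?_
  have : (f.1 : 𝓞 K) ∈ formIdeal f α := Ideal.subset_span (Set.mem_insert _ _)
  rw [h, Ideal.zero_eq_bot, Ideal.mem_bot, Int.cast_eq_zero] at this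
  omega

/-- The image of the ideal is the lattice of the form. -/
theorem mem_formIdeal_iff (hK : finrank ℚ K = 2) (hd : Squarefree d) (hd0 : d < 0)
    (hs : s ^ 2 = (d : K)) (he : e s = Complex.I * (Real.sqrt (-(d : ℝ)) : ℂ))
    {f : ℤ × ℤ × ℤ} (hf : f ∈ Red (discK d)) {τ : ℍ} {α : 𝓞 K} (hg : IsGen e f τ α) (z : ℂ) :
    (∃ r ∈ formIdeal f α, e (r : K) = z) ↔ ∃ l ∈ (latPair τ).lattice, (f.1 : ℂ) * l = z := by
  obtain ⟨a, b, c⟩ := f
  obtain ⟨hroot, hα⟩ := hg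
  constructor
  · rintro ⟨r, hr, rfl⟩
    obtain ⟨p, q, rfl⟩ := Ideal.mem_span_pair.1 hr
    have hst : ∀ x : 𝓞 K, ∀ l ∈ (latPair τ).lattice, e (x : K) * l ∈ (latPair τ).lattice := by
      intro x
      obtain ⟨m, n, hx⟩ := exists_omega_coord hK hd hd0 hs he x
      exact ((FA.CMFields.isMultiplierRing_of_root hf.2.2.1 hf.1 hf.2.1 hroot) _).2 ⟨m, n, hx⟩
    refine ⟨e (p : K) * 1 + e (q : K) * τ, Submodule.add_mem _
      (hst p 1 (mem_latPair.2 ⟨0, 1, by simp⟩)) (hst q τ (mem_latPair.2 ⟨1, 0, by simp⟩)), ?_⟩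
    simp only [map_add, map_mul, map_intCast, hα]
    ring
  · rintro ⟨l, hl, rfl⟩
    obtain ⟨m, n, rfl⟩ := mem_latPair.1 hl
    refine ⟨(n : 𝓞 K) * (a : 𝓞 K) + (m : 𝓞 K) * α, Ideal.mem_span_pair.2 ⟨_, _, rfl⟩, ?_⟩
    simp only [map_add, map_mul, map_intCast, hα]
    ring

/-- The class of a form. -/
def formClass (f : ℤ × ℤ × ℤ) (hf : 0 < f.1) (α : 𝓞 K) : ClassGroup (𝓞 K) :=
  ClassGroup.mk0 ⟨formIdeal f α, formIdeal_mem_nonZeroDivisors hf α⟩

/-- **Reduced forms with the same class are equal.** -/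
theorem eq_of_formClass_eq (hK : finrank ℚ K = 2) (hd : Squarefree d) (hd0 : d < 0)
    (hs : s ^ 2 = (d : K)) (he : e s = Complex.I * (Real.sqrt (-(d : ℝ)) : ℂ))
    {f f' : ℤ × ℤ × ℤ} (hf : f ∈ Red (discK d)) (hf' : f' ∈ Red (discK d)) {τ τ' : ℍ}
    {α α' : 𝓞 K} (hg : IsGen e f τ α) (hg' : IsGen e f' τ' α')
    (h : formClass f hf.2.2.1 α = formClass f' hf'.2.2.1 α') : f = f' := by
  obtain ⟨x, y, hx, hy, hxy⟩ := ClassGroup.mk0_eq_mk0_iff.1 h
  have himg : ∀ {g : ℤ × ℤ × ℤ} (_ : g ∈ Red (discK d)) {σ : ℍ} {β : 𝓞 K} (_ : IsGen e g σ β)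
      (t : 𝓞 K) (z : ℂ), (∃ r ∈ Ideal.span {t} * formIdeal g β, e (r : K) = z) ↔
        ∃ l ∈ (latPair σ).lattice, e (t : K) * (g.1 : ℂ) * l = z := by
    intro g hgR σ β hgen t z
    constructor
    · rintro ⟨r, hr, rfl⟩
      obtain ⟨r', hr', rfl⟩ := Ideal.mem_span_singleton_mul.1 hr
      obtain ⟨l, hl, hl'⟩ := (mem_formIdeal_iff e hK hd hd0 hs he hgR hgen _).1 ⟨r', hr', rfl⟩
      exact ⟨l, hl, by rw [mul_assoc, hl']; simp⟩
    · rintro ⟨l, hl, rfl⟩
      obtain ⟨r', hr', hr''⟩ := (mem_formIdeal_iff e hK hd hd0 hs he hgR hgen _).2 ⟨l, hl, rfl⟩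
      exact ⟨t * r', Ideal.mem_span_singleton_mul.2 ⟨r', hr', rfl⟩, by simp [hr'', mul_assoc]⟩
  have ha : (f.1 : ℂ) ≠ 0 := Int.cast_ne_zero.2 hf.2.2.1.ne'
  have ha' : (f'.1 : ℂ) ≠ 0 := Int.cast_ne_zero.2 hf'.2.2.1.ne'
  have hx' : e (x : K) ≠ 0 := (map_ne_zero e).2 (by simpa using hx)
  have hy' : e (y : K) ≠ 0 := (map_ne_zero e).2 (by simpa using hy)
  have hc : e (x : K) * f.1 / (e (y : K) * f'.1) ≠ 0 := by positivity
  obtain ⟨g, hgτ⟩ := exists_smul_eq_of_lattice_eq (z := τ) (w := τ') hc (by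
    ext l
    rw [mem_scalePair]
    constructor
    · intro hl
      obtain ⟨m, hm, e1⟩ := (himg hf hg x _).1 (hxy.symm ▸ (himg hf' hg' y _).2 ⟨l, hl, rfl⟩)
      exact ⟨m, hm, by field_simp; linear_combination e1⟩
    · rintro ⟨m, hm, rfl⟩
      obtain ⟨l, hl, e1⟩ := (himg hf' hg' y _).1 (hxy ▸ (himg hf hg x _).2 ⟨m, hm, rfl⟩)
      convert hl using 1
      field_simp
      linear_combination -e1)
  exact red_eq_of_smul (discK_neg hd0) hf hf' hg.1 hg'.1 hgτ

/-- The forms `(a, ± b, c)` give inverse classes. -/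
theorem formClass_mul_flip {a b c : ℤ} (hp : Int.gcd (Int.gcd a b) c = 1) (ha : 0 < a)
    {τ τ' : ℍ} {α α' : 𝓞 K} (hg : IsGen e (a, b, c) τ α) (hg' : IsGen e (a, -b, c) τ' α') :
    formClass (a, b, c) ha α * formClass (a, -b, c) ha α' = 1 := by
  have hre := (root_re_normSq hg.1).1
  have hre' := (root_re_normSq hg'.1).1
  have hns := (root_re_normSq hg.1).2
  have hns' := (root_re_normSq hg'.1).2
  simp only at hre hre' hns hns'
  push_cast at hre'
  rw [Complex.normSq_apply] at hns hns'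
  simp only [UpperHalfPlane.coe_re, UpperHalfPlane.coe_im] at hre hre' hns hns'
  have haR : (a : ℝ) ≠ 0 := Int.cast_ne_zero.2 ha.ne'
  have hre2 : τ'.re = -τ.re := mul_left_cancel₀ (mul_ne_zero two_ne_zero haR) (by linarith)
  have him : τ'.im = τ.im := by
    have : τ'.im ^ 2 = τ.im ^ 2 := mul_left_cancel₀ haR (by
      rw [hre2] at hns'
      linear_combination hns' - hns)
    exact (sq_eq_sq₀ τ'.im_pos.le τ.im_pos.le).1 this
  have hsub : α' - α = (b : 𝓞 K) := RingOfIntegers.coe_injective (e.injective (by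
    simp only [map_sub, map_intCast, hg.2, hg'.2]
    apply Complex.ext
    · simp [hre2]; linarith
    · simp [him]))
  have hprod : α * α' = -((a : 𝓞 K) * (c : 𝓞 K)) := RingOfIntegers.coe_injective (e.injective (by
    simp only [map_mul, map_neg, map_intCast, hg.2, hg'.2]
    apply Complex.ext
    · simp [hre2, him]; linear_combination -(a : ℝ) * hns
    · simp [hre2, him]; ring))
  obtain ⟨u, v, w, hb⟩ := FA.OrderTheta.exists_bezout hp
  rw [formClass, formClass, ← map_mul]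
  refine (ClassGroup.mk0_eq_one_iff _).2 ⟨⟨(a : 𝓞 K), ?_⟩⟩
  show formIdeal (a, b, c) α * formIdeal (a, -b, c) α' = Ideal.span {(a : 𝓞 K)}
  rw [formIdeal, formIdeal, Ideal.span_pair_mul_span_pair]
  refine le_antisymm (Ideal.span_le.2 ?_) (Ideal.span_le.2 ?_)
  · simp only [Set.insert_subset_iff, Set.singleton_subset_iff, SetLike.mem_coe,
      Ideal.mem_span_singleton]
    exact ⟨dvd_mul_right _ _, dvd_mul_right _ _, dvd_mul_left _ _,
      by rw [hprod]; exact (dvd_mul_right _ _).neg_right⟩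
  · rw [Set.singleton_subset_iff, SetLike.mem_coe]
    have e1 : (a : 𝓞 K) = (u : 𝓞 K) * ((a : 𝓞 K) * a) +
        (w : 𝓞 K) * ((a : 𝓞 K) * α' - α * a) + -(v : 𝓞 K) * (α * α') := by
      have hb' := congrArg (Int.cast : ℤ → 𝓞 K) hb
      push_cast at hb'
      rw [hprod, show (a : 𝓞 K) * α' - α * a = a * (α' - α) by ring, hsub]
      linear_combination -(a : 𝓞 K) * hb'
    have hmem : ∀ {S : Set (𝓞 K)} {p q r t : 𝓞 K}, p ∈ S → q ∈ S → r ∈ S → t ∈ S →
        (u : 𝓞 K) * p + (w : 𝓞 K) * (q - r) + -(v : 𝓞 K) * t ∈ Ideal.span S :=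
      fun h1 h2 h3 h4 => Ideal.add_mem _
        (Ideal.add_mem _ (Ideal.mul_mem_left _ _ (Ideal.subset_span h1))
          (Ideal.mul_mem_left _ _ (Ideal.sub_mem _ (Ideal.subset_span h2) (Ideal.subset_span h3))))
        (Ideal.mul_mem_left _ _ (Ideal.subset_span h4))
    have h5 := hmem (S := {(a : 𝓞 K) * a, a * α', α * a, α * α'}) (p := (a : 𝓞 K) * a)
      (q := a * α') (r := α * a) (t := α * α') (by simp) (by simp) (by simp) (by simp)
    rwa [← e1] at h5

end ideals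

/-- **`h(D) ≤ h_K`.** -/
theorem ncard_red_le_classNumber (hK : finrank ℚ K = 2) (hd : Squarefree d) (hd0 : d < 0)
    (hs : s ^ 2 = (d : K)) : (Red (discK d)).ncard ≤ classNumber K := by
  obtain ⟨e, he⟩ := exists_emb hd0 hs
  choose τ α hg using fun f : Red (discK d) =>
    exists_gen e hd0 hs he (f := (f : ℤ × ℤ × ℤ)) f.2.2.2.1 f.2.1
  rw [← Nat.card_coe_set_eq, classNumber, ← Nat.card_eq_fintype_card]
  exact Nat.card_le_card_of_injective (fun f : Red (discK d) => formClass _ f.2.2.2.1 (α f))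
    fun f f' h => Subtype.ext (eq_of_formClass_eq e hK hd hd0 hs he f.2 f'.2 (hg f) (hg f') h)

/-- If every class is its own inverse, every reduced form is ambiguous. -/
theorem ambiguous_of_exponent_two (hK : finrank ℚ K = 2) (hd : Squarefree d) (hd0 : d < 0)
    (hs : s ^ 2 = (d : K)) (h2 : ∀ x : ClassGroup (𝓞 K), x * x = 1) {a b c : ℤ}
    (hf : (a, b, c) ∈ Red (discK d)) : b = 0 ∨ |b| = a ∨ a = c := by
  obtain ⟨hD, hp, ha, hb, hc, hbd⟩ := hf
  simp only at hD hp ha hb hc hbd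
  by_contra hne
  obtain ⟨hb0, hba, hac⟩ : b ≠ 0 ∧ |b| ≠ a ∧ a ≠ c := by tauto
  have hf : (a, b, c) ∈ Red (discK d) := ⟨hD, hp, ha, hb, hc, hbd⟩
  have hf' : (a, -b, c) ∈ Red (discK d) := ⟨by simpa using hD, by simpa [Int.gcd_neg] using hp, ha,
    by simpa using hb, hc, fun h => absurd h (by simp [hba, hac])⟩
  obtain ⟨e, he⟩ := exists_emb hd0 hs
  obtain ⟨τ, α, hg⟩ := exists_gen e hd0 hs he (f := (a, b, c)) ha hD
  obtain ⟨τ', α', hg'⟩ := exists_gen e hd0 hs he (f := (a, -b, c)) ha (by simpa [disc] using hD)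
  have h1 := formClass_mul_flip e hp ha hg hg'
  have he2 : formClass (a, b, c) ha α = formClass (a, -b, c) ha α' :=
    mul_left_cancel ((h2 _).trans h1.symm)
  have := congrArg (fun t : ℤ × ℤ × ℤ => t.2.1)
    (eq_of_formClass_eq e hK hd hd0 hs he hf hf' hg hg' he2)
  simp only at this
  omega

/-- Reduced forms that are all ambiguous are at most three for each divisor. -/
theorem ncard_red_le_divisors {D : ℤ} (hD : D < 0)
    (h : ∀ a b c : ℤ, (a, b, c) ∈ Red D → b = 0 ∨ |b| = a ∨ a = c) :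
    (Red D).ncard ≤ 3 * D.natAbs.divisors.card := by
  classical
  let F : ℤ × ℤ × ℤ → Fin 3 × ℕ := fun t =>
    if t.2.1 = 0 then (0, t.1.natAbs) else if t.2.1 = t.1 then (1, t.1.natAbs)
    else (2, (2 * t.1 - t.2.1).natAbs)
  have hF : ∀ t ∈ Red D, (t.2.1 = 0 ∧ t.1 ∣ D) ∨
      (t.2.1 ≠ 0 ∧ t.2.1 = t.1 ∧ t.1 ∣ D) ∨
      (t.2.1 ≠ 0 ∧ t.2.1 ≠ t.1 ∧ t.1 = t.2.2 ∧ 2 * t.1 - t.2.1 ∣ D) := by
    rintro ⟨a, b, c⟩ hf
    obtain ⟨hd, -, ha, hb, hc, hbd⟩ := id hf
    simp only at hd ha hb hc hbd ⊢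
    by_cases h0 : b = 0
    · subst h0
      exact Or.inl ⟨rfl, ⟨-4 * c, by linear_combination -hd⟩⟩
    by_cases h1 : b = a
    · subst h1
      exact Or.inr (Or.inl ⟨h0, rfl, ⟨b - 4 * c, by linear_combination -hd⟩⟩)
    have hac : a = c := by
      rcases h a b c hf with h' | h' | h'
      · exact absurd h' h0
      · exact absurd ((abs_of_nonneg (hbd (Or.inl h'))).symm.trans h') h1
      · exact h'
    subst hac
    exact Or.inr (Or.inr ⟨h0, h1, rfl, ⟨-(2 * a + b), by linear_combination -hd⟩⟩)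
  have hsub : F '' Red D ⊆ ↑((Finset.univ : Finset (Fin 3)) ×ˢ D.natAbs.divisors) := by
    rintro _ ⟨t, ht, rfl⟩
    simp only [Finset.coe_product, Finset.coe_univ, Set.mem_prod, Set.mem_univ, true_and,
      Finset.mem_coe, Nat.mem_divisors, F]
    refine ⟨?_, Int.natAbs_ne_zero.2 hD.ne⟩
    rcases hF t ht with ⟨h1, h2⟩ | ⟨h0, h1, h2⟩ | ⟨h0, h1, h2, h3⟩
    · rw [if_pos h1]; exact Int.natAbs_dvd_natAbs.2 h2
    · rw [if_neg h0, if_pos h1]; exact Int.natAbs_dvd_natAbs.2 h2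
    · rw [if_neg h0, if_neg h1]; exact Int.natAbs_dvd_natAbs.2 h3
  have hinj : Set.InjOn F (Red D) := by
    rintro ⟨a, b, c⟩ hf ⟨a', b', c'⟩ hf' heq
    have k := hF _ hf
    have k' := hF _ hf'
    obtain ⟨hd, -, ha, hb, hc, hbd⟩ := hf
    obtain ⟨hd', -, ha', hb', hc', hbd'⟩ := hf'
    simp only at hd ha hb hc hbd hd' ha' hb' hc' hbd' k k'
    simp only [F] at heq
    rcases k with ⟨h1, -⟩ | ⟨h0, h1, -⟩ | ⟨h0, h1, h2, -⟩ <;>
      rcases k' with ⟨g1, -⟩ | ⟨g0, g1, -⟩ | ⟨g0, g1, g2, -⟩ <;>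
      simp_all [Prod.ext_iff]
    · have : a = a' := by omega
      subst this
      exact ⟨rfl, mul_left_cancel₀ (mul_ne_zero four_ne_zero ha.ne')
        (by linear_combination hd' - hd)⟩
    · have : a = a' := by omega
      subst this
      exact ⟨rfl, mul_left_cancel₀ (mul_ne_zero four_ne_zero ha.ne')
        (by linear_combination hd' - hd)⟩
    · have hb1 := (abs_le.1 hb)
      have hb1' := (abs_le.1 hb')
      have e : 2 * c - b = 2 * c' - b' := by omega
      have e' : 2 * c + b = 2 * c' + b' := mul_left_cancel₀ (a := 2 * c - b) (by omega)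
        (by nth_rewrite 2 [e]; linear_combination hd' - hd)
      omega
  calc (Red D).ncard = (F '' Red D).ncard := hinj.ncard_image.symm
    _ ≤ ((Finset.univ : Finset (Fin 3)) ×ˢ D.natAbs.divisors).card := by
        rw [← Set.ncard_coe_finset]
        exact Set.ncard_le_ncard hsub (Finset.finite_toSet _)
    _ = 3 * D.natAbs.divisors.card := by simp

end FA.FieldClassBound

end
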