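import Mathlib.Analysis.Real.Pi.Bounds
import Mathlib.Analysis.SpecialFunctions.Exp

/-!
# Numerical bounds for `exp(π √n)`

Partial sums of the exponential series at `π √n / 2ᵏ`, squared `k` times.
-/

set_option autoImplicit false

noncomputable section

open scoped Real

namespace FA.ExpBounds

/-- The partial sum of the exponential series. -/
def sumExp (N : ℕ) (r : ℝ) : ℝ := ∑ i ∈ Finset.range N, r ^ i / i.factorial

theorem exp_pi_sqrt_bounds {n sl su rl ru a b L U : ℝ} (k N : ℕ)
    (hsl : sl ^ 2 ≤ n) (hsl0 : 0 ≤ sl) (hsu : n ≤ su ^ 2) (hsu0 : 0 ≤ su)
    (hl : 0 ≤ rl ∧ rl * 2 ^ k ≤ 3.14159265358979323846 * sl)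
    (hu : 3.14159265358979323847 * su ≤ ru * 2 ^ k ∧ ru ≤ 1)
    (ha0 : 0 ≤ a ∧ 0 < N) (ha : a ≤ sumExp N rl)
    (hb : sumExp N ru + ru ^ N * (N + 1) / (N.factorial * N) ≤ b)
    (hL : L ≤ a ^ 2 ^ k) (hU : b ^ 2 ^ k ≤ U) :
    L ≤ Real.exp (π * √n) ∧ Real.exp (π * √n) ≤ U := by
  have hs1 : sl ≤ √n := Real.le_sqrt_of_sq_le hsl
  have hs2 : √n ≤ su := Real.sqrt_le_iff.mpr ⟨hsu0, hsu⟩
  have h1 : rl * 2 ^ k ≤ π * √n :=
    hl.2.trans (mul_le_mul Real.pi_gt_d20.le hs1 hsl0 Real.pi_pos.le)
  have h2 : π * √n ≤ ru * 2 ^ k :=
    (mul_le_mul Real.pi_lt_d20.le hs2 (Real.sqrt_nonneg n) (by norm_num)).trans hu.1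
  have hru : 0 ≤ ru := by
    have : 0 ≤ ru * 2 ^ k := (by positivity : (0 : ℝ) ≤ π * √n).trans h2
    exact nonneg_of_mul_nonneg_left this (by positivity)
  have e : ∀ r : ℝ, Real.exp (r * 2 ^ k) = Real.exp r ^ 2 ^ k := fun r => by
    rw [← Real.exp_nat_mul]; push_cast; ring_nf
  constructor
  · refine le_trans ?_ (Real.exp_le_exp.mpr h1)
    rw [e]
    exact hL.trans (pow_le_pow_left₀ ha0.1 (ha.trans (Real.sum_le_exp_of_nonneg hl.1 N)) _)
  · refine (Real.exp_le_exp.mpr h2).trans ?_
    rw [e]
    exact (pow_le_pow_left₀ (Real.exp_pos ru).le
      ((Real.exp_bound' hru hu.2 ha0.2).trans hb) _).trans hU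

theorem exp_4 :
    (5354916555247 / 10000000000 : ℝ) ≤ Real.exp (π * √4) ∧
      Real.exp (π * √4) ≤ 334682284703 / 625000000 :=
  exp_pi_sqrt_bounds (n := 4) 3 24
    (sl := 2)
    (su := 2)
    (rl := 157079632679489661923 / 200000000000000000000)
    (ru := 314159265358979323847 / 400000000000000000000)
    (a := 219328005073801545655832023 / 100000000000000000000000000)
    (b := 27416000634225193207047543 / 12500000000000000000000000)
    (by norm_num) (by norm_num) (by norm_num) (by norm_num) (by norm_num) (by norm_num)
    (by norm_num) (by norm_num [sumExp, Finset.sum_range_succ, Nat.factorial])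
    (by norm_num [sumExp, Finset.sum_range_succ, Nat.factorial]) (by norm_num) (by norm_num)

theorem exp_7 :
    (814386419 / 200000 : ℝ) ≤ Real.exp (π * √7) ∧
      Real.exp (π * √7) ≤ 63623939 / 15625 :=
  exp_pi_sqrt_bounds (n := 7) 4 12
    (sl := 529150262212918118100323 / 200000000000000000000000)
    (su := 165359456941536911906351 / 62500000000000000000000)
    (rl := 129873013782282525648209 / 250000000000000000000000)
    (ru := 519492055129130102594491 / 1000000000000000000000000)
    (a := 33623469786645476699525579 / 20000000000000000000000000)
    (b := 168117348933314755454777139 / 100000000000000000000000000)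
    (by norm_num) (by norm_num) (by norm_num) (by norm_num) (by norm_num) (by norm_num)
    (by norm_num) (by norm_num [sumExp, Finset.sum_range_succ, Nat.factorial])
    (by norm_num [sumExp, Finset.sum_range_succ, Nat.factorial]) (by norm_num) (by norm_num)

theorem exp_8 :
    (289133943 / 40000 : ℝ) ≤ Real.exp (π * √8) ∧
      Real.exp (π * √8) ≤ 225885893 / 31250 :=
  exp_pi_sqrt_bounds (n := 8) 4 12
    (sl := 2828427124746190097603377 / 1000000000000000000000000)
    (su := 1414213562373095048801689 / 500000000000000000000000)
    (rl := 555360367269795780876517 / 1000000000000000000000000)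
    (ru := 277680183634897890439143 / 500000000000000000000000)
    (a := 87128441820541130102907161 / 50000000000000000000000000)
    (b := 10891055227579808830319483 / 6250000000000000000000000)
    (by norm_num) (by norm_num) (by norm_num) (by norm_num) (by norm_num) (by norm_num)
    (by norm_num) (by norm_num [sumExp, Finset.sum_range_succ, Nat.factorial])
    (by norm_num [sumExp, Finset.sum_range_succ, Nat.factorial]) (by norm_num) (by norm_num)

theorem exp_11 :
    (16753071531 / 500000 : ℝ) ≤ Real.exp (π * √11) ∧
      Real.exp (π * √11) ≤ 16753071533 / 500000 :=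
  exp_pi_sqrt_bounds (n := 11) 4 12
    (sl := 829156197588849962278733 / 250000000000000000000000)
    (su := 3316624790355399849114933 / 1000000000000000000000000)
    (rl := 26048710190235780751793 / 40000000000000000000000)
    (ru := 651217754755894518796899 / 1000000000000000000000000)
    (a := 191787490883572601032566341 / 100000000000000000000000000)
    (b := 95893745442444124855347501 / 50000000000000000000000000)
    (by norm_num) (by norm_num) (by norm_num) (by norm_num) (by norm_num) (by norm_num)
    (by norm_num) (by norm_num [sumExp, Finset.sum_range_succ, Nat.factorial])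
    (by norm_num [sumExp, Finset.sum_range_succ, Nat.factorial]) (by norm_num) (by norm_num)

theorem exp_12 :
    (13313073803 / 250000 : ℝ) ≤ Real.exp (π * √12) ∧
      Real.exp (π * √12) ≤ 53252295223 / 1000000 :=
  exp_pi_sqrt_bounds (n := 12) 4 12
    (sl := 866025403784438646763723 / 250000000000000000000000)
    (su := 3464101615137754587054893 / 1000000000000000000000000)
    (rl := 340087380793915846986103 / 500000000000000000000000)
    (ru := 680174761587831693974373 / 1000000000000000000000000)
    (a := 4935556800899958061203611 / 2500000000000000000000000)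
    (b := 7896890881528634464557319 / 4000000000000000000000000)
    (by norm_num) (by norm_num) (by norm_num) (by norm_num) (by norm_num) (by norm_num)
    (by norm_num) (by norm_num [sumExp, Finset.sum_range_succ, Nat.factorial])
    (by norm_num [sumExp, Finset.sum_range_succ, Nat.factorial]) (by norm_num) (by norm_num)

theorem exp_16 :
    (3584391411 / 12500 : ℝ) ≤ Real.exp (π * √16) ∧
      Real.exp (π * √16) ≤ 143375656571 / 500000 :=
  exp_pi_sqrt_bounds (n := 16) 4 12
    (sl := 4)
    (su := 4)
    (rl := 157079632679489661923 / 200000000000000000000)
    (ru := 314159265358979323847 / 400000000000000000000)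
    (a := 219328005061564414414411763 / 100000000000000000000000000)
    (b := 219328005074024003470265307 / 100000000000000000000000000)
    (by norm_num) (by norm_num) (by norm_num) (by norm_num) (by norm_num) (by norm_num)
    (by norm_num) (by norm_num [sumExp, Finset.sum_range_succ, Nat.factorial])
    (by norm_num [sumExp, Finset.sum_range_succ, Nat.factorial]) (by norm_num) (by norm_num)

theorem exp_19 :
    (442739887801 / 500000 : ℝ) ≤ Real.exp (π * √19) ∧
      Real.exp (π * √19) ≤ 442739888853 / 500000 :=
  exp_pi_sqrt_bounds (n := 19) 4 12
    (sl := 4358898943540673552236981 / 1000000000000000000000000)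
    (su := 2179449471770336776118491 / 500000000000000000000000)
    (rl := 427933903086490342575307 / 500000000000000000000000)
    (ru := 42793390308649034257667 / 50000000000000000000000)
    (a := 117670790154189870320007999 / 50000000000000000000000000)
    (b := 235341580343318334982221237 / 100000000000000000000000000)
    (by norm_num) (by norm_num) (by norm_num) (by norm_num) (by norm_num) (by norm_num)
    (by norm_num) (by norm_num [sumExp, Finset.sum_range_succ, Nat.factorial])
    (by norm_num [sumExp, Finset.sum_range_succ, Nat.factorial]) (by norm_num) (by norm_num)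

theorem exp_27 :
    (12288743983819 / 1000000 : ℝ) ≤ Real.exp (π * √27) ∧
      Real.exp (π * √27) ≤ 6144371991993 / 500000 :=
  exp_pi_sqrt_bounds (n := 27) 5 12
    (sl := 5196152422706631880582339 / 1000000000000000000000000)
    (su := 259807621135331594029117 / 50000000000000000000000)
    (rl := 102026214238174754095831 / 200000000000000000000000)
    (ru := 25506553559543688524039 / 50000000000000000000000)
    (a := 83275474047523774421358421 / 50000000000000000000000000)
    (b := 33310189619023558478843327 / 20000000000000000000000000)
    (by norm_num) (by norm_num) (by norm_num) (by norm_num) (by norm_num) (by norm_num)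
    (by norm_num) (by norm_num [sumExp, Finset.sum_range_succ, Nat.factorial])
    (by norm_num [sumExp, Finset.sum_range_succ, Nat.factorial]) (by norm_num) (by norm_num)

theorem exp_28 :
    (829031549393 / 50000 : ℝ) ≤ Real.exp (π * √28) ∧
      Real.exp (π * √28) ≤ 16580630988137 / 1000000 :=
  exp_pi_sqrt_bounds (n := 28) 5 12
    (sl := 5291502622129181181003231 / 1000000000000000000000000)
    (su := 165359456941536911906351 / 31250000000000000000000)
    (rl := 129873013782282525648209 / 250000000000000000000000)
    (ru := 519492055129130102594491 / 1000000000000000000000000)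
    (a := 33623469786645476699525579 / 20000000000000000000000000)
    (b := 168117348933314755454777139 / 100000000000000000000000000)
    (by norm_num) (by norm_num) (by norm_num) (by norm_num) (by norm_num) (by norm_num)
    (by norm_num) (by norm_num [sumExp, Finset.sum_range_succ, Nat.factorial])
    (by norm_num [sumExp, Finset.sum_range_succ, Nat.factorial]) (by norm_num) (by norm_num)

theorem exp_43 :
    (884736743834267 / 1000000 : ℝ) ≤ Real.exp (π * √43) ∧
      Real.exp (π * √43) ≤ 221184186001181 / 250000 :=
  exp_pi_sqrt_bounds (n := 43) 5 12
    (sl := 6557438524302000652344109 / 1000000000000000000000000)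
    (su := 655743852430200065234411 / 100000000000000000000000)
    (rl := 160943755424327032076999 / 250000000000000000000000)
    (ru := 643775021697308128310047 / 1000000000000000000000000)
    (a := 190365366595621548531407011 / 100000000000000000000000000)
    (b := 47591341649191920113120727 / 25000000000000000000000000)
    (by norm_num) (by norm_num) (by norm_num) (by norm_num) (by norm_num) (by norm_num)
    (by norm_num) (by norm_num [sumExp, Finset.sum_range_succ, Nat.factorial])
    (by norm_num [sumExp, Finset.sum_range_succ, Nat.factorial]) (by norm_num) (by norm_num)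

theorem exp_67 :
    (147197952743996799 / 1000000 : ℝ) ≤ Real.exp (π * √67) ∧
      Real.exp (π * √67) ≤ 147197952744000039 / 1000000 :=
  exp_pi_sqrt_bounds (n := 67) 5 16
    (sl := 8185352771872449969953703 / 1000000000000000000000000)
    (su := 1023169096484056246244213 / 125000000000000000000000)
    (rl := 32143805168944174497471 / 40000000000000000000000)
    (ru := 401797564611802181219667 / 500000000000000000000000)
    (a := 11167782177405945182100433 / 5000000000000000000000000)
    (b := 223355643548119057212471411 / 100000000000000000000000000)
    (by norm_num) (by norm_num) (by norm_num) (by norm_num) (by norm_num) (by norm_num)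
    (by norm_num) (by norm_num [sumExp, Finset.sum_range_succ, Nat.factorial])
    (by norm_num [sumExp, Finset.sum_range_succ, Nat.factorial]) (by norm_num) (by norm_num)

theorem exp_163 :
    (262537412640768743668617 / 1000000 : ℝ) ≤ Real.exp (π * √163) ∧
      Real.exp (π * √163) ≤ 262537412640768744031373 / 1000000 :=
  exp_pi_sqrt_bounds (n := 163) 6 18
    (sl := 1595893166850463082713869 / 125000000000000000000000)
    (su := 12767145334803704661710953 / 1000000000000000000000000)
    (rl := 626705781111445621176817 / 1000000000000000000000000)
    (ru := 626705781111445621178813 / 1000000000000000000000000)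
    (a := 187143549565158897447240823 / 100000000000000000000000000)
    (b := 93571774782579448725640579 / 50000000000000000000000000)
    (by norm_num) (by norm_num) (by norm_num) (by norm_num) (by norm_num) (by norm_num)
    (by norm_num) (by norm_num [sumExp, Finset.sum_range_succ, Nat.factorial])
    (by norm_num [sumExp, Finset.sum_range_succ, Nat.factorial]) (by norm_num) (by norm_num)

end FA.ExpBounds

end
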