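import Fermat.Agent.Tau.JBound
import Fermat.Agent.Tau.ExpBounds
import Fermat.Agent.Tau.SingularIntegral
import Fermat.Agent.Root.SummaryThirteenOrders

/-!
# The values of the thirteen rational singular moduli

Each is an integer, and the series of `j` determines it to within `1`.
-/

set_option autoImplicit false

noncomputable section

open UpperHalfPlane hiding I
open FA.ModField
open scoped Real MatrixGroups

namespace FA.JValues

/-- `(-b + i √n) / 2`. -/
def pt (b : ℤ) (n : ℕ) (hn : 0 < n) : ℍ :=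
  UpperHalfPlane.mk ⟨-(b : ℝ) / 2, √n / 2⟩
    (div_pos (Real.sqrt_pos.2 (Nat.cast_pos.2 hn)) two_pos)

theorem pt_root {b c : ℤ} {n : ℕ} {hn : 0 < n} (h : b ^ 2 + n = 4 * c) :
    ((1 : ℤ) : ℂ) * (pt b n hn : ℂ) ^ 2 + b * (pt b n hn : ℂ) + c = 0 := by
  have hs := Real.mul_self_sqrt (Nat.cast_nonneg (α := ℝ) n)
  have h' : (b : ℝ) ^ 2 + n = 4 * c := by exact_mod_cast h
  rw [pt, UpperHalfPlane.coe_mk]
  apply Complex.ext
  · simp [pow_two]
    nlinarith
  · simp [pow_two]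
    ring

theorem exists_int {b c : ℤ} {n : ℕ} {hn : 0 < n} (h : b ^ 2 + n = 4 * c)
    (hmem : -(n : ℤ) ∈ FA.ThirteenOrders.thirteen) :
    ∃ m : ℤ, jfun (pt b n hn) = m := by
  have hD : b ^ 2 - 4 * 1 * c = -(n : ℤ) := by linarith
  obtain ⟨r, hr⟩ := (FA.Summary.rational_singularModulus_iff (pt b n hn) 1 b c one_pos (by simp)
    (pt_root h)).mpr (by rw [hD]; exact hmem)
  have hi : IsIntegral ℤ (jfun (pt b n hn)) :=
    FA.SingularIntegral.isIntegral_jfun (a := 1) (b := b) (c := c) (by omega) (pt_root h)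
  rw [hr, ← eq_ratCast (algebraMap ℚ ℂ) r,
    isIntegral_algebraMap_iff (algebraMap ℚ ℂ).injective] at hi
  obtain ⟨m, hm⟩ := IsIntegrallyClosed.isIntegral_iff.mp hi
  exact ⟨m, by rw [hr, ← hm]; simp⟩

theorem qp_pt_zero (n : ℕ) (hn : 0 < n) :
    qp 1 (pt 0 n hn) = (((Real.exp (π * √n))⁻¹ : ℝ) : ℂ) := by
  rw [qp_eq, ← Real.exp_neg, Complex.ofReal_exp, pt, UpperHalfPlane.coe_mk]
  congr 1
  apply Complex.ext <;> simp
  ring

theorem qp_pt_one (n : ℕ) (hn : 0 < n) :
    qp 1 (pt 1 n hn) = ((-(Real.exp (π * √n))⁻¹ : ℝ) : ℂ) := by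
  have h : (2 * (π : ℂ) * Complex.I * (pt 1 n hn : ℂ) / ((1 : ℕ) : ℂ)) =
      ((-(π * √n) : ℝ) : ℂ) + -((π : ℂ) * Complex.I) := by
    rw [pt, UpperHalfPlane.coe_mk]
    apply Complex.ext <;> simp <;> ring
  rw [qp_eq, h, Complex.exp_add, ← Complex.ofReal_exp, Real.exp_neg, Complex.exp_neg,
    Complex.exp_pi_mul_I]
  simp

/-- The constant in the bound for the tail. -/
def K : ℝ := 903300000

/-- `j` is within `K |q|³` of the first four terms. -/
theorem approx {z : ℍ} {σ E : ℝ} (hσ : σ ^ 2 = 1) (hq : qp 1 z = ((σ * E⁻¹ : ℝ) : ℂ))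
    (hE : 600 ≤ E) :
    ‖jfun z - ((σ * E + 744 + 196884 * σ / E + 21493760 / E ^ 2 : ℝ) : ℂ)‖ ≤ K / E ^ 3 := by
  obtain ⟨hl, hu⟩ := FA.ExpBounds.exp_4
  have h4 : √(4 : ℝ) = 2 := by
    rw [show (4 : ℝ) = 2 ^ 2 by norm_num, Real.sqrt_sq two_pos.le]
  rw [h4, mul_comm π 2] at hl hu
  set E₀ := Real.exp (2 * π) with hE₀
  have hEpos : 0 < E := by linarith
  have hσ0 : σ ≠ 0 := fun h => by simp [h] at hσ
  have habs : |σ| = 1 := by
    rw [← sq_eq_sq₀ (abs_nonneg σ) zero_le_one, sq_abs, one_pow, hσ]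
  have ht : ‖qp 1 z‖ = E⁻¹ := by
    rw [hq, Complex.norm_real, Real.norm_eq_abs, abs_mul, habs, one_mul,
      abs_of_pos (inv_pos.mpr hEpos)]
  have hle : E⁻¹ ≤ Real.exp (-(2 * π)) := by
    rw [Real.exp_neg]
    exact inv_anti₀ (Real.exp_pos _) (by linarith)
  have h := FA.JBound.norm_tail_le ht (inv_pos.mpr hEpos) hle hE₀
  have e : (qp 1 z)⁻¹ + 744 + 196884 * qp 1 z + 21493760 * qp 1 z ^ 2 =
      ((σ * E + 744 + 196884 * σ / E + 21493760 / E ^ 2 : ℝ) : ℂ) := by
    have hσinv : σ⁻¹ = σ := inv_eq_of_mul_eq_one_right (by rw [← pow_two, hσ])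
    rw [hq, ← Complex.ofReal_inv, mul_inv, inv_inv, hσinv, ← Complex.ofReal_pow, mul_pow, hσ,
      one_mul]
    push_cast
    ring
  rw [e] at h
  refine h.trans ?_
  rw [inv_pow, inv_mul_eq_div]
  have hE0 : 0 < E₀ := Real.exp_pos _
  have h1 : E₀ ^ 3 ≤ (334682284703 / 625000000 : ℝ) ^ 3 := pow_le_pow_left₀ hE0.le hu 3
  have h2 : (5354916555247 / 10000000000 : ℝ) ^ 4 ≤ E₀ ^ 4 :=
    pow_le_pow_left₀ (by norm_num) hl 4
  have h3 : (5354916555247 / 10000000000 : ℝ) ^ 2 ≤ E₀ ^ 2 :=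
    pow_le_pow_left₀ (by norm_num) hl 2
  gcongr
  rw [K]
  norm_num at h1 h2 h3 hl hu ⊢
  linarith

theorem eq_of_close {z : ℍ} {N : ℤ} {S r : ℝ} (hm : ∃ m : ℤ, jfun z = m)
    (h : ‖jfun z - (S : ℂ)‖ ≤ r) (h1 : S + r < N + 1) (h2 : (N : ℝ) - 1 < S - r) :
    jfun z = N := by
  obtain ⟨m, hm⟩ := hm
  rw [hm, ← Complex.ofReal_intCast, ← Complex.ofReal_sub, Complex.norm_real, Real.norm_eq_abs,
    abs_le] at h
  rw [hm]
  have e1 : m < N + 1 := by
    have : (m : ℝ) < ((N + 1 : ℤ) : ℝ) := by push_cast; linarith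
    exact_mod_cast this
  have e2 : N - 1 < m := by
    have : ((N - 1 : ℤ) : ℝ) < (m : ℝ) := by push_cast; linarith
    exact_mod_cast this
  rw [show m = N by omega]

theorem close_even {z : ℍ} {N : ℤ} {E L U : ℝ} (hq : qp 1 z = ((E⁻¹ : ℝ) : ℂ))
    (hm : ∃ m : ℤ, jfun z = m) (hL : L ≤ E) (hU : E ≤ U) (hL0 : 600 ≤ L)
    (h1 : U + 744 + 196884 / L + 21493760 / L ^ 2 + 903300000 / L ^ 3 < N + 1)
    (h2 : (N : ℝ) - 1 < L + 744 + 196884 / U + 21493760 / U ^ 2 - 903300000 / L ^ 3) :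
    jfun z = N := by
  have hE : 600 ≤ E := hL0.trans hL
  have hLp : 0 < L := by linarith
  have hEp : 0 < E := by linarith
  refine eq_of_close hm (approx (σ := 1) (one_pow 2) (by rw [one_mul]; exact hq) hE) ?_ ?_
  · have a1 : 196884 / E ≤ 196884 / L := by gcongr
    have a2 : 21493760 / E ^ 2 ≤ 21493760 / L ^ 2 := by gcongr
    have a3 : K / E ^ 3 ≤ 903300000 / L ^ 3 := by rw [K]; gcongr
    linarith
  · have a1 : 196884 / U ≤ 196884 / E := by gcongr
    have a2 : 21493760 / U ^ 2 ≤ 21493760 / E ^ 2 := by gcongr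
    have a3 : K / E ^ 3 ≤ 903300000 / L ^ 3 := by rw [K]; gcongr
    linarith

theorem close_odd {z : ℍ} {N : ℤ} {E L U : ℝ} (hq : qp 1 z = ((-E⁻¹ : ℝ) : ℂ))
    (hm : ∃ m : ℤ, jfun z = m) (hL : L ≤ E) (hU : E ≤ U) (hL0 : 600 ≤ L)
    (h1 : -L + 744 - 196884 / U + 21493760 / L ^ 2 + 903300000 / L ^ 3 < N + 1)
    (h2 : (N : ℝ) - 1 < -U + 744 - 196884 / L + 21493760 / U ^ 2 - 903300000 / L ^ 3) :
    jfun z = N := by
  have hE : 600 ≤ E := hL0.trans hL
  have hLp : 0 < L := by linarith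
  have hEp : 0 < E := by linarith
  refine eq_of_close hm (approx (σ := -1) (by norm_num)
    (by rw [neg_one_mul]; exact hq) hE) ?_ ?_
  · have a1 : 196884 / U ≤ 196884 / E := by gcongr
    have a2 : 21493760 / E ^ 2 ≤ 21493760 / L ^ 2 := by gcongr
    have a3 : K / E ^ 3 ≤ 903300000 / L ^ 3 := by rw [K]; gcongr
    rw [mul_neg_one, neg_div]
    linarith
  · have a1 : 196884 / E ≤ 196884 / L := by gcongr
    have a2 : 21493760 / U ^ 2 ≤ 21493760 / E ^ 2 := by gcongr
    have a3 : K / E ^ 3 ≤ 903300000 / L ^ 3 := by rw [K]; gcongr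
    rw [mul_neg_one, neg_div]
    linarith

theorem value_7 : jfun (pt 1 7 (by norm_num)) = ((-3375 : ℤ) : ℂ) := by
  obtain ⟨hL, hU⟩ := FA.ExpBounds.exp_7
  exact close_odd (qp_pt_one _ _)
    (exists_int (c := 2) (by norm_num) (by norm_num [FA.ThirteenOrders.thirteen]))
    (L := (814386419 / 200000)) (U := (63623939 / 15625))
    hL hU (by norm_num) (by norm_num) (by norm_num)

theorem value_8 : jfun (pt 0 8 (by norm_num)) = ((8000 : ℤ) : ℂ) := by
  obtain ⟨hL, hU⟩ := FA.ExpBounds.exp_8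
  exact close_even (qp_pt_zero _ _)
    (exists_int (c := 2) (by norm_num) (by norm_num [FA.ThirteenOrders.thirteen]))
    (L := (289133943 / 40000)) (U := (225885893 / 31250))
    hL hU (by norm_num) (by norm_num) (by norm_num)

theorem value_11 : jfun (pt 1 11 (by norm_num)) = ((-32768 : ℤ) : ℂ) := by
  obtain ⟨hL, hU⟩ := FA.ExpBounds.exp_11
  exact close_odd (qp_pt_one _ _)
    (exists_int (c := 3) (by norm_num) (by norm_num [FA.ThirteenOrders.thirteen]))
    (L := (16753071531 / 500000)) (U := (16753071533 / 500000))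
    hL hU (by norm_num) (by norm_num) (by norm_num)

theorem value_12 : jfun (pt 0 12 (by norm_num)) = ((54000 : ℤ) : ℂ) := by
  obtain ⟨hL, hU⟩ := FA.ExpBounds.exp_12
  exact close_even (qp_pt_zero _ _)
    (exists_int (c := 3) (by norm_num) (by norm_num [FA.ThirteenOrders.thirteen]))
    (L := (13313073803 / 250000)) (U := (53252295223 / 1000000))
    hL hU (by norm_num) (by norm_num) (by norm_num)

theorem value_16 : jfun (pt 0 16 (by norm_num)) = ((287496 : ℤ) : ℂ) := by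
  obtain ⟨hL, hU⟩ := FA.ExpBounds.exp_16
  exact close_even (qp_pt_zero _ _)
    (exists_int (c := 4) (by norm_num) (by norm_num [FA.ThirteenOrders.thirteen]))
    (L := (3584391411 / 12500)) (U := (143375656571 / 500000))
    hL hU (by norm_num) (by norm_num) (by norm_num)

theorem value_19 : jfun (pt 1 19 (by norm_num)) = ((-884736 : ℤ) : ℂ) := by
  obtain ⟨hL, hU⟩ := FA.ExpBounds.exp_19
  exact close_odd (qp_pt_one _ _)
    (exists_int (c := 5) (by norm_num) (by norm_num [FA.ThirteenOrders.thirteen]))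
    (L := (442739887801 / 500000)) (U := (442739888853 / 500000))
    hL hU (by norm_num) (by norm_num) (by norm_num)

theorem value_27 : jfun (pt 1 27 (by norm_num)) = ((-12288000 : ℤ) : ℂ) := by
  obtain ⟨hL, hU⟩ := FA.ExpBounds.exp_27
  exact close_odd (qp_pt_one _ _)
    (exists_int (c := 7) (by norm_num) (by norm_num [FA.ThirteenOrders.thirteen]))
    (L := (12288743983819 / 1000000)) (U := (6144371991993 / 500000))
    hL hU (by norm_num) (by norm_num) (by norm_num)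

theorem value_28 : jfun (pt 0 28 (by norm_num)) = ((16581375 : ℤ) : ℂ) := by
  obtain ⟨hL, hU⟩ := FA.ExpBounds.exp_28
  exact close_even (qp_pt_zero _ _)
    (exists_int (c := 7) (by norm_num) (by norm_num [FA.ThirteenOrders.thirteen]))
    (L := (829031549393 / 50000)) (U := (16580630988137 / 1000000))
    hL hU (by norm_num) (by norm_num) (by norm_num)

theorem value_43 : jfun (pt 1 43 (by norm_num)) = ((-884736000 : ℤ) : ℂ) := by
  obtain ⟨hL, hU⟩ := FA.ExpBounds.exp_43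
  exact close_odd (qp_pt_one _ _)
    (exists_int (c := 11) (by norm_num) (by norm_num [FA.ThirteenOrders.thirteen]))
    (L := (884736743834267 / 1000000)) (U := (221184186001181 / 250000))
    hL hU (by norm_num) (by norm_num) (by norm_num)

theorem value_67 : jfun (pt 1 67 (by norm_num)) = ((-147197952000 : ℤ) : ℂ) := by
  obtain ⟨hL, hU⟩ := FA.ExpBounds.exp_67
  exact close_odd (qp_pt_one _ _)
    (exists_int (c := 17) (by norm_num) (by norm_num [FA.ThirteenOrders.thirteen]))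
    (L := (147197952743996799 / 1000000)) (U := (147197952744000039 / 1000000))
    hL hU (by norm_num) (by norm_num) (by norm_num)

theorem value_163 : jfun (pt 1 163 (by norm_num)) = ((-262537412640768000 : ℤ) : ℂ) := by
  obtain ⟨hL, hU⟩ := FA.ExpBounds.exp_163
  exact close_odd (qp_pt_one _ _)
    (exists_int (c := 41) (by norm_num) (by norm_num [FA.ThirteenOrders.thirteen]))
    (L := (262537412640768743668617 / 1000000)) (U := (262537412640768744031373 / 1000000))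
    hL hU (by norm_num) (by norm_num) (by norm_num)

theorem value_3 {hn : 0 < 3} : jfun (pt 1 3 hn) = ((0 : ℤ) : ℂ) := by
  have h : pt 1 3 hn = rho := UpperHalfPlane.ext (by
    rw [pt, UpperHalfPlane.coe_mk, rho]
    norm_num)
  rw [h, jfun, E4_rho]
  simp

theorem value_4 {hn : 0 < 4} : jfun (pt 0 4 hn) = ((1728 : ℤ) : ℂ) := by
  have h : pt 0 4 hn = UpperHalfPlane.I := UpperHalfPlane.ext (by
    rw [pt, UpperHalfPlane.coe_mk, UpperHalfPlane.coe_I]
    have : √(4 : ℝ) = 2 := by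
      rw [show (4 : ℝ) = 2 ^ 2 by norm_num, Real.sqrt_sq two_pos.le]
    apply Complex.ext
    · simp
    · simp [this])
  rw [h, FA.JBound.jfun_I]
  norm_num

/-- The value at every point of the discriminant. -/
theorem value_of_pt {b c : ℤ} {n : ℕ} {hn : 0 < n} {N : ℤ} (hv : jfun (pt b n hn) = N)
    (hbc : b ^ 2 + n = 4 * c) (hmem : -(n : ℤ) ∈ FA.ThirteenOrders.thirteen) {τ : ℍ}
    {A B C : ℤ} (h : FA.ThirteenOrders.IsRootOf τ A B C) (hD : B ^ 2 - 4 * A * C = -(n : ℤ)) :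
    jfun τ = N := by
  obtain ⟨g, hg⟩ := FA.ThirteenOrders.oneClass_of_mem hmem (pt b n hn) τ 1 b c A B C
    ⟨one_pos, by simp, pt_root hbc⟩ h (by linarith) hD
  rw [← hg, jfun_smul, hv]

/-- The thirteen pairs `(D, j)`. -/
def table : List (ℤ × ℤ) :=
  [(-3, 0), (-4, 1728), (-7, -3375), (-8, 8000), (-11, -32768), (-12, 54000), (-16, 287496),
    (-19, -884736), (-27, -12288000), (-28, 16581375), (-43, -884736000), (-67, -147197952000),
    (-163, -262537412640768000)]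

theorem value {τ : ℍ} {A B C : ℤ} (h : FA.ThirteenOrders.IsRootOf τ A B C) {D v : ℤ}
    (hD : B ^ 2 - 4 * A * C = D) (hv : (D, v) ∈ table) : jfun τ = v := by
  simp only [table, List.mem_cons, List.not_mem_nil, or_false, Prod.mk.injEq] at hv
  have m : ∀ n : ℕ, n ∈ [3, 4, 7, 8, 11, 12, 16, 19, 27, 28, 43, 67, 163] →
      -(n : ℤ) ∈ FA.ThirteenOrders.thirteen := by decide
  rcases hv with ⟨rfl, rfl⟩ | ⟨rfl, rfl⟩ | ⟨rfl, rfl⟩ | ⟨rfl, rfl⟩ | ⟨rfl, rfl⟩ | ⟨rfl, rfl⟩ |
    ⟨rfl, rfl⟩ | ⟨rfl, rfl⟩ | ⟨rfl, rfl⟩ | ⟨rfl, rfl⟩ | ⟨rfl, rfl⟩ | ⟨rfl, rfl⟩ | ⟨rfl, rfl⟩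
  · exact value_of_pt (c := 1) (value_3 (hn := by norm_num)) (by norm_num) (m 3 (by decide)) h hD
  · exact value_of_pt (c := 1) (value_4 (hn := by norm_num)) (by norm_num) (m 4 (by decide)) h hD
  · exact value_of_pt (c := 2) value_7 (by norm_num) (m 7 (by decide)) h hD
  · exact value_of_pt (c := 2) value_8 (by norm_num) (m 8 (by decide)) h hD
  · exact value_of_pt (c := 3) value_11 (by norm_num) (m 11 (by decide)) h hD
  · exact value_of_pt (c := 3) value_12 (by norm_num) (m 12 (by decide)) h hD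
  · exact value_of_pt (c := 4) value_16 (by norm_num) (m 16 (by decide)) h hD
  · exact value_of_pt (c := 5) value_19 (by norm_num) (m 19 (by decide)) h hD
  · exact value_of_pt (c := 7) value_27 (by norm_num) (m 27 (by decide)) h hD
  · exact value_of_pt (c := 7) value_28 (by norm_num) (m 28 (by decide)) h hD
  · exact value_of_pt (c := 11) value_43 (by norm_num) (m 43 (by decide)) h hD
  · exact value_of_pt (c := 17) value_67 (by norm_num) (m 67 (by decide)) h hD
  · exact value_of_pt (c := 41) value_163 (by norm_num) (m 163 (by decide)) h hD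

/-- **`e^(π√163)` is almost an integer.** -/
theorem exp_pi_sqrt_163 :
    262537412640768744 - 1 / 10 ^ 12 < Real.exp (π * √163) ∧
      Real.exp (π * √163) < 262537412640768744 - 7 / 10 ^ 13 := by
  set E := Real.exp (π * √163) with hEdef
  have hE : (10 : ℝ) ^ 17 ≤ E :=
    le_trans (by norm_num) FA.ExpBounds.exp_163.1
  have hEu : E ≤ (10 : ℝ) ^ 18 :=
    le_trans FA.ExpBounds.exp_163.2 (by norm_num)
  have hq : qp 1 (pt 1 163 (by norm_num)) = (((-1) * E⁻¹ : ℝ) : ℂ) := by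
    rw [qp_pt_one, hEdef, neg_one_mul]; norm_num
  have h := approx (by norm_num) hq (by linarith)
  rw [value_163, ← Complex.ofReal_intCast, ← Complex.ofReal_sub, Complex.norm_real,
    Real.norm_eq_abs, abs_le] at h
  have b1 : K / E ^ 3 ≤ 903300000 / ((10 : ℝ) ^ 17) ^ 3 := by rw [K]; gcongr
  have b2 : 21493760 / E ^ 2 ≤ 21493760 / ((10 : ℝ) ^ 17) ^ 2 := by gcongr
  have b2' : 0 ≤ 21493760 / E ^ 2 := by positivity
  have hEl := FA.ExpBounds.exp_163.1
  have hEh := FA.ExpBounds.exp_163.2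
  have b3 : (196884 : ℝ) / E ≤ 196884 / 262537412640768000 := by
    gcongr
    rw [hEdef]; linarith
  have b4 : (196884 : ℝ) / 262537412640769000 ≤ 196884 / E := by
    gcongr
    rw [hEdef]; linarith
  rw [mul_neg_one, neg_div] at h
  push_cast at h
  norm_num at b1 b2 b3 b4 h ⊢
  constructor <;> linarith [h.1, h.2]

end FA.JValues

end
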