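import Fermat.Agent.Tau.SingularIntegral
import Fermat.Agent.ModField.Semistable.FrobSeries

/-!
# Kronecker's congruence

Modulo a prime over `p`, the values `x = j(τ)` and `y = j(pτ)`, when integral, satisfy `y = x ^ p`
or `y ^ p = x`.
-/

set_option autoImplicit false
set_option linter.style.haveILetI false

noncomputable section

namespace FA.Kronecker

open UpperHalfPlane hiding I
open FA.ModField HahnSeries FA.SingularIntegral
open scoped MatrixGroups Polynomial

/-- The algebraic integers. -/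
abbrev AlgInt : Subalgebra ℤ ℂ := integralClosure ℤ ℂ

/-- The inclusion of the algebraic integers. -/
abbrev incl : AlgInt →+* ℂ := algebraMap AlgInt ℂ

variable (p : ℕ) [NeZero p]

/-- The expansion of `j(p γ z)` is that of `j(z)` or of `j(p z)` up to a root of unity. -/
theorem exists_conj_sj (hp : p.Prime) (γ : SL(2, ℤ)) :
    ∃ (k : ℕ) (_ : NeZero k) (c : AlgIntˣ), (k = 1 ∨ k = p * p) ∧ c ^ p = 1 ∧
      HasExp (qp p) (fun z => jfun (scaleH p (γ • z)))
        (ModularCurve.coeffMap incl (sj AlgInt c k)) := by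
  obtain ⟨a, δ, b, ha, haδ, -, hw⟩ := exists_upper p γ
  haveI : NeZero (a * a) := ⟨(Nat.mul_pos ha ha).ne'⟩
  have hk : a * a = 1 ∨ a * a = p * p := by
    rcases hp.eq_one_or_self_of_dvd a (Dvd.intro δ haδ) with h | h <;> subst h <;> simp
  choose w hwc hwj using hw
  set u : ℂˣ := zetaN p ^ (b * (a : ℤ)) with hu
  have hup : u ^ p = 1 := by
    refine Units.ext ?_
    rw [hu, Units.val_pow_eq_pow_val, Units.val_zpow_eq_zpow_val,
      ← zpow_natCast ((zetaN p : ℂ) ^ _), ← zpow_mul, Units.val_one,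
      (zetaN_prim p).zpow_eq_one_iff_dvd]
    exact Dvd.intro_left _ rfl
  have hup' : (u : ℂ) ^ p = 1 := by rw [← Units.val_pow_eq_pow_val, hup, Units.val_one]
  set u₀ : AlgInt := ⟨u, IsIntegral.of_pow hp.pos (by rw [hup']; exact isIntegral_one)⟩ with hu₀
  have hu₀p : u₀ ^ p = 1 := Subtype.ext (by simpa [hu₀] using hup')
  refine ⟨a * a, inferInstance, Units.ofPowEqOne u₀ p hu₀p hp.ne_zero, hk,
    Units.ext (by simp), ?_⟩
  have hmap : Units.map (incl : AlgInt →* ℂ) (Units.ofPowEqOne u₀ p hu₀p hp.ne_zero) = u :=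
    Units.ext rfl
  rw [coeffMap_sj, hmap, sj]
  have h := hasExp_jfun.comp (U := qp p) w (a * a) u ?_
  · exact h.congr (funext fun z => (hwj z).symm)
  intro z
  rw [hu, qp_eq, qp_eq, Units.val_zpow_eq_zpow_val, zetaN, Units.val_mk0, ← Complex.exp_int_mul,
    ← Complex.exp_nat_mul, ← Complex.exp_add, hwc]
  congr 1
  have hN : (p : ℂ) = (a : ℂ) * δ := by exact_mod_cast haδ.symm
  have hδ : (δ : ℂ) ≠ 0 := fun h => by
    rw [h, mul_zero] at hN; exact NeZero.ne p (by exact_mod_cast hN)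
  have ha' : (a : ℂ) ≠ 0 := by exact_mod_cast ha.ne'
  push_cast
  rw [hN]
  field_simp
  ring

omit [NeZero p] in
/-- The reduction of `j` at a root of unity, to the power `p`. -/
theorem sj_pow {k : Type} [Field k] [CharP k p] [Fact p.Prime] {e : ℕ} [NeZero e]
    (c : kˣ) (hc : c ^ p = 1) : sj k c e ^ p = evalJ k (e * p) Polynomial.X := by
  haveI : NeZero p := ⟨(Fact.out : p.Prime).ne_zero⟩
  have hc1 : c = 1 := by
    refine Units.ext (sub_eq_zero.1 (pow_eq_zero_iff (Fact.out : p.Prime).ne_zero |>.1 ?_))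
    rw [sub_pow_char, ← Units.val_pow_eq_pow_val, hc, Units.val_one, one_pow, sub_self]
  rw [hc1, sj_one, evalJ_X, ← map_pow, pow_char_eq_qExpand, ModularCurve.coeffMap_jqModC,
    ModularCurve.qExpand_qExpand]

/-- **Kronecker's congruence at a point.** -/
theorem congruence (hp : p.Prime) {τ : ℍ} (hx : IsIntegral ℤ (jfun τ))
    (hy : IsIntegral ℤ (jfun (scaleH p τ))) {k : Type} [Field k] [CharP k p]
    (π : AlgInt →+* k) :
    π ⟨_, hy⟩ = π ⟨_, hx⟩ ^ p ∨ π ⟨_, hy⟩ ^ p = π ⟨_, hx⟩ := by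
  classical
  haveI := Fact.mk hp
  haveI : CharP k[X] p := Polynomial.instCharP p
  haveI := Fintype.ofFinite (FA.Dim.Cos p)
  set x₀ : AlgInt := ⟨_, hx⟩ with hx₀
  set y₀ : AlgInt := ⟨_, hy⟩ with hy₀
  set f : ℍ → ℂ := fun z => jfun (scaleH p z) with hf
  have hfm : f ∈ modFuns p := scale_mem_modFuns p p dvd_rfl
  choose e he c hek hc hexp using
    fun i : FA.Dim.Cos p => exists_conj_sj p hp (Quotient.out i)⁻¹
  let S : FA.Dim.Cos p → LaurentSeries AlgInt := fun i =>
    haveI := he i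
    sj AlgInt (c i) (e i)
  let G : ℍ → ℂ := ∏ i, ((fun _ => (y₀ : ℂ)) - cosVal p f i)
  have hG : ∀ z, G z = ∏ i, ((y₀ : ℂ) - cosVal p f i z) := fun z => by
    simp only [G, Finset.prod_apply, Pi.sub_apply]
  have hexp' : ∀ i, HasExp (qp p) ((fun _ => (y₀ : ℂ)) - cosVal p f i)
      (ModularCurve.coeffMap incl (HahnSeries.C y₀ - S i)) := fun i => by
    rw [map_sub, coeffMap_C]
    exact (hasExp_C _).sub (hexp i)
  have hGexp : HasExp (qp p) G (ModularCurve.coeffMap incl (∏ i, (HahnSeries.C y₀ - S i))) := by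
    rw [map_prod]
    exact hasExp_prod (qp_ne_zero p) _ fun i _ => hexp' i
  have hGmem : G ∈ expFuns p :=
    prod_mem fun i _ => ⟨mdifferentiable_const.sub (mdiff_comp_smul hfm.1 _), _, hexp' i⟩
  have hinv : ∀ (g : SL(2, ℤ)) z, G (g • z) = G z := fun g z => by
    rw [hG, hG]
    simp only [cosVal_smul hfm]
    exact Fintype.prod_equiv (MulAction.toPerm g⁻¹) _ _ fun i => rfl
  obtain ⟨L', hL'⟩ := hasExp_descend (fun z => hinv ModularGroup.T z) hGexp
  obtain ⟨P, hP⟩ := exists_polynomial_of_invariant hinv hGmem.1 hL'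
  have hPexp : ∀ Q : ℂ[X],
      HasExp (qp p) (fun z => Q.eval (jfun z)) (evalJ ℂ p Q) := fun Q => by
    induction Q using Polynomial.induction_on' with
    | add a b ha hb => simp only [Polynomial.eval_add, map_add]; exact ha.add hb
    | monomial n a =>
      simp only [Polynomial.eval_monomial]
      simp only [← Polynomial.C_mul_X_pow_eq_monomial, map_mul, map_pow, evalJ_C, evalJ_X]
      exact (hasExp_C a).mul (qp_ne_zero p) ((FA.ModField.hasExp_jfun_qp p).pow (qp_ne_zero p) n)
  have heq : evalJ ℂ p P = ModularCurve.coeffMap incl (∏ i, (HahnSeries.C y₀ - S i)) :=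
    (hPexp P).unique (covers_qp p) (hGexp.congr hP)
  -- the coefficients are integral
  have hPint : ∀ i, IsIntegral ℤ (P.coeff i) := by
    obtain ⟨hJ1, hJ2, hJ3⟩ := Jp_low p
    refine poly_integral (by have := hp.pos; omega : -(p : ℤ) < 0) hJ3 hJ1 hJ2 _ P le_rfl ?_
    show evalJ ℂ p P ∈ intSeries
    rw [heq]
    exact ⟨_, rfl⟩
  obtain ⟨P₀, hP₀⟩ : P ∈ Polynomial.lifts incl :=
    (Polynomial.lifts_iff_coeff_lifts P).2 fun i => ⟨⟨_, hPint i⟩, rfl⟩
  have hroot : P₀.eval x₀ = 0 := by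
    refine Subtype.ext ?_
    show incl (P₀.eval x₀) = 0
    rw [← Polynomial.eval₂_at_apply, ← Polynomial.eval_map, ← Polynomial.coe_mapRingHom, hP₀]
    show P.eval (jfun τ) = 0
    rw [← congrFun hP τ, hG]
    refine Finset.prod_eq_zero (Finset.mem_univ (QuotientGroup.mk 1 : FA.Dim.Cos p)) ?_
    rw [cosVal_mk hfm, inv_one, one_smul, hf, sub_eq_zero, hy₀]
  have heq0 : evalJ AlgInt p P₀ = ∏ i, (HahnSeries.C y₀ - S i) := by
    refine coeffMap_injective' (φ := incl) Subtype.val_injective ?_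
    rw [coeffMap_evalJ, ← heq, ← Polynomial.coe_mapRingHom, hP₀]
  -- the reduction
  set Q : FA.Dim.Cos p → k[X] := fun i =>
    Polynomial.C (π y₀ ^ p) - if e i = 1 then Polynomial.X else Polynomial.X ^ (p * p) with hQ
  have hQeq : P₀.map π ^ p = ∏ i, Q i := by
    refine evalJ_injective p ?_
    rw [map_pow, ← coeffMap_evalJ, heq0, map_prod, ← Finset.prod_pow, map_prod]
    refine Finset.prod_congr rfl fun i _ => ?_
    haveI := he i
    haveI : CharP (LaurentSeries k) p :=
      charP_of_injective_ringHom (f := (HahnSeries.C : k →+* LaurentSeries k))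
        HahnSeries.C_injective p
    rw [map_sub, coeffMap_C, sub_pow_char, ← map_pow, show S i = sj AlgInt (c i) (e i) from rfl,
      coeffMap_sj, sj_pow p _ (by rw [← map_pow, hc i, map_one]), hQ]
    simp only [map_sub, evalJ_C]
    congr 1
    rcases hek i with h | h
    · rw [if_pos h]
      simp only [evalJ_X, h, one_mul]
    · rw [if_neg (by rw [h]; nlinarith [hp.two_le])]
      simp only [evalJ_X, map_pow, h]
      rw [← map_pow, pow_mul, pow_char_eq_qExpand p (ModularCurve.jqModC k),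
        ModularCurve.coeffMap_jqModC, ← map_pow, pow_char_eq_qExpand,
        ModularCurve.coeffMap_jqModC, ModularCurve.qExpand_qExpand, ModularCurve.qExpand_qExpand]
  have h0 : (∏ i, Q i).eval (π x₀) = 0 := by
    rw [← hQeq, Polynomial.eval_pow, Polynomial.eval_map, Polynomial.eval₂_at_apply, hroot,
      map_zero, zero_pow hp.ne_zero]
  rw [Polynomial.eval_prod, Finset.prod_eq_zero_iff] at h0
  obtain ⟨i, -, hi⟩ := h0
  simp only [hQ, Polynomial.eval_sub, Polynomial.eval_C, sub_eq_zero] at hi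
  split_ifs at hi with h1
  · exact Or.inr (by simpa using hi)
  · refine Or.inl (sub_eq_zero.1 (pow_eq_zero_iff hp.ne_zero |>.1 ?_))
    rw [sub_pow_char, ← pow_mul, sub_eq_zero]
    simpa using hi

end FA.Kronecker

end
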