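import Fermat.Agent.Tau.ReducedUnique
import Fermat.Agent.Tau.Kronecker
import Fermat.Agent.Carayol.Front.Normal
import Mathlib.FieldTheory.Minpoly.IsIntegrallyClosed

/-!
# Singular moduli of one discriminant are conjugate

A prime `l` represented by a class puts a root `z` in it with `l z` in the principal class.
Kronecker's congruence makes `j(z)` congruent modulo `l` to a conjugate of `j(l z)`, or the
reverse; for large `l` the congruence is an equality.
-/

set_option autoImplicit false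
set_option linter.style.haveILetI false

noncomputable section

namespace FA.Singular

open UpperHalfPlane hiding I
open FA.ModField FA.Kronecker FA.JInj
open scoped MatrixGroups

/-- A root of the minimal polynomial is a conjugate under an automorphism of `ℂ`. -/
theorem exists_aut_of_root {x r : ℂ} (hx : IsIntegral ℚ x)
    (hr : Polynomial.aeval r (minpoly ℚ x) = 0) : ∃ σ : ℂ ≃+* ℂ, σ x = r := by
  let jA : AlgebraicClosure ℚ →ₐ[ℚ] ℂ := IsAlgClosed.lift
  let : Algebra (AlgebraicClosure ℚ) ℂ := jA.toRingHom.toAlgebra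
  have him := (IsAlgClosed.splits ((minpoly ℚ x).map (algebraMap ℚ (AlgebraicClosure ℚ))))
    |>.image_rootSet jA
  have hmem : ∀ y : ℂ, Polynomial.aeval y (minpoly ℚ x) = 0 → ∃ y', jA y' = y := fun y hy => by
    have : y ∈ (minpoly ℚ x).rootSet ℂ :=
      Polynomial.mem_rootSet.2 ⟨minpoly.ne_zero hx, hy⟩
    rw [← him] at this
    obtain ⟨y', -, hy'⟩ := this
    exact ⟨y', hy'⟩
  obtain ⟨x', hx'⟩ := hmem x (minpoly.aeval ℚ x)
  obtain ⟨r', hr'⟩ := hmem r hr
  have hmin : minpoly ℚ x = minpoly ℚ x' := by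
    rw [← hx', minpoly.algHom_eq jA jA.toRingHom.injective]
  have hr'' : Polynomial.aeval r' (minpoly ℚ x') = 0 := jA.toRingHom.injective (by
    rw [map_zero, AlgHom.toRingHom_eq_coe, RingHom.coe_coe, ← Polynomial.aeval_algHom_apply,
      hr', ← hmin, hr])
  obtain ⟨σ, hσ⟩ :=
    minpoly.exists_algEquiv_of_root' (Algebra.IsIntegral.isIntegral x').isAlgebraic hr''
  obtain ⟨σ', hσ'⟩ := FA.Carayol.exists_extend_complex σ
  exact ⟨σ', by rw [← hx', ← hr', show σ' (jA x') = jA (σ x') from hσ' x', hσ]⟩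

theorem isIntegral_values {D : ℤ} (hD : D < 0) {u : ℂ} (hu : u ∈ values D) : IsIntegral ℤ u := by
  obtain ⟨⟨a, b, c⟩, hf, τ, hτ, rfl⟩ := hu
  exact FA.SingularIntegral.isIntegral_jfun (by linarith [hf.1]) hτ

/-- The roots of the minimal polynomial of a singular modulus are singular moduli. -/
theorem root_mem_values {D : ℤ} (hD : D < 0) {u r : ℂ} (hu : u ∈ values D)
    (hr : Polynomial.aeval r (minpoly ℤ u) = 0) : r ∈ values D := by
  have hi := isIntegral_values hD hu
  have hr' : Polynomial.aeval r (minpoly ℚ u) = 0 := by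
    rw [minpoly.isIntegrallyClosed_eq_field_fractions' ℚ hi, Polynomial.aeval_map_algebraMap, hr]
  obtain ⟨σ, hσ⟩ := exists_aut_of_root hi.tower_top hr'
  obtain ⟨⟨a, b, c⟩, hf, τ, hτ, rfl⟩ := hu
  obtain ⟨f', hf', τ', hτ', he⟩ := exists_conjugate hf.2.1 (by linarith [hf.1]) hτ σ
  rw [hf.1] at hf'
  exact ⟨f', hf', τ', hτ', by rw [← he, hσ]⟩

/-- A root of a primitive form with positive leading coefficient gives a value. -/
theorem jfun_mem_values {t : ℤ × ℤ × ℤ} (ha : 0 < t.1) (hD : disc t < 0)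
    (hg : Int.gcd (Int.gcd t.1 t.2.1) t.2.2 = 1) {τ : ℍ} (hτ : IsRoot t τ) :
    jfun τ ∈ values (disc t) := by
  obtain ⟨a, b, c⟩ := t
  obtain ⟨f, hf, τ', hτ', he⟩ :=
    exists_conjugate hg hD hτ (RingEquiv.refl ℂ)
  exact ⟨f, hf, τ', hτ', by rw [← he]; rfl⟩

/-- Roots of two monic forms of the same discriminant give the same value. -/
theorem jfun_principal_eq {B C B' C' : ℤ} {w w' : ℍ} (h : B ^ 2 - 4 * C = B' ^ 2 - 4 * C')
    (hw : IsRoot (1, B, C) w) (hw' : IsRoot (1, B', C') w') : jfun w = jfun w' := by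
  obtain ⟨m, hm⟩ : (2 : ℤ) ∣ B' - B := by
    by_contra h2
    have h4 : (2 : ℤ) ∣ (B' - B) * (B' + B) :=
      ⟨2 * (C' - C), by linear_combination -h⟩
    rcases Int.prime_two.dvd_or_dvd h4 with h5 | h5
    · exact h2 h5
    · exact h2 (by have := dvd_sub h5 (dvd_mul_right (2 : ℤ) B); ring_nf at this ⊢; exact this)
  have hC : C' = C + m * B + m ^ 2 := mul_left_cancel₀ (by norm_num : (4 : ℤ) ≠ 0) (by
    have hB : B' = B + 2 * m := by linarith
    rw [hB] at h; linarith)
  have e : w = ModularGroup.T ^ m • w' := by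
    refine root_unique (t := (1, B, C)) one_ne_zero hw ?_
    simp only [IsRoot] at hw' ⊢
    rw [modular_T_zpow_smul, coe_vadd]
    have hB : (B' : ℂ) = B + 2 * m := by exact_mod_cast (by linarith : B' = B + 2 * m)
    rw [hC, hB] at hw'
    push_cast at hw' ⊢
    linear_combination hw'
  rw [e, jfun_smul]

/-- Congruent to a conjugate, for a large prime: equal to it. -/
theorem aeval_eq_zero_of_congr {D : ℤ} (hD : D < 0) {l : ℕ} (hl : l.Prime) {k : Type} [Field k]
    [CharP k l] (π : AlgInt →+* k)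
    (hsep : ∀ u ∈ values D, ∀ v ∈ values D, ∀ (hu : IsIntegral ℤ u) (hv : IsIntegral ℤ v),
      π ⟨u, hu⟩ = π ⟨v, hv⟩ → u = v)
    {u v : ℂ} (hu : u ∈ values D) (hv : v ∈ values D) (hui : IsIntegral ℤ u)
    (hvi : IsIntegral ℤ v) (h : π ⟨v, hvi⟩ = π ⟨u, hui⟩ ^ l) :
    Polynomial.aeval v (minpoly ℤ u) = 0 := by
  haveI := Fact.mk hl
  set P := minpoly ℤ u with hP
  set ψ : Polynomial ℤ →+* k :=
    Polynomial.eval₂RingHom (Int.castRingHom k) (π ⟨v, hvi⟩) with hψ
  have hev : ∀ (t : AlgInt), π (Polynomial.aeval t P) = Polynomial.aeval (π t) P := fun t =>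
    (Polynomial.aeval_algHom_apply π.toIntAlgHom t P).symm
  have hfrob : ∀ t : k, Polynomial.aeval (t ^ l) P = (Polynomial.aeval t P) ^ l := fun t =>
    Polynomial.aeval_algHom_apply (frobenius k l).toIntAlgHom t P
  have hu0 : Polynomial.aeval (⟨u, hui⟩ : AlgInt) P = 0 :=
    Subtype.ext (by rw [Polynomial.aeval_subalgebra_coe]; exact minpoly.aeval ℤ u)
  have hv0 : π (Polynomial.aeval (⟨v, hvi⟩ : AlgInt) P) = 0 := by
    rw [hev, h, hfrob, ← hev, hu0, map_zero, zero_pow hl.ne_zero]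
  -- the roots are values
  set Q := P.map (algebraMap ℤ ℂ) with hQ
  have hroots : ∀ r ∈ Q.roots, Polynomial.aeval r P = 0 := fun r hr => by
    rw [Polynomial.aeval_def, ← Polynomial.eval_map]
    exact Polynomial.isRoot_of_mem_roots hr
  have hint : ∀ r ∈ Q.roots, IsIntegral ℤ r := fun r hr => ⟨P, minpoly.monic hui, hroots r hr⟩
  set m : Multiset AlgInt :=
    Q.roots.pmap (fun r hr => (⟨r, hr⟩ : AlgInt)) hint with hm
  have hprod : Polynomial.aeval (⟨v, hvi⟩ : AlgInt) P =
      (m.map fun t => (⟨v, hvi⟩ : AlgInt) - t).prod := by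
    refine Subtype.ext ?_
    rw [Polynomial.aeval_subalgebra_coe, Polynomial.aeval_def, ← Polynomial.eval_map,
      Polynomial.Splits.eval_eq_prod_roots_of_monic (IsAlgClosed.splits _)
        ((minpoly.monic hui).map _)]
    rw [← hQ, show (((m.map fun t => (⟨v, hvi⟩ : AlgInt) - t).prod : AlgInt) : ℂ) =
        incl (m.map fun t => (⟨v, hvi⟩ : AlgInt) - t).prod from rfl, map_multiset_prod,
      Multiset.map_map, hm, Multiset.map_pmap]
    exact congrArg Multiset.prod
      (Multiset.pmap_eq_map (p := IsIntegral ℤ) (fun r => v - r) Q.roots hint).symm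
  rw [hprod, map_multiset_prod, Multiset.prod_eq_zero_iff, Multiset.map_map,
    Multiset.mem_map] at hv0
  obtain ⟨t, ht, ht0⟩ := hv0
  rw [hm, Multiset.mem_pmap] at ht
  obtain ⟨r, hr, rfl⟩ := ht
  rw [Function.comp_apply, map_sub, sub_eq_zero] at ht0
  rw [hsep v hv r (root_mem_values hD hu (hroots r hr)) hvi _ ht0]
  exact hroots r hr

theorem minpoly_eq_of_root {u v : ℂ} (hu : IsIntegral ℤ u) (hv : IsIntegral ℤ v)
    (h : Polynomial.aeval v (minpoly ℤ u) = 0) : minpoly ℤ u = minpoly ℤ v := by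
  have h1 := minpoly.isIntegrallyClosed_dvd hv h
  have hirr := minpoly.irreducible hu
  exact (Polynomial.eq_of_monic_of_associated (minpoly.monic hv) (minpoly.monic hu)
    ((minpoly.irreducible hv).associated_of_dvd hirr h1)).symm

/-- A prime over which the values stay distinct. -/
theorem exists_bound (D : ℤ) : ∃ M : ℕ, ∀ l : ℕ, l.Prime → M < l →
    ∀ {k : Type} [Field k] [CharP k l] (π : AlgInt →+* k), ∀ u ∈ values D, ∀ v ∈ values D,
      ∀ (hu : IsIntegral ℤ u) (hv : IsIntegral ℤ v), π ⟨u, hu⟩ = π ⟨v, hv⟩ → u = v := by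
  classical
  set V := (values_finite_card D).1.toFinset with hV
  refine ⟨∑ x ∈ V ×ˢ V, ((minpoly ℤ (x.1 - x.2)).coeff 0).natAbs, ?_⟩
  intro l hl hM k _ _ π u hu v hv hui hvi e
  by_contra hne
  have hd : IsIntegral ℤ (u - v) := hui.sub hvi
  set e₀ := (minpoly ℤ (u - v)).coeff 0 with he₀
  have he0 : e₀ ≠ 0 := fun h0 => by
    have hX : Polynomial.X ∣ minpoly ℤ (u - v) := Polynomial.X_dvd_iff.2 h0
    have := Polynomial.eq_of_monic_of_associated Polynomial.monic_X (minpoly.monic hd)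
      (Polynomial.irreducible_X.associated_of_dvd (minpoly.irreducible hd) hX)
    have h1 := minpoly.aeval ℤ (u - v)
    rw [← this, Polynomial.aeval_X, sub_eq_zero] at h1
    exact hne h1
  have hle : e₀.natAbs ≤ ∑ x ∈ V ×ˢ V, ((minpoly ℤ (x.1 - x.2)).coeff 0).natAbs :=
    Finset.single_le_sum (f := fun x : ℂ × ℂ => ((minpoly ℤ (x.1 - x.2)).coeff 0).natAbs)
      (fun _ _ => Nat.zero_le _) (a := (u, v))
      (Finset.mem_product.2 ⟨by simpa [hV] using hu, by simpa [hV] using hv⟩)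
  have hzero : (e₀ : k) = 0 := by
    have h1 : Polynomial.aeval (⟨u - v, hd⟩ : AlgInt) (minpoly ℤ (u - v)) = 0 :=
      Subtype.ext (by rw [Polynomial.aeval_subalgebra_coe]; exact minpoly.aeval ℤ (u - v))
    have h2 := congrArg π.toIntAlgHom h1
    rw [← Polynomial.aeval_algHom_apply, map_zero] at h2
    have h3 : π.toIntAlgHom (⟨u - v, hd⟩ : AlgInt) = 0 := by
      show π _ = 0
      rw [show (⟨u - v, hd⟩ : AlgInt) = ⟨u, hui⟩ - ⟨v, hvi⟩ from rfl, map_sub, e, sub_self]
    rw [h3, ← Polynomial.coeff_zero_eq_aeval_zero'] at h2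
    simpa using h2
  rw [CharP.intCast_eq_zero_iff k l] at hzero
  have := Nat.le_of_dvd (Int.natAbs_pos.2 he0) (Int.natCast_dvd.1 hzero)
  omega

/-- **All singular moduli of one discriminant have the same minimal polynomial.** -/
theorem minpoly_eq_of_mem {D : ℤ} (hD : D < 0) {u v : ℂ} (hu : u ∈ values D)
    (hv : v ∈ values D) : minpoly ℤ u = minpoly ℤ v := by
  suffices key : ∀ x ∈ values D, ∃ B C : ℤ, ∃ w : ℍ, B ^ 2 - 4 * C = D ∧ IsRoot (1, B, C) w ∧
      minpoly ℤ x = minpoly ℤ (jfun w) by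
    obtain ⟨B, C, w, hd, hw, e⟩ := key u hu
    obtain ⟨B', C', w', hd', hw', e'⟩ := key v hv
    rw [e, e', jfun_principal_eq (hd.trans hd'.symm) hw hw']
  rintro _ ⟨⟨a, b, c⟩, hf, τ, hτ, rfl⟩
  obtain ⟨hd, hg, ha, hrest⟩ := hf
  simp only [] at hd hg ha
  simp only [IsRoot] at hτ
  obtain ⟨M, hM⟩ := exists_bound D
  obtain ⟨l, ⟨hl, x, y, hlxy⟩, hlM⟩ :=
    (FA.Summary.infinite_primes_primitive_form a b c ha (by linarith) hg).exists_gt M
  haveI : NeZero l := ⟨hl.ne_zero⟩
  -- the representation is primitive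
  obtain ⟨v', u', huv⟩ : IsCoprime x y := by
    rw [Int.isCoprime_iff_gcd_eq_one]
    obtain ⟨x', hx'⟩ := Int.gcd_dvd_left x y
    obtain ⟨y', hy'⟩ := Int.gcd_dvd_right x y
    set g := Int.gcd x y
    have h : (g * g : ℕ) ∣ l := Int.natCast_dvd_natCast.1
      ⟨a * x' ^ 2 + b * x' * y' + c * y' ^ 2, by push_cast; rw [hlxy, hx', hy']; ring⟩
    rcases hl.eq_one_or_self_of_dvd g (dvd_of_mul_left_dvd h) with h1 | h1
    · exact h1
    · rw [h1] at h
      have := Nat.le_of_dvd hl.pos h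
      nlinarith [hl.two_le]
  -- the equivalent form `(l, B, C)`
  let γ : SL(2, ℤ) := ⟨!![v', u'; -y, x], by rw [Matrix.det_fin_two_of]; linarith⟩
  set z := γ • τ with hz
  set B : ℤ := 2 * a * x * (-u') + b * (x * v' + y * -u') + 2 * c * y * v' with hB
  set C : ℤ := a * (-u') ^ 2 + b * (-u') * v' + c * v' ^ 2 with hC
  have hdisc : B ^ 2 - 4 * (l : ℤ) * C = D := by
    rw [hlxy, hB, hC, ← hd]
    linear_combination (b ^ 2 - 4 * a * c) * (v' * x + u' * y + 1) * huv
  have hzroot : IsRoot ((l : ℤ), B, C) z := by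
    have hcoe : (z : ℂ) * (-(y : ℂ) * τ + x) = (v' : ℂ) * τ + u' := by
      have hden := smul_denom_ne γ τ
      rw [hz, coe_smul_int]
      simp only [γ, Matrix.of_apply, Matrix.cons_val', Matrix.cons_val_zero, Matrix.cons_val_one,
        Matrix.empty_val', Matrix.cons_val_fin_one] at hden ⊢
      push_cast at hden ⊢
      exact div_mul_cancel₀ _ hden
    have huv' : (v' : ℂ) * x + u' * y = 1 := by exact_mod_cast huv
    have hd0 : (-(y : ℂ) * τ + x) ≠ 0 := fun h0 => by
      rw [h0, mul_zero] at hcoe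
      have := eq_zero_of_add (z := τ) (u := -y) (v := x) (by push_cast; exact h0)
      rw [neg_eq_zero.1 this.1, this.2] at huv
      simp at huv
    simp only [IsRoot]
    refine (mul_eq_zero.1 (?_ : (-(y : ℂ) * τ + x) ^ 2 * _ = 0)).resolve_left (pow_ne_zero 2 hd0)
    rw [hB, hC]
    have hl' : ((l : ℤ) : ℂ) = ((a * x ^ 2 + b * x * y + c * y ^ 2 : ℤ) : ℂ) := by rw [hlxy]
    rw [hl']
    push_cast
    linear_combination ((a * x ^ 2 + b * x * y + c * y ^ 2 : ℂ) *
        ((z : ℂ) * (-(y : ℂ) * τ + x) + (v' * τ + u')) +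
        (2 * a * x * (-(u' : ℂ)) + b * (x * v' + y * -(u' : ℂ)) + 2 * c * y * v') *
          (-(y : ℂ) * τ + x)) * hcoe + ((v' : ℂ) * x + u' * y) ^ 2 * hτ
  set w := scaleH l z with hw
  have hwroot : IsRoot (1, B, (l : ℤ) * C) w := by
    simp only [IsRoot] at hzroot ⊢
    rw [hw, coe_scaleH]
    push_cast at hzroot ⊢
    linear_combination (l : ℂ) * hzroot
  have hdisc' : disc (1, B, (l : ℤ) * C) = D := by simp only [disc]; linarith
  have hwV : jfun w ∈ values D := by
    rw [← hdisc']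
    exact jfun_mem_values one_pos (by rw [hdisc']; exact hD) (by simp) hwroot
  have hjz : jfun z = jfun τ := jfun_smul γ τ
  have hzV : jfun z ∈ values D := by
    rw [hjz]; exact ⟨(a, b, c), ⟨hd, hg, ha, hrest⟩, τ, hτ, rfl⟩
  have hzi := isIntegral_values hD hzV
  have hwi := isIntegral_values hD hwV
  -- a maximal ideal over `l`
  have hnu : ¬ IsUnit ((l : ℤ) : AlgInt) := fun hu => by
    obtain ⟨t, ht⟩ := hu.exists_right_inv
    have h1 : IsIntegral ℤ ((l : ℚ)⁻¹) := by
      rw [← isIntegral_algebraMap_iff (algebraMap ℚ ℂ).injective]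
      have : (algebraMap ℚ ℂ) (l : ℚ)⁻¹ = (t : ℂ) := by
        have := congrArg (fun s : AlgInt => (s : ℂ)) ht
        push_cast at this
        rw [map_inv₀, map_natCast]
        exact inv_eq_of_mul_eq_one_right this
      rw [this]; exact t.2
    obtain ⟨n, hn⟩ := IsIntegrallyClosed.isIntegral_iff.1 h1
    have hn' : (n : ℚ) * l = 1 := by
      rw [show (n : ℚ) = (l : ℚ)⁻¹ from hn]
      exact inv_mul_cancel₀ (by exact_mod_cast hl.ne_zero)
    have : n * (l : ℤ) = 1 := by exact_mod_cast hn'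
    rcases Int.eq_one_or_neg_one_of_mul_eq_one' this with ⟨-, e⟩ | ⟨-, e⟩
    · exact hl.ne_one (by exact_mod_cast e)
    · omega
  obtain ⟨m, hm, hlm⟩ := Ideal.exists_le_maximal (Ideal.span {((l : ℤ) : AlgInt)})
    (mt Ideal.span_singleton_eq_top.1 hnu)
  let := Ideal.Quotient.field m
  haveI : CharP (AlgInt ⧸ m) l := by
    refine CharP.congr (ringChar (AlgInt ⧸ m)) (h := ?_)
    refine CharP.ringChar_of_prime_eq_zero hl ?_
    rw [← map_natCast (Ideal.Quotient.mk m), Ideal.Quotient.eq_zero_iff_mem]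
    exact_mod_cast hlm (Ideal.mem_span_singleton_self _)
  have hsep := hM l hl hlM (Ideal.Quotient.mk m)
  refine ⟨B, (l : ℤ) * C, w, by linarith, hwroot, ?_⟩
  rw [← hjz]
  rcases congruence l hl hzi hwi (Ideal.Quotient.mk m) with h | h
  · exact minpoly_eq_of_root hzi hwi
      (aeval_eq_zero_of_congr hD hl _ hsep hzV hwV hzi hwi h)
  · exact (minpoly_eq_of_root hwi hzi
      (aeval_eq_zero_of_congr hD hl _ hsep hwV hzV hwi hzi h.symm)).symm

/-- **The degree of a singular modulus is the class number.** -/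
theorem natDegree_minpoly {D : ℤ} (hD : D < 0) {u : ℂ} (hu : u ∈ values D) :
    (minpoly ℚ u).natDegree = (Red D).ncard := by
  classical
  have hi := isIntegral_values hD hu
  refine le_antisymm ?_ ?_
  · obtain ⟨⟨a, b, c⟩, hf, τ, hτ, rfl⟩ := hu
    rw [← hf.1]
    exact (isAlgebraic_natDegree_le hf.2.1 (by linarith [hf.1]) hτ).2
  · rw [← values_ncard hD]
    have hne := minpoly.ne_zero hi.tower_top (A := ℚ)
    have hsub : values D ⊆ ↑((minpoly ℚ u).aroots ℂ).toFinset := fun v hv => by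
      rw [Finset.mem_coe, Multiset.mem_toFinset, Polynomial.mem_aroots]
      refine ⟨hne, ?_⟩
      rw [minpoly.isIntegrallyClosed_eq_field_fractions' ℚ hi, Polynomial.aeval_map_algebraMap,
        minpoly_eq_of_mem hD hu hv]
      exact minpoly.aeval ℤ v
    refine (Set.ncard_le_ncard hsub (Finset.finite_toSet _)).trans ?_
    rw [Set.ncard_coe_finset]
    exact (Multiset.toFinset_card_le _).trans
      ((Polynomial.card_roots' _).trans_eq (Polynomial.natDegree_map _))

end FA.Singular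

end
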