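import Fermat.Agent.Tau.Differential
import Mathlib.NumberTheory.ModularForms.EisensteinSeries.E2.Transform

/-!
# Ramanujan's identity for `E₂`, Chazy's equation and Niebur's formula

`12 θ E₂ = E₂² - E₄`: the difference of the sides is a modular form of weight 4 with constant term
zero. The rest is algebra in `ℤ[[q]]` with `θ` a derivation.
-/

set_option autoImplicit false

noncomputable section

open UpperHalfPlane hiding I
open ModularForm EisensteinSeries Derivative FA.Eis
open Complex (I)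
open scoped MatrixGroups ArithmeticFunction.sigma Real Topology Manifold

namespace FA.Tau

/-- `D E₂ - E₂²/12` has weight four. -/
theorem serreE2_slash (γ : SL(2, ℤ)) :
    (normalizedDerivOfComplex E2 - (12 : ℂ)⁻¹ • (E2 * E2)) ∣[(4 : ℤ)] γ =
      normalizedDerivOfComplex E2 - (12 : ℂ)⁻¹ • (E2 * E2) := by
  rw [sub_eq_add_neg, SlashAction.add_slash, SlashAction.neg_slash, ModularForm.SL_smul_slash,
    show (4 : ℤ) = 2 + 2 from rfl, ModularForm.mul_slash_SL2]
  ext z
  have hS := congrFun (normalizedDerivOfComplex_SL_slash (k := 2) (F := E2) E2_mdifferentiable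
    (γ := γ)) z
  have hden : denom (γ : GL (Fin 2) ℝ) z ≠ 0 := denom_ne_zero _ z
  have hd : HasDerivAt ((E2 ∣[(2 : ℤ)] γ) ∘ ofComplex)
      (deriv (E2 ∘ ofComplex) z - (1 / (2 * riemannZeta 2)) * (2 * π * I * (γ 1 0 : ℂ)) *
        (-1 * (γ 1 0 : ℂ) * denom (γ : GL (Fin 2) ℝ) z ^ (-2 : ℤ))) z := by
    have h2 := (mdifferentiableAt_iff.mp (E2_mdifferentiable z)).hasDerivAt
    have h3 := (hasDerivAt_denom_zpow (γ : GL (Fin 2) ℝ) (-1) z).const_mul
      ((1 / (2 * riemannZeta 2)) * (2 * π * I * (γ 1 0 : ℂ)))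
    refine ((h2.sub h3).congr_of_eventuallyEq ?_).congr_deriv (by norm_num)
    filter_upwards [isOpen_upperHalfPlaneSet.mem_nhds z.im_pos] with w hw
    simp only [Function.comp_apply, E2_slash_action, Pi.sub_apply, Pi.smul_apply, smul_eq_mul,
      D2, ofComplex_apply_of_im_pos hw, zpow_neg_one]
    ring
  simp only [normalizedDerivOfComplex] at hS
  rw [hd.deriv] at hS
  have hz : (E2 ∣[(2 : ℤ)] γ) z = E2 z - (1 / (2 * riemannZeta 2)) * D2 γ z := by
    simp [E2_slash_action]
  simp only [Pi.add_apply, Pi.neg_apply, Pi.smul_apply, Pi.mul_apply, smul_eq_mul, hz,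
    Pi.sub_apply, Int.cast_ofNat] at hS ⊢
  simp only [normalizedDerivOfComplex] at hS ⊢
  simp only [D2, riemannZeta_two] at hS ⊢
  have hpi : (π : ℂ) ≠ 0 := Complex.ofReal_ne_zero.mpr Real.pi_ne_zero
  field_simp at hS ⊢
  ring_nf at hS ⊢
  linear_combination -12 * hS - 72 * (γ 1 0 : ℂ) ^ 2 * I * Complex.I_sq +
    24 * (π : ℂ) * denom (γ : GL (Fin 2) ℝ) z * (γ 1 0 : ℂ) * E2 z * Complex.I_sq

/-- **Ramanujan's identity for `E₂`.** -/
theorem theta_eTwo : 12 * thetaInt eTwoInt = eTwoInt ^ 2 - eFourInt := by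
  have hs : HasQ 1 (normalizedDerivOfComplex E2 - (12 : ℂ)⁻¹ • (E2 * E2) + (12 : ℂ)⁻¹ • ⇑E₄)
      ((thetaInt eTwoInt).map (Int.castRingHom ℂ) - (12 : ℂ)⁻¹ •
          (eTwoInt.map (Int.castRingHom ℂ) * eTwoInt.map (Int.castRingHom ℂ)) +
        (12 : ℂ)⁻¹ • eFourInt.map (Int.castRingHom ℂ)) :=
    ((hasQ_deriv hasQ_eTwo).sub ((hasQ_eTwo.mul one_pos hasQ_eTwo).smul _)).add
      (hasQ_eFour.smul _)
  have hinv : ∀ γ : SL(2, ℤ), (normalizedDerivOfComplex E2 - (12 : ℂ)⁻¹ • (E2 * E2) +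
      (12 : ℂ)⁻¹ • ⇑E₄) ∣[((4 : ℕ) : ℤ)] γ =
      normalizedDerivOfComplex E2 - (12 : ℂ)⁻¹ • (E2 * E2) + (12 : ℂ)⁻¹ • ⇑E₄ := fun γ => by
    rw [SlashAction.add_slash, ModularForm.SL_smul_slash,
      show ⇑E₄ ∣[((4 : ℕ) : ℤ)] γ = ⇑E₄ from E₄.slash_action_eq' _ ⟨γ, rfl⟩]
    congr 1
    exact serreE2_slash γ
  have hz := series_eq_zero (k := 4) (by norm_num) hinv hs (by
    simp only [map_add, map_sub, PowerSeries.coeff_smul, ← map_mul, PowerSeries.coeff_map,
      eq_intCast, smul_eq_mul]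
    rw [show PowerSeries.coeff 0 (eTwoInt * eTwoInt) = 1 by
        rw [PowerSeries.coeff_mul, Finset.Nat.antidiagonal_zero, Finset.sum_singleton, eTwoInt,
          PowerSeries.coeff_mk]
        simp,
      show PowerSeries.coeff 0 eFourInt = 1 by rw [eFourInt, PowerSeries.coeff_mk]; simp,
      show PowerSeries.coeff 0 (thetaInt eTwoInt) = 0 by rw [thetaInt, PowerSeries.coeff_mk]; simp]
    simp)
  refine PowerSeries.ext fun n => Int.cast_injective (α := ℂ) ?_
  have h := congrArg (PowerSeries.coeff n) hz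
  rw [← map_mul] at h
  simp only [map_add, map_sub, PowerSeries.coeff_smul, PowerSeries.coeff_map, map_zero, eq_intCast,
    smul_eq_mul] at h
  rw [show (12 : PowerSeries ℤ) = PowerSeries.C (12 : ℤ) by simp, PowerSeries.coeff_C_mul,
    map_sub, sq]
  push_cast
  linear_combination 12 * h

theorem thetaInt_eq (A : PowerSeries ℤ) :
    thetaInt A = PowerSeries.X * PowerSeries.derivative ℤ A := by
  refine PowerSeries.ext fun n => ?_
  rw [thetaInt, PowerSeries.coeff_mk]
  cases n with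
  | zero => simp
  | succ n =>
    rw [PowerSeries.coeff_succ_X_mul, PowerSeries.coeff_derivative]
    push_cast
    ring

/-- `q d/dq` as a derivation. -/
def thetaDer : Derivation ℤ (PowerSeries ℤ) (PowerSeries ℤ) :=
  Derivation.mk'
    (AddMonoidHom.mk' thetaInt fun A B => by
      simp only [thetaInt_eq, map_add, mul_add]).toIntLinearMap
    fun A B => by
      show thetaInt (A * B) = A * thetaInt B + B * thetaInt A
      simp only [thetaInt_eq, Derivation.leibniz, smul_eq_mul]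
      ring

theorem thetaDer_apply (A : PowerSeries ℤ) : thetaDer A = thetaInt A := rfl

theorem natCast_series_ne_zero {k : ℕ} (hk : k ≠ 0) : (k : PowerSeries ℤ) ≠ 0 := fun h =>
  hk (by simpa using congrArg PowerSeries.constantCoeff h)

/-- The first four derivatives of `E₂`, polynomially. -/
theorem theta_iterate_eTwo :
    144 * thetaDer (thetaDer eTwoInt) =
        2 * eTwoInt ^ 3 - 6 * (eTwoInt * eFourInt) + 4 * eSixInt ∧
      1728 * thetaDer (thetaDer (thetaDer eTwoInt)) =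
        6 * eTwoInt ^ 4 - 36 * (eTwoInt ^ 2 * eFourInt) + 48 * (eTwoInt * eSixInt) -
          18 * eFourInt ^ 2 ∧
      20736 * thetaDer (thetaDer (thetaDer (thetaDer eTwoInt))) =
        24 * eTwoInt ^ 5 - 240 * (eTwoInt ^ 3 * eFourInt) + 480 * (eTwoInt ^ 2 * eSixInt) -
          360 * (eTwoInt * eFourInt ^ 2) + 96 * (eFourInt * eSixInt) := by
  have h1 := theta_eTwo
  have h4 := theta_eFour
  have h6 := theta_eSix
  rw [← thetaDer_apply] at h1 h4 h6
  have hc : ∀ k : ℕ, thetaDer (k : PowerSeries ℤ) = 0 := fun k => Derivation.map_natCast _ _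
  have hsimp : ∀ k : ℕ, ∀ A : PowerSeries ℤ,
      thetaDer ((k : PowerSeries ℤ) * A) = k * thetaDer A := fun k A => by
    simp [Derivation.leibniz, hc]
  set E := eTwoInt
  set F := eFourInt
  set G := eSixInt
  have e2 : 144 * thetaDer (thetaDer E) = 2 * E ^ 3 - 6 * (E * F) + 4 * G := by
    have h := congrArg thetaDer h1
    rw [show (12 : PowerSeries ℤ) = ((12 : ℕ) : PowerSeries ℤ) by norm_num, hsimp] at h
    simp only [map_sub, Derivation.leibniz_pow, smul_eq_mul, nsmul_eq_mul] at h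
    push_cast at h
    linear_combination 12 * h + 2 * E * h1 - 4 * h4
  have e3 : 1728 * thetaDer (thetaDer (thetaDer E)) =
      6 * E ^ 4 - 36 * (E ^ 2 * F) + 48 * (E * G) - 18 * F ^ 2 := by
    have h := congrArg thetaDer e2
    rw [show (144 : PowerSeries ℤ) = ((144 : ℕ) : PowerSeries ℤ) by norm_num,
      show (2 : PowerSeries ℤ) = ((2 : ℕ) : PowerSeries ℤ) by norm_num,
      show (4 : PowerSeries ℤ) = ((4 : ℕ) : PowerSeries ℤ) by norm_num,
      show (6 : PowerSeries ℤ) = ((6 : ℕ) : PowerSeries ℤ) by norm_num, map_add, map_sub,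
      hsimp, hsimp, hsimp, hsimp] at h
    simp only [Derivation.leibniz, Derivation.leibniz_pow, smul_eq_mul, nsmul_eq_mul] at h
    push_cast at h
    linear_combination 12 * h + (6 * E ^ 2 - 6 * F) * h1 - 24 * E * h4 + 24 * h6
  refine ⟨e2, e3, ?_⟩
  have h := congrArg thetaDer e3
  rw [show (1728 : PowerSeries ℤ) = ((1728 : ℕ) : PowerSeries ℤ) by norm_num,
    show (6 : PowerSeries ℤ) = ((6 : ℕ) : PowerSeries ℤ) by norm_num,
    show (36 : PowerSeries ℤ) = ((36 : ℕ) : PowerSeries ℤ) by norm_num,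
    show (48 : PowerSeries ℤ) = ((48 : ℕ) : PowerSeries ℤ) by norm_num,
    show (18 : PowerSeries ℤ) = ((18 : ℕ) : PowerSeries ℤ) by norm_num, map_sub, map_add, map_sub,
    hsimp, hsimp, hsimp, hsimp, hsimp] at h
  simp only [Derivation.leibniz, Derivation.leibniz_pow, smul_eq_mul, nsmul_eq_mul] at h
  push_cast at h
  linear_combination 12 * h + (24 * E ^ 3 - 72 * E * F + 48 * G) * h1 -
    (144 * E ^ 2 + 144 * F) * h4 + 288 * E * h6

/-- **Chazy's equation.** -/
theorem chazy_eTwo : 2 * thetaDer (thetaDer (thetaDer eTwoInt)) =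
    2 * (eTwoInt * thetaDer (thetaDer eTwoInt)) - 3 * thetaDer eTwoInt ^ 2 := by
  obtain ⟨e2, e3, -⟩ := theta_iterate_eTwo
  have h1 := theta_eTwo
  rw [← thetaDer_apply] at h1
  refine mul_left_cancel₀ (natCast_series_ne_zero (k := 1728) (by norm_num)) ?_
  linear_combination 2 * e3 - 24 * eTwoInt * e2 +
    36 * (12 * thetaDer eTwoInt + (eTwoInt ^ 2 - eFourInt)) * h1

/-- `∑ σ₁(n) qⁿ`. -/
def sOneInt : PowerSeries ℤ := PowerSeries.mk fun n => (σ 1 n : ℤ)

theorem eTwoInt_eq : eTwoInt = 1 - 24 * sOneInt := by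
  refine PowerSeries.ext fun n => ?_
  rw [map_sub, PowerSeries.coeff_one, show (24 : PowerSeries ℤ) = PowerSeries.C (24 : ℤ) by simp,
    PowerSeries.coeff_C_mul, eTwoInt, sOneInt, PowerSeries.coeff_mk, PowerSeries.coeff_mk]
  split_ifs with h <;> simp [h]

/-- **Niebur's formula** as an identity of series. -/
theorem deltaInt_eq_niebur : deltaInt = thetaDer (thetaDer (thetaDer (thetaDer sOneInt))) -
    24 * (thetaDer (thetaDer (thetaDer (thetaDer sOneInt))) * sOneInt -
      16 * (thetaDer (thetaDer (thetaDer sOneInt)) * thetaDer sOneInt) +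
      18 * (thetaDer (thetaDer sOneInt) * thetaDer (thetaDer sOneInt))) := by
  obtain ⟨e2, e3, e4⟩ := theta_iterate_eTwo
  have h1 := theta_eTwo
  rw [← thetaDer_apply] at h1
  have hΔ := delta_eq
  have key : 20736 * (24 * deltaInt + eTwoInt * thetaDer (thetaDer (thetaDer (thetaDer eTwoInt))) -
      16 * (thetaDer eTwoInt * thetaDer (thetaDer (thetaDer eTwoInt))) +
      18 * thetaDer (thetaDer eTwoInt) ^ 2) = 0 := by
    linear_combination 288 * hΔ + eTwoInt * e4 -
      16 * (12 * thetaDer eTwoInt) * e3 -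
      16 * (6 * eTwoInt ^ 4 - 36 * (eTwoInt ^ 2 * eFourInt) + 48 * (eTwoInt * eSixInt) -
          18 * eFourInt ^ 2) * h1 +
      18 * (144 * thetaDer (thetaDer eTwoInt) +
        (2 * eTwoInt ^ 3 - 6 * (eTwoInt * eFourInt) + 4 * eSixInt)) * e2
  have hk := (mul_eq_zero.mp key).resolve_left (natCast_series_ne_zero (k := 20736) (by norm_num))
  have hs : ∀ A : PowerSeries ℤ, thetaDer (24 * A) = 24 * thetaDer A := fun A => by
    rw [show (24 : PowerSeries ℤ) = ((24 : ℕ) : PowerSeries ℤ) by norm_num]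
    rw [Derivation.leibniz, Derivation.map_natCast]
    simp
  simp only [eTwoInt_eq, map_sub, Derivation.map_one_eq_zero, zero_sub, map_neg, hs] at hk
  refine mul_left_cancel₀ (natCast_series_ne_zero (k := 24) (by norm_num)) ?_
  linear_combination hk

theorem coeff_thetaDer (A : PowerSeries ℤ) (n : ℕ) :
    PowerSeries.coeff n (thetaDer A) = (n : ℤ) * PowerSeries.coeff n A := by
  rw [thetaDer_apply, thetaInt, PowerSeries.coeff_mk]

/-- **Niebur's formula.** -/
theorem coeff_deltaInt_niebur (n : ℕ) : PowerSeries.coeff n deltaInt =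
    (n : ℤ) ^ 4 * (σ 1 n : ℤ) - 24 * ∑ i ∈ Finset.range n,
      (i : ℤ) ^ 2 * (35 * (i : ℤ) ^ 2 - 52 * i * n + 18 * (n : ℤ) ^ 2) *
        ((σ 1 i : ℤ) * (σ 1 (n - i) : ℤ)) := by
  rw [deltaInt_eq_niebur, show (24 : PowerSeries ℤ) = PowerSeries.C (24 : ℤ) by simp,
    show (16 : PowerSeries ℤ) = PowerSeries.C (16 : ℤ) by simp,
    show (18 : PowerSeries ℤ) = PowerSeries.C (18 : ℤ) by simp]
  simp only [map_sub, map_add, PowerSeries.coeff_C_mul]
  simp only [PowerSeries.coeff_mul, coeff_thetaDer, sOneInt, PowerSeries.coeff_mk,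
    Finset.Nat.sum_antidiagonal_eq_sum_range_succ_mk]
  simp only [Finset.sum_range_succ, Nat.sub_self, ArithmeticFunction.map_zero, Nat.cast_zero,
    mul_zero, add_zero]
  congr 1
  · ring
  · congr 1
    rw [Finset.mul_sum, Finset.mul_sum, ← Finset.sum_sub_distrib, ← Finset.sum_add_distrib]
    refine Finset.sum_congr rfl fun i hi => ?_
    rw [Nat.cast_sub (Finset.mem_range.mp hi).le]
    ring

/-- **The convolution of `σ₁` with itself.** -/
theorem sum_sigma_mul_sigma (n : ℕ) :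
    12 * ∑ i ∈ Finset.range n, (σ 1 i : ℤ) * (σ 1 (n - i) : ℤ) =
      5 * (σ 3 n : ℤ) + (1 - 6 * (n : ℤ)) * (σ 1 n : ℤ) := by
  rcases eq_or_ne n 0 with rfl | hn
  · simp
  have h := congrArg (PowerSeries.coeff n) theta_eTwo
  rw [show (12 : PowerSeries ℤ) = PowerSeries.C (12 : ℤ) by simp, PowerSeries.coeff_C_mul, thetaInt,
    PowerSeries.coeff_mk, eTwoInt_eq, show (1 - 24 * sOneInt) ^ 2 =
      1 - 48 * sOneInt + 576 * (sOneInt * sOneInt) by ring,
    show (24 : PowerSeries ℤ) = PowerSeries.C (24 : ℤ) by simp,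
    show (48 : PowerSeries ℤ) = PowerSeries.C (48 : ℤ) by simp,
    show (576 : PowerSeries ℤ) = PowerSeries.C (576 : ℤ) by simp] at h
  simp only [map_sub, map_add, PowerSeries.coeff_one, if_neg hn, PowerSeries.coeff_C_mul] at h
  simp only [PowerSeries.coeff_mul, sOneInt, eFourInt, PowerSeries.coeff_mk, if_neg hn,
    Finset.Nat.sum_antidiagonal_eq_sum_range_succ_mk] at h
  rw [Finset.sum_range_succ, Nat.sub_self, ArithmeticFunction.map_zero, Nat.cast_zero,
    mul_zero, add_zero] at h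
  linarith

end FA.Tau

end
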