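import Fermat.Agent.Tau.ModEleven
import Mathlib.Combinatorics.Enumerative.Pentagonal.PowerSeries
import Mathlib.NumberTheory.LegendreSymbol.QuadraticReciprocity

/-!
# The coefficients of `Δ` modulo 23

Modulo `23` the series of `Δ` is `q ∏ (1 - qⁿ) (1 - q²³ⁿ)`, so by Euler's pentagonal number theorem
its coefficient at `q^p` is a signed count of the pairs `(k, l)` with
`(6 k - 1)² + 23 (6 l - 1)² = 24 p`. For a prime `p` these pairs are read off a representation of
`p` by `u² + 23 v²` or `2 s² + s t + 3 t²`, one of which exists when `p` is a square modulo `23`.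
-/

set_option autoImplicit false

noncomputable section

namespace FA.Tau

open PowerSeries (coeff expand pentagonalSeries)
open ModularCurve (etaProd)

theorem etaProd_eq_pentagonalSeries : etaProd = pentagonalSeries ℤ :=
  PowerSeries.WithPiTopology.tprod_one_sub_X_pow ℤ

theorem map_expand_twentyThree (f : PowerSeries (ZMod 23)) :
    expand 23 (by decide) f = f ^ 23 := by
  have : Fact (Nat.Prime 23) := ⟨by norm_num⟩
  have h := MvPowerSeries.map_frobenius_expand (σ := Unit) (R := ZMod 23) 23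
    (by decide) (f := f)
  rw [ZMod.frobenius_zmod, MvPowerSeries.map_id] at h
  exact h

/-- The series of `Δ` is congruent modulo `23` to `q ∏ (1 - qⁿ) (1 - q²³ⁿ)`. -/
theorem coeff_deltaInt_succ_mod (m : ℕ) : ((coeff (m + 1) deltaInt : ℤ) : ZMod 23) =
    ((coeff m (etaProd * expand 23 (by decide) etaProd) : ℤ) : ZMod 23) := by
  have h : deltaInt.map (Int.castRingHom (ZMod 23)) =
      (PowerSeries.X * (etaProd * expand 23 (by decide) etaProd)).map
        (Int.castRingHom (ZMod 23)) := by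
    rw [deltaInt, ModularCurve.dedekindEtaUnit]
    simp only [map_mul, map_pow, PowerSeries.map_expand]
    rw [map_expand_twentyThree, ← pow_succ']
  have h' := congrArg (coeff (m + 1)) h
  rwa [PowerSeries.coeff_map, PowerSeries.coeff_map, eq_intCast, eq_intCast,
    PowerSeries.coeff_succ_X_mul] at h'

theorem pentagonal_add_iff {p : ℕ} (hp : 0 < p) (k l : ℤ) :
    pentagonal k + 23 * pentagonal l = p - 1 ↔
      (6 * k - 1) ^ 2 + 23 * (6 * l - 1) ^ 2 = 24 * (p : ℤ) := by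
  have hk := two_mul_natCast_pentagonal k
  have hl := two_mul_natCast_pentagonal l
  have e : (6 * k - 1) ^ 2 + 23 * (6 * l - 1) ^ 2 =
      24 * ((pentagonal k : ℤ) + 23 * pentagonal l + 1) := by
    linear_combination (-12 : ℤ) * hk - 276 * hl
  rw [e]
  omega

/-- The coefficient as a signed count. -/
theorem coeff_eq_sum {p : ℕ} (hp : 0 < p) (S : Finset (ℤ × ℤ))
    (hS : ∀ k l : ℤ, (6 * k - 1) ^ 2 + 23 * (6 * l - 1) ^ 2 = 24 * (p : ℤ) ↔ (k, l) ∈ S) :
    ((coeff p deltaInt : ℤ) : ZMod 23) =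
      ∑ x ∈ S, ((((x.1 + x.2).negOnePow : ℤˣ) : ℤ) : ZMod 23) := by
  classical
  obtain ⟨m, rfl⟩ : ∃ m, p = m + 1 := ⟨p - 1, by omega⟩
  rw [coeff_deltaInt_succ_mod, etaProd_eq_pentagonalSeries, PowerSeries.coeff_mul, ← Int.cast_sum]
  congr 1
  have hinj : ∀ a ∈ S, ∀ b ∈ S, ((pentagonal a.1, 23 * pentagonal a.2) : ℕ × ℕ) =
      (pentagonal b.1, 23 * pentagonal b.2) → a = b := fun a _ b _ h => by
    rw [Prod.mk.injEq] at h
    exact Prod.ext (pentagonal_injective h.1) (pentagonal_injective (by omega))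
  rw [← Finset.sum_subset (s₁ := S.image fun x => (pentagonal x.1, 23 * pentagonal x.2)),
    Finset.sum_image hinj]
  · refine Finset.sum_congr rfl fun x _ => ?_
    rw [PowerSeries.coeff_expand, if_pos (Dvd.intro _ rfl), Nat.mul_div_cancel_left _ (by norm_num),
      PowerSeries.coeff_pentagonalSeries_pentagonal, PowerSeries.coeff_pentagonalSeries_pentagonal,
      Int.negOnePow_add, Units.val_mul]
    rfl
  · intro x hx
    obtain ⟨a, ha, rfl⟩ := Finset.mem_image.mp hx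
    rw [Finset.HasAntidiagonal.mem_antidiagonal]
    exact (pentagonal_add_iff hp a.1 a.2).2 ((hS a.1 a.2).2 ha)
  · intro x hx hxS
    rw [Finset.HasAntidiagonal.mem_antidiagonal] at hx
    by_contra h
    obtain ⟨h1, h2⟩ := mul_ne_zero_iff.mp h
    obtain ⟨k, hk⟩ : x.1 ∈ Set.range pentagonal := by
      by_contra hn
      exact h1 (PowerSeries.coeff_pentagonalSeries_eq_zero ℤ hn)
    rw [PowerSeries.coeff_expand] at h2
    split_ifs at h2 with hd
    · obtain ⟨l, hl⟩ : x.2 / 23 ∈ Set.range pentagonal := by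
        by_contra hn
        exact h2 (PowerSeries.coeff_pentagonalSeries_eq_zero ℤ hn)
      refine hxS (Finset.mem_image.mpr ⟨(k, l), (hS k l).1 ((pentagonal_add_iff hp k l).1 ?_), ?_⟩)
      · omega
      · exact Prod.ext hk (by simp only; omega)
    · exact h2 rfl

theorem exists_six_mul_sub_one {x : ℤ} (h2 : ¬ (2 : ℤ) ∣ x) (h3 : ¬ (3 : ℤ) ∣ x) :
    ∃ k : ℤ, 6 * k - 1 = x ∨ 6 * k - 1 = -x :=
  if h : x % 6 = 5 then ⟨x / 6 + 1, Or.inl (by omega)⟩ else ⟨-(x / 6), Or.inr (by omega)⟩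

/-- Two solutions for `24 p` and `K p` combine to one for `24 K`. -/
theorem exists_descent {p : ℕ} (hp : p.Prime) {K x y c t : ℤ}
    (h : x ^ 2 + 23 * y ^ 2 = 24 * (p : ℤ)) (h' : c ^ 2 + 23 * t ^ 2 = K * (p : ℤ)) :
    ∃ e r s : ℤ, (e = 1 ∨ e = -1) ∧ s ^ 2 + 23 * r ^ 2 = 24 * K ∧
      x * (e * t) - y * c = p * r ∧ K * x = s * c + 23 * r * (e * t) ∧
      K * y = s * (e * t) - r * c := by
  have hpz : Prime (p : ℤ) := Nat.prime_iff_prime_int.mp hp
  have hp0 : (p : ℤ) ≠ 0 := by exact_mod_cast hp.ne_zero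
  obtain ⟨e, he, r, hr⟩ : ∃ e : ℤ, (e = 1 ∨ e = -1) ∧ (p : ℤ) ∣ x * (e * t) - y * c := by
    have hd : (p : ℤ) ∣ (x * t - y * c) * (x * -t - y * c) :=
      ⟨y ^ 2 * K - 24 * t ^ 2, by linear_combination y ^ 2 * h' - t ^ 2 * h⟩
    rcases hpz.dvd_mul.mp hd with hd | hd
    · exact ⟨1, Or.inl rfl, by simpa using hd⟩
    · exact ⟨-1, Or.inr rfl, by simpa using hd⟩
  have he2 : e ^ 2 = 1 := by rcases he with rfl | rfl <;> norm_num
  have hN : (x * c + 23 * y * (e * t)) ^ 2 + 23 * ((p : ℤ) * r) ^ 2 = 24 * K * (p : ℤ) ^ 2 := by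
    rw [← hr]
    linear_combination (c ^ 2 + 23 * t ^ 2) * h + 24 * (p : ℤ) * h' +
      23 * t ^ 2 * (x ^ 2 + 23 * y ^ 2) * he2
  obtain ⟨s, hs⟩ : (p : ℤ) ∣ x * c + 23 * y * (e * t) :=
    hpz.dvd_of_dvd_pow (n := 2) ⟨(24 * K - 23 * r ^ 2) * p, by linear_combination hN⟩
  refine ⟨e, r, s, he, mul_left_cancel₀ (pow_ne_zero 2 hp0) ?_, hr,
    mul_left_cancel₀ hp0 ?_, mul_left_cancel₀ hp0 ?_⟩
  · rw [hs] at hN
    linear_combination hN
  · linear_combination c * hs + 23 * (e * t) * hr - x * h' - 23 * x * t ^ 2 * he2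
  · linear_combination (e * t) * hs - c * hr - y * h' - 23 * y * t ^ 2 * he2

/-- **The principal form**: `2`. -/
theorem coeff_of_principal {p : ℕ} (hp : p.Prime) (h23 : p ≠ 23) {u v : ℤ}
    (h : (p : ℤ) = u ^ 2 + 23 * v ^ 2) : ((coeff p deltaInt : ℤ) : ZMod 23) = 2 := by
  have hv : v ≠ 0 := by
    rintro rfl
    exact (Nat.prime_iff_prime_int.mp hp).not_isUnit (by
      have h' : (p : ℤ) = u * u := by linear_combination h
      rcases (Nat.prime_iff_prime_int.mp hp).irreducible.isUnit_or_isUnit h' with hu | hu <;>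
        rw [h'] <;> exact hu.mul hu)
  have hu : u ≠ 0 := by
    rintro rfl
    have hd : (23 : ℤ) ∣ (p : ℤ) := ⟨v ^ 2, by linear_combination h⟩
    exact h23 ((Nat.prime_dvd_prime_iff_eq (by norm_num) hp).mp (by exact_mod_cast hd)).symm
  have hp3 : 23 ≤ p := by nlinarith [sq_nonneg u, Int.one_le_abs hv, sq_abs v]
  have hodd : ¬ (2 : ℤ) ∣ (p : ℤ) := fun hd => by
    have := (Nat.prime_dvd_prime_iff_eq Nat.prime_two hp).mp (by exact_mod_cast hd); omega
  have hthree : ¬ (3 : ℤ) ∣ (p : ℤ) := fun hd => by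
    have := (Nat.prime_dvd_prime_iff_eq Nat.prime_three hp).mp (by exact_mod_cast hd); omega
  have h2a : ¬ (2 : ℤ) ∣ u + v := fun ⟨w, hw⟩ => hodd ⟨2 * w ^ 2 - 2 * w * v + 12 * v ^ 2, by
    rw [h, show u = 2 * w - v by linarith]; ring⟩
  have h3a : ¬ (3 : ℤ) ∣ u + v := fun ⟨w, hw⟩ => hthree ⟨3 * w ^ 2 - 2 * w * v + 8 * v ^ 2, by
    rw [h, show u = 3 * w - v by linarith]; ring⟩
  have h3b : ¬ (3 : ℤ) ∣ u - v := fun ⟨w, hw⟩ => hthree ⟨3 * w ^ 2 + 2 * w * v + 8 * v ^ 2, by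
    rw [h, show u = 3 * w + v by linarith]; ring⟩
  obtain ⟨k₁, hk₁⟩ := exists_six_mul_sub_one (x := u - 23 * v) (by omega) (by omega)
  obtain ⟨l₁, hl₁⟩ := exists_six_mul_sub_one h2a h3a
  obtain ⟨k₂, hk₂⟩ := exists_six_mul_sub_one (x := u + 23 * v) (by omega) (by omega)
  obtain ⟨l₂, hl₂⟩ := exists_six_mul_sub_one (x := u - v) (by omega) h3b
  have hne : k₁ ≠ k₂ := by
    rintro rfl
    rcases hk₁ with h₁ | h₁ <;> rcases hk₂ with h₂ | h₂ <;> omega
  rw [coeff_eq_sum hp.pos {(k₁, l₁), (k₂, l₂)} fun k l => ?_,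
    Finset.sum_pair fun e => hne (congrArg Prod.fst e)]
  · rw [Int.negOnePow_even _ (Int.even_iff.mpr (by omega)),
      Int.negOnePow_even _ (Int.even_iff.mpr (by omega))]
    norm_num
  · simp only [Finset.mem_insert, Finset.mem_singleton, Prod.mk.injEq]
    constructor
    · intro hkl
      obtain ⟨e, r, s, he, hrs, -, hx, hy⟩ := exists_descent hp hkl (c := u) (t := v) (K := 1)
        (by linarith)
      have hr : r = 1 ∨ r = -1 := by
        have h1 : r < 2 := by nlinarith [sq_nonneg s]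
        have h2 : -2 < r := by nlinarith [sq_nonneg s]
        interval_cases r
        · right; rfl
        · exfalso
          have h3 : s < 5 := by nlinarith
          have h4 : -5 < s := by nlinarith
          interval_cases s <;> omega
        · left; rfl
      have hs : s = 1 ∨ s = -1 := sq_eq_one_iff.mp (by rcases hr with rfl | rfl <;> linarith)
      rcases he with rfl | rfl <;> rcases hr with rfl | rfl <;> rcases hs with rfl | rfl <;> omega
    · rintro (⟨rfl, rfl⟩ | ⟨rfl, rfl⟩)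
      · rcases hk₁ with e₁ | e₁ <;> rcases hl₁ with e₂ | e₂ <;> rw [e₁, e₂] <;>
          linear_combination (-24 : ℤ) * h
      · rcases hk₂ with e₁ | e₁ <;> rcases hl₂ with e₂ | e₂ <;> rw [e₁, e₂] <;>
          linear_combination (-24 : ℤ) * h

theorem mem_small_iff {p : ℕ} (k₀ : ℤ) (hk : (6 * k₀ - 1) ^ 2 + 23 = 24 * (p : ℤ)) (hp : p < 4)
    (k l : ℤ) : (6 * k - 1) ^ 2 + 23 * (6 * l - 1) ^ 2 = 24 * (p : ℤ) ↔ k = k₀ ∧ l = 0 := by
  constructor
  · intro h
    have h1 : l < 1 := by nlinarith [sq_nonneg (6 * k - 1)]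
    have h2 : -1 < l := by nlinarith [sq_nonneg (6 * k - 1)]
    obtain rfl : l = 0 := by omega
    refine ⟨?_, rfl⟩
    have h3 : (6 * k - 1) ^ 2 = (6 * k₀ - 1) ^ 2 := by linarith
    rcases sq_eq_sq_iff_eq_or_eq_neg.mp h3 with e | e <;> omega
  · rintro ⟨rfl, rfl⟩; linarith

/-- **The other form**: `-1`. -/
theorem coeff_of_nonprincipal {p : ℕ} (hp : p.Prime) {s t : ℤ}
    (h : (p : ℤ) = 2 * s ^ 2 + s * t + 3 * t ^ 2) : ((coeff p deltaInt : ℤ) : ZMod 23) = -1 := by
  rcases eq_or_ne p 2 with rfl | h2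
  · rw [coeff_eq_sum two_pos {(1, 0)} fun k l => by
      simpa using mem_small_iff (p := 2) 1 (by norm_num) (by norm_num) k l]
    simp
  rcases eq_or_ne p 3 with rfl | h3
  · rw [coeff_eq_sum three_pos {(-1, 0)} fun k l => by
      simpa using mem_small_iff (p := 3) (-1) (by norm_num) (by norm_num) k l]
    simp
  have hodd : ¬ (2 : ℤ) ∣ (p : ℤ) := fun hd =>
    h2 ((Nat.prime_dvd_prime_iff_eq Nat.prime_two hp).mp (by exact_mod_cast hd)).symm
  have hthree : ¬ (3 : ℤ) ∣ (p : ℤ) := fun hd =>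
    h3 ((Nat.prime_dvd_prime_iff_eq Nat.prime_three hp).mp (by exact_mod_cast hd)).symm
  have ht : ¬ (2 : ℤ) ∣ t := fun ⟨w, hw⟩ => hodd ⟨s ^ 2 + s * w + 6 * w ^ 2, by
    rw [h, hw]; ring⟩
  have hs : (2 : ℤ) ∣ s := by
    by_contra hs
    obtain ⟨a, rfl⟩ : Odd s := Int.not_even_iff_odd.mp fun he => hs he.two_dvd
    obtain ⟨b, rfl⟩ : Odd t := Int.not_even_iff_odd.mp fun he => ht he.two_dvd
    exact hodd ⟨4 * a ^ 2 + 6 * b ^ 2 + 2 * a * b + 5 * a + 7 * b + 3, by rw [h]; ring⟩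
  have h3a : ¬ (3 : ℤ) ∣ s - t := fun ⟨w, hw⟩ => hthree ⟨6 * w ^ 2 + 5 * w * t + 2 * t ^ 2, by
    rw [h, show s = 3 * w + t by linarith]; ring⟩
  obtain ⟨k₀, hk₀⟩ := exists_six_mul_sub_one (x := 5 * s + 7 * t) (by omega) (by omega)
  obtain ⟨l₀, hl₀⟩ := exists_six_mul_sub_one (x := s - t) (by omega) h3a
  rw [coeff_eq_sum hp.pos {(k₀, l₀)} fun k l => ?_, Finset.sum_singleton]
  · rw [Int.negOnePow_odd _ (Int.odd_iff.mpr (by omega))]
    norm_num
  · simp only [Finset.mem_singleton, Prod.mk.injEq]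
    constructor
    · intro hkl
      obtain ⟨e, r, w, he, hrw, hr, hx, hy⟩ := exists_descent hp hkl (c := 4 * s + t) (t := t)
        (K := 8) (by rw [h]; ring)
      have hev : ∃ r', r = 2 * r' := by
        refine (Int.prime_two.dvd_mul.mp (?_ : (2 : ℤ) ∣ (p : ℤ) * r)).resolve_left hodd
        rw [← hr]
        obtain ⟨b, hb⟩ : Odd t := Int.not_even_iff_odd.mp fun h => ht h.two_dvd
        rcases he with rfl | rfl
        · exact ⟨(3 * k - 3 * l) * t - (6 * l - 1) * 2 * s, by ring⟩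
        · exact ⟨-((3 * k + 3 * l - 1) * t) - (6 * l - 1) * 2 * s, by ring⟩
      obtain ⟨r', rfl⟩ := hev
      have hr' : r' = 1 ∨ r' = -1 := by
        have h1 : r' < 2 := by nlinarith [sq_nonneg w]
        have h2 : -2 < r' := by nlinarith [sq_nonneg w]
        interval_cases r'
        · right; rfl
        · exfalso
          have h3 : w < 14 := by nlinarith
          have h4 : -14 < w := by nlinarith
          interval_cases w <;> omega
        · left; rfl
      have hw : w = 10 ∨ w = -10 :=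
        sq_eq_sq_iff_eq_or_eq_neg.mp (by rcases hr' with rfl | rfl <;> linarith)
      rcases he with rfl | rfl <;> rcases hr' with rfl | rfl <;> rcases hw with rfl | rfl <;> omega
    · rintro ⟨rfl, rfl⟩
      rcases hk₀ with e₁ | e₁ <;> rcases hl₀ with e₂ | e₂ <;> rw [e₁, e₂] <;>
        linear_combination (-24 : ℤ) * h

/-- **Non-residues**: `0`. -/
theorem coeff_of_not_isSquare {p : ℕ} (hp : 0 < p) (h : ¬ IsSquare (p : ZMod 23)) :
    ((coeff p deltaInt : ℤ) : ZMod 23) = 0 := by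
  rw [coeff_eq_sum hp ∅ fun k l => ?_, Finset.sum_empty]
  simp only [Finset.notMem_empty, iff_false]
  intro hkl
  have e := congrArg (Int.cast : ℤ → ZMod 23) hkl
  push_cast at e
  rw [show (23 : ZMod 23) = 0 from rfl, show (24 : ZMod 23) = 1 from rfl, zero_mul, add_zero,
    one_mul] at e
  exact h ⟨6 * (k : ZMod 23) - 1, by rw [← e, sq]⟩

/-- Reduction of the forms of discriminant `-23`. -/
theorem exists_eq_reduced : ∀ a : ℕ, ∀ b c x y : ℤ, b ^ 2 - 4 * (a : ℤ) * c = -23 →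
    ∃ X Y : ℤ, (a : ℤ) * x ^ 2 + b * x * y + c * y ^ 2 = X ^ 2 + X * Y + 6 * Y ^ 2 ∨
      (a : ℤ) * x ^ 2 + b * x * y + c * y ^ 2 = 2 * X ^ 2 + X * Y + 3 * Y ^ 2 := by
  intro a
  induction a using Nat.strongRecOn with
  | ind a ih =>
    intro b c x y hd
    have ha : (0 : ℤ) < a := by
      rcases Nat.eq_zero_or_pos a with rfl | ha
      · simp only [Nat.cast_zero, mul_zero, zero_mul, sub_zero] at hd
        nlinarith [sq_nonneg b]
      · exact_mod_cast ha
    set k : ℤ := (b + a) / (2 * a) with hk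
    set b' : ℤ := b - 2 * a * k with hb'
    set c' : ℤ := a * k ^ 2 - b * k + c with hc'
    have hlo : -(a : ℤ) ≤ b' ∧ b' < a := by
      have h1 := Int.emod_nonneg (b + a) (show (2 * (a : ℤ)) ≠ 0 by omega)
      have h2 := Int.emod_lt_of_pos (b + a) (show (0 : ℤ) < 2 * a by omega)
      rw [Int.emod_def] at h1 h2
      constructor <;> simp only [hb', hk] <;> linarith
    have hd' : b' ^ 2 - 4 * (a : ℤ) * c' = -23 := by rw [← hd, hb', hc']; ring
    have hval : (a : ℤ) * x ^ 2 + b * x * y + c * y ^ 2 =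
        (a : ℤ) * (x + k * y) ^ 2 + b' * (x + k * y) * y + c' * y ^ 2 := by rw [hb', hc']; ring
    rw [hval]
    have hcpos : 0 < c' := by nlinarith
    rcases lt_or_ge c' (a : ℤ) with hca | hca
    · obtain ⟨c₀, hc₀⟩ := Int.eq_ofNat_of_zero_le hcpos.le
      obtain ⟨X, Y, h⟩ := ih c₀ (by omega) b' a y (x + k * y)
        (by rw [← hd', hc₀]; ring)
      refine ⟨X, Y, ?_⟩
      rw [hc₀]
      convert h using 2 <;> ring
    · have h3 : b' ^ 2 ≤ (a : ℤ) ^ 2 := by nlinarith [hlo.1, hlo.2]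
      have ha2 : (a : ℤ) ≤ 2 := by nlinarith
      obtain e | e : (a : ℤ) = 1 ∨ (a : ℤ) = 2 := by omega
      · rw [e] at hd' hlo ⊢
        have : b' = -1 := by
          rcases hlo with ⟨h1, h2⟩
          interval_cases b'
          · rfl
          · omega
        rw [this] at hd' ⊢
        exact ⟨x + k * y, -y, Or.inl (by rw [show c' = 6 by omega]; ring)⟩
      · rw [e] at hd' hlo ⊢
        obtain ⟨h1, h2⟩ := hlo
        interval_cases b'
        · omega
        · exact ⟨x + k * y, -y, Or.inr (by rw [show c' = 3 by omega]; ring)⟩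
        · omega
        · exact ⟨x + k * y, y, Or.inr (by rw [show c' = 3 by omega]; ring)⟩

/-- A prime which is a square modulo `23` is a value of one of the forms. -/
theorem exists_form_of_isSquare {p : ℕ} (hp : p.Prime) (h23 : p ≠ 23)
    (h : IsSquare (p : ZMod 23)) : (∃ u v : ℤ, (p : ℤ) = u ^ 2 + 23 * v ^ 2) ∨
      ∃ s t : ℤ, (p : ℤ) = 2 * s ^ 2 + s * t + 3 * t ^ 2 := by
  rcases eq_or_ne p 2 with rfl | h2
  · exact Or.inr ⟨1, 0, by norm_num⟩
  have : Fact p.Prime := ⟨hp⟩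
  have : Fact (Nat.Prime 23) := ⟨by norm_num⟩
  have hne : (p : ZMod 23) ≠ 0 := fun h0 =>
    h23 ((Nat.prime_dvd_prime_iff_eq (by norm_num) hp).mp
      ((ZMod.natCast_eq_zero_iff _ _).mp h0)).symm
  obtain ⟨z, hz⟩ : IsSquare (((-23 : ℤ)) : ZMod p) := by
    refine (legendreSym.eq_one_iff p ?_).mp ?_
    · rw [Ne, ZMod.intCast_zmod_eq_zero_iff_dvd, dvd_neg]
      exact fun hd => h23 ((Nat.prime_dvd_prime_iff_eq hp (by norm_num)).mp (by exact_mod_cast hd))
    · have hodd : p % 2 = 1 := hp.eq_two_or_odd.resolve_left h2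
      have hq : legendreSym 23 (p : ℤ) = 1 := (legendreSym.eq_one_iff' 23 hne).mpr h
      rw [show (-23 : ℤ) = -1 * 23 by norm_num, legendreSym.mul, legendreSym.at_neg_one h2,
        ZMod.χ₄_eq_neg_one_pow hodd]
      rw [legendreSym.quadratic_reciprocity' (p := p) (q := 23) h2 (by norm_num)] at hq
      have he : ((-1 : ℤ) ^ (p / 2)) ^ 11 = (-1) ^ (p / 2) := by
        rcases neg_one_pow_eq_or ℤ (p / 2) with e | e <;> rw [e] <;> norm_num
      rw [pow_mul, show 23 / 2 = 11 from rfl, he] at hq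
      exact_mod_cast hq
  obtain ⟨r, hr, hpr⟩ : ∃ r : ℤ, ¬ (2 : ℤ) ∣ r ∧ (p : ℤ) ∣ r ^ 2 + 23 := by
    have hz' : (p : ℤ) ∣ (z.val : ℤ) ^ 2 + 23 := by
      rw [← ZMod.intCast_zmod_eq_zero_iff_dvd]
      push_cast at hz ⊢
      rw [ZMod.natCast_val, ZMod.cast_id, sq, ← hz]
      ring
    by_cases he : (2 : ℤ) ∣ (z.val : ℤ)
    · have hodd : p % 2 = 1 := hp.eq_two_or_odd.resolve_left h2
      refine ⟨(z.val : ℤ) + p, by omega, ?_⟩
      rw [show ((z.val : ℤ) + p) ^ 2 + 23 = ((z.val : ℤ) ^ 2 + 23) + p * (2 * z.val + p) by ring]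
      exact dvd_add hz' (Dvd.intro _ rfl)
    · exact ⟨_, he, hz'⟩
  have h4 : (4 : ℤ) ∣ r ^ 2 + 23 := by
    obtain ⟨a, rfl⟩ : Odd r := Int.not_even_iff_odd.mp fun he => hr he.two_dvd
    exact ⟨a ^ 2 + a + 6, by ring⟩
  have hcop : IsCoprime (4 : ℤ) (p : ℤ) := by
    rw [Int.isCoprime_iff_nat_coprime]
    exact ((Nat.coprime_primes Nat.prime_two hp).mpr (Ne.symm h2)).pow_left 2
  obtain ⟨c, hc⟩ := hcop.mul_dvd h4 hpr
  obtain ⟨X, Y, hXY | hXY⟩ := exists_eq_reduced p r c 1 0 (by linear_combination hc)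
  · left
    obtain ⟨w, hw⟩ : (2 : ℤ) ∣ Y := by
      by_contra hY
      obtain ⟨b, rfl⟩ : Odd Y := Int.not_even_iff_odd.mp fun he => hY he.two_dvd
      have hev : (2 : ℤ) ∣ (p : ℤ) := by
        rw [show (p : ℤ) = X * (X + 1) + 2 * (X * b + 3 * (2 * b + 1) ^ 2) by
          linear_combination hXY]
        exact dvd_add (Int.even_mul_succ_self X).two_dvd (Dvd.intro _ rfl)
      exact h2 ((Nat.prime_dvd_prime_iff_eq Nat.prime_two hp).mp (by exact_mod_cast hev)).symm
    subst hw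
    exact ⟨X + w, w, by linear_combination hXY⟩
  · exact Or.inr ⟨X, Y, by linear_combination hXY⟩

end FA.Tau

end
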