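import Fermat.Agent.Partition.Theta
import Fermat.Agent.Partition.Parity
import Fermat.Agent.ModField.Elliptic

/-!
# An elementary bound for the tail of the series of `j`

The coefficients of `q j(q)` are non-negative and `j(i) = 1728`, so the tail from `q³` on at
`|q| = t ≤ t₀ = e^(-2π)` is at most `(t / t₀)⁴` times its value at `t₀`.
-/

set_option autoImplicit false

noncomputable section

open UpperHalfPlane hiding I
open PowerSeries (coeff)
open FA.ModField ModularCurve
open scoped Real ArithmeticFunction.sigma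

namespace FA.JBound

/-- The coefficients of `q j(q)`. -/
def a (k : ℕ) : ℤ := coeff k jNum

theorem etaInv_eq : dedekindEtaUnitInv = FA.Partition.partitionSeries ^ 24 := by
  have h : dedekindEtaUnit * FA.Partition.partitionSeries ^ 24 = 1 := by
    rw [dedekindEtaUnit, ← mul_pow, mul_comm, FA.Partition.partitionSeries_mul_etaProd, one_pow]
  calc dedekindEtaUnitInv
      = dedekindEtaUnit * FA.Partition.partitionSeries ^ 24 * dedekindEtaUnitInv := by
        rw [h, one_mul]
    _ = FA.Partition.partitionSeries ^ 24 := by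
        rw [mul_comm dedekindEtaUnit, mul_assoc, dedekindEtaUnit_mul_inv, mul_one]

/-- A series with non-negative coefficients. -/
def NonNeg (f : PowerSeries ℤ) : Prop := ∀ k, 0 ≤ coeff k f

theorem NonNeg.mul {f g : PowerSeries ℤ} (hf : NonNeg f) (hg : NonNeg g) : NonNeg (f * g) :=
  fun k => by
    rw [PowerSeries.coeff_mul]
    exact Finset.sum_nonneg fun p _ => mul_nonneg (hf _) (hg _)

theorem NonNeg.pow {f : PowerSeries ℤ} (hf : NonNeg f) (n : ℕ) : NonNeg (f ^ n) := by
  induction n with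
  | zero => intro k; rw [pow_zero, PowerSeries.coeff_one]; split_ifs <;> norm_num
  | succ n ih => rw [pow_succ]; exact ih.mul hf

theorem nonNeg_eisenstein4 : NonNeg eisenstein4 := fun k => by
  rw [eisenstein4, PowerSeries.coeff_mk]
  split_ifs
  · norm_num
  · positivity

theorem nonNeg_partitionSeries : NonNeg FA.Partition.partitionSeries := fun k => by
  rw [FA.Partition.partitionSeries, PowerSeries.coeff_mk]
  positivity

theorem a_nonneg (k : ℕ) : 0 ≤ a k := by
  rw [a, jNum, etaInv_eq]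
  exact ((nonNeg_eisenstein4.pow 3).mul (nonNeg_partitionSeries.pow 24)) k

/-- The coefficients up to `q³` are `1, x, y, z`. -/
def Low (f : PowerSeries ℤ) (x y z : ℤ) : Prop :=
  coeff 0 f = 1 ∧ coeff 1 f = x ∧ coeff 2 f = y ∧ coeff 3 f = z

theorem Low.mul {f g : PowerSeries ℤ} {x y z x' y' z' : ℤ} (hf : Low f x y z)
    (hg : Low g x' y' z') :
    Low (f * g) (x + x') (y + x * x' + y') (z + y * x' + x * y' + z') := by
  obtain ⟨f0, f1, f2, f3⟩ := hf
  obtain ⟨g0, g1, g2, g3⟩ := hg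
  simp only [Low, PowerSeries.coeff_mul, Finset.Nat.sum_antidiagonal_eq_sum_range_succ
    (fun i j => coeff i f * coeff j g), Finset.sum_range_succ, Finset.sum_range_zero,
    Nat.sub_self, Nat.reduceSub, f0, f1, f2, f3, g0, g1, g2, g3]
  refine ⟨?_, ?_, ?_, ?_⟩ <;> ring

theorem low_eisenstein4 : Low eisenstein4 240 2160 6720 := by
  simp only [Low, eisenstein4, PowerSeries.coeff_mk]
  norm_num [Nat.divisors, Finset.sum_filter, Finset.sum_Ico_succ_top]

theorem low_partitionSeries : Low FA.Partition.partitionSeries 1 2 3 := by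
  simp only [Low, FA.Partition.partitionSeries, PowerSeries.coeff_mk]
  have h0 : (Fintype.card (Nat.Partition 0) : ℤ) = 1 := by simp
  have h1 := FA.Partition.natCast_mul_card_partition 1
  have h2 := FA.Partition.natCast_mul_card_partition 2
  have h3 := FA.Partition.natCast_mul_card_partition 3
  have s1 : (σ 1 1 : ℕ) = 1 := by decide
  have s2 : (σ 1 2 : ℕ) = 3 := by decide
  have s3 : (σ 1 3 : ℕ) = 4 := by decide
  simp only [Finset.sum_range_succ, Finset.sum_range_zero, Nat.sub_self, Nat.reduceSub,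
    ArithmeticFunction.map_zero, Nat.cast_zero, zero_mul, zero_add, s1, s2, s3, h0] at h1 h2 h3
  push_cast at h1 h2 h3
  refine ⟨h0, ?_, ?_, ?_⟩ <;> omega

theorem low_jNum : Low jNum 744 196884 21493760 := by
  have e3 := (low_eisenstein4.mul low_eisenstein4).mul low_eisenstein4
  have p2 := low_partitionSeries.mul low_partitionSeries
  have p4 := p2.mul p2
  have p8 := p4.mul p4
  have p24 := (p8.mul p8).mul p8
  have h := e3.mul p24
  rw [jNum, etaInv_eq]
  rw [show eisenstein4 ^ 3 = eisenstein4 * eisenstein4 * eisenstein4 by ring]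
  generalize FA.Partition.partitionSeries = P at h ⊢
  rw [show P ^ 24 = P * P * (P * P) * (P * P * (P * P)) * (P * P * (P * P) * (P * P * (P * P))) *
    (P * P * (P * P) * (P * P * (P * P))) by ring]
  norm_num at h
  exact h

theorem hasSum_qj (z : ℍ) : HasSum (fun k : ℕ => (a k : ℂ) * qp 1 z ^ k) (qp 1 z * jfun z) := by
  have h := (hasExp_single (T := qp 1) 1 (1 : ℂ)).mul (qp_ne_zero 1) hasExp_jfun
  rw [jqModC, ← mul_assoc, HahnSeries.single_mul_single, add_neg_cancel, one_mul,
    HahnSeries.single_zero_one, one_mul,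
    hasExp_iff_nat fun i hi => ofPowerSeries_coeff_of_neg _ hi] at h
  have h' := h z
  simp only [ofPowerSeries_coeff_natCast, PowerSeries.coeff_map, eq_intCast, Pi.mul_apply] at h'
  simp only [a]
  simpa using h'

theorem qp_one_I : qp 1 UpperHalfPlane.I = ((Real.exp (-(2 * π)) : ℝ) : ℂ) := by
  rw [qp_eq, UpperHalfPlane.coe_I, Complex.ofReal_exp]
  congr 1
  push_cast
  linear_combination (2 * (π : ℂ)) * Complex.I_sq

/-- The terms up to `q³` of `q j(q)`. -/
def head (q : ℂ) : ℂ := 1 + 744 * q + 196884 * q ^ 2 + 21493760 * q ^ 3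

theorem hasSum_tail (z : ℍ) :
    HasSum (fun k : ℕ => (a (k + 4) : ℂ) * qp 1 z ^ (k + 4)) (qp 1 z * jfun z - head (qp 1 z)) := by
  obtain ⟨h0, h1, h2, h3⟩ := low_jNum
  have h := (hasSum_nat_add_iff' 4).mpr (hasSum_qj z)
  have e : head (qp 1 z) = ∑ k ∈ Finset.range 4, (a k : ℂ) * qp 1 z ^ k := by
    simp only [head, a, Finset.sum_range_succ, Finset.sum_range_zero, h0, h1, h2, h3]
    push_cast
    ring
  rw [e]
  exact h

theorem jfun_I : jfun UpperHalfPlane.I = 1728 := by
  have h := jfun_sub_1728 UpperHalfPlane.I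
  rw [E6_I, zero_pow two_ne_zero, zero_div, sub_eq_zero] at h
  exact h

/-- **The tail of `j`**: the bound from the value `1728` at `i`. -/
theorem norm_tail_le {z : ℍ} {t : ℝ} (ht : ‖qp 1 z‖ = t) (ht0 : 0 < t)
    (hle : t ≤ Real.exp (-(2 * π))) {E₀ : ℝ} (hE : E₀ = Real.exp (2 * π)) :
    ‖jfun z - ((qp 1 z)⁻¹ + 744 + 196884 * qp 1 z + 21493760 * qp 1 z ^ 2)‖ ≤
      t ^ 3 * (984 * E₀ ^ 3 - E₀ ^ 4 - 196884 * E₀ ^ 2 - 21493760 * E₀) := by
  set t₀ := Real.exp (-(2 * π)) with ht₀
  have ht₀pos : 0 < t₀ := Real.exp_pos _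
  set R := t₀ * 1728 - (1 + 744 * t₀ + 196884 * t₀ ^ 2 + 21493760 * t₀ ^ 3) with hR
  have hsR : HasSum (fun k : ℕ => (a (k + 4) : ℝ) * t₀ ^ (k + 4)) R := by
    have h := Complex.hasSum_re (hasSum_tail UpperHalfPlane.I)
    rw [jfun_I, qp_one_I, ← ht₀] at h
    have e : (t₀ : ℂ) * 1728 - head (t₀ : ℂ) = (R : ℂ) := by
      simp only [head, hR]; push_cast; ring
    rw [e, Complex.ofReal_re] at h
    refine h.congr_fun fun k => ?_
    rw [← Complex.ofReal_intCast, ← Complex.ofReal_pow, ← Complex.ofReal_mul, Complex.ofReal_re]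
  have hb : ‖qp 1 z * jfun z - head (qp 1 z)‖ ≤ (t / t₀) ^ 4 * R := by
    refine (hasSum_tail z).norm_le_of_bounded (hsR.mul_left _) fun k => ?_
    have ha : (0 : ℝ) ≤ a (k + 4) := by exact_mod_cast a_nonneg (k + 4)
    rw [norm_mul, norm_pow, ht, Complex.norm_intCast, abs_of_nonneg ha, pow_add t, pow_add t₀,
      div_pow]
    have : t ^ k ≤ t₀ ^ k := pow_le_pow_left₀ ht0.le hle k
    calc (a (k + 4) : ℝ) * (t ^ k * t ^ 4) ≤ a (k + 4) * (t₀ ^ k * t ^ 4) := by gcongr
      _ = t ^ 4 / t₀ ^ 4 * (a (k + 4) * (t₀ ^ k * t₀ ^ 4)) := by field_simp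
  have hq : qp 1 z ≠ 0 := qp_ne_zero 1 z
  have e : qp 1 z * jfun z - head (qp 1 z) = qp 1 z *
      (jfun z - ((qp 1 z)⁻¹ + 744 + 196884 * qp 1 z + 21493760 * qp 1 z ^ 2)) := by
    simp only [head]; field_simp
  rw [e, norm_mul, ht, mul_comm t, ← le_div_iff₀ ht0] at hb
  refine hb.trans_eq ?_
  have hE0 : t₀ = E₀⁻¹ := by rw [hE, ht₀, Real.exp_neg]
  have hEne : E₀ ≠ 0 := by rw [hE]; positivity
  rw [hR, hE0]
  field_simp
  ring

end FA.JBound

end
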