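import Fermat.Agent.Mazur.EisIdem
import Fermat.Agent.Mazur.EigenBound
import Fermat.Agent.JTorsion.Eigen

/-!
# Eigenforms congruent to the Eisenstein series at prime level

A maximal ideal of the Hecke algebra containing the Eisenstein ideal lies under the character of an
eigenform; conversely such an eigenform gives the Eisenstein ideal a prime divisor of its index.
-/

set_option autoImplicit false
set_option linter.style.haveILetI false
set_option synthInstance.maxHeartbeats 400000
set_option maxHeartbeats 1000000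

noncomputable section

open CongruenceSubgroup CuspForm FA.Deform FA.Eis ModularCurve FA.Mazur
open scoped Classical

namespace FA.EisensteinPrime

local notation "ZB" => integralClosure ℤ ℂ

variable {p : ℕ} [Fact p.Prime]

/-- A prime as an element of `Nat.Primes`. -/
def prim (r : ℕ) (hr : r.Prime) : Nat.Primes := ⟨r, hr⟩

/-- The eigenvalue prescribed at a prime. -/
def eisValue (p q : ℕ) : ℤ := if q = p then 1 else 1 + q

/-- The quotient by the Eisenstein ideal is cyclic of order the numerator. -/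
theorem quotient_equiv : Nonempty
    ((↥(heckeLatticeAlgebra p ∅) ⧸ Ideal.map (latEval p) (eisensteinIdeal p)) ≃+*
      ZMod (eisensteinNumerator p)) := by
  set I := Ideal.map (latEval p) (eisensteinIdeal p)
  set Q := ↥(heckeLatticeAlgebra p ∅) ⧸ I
  set e := ZMod.castHom (dvd_refl (ringChar Q)) Q
  have hbij : Function.Bijective e := by
    refine ⟨ZMod.castHom_injective Q, fun y => ?_⟩
    obtain ⟨t, rfl⟩ := Ideal.Quotient.mk_surjective y
    obtain ⟨x, rfl⟩ := latEval_surjective t
    refine ⟨(MvPolynomial.aeval (eisensteinSystem p) x : ℤ), ?_⟩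
    rw [map_intCast, ← map_intCast (Ideal.Quotient.mk I), Ideal.Quotient.eq]
    have hmem : MvPolynomial.C (MvPolynomial.aeval (eisensteinSystem p) x) - x ∈
        eisensteinIdeal p := by
      rw [eisensteinIdeal, mem_eigenIdeal_iff, map_sub, MvPolynomial.aeval_C]
      simp
    have h := Ideal.mem_map_of_mem (latEval p) hmem
    rwa [map_sub, latEval_C] at h
  have h := natCard_eisensteinQuotient (p := p)
  rw [← Nat.card_eq_of_bijective e hbij, Nat.card_zmod] at h
  exact ⟨h ▸ (RingEquiv.ofBijective e hbij).symm⟩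

/-- The eigencharacter of a normalised eigenform, at all primes. -/
theorem exists_character {g : CuspForm (Gamma0 p) 2} (hg : g.IsNormalizedEigenform) :
    ∃ χ : TAlg p →+* ZB, ∀ r : Nat.Primes,
      (χ (tGen p r) : ℂ) = ModularFormClass.qCoeff g r := by
  choose c hc using FA.JTorsion.exists_eigenvalue (∅ : Set ℕ) hg
  have hne : g ≠ 0 := hg.ne_zero
  have hu : ∀ {a b : ℂ}, a • g = b • g → a = b := fun h => smul_left_injective ℂ hne h
  let χ : TAlg p →+* ℂ :=
    { toFun := c
      map_one' := hu (by rw [← hc 1, one_smul]; rfl)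
      map_mul' := fun s t => hu (by
        rw [← hc, MulMemClass.coe_mul, Module.End.mul_apply, hc t, map_smul, hc s, smul_smul,
          mul_comm])
      map_zero' := hu (by rw [← hc 0, zero_smul]; rfl)
      map_add' := fun s t => hu (by
        rw [← hc, Subalgebra.coe_add, LinearMap.add_apply, hc s, hc t, add_smul]) }
  haveI : Module.Finite ℤ (TAlg p) := FA.Period.moduleFinite_heckeAlgebra p 2 ∅
  have hint : ∀ t, χ t ∈ integralClosure ℤ ℂ := fun t =>
    (Algebra.IsIntegral.isIntegral (R := ℤ) t).map χ.toIntAlgHom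
  refine ⟨χ.codRestrict (integralClosure ℤ ℂ) hint, fun r => hu ?_⟩
  show c _ • g = _
  rw [← hc, ← qLin_apply]
  by_cases hr : (r : ℕ) ∣ p
  · rw [tGen, heckeEvalForms_heckeGen_of_dvd hr]
    exact FA.JTorsion.heckeU_eigen hg r.2 hr
  · rw [tGen, heckeEvalForms_heckeGen_of_not_dvd hr]
    exact FA.JTorsion.heckeT_eigen hg r.2 hr

/-- The coefficient form of a complex character is a normalised eigenform. -/
theorem exists_eigenform (χ : TAlg p →+* ℂ) :
    ∃ g : CuspForm (Gamma0 p) 2, g.IsNormalizedEigenform ∧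
      ∀ r : Nat.Primes, ModularFormClass.qCoeff g r = χ (tGen p r) := by
  have hp : p.Prime := Fact.out
  obtain ⟨g, hg⟩ := exists_form_of_character_complex p χ
  let c : ℕ → ℂ := fun n => ModularFormClass.qCoeff g n
  have hc : ∀ n, c n = χ (hCoeff p n) := fun n => by rw [← hg n, qLin_apply]
  let lam : ℕ → ℂ := fun r => if hr : r.Prime then χ (tGen p (prim r hr)) else 0
  have key : ∀ (r : Nat.Primes) n,
      c (n * r) + (if (r : ℕ) ∣ n then cor p r * c (n / r) else 0) = χ (tGen p r) * c n := by
    intro r n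
    simp only [hc]
    rw [← map_mul, tGen_mul_hCoeff, map_add]
    congr 1
    by_cases h : (r : ℕ) = p
    · rw [if_pos h, map_zero, show cor p r = 0 from if_pos (by rw [h]), zero_mul, ite_self]
    · rw [if_neg h, show cor p r = ((r : ℕ) : ℂ) from
        if_neg fun hd => h ((Nat.prime_dvd_prime_iff_eq r.2 hp).1 hd)]
      by_cases h1 : (r : ℕ) ∣ n
      · rw [if_pos h1, if_pos h1, map_mul, map_natCast]
      · rw [if_neg h1, if_neg h1, map_zero]
  have hrec : ∀ r : ℕ, r.Prime → ∀ n,
      c (n * r) + (if r ∣ n then cor p r * c (n / r) else 0) = lam r * c n := fun r hr n => by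
    rw [show lam r = χ (tGen p (prim r hr)) from dif_pos hr]
    exact key (prim r hr) n
  have h1 : c 1 = 1 := by rw [hc, hCoeff_one, map_one]
  have h0 : c 0 = 0 := by rw [hc, hCoeff_zero, map_zero]
  have hcp : ∀ r : ℕ, r.Prime → c r = lam r := by
    intro r hr
    have e := hrec r hr 1
    rwa [one_mul, if_neg (fun h => hr.ne_one (Nat.dvd_one.mp h)), add_zero, h1, mul_one] at e
  have hpow : ∀ r s : ℕ, r.Prime →
      c (r ^ (s + 2)) = c r * c (r ^ (s + 1)) - cor p r * c (r ^ s) := by
    intro r s hr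
    have e := hrec r hr (r ^ (s + 1))
    rw [if_pos (dvd_pow_self r (Nat.succ_ne_zero s)), pow_succ r s,
      Nat.mul_div_cancel _ hr.pos] at e
    rw [hcp r hr, show r ^ (s + 2) = r ^ s * r * r by ring, pow_succ r s]
    linear_combination e
  refine ⟨g, ⟨h1, mul_of_coprime_of_rec h0 h1 hrec, fun r s hr hrp => ?_, fun r s hr hrp => ?_⟩,
    fun r => ?_⟩
  · simpa [c, cor, hrp] using hpow r s hr
  · simpa [c, cor, hrp] using hpow r s hr
  · exact (hc r).trans (by rw [hCoeff_prime])

/-- **Existence**: for a prime dividing the numerator. -/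
theorem exists_congruent_eigenform {l : ℕ} [Fact l.Prime] (hn : l ∣ eisensteinNumerator p) :
    ∃ g : CuspForm (Gamma0 p) 2, g.IsNormalizedEigenform ∧ ∃ m : Ideal ZB, m.IsMaximal ∧
      (l : ZB) ∈ m ∧ ∀ q : ℕ, q.Prime → ∃ c : ZB, (c : ℂ) = ModularFormClass.qCoeff g q ∧
        c - (eisValue p q : ZB) ∈ m := by
  haveI := FA.Deform.finite_of_hasIntegralBasis (N := p) (by
    refine top_unique ((FA.Period.hasIntegralStructure p 2).ge.trans (Submodule.span_le.2 ?_))
    intro g hg
    refine Submodule.span_le_restrictScalars ℤ ℂ (qIntegralSet p) ?_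
    refine Submodule.span_mono (fun h hh => ?_) hg
    intro n
    obtain ⟨z, hz⟩ := hh n
    exact Subring.mem_bot.2 ⟨z, hz.symm⟩)
  set m₀ := RingHom.ker (psi0 p l hn) with hm₀
  haveI : m₀.IsMaximal := RingHom.ker_isMaximal_of_surjective _ (psi0_surjective p l hn)
  let act : TAlg p →+* Module.End ℂ (CuspForm (Gamma0 p) 2) := (heckeAlgebra p 2 ∅).val.toRingHom
  obtain ⟨v, χ, -, -, hker⟩ := exists_eigenvector_of_prime act m₀
    fun t ht => by rw [show t = 0 from Subtype.ext ht]; exact m₀.zero_mem
  obtain ⟨g, hg, hgT⟩ := exists_eigenform χ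
  haveI : Module.Finite ℤ (TAlg p) := FA.Period.moduleFinite_heckeAlgebra p 2 ∅
  let χ' : TAlg p →+* ZB := χ.codRestrict (integralClosure ℤ ℂ).toSubring fun t =>
    (Algebra.IsIntegral.isIntegral (R := ℤ) t).map χ.toIntAlgHom
  let : Algebra (TAlg p) ZB := χ'.toAlgebra
  have hZT : IsScalarTower ℤ (TAlg p) ZB :=
    IsScalarTower.of_algebraMap_eq' (RingHom.ext_int _ _)
  have : Algebra.IsIntegral (TAlg p) ZB :=
    ⟨fun x => (Algebra.IsIntegral.isIntegral (R := ℤ) x).tower_top⟩
  obtain ⟨m, hm, hover⟩ :=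
    Ideal.exists_ideal_over_maximal_of_isIntegral (S := ZB) m₀ (by
      intro t ht
      exact hker (congrArg Subtype.val (RingHom.mem_ker.mp ht)))
  have hmem : ∀ t : TAlg p, χ' t ∈ m ↔ t ∈ m₀ := fun t => by rw [← hover]; rfl
  refine ⟨g, hg, m, hm, ?_, fun q hq => ?_⟩
  · rw [← map_natCast χ', hmem]
    exact natCast_mem_ker p l hn
  · refine ⟨χ' (tGen p (prim q hq)), (hgT (prim q hq)).symm, ?_⟩
    rw [← map_intCast χ', ← map_sub, hmem, hm₀, RingHom.mem_ker, map_sub, map_intCast, psi0_tGen]
    rcases eq_or_ne q p with h | h <;> simp [eisValue, prim, h]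

/-- **Converse**: a congruence modulo a prime over `l` makes `l` divide the numerator. -/
theorem dvd_of_congruent_eigenform {l : ℕ} [Fact l.Prime] {g : CuspForm (Gamma0 p) 2}
    (hg : g.IsNormalizedEigenform) {m : Ideal ZB} (hm : m.IsMaximal) (hl : (l : ZB) ∈ m)
    (h : ∀ q : ℕ, q.Prime → ∃ c : ZB, (c : ℂ) = ModularFormClass.qCoeff g q ∧
      c - (eisValue p q : ZB) ∈ m) : l ∣ eisensteinNumerator p := by
  obtain ⟨χ, hχ⟩ := exists_character hg
  set π := Ideal.Quotient.mk m
  have heval : ∀ x : HeckeAlg, π (χ (heckeEvalForms p 2 x)) =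
      ((MvPolynomial.aeval (eisensteinSystem p) x : ℤ) : ZB ⧸ m) := by
    intro x
    induction x using MvPolynomial.induction_on with
    | C r => simp
    | add x y hx hy => simp only [map_add, hx, hy]; push_cast; rfl
    | mul_X x r hx =>
      obtain ⟨c, hc, hcm⟩ := h r r.2
      have e : χ (tGen p r) = c := Subtype.ext ((hχ r).trans hc.symm)
      simp only [map_mul, hx, MvPolynomial.aeval_X]
      rw [show heckeEvalForms p 2 (MvPolynomial.X r) = tGen p r from rfl, e, ← sub_add_cancel c
        ((eisValue p r : ℤ) : ZB), map_add, Ideal.Quotient.eq_zero_iff_mem.2 hcm, zero_add,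
        map_intCast, eisensteinSystem_eq]
      push_cast [eisValue]
      rfl
  obtain ⟨e⟩ := quotient_equiv (p := p)
  have hn : (eisensteinNumerator p : ↥(heckeLatticeAlgebra p ∅)) ∈
      Ideal.map (latEval p) (eisensteinIdeal p) := by
    rw [← Ideal.Quotient.eq_zero_iff_mem]
    apply e.injective
    simp
  obtain ⟨x, hx, hxn⟩ := (Ideal.mem_map_iff_of_surjective _ latEval_surjective).mp hn
  have hxT : heckeEvalForms p 2 x = (eisensteinNumerator p : TAlg p) :=
    (latticeRestrictHom_bijective p ∅ (FA.Period.hasIntegralStructure p 2)).1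
      (hxn.trans (map_natCast _ _).symm)
  have h0 := heval x
  rw [hxT, map_natCast, map_natCast, (mem_eigenIdeal_iff _ x).mp hx, Int.cast_zero] at h0
  by_contra hndvd
  obtain ⟨a, b, hab⟩ := ((Nat.Prime.coprime_iff_not_dvd (Fact.out : l.Prime)).2 hndvd).isCoprime
  refine hm.ne_top ((Ideal.eq_top_iff_one m).2 ?_)
  rw [← Ideal.Quotient.eq_zero_iff_mem]
  have e1 := congrArg (fun z : ℤ => (z : ZB ⧸ m)) hab
  push_cast at e1
  rw [show ((l : ℕ) : ZB ⧸ m) = 0 by
    rw [← map_natCast π]; exact Ideal.Quotient.eq_zero_iff_mem.2 hl, h0] at e1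
  simpa using e1.symm

end FA.EisensteinPrime

end
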