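import Fermat.Agent.Mazur.HeckeCoeff

/-!
# Perfect duality between integral cusp forms and the Hecke algebra

A functional comes, after scaling by `D`, from a form; its coefficients are then multiples of `D`,
so the form divided by `D` is integral. Hence `(t, f) ↦ a₁(t f)` is perfect.
-/

set_option autoImplicit false
set_option linter.style.haveILetI false
set_option synthInstance.maxHeartbeats 400000
set_option maxHeartbeats 1000000

noncomputable section

open CongruenceSubgroup CuspForm FA.Deform FA.Eis FA.Mazur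
open scoped Classical

namespace FA.PrimeLevelDuality

variable (p : ℕ) [Fact p.Prime]

/-- Two integral forms with the same values of the pairing are equal. -/
theorem form_ext {f g : ↥(intLattice p 2)}
    (h : ∀ n, zCoeff n f = zCoeff n g) : f = g :=
  zCoeff_ext h

theorem pairT_flip_bijective : Function.Bijective (pairT p).flip := by
  refine ⟨fun f g h => form_ext p fun n => ?_, fun ψ => ?_⟩
  · rw [← pairT_hCoeff, ← pairT_hCoeff]
    exact LinearMap.congr_fun h _
  · obtain ⟨D, hD, hF⟩ := exists_form_of_functional p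
    obtain ⟨g, hg⟩ := hF ψ
    have hD' : (D : ℂ) ≠ 0 := Int.cast_ne_zero.mpr hD
    set f : ↥(intLattice p 2) := ⟨(D : ℂ)⁻¹ • (g : CuspForm (Gamma0 p) 2),
      Submodule.subset_span fun n => ⟨ψ (hCoeff p n), by
        rw [← qLin_apply, map_smul, Pi.smul_apply, ← cast_zCoeff, ← pairT_hCoeff, hg, smul_eq_mul,
          Int.cast_mul, inv_mul_cancel_left₀ hD']⟩⟩
    have hfg : D • f = g := Subtype.ext (by
      rw [Submodule.coe_smul, ← Int.cast_smul_eq_zsmul ℂ, smul_smul, mul_inv_cancel₀ hD', one_smul])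
    refine ⟨f, LinearMap.ext fun t => mul_left_cancel₀ hD ?_⟩
    rw [LinearMap.flip_apply, ← hg t, ← hfg, map_smul, smul_eq_mul]

/-- The lattice of forms is the dual of the Hecke algebra. -/
def formEquiv : ↥(intLattice p 2) ≃ₗ[ℤ] (TAlg p →ₗ[ℤ] ℤ) :=
  LinearEquiv.ofBijective (pairT p).flip (pairT_flip_bijective p)

theorem formEquiv_apply (f : ↥(intLattice p 2)) (t : TAlg p) :
    formEquiv p f t = pairT p t f := rfl

theorem pairT_bijective : Function.Bijective (pairT p) := by
  haveI : Module.Finite ℤ (TAlg p) := FA.Period.moduleFinite_heckeAlgebra p 2 ∅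
  haveI : Module.Free ℤ (TAlg p) := Module.free_of_finite_type_torsion_free'
  refine ⟨pairT_injective p, fun φ => ?_⟩
  obtain ⟨t, ht⟩ :=
    (Module.evalEquiv ℤ (TAlg p)).surjective (φ ∘ₗ (formEquiv p).symm.toLinearMap)
  refine ⟨t, LinearMap.ext fun f => ?_⟩
  have e := LinearMap.congr_fun ht (formEquiv p f)
  rw [Module.evalEquiv_apply, Module.Dual.eval_apply, LinearMap.comp_apply, LinearEquiv.coe_coe,
    LinearEquiv.symm_apply_apply, formEquiv_apply] at e
  exact e

variable {M : ℕ}

/-- A functional to `ℤ / M` lifts to an integral form. -/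
theorem exists_form_mod (ψ : TAlg p →+ ZMod M) :
    ∃ f : ↥(intLattice p 2), ∀ t, ((pairT p t f : ℤ) : ZMod M) = ψ t := by
  haveI : Module.Finite ℤ (TAlg p) := FA.Period.moduleFinite_heckeAlgebra p 2 ∅
  haveI : Module.Free ℤ (TAlg p) := Module.free_of_finite_type_torsion_free'
  set b := Module.Free.chooseBasis ℤ (TAlg p)
  set φ : TAlg p →ₗ[ℤ] ℤ := b.constr ℤ fun i => ((ψ (b i)).cast : ℤ)
  refine ⟨(formEquiv p).symm φ, fun t => ?_⟩
  rw [← formEquiv_apply, LinearEquiv.apply_symm_apply]
  have e : (Int.castAddHom (ZMod M)).toIntLinearMap ∘ₗ φ = ψ.toIntLinearMap :=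
    b.ext fun i => by simp [φ]
  exact LinearMap.congr_fun e t

/-- The functional of the reduction of an integral form. -/
def redHom (f : ↥(intLattice p 2)) : TAlg p →+ ZMod M :=
  (Int.castAddHom (ZMod M)).comp ((formEquiv p f).toAddMonoidHom)

theorem redHom_hCoeff (f : ↥(intLattice p 2)) (n : ℕ) :
    redHom p f (hCoeff p n) = ((zCoeff n f : ℤ) : ZMod M) :=
  congrArg (Int.cast : ℤ → ZMod M) (pairT_hCoeff p n f)

/-- An additive map multiplicative on the generators is multiplicative. -/
theorem map_mul_of_gen {R : Type*} [CommRing R] (ψ : TAlg p →+ R) (h1 : ψ 1 = 1)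
    (h : ∀ r : Nat.Primes, ∀ n,
      ψ (tGen p r * hCoeff p n) = ψ (tGen p r) * ψ (hCoeff p n)) :
    ∀ s t, ψ (s * t) = ψ s * ψ t := by
  have span_ind : ∀ {P : TAlg p → Prop}, (∀ n, P (hCoeff p n)) → P 0 →
      (∀ x y, P x → P y → P (x + y)) → (∀ (c : ℤ) x, P x → P (c • x)) → ∀ x, P x :=
    fun {P} hb h0 ha hs x => by
      have hx : x ∈ Submodule.span ℤ (Set.range (hCoeff p)) := (span_hCoeff p).symm ▸ trivial
      induction hx using Submodule.span_induction with
      | mem x hx => obtain ⟨n, rfl⟩ := hx; exact hb n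
      | zero => exact h0
      | add x y _ _ hx hy => exact ha x y hx hy
      | smul c x _ hx => exact hs c x hx
  have hgen : ∀ r x, ψ (tGen p r * x) = ψ (tGen p r) * ψ x := fun r x =>
    span_ind (P := fun x => ψ (tGen p r * x) = ψ (tGen p r) * ψ x) (h r) (by simp)
      (fun x y hx hy => by simp only [mul_add, map_add, hx, hy])
      (fun c x hx => by simp only [mul_smul_comm, map_zsmul, hx]) x
  intro s
  refine span_ind (P := fun s => ∀ t, ψ (s * t) = ψ s * ψ t) (fun n => ?_) (by simp)
    (fun x y hx hy t => by simp only [add_mul, map_add, hx, hy])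
    (fun c x hx t => by simp only [smul_mul_assoc, map_zsmul, hx]) s
  induction n using Nat.strong_induction_on with
  | _ n ih =>
    intro t
    rcases Nat.eq_zero_or_pos n with rfl | hn
    · simp [hCoeff_zero]
    rcases eq_or_ne n 1 with rfl | h1'
    · rw [hCoeff_one, one_mul, h1, one_mul]
    obtain ⟨r', hr', k, rfl⟩ := Nat.exists_prime_and_dvd h1'
    obtain ⟨r, rfl⟩ : ∃ q : Nat.Primes, (q : ℕ) = r' := ⟨⟨r', hr'⟩, rfl⟩
    have hk : k < (r : ℕ) * k := lt_mul_of_one_lt_left (Nat.pos_of_mul_pos_left hn) r.2.one_lt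
    have hk' : k / (r : ℕ) < (r : ℕ) * k := (Nat.div_le_self _ _).trans_lt hk
    have e := tGen_mul_hCoeff p r k
    rw [mul_comm (r : ℕ) k, eq_sub_of_add_eq e.symm, sub_mul, map_sub, map_sub, sub_mul, mul_assoc,
      hgen, ih k hk, hgen, mul_assoc]
    congr 1
    split_ifs
    · simp
    · simp only [← nsmul_eq_mul, smul_mul_assoc, map_nsmul, ih _ hk']
    · simp

end FA.PrimeLevelDuality

end
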