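import Fermat.Agent.Tau.Differential
import Mathlib.FieldTheory.Finite.Basic

/-!
# The coefficients of `Δ` modulo 5, 7 and 24

By the differential identities: `θ Δ = E₂ Δ` gives the congruence modulo `24`, and modulo `5` and
`7`, where `E₄ ≡ 1` and `E₆ ≡ 1` respectively, they make `Δ` the derivative of `E₆` resp. `E₄`.
-/

set_option autoImplicit false

noncomputable section

open scoped ArithmeticFunction.sigma

namespace FA.Tau

/-- A series modulo `m`. -/
abbrev redInt (m : ℕ) : PowerSeries ℤ →+* PowerSeries (ZMod m) :=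
  PowerSeries.map (Int.castRingHom (ZMod m))

theorem coeff_redInt (m : ℕ) (A : PowerSeries ℤ) (n : ℕ) :
    PowerSeries.coeff n (redInt m A) = ((PowerSeries.coeff n A : ℤ) : ZMod m) := by
  rw [PowerSeries.coeff_map, eq_intCast]

theorem redInt_eFour_five : redInt 5 eFourInt = 1 := by
  refine PowerSeries.ext fun n => ?_
  rw [coeff_redInt, eFourInt, PowerSeries.coeff_mk, PowerSeries.coeff_one]
  split_ifs <;> push_cast
  · rfl
  · rw [show (240 : ZMod 5) = 0 from rfl, zero_mul]

theorem redInt_eSix_seven : redInt 7 eSixInt = 1 := by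
  refine PowerSeries.ext fun n => ?_
  rw [coeff_redInt, eSixInt, PowerSeries.coeff_mk, PowerSeries.coeff_one]
  split_ifs <;> push_cast
  · rfl
  · rw [show (504 : ZMod 7) = 0 from rfl, neg_zero, zero_mul]

theorem redInt_eTwo_twentyFour : redInt 24 eTwoInt = 1 := by
  refine PowerSeries.ext fun n => ?_
  rw [coeff_redInt, eTwoInt, PowerSeries.coeff_mk, PowerSeries.coeff_one]
  split_ifs <;> push_cast
  · rfl
  · rw [show (24 : ZMod 24) = 0 from rfl, neg_zero, zero_mul]

theorem sigma_five_mod_five (n : ℕ) : ((σ 5 n : ℕ) : ZMod 5) = ((σ 1 n : ℕ) : ZMod 5) := by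
  have : Fact (Nat.Prime 5) := ⟨by norm_num⟩
  simp only [ArithmeticFunction.sigma_apply, Nat.cast_sum, Nat.cast_pow, pow_one]
  exact Finset.sum_congr rfl fun d _ => ZMod.pow_card _

theorem redInt_eSix_five : redInt 5 eSixInt = redInt 5 eTwoInt := by
  refine PowerSeries.ext fun n => ?_
  rw [coeff_redInt, coeff_redInt, eSixInt, eTwoInt, PowerSeries.coeff_mk, PowerSeries.coeff_mk]
  split_ifs <;> push_cast
  · rfl
  · rw [sigma_five_mod_five, show (504 : ZMod 5) = 24 from rfl]

/-- `τ(n) ≡ n σ₁(n)` modulo `5`. -/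
theorem coeff_deltaInt_five (n : ℕ) :
    ((PowerSeries.coeff n deltaInt : ℤ) : ZMod 5) = (n : ZMod 5) * ((σ 1 n : ℕ) : ZMod 5) := by
  have h1 := congrArg (redInt 5) delta_eq
  have h2 := congrArg (redInt 5) theta_eSix
  simp only [map_mul, map_sub, map_pow, map_ofNat, redInt_eFour_five, ← redInt_eSix_five,
    one_pow] at h1 h2
  have h : (1728 : PowerSeries (ZMod 5)) * redInt 5 deltaInt =
      -2 * redInt 5 (thetaInt eSixInt) := by linear_combination h1 + h2
  have hn := congrArg (PowerSeries.coeff n) h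
  rw [show (1728 : PowerSeries (ZMod 5)) = PowerSeries.C (1728 : ZMod 5) from
      (map_ofNat _ _).symm,
    show (-2 : PowerSeries (ZMod 5)) = PowerSeries.C (-2 : ZMod 5) by simp [map_ofNat],
    PowerSeries.coeff_C_mul, PowerSeries.coeff_C_mul, coeff_redInt, coeff_redInt, thetaInt,
    PowerSeries.coeff_mk] at hn
  have key : ∀ x y : ZMod 5, 1728 * x = -2 * y → x = y := by decide
  rw [key _ _ hn, eSixInt, PowerSeries.coeff_mk]
  split_ifs with h0
  · simp [h0]
  · push_cast
    rw [sigma_five_mod_five, show (-504 : ZMod 5) = 1 from rfl, one_mul]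

/-- `τ(n) ≡ n σ₃(n)` modulo `7`. -/
theorem coeff_deltaInt_seven (n : ℕ) :
    ((PowerSeries.coeff n deltaInt : ℤ) : ZMod 7) = (n : ZMod 7) * ((σ 3 n : ℕ) : ZMod 7) := by
  have h1 := congrArg (redInt 7) delta_eq
  have h2 := congrArg (redInt 7) theta_eSix
  have h3 := congrArg (redInt 7) theta_eFour
  have h0 : redInt 7 (thetaInt eSixInt) = 0 := by
    refine PowerSeries.ext fun m => ?_
    have hm := congrArg (PowerSeries.coeff m) redInt_eSix_seven
    rw [coeff_redInt, PowerSeries.coeff_one] at hm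
    rw [coeff_redInt, thetaInt, PowerSeries.coeff_mk, map_zero, Int.cast_mul, hm]
    split_ifs with hm0 <;> simp [hm0]
  simp only [map_mul, map_sub, map_pow, map_ofNat, redInt_eSix_seven, h0, mul_zero, mul_one,
    one_pow] at h1 h2 h3
  have h : (1728 : PowerSeries (ZMod 7)) * redInt 7 deltaInt =
      3 * redInt 7 (thetaInt eFourInt) := by
    linear_combination h1 - h3 + redInt 7 eFourInt * h2
  have hn := congrArg (PowerSeries.coeff n) h
  rw [show (1728 : PowerSeries (ZMod 7)) = PowerSeries.C (1728 : ZMod 7) from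
      (map_ofNat _ _).symm,
    show (3 : PowerSeries (ZMod 7)) = PowerSeries.C (3 : ZMod 7) from (map_ofNat _ _).symm,
    PowerSeries.coeff_C_mul, PowerSeries.coeff_C_mul, coeff_redInt, coeff_redInt, thetaInt,
    PowerSeries.coeff_mk] at hn
  have key : ∀ x y : ZMod 7, 1728 * x = 3 * y → x = 4 * y := by decide
  rw [key _ _ hn, eFourInt, PowerSeries.coeff_mk]
  split_ifs with hn0
  · simp [hn0]
  · push_cast
    exact (show ∀ a b : ZMod 7, 4 * (a * (240 * b)) = a * b by decide) _ _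

/-- `(n - 1) τ(n) ≡ 0` modulo `24`. -/
theorem coeff_deltaInt_twentyFour (n : ℕ) :
    (24 : ℤ) ∣ ((n : ℤ) - 1) * PowerSeries.coeff n deltaInt := by
  have h := congrArg (redInt 24) theta_delta
  rw [map_mul, redInt_eTwo_twentyFour, one_mul] at h
  have hn := congrArg (PowerSeries.coeff n) h
  rw [coeff_redInt, coeff_redInt, thetaInt, PowerSeries.coeff_mk] at hn
  rw [show (24 : ℤ) = ((24 : ℕ) : ℤ) from rfl, ← ZMod.intCast_zmod_eq_zero_iff_dvd]
  push_cast at hn ⊢
  linear_combination hn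

/-- `σ₃` vanishes modulo `7` at the non-squares. -/
theorem sigma_three_eq_zero {n : ℕ} (h : ¬ IsSquare (n : ZMod 7)) :
    ((σ 3 n : ℕ) : ZMod 7) = 0 := by
  have hc : (n : ZMod 7) ^ 3 = -1 :=
    (show ∀ x : ZMod 7, ¬ IsSquare x → x ^ 3 = -1 by decide) _ h
  have key : ∀ x y : ZMod 7, (x * y) ^ 3 = -1 → y ^ 3 = -x ^ 3 := by decide
  simp only [ArithmeticFunction.sigma_apply, Nat.cast_sum, Nat.cast_pow]
  have e : ∑ d ∈ n.divisors, (d : ZMod 7) ^ 3 = -∑ d ∈ n.divisors, (d : ZMod 7) ^ 3 := by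
    rw [← Finset.sum_neg_distrib]
    conv_lhs => rw [← Nat.sum_div_divisors n (fun d => (d : ZMod 7) ^ 3)]
    refine Finset.sum_congr rfl fun d hd => key _ _ ?_
    rw [← Nat.cast_mul, Nat.mul_div_cancel' (Nat.dvd_of_mem_divisors hd), hc]
  exact (show ∀ x : ZMod 7, x = -x → x = 0 by decide) _ e

/-- `τ(n) ≡ 0` modulo `7` when `n` is divisible by `7` or a non-square modulo `7`. -/
theorem coeff_deltaInt_seven_eq_zero {n : ℕ} (h : (n : ZMod 7) = 0 ∨ ¬ IsSquare (n : ZMod 7)) :
    ((PowerSeries.coeff n deltaInt : ℤ) : ZMod 7) = 0 := by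
  rw [coeff_deltaInt_seven]
  rcases h with h | h
  · rw [h, zero_mul]
  · rw [sigma_three_eq_zero h, mul_zero]

/-- At a prime. -/
theorem coeff_deltaInt_prime {p : ℕ} (hp : p.Prime) :
    ((PowerSeries.coeff p deltaInt : ℤ) : ZMod 5) = (p : ZMod 5) * (1 + p) ∧
      ((PowerSeries.coeff p deltaInt : ℤ) : ZMod 7) = (p : ZMod 7) * (1 + (p : ZMod 7) ^ 3) := by
  rw [coeff_deltaInt_five, coeff_deltaInt_seven]
  simp [ArithmeticFunction.sigma_apply, Nat.Prime.divisors hp, Finset.sum_pair hp.ne_one.symm]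

end FA.Tau

end
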