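import Fermat.Agent.Tau.Mordell
import Fermat.Agent.Tau.ModFiveSeven
import Fermat.Agent.Tau.TwentyThree
import Mathlib.Data.Nat.Factorization.Induction

/-!
# Zeros of Ramanujan's `τ`

Lehmer: if `τ(p) ≠ 0` then `τ(p^r) ≠ 0` for every `r`. When `p⁶ ∤ τ(p)` the valuation of
`τ(p^r)` is `r` times that of `τ(p)`; otherwise `τ(p)² ≥ 4 p¹¹` and the recursion grows.
-/

set_option autoImplicit false

noncomputable section

open PowerSeries (coeff)
open scoped ArithmeticFunction.sigma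

namespace FA.Tau

/-- A recursion with real characteristic roots does not vanish. -/
theorem recursion_ne_zero_of_le {a : ℕ → ℤ} {t P : ℤ} (h0 : a 0 = 1) (h1 : a 1 = t)
    (h : ∀ r, a (r + 2) = t * a (r + 1) - P * a r) (ht : t ≠ 0) (hP : 0 ≤ P)
    (hle : 4 * P ≤ t ^ 2) (r : ℕ) : a r ≠ 0 := by
  have key : ∀ r, 0 < |a r| ∧ |t| * |a r| ≤ 2 * |a (r + 1)| := by
    intro r
    induction r with
    | zero =>
      rw [h0, h1, abs_one, mul_one]
      exact ⟨one_pos, by linarith [abs_nonneg t]⟩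
    | succ r ih =>
      have ht' : 0 < |t| := abs_pos.mpr ht
      have hpos : 0 < |a (r + 1)| := by nlinarith [ih.1, ih.2]
      refine ⟨hpos, ?_⟩
      have h2 : |t| * |a (r + 1)| - P * |a r| ≤ |a (r + 2)| := by
        rw [h r, ← abs_mul, ← abs_of_nonneg hP, ← abs_mul, abs_of_nonneg hP]
        exact abs_sub_abs_le_abs_sub _ _
      have h3 : 4 * P * |a r| ≤ |t| * (2 * |a (r + 1)|) := by
        nlinarith [mul_le_mul_of_nonneg_left ih.2 ht'.le, sq_abs t, ih.1]
      show |t| * |a (r + 1)| ≤ 2 * |a (r + 1 + 1)|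
      linarith
  exact abs_pos.mp (key r).1

/-- A recursion whose middle coefficient has small valuation does not vanish. -/
theorem recursion_ne_zero_of_valuation {a : ℕ → ℤ} {p v e : ℕ} (hp : p.Prime) {s : ℤ}
    (hs : ¬ (p : ℤ) ∣ s) (hv : 2 * v < e) (h0 : a 0 = 1) (h1 : a 1 = (p : ℤ) ^ v * s)
    (h : ∀ r, a (r + 2) = (p : ℤ) ^ v * s * a (r + 1) - (p : ℤ) ^ e * a r) (r : ℕ) : a r ≠ 0 := by
  obtain ⟨d, rfl⟩ : ∃ d, e = 2 * v + 1 + d := ⟨e - (2 * v + 1), by omega⟩
  have key : ∀ r, ∃ b c : ℤ, a r = (p : ℤ) ^ (v * r) * b ∧ (p : ℤ) ∣ b - s ^ r ∧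
      a (r + 1) = (p : ℤ) ^ (v * (r + 1)) * c ∧ (p : ℤ) ∣ c - s ^ (r + 1) := by
    intro r
    induction r with
    | zero => exact ⟨1, s, by simp [h0], by simp, by simp [h1], by simp⟩
    | succ r ih =>
      obtain ⟨b, c, hb, hb', hc, hc'⟩ := ih
      refine ⟨c, s * c - (p : ℤ) ^ (1 + d) * b, hc, hc', ?_, ?_⟩
      · rw [show r + 1 + 1 = r + 2 from rfl, h r, hb, hc]
        ring
      · rw [show s * c - (p : ℤ) ^ (1 + d) * b - s ^ (r + 1 + 1) =
          s * (c - s ^ (r + 1)) - (p : ℤ) * ((p : ℤ) ^ d * b) by ring]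
        exact dvd_sub (hc'.mul_left _) (dvd_mul_right _ _)
  intro hr
  obtain ⟨b, -, hb, hb', -⟩ := key r
  have hp' : Prime (p : ℤ) := Nat.prime_iff_prime_int.mp hp
  rw [hr, zero_eq_mul] at hb
  rcases hb with hb | hb
  · exact pow_ne_zero _ hp'.ne_zero hb
  · rw [hb, zero_sub, dvd_neg] at hb'
    exact hs (hp'.dvd_of_dvd_pow hb')

theorem cast_coeff_deltaInt_691 {p : ℕ} (hp : p.Prime) :
    ((coeff p deltaInt : ℤ) : ZMod 691) = 1 + (p : ZMod 691) ^ 11 := by
  have h := (ZMod.intCast_eq_intCast_iff_dvd_sub _ _ 691).mpr (dvd_coeff_deltaInt_sub_sigma p)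
  rw [← h]
  simp [ArithmeticFunction.sigma_apply, Nat.Prime.divisors hp, Finset.sum_pair hp.ne_one.symm]

/-- **Lehmer**: `τ(p) ≠ 0` implies `τ(p^r) ≠ 0`. -/
theorem coeff_deltaInt_prime_pow_ne_zero {p : ℕ} (hp : p.Prime) (h : coeff p deltaInt ≠ 0)
    (r : ℕ) : coeff (p ^ r) deltaInt ≠ 0 := by
  set t := coeff p deltaInt with ht
  have h0 : coeff (p ^ 0) deltaInt = 1 := by rw [pow_zero, coeff_deltaInt_one]
  have h1 : coeff (p ^ 1) deltaInt = t := by rw [pow_one]
  have hrec := coeff_deltaInt_prime_pow hp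
  by_cases h6 : (p : ℤ) ^ 6 ∣ t
  · refine recursion_ne_zero_of_le (a := fun r => coeff (p ^ r) deltaInt) h0 h1 hrec h
      (by positivity) ?_ r
    obtain ⟨s, hs⟩ := h6
    by_contra hlt
    have hs0 : s ≠ 0 := fun hs0 => h (by rw [hs, hs0, mul_zero])
    have hp2 : (2 : ℤ) ≤ p := by exact_mod_cast hp.two_le
    have hps : (p : ℤ) * s ^ 2 < 4 := by
      rw [hs] at hlt
      nlinarith [pow_pos (show (0 : ℤ) < p by linarith) 11]
    have hs1 : s ^ 2 = 1 := by
      have : 0 < s ^ 2 := by positivity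
      nlinarith
    rw [hs1, mul_one] at hps
    have hp4 : p < 4 := by exact_mod_cast hps
    have e := cast_coeff_deltaInt_691 hp
    rw [← ht, hs] at e
    rcases (sq_eq_one_iff.mp hs1) with rfl | rfl <;> interval_cases p <;>
      first | exact absurd hp (by decide) | (revert e; push_cast; decide)
  · obtain ⟨k, n', hn', hk⟩ := Nat.exists_eq_pow_mul_and_not_dvd (Int.natAbs_ne_zero.mpr h) p
      hp.ne_one
    have hk6 : k < 6 := by
      by_contra hk6
      refine h6 ?_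
      rw [← Nat.cast_pow, Int.natCast_dvd, hk]
      exact (pow_dvd_pow p (not_lt.mp hk6)).mul_right _
    refine recursion_ne_zero_of_valuation (a := fun r => coeff (p ^ r) deltaInt) (v := k) (e := 11)
      (s := t.sign * n') hp ?_ (by omega) h0 ?_ ?_ r
    · rw [Int.natCast_dvd, Int.natAbs_mul, Int.natAbs_natCast, Int.natAbs_sign_of_ne_zero h,
        one_mul]
      exact hn'
    all_goals
      have e : t = (p : ℤ) ^ k * (t.sign * n') := by
        conv_lhs => rw [← Int.sign_mul_natAbs t, hk]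
        push_cast
        ring
    · rw [h1, ← e]
    · intro r
      rw [← e]
      exact hrec r

theorem coeff_deltaInt_prime_pow_of_eq_zero {p : ℕ} (hp : p.Prime) (h : coeff p deltaInt = 0)
    (k : ℕ) : coeff (p ^ (2 * k)) deltaInt = (-(p : ℤ) ^ 11) ^ k ∧
      coeff (p ^ (2 * k + 1)) deltaInt = 0 := by
  induction k with
  | zero => simp [coeff_deltaInt_one, h]
  | succ k ih =>
    rw [show 2 * (k + 1) = 2 * k + 2 by ring]
    refine ⟨?_, ?_⟩
    · rw [coeff_deltaInt_prime_pow hp, h, ih.1]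
      ring
    · rw [show 2 * k + 2 + 1 = 2 * k + 1 + 2 by ring, coeff_deltaInt_prime_pow hp, h, ih.2]
      ring

theorem coeff_deltaInt_prime_pow_eq_zero_iff {p : ℕ} (hp : p.Prime) (r : ℕ) :
    coeff (p ^ r) deltaInt = 0 ↔ coeff p deltaInt = 0 ∧ Odd r := by
  by_cases h : coeff p deltaInt = 0
  · rcases Nat.even_or_odd r with hr | hr
    · obtain ⟨k, rfl⟩ := hr.two_dvd
      rw [(coeff_deltaInt_prime_pow_of_eq_zero hp h k).1]
      refine iff_of_false (pow_ne_zero _ (neg_ne_zero.mpr (pow_ne_zero _ ?_))) fun h' =>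
        Nat.not_odd_iff_even.mpr hr h'.2
      exact_mod_cast hp.ne_zero
    · refine iff_of_true ?_ ⟨h, hr⟩
      obtain ⟨k, rfl⟩ := hr
      exact (coeff_deltaInt_prime_pow_of_eq_zero hp h k).2
  · exact iff_of_false (coeff_deltaInt_prime_pow_ne_zero hp h r) fun h' => h h'.1

/-- **Lehmer**: the zeros of `τ`. -/
theorem coeff_deltaInt_eq_zero_iff {n : ℕ} (hn : n ≠ 0) :
    coeff n deltaInt = 0 ↔
      ∃ p : ℕ, p.Prime ∧ coeff p deltaInt = 0 ∧ Odd (n.factorization p) := by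
  rw [Nat.multiplicative_factorization (fun n => coeff n deltaInt)
    (fun _ _ h => coeff_deltaInt_mul h) coeff_deltaInt_one hn, Finsupp.prod,
    Finset.prod_eq_zero_iff]
  refine exists_congr fun p => ⟨fun ⟨hp, h⟩ => ?_, fun ⟨hp, h, hodd⟩ => ?_⟩
  · have hp' := Nat.prime_of_mem_primeFactors (Nat.support_factorization n ▸ hp)
    exact ⟨hp', (coeff_deltaInt_prime_pow_eq_zero_iff hp' _).mp h⟩
  · exact ⟨Finsupp.mem_support_iff.mpr fun h0 => by simp [h0] at hodd,
      (coeff_deltaInt_prime_pow_eq_zero_iff hp _).mpr ⟨h, hodd⟩⟩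

/-- The conditions on a prime with `τ(p) = 0`. -/
theorem of_coeff_deltaInt_eq_zero {p : ℕ} (hp : p.Prime) (h : coeff p deltaInt = 0) :
    p % 691 = 690 ∧ p % 5 = 4 ∧ ¬ IsSquare (p : ZMod 7) ∧ ¬ IsSquare (p : ZMod 23) := by
  have : Fact (Nat.Prime 691) := ⟨by norm_num⟩
  have e := cast_coeff_deltaInt_691 hp
  rw [h, Int.cast_zero] at e
  have e11 : (p : ZMod 691) ^ 11 = -1 := by linear_combination -e
  have hx : (p : ZMod 691) ≠ 0 := fun h0 => by simp [h0] at e
  have e1 : (p : ZMod 691) = ((690 : ℕ) : ZMod 691) := by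
    calc (p : ZMod 691) = ((p : ZMod 691) ^ (691 - 1)) ^ 4 * p := by
            rw [ZMod.pow_card_sub_one_eq_one hx, one_pow, one_mul]
      _ = ((p : ZMod 691) ^ 11) ^ 251 := by
            rw [← pow_mul, ← pow_succ, ← pow_mul]
      _ = ((690 : ℕ) : ZMod 691) := by
            rw [e11, (show Odd 251 by decide).neg_one_pow]
            exact (eq_neg_of_add_eq_zero_left (show ((690 : ℕ) : ZMod 691) + 1 = 0 from rfl)).symm
  have h691 : p % 691 = 690 := (ZMod.natCast_eq_natCast_iff' _ _ _).mp e1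
  have hne : ∀ q : ℕ, q < 690 → p ≠ q := fun q hq hpq => by subst hpq; omega
  obtain ⟨h5, h7⟩ := coeff_deltaInt_prime hp
  rw [h, Int.cast_zero] at h5 h7
  have hz : ∀ q : ℕ, q.Prime → q < 690 → (p : ZMod q) ≠ 0 := fun q hq hlt h0 =>
    hne q hlt ((Nat.prime_dvd_prime_iff_eq hq hp).mp ((ZMod.natCast_eq_zero_iff _ _).mp h0)).symm
  refine ⟨h691, (ZMod.natCast_eq_natCast_iff' p 4 5).mp ?_, ?_, ?_⟩
  · exact ((show ∀ x : ZMod 5, 0 = x * (1 + x) → x = 0 ∨ x = 4 by decide) _ h5).resolve_left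
      (hz 5 (by norm_num) (by norm_num))
  · exact ((show ∀ x : ZMod 7, 0 = x * (1 + x ^ 3) → x = 0 ∨ ¬ IsSquare x by decide) _
      h7).resolve_left (hz 7 (by norm_num) (by norm_num))
  · intro hsq
    have h23 : p ≠ 23 := hne 23 (by norm_num)
    have e23 : ((coeff p deltaInt : ℤ) : ZMod 23) = 0 := by rw [h, Int.cast_zero]
    rcases exists_form_of_isSquare hp h23 hsq with ⟨_, _, hf⟩ | ⟨_, _, hf⟩
    · rw [coeff_of_principal hp h23 hf] at e23
      exact absurd e23 (by decide)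
    · rw [coeff_of_nonprincipal hp hf] at e23
      exact absurd e23 (by decide)

/-- The candidates below `290219`. -/
theorem zeroCandidates : ∀ k < 41,
    (6910 * k + 6909) % 7 ∈ [3, 5, 6] →
    (6910 * k + 6909) % 23 ∈ [5, 7, 10, 11, 14, 15, 17, 19, 20, 21, 22] →
    k ∈ [10, 12, 19, 24, 31, 33, 38] := by
  decide +kernel

/-- No prime below `290219` meets the conditions. -/
theorem coeff_deltaInt_prime_ne_zero {p : ℕ} (hp : p.Prime) (hlt : p < 290219) :
    coeff p deltaInt ≠ 0 := fun h => by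
  obtain ⟨h691, h5, h7, h23⟩ := of_coeff_deltaInt_eq_zero hp h
  clear h
  have h2 : p % 2 = 1 := (hp.eq_two_or_odd).resolve_left fun h => by simp [h] at h691
  have d691 : 691 ∣ p + 1 := Nat.dvd_of_mod_eq_zero (by rw [Nat.add_mod, h691])
  have d5 : 5 ∣ p + 1 := Nat.dvd_of_mod_eq_zero (by rw [Nat.add_mod, h5])
  have d2 : 2 ∣ p + 1 := Nat.dvd_of_mod_eq_zero (by rw [Nat.add_mod, h2])
  obtain ⟨m, hm⟩ : 6910 ∣ p + 1 := Nat.Coprime.mul_dvd_of_dvd_of_dvd (by norm_num)
    (Nat.Coprime.mul_dvd_of_dvd_of_dvd (by norm_num) d691 d5) d2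
  obtain ⟨k, rfl⟩ : ∃ k, m = k + 1 := Nat.exists_eq_succ_of_ne_zero (by
    rintro rfl
    rw [mul_zero] at hm
    exact Nat.succ_ne_zero p hm)
  have hk : p = 6910 * k + 6909 := by linarith
  have hk41 : k < 41 := by
    by_contra hk'
    nlinarith [not_lt.mp hk']
  rw [← ZMod.natCast_mod] at h7 h23
  have h7' := (show ∀ r : ℕ, r < 7 → ¬ IsSquare (r : ZMod 7) → r ∈ [3, 5, 6] by decide +kernel) _
    (Nat.mod_lt _ (by norm_num)) h7
  have h23' := (show ∀ r : ℕ, r < 23 → ¬ IsSquare (r : ZMod 23) →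
    r ∈ [5, 7, 10, 11, 14, 15, 17, 19, 20, 21, 22] by decide +kernel) _
    (Nat.mod_lt _ (by norm_num)) h23
  rw [hk] at h7' h23' hp
  have hL := zeroCandidates k hk41 h7' h23'
  simp only [List.mem_cons, List.not_mem_nil, or_false] at hL
  rcases hL with rfl | rfl | rfl | rfl | rfl | rfl | rfl <;> norm_num at hp

/-- `τ(n) ≠ 0` below `290219`. -/
theorem coeff_deltaInt_ne_zero {n : ℕ} (hn : 0 < n) (hlt : n < 290219) : coeff n deltaInt ≠ 0 :=
  fun h => by
  obtain ⟨p, hp, hp0, hodd⟩ := (coeff_deltaInt_eq_zero_iff hn.ne').mp h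
  exact coeff_deltaInt_prime_ne_zero hp
    ((Nat.le_of_dvd hn (Nat.dvd_of_factorization_pos hodd.pos.ne')).trans_lt hlt) hp0

end FA.Tau

end
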