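import Fermat.Agent.Tau.QuasiModular
import Fermat.Agent.Tau.Zeros

/-!
# The coefficients of `Δ` modulo 24

Niebur's formula gives `τ(n) ≡ n⁴ σ(n) (mod 24)`. So `τ(n)` is odd exactly at the odd squares,
`τ(n) ≡ n σ(n) (mod 3)`, and a prime with `τ(p) = 0` is `-1` modulo `24`.
-/

set_option autoImplicit false

noncomputable section

open PowerSeries (coeff)
open scoped ArithmeticFunction.sigma

namespace FA.Tau

theorem dvd_coeff_deltaInt_sub_niebur (n : ℕ) :
    (24 : ℤ) ∣ coeff n deltaInt - (n : ℤ) ^ 4 * (σ 1 n : ℤ) := by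
  rw [coeff_deltaInt_niebur, sub_sub_cancel_left, dvd_neg]
  exact dvd_mul_right _ _

theorem coeff_deltaInt_of_dvd_twentyFour {m : ℕ} (hm : m ∣ 24) (n : ℕ) :
    ((coeff n deltaInt : ℤ) : ZMod m) = (n : ZMod m) ^ 4 * ((σ 1 n : ℕ) : ZMod m) := by
  have h : ((m : ℕ) : ℤ) ∣ coeff n deltaInt - (n : ℤ) ^ 4 * (σ 1 n : ℤ) :=
    (show ((m : ℕ) : ℤ) ∣ ((24 : ℕ) : ℤ) from Int.natCast_dvd_natCast.mpr hm).trans
      (dvd_coeff_deltaInt_sub_niebur n)
  have h' := (ZMod.intCast_zmod_eq_zero_iff_dvd _ m).mpr h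
  push_cast at h'
  linear_combination h'

/-- `σ(n)` is odd for odd `n` exactly at the squares. -/
theorem sigma_one_mod_two {n : ℕ} (hn : Odd n) :
    ((σ 1 n : ℕ) : ZMod 2) = if IsSquare n then 1 else 0 := by
  have h0 : n ≠ 0 := hn.pos.ne'
  have hS : ((σ 1 n : ℕ) : ZMod 2) = ∑ _d ∈ n.divisors, (1 : ZMod 2) := by
    rw [ArithmeticFunction.sigma_one_apply, Nat.cast_sum]
    refine Finset.sum_congr rfl fun d hd => ?_
    obtain ⟨k, hk⟩ := Odd.of_dvd_nat hn (Nat.dvd_of_mem_divisors hd)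
    rw [hk, Nat.cast_add, Nat.cast_mul, show ((2 : ℕ) : ZMod 2) = 0 from rfl, zero_mul, zero_add,
      Nat.cast_one]
  have hinv : ∑ _d ∈ n.divisors.filter (fun d => ¬ d * d = n), (1 : ZMod 2) = 0 := by
    refine Finset.sum_involution (fun d _ => n / d) (fun d _ => rfl) (fun d hd _ h => ?_)
      (fun d hd => ?_) fun d hd => ?_
    · obtain ⟨hd, hne⟩ := Finset.mem_filter.mp hd
      exact hne (by
        have := Nat.mul_div_cancel' (Nat.dvd_of_mem_divisors hd)
        rwa [h] at this)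
    · obtain ⟨hd, hne⟩ := Finset.mem_filter.mp hd
      have hdn := Nat.dvd_of_mem_divisors hd
      refine Finset.mem_filter.mpr ⟨Nat.mem_divisors.mpr ⟨Nat.div_dvd_of_dvd hdn, h0⟩, fun h => ?_⟩
      have e := Nat.mul_div_cancel' hdn
      have hpos : 0 < n / d := Nat.div_pos (Nat.divisor_le hd) (Nat.pos_of_mem_divisors hd)
      have : d = n / d := Nat.eq_of_mul_eq_mul_right hpos (e.trans h.symm)
      exact hne (by rwa [← this] at h)
    · exact Nat.div_div_self (Nat.dvd_of_mem_divisors (Finset.mem_filter.mp hd).1) h0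
  rw [hS, ← Finset.sum_filter_add_sum_filter_not n.divisors (fun d => d * d = n), hinv, add_zero]
  split_ifs with hsq
  · obtain ⟨r, rfl⟩ := hsq
    rw [show (r * r).divisors.filter (fun d => d * d = r * r) = {r} from
      Finset.eq_singleton_iff_unique_mem.mpr ⟨Finset.mem_filter.mpr
        ⟨Nat.mem_divisors.mpr ⟨dvd_mul_right r r, h0⟩, rfl⟩,
        fun d hd => Nat.mul_self_inj.mp (Finset.mem_filter.mp hd).2⟩, Finset.sum_singleton]
  · rw [Finset.filter_eq_empty_iff.mpr fun d _ h => hsq ⟨d, h.symm⟩, Finset.sum_empty]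

/-- `τ(n)` is odd exactly at the odd squares. -/
theorem odd_coeff_deltaInt_iff (n : ℕ) : Odd (coeff n deltaInt) ↔ Odd n ∧ IsSquare n := by
  rw [← Int.not_even_iff_odd, even_iff_two_dvd,
    show (2 : ℤ) = ((2 : ℕ) : ℤ) from rfl, ← ZMod.intCast_zmod_eq_zero_iff_dvd,
    coeff_deltaInt_of_dvd_twentyFour (by norm_num) n]
  rcases Nat.even_or_odd n with hn | hn
  · refine iff_of_false (fun h => h ?_) fun h => Nat.not_odd_iff_even.mpr hn h.1
    rw [(ZMod.natCast_eq_zero_iff n 2).mpr hn.two_dvd, zero_pow four_ne_zero, zero_mul]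
  · rw [sigma_one_mod_two hn, ZMod.natCast_eq_one_iff_odd.mpr hn, one_pow, one_mul]
    split_ifs with hsq
    · exact iff_of_true (by decide) ⟨hn, hsq⟩
    · exact iff_of_false (fun h => h rfl) fun h => hsq h.2

/-- `τ(n) ≡ n σ(n)` modulo `3`. -/
theorem coeff_deltaInt_three (n : ℕ) :
    ((coeff n deltaInt : ℤ) : ZMod 3) = (n : ZMod 3) * ((σ 1 n : ℕ) : ZMod 3) := by
  rw [coeff_deltaInt_of_dvd_twentyFour (by norm_num) n]
  by_cases h : (n : ZMod 3) = 2
  · have e : ((σ 1 n : ℕ) : ZMod 3) = 0 := by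
      rw [ArithmeticFunction.sigma_one_apply, Nat.cast_sum]
      have key : ∀ x y : ZMod 3, x * y = 2 → y = -x := by decide
      have e' : ∑ d ∈ n.divisors, (d : ZMod 3) = -∑ d ∈ n.divisors, (d : ZMod 3) := by
        rw [← Finset.sum_neg_distrib]
        conv_lhs => rw [← Nat.sum_div_divisors n (fun d => (d : ZMod 3))]
        refine Finset.sum_congr rfl fun d hd => key _ _ ?_
        rw [← Nat.cast_mul, Nat.mul_div_cancel' (Nat.dvd_of_mem_divisors hd), h]
      exact (show ∀ x : ZMod 3, x = -x → x = 0 by decide) _ e'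
    rw [e, mul_zero, mul_zero]
  · rw [(show ∀ x : ZMod 3, x ≠ 2 → x ^ 4 = x by decide) _ h]

/-- At a prime, modulo `3`. -/
theorem coeff_deltaInt_three_prime {p : ℕ} (hp : p.Prime) :
    ((coeff p deltaInt : ℤ) : ZMod 3) = (p : ZMod 3) * (1 + p) := by
  rw [coeff_deltaInt_three]
  simp [ArithmeticFunction.sigma_apply, Nat.Prime.divisors hp, Finset.sum_pair hp.ne_one.symm]

/-- A prime with `τ(p) = 0` is `-1` modulo `24`. -/
theorem mod_twentyFour_of_coeff_eq_zero {p : ℕ} (hp : p.Prime) (h : coeff p deltaInt = 0) :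
    p % 24 = 23 := by
  have h691 := (of_coeff_deltaInt_eq_zero hp h).1
  have h2 : p % 2 = 1 := hp.eq_two_or_odd.resolve_left fun e => by simp [e] at h691
  have h3 : p % 3 ≠ 0 := fun e => by
    have := (Nat.prime_dvd_prime_iff_eq (by norm_num) hp).mp (Nat.dvd_of_mod_eq_zero e)
    simp [← this] at h691
  have e := coeff_deltaInt_of_dvd_twentyFour dvd_rfl p
  rw [h, Int.cast_zero, ← ZMod.natCast_mod p 24] at e
  simp [ArithmeticFunction.sigma_apply, Nat.Prime.divisors hp,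
    Finset.sum_pair hp.ne_one.symm] at e
  rw [← ZMod.natCast_mod p 24] at e
  exact (show ∀ r : ℕ, r < 24 → r % 2 = 1 → r % 3 ≠ 0 →
      0 = (r : ZMod 24) ^ 4 * (1 + (r : ZMod 24)) → r = 23 by decide +kernel) _
    (Nat.mod_lt _ (by norm_num)) (by rwa [Nat.mod_mod_of_dvd p (by norm_num)])
    (by rwa [Nat.mod_mod_of_dvd p (by norm_num)]) e

/-- The candidates below `3316799`. -/
theorem zeroCandidatesLarge : ∀ k < 39,
    (82920 * k + 82919) % 7 ∈ [3, 5, 6] →
    (82920 * k + 82919) % 23 ∈ [5, 7, 10, 11, 14, 15, 17, 19, 20, 21, 22] →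
    ¬ Nat.Prime (82920 * k + 82919) := by
  intro k hk h7 h23
  interval_cases k
  all_goals
    first
    | (revert h7; decide +kernel)
    | (revert h23; decide +kernel)
    | norm_num

/-- `τ(n) ≠ 0` below `3316799`. -/
theorem coeff_deltaInt_ne_zero_large {n : ℕ} (hn : 0 < n) (hlt : n < 3316799) :
    coeff n deltaInt ≠ 0 := fun h => by
  obtain ⟨p, hp, hp0, hodd⟩ := (coeff_deltaInt_eq_zero_iff hn.ne').mp h
  have hlt' : p < 3316799 :=
    (Nat.le_of_dvd hn (Nat.dvd_of_factorization_pos hodd.pos.ne')).trans_lt hlt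
  obtain ⟨h691, h5, h7, h23⟩ := of_coeff_deltaInt_eq_zero hp hp0
  have h24 := mod_twentyFour_of_coeff_eq_zero hp hp0
  have d691 : 691 ∣ p + 1 := Nat.dvd_of_mod_eq_zero (by rw [Nat.add_mod, h691])
  have d5 : 5 ∣ p + 1 := Nat.dvd_of_mod_eq_zero (by rw [Nat.add_mod, h5])
  have d24 : 24 ∣ p + 1 := Nat.dvd_of_mod_eq_zero (by rw [Nat.add_mod, h24])
  obtain ⟨m, hm⟩ : 82920 ∣ p + 1 := Nat.Coprime.mul_dvd_of_dvd_of_dvd (by norm_num)
    (Nat.Coprime.mul_dvd_of_dvd_of_dvd (by norm_num) d691 d5) d24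
  obtain ⟨k, rfl⟩ : ∃ k, m = k + 1 := Nat.exists_eq_succ_of_ne_zero (by
    rintro rfl
    rw [mul_zero] at hm
    exact Nat.succ_ne_zero p hm)
  have hk : p = 82920 * k + 82919 := by linarith
  have hk39 : k < 39 := by
    by_contra hk'
    nlinarith [not_lt.mp hk']
  rw [← ZMod.natCast_mod] at h7 h23
  have h7' := (show ∀ r : ℕ, r < 7 → ¬ IsSquare (r : ZMod 7) → r ∈ [3, 5, 6] by decide +kernel) _
    (Nat.mod_lt _ (by norm_num)) h7
  have h23' := (show ∀ r : ℕ, r < 23 → ¬ IsSquare (r : ZMod 23) →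
    r ∈ [5, 7, 10, 11, 14, 15, 17, 19, 20, 21, 22] by decide +kernel) _
    (Nat.mod_lt _ (by norm_num)) h23
  rw [hk] at h7' h23' hp
  exact zeroCandidatesLarge k hk39 h7' h23' hp

end FA.Tau

end
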