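import Fermat.Agent.Tau.SupersingularClassNumber
import Fermat.Agent.Eisenstein.Hecke
import Fermat.Agent.Eisenstein.PsiInt
import Fermat.Agent.Mazur.TraceId

/-!
# Weight two of level `p` and weight `p + 1` of level one modulo `p`

If `H` lifts the Hasse invariant, `h = H(τ) - p ^ (p-1) H(pτ)` is `1` modulo `p` and its
Atkin–Lehner transform is `0`, so the trace to level one of `f h` is congruent to `f`. The reduction
of the integral cusp forms of weight two is injective, and both sides have dimension `g`.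
-/

set_option autoImplicit false
set_option linter.style.haveILetI false

noncomputable section

open UpperHalfPlane hiding I
open PowerSeries CongruenceSubgroup CuspForm FA.Eis FA.SwinnertonDyer FA.SupersingularPoints
open scoped MatrixGroups Classical

namespace FA.LevelPModP

variable {p : ℕ} [Fact p.Prime]

/-- **Weight two of level `p` lands in weight `p + 1`.** -/
theorem isFormModP_of_isLv (h5 : 5 ≤ p) {f : ℍ → ℂ} (hf : IsLv p 2 f) {A : PowerSeries ℤ}
    (hA : HasQ 1 f (toC A)) : IsFormModP p (p + 1) (A.map (Int.castRingHom (ZMod p))) := by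
  have hp : p.Prime := Fact.out
  set k : ℤ := ((p - 1 : ℕ) : ℤ)
  obtain ⟨G, T, hG, hT⟩ : ∃ (G : ModularForm 𝒮ℒ k) (T : PowerSeries ℤ), qe ⇑G = toC T ∧
      T.map (Int.castRingHom (ZMod p)) = 1 :=
    phi_hassePoly (p := p) h5 ▸ isFormModP_phi (isob_hassePoly h5)
  have hk : Even k := (hp.odd_of_ne_two (by omega)).tsub_odd odd_one |>.natCast
  set c : ℂ := (p : ℂ) ^ (p - 1)
  have hc : c * (p : ℂ) ^ (-k) = 1 := by
    rw [show c = (p : ℂ) ^ k from (zpow_natCast _ _).symm,
      ← zpow_add₀ (NeZero.ne _), add_neg_cancel, zpow_zero]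
  have hH : IsLv 1 k ⇑G := IsLv.of_modularForm G
  have hHQ : HasQ 1 ⇑G (toC T) := by
    have := hasQ_modularForm G
    rwa [hG] at this
  set h : ℍ → ℂ := ⇑G - c • dil p ⇑G
  have hh : IsLv p k h := (hH.of_levelOne p).sub ((hH.dil p).smul c)
  have hhQ : HasQ 1 h (toC T - c • toC (Vp p T)) := by
    have := hHQ.sub ((hHQ.dil p).smul c)
    rwa [← show toC (Vp p T) = Vp p (toC T) from map_Vp _ p T] at this
  have hWQ : HasQ 1 (W p k h) (toC (Vp p T) - toC T) := by
    rw [W_sub, W_smul, W_dil hH, smul_smul, hc, one_smul, W, hH.inv']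
    have := (hHQ.dil p).sub hHQ
    rwa [← show toC (Vp p T) = Vp p (toC T) from map_Vp _ p T] at this
  have hk2 : Even (2 + k) := even_two.add hk
  have hWfh : HasQ 1 (W p (2 + k) (f * h))
      (-((p : ℂ)⁻¹ • Up p (toC A)) * (toC (Vp p T) - toC T)) := by
    rw [W_mul]
    exact (hasQ_W_weight_two hf hA).mul one_pos hWQ
  have hlv := (isLv_one_trace hk2 (hf.mul hh)).congr_weight
    (show 2 + k = ((p + 1 : ℕ) : ℤ) by simp only [k, Nat.cast_sub hp.one_le]; push_cast; ring)
  have hQ := hasQ_trace hk2 (hf.mul hh) (hA.mul one_pos hhQ) hWfh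
  set R : PowerSeries ℤ := A * (T - C ((p : ℤ) ^ (p - 1)) * Vp p T) -
    Up p (Up p A * (Vp p T - T))
  refine ⟨hlv.toMF, R, ?_, ?_⟩
  · refine (hQ.qExpansion_eq one_pos).trans ?_
    change _ = toC R
    simp only [R, toC, map_sub, map_mul, map_Up, map_pow, eq_intCast,
      Int.cast_natCast]
    rw [neg_mul, smul_mul_assoc, map_neg, map_smul, smul_neg, smul_smul,
      mul_inv_cancel₀ (NeZero.ne (p : ℂ)), one_smul, ← sub_eq_add_neg,
      PowerSeries.smul_eq_C_mul, mul_sub (Up p _)]
    congr 1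
    simp [c, mul_sub]
  · simp only [R, map_sub, map_mul, map_Up, PowerSeries.map_C, map_pow, map_Vp, hT]
    rw [show (Int.castRingHom (ZMod p)) (p : ℤ) = 0 by simp, map_zero,
      zero_pow (Nat.sub_ne_zero_of_lt hp.one_lt), map_one, zero_mul, sub_zero, mul_one,
      sub_self, mul_zero, map_zero, sub_zero]

variable (p) in
/-- Reduction of the integral cusp forms. -/
def redLattice : ↥(intLattice p 2) →ₗ[ℤ] PowerSeries (ZMod p) where
  toFun f := (PowerSeries.mk fun n => zCoeff n f).map (Int.castRingHom (ZMod p))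
  map_add' f g := by ext n; simp
  map_smul' c f := by ext n; rw [RingHom.id_apply, map_zsmul, zsmul_eq_mul]; simp

theorem coeff_redLattice (f : ↥(intLattice p 2)) (n : ℕ) :
    coeff n (redLattice p f) = (zCoeff n f : ZMod p) := by simp [redLattice]

/-- The integral cusp forms reduce onto the cusp forms of weight `p + 1` modulo `p`, with kernel
the multiples of `p`. -/
theorem redLattice_spec (h5 : 5 ≤ p) :
    (∀ f : PowerSeries (ZMod p), (∃ F, redLattice p F = f) ↔
      IsFormModP p (p + 1) f ∧ coeff 0 f = 0) ∧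
    ∀ F, redLattice p F = 0 → ∃ G, F = (p : ℤ) • G := by
  haveI := intLattice.moduleFinite p
  haveI := intLattice.moduleFree p
  set b := Module.Free.chooseBasis ℤ ↥(intLattice p 2)
  haveI := Fintype.ofFinite (Module.Free.ChooseBasisIndex ℤ ↥(intLattice p 2))
  have hker : ∀ F, redLattice p F = 0 → ∃ G, F = (p : ℤ) • G := fun F hF => by
    have hd : ∀ n, (p : ℤ) ∣ zCoeff n F := fun n => (ZMod.intCast_zmod_eq_zero_iff_dvd _ p).1 (by
      rw [← coeff_redLattice, hF, map_zero])
    have hp0 : (p : ℂ) ≠ 0 := NeZero.ne _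
    have hmem : (p : ℂ)⁻¹ • (F : CuspForm (Gamma0 p) 2) ∈ intLattice p 2 :=
      Submodule.subset_span fun n => ⟨zCoeff n F / (p : ℤ), by
        rw [← FA.Deform.qLin_apply, map_smul, Pi.smul_apply, ← cast_zCoeff, smul_eq_mul]
        obtain ⟨z, hz⟩ := hd n
        rw [hz, Int.mul_ediv_cancel_left _ (NeZero.ne (p : ℤ))]
        push_cast
        rw [inv_mul_cancel_left₀ hp0]⟩
    refine ⟨⟨_, hmem⟩, Subtype.ext ?_⟩
    rw [Submodule.coe_smul, ← Int.cast_smul_eq_zsmul ℂ, Int.cast_natCast, smul_smul,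
      mul_inv_cancel₀ hp0, one_smul]
  refine ⟨?_, hker⟩
  have hli : LinearIndependent (ZMod p) fun i => redLattice p (b i) := by
    rw [Fintype.linearIndependent_iff]
    intro c hc i
    obtain ⟨G, hG⟩ := hker (∑ j, ((c j).val : ℤ) • b j) (by
      rw [map_sum, ← hc]
      refine Finset.sum_congr rfl fun j _ => ?_
      rw [map_zsmul, natCast_zsmul, ← Nat.cast_smul_eq_nsmul (ZMod p), ZMod.natCast_zmod_val])
    have hr := congrArg (fun v => b.repr v i) hG
    simp only [Module.Basis.repr_sum_self, map_zsmul, Finsupp.smul_apply, smul_eq_mul] at hr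
    rw [← ZMod.natCast_zmod_val (c i), ← Int.cast_natCast, hr, Int.cast_mul, Int.cast_natCast,
      ZMod.natCast_self, zero_mul]
  set K : Submodule (ZMod p) (PowerSeries (ZMod p)) :=
    formSpace p ⊓ LinearMap.ker (PowerSeries.coeff 0)
  have hfwd : ∀ F, redLattice p F ∈ K := fun F => by
    refine ⟨(mem_formSpace h5 _).2 (isFormModP_of_isLv h5 (isLv_of_cuspForm _) (hasQ_lattice F)),
      ?_⟩
    show coeff 0 (redLattice p F) = 0
    rw [coeff_redLattice, zCoeff_zero, Int.cast_zero]
  haveI := FA.SupersingularMass.finite_of_weightSucc p h5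
  have hKrank : Module.finrank (ZMod p) K = Module.finrank ℂ (CuspForm (Gamma0 p) 2) := by
    have h := LinearMap.finrank_range_add_finrank_ker ((PowerSeries.coeff 0).domRestrict
      (formSpace p) : formSpace p →ₗ[ZMod p] ZMod p)
    rw [finrank_formSpace h5, LinearMap.range_eq_top.2 fun c =>
        ⟨c • ⟨_, FA.SupersingularMass.eTwo_mem p h5⟩, by
          rw [map_smul, LinearMap.domRestrict_apply, smul_eq_mul]
          simp [e2, FA.Tau.eTwoInt]⟩,
      finrank_top, Module.finrank_self, ncard_eq h5] at h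
    have e : K = Submodule.map (formSpace p).subtype
        (LinearMap.ker ((PowerSeries.coeff 0).domRestrict (formSpace p))) := by
      rw [LinearMap.ker_domRestrict, Submodule.map_comap_subtype]
    rw [e, Submodule.finrank_map_subtype_eq]
    omega
  have hcard : Fintype.card (Module.Free.ChooseBasisIndex ℤ ↥(intLattice p 2)) =
      Module.finrank ℂ (CuspForm (Gamma0 p) 2) := by
    set J := (2 * ((Gamma0 p).index : ℤ)).toNat / 12 + 1
    let w : ↥(intLattice p 2) →ₗ[ℤ] (Fin J → ℤ) := LinearMap.pi fun j => zCoeff (j : ℕ)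
    have hw : Function.Injective w := by
      rw [injective_iff_map_eq_zero]
      intro f hf
      refine Subtype.ext (FA.Period.cuspForm_eq_zero_of_coeff p 2 _ fun n hn => ?_)
      have h2 := cast_zCoeff n f
      rw [show zCoeff n f = 0 from congrFun hf ⟨n, Finset.mem_range.mp hn⟩, Int.cast_zero] at h2
      exact h2.symm
    have hliC := FA.Mazur.linearIndependent_of_coords
      (fun i => ((b i : ↥(intLattice p 2)) : CuspForm (Gamma0 p) 2))
      (LinearMap.pi fun j : Fin J => (LinearMap.proj (j : ℕ)).comp (FA.Deform.qLin p))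
      (fun i => w (b i)) (b.linearIndependent.map' w (LinearMap.ker_eq_bot.mpr hw))
      fun i j => (cast_zCoeff (j : ℕ) (b i)).symm
    refine (Module.finrank_eq_card_basis (Module.Basis.mk hliC ?_)).symm
    rw [← FA.Period.hasIntegralStructure p 2, Submodule.span_le]
    intro f hf
    rw [show (f : CuspForm (Gamma0 p) 2) = ((⟨f, hf⟩ : ↥(intLattice p 2)) : CuspForm _ 2) from rfl,
      ← b.sum_repr ⟨f, hf⟩, AddSubmonoidClass.coe_finsetSum]
    exact Submodule.sum_mem _ fun i _ =>
      zsmul_mem (Submodule.subset_span (Set.mem_range_self i)) _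
  haveI : FiniteDimensional (ZMod p) K :=
    Submodule.finiteDimensional_of_le (inf_le_left : K ≤ formSpace p)
  have hspan : Submodule.span (ZMod p) (Set.range fun i => redLattice p (b i)) = K :=
    Submodule.eq_of_le_of_finrank_eq (Submodule.span_le.2 (by rintro _ ⟨i, rfl⟩; exact hfwd _))
      (by rw [finrank_span_eq_card hli, hcard, hKrank])
  intro f
  refine ⟨fun ⟨F, hF⟩ => hF ▸ ⟨(mem_formSpace h5 _).1 (hfwd F).1, (hfwd F).2⟩, fun ⟨h1, h2⟩ => ?_⟩
  have hfK : f ∈ K := ⟨(mem_formSpace h5 f).2 h1, h2⟩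
  rw [← hspan, Submodule.mem_span_range_iff_exists_fun] at hfK
  obtain ⟨c, rfl⟩ := hfK
  refine ⟨∑ j, ((c j).val : ℤ) • b j, ?_⟩
  rw [map_sum]
  refine Finset.sum_congr rfl fun j _ => ?_
  rw [map_zsmul, natCast_zsmul, ← Nat.cast_smul_eq_nsmul (ZMod p), ZMod.natCast_zmod_val]

/-- `p E₂(pτ) - E₂(τ)` reduces to `-E₂`. -/
theorem map_EZ : (EZ p).map (Int.castRingHom (ZMod p)) = -e2 p := by
  ext n
  rw [coeff_map, coeff_EZ, map_neg, e2, coeff_map, FA.Tau.eTwoInt, coeff_mk]
  rcases eq_or_ne n 0 with rfl | hn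
  · simp
  · simp only [if_neg hn, eq_intCast]
    have h := congrArg (fun z : ℤ => (z : ZMod p)) (sigma_one_eq p n)
    push_cast at h
    rw [show (if p ∣ n then (p : ZMod p) * ((ArithmeticFunction.sigma 1 (n / p) : ℕ) : ZMod p)
      else 0) = 0 by split_ifs <;> simp] at h
    push_cast
    linear_combination -24 * h

end FA.LevelPModP

end
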