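import Fermat.Agent.Tau.OrdinaryModP

/-!
# The quotient by `A` and `∂A`

In weights above `2p - 10` every isobaric polynomial is `A u + (∂A) v`: in a weight below `2p` the
map is injective and both sides have the same dimension, and higher weights follow by induction.
-/

set_option autoImplicit false

noncomputable section

namespace FA.SwinnertonDyer

open MvPolynomial FA.HasseEis

local notation "Poly" p:max => MvPolynomial (Fin 2) (ZMod p)

/-- The number of monomials of an even weight. -/
def dimWeight (m : ℕ) : ℕ := m / 12 + if m % 12 = 2 then 0 else 1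

/-- The isobaric polynomials of weight `m`. -/
abbrev IsobSub (p m : ℕ) : Submodule (ZMod p) (Poly p) :=
  weightedHomogeneousSubmodule (ZMod p) wts m

variable {p : ℕ} [Fact p.Prime]

theorem finite_isob (m : ℕ) : Finite (IsobSub p m) := by
  refine Finite.of_injective (fun (F : IsobSub p m) (ab : Fin (m + 1) × Fin (m + 1)) =>
    F.1.coeff (Finsupp.single 0 (ab.1 : ℕ) + Finsupp.single 1 (ab.2 : ℕ))) fun F G he => ?_
  refine Subtype.ext (MvPolynomial.ext _ _ fun d => ?_)
  by_cases hd : 4 * d 0 + 6 * d 1 = m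
  · have := congrFun he (⟨d 0, by omega⟩, ⟨d 1, by omega⟩)
    simp only at this
    rwa [show Finsupp.single 0 (d 0) + Finsupp.single 1 (d 1) = d from Finsupp.ext fun i => by
      fin_cases i <;> simp] at this
  · rw [IsWeightedHomogeneous.coeff_eq_zero F.2 d (by rwa [weight_eq]),
      IsWeightedHomogeneous.coeff_eq_zero G.2 d (by rwa [weight_eq])]

theorem isob_monomial (a b : ℕ) : Isob (X 0 ^ a * X 1 ^ b : Poly p) (4 * a + 6 * b) := by
  have h := ((isWeightedHomogeneous_X (ZMod p) wts 0).pow a).mul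
    ((isWeightedHomogeneous_X (ZMod p) wts 1).pow b)
  rwa [show a • wts 0 + b • wts 1 = 4 * a + 6 * b by simp [wts, mul_comm]] at h

theorem exists_exponents {m : ℕ} (hm : Even m) (h2 : m ≠ 2) : ∃ a b, 4 * a + 6 * b = m := by
  obtain ⟨j, rfl⟩ := hm
  rcases Nat.even_or_odd j with ⟨i, rfl⟩ | ⟨i, rfl⟩
  · exact ⟨i, 0, by omega⟩
  · exact ⟨i - 1, 1, by omega⟩

theorem isob_two {F : Poly p} (h : Isob F 2) : F = 0 :=
  MvPolynomial.ext _ _ fun d => by
    rw [coeff_zero, h.coeff_eq_zero d (by rw [weight_eq]; omega)]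

/-- The number of isobaric polynomials of even weight `m`. -/
theorem card_isob : ∀ {m : ℕ}, Even m → Nat.card (IsobSub p m) = p ^ dimWeight m := by
  intro m
  induction m using Nat.strong_induction_on with
  | _ m ih =>
    intro hm
    rcases eq_or_ne m 2 with rfl | h2
    · rw [show dimWeight 2 = 0 from rfl, pow_zero, Nat.card_eq_one_iff_exists]
      exact ⟨⟨0, isWeightedHomogeneous_zero _ _ _⟩, fun F => Subtype.ext (isob_two F.2)⟩
    obtain ⟨a, b, hab⟩ := exists_exponents hm h2
    have hmon : Isob (X 0 ^ a * X 1 ^ b : Poly p) m := hab ▸ isob_monomial a b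
    have hsplit : ∀ F : IsobSub p m,
        Isob (F.1 - C (eval (fun _ => 1) F.1) * (X 0 ^ a * X 1 ^ b)) m :=
      fun F => IsWeightedHomogeneous.sub F.2 (hmon.C_mul _)
    by_cases hlt : m < 12
    · rw [show dimWeight m = 1 by
        obtain ⟨j, rfl⟩ := hm
        unfold dimWeight
        rw [if_neg (by omega)]
        omega, pow_one]
      refine (Nat.card_congr (Equiv.ofBijective (fun c : ZMod p =>
        (⟨C c * (X 0 ^ a * X 1 ^ b), hmon.C_mul c⟩ : IsobSub p m)) ⟨fun c c' h => ?_,
          fun F => ⟨eval (fun _ => 1) F.1, Subtype.ext ?_⟩⟩)).symm.trans (Nat.card_zmod p)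
      · simpa using congrArg (fun x : IsobSub p m => eval (fun _ => (1 : ZMod p)) x.1) h
      · rcases exists_eq_mul (hsplit F) (by simp) with h | ⟨_, h, -, -⟩
        · exact (sub_eq_zero.1 h).symm
        · omega
    have hm' : Even (m - 12) := by obtain ⟨j, rfl⟩ := hm; exact ⟨j - 6, by omega⟩
    have hD : Isob (X 0 ^ 3 - X 1 ^ 2 : Poly p) 12 :=
      ((isWeightedHomogeneous_X (ZMod p) wts 0).pow 3).sub
        ((isWeightedHomogeneous_X (ZMod p) wts 1).pow 2)
    have hD0 : (X 0 ^ 3 - X 1 ^ 2 : Poly p) ≠ 0 := fun e => by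
      simpa using congrArg (eval (![1, 0] : Fin 2 → ZMod p)) e
    rw [show dimWeight m = 1 + dimWeight (m - 12) by
      unfold dimWeight
      rw [show (m - 12) % 12 = m % 12 by omega]
      omega, pow_add, pow_one, ← ih (m - 12) (by omega) hm']
    refine (Nat.card_congr (Equiv.ofBijective (fun x : ZMod p × IsobSub p (m - 12) =>
      (⟨C x.1 * (X 0 ^ a * X 1 ^ b) + (X 0 ^ 3 - X 1 ^ 2) * x.2.1, (hmon.C_mul x.1).add (by
        have := hD.mul x.2.2
        rwa [show 12 + (m - 12) = m by omega] at this)⟩ : IsobSub p m))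
        ⟨fun x y h => ?_, fun F => ?_⟩)).symm.trans (by rw [Nat.card_prod, Nat.card_zmod])
    · have h' := congrArg Subtype.val h
      have h1 : x.1 = y.1 := by simpa using congrArg (eval fun _ => (1 : ZMod p)) h'
      refine Prod.ext h1 (Subtype.ext ?_)
      simp only at h'
      rw [h1, add_right_inj] at h'
      exact mul_left_cancel₀ hD0 h'
    · rcases exists_eq_mul (hsplit F) (by simp) with h | ⟨G, -, hG, hG'⟩
      · exact ⟨⟨eval (fun _ => 1) F.1, 0⟩, Subtype.ext (by
          rw [sub_eq_zero] at h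
          simp [← h])⟩
      · exact ⟨⟨eval (fun _ => 1) F.1, ⟨G, hG⟩⟩, Subtype.ext (by simp [← hG'])⟩

set_option maxHeartbeats 1000000 in
-- 24 cases of linear arithmetic
/-- The number of monomials is additive in the window below `2p`. -/
theorem dimWeight_add {p n : ℕ} (hp : p % 2 = 1) (hp3 : p % 3 ≠ 0) (hn : n % 2 = 0)
    (h1 : 2 * p < n + 10)
    (h2 : n < 2 * p) (h3 : p + 1 ≤ n) :
    dimWeight (n - (p - 1)) + dimWeight (n - (p + 1)) = dimWeight n := by
  unfold dimWeight
  have hr : p % 12 = 1 ∨ p % 12 = 5 ∨ p % 12 = 7 ∨ p % 12 = 11 := by omega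
  obtain ⟨q, hq⟩ : ∃ q, p = 12 * q + p % 12 := ⟨p / 12, by omega⟩
  obtain ⟨m, hm⟩ : ∃ m, n = 12 * m + n % 12 := ⟨n / 12, by omega⟩
  have hn' : n % 12 = 0 ∨ n % 12 = 2 ∨ n % 12 = 4 ∨ n % 12 = 6 ∨ n % 12 = 8 ∨ n % 12 = 10 := by
    omega
  rcases hr with h | h | h | h <;> rcases hn' with h' | h' | h' | h' | h' | h' <;>
    rw [h] at hq <;> rw [h'] at hm <;> split_ifs <;> omega

theorem eq_C_mul_monomial (h5 : 5 ≤ p) {a b : ℕ} (h : 4 * a + 6 * b = p - 1) (hlt : p < 13) :
    hassePoly p = X 0 ^ a * X 1 ^ b := by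
  have hA := isob_hassePoly (p := p) h5
  have he : eval (fun _ => (1 : ZMod p)) (hassePoly p) = 1 := by
    rw [← constantCoeff_phi, phi_hassePoly h5, map_one]
  rcases exists_eq_mul (hA.sub (h ▸ isob_monomial a b)) (by simp [he]) with h' | ⟨_, h', -, -⟩
  · exact sub_eq_zero.1 h'
  · omega

/-- The primes `5` and `7`, where `A` is `X` or `Y`. -/
theorem exists_eq_small (h5 : 5 ≤ p) (h7 : p ≤ 7) {n : ℕ} {d : Fin 2 →₀ ℕ}
    (hd : 4 * d 0 + 6 * d 1 = n) (c : ZMod p) (hn : 2 * p ≤ n) (h3 : p + 1 < n) :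
    ∃ u v, Isob u (n - (p - 1)) ∧ Isob v (n - (p + 1)) ∧
      monomial d c = hassePoly p * u + dOp p (hassePoly p) * v := by
  have hp : p.Prime := Fact.out
  have h57 : p = 5 ∨ p = 7 := by
    interval_cases p <;> first | omega | exact absurd hp (by decide)
  rcases h57 with rfl | rfl
  · have hA := eq_C_mul_monomial (p := 5) (a := 1) (b := 0) h5 rfl (by norm_num)
    simp only [pow_one, pow_zero, mul_one] at hA
    have hB : dOp 5 (hassePoly 5) = X 1 := by
      rw [hA, dOp, mkDerivation_X]
      simp only [Matrix.cons_val_zero]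
      rw [show (-4 : MvPolynomial (Fin 2) (ZMod 5)) = C (-4) by simp [map_ofNat],
        show (-4 : ZMod 5) = 1 from rfl, map_one, one_mul]
    rcases Nat.eq_zero_or_pos (d 0) with h0 | h0
    · refine ⟨0, C c * (X 0 ^ 0 * X 1 ^ (d 1 - 1)), isWeightedHomogeneous_zero _ _ _,
        by convert (isob_monomial 0 (d 1 - 1)).C_mul _ using 1; omega, ?_⟩
      rw [monomial_eq_mul, h0, hB, show d 1 = d 1 - 1 + 1 by omega, pow_succ, Nat.add_sub_cancel]
      ring
    · refine ⟨C c * (X 0 ^ (d 0 - 1) * X 1 ^ d 1), 0,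
        by convert (isob_monomial (d 0 - 1) (d 1)).C_mul _ using 1; omega,
        isWeightedHomogeneous_zero _ _ _, ?_⟩
      rw [monomial_eq_mul, hA, show d 0 = d 0 - 1 + 1 by omega, pow_succ, Nat.add_sub_cancel]
      ring
  · have hA := eq_C_mul_monomial (p := 7) (a := 0) (b := 1) h5 rfl (by norm_num)
    simp only [pow_one, pow_zero, one_mul] at hA
    have hB : dOp 7 (hassePoly 7) = X 0 ^ 2 := by
      rw [hA, dOp, mkDerivation_X]
      simp only [Matrix.cons_val_one, Matrix.cons_val_fin_one]
      rw [show (-6 : MvPolynomial (Fin 2) (ZMod 7)) = C (-6) by simp [map_ofNat],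
        show (-6 : ZMod 7) = 1 from rfl, map_one, one_mul]
    rcases Nat.eq_zero_or_pos (d 1) with h0 | h0
    · refine ⟨0, C c * (X 0 ^ (d 0 - 2) * X 1 ^ 0), isWeightedHomogeneous_zero _ _ _,
        by convert (isob_monomial (d 0 - 2) 0).C_mul _ using 1; omega, ?_⟩
      rw [monomial_eq_mul, h0, hB, show d 0 = d 0 - 2 + 2 by omega, pow_add, Nat.add_sub_cancel]
      ring
    · refine ⟨C c * (X 0 ^ d 0 * X 1 ^ (d 1 - 1)), 0,
        by convert (isob_monomial (d 0) (d 1 - 1)).C_mul _ using 1; omega,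
        isWeightedHomogeneous_zero _ _ _, ?_⟩
      rw [monomial_eq_mul, hA, show d 1 = d 1 - 1 + 1 by omega, pow_succ, Nat.add_sub_cancel]
      ring

/-- **Above weight `2p - 10` everything is in the ideal of `A` and `∂A`.** -/
theorem exists_eq_hasse_add (h5 : 5 ≤ p) : ∀ {n : ℕ} {F : Poly p}, Isob F n → 2 * p < n + 10 →
    p + 1 < n → ∃ u v, Isob u (n - (p - 1)) ∧ Isob v (n - (p + 1)) ∧
      F = hassePoly p * u + dOp p (hassePoly p) * v := by
  intro n
  induction n using Nat.strong_induction_on with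
  | _ n ih =>
    intro F hF h1 h3
    have hA := isob_hassePoly (p := p) h5
    have hB : Isob (dOp p (hassePoly p)) (p + 1) := by
      have := dOp_isob hA
      rwa [show p - 1 + 2 = p + 1 by omega] at this
    have hodd : p % 2 = 1 := Nat.odd_iff.1 ((Fact.out : p.Prime).odd_of_ne_two (by omega))
    have h3p : p % 3 ≠ 0 := fun e => by
      have := (Nat.prime_dvd_prime_iff_eq Nat.prime_three (Fact.out : p.Prime)).1
        (Nat.dvd_of_mod_eq_zero e)
      omega
    by_cases hev : n % 2 = 1
    · have : F = 0 := MvPolynomial.ext _ _ fun d => by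
        rw [coeff_zero, hF.coeff_eq_zero d (by rw [weight_eq]; omega)]
      exact ⟨0, 0, isWeightedHomogeneous_zero _ _ _, isWeightedHomogeneous_zero _ _ _,
        by simp [this]⟩
    rcases lt_or_ge n (2 * p) with h2 | h2
    · have := fun m => finite_isob (p := p) m
      let Φ : IsobSub p (n - (p - 1)) × IsobSub p (n - (p + 1)) → IsobSub p n := fun x =>
        ⟨hassePoly p * x.1.1 + dOp p (hassePoly p) * x.2.1, (by
          have := hA.mul x.1.2
          rwa [show p - 1 + (n - (p - 1)) = n by omega] at this : Isob _ n).add (by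
          have := hB.mul x.2.2
          rwa [show p + 1 + (n - (p + 1)) = n by omega] at this)⟩
      have hinj : Function.Injective Φ := by
        intro x y h
        have h' := congrArg Subtype.val h
        simp only [Φ] at h'
        have hv : x.2.1 = y.2.1 := by
          by_contra hne
          obtain ⟨w, hw⟩ := dvd_of_dvd_mul_dOp (F := x.2.1 - y.2.1) h5
            ⟨y.1.1 - x.1.1, by linear_combination h'⟩
          have hne' : x.2.1 - y.2.1 ≠ 0 := sub_ne_zero.2 hne
          have hxy : Isob (x.2.1 - y.2.1) (n - (p + 1)) := IsWeightedHomogeneous.sub x.2.2 y.2.2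
          obtain ⟨m, -, hm⟩ := isob_of_dvd hne' hxy (Dvd.intro_left _ hw.symm)
          have := hxy.inj_right hne' (hw ▸ hA.mul hm)
          omega
        rw [hv, add_left_inj] at h'
        exact Prod.ext (Subtype.ext (mul_left_cancel₀ (hassePoly_ne_zero h5) h')) (Subtype.ext hv)
      have hcard : Nat.card (IsobSub p (n - (p - 1)) × IsobSub p (n - (p + 1))) =
          Nat.card (IsobSub p n) := by
        rw [Nat.card_prod, card_isob (Nat.even_iff.2 (by omega)), card_isob (Nat.even_iff.2
          (by omega)), card_isob (Nat.even_iff.2 (by omega)), ← pow_add,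
          dimWeight_add hodd h3p (by omega) h1 h2 (by omega)]
      obtain ⟨⟨u, v⟩, huv⟩ :=
        ((Nat.bijective_iff_injective_and_card Φ).2 ⟨hinj, hcard⟩).2 ⟨F, hF⟩
      exact ⟨u.1, v.1, u.2, v.2, (congrArg Subtype.val huv).symm⟩
    · -- weights from `2p` on: one variable less
      induction hF using IsWeightedHomogeneous.induction_on with
      | zero =>
        exact ⟨0, 0, isWeightedHomogeneous_zero _ _ _, isWeightedHomogeneous_zero _ _ _,
          by simp⟩
      | add F G _ _ hF' hG' =>
        obtain ⟨u, v, hu, hv, rfl⟩ := hF'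
        obtain ⟨u', v', hu', hv', rfl⟩ := hG'
        exact ⟨u + u', v + v', hu.add hu', hv.add hv', by ring⟩
      | monomial d c hd =>
        rw [weight_eq] at hd
        by_cases hsmall : p ≤ 7
        · exact exists_eq_small h5 hsmall hd c (by omega) h3
        have hp11 : 11 ≤ p := by
          have : p ≠ 9 := fun e => by rw [e] at h3p; omega
          omega
        obtain ⟨i, a, b, hab, he⟩ : ∃ (i : Fin 2) (a b : ℕ), wts i + (4 * a + 6 * b) = n ∧
            monomial d c = X i * (C c * (X 0 ^ a * X 1 ^ b)) := by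
          rcases Nat.eq_zero_or_pos (d 0) with h0 | h0
          · refine ⟨1, 0, d 1 - 1, by simp [wts]; omega, ?_⟩
            rw [monomial_eq_mul, h0, show d 1 = d 1 - 1 + 1 by omega, pow_succ, Nat.add_sub_cancel]
            ring
          · refine ⟨0, d 0 - 1, d 1, by simp [wts]; omega, ?_⟩
            rw [monomial_eq_mul, show d 0 = d 0 - 1 + 1 by omega, pow_succ, Nat.add_sub_cancel]
            ring
        have hw : wts i = 4 ∨ wts i = 6 := by fin_cases i <;> simp [wts]
        obtain ⟨u, v, hu, hv, huv⟩ := ih (4 * a + 6 * b) (by omega)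
          ((isob_monomial a b).C_mul c) (by omega) (by omega)
        have hXu := (isWeightedHomogeneous_X (ZMod p) wts i).mul hu
        have hXv := (isWeightedHomogeneous_X (ZMod p) wts i).mul hv
        rw [show wts i + (4 * a + 6 * b - (p - 1)) = n - (p - 1) by omega] at hXu
        rw [show wts i + (4 * a + 6 * b - (p + 1)) = n - (p + 1) by omega] at hXv
        exact ⟨X i * u, X i * v, hXu, hXv, by rw [he, huv]; ring⟩

end FA.SwinnertonDyer

end
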