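import Fermat.Agent.Tau.SupersingularPoints
import Fermat.Agent.Tau.SupersingularQuotient
import Mathlib.NumberTheory.Wilson

/-!
# Weight `p + 1` modulo `p`

At the zeros of `A` the operator `θ` is multiplication by `k β`, `β = ∂A / 12`, so `θ ^ (p - 1)` in
weight `p + 1` is multiplication by `-β ^ (p - 1)` and `(U f) ^ p` is `f β ^ (p - 1)`. The values
being proportional over `𝔽_(p²)`, `U ^ 2` is the identity (Serre: weight `p + 1` is weight two of
level `p`). Also: a constant is congruent to a form only in weights divisible by `p - 1`.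
-/

set_option autoImplicit false

noncomputable section

namespace FA.SwinnertonDyer

open MvPolynomial FA.HasseEis FA.SupersingularPoints UpperHalfPlane
open scoped MatrixGroups Nat

local notation "Poly" p:max => MvPolynomial (Fin 2) (ZMod p)

variable {p : ℕ} [Fact p.Prime]

/-- `∂A / 12`, the reduction of `E₂ / 12`. -/
def betaPoly (p : ℕ) : Poly p := C (12 : ZMod p)⁻¹ * dOp p (hassePoly p)

theorem isob_betaPoly (h5 : 5 ≤ p) : Isob (betaPoly p) (p + 1) := by
  have h := (dOp_isob (isob_hassePoly (p := p) h5)).C_mul (12 : ZMod p)⁻¹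
  rwa [show p - 1 + 2 = p + 1 by omega] at h

/-- The iterates of `θ` at the zeros of `A`. -/
theorem exists_theta_iterate (h5 : 5 ≤ p) {F : Poly p} (hF : Isob F (p + 1)) (j : ℕ) :
    ∃ G, Isob G ((j + 1) * (p + 1)) ∧ phi p G = (thetaP p)^[j] (phi p F) ∧
      ∀ x : Fin 2 → AlgebraicClosure (ZMod p), aeval x (hassePoly p) = 0 →
        aeval x G = (j ! : AlgebraicClosure (ZMod p)) * aeval x F * aeval x (betaPoly p) ^ j := by
  induction j with
  | zero => exact ⟨F, by simpa using hF, rfl, fun x _ => by simp⟩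
  | succ j ih =>
    obtain ⟨G, hG, hG', hval⟩ := ih
    refine ⟨thetaPoly p ((j + 1) * (p + 1)) G, ?_, ?_, fun x hx => ?_⟩
    · have h := isob_thetaPoly h5 hG
      rwa [show (j + 1) * (p + 1) + p + 1 = (j + 1 + 1) * (p + 1) by ring] at h
    · rw [phi_thetaPoly h5 hG, hG', Function.iterate_succ_apply']
    · have hp : ((p : ℕ) : AlgebraicClosure (ZMod p)) = 0 := by
        rw [← map_natCast (algebraMap (ZMod p) _), ZMod.natCast_self, map_zero]
      simp only [thetaPoly, betaPoly, map_mul, map_add, hx, zero_mul, zero_add, map_natCast,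
        hval x hx, Nat.factorial_succ, pow_succ]
      push_cast
      rw [hp]
      ring

/-- `(U f) ^ p` is `f β ^ (p - 1)` at the zeros of `A`. -/
theorem exists_uOp (h5 : 5 ≤ p) {F : Poly p} (hF : Isob F (p + 1)) :
    ∃ H, Isob H (p + 1) ∧ phi p H = uOp p (phi p F) ∧
      ∀ x : Fin 2 → AlgebraicClosure (ZMod p), aeval x (hassePoly p) = 0 →
        aeval x H ^ p = aeval x F * aeval x (betaPoly p) ^ (p - 1) := by
  obtain ⟨H, hH, hH'⟩ :=
    (isFormModP_uOp_of_two_le (by omega) (isFormModP_phi hF)).exists_isob h5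
  obtain ⟨G, hG, hG', hval⟩ := exists_theta_iterate h5 hF (p - 1)
  rw [show (p - 1 + 1) * (p + 1) = p * (p + 1) by rw [Nat.sub_add_cancel (by omega)]] at hG
  have hw : (p + 1) * (p - 1) + (p + 1) = p * (p + 1) := by
    rw [← Nat.mul_succ, Nat.succ_eq_add_one, Nat.sub_add_cancel (by omega), mul_comm]
  have hHp : Isob (H ^ p) (p * (p + 1)) := by simpa [smul_eq_mul] using hH.pow p
  have hAF : Isob (hassePoly p ^ (p + 1) * F) (p * (p + 1)) := by
    have := ((isob_hassePoly (p := p) h5).pow (p + 1)).mul hF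
    rwa [smul_eq_mul, hw] at this
  have heq : H ^ p = hassePoly p ^ (p + 1) * F - G := by
    refine sub_eq_zero.1 (phi_injective h5 (hHp.sub (hAF.sub hG)) ?_)
    rw [map_sub, map_sub, map_mul, map_pow, map_pow, phi_hassePoly h5, one_pow, one_mul, hH', hG',
      uOp_pow, sub_self]
  refine ⟨H, hH, hH', fun x hx => ?_⟩
  have hw' : ((((p - 1) ! : ℕ)) : AlgebraicClosure (ZMod p)) = -1 := by
    rw [← map_natCast (algebraMap (ZMod p) _), ZMod.wilsons_lemma, map_neg, map_one]
  rw [← map_pow, heq, map_sub, map_mul, map_pow, hx, zero_pow (by omega), zero_mul, zero_sub,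
    hval x hx, hw']
  ring

/-- **Serre: `U ^ 2` is the identity in weight `p + 1`.** -/
theorem uOp_uOp (h5 : 5 ≤ p) {f : PowerSeries (ZMod p)} (hf : IsFormModP p (p + 1) f) :
    uOp p (uOp p f) = f := by
  obtain ⟨F, hF, rfl⟩ := hf.exists_isob h5
  obtain ⟨H, hH, hH', h1⟩ := exists_uOp h5 hF
  obtain ⟨H₂, hH₂, hH₂', h2⟩ := exists_uOp h5 hH
  rw [← hH', ← hH₂']
  refine congrArg _ (sub_eq_zero.1 (eq_zero_of_forall h5 (hH₂.sub hF) fun x hx => ?_))
  set B := aeval x (betaPoly p) with hB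
  have hBd : B = (12 : AlgebraicClosure (ZMod p))⁻¹ * aeval x (dOp p (hassePoly p)) := by
    simp [hB, betaPoly, map_inv₀, map_ofNat]
  by_cases hd : aeval x (dOp p (hassePoly p)) = 0
  · rw [hd, mul_zero]
  have h12 : (12 : AlgebraicClosure (ZMod p)) ≠ 0 := by
    rw [← map_ofNat (algebraMap (ZMod p) _)]
    exact (map_ne_zero _).2 (twelve_ne h5)
  have hB0 : B ≠ 0 := hBd ▸ mul_ne_zero (inv_ne_zero h12) hd
  rw [mul_eq_zero, or_iff_left hd, map_sub, sub_eq_zero]
  have key : aeval x H₂ ^ p ^ 2 = aeval x F ^ p ^ 2 := by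
    refine mul_right_cancel₀ hB0 ?_
    have e : (p - 1) * p + (p - 1) + 1 = p ^ 2 := by
      obtain ⟨m, rfl⟩ : ∃ m, p = m + 1 := ⟨p - 1, by omega⟩
      rw [Nat.add_sub_cancel]; ring
    calc aeval x H₂ ^ p ^ 2 * B = (aeval x H₂ ^ p) ^ p * B := by rw [pow_two, pow_mul]
      _ = aeval x H ^ p * B ^ ((p - 1) * p + 1) := by rw [h2 x hx, mul_pow, ← pow_mul]; ring
      _ = aeval x F * B ^ p ^ 2 := by
          rw [h1 x hx, mul_assoc, ← pow_add,
            show p - 1 + ((p - 1) * p + 1) = p ^ 2 by omega]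
      _ = aeval x F ^ p ^ 2 * B := (pow_sq_mul_comm h5 hF (isob_betaPoly h5) hx).symm
  have h0 : (aeval x H₂ - aeval x F) ^ p ^ 2 = 0 := by
    rw [sub_pow_char_pow, key, sub_self]
  exact sub_eq_zero.1 (eq_zero_of_pow_eq_zero h0)

/-- The eigenvalues of `U` in weight `p + 1` are `± 1`. -/
theorem eigenvalue_succ (h5 : 5 ≤ p) {f : PowerSeries (ZMod p)} (hf : IsFormModP p (p + 1) f)
    (h0 : f ≠ 0) {c : ZMod p} (he : uOp p f = PowerSeries.C c * f) : c = 1 ∨ c = -1 := by
  have e := uOp_uOp h5 hf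
  have hlin : uOp p (PowerSeries.C c * f) = PowerSeries.C c * uOp p f := by
    ext m
    simp only [uOp, PowerSeries.coeff_mk, PowerSeries.coeff_C_mul]
  rw [he, hlin, he, ← mul_assoc, ← map_mul] at e
  have hc : PowerSeries.C (c * c) = PowerSeries.C (1 : ZMod p) :=
    mul_right_cancel₀ h0 (by rw [e, map_one, one_mul])
  exact mul_self_eq_one_iff.1 (PowerSeries.C_injective hc)

/-- A non-zero form modulo `p` of weight `p + 1` has least weight `p + 1`. -/
theorem isLeast_succ (h5 : 5 ≤ p) {f : PowerSeries (ZMod p)} (hf : IsFormModP p (p + 1) f)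
    (h0 : f ≠ 0) : IsLeast {n | IsFormModP p n f} (p + 1) := by
  refine ⟨hf, fun n hn => ?_⟩
  by_contra hlt
  obtain ⟨F, hF, rfl⟩ := hf.exists_isob h5
  obtain ⟨G, hG, hG'⟩ := IsFormModP.exists_isob h5 hn
  obtain ⟨q, hq⟩ := (Nat.modEq_iff_dvd' (by omega : n ≤ p + 1)).1
    (weight_congr h5 hG hF hG' (hG'.symm ▸ h0))
  obtain rfl : n = 2 := by
    rcases q with _ | _ | q
    · rw [mul_zero] at hq; omega
    · simp at hq; omega
    · have : (p - 1) * 2 ≤ (p - 1) * (q + 1 + 1) := Nat.mul_le_mul_left _ (by omega)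
      omega
  exact h0 (by rw [← hG', isob_two hG, map_zero])

/-- Forms with integral expansion congruent to a constant modulo a power of `p`. -/
theorem constant_dvd (h5 : 5 ≤ p) {k : ℕ} (hk : ¬p - 1 ∣ k) (m : ℕ) :
    ∀ (F : ModularForm 𝒮ℒ (k : ℤ)) (S : PowerSeries ℤ),
      qExpansion 1 ⇑F = S.map (Int.castRingHom ℂ) →
      (∀ n, n ≠ 0 → (p : ℤ) ^ m ∣ PowerSeries.coeff n S) →
      (p : ℤ) ^ m ∣ PowerSeries.coeff 0 S := by
  induction m with
  | zero => simp
  | succ m ih =>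
    intro F S hS h
    have hm := ih F S hS fun n hn => (pow_dvd_pow _ m.le_succ).trans (h n hn)
    set q : ℤ := (p : ℤ) ^ m with hq
    have hq0 : q ≠ 0 := pow_ne_zero _ (by exact_mod_cast (Fact.out : p.Prime).ne_zero)
    have hall : ∀ n, q ∣ PowerSeries.coeff n S := fun n => by
      rcases eq_or_ne n 0 with rfl | hn
      · exact hm
      · exact (pow_dvd_pow _ m.le_succ).trans (h n hn)
    set T : PowerSeries ℤ := PowerSeries.mk fun n => PowerSeries.coeff n S / q with hT
    have hT' : ∀ n, q * PowerSeries.coeff n T = PowerSeries.coeff n S := fun n => by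
      rw [hT, PowerSeries.coeff_mk, Int.mul_ediv_cancel' (hall n)]
    have hform : IsFormModP p k (T.map (Int.castRingHom (ZMod p))) := by
      refine ⟨((q : ℂ))⁻¹ • F, T, ?_, rfl⟩
      rw [show ⇑(((q : ℂ))⁻¹ • F) = ((q : ℂ))⁻¹ • ⇑F from rfl,
        ((FA.Tau.hasQ_form F).smul _).qExpansion_eq one_pos, hS]
      ext n
      rw [PowerSeries.coeff_smul, PowerSeries.coeff_map, PowerSeries.coeff_map, ← hT' n,
        smul_eq_mul, eq_intCast, eq_intCast, Int.cast_mul,
        inv_mul_cancel_left₀ (Int.cast_ne_zero.2 hq0)]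
    have hdvd : ∀ n, n ≠ 0 → (p : ℤ) ∣ PowerSeries.coeff n T := fun n hn => by
      have := h n hn
      rw [pow_succ, ← hT' n, hq] at this
      exact (mul_dvd_mul_iff_left hq0).1 this
    rw [pow_succ, ← hT' 0, hq]
    refine mul_dvd_mul_left _ ?_
    by_contra hne
    have hc : T.map (Int.castRingHom (ZMod p)) =
        phi p (C ((PowerSeries.coeff 0 T : ℤ) : ZMod p)) := by
      ext n
      rw [phi, aeval_C, PowerSeries.algebraMap_eq, PowerSeries.coeff_map, PowerSeries.coeff_C,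
        eq_intCast]
      split_ifs with hn
      · rw [hn]
      · exact (ZMod.intCast_zmod_eq_zero_iff_dvd _ p).2 (hdvd n hn)
    obtain ⟨G, hG, hG'⟩ := hform.exists_isob h5
    refine hk ((Nat.modEq_iff_dvd' (Nat.zero_le k)).1
      (weight_congr h5 (isWeightedHomogeneous_C wts _) hG (hG'.trans hc).symm ?_))
    intro h0
    refine hne ((ZMod.intCast_zmod_eq_zero_iff_dvd _ p).1 ?_)
    simpa [constantCoeff_phi] using congrArg PowerSeries.constantCoeff h0

/-- **Serre: the constant term follows the others.** -/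
theorem constant_rat (h5 : 5 ≤ p) {k : ℕ} (hk : ¬p - 1 ∣ k) (F : ModularForm 𝒮ℒ (k : ℤ))
    {c : ℚ} {a : ℕ → ℤ} {m : ℕ} (h0 : (qExpansion 1 ⇑F).coeff 0 = (c : ℂ))
    (ha : ∀ n, n ≠ 0 → (qExpansion 1 ⇑F).coeff n = (a n : ℂ) ∧ (p : ℤ) ^ m ∣ a n) :
    ¬p ∣ c.den ∧ (p : ℤ) ^ m ∣ c.num := by
  set S : PowerSeries ℤ := PowerSeries.mk fun n => if n = 0 then c.num else c.den * a n with hSdef
  have hS : qExpansion 1 ⇑((c.den : ℂ) • F) = S.map (Int.castRingHom ℂ) := by
    rw [show ⇑((c.den : ℂ) • F) = (c.den : ℂ) • ⇑F from rfl,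
      ((FA.Tau.hasQ_form F).smul _).qExpansion_eq one_pos]
    ext n
    rw [PowerSeries.coeff_smul, PowerSeries.coeff_map, hSdef, PowerSeries.coeff_mk, smul_eq_mul,
      eq_intCast]
    split_ifs with hn
    · rw [hn, h0]
      exact_mod_cast Rat.den_mul_eq_num c
    · rw [(ha n hn).1]
      push_cast
      rfl
  have key : ∀ i, (∀ n, n ≠ 0 → (p : ℤ) ^ i ∣ c.den * a n) → (p : ℤ) ^ i ∣ c.num := fun i hi => by
    have := constant_dvd h5 hk i _ S hS fun n hn => by
      rw [hSdef, PowerSeries.coeff_mk, if_neg hn]; exact hi n hn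
    rwa [hSdef, PowerSeries.coeff_mk, if_pos rfl] at this
  refine ⟨fun hd => ?_, key m fun n hn => dvd_mul_of_dvd_right (ha n hn).2 _⟩
  have h1 := key 1 fun n _ => by rw [pow_one]; exact dvd_mul_of_dvd_left (by exact_mod_cast hd) _
  rw [pow_one, Int.natCast_dvd] at h1
  exact Nat.not_coprime_of_dvd_of_dvd (Fact.out : p.Prime).one_lt h1 hd c.reduced

end FA.SwinnertonDyer

end
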