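import Fermat.Agent.Tau.LevelOneModP

/-!
# Filtration and the theta operator modulo `p`

`θ = q d/dq` takes forms of weight `k` modulo `p` to forms of weight `k + p + 1`. If `k` is the
least weight of a non-zero form, the weight `k + p + 1` is least for its image exactly when `p`
does not divide `k`: the Hasse invariant is prime to its derivative.
-/

set_option autoImplicit false

noncomputable section

namespace FA.SwinnertonDyer

open MvPolynomial FA.Tau FA.Eis FA.HasseEis UpperHalfPlane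
open scoped MatrixGroups Manifold ModularForm

local notation "Poly" p:max => MvPolynomial (Fin 2) (ZMod p)

/-- A series modulo `p` that is congruent to a form of weight `n` with integral expansion. -/
def IsFormModP (p n : ℕ) (f : PowerSeries (ZMod p)) : Prop :=
  ∃ (G : ModularForm 𝒮ℒ (n : ℤ)) (T : PowerSeries ℤ),
    qExpansion 1 ⇑G = T.map (Int.castRingHom ℂ) ∧ T.map (Int.castRingHom (ZMod p)) = f

variable {p : ℕ} [Fact p.Prime]

/-- An isobaric polynomial gives a form modulo `p`. -/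
theorem isFormModP_phi {F : Poly p} {n : ℕ} (hF : Isob F n) : IsFormModP p n (phi p F) := by
  induction hF using IsWeightedHomogeneous.induction_on with
  | zero => exact ⟨0, 0, by simp [qExpansion_zero], by simp⟩
  | add a b _ _ ha hb =>
    obtain ⟨G, T, hG, hT⟩ := ha
    obtain ⟨G', T', hG', hT'⟩ := hb
    refine ⟨G + G', T + T', ?_, by rw [map_add, hT, hT', map_add]⟩
    rw [map_add, ← hG, ← hG', FunLike.coe_add]
    exact ((hasQ_form G).add (hasQ_form G')).qExpansion_eq one_pos
  | monomial d c hd =>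
    rw [weight_eq] at hd
    set g : ℍ → ℂ := ⇑ModularForm.E₄ ^ d 0 * ⇑ModularForm.E₆ ^ d 1
    set g' : PowerSeries ℤ := eFourInt ^ d 0 * eSixInt ^ d 1
    have hg : HasQ 1 g (g'.map (Int.castRingHom ℂ)) := by
      rw [map_mul, map_pow, map_pow]
      exact (hasQ_eFour.pow one_pos _).mul one_pos (hasQ_eSix.pow one_pos _)
    have hinv : ∀ γ : SL(2, ℤ), g ∣[(n : ℤ)] γ = g := fun γ => by
      refine (FA.ModField.slash_eq_iff_smul γ).2 fun z => ?_
      simp only [g, Pi.mul_apply, Pi.pow_apply]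
      rw [FA.ModField.E4_smul, FA.LevelOneRing.E6_smul, mul_pow, mul_pow, ← hd]
      push_cast
      rw [zpow_add₀ (denom_ne_zero _ _), zpow_mul, zpow_mul, zpow_natCast, zpow_natCast]
      ring
    obtain ⟨G, hG⟩ : ∃ G : ModularForm 𝒮ℒ (n : ℤ), ⇑G = g :=
      ⟨FA.ModField.levelOneForm g hinv (hg.mdiff one_pos) (hg.bdd one_pos), rfl⟩
    refine ⟨(c.val : ℂ) • G, PowerSeries.C (c.val : ℤ) * g', ?_, ?_⟩
    · rw [show ⇑((c.val : ℂ) • G) = (c.val : ℂ) • g by rw [← hG]; rfl, map_mul, PowerSeries.map_C,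
        ← PowerSeries.smul_eq_C_mul, map_natCast]
      exact (hg.smul _).qExpansion_eq one_pos
    · rw [monomial_eq_mul, map_mul (PowerSeries.map _), PowerSeries.map_C,
        show Int.castRingHom (ZMod p) (c.val : ℤ) = c by simp]
      simp [phi, g', e4, e6]

/-- A form modulo `p` comes from an isobaric polynomial. -/
theorem IsFormModP.exists_isob (h5 : 5 ≤ p) {n : ℕ} {f : PowerSeries (ZMod p)}
    (h : IsFormModP p n f) : ∃ F : Poly p, Isob F n ∧ phi p F = f := by
  obtain ⟨G, T, hG, hT⟩ := h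
  obtain ⟨F, hF, hF'⟩ := SwinnertonDyer.exists_isob (p := p) h5 n ⇑G T
    (fun γ => G.slash_action_eq' _ ⟨γ, rfl⟩) (hG ▸ hasQ_form G)
  exact ⟨F, hF, hF'.trans hT⟩

/-- `E₂` is congruent to `∂A`. -/
theorem phi_dOp_hassePoly (h5 : 5 ≤ p) : phi p (dOp p (hassePoly p)) = e2 p := by
  have hp : ((p : ℕ) : Poly p) = 0 := CharP.cast_eq_zero _ p
  have h := phi_dOp (hassePoly p)
  rw [wOp_isob (isob_hassePoly h5), map_mul, phi_hassePoly h5, map_natCast,
    Nat.cast_sub (by omega : 1 ≤ p),
    show ((p : ℕ) : PowerSeries (ZMod p)) = 0 by rw [← map_natCast (phi p) p, hp, map_zero],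
    thetaP, show PowerSeries.derivative (ZMod p) (1 : PowerSeries (ZMod p)) = 0 from
      Derivation.map_one_eq_zero _] at h
  push_cast at h
  linear_combination h

theorem twelve_ne (h5 : 5 ≤ p) : (12 : ZMod p) ≠ 0 := by
  rw [show (12 : ZMod p) = 2 ^ 2 * 3 by norm_num]
  exact mul_ne_zero (pow_ne_zero _ (ne_two_three h5).1) (ne_two_three h5).2

/-- The theta operator on isobaric polynomials of weight `n`. -/
def thetaPoly (p n : ℕ) [Fact p.Prime] (F : Poly p) : Poly p :=
  C (12 : ZMod p)⁻¹ * (hassePoly p * dOp p F + (n : Poly p) * F * dOp p (hassePoly p))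

theorem isob_thetaPoly (h5 : 5 ≤ p) {F : Poly p} {n : ℕ} (hF : Isob F n) :
    Isob (thetaPoly p n F) (n + p + 1) := by
  have hA := isob_hassePoly (p := p) h5
  refine IsWeightedHomogeneous.C_mul (IsWeightedHomogeneous.add ?_ ?_) _
  · convert hA.mul (dOp_isob hF) using 1
    omega
  · rw [← map_natCast (C : ZMod p →+* Poly p)]
    convert (hF.C_mul (n : ZMod p)).mul (dOp_isob hA) using 1
    omega

theorem phi_thetaPoly (h5 : 5 ≤ p) {F : Poly p} {n : ℕ} (hF : Isob F n) :
    phi p (thetaPoly p n F) = thetaP p (phi p F) := by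
  have h := phi_dOp F
  rw [wOp_isob hF, map_mul, map_natCast] at h
  simp only [thetaPoly, map_mul (phi p), map_add (phi p), map_natCast, phi_hassePoly h5,
    phi_dOp_hassePoly h5, one_mul]
  rw [show phi p (dOp p F) + (n : PowerSeries (ZMod p)) * phi p F * e2 p =
      12 * thetaP p (phi p F) by linear_combination h,
    show phi p (C (12 : ZMod p)⁻¹) = PowerSeries.C (12 : ZMod p)⁻¹ by simp [phi],
    show (12 : PowerSeries (ZMod p)) = PowerSeries.C 12 from (map_ofNat _ 12).symm, ← mul_assoc,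
    ← map_mul, inv_mul_cancel₀ (twelve_ne h5), map_one, one_mul]

theorem hassePoly_ne_zero (h5 : 5 ≤ p) : hassePoly p ≠ 0 := fun e => by
  have := phi_hassePoly (p := p) h5
  rw [e, map_zero] at this
  exact zero_ne_one this

/-- **The Hasse invariant is prime to its derivative.** -/
theorem dvd_of_dvd_mul_dOp (h5 : 5 ≤ p) {F : Poly p}
    (h : hassePoly p ∣ F * dOp p (hassePoly p)) : hassePoly p ∣ F := by
  refine UniqueFactorizationMonoid.dvd_of_dvd_mul_left_of_no_prime_factors
    (hassePoly_ne_zero h5) (fun π hπA hπd hπ => ?_) h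
  obtain ⟨u, hu⟩ := hπA
  have h2 : π ∣ u * dOp p π := by
    rw [hu, Derivation.leibniz, smul_eq_mul, smul_eq_mul] at hπd
    exact (dvd_add_right (dvd_mul_right _ _)).1 hπd
  rcases hπ.dvd_or_dvd h2 with h3 | h3
  · exact not_sq_dvd_hasse h5 hπ ⟨u, hu⟩ (by rw [hu, pow_two]; exact mul_dvd_mul_left π h3)
  · exact not_dvd_dOp_self h5 hπ ⟨u, hu⟩ h3

/-- In the least weight the polynomial is prime to `A`. -/
theorem not_dvd_of_isLeast (h5 : 5 ≤ p) {F : Poly p} {k : ℕ} (hF : Isob F k)
    (h0 : phi p F ≠ 0) (hk : k ∈ lowerBounds {n | IsFormModP p n (phi p F)}) :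
    ¬hassePoly p ∣ F := by
  rintro ⟨H, rfl⟩
  have hne : hassePoly p * H ≠ 0 := fun e => h0 (by rw [e, map_zero])
  obtain ⟨m, -, hH⟩ := isob_of_dvd hne hF (Dvd.intro_left _ rfl)
  have hm := hF.inj_right hne ((isob_hassePoly h5).mul hH)
  have := hk (show m ∈ {n | IsFormModP p n (phi p (hassePoly p * H))} by
    rw [map_mul, phi_hassePoly h5, one_mul]; exact isFormModP_phi hH)
  omega

/-- **The theta operator raises the weight by `p + 1`.** -/
theorem IsFormModP.theta (h5 : 5 ≤ p) {n : ℕ} {f : PowerSeries (ZMod p)}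
    (h : IsFormModP p n f) : IsFormModP p (n + p + 1) (thetaP p f) := by
  obtain ⟨F, hF, rfl⟩ := h.exists_isob h5
  rw [← phi_thetaPoly h5 hF]
  exact isFormModP_phi (isob_thetaPoly h5 hF)

/-- **The filtration of `θ f`**. -/
theorem filtration_theta (h5 : 5 ≤ p) {k : ℕ} {f : PowerSeries (ZMod p)} (hf : f ≠ 0)
    (hk : IsLeast {n | IsFormModP p n f} k) :
    IsLeast {n | IsFormModP p n (thetaP p f)} (k + p + 1) ↔ ¬p ∣ k := by
  obtain ⟨F, hF, rfl⟩ := hk.1.exists_isob h5
  refine ⟨fun h hpk => ?_, fun hpk => ⟨hk.1.theta h5, fun n hn => ?_⟩⟩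
  · have e : thetaPoly p k F = hassePoly p * (C (12 : ZMod p)⁻¹ * dOp p F) := by
      rw [thetaPoly, show ((k : ℕ) : Poly p) = 0 from (CharP.cast_eq_zero_iff _ p k).2 hpk]
      ring
    have := h.2 (show k + 2 ∈ {n | IsFormModP p n (thetaP p (phi p F))} by
      rw [← phi_thetaPoly h5 hF, e, map_mul, phi_hassePoly h5, one_mul]
      exact isFormModP_phi ((dOp_isob hF).C_mul _))
    omega
  obtain ⟨H, hH, he⟩ := IsFormModP.exists_isob h5 hn
  rw [← phi_thetaPoly h5 hF] at he
  have hG := isob_thetaPoly (p := p) h5 hF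
  set G := thetaPoly p k F with hGdef
  have hndvd : ¬hassePoly p ∣ G := fun h => by
    have hu : IsUnit (C (12 : ZMod p)⁻¹ : Poly p) :=
      (Ne.isUnit (inv_ne_zero (twelve_ne h5))).map C
    rw [hGdef, thetaPoly, hu.dvd_mul_left, dvd_add_right (dvd_mul_right _ _)] at h
    have hu' : IsUnit ((k : Poly p)) := by
      rw [← map_natCast (C : ZMod p →+* Poly p)]
      exact (Ne.isUnit (natCast_ne hpk)).map C
    rw [mul_assoc, hu'.dvd_mul_left] at h
    exact not_dvd_of_isLeast h5 hF hf hk.2 (dvd_of_dvd_mul_dOp h5 h)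
  by_contra hlt
  have h0 : phi p G ≠ 0 := fun e => hndvd (by rw [phi_injective h5 hG e]; exact dvd_zero _)
  have hmod := weight_congr h5 hH hG he (he ▸ h0)
  obtain ⟨j, hj⟩ := (Nat.modEq_iff_dvd' (by omega : n ≤ k + p + 1)).1 hmod
  have hAH : Isob (hassePoly p ^ j * H) (k + p + 1) := by
    have h := ((isob_hassePoly (p := p) h5).pow j).mul hH
    rwa [smul_eq_mul, show j * (p - 1) + n = k + p + 1 by
      rw [mul_comm j, ← hj]; omega] at h
  have heq : G - hassePoly p ^ j * H = 0 := phi_injective h5 (hG.sub hAH) (by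
    rw [map_sub, map_mul, map_pow, phi_hassePoly h5, one_pow, one_mul, he, sub_self])
  obtain ⟨i, rfl⟩ : ∃ i, j = i + 1 := ⟨j - 1, by
    rcases j with _ | j
    · rw [mul_zero] at hj; omega
    · rfl⟩
  exact hndvd ⟨hassePoly p ^ i * H, by rw [sub_eq_zero.1 heq, pow_succ']; ring⟩

/-- The filtration is multiplicative in powers. -/
theorem filtration_pow (h5 : 5 ≤ p) {k : ℕ} {f : PowerSeries (ZMod p)} (hf : f ≠ 0)
    (hk : IsLeast {n | IsFormModP p n f} k) (i : ℕ) :
    IsLeast {n | IsFormModP p n (f ^ i)} (i * k) := by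
  obtain ⟨F, hF, rfl⟩ := hk.1.exists_isob h5
  refine ⟨by simpa [← map_pow, smul_eq_mul] using isFormModP_phi (hF.pow i), fun n hn => ?_⟩
  obtain ⟨H, hH, he⟩ := IsFormModP.exists_isob h5 hn
  rw [← map_pow] at he
  have hFi : Isob (F ^ i) (i * k) := by simpa [smul_eq_mul] using hF.pow i
  have h0 : phi p (F ^ i) ≠ 0 := by rw [map_pow]; exact pow_ne_zero _ hf
  by_contra hlt
  obtain ⟨j, hj⟩ := (Nat.modEq_iff_dvd' (by omega : n ≤ i * k)).1
    (weight_congr h5 hH hFi he (he ▸ h0))
  have hAH : Isob (hassePoly p ^ j * H) (i * k) := by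
    have h := ((isob_hassePoly (p := p) h5).pow j).mul hH
    rwa [smul_eq_mul, show j * (p - 1) + n = i * k by rw [mul_comm j, ← hj]; omega] at h
  have heq : F ^ i - hassePoly p ^ j * H = 0 := phi_injective h5 (hFi.sub hAH) (by
    rw [map_sub, map_mul (phi p), map_pow (phi p) (hassePoly p), phi_hassePoly h5, one_pow,
      one_mul, he, sub_self])
  refine not_dvd_of_isLeast h5 hF hf hk.2 ?_
  have hsq : Squarefree (hassePoly p) :=
    (squarefree_iff_irreducible_sq_not_dvd_of_ne_zero (hassePoly_ne_zero h5)).2 fun π hπ h => by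
      rw [← pow_two] at h
      exact not_sq_dvd_hasse h5 (irreducible_iff_prime.1 hπ)
        ((dvd_pow_self π two_ne_zero).trans h) h
  refine hsq.isRadical i F ?_
  rw [sub_eq_zero.1 heq]
  exact (dvd_pow_self _ (by rintro rfl; rw [mul_zero] at hj; omega)).mul_right H

end FA.SwinnertonDyer

end
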