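import Fermat.Agent.Tau.TorsionIntegral
import Fermat.Prelude.Def_ModularForm_HeckeOperator

/-!
# `T_l (Δ^i)` at a lattice of good supersingular reduction

At a lattice `L` the value of `T_l (Δ^i)` is `1/l` times the sum of the powers of the discriminants
of the `l + 1` lattices containing `L` with index `l`; over `2` on `y² + y = x³` and over `3` on
`y² = x³ - x` each of them is congruent to `l`.
-/

set_option autoImplicit false

noncomputable section

namespace FA.Hatada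

open UpperHalfPlane hiding I
open FA.JInj FA.Mazur.Wp
open scoped MatrixGroups

/-- `g₂³ - 27 g₃²`. -/
def discr (L : PeriodPair) : ℂ := L.g₂ ^ 3 - 27 * L.g₃ ^ 2

theorem discr_congr {L M : PeriodPair} (h : L.lattice = M.lattice) : discr L = discr M := by
  rw [discr, discr, PeriodPair.g₂, PeriodPair.g₃, PeriodPair.g₂, PeriodPair.g₃, G_congr h,
    G_congr h]

theorem discr_scale (τ : ℍ) {c : ℂ} (hc : c ≠ 0) :
    discr (scalePair (latPair τ) c hc) = (tpi / c) ^ 12 * ModularForm.discriminant τ := by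
  rw [discr, g₂_scalePair, g₃_scalePair, mul_pow, mul_pow, ← inv_pow, ← inv_pow,
    ← pow_mul, ← pow_mul]
  linear_combination (norm := ring) c⁻¹ ^ 12 * discr_latPair τ

theorem g₂_cube_scale (τ : ℍ) {c : ℂ} (hc : c ≠ 0) :
    1728 * (scalePair (latPair τ) c hc).g₂ ^ 3 = (tpi / c) ^ 12 * ModularForm.E₄ τ ^ 3 := by
  rw [g₂_scalePair, g₂_latPair, ← inv_pow]
  ring

/-- The lattices of index `l` over `L`, and the value of `T_l (Δ^i)`. -/
theorem exists_hecke_eval (L : PeriodPair) {l : ℕ} (hl : l.Prime) :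
    ∃ (τ : ℍ) (K : ℂ) (M : ℕ → PeriodPair) (w : ℕ → ℂ),
      (∀ j ≤ l, IsSuper L (M j) (w j) l) ∧
      K * ModularForm.E₄ τ ^ 3 = 1728 * L.g₂ ^ 3 ∧ K * ModularForm.discriminant τ = discr L ∧
      ∀ i, 1 ≤ i → K ^ i * ModularForm.heckeT ((12 * i : ℕ) : ℤ) l
          (ModularForm.discriminant ^ i) τ =
        (l : ℂ)⁻¹ * ∑ j ∈ Finset.range (l + 1), discr (M j) ^ i := by
  obtain ⟨τ, c, hc, hL⟩ := exists_latPair L
  have hl0 : (l : ℂ) ≠ 0 := Nat.cast_ne_zero.2 hl.ne_zero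
  have hLmem : ∀ x, x ∈ L.lattice ↔ ∃ a b : ℤ, c * ((a : ℂ) * τ + b) = x := fun x => by
    rw [hL, mem_scalePair]
    exact ⟨fun ⟨y, hy, e⟩ => by obtain ⟨a, b, rfl⟩ := mem_latPair.1 hy; exact ⟨a, b, e⟩,
      fun ⟨a, b, e⟩ => ⟨_, mem_latPair.2 ⟨a, b, rfl⟩, e⟩⟩
  let pt : ℕ → ℍ := fun j =>
    if j < l then ModularForm.heckeMatrix l j • τ else ModularForm.heckeDiagMatrix l • τ
  let sc : ℕ → ℂ := fun j => if j < l then c else c / l
  have hsc : ∀ j, sc j ≠ 0 := fun j => by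
    simp only [sc]; split_ifs <;> simp [hc, hl0]
  let M : ℕ → PeriodPair := fun j => scalePair (latPair (pt j)) (sc j) (hsc j)
  let w : ℕ → ℂ := fun j => if j < l then c * (pt j : ℂ) else c / l
  have hMmem : ∀ j x, x ∈ (M j).lattice ↔
      ∃ a b : ℤ, sc j * ((a : ℂ) * (pt j : ℂ) + b) = x := fun j x => by
    rw [mem_scalePair]
    exact ⟨fun ⟨y, hy, e⟩ => by obtain ⟨a, b, rfl⟩ := mem_latPair.1 hy; exact ⟨a, b, e⟩,
      fun ⟨a, b, e⟩ => ⟨_, mem_latPair.2 ⟨a, b, rfl⟩, e⟩⟩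
  -- a relation `a τ + b = 0` is trivial
  have hind : ∀ a b : ℤ, (a : ℂ) * τ + b = 0 → a = 0 ∧ b = 0 := fun a b h => by
    have h1 := congrArg Complex.im h
    simp [τ.im_pos.ne'] at h1
    subst h1
    simpa using h
  have hlpos : (1 : ℤ) < l := by exact_mod_cast hl.one_lt
  have hsup : ∀ j ≤ l, IsSuper L (M j) (w j) l := fun j _ => by
    by_cases hj : j < l
    · have hp : (l : ℂ) * (pt j : ℂ) = τ + j := by
        simp only [pt, if_pos hj, ModularForm.coe_heckeMatrix_smul hl.ne_zero,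
          mul_div_cancel₀ _ hl0]
      refine ⟨hl, fun hw => ?_, (hLmem _).2 ⟨1, j, ?_⟩, fun x => ?_⟩
      · obtain ⟨a, b, e⟩ := (hLmem _).1 hw
        simp only [w, if_pos hj] at e
        obtain ⟨h1, -⟩ := hind (a * l - 1) (b * l - j) (by
          push_cast
          linear_combination (l : ℂ) * mul_left_cancel₀ hc e + hp)
        rcases Int.eq_one_or_neg_one_of_mul_eq_one' (show a * (l : ℤ) = 1 by omega) with
          ⟨-, h⟩ | ⟨-, h⟩ <;> omega
      · simp only [w, if_pos hj]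
        push_cast
        linear_combination -c * hp
      · rw [hMmem]
        simp only [w, sc, if_pos hj]
        constructor
        · rintro ⟨a, b, rfl⟩
          exact ⟨a, (hLmem _).2 ⟨0, b, by push_cast; ring⟩⟩
        · rintro ⟨i, hi⟩
          obtain ⟨a, b, e⟩ := (hLmem _).1 hi
          refine ⟨a * l + i, b - a * j, ?_⟩
          push_cast
          linear_combination e + c * (a : ℂ) * hp
    · have hp : (pt j : ℂ) = l * τ := by
        simp only [pt, if_neg hj, ModularForm.coe_heckeDiagMatrix_smul hl.ne_zero]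
      refine ⟨hl, fun hw => ?_, (hLmem _).2 ⟨0, 1, ?_⟩, fun x => ?_⟩
      · obtain ⟨a, b, e⟩ := (hLmem _).1 hw
        simp only [w, if_neg hj] at e
        obtain ⟨-, h2⟩ := hind (a * l) (b * l - 1) (by
          rw [eq_div_iff hl0] at e
          push_cast
          refine mul_left_cancel₀ hc ?_
          linear_combination e)
        rcases Int.eq_one_or_neg_one_of_mul_eq_one' (show b * (l : ℤ) = 1 by omega) with
          ⟨-, h⟩ | ⟨-, h⟩ <;> omega
      · simp only [w, if_neg hj]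
        field_simp
        push_cast
        ring
      · rw [hMmem]
        simp only [w, sc, if_neg hj, hp]
        constructor
        · rintro ⟨a, b, rfl⟩
          exact ⟨b, (hLmem _).2 ⟨a, 0, by field_simp; push_cast; ring⟩⟩
        · rintro ⟨i, hi⟩
          obtain ⟨a, b, e⟩ := (hLmem _).1 hi
          refine ⟨a, b * l + i, ?_⟩
          push_cast
          linear_combination e + ((a : ℂ) * τ + b) * div_mul_cancel₀ c hl0
  refine ⟨τ, (tpi / c) ^ 12, M, w, hsup, ?_, ?_, fun i hi => ?_⟩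
  · rw [← g₂_cube_scale τ hc]
    simp only [PeriodPair.g₂, G_congr hL]
  · rw [← discr_scale τ hc, discr_congr hL]
  · rw [ModularForm.heckeT_apply _ hl.ne_zero, Finset.sum_range_succ]
    have hlt : ∀ j ∈ Finset.range l, discr (M j) ^ i = ((tpi / c) ^ 12) ^ i *
        (ModularForm.discriminant ^ i) (ModularForm.heckeMatrix l j • τ) := fun j hj => by
      rw [discr_scale, mul_pow]
      simp only [sc, pt, if_pos (Finset.mem_range.1 hj), Pi.pow_apply]
    rw [Finset.sum_congr rfl hlt, discr_scale]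
    simp only [sc, pt, if_neg (lt_irrefl l), Pi.pow_apply, ← Finset.mul_sum]
    rw [show ((12 * i : ℕ) : ℤ) - 1 = ((12 * i - 1 : ℕ) : ℤ) by omega, zpow_natCast,
      show (tpi / (c / l)) = tpi / c * l by field_simp,
      show (l : ℂ) ^ (12 * i - 1) = (l : ℂ)⁻¹ * ((l : ℂ) ^ 12) ^ i by
        rw [← pow_mul, ← pow_sub_one_mul (show 12 * i ≠ 0 by omega) (l : ℂ)]
        field_simp]
    ring

/-! ### The places -/

variable {Γ : Type*} [LinearOrderedCommGroupWithZero Γ] {v : Valuation ℂ Γ}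

theorem map_sum_mul_lt_one {p : ℕ} (hv : v (p : ℂ) < 1) {n : ℤ} (hn : (p : ℤ) ∣ n) {z : ℂ}
    (hz : v z ≤ 1) : v ((n : ℂ) * z) < 1 := by
  rw [map_mul]
  exact mul_lt_one_of_lt_of_le (map_intCast_lt_one hv hn) hz

variable (v) in
/-- `L` is a lattice of good supersingular reduction over `p`: the lattices of prime index `l ≠ p`
over it have discriminant congruent to `l`. -/
structure IsBase (p : ℕ) (L : PeriodPair) : Prop where
  lt_one : v (p : ℂ) < 1
  g₂_int : v L.g₂ ≤ 1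
  discr_unit : v (discr L - 1) < 1
  super : ∀ (M : PeriodPair) (w : ℂ) (l : ℕ), IsSuper L M w l → l ≠ p → v (discr M - l) < 1

theorem IsSuper.sum_pow_le {L M : PeriodPair} {w : ℂ} {l : ℕ} (h : IsSuper L M w l)
    (hint : ∀ x, x ∉ L.lattice → (l : ℂ) * x ∈ L.lattice → v (L.weierstrassP x) ≤ 1) (n : ℕ) :
    v (∑ i ∈ (Finset.range l).erase 0, L.weierstrassP ((i : ℂ) * w) ^ n) ≤ 1 := by
  refine v.map_sum_le fun i hi => ?_
  simp only [Finset.mem_erase, Finset.mem_range] at hi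
  rw [map_pow]
  refine pow_le_one' (hint _ (h.natCast_mul_notMem fun hd =>
    hi.1 (Nat.eq_zero_of_dvd_of_lt hd hi.2)) ?_) n
  rw [show (l : ℂ) * ((i : ℂ) * w) = i • ((l : ℂ) * w) by rw [nsmul_eq_mul]; ring]
  exact nsmul_mem h.mul_mem i

theorem isBase_two (hv : v ((2 : ℕ) : ℂ) < 1) {L : PeriodPair} (h2 : L.g₂ = 0)
    (h3 : L.g₃ = -1) : IsBase v 2 L := by
  refine ⟨hv, by rw [h2, map_zero]; exact zero_le, ?_, fun M w l h hl => ?_⟩
  · rw [discr, h2, h3]
    convert map_intCast_lt_one (n := -28) hv (by norm_num) using 2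
    norm_num
  have hS := fun n => h.sum_pow_le (v := v)
    (fun x hx hlx => integral_two hv h2 h3 h.prime hl hx hlx) n
  obtain ⟨k, hk⟩ := h.prime.odd_of_ne_two hl
  set S2 := ∑ i ∈ (Finset.range l).erase 0, L.weierstrassP ((i : ℂ) * w) ^ 2
  set S3 := ∑ i ∈ (Finset.range l).erase 0, L.weierstrassP ((i : ℂ) * w) ^ 3
  have ha : v M.g₂ < 1 := by
    rw [show M.g₂ = ((60 : ℤ) : ℂ) * S2 by rw [h.g₂_eq, h2]; push_cast; ring]
    exact map_sum_mul_lt_one hv (by norm_num) (hS 2)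
  have hb : v (M.g₃ + 1) < 1 := by
    rw [show M.g₃ + 1 = ((140 : ℤ) : ℂ) * S3 + ((14 * ((l : ℤ) - 1) : ℤ) : ℂ) by
      rw [h.g₃_eq, h2, h3]; push_cast; ring]
    exact v.map_add_lt (map_sum_mul_lt_one hv (by norm_num) (hS 3))
      (map_intCast_lt_one hv (by omega))
  rw [show discr M - (l : ℂ) = M.g₂ * M.g₂ ^ 2 +
      ((M.g₃ + 1) * (((-27 : ℤ) : ℂ) * (M.g₃ - 1)) + ((-27 - (l : ℤ) : ℤ) : ℂ)) by
    rw [discr]; push_cast; ring]
  refine v.map_add_lt ?_ (v.map_add_lt ?_ (map_intCast_lt_one hv (by omega)))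
  · rw [map_mul]
    exact mul_lt_one_of_lt_of_le ha (by rw [map_pow]; exact pow_le_one' ha.le 2)
  · rw [map_mul]
    refine mul_lt_one_of_lt_of_le hb ((map_intCast_mul_le v _ _).trans ?_)
    rw [show M.g₃ - 1 = (M.g₃ + 1) + ((-2 : ℤ) : ℂ) by push_cast; ring]
    exact v.map_add_le hb.le (map_intCast_le_one v _)

theorem isBase_three (hv : v ((3 : ℕ) : ℂ) < 1) {L : PeriodPair} (h2 : L.g₂ = 4)
    (h3 : L.g₃ = 0) : IsBase v 3 L := by
  refine ⟨hv, by rw [h2]; simpa using map_intCast_le_one v 4, ?_, fun M w l h hl => ?_⟩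
  · rw [discr, h2, h3]
    convert map_intCast_lt_one (n := 63) hv (by norm_num) using 2
    norm_num
  have hS := fun n => h.sum_pow_le (v := v)
    (fun x hx hlx => integral_three hv h2 h3 h.prime hl hx hlx) n
  have hS1 := hS 1
  simp only [pow_one] at hS1
  set S1 := ∑ i ∈ (Finset.range l).erase 0, L.weierstrassP ((i : ℂ) * w)
  set S2 := ∑ i ∈ (Finset.range l).erase 0, L.weierstrassP ((i : ℂ) * w) ^ 2
  set S3 := ∑ i ∈ (Finset.range l).erase 0, L.weierstrassP ((i : ℂ) * w) ^ 3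
  have ha : v (M.g₂ - (l : ℂ)) < 1 := by
    rw [show M.g₂ - (l : ℂ) = ((60 : ℤ) : ℂ) * S2 + ((24 - 21 * (l : ℤ) : ℤ) : ℂ) by
      rw [h.g₂_eq, h2]; push_cast; ring]
    exact v.map_add_lt (map_sum_mul_lt_one hv (by norm_num) (hS 2))
      (map_intCast_lt_one hv (by omega))
  have hb : v M.g₃ ≤ 1 := by
    rw [show M.g₃ = ((140 : ℤ) : ℂ) * S3 + ((-84 : ℤ) : ℂ) * S1 by
      rw [h.g₃_eq, h2, h3]; push_cast; ring]
    exact v.map_add_le ((map_intCast_mul_le v _ _).trans (hS 3))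
      ((map_intCast_mul_le v _ _).trans hS1)
  have ha' : v M.g₂ ≤ 1 := by
    rw [show M.g₂ = (M.g₂ - (l : ℂ)) + ((l : ℤ) : ℂ) by push_cast; ring]
    exact v.map_add_le ha.le (map_intCast_le_one v _)
  have hcube : (3 : ℤ) ∣ (l : ℤ) ^ 3 - l := by
    have := (ZMod.intCast_zmod_eq_zero_iff_dvd ((l : ℤ) ^ 3 - l) 3).1 (by
      push_cast
      generalize (l : ZMod 3) = x
      revert x
      decide)
    simpa using this
  rw [show discr M - (l : ℂ) = (M.g₂ - (l : ℂ)) * (M.g₂ ^ 2 + (M.g₂ * l + (l : ℂ) ^ 2)) +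
      (((-27 : ℤ) : ℂ) * M.g₃ ^ 2 + (((l : ℤ) ^ 3 - l : ℤ) : ℂ)) by
    rw [discr]; push_cast; ring]
  refine v.map_add_lt ?_ (v.map_add_lt (map_sum_mul_lt_one hv (by norm_num)
    (by rw [map_pow]; exact pow_le_one' hb 2)) (map_intCast_lt_one hv (by exact_mod_cast hcube)))
  rw [map_mul]
  refine mul_lt_one_of_lt_of_le ha (v.map_add_le (by rw [map_pow]; exact pow_le_one' ha' 2)
    (v.map_add_le ?_ ?_))
  · rw [map_mul]
    exact mul_le_one' ha' (map_natCast_le_one v l)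
  · rw [map_pow]
    exact pow_le_one' (map_natCast_le_one v l) 2

end FA.Hatada

end
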