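import Fermat.Agent.Root.SummaryPrimesForms
import Fermat.Agent.Root.SummaryAbelianInverseGalois
import Fermat.Agent.Root.SummaryChebotarevTraces
import Fermat.Agent.Weight1.CycLevel

/-!
# Primes of a form in an arithmetic progression

Chebotarev for `G_ℚ → Gal(ring class field) × (ℤ/M)ˣ`: if one large prime of residue `u t²` is
represented by a form, a positive density of primes of residue `u` is, since an element trivial on
the ring class field has any given square as cyclotomic value, by a commutator.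
-/

set_option autoImplicit false
set_option linter.style.haveILetI false

noncomputable section

namespace FA.FormProgression

open FA.OrderTheta NumberField IsDedekindDomain

local notation "Qb" => AlgebraicClosure ℚ
local notation "GQ" => AlgebraicClosure ℚ ≃ₐ[ℚ] AlgebraicClosure ℚ

theorem isOpen_ker_cycM (M : ℕ) [NeZero M] : IsOpen ((FA.Weight1.cycM M).ker : Set GQ) := by
  by_cases hM : 1 < M
  · haveI := Fact.mk hM
    obtain ⟨L, hL, h⟩ := FA.Weight1.exists_field_cycM M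
    refine Subgroup.isOpen_mono (fun σ hσ => ?_) (IntermediateField.fixingSubgroup_isOpen L)
    exact h σ ((IntermediateField.mem_fixingSubgroup_iff _ _).1 hσ)
  · obtain rfl : M = 1 := by have := NeZero.pos M; omega
    haveI : Subsingleton (ZMod 1)ˣ :=
      ⟨fun a b => Units.ext (Subsingleton.elim (α := ZMod 1) _ _)⟩
    refine (Subgroup.isOpen_mono (H₁ := (⊥ : IntermediateField ℚ Qb).fixingSubgroup) ?_
      (IntermediateField.fixingSubgroup_isOpen _))
    exact fun σ _ => Subsingleton.elim _ _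

/-- An element trivial on a generalised dihedral field with a prescribed square as cyclotomic
value. -/
theorem exists_trivial_square {n : ℕ} [NeZero n] (R : ClassData n) (M : ℕ) [NeZero M]
    (t : (ZMod M)ˣ) :
    ∃ ρ : GQ, AlgEquiv.restrictNormalHom R.L ρ = 1 ∧ FA.Weight1.cycM M ρ = t * t := by
  haveI : Normal ℚ R.L := IsGalois.to_normal
  set res : GQ →* (R.L ≃ₐ[ℚ] R.L) := AlgEquiv.restrictNormalHom R.L
  obtain ⟨σ, hσ⟩ := FA.AbelianInverseGalois.cycM_surjective M t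
  by_cases hg : res σ ∈ R.W.H
  · obtain ⟨h, hh⟩ := SetLike.exists_not_mem_of_ne_top R.W.H R.W.ne_top
    obtain ⟨τ, hτ⟩ := AlgEquiv.restrictNormalHom_surjective (E := Qb) (F := ℚ) (K₁ := R.L) h
    refine ⟨σ * (τ * σ * τ⁻¹), ?_, ?_⟩
    · rw [map_mul, map_mul, map_mul, map_inv, show res τ = h from hτ, R.W.conj_eq_inv hg hh,
        mul_inv_cancel]
    · rw [map_mul, map_mul, map_mul, map_inv, hσ, mul_right_comm (FA.Weight1.cycM M τ),
        mul_inv_cancel, one_mul]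
  · exact ⟨σ * σ, by rw [map_mul, R.W.sq_of_notMem hg], by rw [map_mul, hσ]⟩

/-- **The primes of a form of determinant `n` in a progression** have positive density as soon as
one large prime is represented and lies in it up to a square. -/
theorem density_of_one_prime (n : ℕ) [NeZero n] {A : ℕ} {B C : ℤ} (hA : 0 < A)
    (hdet : (A : ℤ) * C - B ^ 2 = n)
    (hp : ∃ u v w : ℤ, u * A + v * C + w * (2 * B) = 1) (M : ℕ) [NeZero M] (r t : (ZMod M)ˣ)
    {q : ℕ} (hq : q.Prime) (hqn : ¬ q ∣ 6 * n) (hqM : ¬ q ∣ M)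
    (hqr : (q : ZMod M) = (r : ZMod M) * t * t)
    (hqrep : ∃ x y : ℤ, (A : ℤ) * x ^ 2 + 2 * B * x * y + C * y ^ 2 = (q : ℤ)) :
    ∃ δ : ℝ, 0 < δ ∧ {v : HeightOneSpectrum (𝓞 ℚ) |
      (Ideal.absNorm v.asIdeal : ZMod M) = (r : ZMod M) ∧
      ∃ x y : ℤ, (Ideal.absNorm v.asIdeal : ℤ) =
        A * x ^ 2 + 2 * B * x * y + C * y ^ 2}.HasDirichletDensity δ := by
  classical
  obtain ⟨R⟩ := exists_classData n
  haveI : Normal ℚ R.L := IsGalois.to_normal
  set c := cls (rootII A B C hA hdet hp) with hc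
  let φ : GQ →* (R.L ≃ₐ[ℚ] R.L) × (ZMod M)ˣ :=
    (AlgEquiv.restrictNormalHom R.L).prod (FA.Weight1.cycM M)
  let π : GQ →* φ.range := φ.rangeRestrict
  let X : Set φ.range := {g | g.1.1 ∈ R.classSet c ∧ g.1.2 = r}
  have hX : ∀ g ∈ X, ∀ x, x * g * x⁻¹ ∈ X := fun g hg x => by
    refine ⟨R.classSet_conj c hg.1 _, ?_⟩
    show x.1.2 * g.1.2 * x.1.2⁻¹ = r
    rw [mul_comm x.1.2, mul_inv_cancel_right, hg.2]
  have hker : IsOpen (π.ker : Set GQ) := by
    rw [show π.ker = φ.ker from MonoidHom.ker_rangeRestrict φ]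
    haveI : NumberField R.L := { }
    rw [MonoidHom.ker_prod, Subgroup.coe_inf]
    exact (FA.Chebotarev.isOpen_ker_restrict (F := R.L)).inter (isOpen_ker_cycM M)
  have hne : X.Nonempty := by
    obtain ⟨P, hP⟩ := FA.Deform.exists_liesOverPrime hq
    obtain ⟨σ, hσ⟩ := FA.Deform.exists_isFrobeniusAt hq hP
    obtain ⟨ρ, hρ1, hρ2⟩ := exists_trivial_square R M t⁻¹
    refine ⟨π (σ * ρ), ?_, ?_⟩
    · show AlgEquiv.restrictNormalHom R.L (σ * ρ) ∈ R.classSet c
      rw [map_mul, hρ1, mul_one]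
      exact (R.mem_classSet_iff hq hqn hP hσ c).2 ((represents_iff hA hdet hp hq).1 hqrep)
    · show FA.Weight1.cycM M (σ * ρ) = r
      have e : FA.Weight1.cycM M σ = r * t * t := Units.ext (by
        rw [FA.Weight1.cycM_frobenius M hq hqM hP hσ, hqr, Units.val_mul, Units.val_mul])
      rw [map_mul, hρ2, e, ← mul_inv, mul_assoc r, mul_inv_cancel_right]
  haveI : Fintype φ.range := Fintype.ofFinite _
  have hd := FA.Chebotarev.hasDirichletDensity_frobSet π φ.rangeRestrict_surjective hker hX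
  refine ⟨(Nat.card X : ℝ) / Fintype.card φ.range, ?_, ?_⟩
  swap
  · have hfin : {v : HeightOneSpectrum (𝓞 ℚ) | Ideal.absNorm v.asIdeal ∣ 6 * n * M}.Finite := by
      refine ((Set.Finite.biUnion (t := fun d => {I : Ideal (𝓞 ℚ) | Ideal.absNorm I = d})
        (6 * n * M).divisors.finite_toSet fun d _ =>
          Ideal.finite_setOfPred_absNorm_eq (S := 𝓞 ℚ) d).preimage
        fun v _ w _ h => HeightOneSpectrum.ext h).subset fun v hv => ?_
      exact Set.mem_iUnion₂.mpr ⟨_, Finset.mem_coe.mpr (Nat.mem_divisors.mpr ⟨hv,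
        mul_ne_zero (mul_ne_zero (by norm_num) (NeZero.ne n)) (NeZero.ne M)⟩), rfl⟩
    refine FA.Chebotarev.hasDirichletDensity_congr (hfin.subset ?_) (hfin.subset ?_) hd
    all_goals rintro v ⟨h1, h2⟩
    all_goals
      by_contra hdvd
      have hv := FA.Chebotarev.absNorm_prime v
      have h6 : ¬ Ideal.absNorm v.asIdeal ∣ 6 * n := fun h => hdvd (h.mul_right M)
      have hvM : ¬ Ideal.absNorm v.asIdeal ∣ M := fun h => hdvd (h.mul_left (6 * n))
      apply h2
    · intro P hP σ hσ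
      refine ⟨(R.mem_classSet_iff hv h6 hP hσ c).2
        ((represents_iff hA hdet hp hv).1 ?_), Units.ext ?_⟩
      · obtain ⟨x, y, e⟩ := h1.2
        exact ⟨x, y, e.symm⟩
      · exact (FA.Weight1.cycM_frobenius M hv hvM hP hσ).trans h1.1
    · obtain ⟨P, hP⟩ := FA.Deform.exists_liesOverPrime hv
      obtain ⟨σ, hσ⟩ := FA.Deform.exists_isFrobeniusAt hv hP
      obtain ⟨hcl, hcyc⟩ := h1 P hP σ hσ
      obtain ⟨x, y, e⟩ := (represents_iff hA hdet hp hv).2
        ((R.mem_classSet_iff hv h6 hP hσ c).1 hcl)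
      refine ⟨?_, x, y, e.symm⟩
      rw [← FA.Weight1.cycM_frobenius M hv hvM hP hσ]
      exact congrArg Units.val hcyc
  · have : Nonempty X := hne.to_subtype
    exact div_pos (Nat.cast_pos.mpr Nat.card_pos) (Nat.cast_pos.mpr Fintype.card_pos)

/-- Bézout for the coefficients of a primitive form. -/
theorem exists_bezout_forms {a b c : ℤ} (h : Int.gcd (Int.gcd a b) c = 1) :
    ∃ u v w : ℤ, u * a + v * b + w * c = 1 := by
  have h1 := Int.gcd_eq_gcd_ab a b
  have h2 := Int.gcd_eq_gcd_ab (Int.gcd a b : ℤ) c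
  rw [h] at h2
  exact ⟨Int.gcdA a b * Int.gcdA (Int.gcd a b : ℤ) c,
    Int.gcdB a b * Int.gcdA (Int.gcd a b : ℤ) c, Int.gcdB (Int.gcd a b : ℤ) c, by
      push_cast at h2
      linear_combination -h2 - Int.gcdA (Int.gcd a b : ℤ) c * h1⟩

/-- An odd value prime to `M` in a given residue class. -/
theorem exists_odd_value {a b c : ℤ} (hprim : Int.gcd (Int.gcd a b) c = 1) {M : ℕ} {r : ℤ}
    (hr : IsCoprime r (M : ℤ)) {x y : ℤ}
    (hxy : a * x ^ 2 + b * x * y + c * y ^ 2 ≡ r [ZMOD (M : ℤ)]) :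
    ∃ x' y' : ℤ, Odd (a * x' ^ 2 + b * x' * y' + c * y' ^ 2) ∧
      a * x' ^ 2 + b * x' * y' + c * y' ^ 2 ≡ r [ZMOD (M : ℤ)] := by
  by_cases hM : Even M
  · refine ⟨x, y, ?_, hxy⟩
    rcases Int.even_or_odd (a * x ^ 2 + b * x * y + c * y ^ 2) with h | h
    swap
    · exact h
    exfalso
    have h2M : (2 : ℤ) ∣ (M : ℤ) := Int.natCast_dvd_natCast.2 hM.two_dvd
    have h2r : (2 : ℤ) ∣ r := by
      have := (Int.ModEq.of_dvd h2M hxy).symm
      rw [Int.ModEq, Int.emod_eq_zero_of_dvd h.two_dvd] at this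
      exact Int.dvd_of_emod_eq_zero this
    obtain ⟨u, v, e⟩ := hr
    have : (2 : ℤ) ∣ 1 := e ▸ dvd_add (h2r.mul_left u) (h2M.mul_left v)
    norm_num at this
  · have hMo : Odd (M : ℤ) := (Int.odd_coe_nat M).2 (Nat.not_even_iff_odd.1 hM)
    obtain ⟨k, hk⟩ := hMo
    obtain ⟨u, v, w, e⟩ := exists_bezout_forms hprim
    -- some point has an odd value
    obtain ⟨x₁, y₁, hodd⟩ : ∃ x₁ y₁ : ℤ, Odd (a * x₁ ^ 2 + b * x₁ * y₁ + c * y₁ ^ 2) := by
      rcases Int.even_or_odd a with ha | ha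
      swap
      · exact ⟨1, 0, by simpa using ha⟩
      rcases Int.even_or_odd c with hc | hc
      swap
      · exact ⟨0, 1, by simpa using hc⟩
      refine ⟨1, 1, ?_⟩
      rcases Int.even_or_odd b with hb | hb
      · exfalso
        have h : Even (u * a + v * b + w * c) :=
          ((ha.mul_left u).add (hb.mul_left v)).add (hc.mul_left w)
        rw [e] at h
        exact absurd h (by decide)
      · simpa using (ha.add_odd hb).add_even hc
    refine ⟨x + M * (x₁ - x), y + M * (y₁ - y), ?_, ?_⟩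
    · rw [hk, show x + (2 * k + 1) * (x₁ - x) = x₁ + 2 * (k * (x₁ - x)) by ring,
        show y + (2 * k + 1) * (y₁ - y) = y₁ + 2 * (k * (y₁ - y)) by ring]
      obtain ⟨l, hl⟩ := hodd
      refine ⟨l + (2 * a * x₁ + b * y₁) * (k * (x₁ - x)) +
        (b * x₁ + 2 * c * y₁) * (k * (y₁ - y)) + 2 * a * (k * (x₁ - x)) ^ 2 +
        2 * b * (k * (x₁ - x)) * (k * (y₁ - y)) + 2 * c * (k * (y₁ - y)) ^ 2, ?_⟩
      linear_combination hl
    · refine Int.ModEq.trans ?_ hxy
      have h1 : x + M * (x₁ - x) ≡ x [ZMOD (M : ℤ)] :=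
        Int.modEq_iff_dvd.2 ⟨-(x₁ - x), by ring⟩
      have h2 : y + M * (y₁ - y) ≡ y [ZMOD (M : ℤ)] :=
        Int.modEq_iff_dvd.2 ⟨-(y₁ - y), by ring⟩
      exact (((h1.pow 2).mul_left a).add ((h1.mul_left b).mul h2)).add ((h2.pow 2).mul_left c)

/-- **Meyer's theorem.** -/
theorem infinite_primes_progression (a b c : ℤ) (ha : 0 < a) (hdisc : b ^ 2 - 4 * a * c < 0)
    (hprim : Int.gcd (Int.gcd a b) c = 1) (M : ℕ) [NeZero M] (r : ℤ) (hr : IsCoprime r (M : ℤ))
    {x y : ℤ} (hxy : a * x ^ 2 + b * x * y + c * y ^ 2 ≡ r [ZMOD (M : ℤ)]) :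
    {p : ℕ | p.Prime ∧ (p : ℤ) ≡ r [ZMOD (M : ℤ)] ∧
      ∃ x y : ℤ, (p : ℤ) = a * x ^ 2 + b * x * y + c * y ^ 2}.Infinite := by
  obtain ⟨x, y, hodd, hxy⟩ := exists_odd_value hprim hr hxy
  -- divide by the common divisor
  have hne : x ≠ 0 ∨ y ≠ 0 := by
    by_contra h
    push Not at h
    rw [h.1, h.2] at hodd
    simp at hodd
  set g : ℤ := ((Int.gcd x y : ℕ) : ℤ) with hg
  have hg0 : 0 < Int.gcd x y := Int.gcd_pos_iff.2 hne
  obtain ⟨x₀, y₀, hcop, hx, hy⟩ := Int.exists_gcd_one hg0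
  rw [← hg] at hx hy
  obtain ⟨s, t, hst⟩ := Int.isCoprime_iff_gcd_eq_one.2 hcop
  set m := a * x₀ ^ 2 + b * x₀ * y₀ + c * y₀ ^ 2 with hm
  have hval : a * x ^ 2 + b * x * y + c * y ^ 2 = g ^ 2 * m := by rw [hx, hy, hm]; ring
  rw [hval] at hxy hodd
  have hmpos : 0 < m := by
    have h4 : 4 * a * m = (2 * a * x₀ + b * y₀) ^ 2 + (4 * a * c - b ^ 2) * y₀ ^ 2 := by
      rw [hm]; ring
    have hneg : 0 < 4 * a * c - b ^ 2 := by linarith
    rcases eq_or_ne y₀ 0 with h | h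
    · have hx0 : x₀ ≠ 0 := fun e => by simp [e, h] at hst
      rw [hm, h]
      simp only [mul_zero, zero_pow two_ne_zero, add_zero]
      positivity
    · have : 0 < 4 * a * m := h4 ▸ add_pos_of_nonneg_of_pos (sq_nonneg _)
        (mul_pos hneg (by positivity))
      exact pos_of_mul_pos_right this (by linarith)
  have hgm : IsCoprime (g ^ 2 * m) (M : ℤ) := by
    obtain ⟨k, hk⟩ := Int.modEq_iff_dvd.1 hxy
    obtain ⟨p, q, e⟩ := hr
    exact ⟨p, q + p * k, by linear_combination e - p * hk⟩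
  have hm2M : IsCoprime m (2 * (M : ℤ)) := by
    refine IsCoprime.mul_right ?_ hgm.of_mul_left_right
    obtain ⟨k, hk⟩ := (Int.odd_mul.1 hodd).2
    exact ⟨1, -k, by rw [hk]; ring⟩
  -- the form starting with `m`, with `y` a multiple of `2 M`
  set b' := 2 * a * x₀ * (-t) + b * (x₀ * s + y₀ * (-t)) + 2 * c * y₀ * s with hb'
  set c' := a * t ^ 2 + b * (-t) * s + c * s ^ 2 with hc'
  have hdisc' : b' ^ 2 - 4 * m * c' = b ^ 2 - 4 * a * c := by
    rw [hb', hc', hm]
    linear_combination (b ^ 2 - 4 * a * c) * (s * x₀ + t * y₀ + 1) * hst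
  have hdvd : ∀ d : ℤ, d ∣ m → d ∣ b' → d ∣ c' → d ∣ 1 := fun d h1 h2 h3 => by
    obtain ⟨u, v, w, e⟩ := exists_bezout_forms hprim
    have ea : a = s ^ 2 * m - s * y₀ * b' + y₀ ^ 2 * c' := by
      rw [hb', hc', hm]; linear_combination (-a) * (s * x₀ + t * y₀ + 1) * hst
    have eb : b = 2 * s * t * m + (s * x₀ - t * y₀) * b' - 2 * x₀ * y₀ * c' := by
      rw [hb', hc', hm]; linear_combination (-b) * (s * x₀ + t * y₀ + 1) * hst
    have ec : c = t ^ 2 * m + t * x₀ * b' + x₀ ^ 2 * c' := by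
      rw [hb', hc', hm]; linear_combination (-c) * (s * x₀ + t * y₀ + 1) * hst
    rw [← e]
    refine dvd_add (dvd_add (Dvd.dvd.mul_left ?_ u) (Dvd.dvd.mul_left ?_ v))
      (Dvd.dvd.mul_left ?_ w)
    · rw [ea]; exact dvd_add (dvd_sub (h1.mul_left _) (h2.mul_left _)) (h3.mul_left _)
    · rw [eb]; exact dvd_sub (dvd_add (h1.mul_left _) (h2.mul_left _)) (h3.mul_left _)
    · rw [ec]; exact dvd_add (dvd_add (h1.mul_left _) (h2.mul_left _)) (h3.mul_left _)
  set C := 4 * (M : ℤ) ^ 2 * c'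
  set B := (M : ℤ) * b'
  have hdet0 : 0 < m * C - B ^ 2 := by
    rw [show m * C - B ^ 2 = (M : ℤ) ^ 2 * -(b' ^ 2 - 4 * m * c') by simp only [C, B]; ring,
      hdisc']
    exact mul_pos (pow_pos (by exact_mod_cast NeZero.pos M) 2) (neg_pos.2 hdisc)
  have hprim' : Int.gcd (Int.gcd m (2 * B)) C = 1 := by
    have d1 : ((Int.gcd (Int.gcd m (2 * B)) C : ℕ) : ℤ) ∣ m :=
      (Int.gcd_dvd_left _ _).trans (Int.gcd_dvd_left _ _)
    have d2 : ((Int.gcd (Int.gcd m (2 * B)) C : ℕ) : ℤ) ∣ 2 * (M : ℤ) * b' := by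
      rw [show 2 * (M : ℤ) * b' = 2 * B by simp only [B]; ring]
      exact (Int.gcd_dvd_left _ _).trans (Int.gcd_dvd_right _ _)
    have d3 : ((Int.gcd (Int.gcd m (2 * B)) C : ℕ) : ℤ) ∣ (2 * (M : ℤ)) ^ 2 * c' := by
      rw [show (2 * (M : ℤ)) ^ 2 * c' = C by simp only [C]; ring]
      exact Int.gcd_dvd_right _ _
    have hc2 := hm2M.of_isCoprime_of_dvd_left d1
    exact Nat.dvd_one.mp (Int.natCast_dvd_natCast.mp (by
      simpa using hdvd _ d1 (hc2.dvd_of_dvd_mul_left d2) (hc2.pow_right.dvd_of_dvd_mul_left d3)))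
  obtain ⟨N, hN⟩ := Int.eq_ofNat_of_zero_le hdet0.le
  haveI : NeZero N := ⟨by rintro rfl; rw [hN] at hdet0; simp at hdet0⟩
  obtain ⟨A, hA⟩ := Int.eq_ofNat_of_zero_le hmpos.le
  have hA0 : 0 < A := by omega
  have hrep : ∀ p : ℤ, (∃ X Y : ℤ, p = m * X ^ 2 + 2 * B * X * Y + C * Y ^ 2) →
      ∃ x y : ℤ, p = a * x ^ 2 + b * x * y + c * y ^ 2 := by
    rintro p ⟨X, Y, rfl⟩
    exact ⟨x₀ * X + (-t) * (2 * M * Y), y₀ * X + s * (2 * M * Y), by
      simp only [B, C, hb', hc', hm]; ring⟩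
  -- one large prime of the form
  obtain ⟨q, ⟨hq, X, Y, hqe⟩, hqgt⟩ :=
    (FA.Summary.infinite_primes_even_form m B C hmpos hdet0 hprim').exists_gt (6 * N * M)
  have hqn : ¬ q ∣ 6 * N := fun h => by
    have h1 := Nat.le_of_dvd (by have := NeZero.pos N; positivity) h
    have h2 := Nat.le_mul_of_pos_right (6 * N) (NeZero.pos M)
    omega
  have hqM : ¬ q ∣ M := fun h => by
    have h1 := Nat.le_of_dvd (NeZero.pos M) h
    have h2 := Nat.le_mul_of_pos_left M (by have := NeZero.pos N; positivity : 0 < 6 * N)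
    omega
  -- its residue is `r` up to a square
  have hu : IsUnit (r : ZMod M) := (ZMod.coe_int_isUnit_iff_isCoprime r M).2 hr.symm
  have hmg : (r : ZMod M) = (g : ZMod M) ^ 2 * (m : ZMod M) := by
    rw [← Int.cast_pow, ← Int.cast_mul]
    exact ((ZMod.intCast_eq_intCast_iff _ _ M).2 hxy).symm
  have hqm : (q : ZMod M) = (m : ZMod M) * (X : ZMod M) ^ 2 := by
    have := congrArg (Int.cast : ℤ → ZMod M) hqe
    push_cast [B, C] at this
    simp [this]
  have hqu : IsUnit (q : ZMod M) := (ZMod.isUnit_iff_coprime q M).2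
    ((Nat.Prime.coprime_iff_not_dvd hq).2 hqM)
  have hgu : IsUnit (g : ZMod M) := by
    have h1 : IsUnit ((g : ZMod M) ^ 2 * (m : ZMod M)) := hmg ▸ hu
    exact (isUnit_pow_iff two_ne_zero).1 (isUnit_of_mul_isUnit_left h1)
  have hXu : IsUnit (X : ZMod M) := by
    rw [hqm] at hqu
    exact (isUnit_pow_iff two_ne_zero).1 (isUnit_of_mul_isUnit_right hqu)
  obtain ⟨δ, hδ, hd⟩ := density_of_one_prime N (A := A) (B := B) (C := C) hA0
    (by rw [← hA]; exact hN) (exists_bezout (by rw [← hA]; exact hprim')) M hu.unit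
    (hXu.unit * hgu.unit⁻¹) hq hqn hqM (by
      rw [IsUnit.unit_spec, hqm, hmg, Units.val_mul, IsUnit.unit_spec]
      have e : (g : ZMod M) * ((hgu.unit⁻¹ : (ZMod M)ˣ) : ZMod M) = 1 := hgu.mul_val_inv
      linear_combination -(m : ZMod M) * (X : ZMod M) ^ 2 *
        ((g : ZMod M) * ((hgu.unit⁻¹ : (ZMod M)ˣ) : ZMod M) + 1) * e)
    ⟨X, Y, by rw [← hA]; exact hqe.symm⟩
  have hinf := FA.Chebotarev.infinite_of_hasDirichletDensity hd hδ.ne'
  intro hfin
  refine hinf (((Set.Finite.biUnion (t := fun d => {I : Ideal (𝓞 ℚ) | Ideal.absNorm I = d})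
    hfin fun d _ => Ideal.finite_setOfPred_absNorm_eq (S := 𝓞 ℚ) d).preimage
    fun v _ w _ h => HeightOneSpectrum.ext h).subset fun v hv => ?_)
  refine Set.mem_iUnion₂.mpr ⟨_, ⟨FA.Chebotarev.absNorm_prime v, ?_, hrep _ ?_⟩, rfl⟩
  · rw [← ZMod.intCast_eq_intCast_iff, Int.cast_natCast]
    exact hv.1.trans hu.unit_spec
  · rw [hA]; exact hv.2

end FA.FormProgression

end
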