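import Fermat.Agent.Tau.SingularModuli

/-!
# A class of forms holds one reduced form

Two reduced primitive forms of negative discriminant with equivalent roots are equal, so `j`
takes exactly as many values at their roots as there are forms.
-/

set_option autoImplicit false

noncomputable section

namespace FA.Singular

open UpperHalfPlane hiding I
open FA.ModField FA.JInj
open scoped MatrixGroups

/-- The smallest value of a reduced form is its first coefficient. -/
theorem red_value_le {a b c x y : ℤ} (ha : 0 < a) (hb : |b| ≤ a) (hc : a ≤ c)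
    (h : x ≠ 0 ∨ y ≠ 0) :
    a ≤ a * x ^ 2 + b * x * y + c * y ^ 2 ∧
      (y ≠ 0 → a * x ^ 2 + b * x * y + c * y ^ 2 = a → c = a) := by
  set X := |x| with hX
  set Y := |y| with hY
  have hX0 : 0 ≤ X := abs_nonneg x
  have hY0 : 0 ≤ Y := abs_nonneg y
  have h1 : -(a * (X * Y)) ≤ b * x * y := by
    refine neg_le_of_abs_le ?_
    rw [abs_mul, abs_mul, ← hX, ← hY, mul_assoc]
    exact mul_le_mul_of_nonneg_right hb (mul_nonneg hX0 hY0)
  have hsq : x ^ 2 = X ^ 2 ∧ y ^ 2 = Y ^ 2 := ⟨(sq_abs x).symm, (sq_abs y).symm⟩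
  have h2 : 1 ≤ X ^ 2 - X * Y + Y ^ 2 := by
    rcases eq_or_ne X Y with e | e
    · have : 1 ≤ Y := by
        rcases h with h | h
        · rw [← e]; exact abs_pos.2 h
        · exact abs_pos.2 h
      rw [e]; nlinarith
    · have : 1 ≤ (X - Y) ^ 2 :=
        Int.add_one_le_iff.2 (lt_of_le_of_ne (sq_nonneg _) (Ne.symm (pow_ne_zero 2
          (sub_ne_zero.2 e))))
      nlinarith [mul_nonneg hX0 hY0]
  have h3 : a + (c - a) * Y ^ 2 ≤ a * x ^ 2 + b * x * y + c * y ^ 2 := by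
    rw [hsq.1, hsq.2]
    nlinarith [mul_le_mul_of_nonneg_left h2 ha.le]
  refine ⟨le_trans ?_ h3, fun hy e => ?_⟩
  · nlinarith [mul_nonneg (sub_nonneg.2 hc) (sq_nonneg Y)]
  · rw [e] at h3
    have hY1 : 0 < Y ^ 2 := pow_pos (abs_pos.2 hy) 2
    nlinarith [mul_nonneg (sub_nonneg.2 hc) hY1.le]

/-- **A class of forms holds one reduced form.** -/
theorem red_eq_of_smul {D : ℤ} (hD : D < 0) {f f' : ℤ × ℤ × ℤ} (hf : f ∈ Red D)
    (hf' : f' ∈ Red D) {τ τ' : ℍ} (hr : IsRoot f τ) (hr' : IsRoot f' τ') {g : SL(2, ℤ)}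
    (hg : g • τ = τ') : f = f' := by
  obtain ⟨a, b, c⟩ := f
  obtain ⟨a', b', c'⟩ := f'
  obtain ⟨hd, -, ha, hb, hc, hbd⟩ := hf
  obtain ⟨hd', -, ha', hb', hc', hbd'⟩ := hf'
  simp only [IsRoot] at hd hd' ha ha' hb hb' hc hc' hbd hbd' hr hr'
  obtain ⟨α, β, γ, δ, hA, hB, hC, hE⟩ :
      ∃ α β γ δ : ℤ, g 0 0 = α ∧ g 0 1 = β ∧ g 1 0 = γ ∧ g 1 1 = δ :=
    ⟨_, _, _, _, rfl, rfl, rfl, rfl⟩
  have hdet : α * δ - β * γ = 1 := by
    have := g.det_coe
    rw [Matrix.det_fin_two] at this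
    rw [← hA, ← hB, ← hC, ← hE]
    exact this
  -- the form pulled back along `g`
  set A := a' * α ^ 2 + b' * α * γ + c' * γ ^ 2 with hAdef
  set B := 2 * a' * α * β + b' * (α * δ + β * γ) + 2 * c' * γ * δ with hBdef
  set C := a' * β ^ 2 + b' * β * δ + c' * δ ^ 2 with hCdef
  have hroot : (A : ℂ) * (τ : ℂ) ^ 2 + B * (τ : ℂ) + C = 0 := by
    have hden : ((γ : ℂ) * τ + δ) ≠ 0 := by
      have := smul_denom_ne g τ
      rwa [hC, hE] at this
    have e : (τ' : ℂ) * ((γ : ℂ) * τ + δ) = (α : ℂ) * τ + β := by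
      rw [← hg, coe_smul_int, hA, hB, hC, hE]
      exact div_mul_cancel₀ _ hden
    rw [hAdef, hBdef, hCdef]
    push_cast
    linear_combination ((γ : ℂ) * τ + δ) ^ 2 * hr' -
      ((a' : ℂ) * ((τ' : ℂ) * ((γ : ℂ) * τ + δ) + (α * τ + β)) + b' * ((γ : ℂ) * τ + δ)) * e
  obtain ⟨hab, hac⟩ : a * B - A * b = 0 ∧ a * C - A * c = 0 := eq_zero_of_add (z := τ) (by
    push_cast
    linear_combination (a : ℂ) * hroot - (A : ℂ) * hr)
  have hαγ : α ≠ 0 ∨ γ ≠ 0 := by
    by_contra h; push Not at h; rw [h.1, h.2] at hdet; simp at hdet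
  have hδγ : δ ≠ 0 ∨ -γ ≠ 0 := by
    by_contra h; push Not at h; rw [h.1, neg_eq_zero.1 h.2] at hdet; simp at hdet
  obtain ⟨hA1, hA2⟩ := red_value_le ha' hb' hc' hαγ
  have hdABC : B ^ 2 - 4 * A * C = D := by
    rw [hAdef, hBdef, hCdef, ← hd']
    linear_combination (b' ^ 2 - 4 * a' * c') * (α * δ - β * γ + 1) * hdet
  have hA0 : 0 < A := lt_of_lt_of_le ha' hA1
  have hAa : A = a := by
    have e : (A ^ 2 - a ^ 2) * D = 0 := by
      linear_combination -A ^ 2 * hd + a ^ 2 * hdABC -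
        (a * B + A * b) * hab + 4 * a * A * hac
    have : A ^ 2 = a ^ 2 := sub_eq_zero.1 ((mul_eq_zero.1 e).resolve_right hD.ne)
    exact (sq_eq_sq₀ hA0.le ha.le).1 this
  have hBb : B = b := mul_left_cancel₀ ha.ne' (by rw [hAa] at hab; linarith)
  have hCc : C = c := mul_left_cancel₀ ha.ne' (by rw [hAa] at hac; linarith)
  -- and the reverse substitution
  have hinv : a' = a * δ ^ 2 + b * δ * (-γ) + c * (-γ) ^ 2 := by
    rw [← hAa, ← hBb, ← hCc, hAdef, hBdef, hCdef]
    linear_combination -a' * (α * δ - β * γ + 1) * hdet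
  obtain ⟨hA3, hA4⟩ := red_value_le ha hb hc hδγ
  have haa : a = a' := le_antisymm (by rw [hinv]; exact hA3) (by rw [← hAa]; exact hA1)
  subst haa
  have hbb : b = b' := by
    by_cases hγ : γ = 0
    · rw [hγ] at hdet
      have hαδ : α * δ = 1 := by linarith
      rw [hBdef, hγ, hαδ] at hBb
      have hlt : |b - b'| < 2 * a := by
        have h1 := abs_le.1 hb
        have h2 := abs_le.1 hb'
        have h3 : b ≠ -a := fun e => by
          have := hbd (Or.inl (by rw [e, abs_neg, abs_of_pos ha])); omega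
        have h4 : b' ≠ -a := fun e => by
          have := hbd' (Or.inl (by rw [e, abs_neg, abs_of_pos ha])); omega
        rw [abs_lt]
        omega
      have := Int.eq_zero_of_abs_lt_dvd (m := 2 * a) ⟨α * β, by linarith⟩ hlt
      omega
    · have h1 : c' = a := hA2 hγ hAa
      have h2 : c = a := hA4 (neg_ne_zero.2 hγ) hinv.symm
      have e : b ^ 2 = b' ^ 2 := by linear_combination hd - hd' + 4 * a * h2 - 4 * a * h1
      exact (sq_eq_sq₀ (hbd (Or.inr h2.symm)) (hbd' (Or.inr h1.symm))).1 e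
  subst hbb
  have : c = c' := mul_left_cancel₀ (by omega : (4 : ℤ) * a ≠ 0) (by linarith)
  rw [this]

/-- The root of a form of negative discriminant. -/
theorem exists_isRoot {t : ℤ × ℤ × ℤ} (ha : 0 < t.1) (hD : disc t < 0) :
    ∃ τ : ℍ, IsRoot t τ := by
  obtain ⟨a, b, c⟩ := t
  simp only [disc] at ha hD
  set s := Real.sqrt ((4 * a * c - b ^ 2 : ℤ) : ℝ) with hs
  have hpos : (0 : ℝ) < ((4 * a * c - b ^ 2 : ℤ) : ℝ) := by
    exact_mod_cast (by linarith : (0 : ℤ) < _)
  have ha' : (0 : ℝ) < a := by exact_mod_cast ha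
  refine ⟨⟨((-b : ℝ) / (2 * a) : ℝ) + ((s / (2 * a) : ℝ) : ℂ) * Complex.I, ?_⟩, ?_⟩
  · simp only [Complex.add_im, Complex.mul_im, Complex.ofReal_im, Complex.ofReal_re, Complex.I_im,
      Complex.I_re, mul_zero, mul_one, add_zero, zero_add]
    exact div_pos (Real.sqrt_pos.2 hpos) (by positivity)
  · have h2 : ((s : ℂ)) ^ 2 = 4 * a * c - b ^ 2 := by
      rw [← Complex.ofReal_pow, hs, Real.sq_sqrt hpos.le]; push_cast; ring
    simp only [IsRoot]
    push_cast
    have : (a : ℂ) ≠ 0 := by exact_mod_cast ha.ne'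
    field_simp
    linear_combination (↑s ^ 2) * Complex.I_sq - h2

/-- **`j` takes exactly `h(D)` values at the roots of the reduced forms.** -/
theorem values_ncard {D : ℤ} (hD : D < 0) : (values D).ncard = (Red D).ncard := by
  classical
  refine le_antisymm (values_finite_card D).2 ?_
  have hex : ∀ f ∈ Red D, ∃ τ, IsRoot f τ := fun f hf =>
    exists_isRoot hf.2.2.1 (show disc f < 0 by rw [disc, hf.1]; exact hD)
  let F : ℤ × ℤ × ℤ → ℂ := fun f => if h : ∃ τ, IsRoot f τ then jfun h.choose else 0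
  refine Set.ncard_le_ncard_of_injOn F (fun f hf => ?_) ?_ (values_finite_card D).1
  · simp only [F, dif_pos (hex f hf)]
    exact ⟨f, hf, _, (hex f hf).choose_spec, rfl⟩
  · intro f hf f' hf' e
    simp only [F, dif_pos (hex f hf), dif_pos (hex f' hf')] at e
    obtain ⟨g, hg⟩ := (jfun_eq_iff _ _).1 e
    exact red_eq_of_smul hD hf hf' (hex f hf).choose_spec (hex f' hf').choose_spec hg

end FA.Singular

end
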