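import Fermat.Agent.Tau.DiagonalMultiplicity
import Fermat.Agent.Tau.ReducedUnique
import Mathlib.Analysis.Complex.Polynomial.Basic
import Mathlib.Data.Int.Interval

/-!
# The class number relation of Kronecker and Hurwitz

For `p > 1` the roots of `Φ_p(X, X)` are invariants of forms, and the weighted number of the
forms of discriminant `t² - 4p` over an invariant is counted by the matrices of determinant `p`
fixing its point that are not scalar; for a squarefree `p` this is the multiplicity of the root.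
-/

set_option autoImplicit false
set_option linter.style.haveILetI false

noncomputable section

namespace FA.ClassRelation

open UpperHalfPlane hiding I
open FA.ModField FA.ModPoly FA.JInj FA.Singular
open scoped MatrixGroups

/-- The reduced forms, primitive or not, of discriminant `-N`. -/
def redForms (N : ℕ) : Finset (ℤ × ℤ × ℤ) :=
  ((Finset.Icc (1 : ℤ) N ×ˢ Finset.Icc (-(N : ℤ)) N).filter fun q : ℤ × ℤ =>
    4 * q.1 ∣ q.2 ^ 2 + (N : ℤ) ∧ |q.2| ≤ q.1 ∧ q.1 ≤ (q.2 ^ 2 + (N : ℤ)) / (4 * q.1) ∧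
      ((|q.2| = q.1 ∨ q.1 = (q.2 ^ 2 + (N : ℤ)) / (4 * q.1)) → 0 ≤ q.2)).image
    fun q : ℤ × ℤ => (q.1, q.2, (q.2 ^ 2 + (N : ℤ)) / (4 * q.1))

/-- The weight of a form. -/
def weight (f : ℤ × ℤ × ℤ) : ℚ :=
  if f.2.1 = 0 ∧ f.1 = f.2.2 then 1 / 2 else if f.1 = f.2.1 ∧ f.2.1 = f.2.2 then 1 / 3 else 1

/-- The Hurwitz class number. -/
def classNumberH (N : ℕ) : ℚ := ∑ f ∈ redForms N, weight f

theorem mem_redForms {N : ℕ} {f : ℤ × ℤ × ℤ} :
    f ∈ redForms N ↔ f.2.1 ^ 2 - 4 * f.1 * f.2.2 = -(N : ℤ) ∧ 0 < f.1 ∧ |f.2.1| ≤ f.1 ∧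
      f.1 ≤ f.2.2 ∧ ((|f.2.1| = f.1 ∨ f.1 = f.2.2) → 0 ≤ f.2.1) := by
  obtain ⟨a, b, c⟩ := f
  simp only [redForms, Finset.mem_image, Finset.mem_filter, Finset.mem_product, Finset.mem_Icc,
    Prod.mk.injEq]
  constructor
  · rintro ⟨⟨a', b'⟩, ⟨⟨⟨h1, -⟩, -⟩, hdvd, hb, hc, hbd⟩, rfl, rfl, rfl⟩
    refine ⟨?_, by omega, hb, hc, hbd⟩
    have := Int.mul_ediv_cancel' hdvd
    linarith
  · rintro ⟨hd, ha, hb, hc, hbd⟩
    have e : b ^ 2 + (N : ℤ) = 4 * a * c := by linarith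
    have hdiv : (b ^ 2 + (N : ℤ)) / (4 * a) = c := by
      rw [e]; exact Int.mul_ediv_cancel_left _ (by omega)
    have hb2 : b ^ 2 ≤ a ^ 2 := by rw [← sq_abs b]; exact pow_le_pow_left₀ (abs_nonneg b) hb 2
    have hN : a ≤ N := by nlinarith [mul_le_mul_of_nonneg_left hc ha.le]
    have hb' := abs_le.1 hb
    exact ⟨(a, b), ⟨⟨⟨by omega, hN⟩, by omega, by omega⟩, ⟨c, e⟩, hb, by rwa [hdiv],
      by rwa [hdiv]⟩, rfl, rfl, hdiv⟩

/-- The multiple `k f` of a form. -/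
def smulForm (k : ℤ) (f : ℤ × ℤ × ℤ) : ℤ × ℤ × ℤ := (k * f.1, k * f.2.1, k * f.2.2)

theorem disc_smulForm (k : ℤ) (f : ℤ × ℤ × ℤ) : disc (smulForm k f) = k ^ 2 * disc f := by
  simp only [disc, smulForm]; ring

theorem isRoot_smulForm {k : ℤ} {f : ℤ × ℤ × ℤ} {τ : ℍ} (h : IsRoot f τ) :
    IsRoot (smulForm k f) τ := by
  simp only [IsRoot, smulForm] at h ⊢
  push_cast
  linear_combination (k : ℂ) * h

theorem weight_smulForm {k : ℤ} (hk : k ≠ 0) (f : ℤ × ℤ × ℤ) :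
    weight (smulForm k f) = weight f := by
  simp only [weight, smulForm, mul_eq_zero, hk, false_or, mul_right_inj' hk]

/-- The forms with a given root are the multiples of the primitive one. -/
theorem exists_multiple {f h : ℤ × ℤ × ℤ} (hf : f.1 ≠ 0)
    (hprim : Int.gcd (Int.gcd f.1 f.2.1) f.2.2 = 1) {τ : ℍ} (hr : IsRoot f τ) (hr' : IsRoot h τ) :
    ∃ k : ℤ, h = smulForm k f := by
  obtain ⟨a, b, c⟩ := f
  obtain ⟨A, B, C⟩ := h
  simp only [IsRoot] at hr hr' hf hprim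
  obtain ⟨e1, e2⟩ := eq_zero_of_add (z := τ) (u := a * B - A * b) (v := a * C - A * c) (by
    push_cast
    linear_combination (a : ℂ) * hr' - (A : ℂ) * hr)
  obtain ⟨k, rfl⟩ : a ∣ A := by
    have hg1 : a ∣ A * (Int.gcd a b : ℤ) := by
      rw [Int.gcd_eq_gcd_ab, mul_add, ← mul_assoc, ← mul_assoc]
      exact dvd_add (dvd_mul_of_dvd_left (dvd_mul_left a A) _)
        (dvd_mul_of_dvd_left ⟨B, by linarith⟩ _)
    have hg2 : a ∣ A * ((Int.gcd (Int.gcd a b) c : ℕ) : ℤ) := by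
      rw [Int.gcd_eq_gcd_ab, mul_add, ← mul_assoc, ← mul_assoc]
      exact dvd_add (dvd_mul_of_dvd_left hg1 _) (dvd_mul_of_dvd_left ⟨C, by linarith⟩ _)
    rwa [hprim, Nat.cast_one, mul_one] at hg2
  refine ⟨k, ?_⟩
  simp only [smulForm, Prod.mk.injEq]
  exact ⟨mul_comm a k, mul_left_cancel₀ hf (by linarith), mul_left_cancel₀ hf (by linarith)⟩

/-- A form with an equivalent root has a square multiple of the discriminant. -/
theorem exists_disc_multiple {f h : ℤ × ℤ × ℤ} (hf : f.1 ≠ 0)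
    (hprim : Int.gcd (Int.gcd f.1 f.2.1) f.2.2 = 1) {τ τ' : ℍ} (hr : IsRoot f τ)
    (hr' : IsRoot h τ') {g : SL(2, ℤ)} (hg : g • τ = τ') :
    ∃ k : ℤ, disc h = k ^ 2 * disc f := by
  obtain ⟨A, B, C⟩ := h
  have hdet : g 0 0 * g 1 1 - g 0 1 * g 1 0 = 1 := by
    have := g.det_coe; rwa [Matrix.det_fin_two] at this
  set u : ℤ × ℤ × ℤ := (A * g 0 0 ^ 2 + B * g 0 0 * g 1 0 + C * g 1 0 ^ 2,
    2 * A * g 0 0 * g 0 1 + B * (g 0 0 * g 1 1 + g 0 1 * g 1 0) + 2 * C * g 1 0 * g 1 1,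
    A * g 0 1 ^ 2 + B * g 0 1 * g 1 1 + C * g 1 1 ^ 2) with hu
  have e : (τ' : ℂ) * ((g 1 0 : ℂ) * τ + g 1 1) = (g 0 0 : ℂ) * τ + g 0 1 := by
    rw [← hg, coe_smul_int]
    exact div_mul_cancel₀ _ (smul_denom_ne g τ)
  have hroot : IsRoot u τ := by
    simp only [IsRoot, hu] at hr' ⊢
    push_cast
    linear_combination ((g 1 0 : ℂ) * τ + g 1 1) ^ 2 * hr' -
      ((A : ℂ) * ((τ' : ℂ) * ((g 1 0 : ℂ) * τ + g 1 1) + (g 0 0 * τ + g 0 1)) +
        B * ((g 1 0 : ℂ) * τ + g 1 1)) * e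
  obtain ⟨k, hk⟩ := exists_multiple hf hprim hr hroot
  refine ⟨k, ?_⟩
  rw [← disc_smulForm, ← hk]
  simp only [disc, hu]
  linear_combination -(B ^ 2 - 4 * A * C) * (g 0 0 * g 1 1 - g 0 1 * g 1 0 + 1) * hdet

/-- A form is a multiple of a primitive one. -/
theorem exists_content (f : ℤ × ℤ × ℤ) (hf : 0 < f.1) :
    ∃ (k : ℤ) (f₁ : ℤ × ℤ × ℤ), 0 < k ∧ f = smulForm k f₁ ∧ 0 < f₁.1 ∧
      Int.gcd (Int.gcd f₁.1 f₁.2.1) f₁.2.2 = 1 := by
  obtain ⟨a, b, c⟩ := f
  simp only at hf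
  set d := Int.gcd (Int.gcd a b) c with hd
  have h1 : (d : ℤ) ∣ (Int.gcd a b : ℤ) := Int.gcd_dvd_left _ _
  have hd0 : 0 < d := Nat.pos_of_ne_zero fun h => by
    rw [h, Nat.cast_zero, zero_dvd_iff, Nat.cast_eq_zero, Int.gcd_eq_zero_iff] at h1
    omega
  obtain ⟨a₁, ha₁⟩ := h1.trans (Int.gcd_dvd_left a b)
  obtain ⟨b₁, hb₁⟩ := h1.trans (Int.gcd_dvd_right _ b)
  obtain ⟨c₁, hc₁⟩ : (d : ℤ) ∣ c := Int.gcd_dvd_right _ _
  refine ⟨d, (a₁, b₁, c₁), by exact_mod_cast hd0, by simp [smulForm, ← ha₁, ← hb₁, ← hc₁],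
    by nlinarith, ?_⟩
  have h2 : d = Int.gcd (Int.gcd ((d : ℤ) * a₁) ((d : ℤ) * b₁)) ((d : ℤ) * c₁) := by
    rw [← ha₁, ← hb₁, ← hc₁]
  rw [Int.gcd_mul_left, Int.natAbs_natCast, Nat.cast_mul, Int.gcd_mul_left,
    Int.natAbs_natCast] at h2
  exact (Nat.mul_eq_left hd0.ne').1 h2.symm

theorem disc_neg_of_isRoot {f : ℤ × ℤ × ℤ} (hf : f.1 ≠ 0) {τ : ℍ} (h : IsRoot f τ) :
    disc f < 0 := FA.Diagonal.disc_neg hf h

open scoped Classical in
/-- A root of a form, when there is one. -/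
def rootOf (f : ℤ × ℤ × ℤ) : ℍ := if h : ∃ τ, IsRoot f τ then h.choose else UpperHalfPlane.I

theorem isRoot_rootOf {f : ℤ × ℤ × ℤ} (ha : 0 < f.1) (hD : disc f < 0) : IsRoot f (rootOf f) := by
  have h := exists_isRoot ha hD
  rw [rootOf, dif_pos h]
  exact h.choose_spec

/-- The pairs `(t, k)` with `t² - D k² = 4 n`, `n > 0`. -/
def fixPairs (D : ℤ) (n : ℕ) : Finset (ℤ × ℤ) :=
  (Finset.Icc (-(4 * (n : ℤ))) (4 * n) ×ˢ Finset.Icc (-(4 * (n : ℤ))) (4 * n)).filter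
    fun q => q.1 ^ 2 - D * q.2 ^ 2 = 4 * n

theorem mem_fixPairs {D : ℤ} (hD : D < 0) {n : ℕ} {q : ℤ × ℤ} :
    q ∈ fixPairs D n ↔ q.1 ^ 2 - D * q.2 ^ 2 = 4 * n := by
  simp only [fixPairs, Finset.mem_filter, Finset.mem_product, Finset.mem_Icc, and_iff_right_iff_imp]
  intro h
  have h1 : -D * q.2 ^ 2 ≥ q.2 ^ 2 := le_mul_of_one_le_left (sq_nonneg _) (by omega)
  have h2 : ∀ x : ℤ, x ^ 2 ≤ 4 * n → -(4 * (n : ℤ)) ≤ x ∧ x ≤ 4 * n := fun x hx => by
    constructor <;> nlinarith [sq_nonneg x, sq_nonneg (x + 1), sq_nonneg (x - 1)]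
  exact ⟨h2 _ (by nlinarith [sq_nonneg q.1, sq_nonneg q.2]),
    h2 _ (by nlinarith [sq_nonneg q.1, sq_nonneg q.2])⟩

section Form

variable {a b c : ℤ} {τ : ℍ}

/-- **The fixing matrices are the solutions of `t² - D k² = 4 n`.** -/
theorem exists_fixPairs_equiv (ha : 0 < a) (hprim : Int.gcd (Int.gcd a b) c = 1)
    (hr : IsRoot (a, b, c) τ) {n : ℕ} (hn : n ≠ 0) :
    Nonempty (FixMat τ n ≃ fixPairs (disc (a, b, c)) n) := by
  have hD := disc_neg_of_isRoot (f := (a, b, c)) ha.ne' hr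
  have hn' : (n : ℤ) ≠ 0 := by exact_mod_cast hn
  have hk : ∀ M : FixMat τ n, ∃ k : ℤ, (M : Mat) 1 0 = k * a ∧
      (M : Mat) 1 1 - (M : Mat) 0 0 = k * b ∧ -(M : Mat) 0 1 = k * c := by
    rintro ⟨M, hMd, hMf⟩
    rw [fixes_iff (by rw [hMd]; exact hn')] at hMf
    obtain ⟨k, hk⟩ := exists_multiple (h := (M 1 0, M 1 1 - M 0 0, -M 0 1)) ha.ne' hprim hr (by
      simp only [IsRoot]; push_cast; linear_combination hMf)
    simp only [smulForm, Prod.mk.injEq] at hk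
    exact ⟨k, hk⟩
  choose k hk1 hk2 hk3 using hk
  refine ⟨Equiv.ofBijective (fun M => ⟨((M : Mat) 0 0 + (M : Mat) 1 1, k M), ?_⟩) ⟨?_, ?_⟩⟩
  · rw [mem_fixPairs hD]
    have h := M.2.1
    rw [Matrix.det_fin_two] at h
    simp only [disc]
    linear_combination 4 * h + 4 * (M : Mat) 0 1 * hk1 M +
      ((M : Mat) 1 1 - (M : Mat) 0 0 + k M * b) * hk2 M - 4 * k M * a * hk3 M
  · intro M M' h
    simp only [Subtype.mk.injEq, Prod.mk.injEq] at h
    obtain ⟨ht, hkk⟩ := h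
    have e1 := hk1 M; have e2 := hk2 M; have e3 := hk3 M
    rw [hkk] at e1 e2 e3
    refine Subtype.ext (Matrix.ext fun i j => ?_)
    fin_cases i <;> fin_cases j <;> simp only [Fin.isValue, Fin.mk_one, Fin.zero_eta] <;>
      linarith [hk1 M', hk2 M', hk3 M']
  · rintro ⟨⟨t, l⟩, hq⟩
    rw [mem_fixPairs hD] at hq
    simp only [disc] at hq
    obtain ⟨s, hs⟩ : (2 : ℤ) ∣ t - l * b := by
      have h : (2 : ℤ) ∣ (t - l * b) * (t + l * b) :=
        ⟨2 * n - 2 * l ^ 2 * a * c, by linear_combination hq⟩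
      rcases Int.prime_two.dvd_or_dvd h with h | h
      · exact h
      · obtain ⟨w, hw⟩ := h
        exact ⟨w - l * b, by linarith⟩
    let M : Mat := !![s, -(l * c); l * a, t - s]
    have hdet : M.det = (n : ℤ) := by
      simp only [M, Matrix.det_fin_two_of]
      refine mul_left_cancel₀ (show (4 : ℤ) ≠ 0 by norm_num) ?_
      linear_combination hq - (t - 2 * s + l * b) * hs
    have hM : M ∈ FixMat τ n := by
      refine ⟨hdet, (fixes_iff (by rw [hdet]; exact hn') τ).2 ?_⟩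
      simp only [IsRoot] at hr
      have hs' : (t : ℂ) - l * b = 2 * s := by exact_mod_cast hs
      simp only [M, Matrix.of_apply, Matrix.cons_val', Matrix.cons_val_zero, Matrix.cons_val_one,
        Matrix.empty_val', Matrix.cons_val_fin_one]
      push_cast
      linear_combination (l : ℂ) * hr + (τ : ℂ) * hs'
    refine ⟨⟨M, hM⟩, Subtype.ext (Prod.ext ?_ ?_)⟩
    · simp [M]
    · have := hk1 ⟨M, hM⟩
      simp [M] at this
      rcases this with h | h
      · exact h.symm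
      · omega

theorem card_fixMat_eq (ha : 0 < a) (hprim : Int.gcd (Int.gcd a b) c = 1)
    (hr : IsRoot (a, b, c) τ) {n : ℕ} (hn : n ≠ 0) :
    Nat.card (FixMat τ n) = (fixPairs (disc (a, b, c)) n).card := by
  rw [Nat.card_congr (exists_fixPairs_equiv ha hprim hr hn).some, Nat.card_eq_finsetCard]

theorem weight_mul_card (hf : (a, b, c) ∈ Red (disc (a, b, c))) (hr : IsRoot (a, b, c) τ) :
    weight (a, b, c) * (fixPairs (disc (a, b, c)) 1).card = 2 := by
  obtain ⟨-, hprim, ha, hb, hc, hbd⟩ := hf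
  simp only at hprim ha hb hc hbd
  have hD := disc_neg_of_isRoot (f := (a, b, c)) ha.ne' hr
  simp only [disc] at hD ⊢
  have hb' := abs_le.1 hb
  have hone : a ∣ b → a ∣ c → a = 1 := fun h1 h2 => by
    have h := Int.dvd_coe_gcd (Int.dvd_coe_gcd dvd_rfl h1) h2
    rw [hprim, Nat.cast_one] at h
    exact Int.eq_one_of_dvd_one ha.le h
  by_cases h4 : b = 0 ∧ a = c
  · obtain ⟨rfl, rfl⟩ := h4
    obtain rfl : a = 1 := hone (dvd_zero a) dvd_rfl
    norm_num [weight]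
    decide +kernel
  by_cases h3 : a = b ∧ b = c
  · obtain ⟨rfl, rfl⟩ := h3
    obtain rfl : a = 1 := hone dvd_rfl dvd_rfl
    norm_num [weight]
    decide +kernel
  have h7 : b ^ 2 - 4 * a * c ≤ -5 := by
    have h1 : b * b ≤ a * a := by nlinarith
    rcases lt_or_eq_of_le hc with hlt | rfl
    · nlinarith
    · have hbd0 := hbd (Or.inr rfl)
      have hb0 : 0 < b := lt_of_le_of_ne hbd0 fun e => h4 ⟨e.symm, rfl⟩
      have hba : b < a := lt_of_le_of_ne hb'.2 fun e => h3 ⟨e.symm, e⟩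
      nlinarith
  have e : fixPairs (b ^ 2 - 4 * a * c) 1 = {((2 : ℤ), (0 : ℤ)), ((-2 : ℤ), (0 : ℤ))} := by
    ext ⟨t, l⟩
    rw [mem_fixPairs hD]
    simp only [Finset.mem_insert, Finset.mem_singleton, Prod.mk.injEq, Nat.cast_one, mul_one]
    constructor
    · intro h
      have hl : l = 0 := by
        by_contra hl
        have : 1 ≤ l ^ 2 := Int.add_one_le_iff.2 (pow_pos (abs_pos.2 hl) 2 |>.trans_eq (sq_abs l))
        nlinarith [sq_nonneg t]
      subst hl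
      rcases sq_eq_sq_iff_eq_or_eq_neg.1 (show t ^ 2 = 2 ^ 2 by linarith) with h | h <;> omega
    · rintro (⟨rfl, rfl⟩ | ⟨rfl, rfl⟩) <;> ring
  rw [e, weight, if_neg h4, if_neg h3]
  norm_num

end Form

variable (p : ℕ)

/-- The range of `t`. -/
def traces : Finset ℤ :=
  (Finset.Icc (-(2 * (p : ℤ))) (2 * p)).filter fun t => t ^ 2 < 4 * p

theorem mem_traces {t : ℤ} : t ∈ traces p ↔ t ^ 2 < 4 * p := by
  simp only [traces, Finset.mem_filter, Finset.mem_Icc, and_iff_right_iff_imp]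
  intro h
  constructor <;> nlinarith [sq_nonneg (t + 1), sq_nonneg (t - 1)]

/-- The forms of the discriminants `t² - 4p`. -/
def traceForms : Finset (Σ _ : ℤ, ℤ × ℤ × ℤ) :=
  (traces p).sigma fun t => redForms (4 * (p : ℤ) - t ^ 2).toNat

theorem mem_traceForms {t : ℤ} {f : ℤ × ℤ × ℤ} : (⟨t, f⟩ : Σ _ : ℤ, ℤ × ℤ × ℤ) ∈ traceForms p ↔
    t ^ 2 < 4 * p ∧ disc f = t ^ 2 - 4 * p ∧ 0 < f.1 ∧ |f.2.1| ≤ f.1 ∧
      f.1 ≤ f.2.2 ∧ ((|f.2.1| = f.1 ∨ f.1 = f.2.2) → 0 ≤ f.2.1) := by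
  rw [traceForms, Finset.mem_sigma, mem_traces, mem_redForms]
  refine and_congr_right fun h => ?_
  rw [Int.toNat_of_nonneg (by omega), neg_sub]
  rfl

/-- A form of discriminant `t² - 4 p` gives a matrix of determinant `p` fixing its root. -/
theorem exists_fix_of_traceForm (q : Σ _ : ℤ, ℤ × ℤ × ℤ) (h : q ∈ traceForms p) :
    ∃ M : Mat, M ∈ FixMat (rootOf q.2) p := by
  obtain ⟨t, a, b, c⟩ := q
  rw [mem_traceForms] at h
  obtain ⟨ht, hd, ha, -⟩ := h
  have hp : (p : ℤ) ≠ 0 := fun e => by rw [e] at ht; linarith [sq_nonneg t]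
  have hr := isRoot_rootOf (f := (a, b, c)) ha (by rw [hd]; linarith)
  simp only [disc] at hd
  obtain ⟨s, hs⟩ : (2 : ℤ) ∣ t - b := by
    have h : (2 : ℤ) ∣ (t - b) * (t + b) := ⟨2 * p - 2 * a * c, by linear_combination -hd⟩
    rcases Int.prime_two.dvd_or_dvd h with h | h
    · exact h
    · obtain ⟨w, hw⟩ := h
      exact ⟨w - b, by linarith⟩
  let M : Mat := !![s, -c; a, t - s]
  have hdet : M.det = (p : ℤ) := by
    simp only [M, Matrix.det_fin_two_of]
    refine mul_left_cancel₀ (show (4 : ℤ) ≠ 0 by norm_num) ?_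
    linear_combination -hd - (t - 2 * s + b) * hs
  refine ⟨M, hdet, (fixes_iff (by rw [hdet]; exact hp) _).2 ?_⟩
  simp only [IsRoot] at hr
  have hs' : (t : ℂ) - b = 2 * s := by exact_mod_cast hs
  simp only [M, Matrix.of_apply, Matrix.cons_val', Matrix.cons_val_zero, Matrix.cons_val_one,
    Matrix.empty_val', Matrix.cons_val_fin_one]
  push_cast
  linear_combination hr + (rootOf (a, b, c) : ℂ) * hs'

section

variable [Fact (1 < p)] [Fintype (FA.Dim.Cos p)]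

theorem isRoot_diagC {τ : ℍ} {M : Mat} (hM : M ∈ FixPrim τ p) :
    (diagC p).eval (jfun τ) = 0 := by
  haveI : NeZero p := ⟨(zero_lt_one.trans (Fact.out : 1 < p)).ne'⟩
  obtain ⟨g, γ, rfl⟩ := exists_prodMat (NeZero.ne p) hM.1.1 hM.2
  rw [eval_diagC]
  refine Finset.prod_eq_zero (Finset.mem_univ (QuotientGroup.mk γ⁻¹ : FA.Dim.Cos p)) ?_
  rw [cosVal_mk (fN_mem p), inv_inv, ← jfun_prodMat p g γ τ, hM.1.2, ofComplex_apply, sub_self]

/-- A root of `Φ_p(X, X)` is the invariant of a reduced primitive form. -/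
theorem exists_red_of_root {x : ℂ} (hx : x ∈ (diagC p).roots.toFinset) :
    ∃ f τ, f ∈ Red (disc f) ∧ IsRoot f τ ∧ jfun τ = x := by
  obtain ⟨τ₀, rfl⟩ := exists_jfun_eq x
  obtain ⟨g, hg⟩ := ModularGroup.exists_smul_mem_fd τ₀
  set τ := g • τ₀
  have hj : jfun τ = jfun τ₀ := jfun_smul g τ₀
  rw [← hj] at hx ⊢
  rw [Multiset.mem_toFinset, ← Multiset.count_pos, Polynomial.count_roots,
    rootMultiplicity_diag] at hx
  obtain ⟨⟨i, hi⟩⟩ := (Nat.card_pos_iff.1 hx).1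
  obtain ⟨g', hM⟩ := exists_fixMat p τ hi
  have hc := fix_lower_ne_zero Fact.out (τ := τ) ⟨hM, content_prodMat p g' _⟩
  obtain ⟨hMd, hMf⟩ := hM
  set M := prodMat p g' (Quotient.out i)⁻¹
  rw [fixes_iff (by rw [hMd]; exact_mod_cast (zero_lt_one.trans (Fact.out : 1 < p)).ne')] at hMf
  obtain ⟨h, hh1, hh⟩ : ∃ h : ℤ × ℤ × ℤ, 0 < h.1 ∧ IsRoot h τ := by
    rcases lt_or_gt_of_ne hc with hneg | hpos
    · refine ⟨(-M 1 0, -(M 1 1 - M 0 0), M 0 1), by simpa using hneg, ?_⟩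
      simp only [IsRoot]; push_cast; linear_combination -hMf
    · refine ⟨(M 1 0, M 1 1 - M 0 0, -M 0 1), hpos, ?_⟩
      simp only [IsRoot]; push_cast; linear_combination hMf
  obtain ⟨k, f₁, hk, rfl, hf₁, hprim⟩ := exists_content h hh1
  have hr : IsRoot f₁ τ := by
    simp only [IsRoot, smulForm] at hh ⊢
    push_cast at hh
    refine mul_left_cancel₀ (show (k : ℂ) ≠ 0 by exact_mod_cast hk.ne') ?_
    linear_combination hh
  obtain ⟨f', hf', τ', hr', hj'⟩ := exists_red hf₁ hr hg hprim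
  refine ⟨f', τ', ?_, hr', hj'⟩
  rwa [show disc f' = disc f₁ from hf'.1]

end

/-- One if `n` is a square and zero otherwise. -/
def sqInd (n : ℕ) : ℕ := if IsSquare n then 1 else 0

/-- The solutions of `t² - D k² = 4 p` are those with `k > 0`, their negatives and, for a square
`p = m²`, the two `(± 2 m, 0)`. -/
theorem card_fixPairs_all {D : ℤ} (hD : D < 0) (hp : p ≠ 0) :
    (fixPairs D p).card =
      2 * ((fixPairs D p).filter fun q => 0 < q.2).card + 2 * sqInd p := by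
  have hneg : (((fixPairs D p).filter fun q => ¬0 < q.2).filter fun q => q.2 ≠ 0).card =
      ((fixPairs D p).filter fun q => 0 < q.2).card := by
    refine Finset.card_nbij' (fun q => (q.1, -q.2)) (fun q => (q.1, -q.2)) ?_ ?_ ?_ ?_
    all_goals intro q hq
    · simp only [Finset.mem_coe, Finset.mem_filter, mem_fixPairs hD, neg_sq] at hq ⊢
      exact ⟨hq.1.1, by omega⟩
    · simp only [Finset.mem_coe, Finset.mem_filter, mem_fixPairs hD, neg_sq] at hq ⊢
      exact ⟨⟨hq.1, by omega⟩, by omega⟩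
    · simp
    · simp
  have hzero : (((fixPairs D p).filter fun q => ¬0 < q.2).filter fun q => ¬ q.2 ≠ 0).card =
      2 * sqInd p := by
    rw [sqInd]
    split_ifs with hs
    · obtain ⟨m, rfl⟩ := hs
      refine (Finset.card_eq_two.2
        ⟨(2 * (m : ℤ), 0), (-(2 * (m : ℤ)), 0), fun e => hp ?_, ?_⟩).trans (mul_one 2).symm
      · have := congrArg Prod.fst e
        simp only at this
        rw [show m = 0 by omega, mul_zero]
      · ext ⟨t, k⟩
        simp only [Finset.mem_filter, mem_fixPairs hD, not_not, Finset.mem_insert,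
          Finset.mem_singleton, Prod.mk.injEq]
        push_cast
        constructor
        · rintro ⟨⟨h, -⟩, rfl⟩
          rcases sq_eq_sq_iff_eq_or_eq_neg.1 (show t ^ 2 = (2 * (m : ℤ)) ^ 2 by linarith) with h | h
          · exact Or.inl ⟨h, rfl⟩
          · exact Or.inr ⟨h, rfl⟩
        · rintro (⟨rfl, rfl⟩ | ⟨rfl, rfl⟩) <;> exact ⟨⟨by ring, lt_irrefl 0⟩, rfl⟩
    · refine (Finset.card_eq_zero.2 (Finset.eq_empty_of_forall_notMem fun q hq => hs ?_)).trans
        (mul_zero 2).symm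
      simp only [Finset.mem_filter, mem_fixPairs hD, not_not] at hq
      obtain ⟨⟨h, -⟩, h0⟩ := hq
      rw [h0] at h
      obtain ⟨w, hw⟩ : (2 : ℤ) ∣ q.1 :=
        Int.prime_two.dvd_of_dvd_pow (n := 2) ⟨2 * p, by linarith⟩
      rw [hw] at h
      exact Int.isSquare_natCast_iff.1 ⟨w, by linarith⟩
  rw [← Finset.card_filter_add_card_filter_not (fun q : ℤ × ℤ => 0 < q.2) (s := fixPairs D p),
    ← Finset.card_filter_add_card_filter_not (fun q : ℤ × ℤ => q.2 ≠ 0)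
      (s := (fixPairs D p).filter fun q => ¬0 < q.2), hneg, hzero]
  ring

/-- The solutions of `t² - D k² = 4 p` are those with `k > 0` and their negatives. -/
theorem card_fixPairs [Fact (¬ IsSquare p)] {D : ℤ} (hD : D < 0) :
    (fixPairs D p).card = 2 * ((fixPairs D p).filter fun q => 0 < q.2).card := by
  have hs : ¬ IsSquare p := Fact.out
  rw [card_fixPairs_all p hD fun e => hs ⟨0, by simp [e]⟩, sqInd, if_neg hs, mul_zero, add_zero]

/-- A form in the sum is a multiple of a reduced primitive form with the same root. -/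
theorem exists_red_of_traceForm (q : Σ _ : ℤ, ℤ × ℤ × ℤ) (h : q ∈ traceForms p) :
    ∃ k f₁, 0 < k ∧ q.2 = smulForm k f₁ ∧ f₁ ∈ Red (disc f₁) ∧ IsRoot f₁ (rootOf q.2) := by
  obtain ⟨ht, hd, ha', hb', hc', hbd'⟩ := (mem_traceForms p).1 h
  obtain ⟨k, ⟨a, b, c⟩, hk, hqf, hf₁, hprim₁⟩ := exists_content q.2 ha'
  have hrq := isRoot_rootOf ha' (by rw [hd]; linarith)
  set ρ := rootOf q.2
  rw [hqf] at hrq hb' hc' hbd'
  simp only [smulForm] at hb' hc' hbd'
  refine ⟨k, (a, b, c), hk, hqf, ⟨rfl, hprim₁, hf₁, ?_, le_of_mul_le_mul_left hc' hk, fun h => ?_⟩,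
    ?_⟩
  · rw [abs_mul, abs_of_pos hk] at hb'
    exact le_of_mul_le_mul_left hb' hk
  · refine nonneg_of_mul_nonneg_right (hbd' ?_) hk
    rw [abs_mul, abs_of_pos hk]
    exact h.imp (congrArg (k * ·)) (congrArg (k * ·))
  · simp only [IsRoot, smulForm] at hrq ⊢
    push_cast at hrq
    refine mul_left_cancel₀ (show (k : ℂ) ≠ 0 by exact_mod_cast hk.ne') ?_
    linear_combination hrq

/-- Reduced primitive forms with equivalent roots are equal. -/
theorem red_eq_of_root {f f' : ℤ × ℤ × ℤ} (hf : f ∈ Red (disc f)) (hf' : f' ∈ Red (disc f'))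
    {τ τ' : ℍ} (hr : IsRoot f τ) (hr' : IsRoot f' τ') (hj : jfun τ = jfun τ') : f = f' := by
  obtain ⟨g, hg⟩ := (jfun_eq_iff _ _).1 hj
  obtain ⟨-, hprim, ha, -⟩ := id hf
  obtain ⟨-, hprim', ha', -⟩ := id hf'
  have hD := disc_neg_of_isRoot ha'.ne' hr'
  obtain ⟨u, hu⟩ := exists_disc_multiple ha.ne' hprim hr hr' hg
  obtain ⟨v, hv⟩ := exists_disc_multiple ha'.ne' hprim' hr' hr
    (g := g⁻¹) (by rw [← hg, inv_smul_smul])
  have hdd : disc f = disc f' := by
    have h1 : (u * v) ^ 2 = 1 := mul_right_cancel₀ hD.ne (by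
      rw [one_mul, mul_pow, mul_assoc, ← hv, ← hu])
    have h2 : v ^ 2 = 1 := by
      rcases sq_eq_one_iff.1 h1 with h | h
      · rcases Int.eq_one_or_neg_one_of_mul_eq_one' h with ⟨-, e⟩ | ⟨-, e⟩ <;> simp [e]
      · rcases Int.eq_one_or_neg_one_of_mul_eq_neg_one' h with ⟨-, e⟩ | ⟨-, e⟩ <;> simp [e]
    rw [hv, h2, one_mul]
  exact red_eq_of_smul hD (hdd ▸ hf) hf' hr hr' hg

/-- **The weights over one invariant**: the weight of the primitive form times the number of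
its multiples. -/
theorem sum_fibre_eq {a b c : ℤ} {τ : ℍ} (hf : (a, b, c) ∈ Red (disc (a, b, c)))
    (hr : IsRoot (a, b, c) τ) :
    ∑ q ∈ (traceForms p).filter (fun q => jfun (rootOf q.2) = jfun τ), weight q.2 =
      ((fixPairs (disc (a, b, c)) p).filter fun q => 0 < q.2).card * weight (a, b, c) := by
  classical
  have hf' := hf
  obtain ⟨-, hprim, ha, hb, hc, hbd⟩ := hf
  have hD := disc_neg_of_isRoot (f := (a, b, c)) ha.ne' hr
  set D := disc (a, b, c) with hDdef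
  -- the fibre consists of the multiples of the form
  set K := (fixPairs D p).filter (fun q => 0 < q.2) with hK
  refine (Finset.sum_nbij' (fun q => (q.1, q.2.1 / a))
    (fun q => (⟨q.1, smulForm q.2 (a, b, c)⟩ : Σ _ : ℤ, ℤ × ℤ × ℤ)) ?_ ?_ ?_ ?_ ?_).trans
    (show ∑ q ∈ K, weight (a, b, c) = _ by rw [Finset.sum_const, nsmul_eq_mul])
  all_goals intro q hq
  all_goals
    try
      have hmult : ∃ k, 0 < k ∧ q.2 = smulForm k (a, b, c) ∧ (q.1, k) ∈ fixPairs D p := by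
        obtain ⟨hq, hj⟩ := Finset.mem_filter.1 hq
        obtain ⟨k, f₁, hk, hqf, hred, hr₁⟩ := exists_red_of_traceForm p q hq
        have hd := ((mem_traceForms p).1 hq).2.1
        rw [red_eq_of_root hred hf' hr₁ hr hj] at hqf
        refine ⟨k, hk, hqf, (mem_fixPairs hD).2 ?_⟩
        rw [hqf, disc_smulForm, ← hDdef] at hd
        linear_combination -hd
      obtain ⟨k, hk, hqf, hkp⟩ := hmult
      have hka : k * a / a = k := Int.mul_ediv_cancel _ ha.ne'
  · rw [hqf]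
    simp only [smulForm, hka, hK, Finset.mem_filter]
    exact ⟨hkp, hk⟩
  · obtain ⟨hq, hq0⟩ := Finset.mem_filter.1 hq
    rw [mem_fixPairs hD] at hq
    have hroot := isRoot_smulForm (k := q.2) hr
    have hlt : q.1 ^ 2 < 4 * p := by
      have : 0 < q.2 ^ 2 := pow_pos hq0 2
      nlinarith
    have hd : disc (smulForm q.2 (a, b, c)) = q.1 ^ 2 - 4 * p := by
      rw [disc_smulForm, ← hDdef]; linarith
    have ha' : 0 < (smulForm q.2 (a, b, c)).1 := mul_pos hq0 ha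
    refine Finset.mem_filter.2 ⟨(mem_traceForms p).2 ⟨hlt, hd, ha', ?_, ?_, ?_⟩, ?_⟩
    · simp only [smulForm, abs_mul, abs_of_pos hq0]
      exact mul_le_mul_of_nonneg_left hb hq0.le
    · exact mul_le_mul_of_nonneg_left hc hq0.le
    · simp only [smulForm, abs_mul, abs_of_pos hq0]
      exact fun h => mul_nonneg hq0.le (hbd (h.imp (mul_left_cancel₀ hq0.ne')
        (mul_left_cancel₀ hq0.ne')))
    · rw [root_unique ha'.ne' (isRoot_rootOf ha' (by rw [hd]; linarith)) hroot]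
  · obtain ⟨t, f⟩ := q
    simp only at hqf ⊢
    subst hqf
    simp only [smulForm, hka]
  · simp only [smulForm, Int.mul_ediv_cancel _ ha.ne', Prod.mk.eta]
  · rw [hqf, weight_smulForm hk.ne']

/-- With `m` times the stabiliser the number of the matrices of determinant `p` fixing the point,
for `p` no square, the weights over the invariant add up to `m`. -/
theorem sum_fibre_of_card [Fact (¬ IsSquare p)] {a b c : ℤ} {τ : ℍ}
    (hf : (a, b, c) ∈ Red (disc (a, b, c))) (hr : IsRoot (a, b, c) τ) {m : ℕ}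
    (hm : m * Nat.card (FixMat τ 1) = Nat.card (FixMat τ p)) :
    ∑ q ∈ (traceForms p).filter (fun q => jfun (rootOf q.2) = jfun τ), weight q.2 = (m : ℚ) := by
  have hp0 : p ≠ 0 := fun e => nonsquare p ⟨0, by simp [e]⟩
  rw [sum_fibre_eq p hf hr]
  obtain ⟨-, hprim, ha, -⟩ := id hf
  have hD := disc_neg_of_isRoot (f := (a, b, c)) ha.ne' hr
  rw [card_fixMat_eq ha hprim hr hp0, show (FixMat τ 1) = FixMat τ ((1 : ℕ) : ℤ) by simp,
    card_fixMat_eq ha hprim hr one_ne_zero, card_fixPairs p hD] at hm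
  have h3 := weight_mul_card (τ := τ) hf hr
  set K := ((fixPairs (disc (a, b, c)) p).filter fun q => 0 < q.2).card
  have h1' : (m : ℚ) * (fixPairs (disc (a, b, c)) 1).card = 2 * K := by exact_mod_cast hm
  linear_combination (-(1 / 2 : ℚ)) * weight (a, b, c) * h1' + ((1 / 2 : ℚ) * m) * h3

end FA.ClassRelation

namespace FA.ClassRelation

open UpperHalfPlane hiding I
open FA.ModField FA.ModPoly FA.JInj FA.Singular

variable (p : ℕ) [Fact (1 < p)] [Fact (Squarefree p)] [Fintype (FA.Dim.Cos p)]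

theorem val_mem_roots (q : Σ _ : ℤ, ℤ × ℤ × ℤ) (h : q ∈ traceForms p) :
    jfun (rootOf q.2) ∈ (diagC p).roots.toFinset := by
  obtain ⟨M, hM⟩ := exists_fix_of_traceForm p q h
  rw [Multiset.mem_toFinset, Polynomial.mem_roots (diagC_ne_zero p)]
  exact isRoot_diagC p ((fixPrim_eq (Fact.out : Squarefree p) _).symm ▸ hM)

/-- The forms over one root of `Φ_p(X, X)` for a squarefree `p`. -/
theorem sum_fibre {x : ℂ} (hx : x ∈ (diagC p).roots.toFinset) :
    ∑ q ∈ (traceForms p).filter (fun q => jfun (rootOf q.2) = x), weight q.2 =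
      ((diagC p).rootMultiplicity x : ℚ) := by
  obtain ⟨⟨a, b, c⟩, τ, hf, hr, rfl⟩ := exists_red_of_root p hx
  rw [rootMultiplicity_diag]
  refine sum_fibre_of_card p hf hr ?_
  rw [card_fixMat, fixPrim_eq (Fact.out : Squarefree p)]

end FA.ClassRelation

end
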