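import Fermat.Agent.Tau.WeierstrassCoefficients
import Fermat.Agent.ReducedGroups.HasseInvariant
import Fermat.Agent.Mazur.Wp.Curve
import Mathlib.NumberTheory.Bernoulli
import Mathlib.NumberTheory.Wilson
import Mathlib.RingTheory.Localization.Away.Basic

/-!
# `E_(p-1)` modulo `p` is the Hasse invariant

The expansion of `℘` for `ℤ τ + ℤ` satisfies the recursion with `a = E₄ / 12` and `b = -E₆ / 216`,
and its coefficient at `z ^ (p-1)` is `-(p-2) B_(p-1) / (p-1)! E_(p-1)`; by the theorem of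
von Staudt `p B_(p-1) ≡ -1`.
-/

set_option autoImplicit false

noncomputable section

namespace FA.HasseEis

open Filter FA.ModField FA.Mazur.Wp
open scoped PowerSeries Topology Real

section tay

variable {F G : ℂ → ℂ}

theorem tay_congr (h : F =ᶠ[𝓝 0] G) : tay F = tay G := by
  ext n
  simp [tay, h.iteratedDeriv_eq n]

theorem tay_mul (hF : AnalyticAt ℂ F 0) (hG : AnalyticAt ℂ G 0) :
    tay (fun z => F z * G z) = tay F * tay G := by
  ext n
  simp only [tay, PowerSeries.coeff_mk, iteratedDeriv_fun_mul hF.contDiffAt hG.contDiffAt,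
    Finset.mul_sum, PowerSeries.coeff_mul]
  rw [Finset.Nat.sum_antidiagonal_eq_sum_range_succ_mk]
  refine Finset.sum_congr rfl fun i hi => ?_
  rw [Nat.cast_choose ℂ (Nat.lt_succ_iff.1 (Finset.mem_range.1 hi))]
  have := n.factorial_ne_zero
  have := i.factorial_ne_zero
  have := (n - i).factorial_ne_zero
  field_simp

theorem tay_add (hF : AnalyticAt ℂ F 0) (hG : AnalyticAt ℂ G 0) :
    tay (fun z => F z + G z) = tay F + tay G := by
  ext n
  simp [tay, iteratedDeriv_fun_add hF.contDiffAt hG.contDiffAt, mul_add]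

theorem tay_const (c : ℂ) : tay (fun _ => c) = PowerSeries.C c := by
  ext n
  rcases n with _ | n <;> simp [tay, iteratedDeriv_const]

theorem tay_pow (hF : AnalyticAt ℂ F 0) (n : ℕ) : tay (fun z => F z ^ n) = tay F ^ n := by
  induction n with
  | zero => simpa using tay_const 1
  | succ n ih =>
    simp only [pow_succ]
    rw [tay_mul (F := fun z => F z ^ n) (hF.pow n) hF, ih]

theorem tay_id : tay (fun z => z) = PowerSeries.X := by
  ext n
  rcases n with _ | _ | n <;>
    simp [tay, PowerSeries.coeff_X, iteratedDeriv_succ', iteratedDeriv_const]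

theorem tay_id_pow (n : ℕ) : tay (fun z => z ^ n) = PowerSeries.X ^ n := by
  rw [tay_pow (F := fun z : ℂ => z) analyticAt_id, tay_id]

end tay

/-- The Laurent coefficients of `℘`, shifted by two. -/
def wCoeff (L : PeriodPair) (n : ℕ) : ℂ := if n < 3 then 0 else ((n : ℂ) - 1) * L.G n

/-- The series `z² ℘`. -/
def wSeries (L : PeriodPair) : ℂ⟦X⟧ :=
  PowerSeries.mk fun n => if n = 0 then 1 else wCoeff L n

theorem rel_wSeries (L : PeriodPair) : rel L.g₂ L.g₃ (wSeries L) = 0 := by
  set f := L.weierstrassPExcept 0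
  set g := L.derivWeierstrassPExcept 0
  have hfa : AnalyticAt ℂ f 0 := L.analyticAt_weierstrassPExcept 0
  have hga : AnalyticAt ℂ g 0 := L.analyticAt_derivWeierstrassPExcept 0
  set u : ℂ → ℂ := fun z => z ^ 2 * f z + 1
  set v : ℂ → ℂ := fun z => z ^ 3 * g z + -2
  have hua : AnalyticAt ℂ u 0 := by fun_prop
  have hva : AnalyticAt ℂ v 0 := by fun_prop
  have hu : tay u = wSeries L := by
    rw [tay_add (by fun_prop) analyticAt_const, tay_mul (by fun_prop) hfa,
      tay_id_pow, tay_const]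
    ext n
    simp only [map_add, PowerSeries.coeff_X_pow_mul', wSeries, PowerSeries.coeff_mk, tay,
      PowerSeries.coeff_C, f, L.iteratedDeriv_weierstrassPExcept_self, L.weierstrassPExcept_zero,
      wCoeff, PeriodPair.sumInvPow_zero]
    rcases n with _ | _ | _ | n
    · simp
    · simp
    · simp
    · rw [if_pos (by omega), if_neg (by omega), if_neg (by omega), if_neg (by omega),
        if_neg (by omega), show n + 1 + 1 + 1 - 2 = n + 1 by omega, add_zero,
        Nat.factorial_succ (n + 1)]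
      have : ((n + 1).factorial : ℂ) ≠ 0 := Nat.cast_ne_zero.2 (n + 1).factorial_ne_zero
      push_cast
      field_simp
      ring
  have hv : tay v = vOf (wSeries L) := by
    rw [tay_add (by fun_prop) analyticAt_const, tay_mul (by fun_prop) hga,
      tay_id_pow, tay_const]
    ext n
    simp only [map_add, PowerSeries.coeff_X_pow_mul', coeff_vOf, wSeries, PowerSeries.coeff_mk,
      tay, PowerSeries.coeff_C, g, L.iteratedDeriv_derivWeierstrassPExcept_self, wCoeff,
      PeriodPair.sumInvPow_zero]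
    rcases n with _ | _ | _ | n
    · simp
    · simp
    · simp
    · rw [if_pos (by omega), if_neg (by omega), if_neg (by omega), if_neg (by omega), add_zero,
        show n + 1 + 1 + 1 - 3 = n by omega, Nat.factorial_succ (n + 1), Nat.factorial_succ n]
      have : (n.factorial : ℂ) ≠ 0 := Nat.cast_ne_zero.2 n.factorial_ne_zero
      push_cast
      field_simp
      ring
  have hzero : (fun z => v z ^ 2 + -4 * u z ^ 3 + L.g₂ * u z * z ^ 4 + L.g₃ * z ^ 6) =ᶠ[𝓝 0]
      fun _ => 0 := by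
    filter_upwards [L.compl_lattice_sdiff_singleton_mem_nhds 0] with z hz
    by_cases h0 : z = 0
    · simp [h0, u, v]; norm_num
    have hL : z ∉ L.lattice := by simp_all
    have hsq := L.derivWeierstrassP_sq z hL
    have e1 : f z = L.weierstrassP z - 1 / z ^ 2 := by
      have := L.weierstrassPExcept_def 0 z
      simp only [ZeroMemClass.coe_zero, sub_zero] at this
      rw [show f z = _ from this]
      simp [sub_eq_add_neg]
    have e2 : g z = L.derivWeierstrassP z + 2 / z ^ 3 := by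
      have := L.derivWeierstrassPExcept_def 0 z
      simpa [g] using this
    simp only [u, v, e1, e2]
    field_simp
    linear_combination z ^ 6 * hsq
  have := tay_congr hzero
  rw [tay_add (by fun_prop) (by fun_prop), tay_add (by fun_prop) (by fun_prop),
    tay_add (by fun_prop) (by fun_prop), tay_mul analyticAt_const (by fun_prop),
    tay_mul (by fun_prop) (by fun_prop), tay_mul analyticAt_const (by fun_prop),
    tay_mul analyticAt_const (by fun_prop), tay_pow hva, tay_pow hua, tay_id_pow, tay_id_pow,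
    tay_const, tay_const, tay_const, tay_const, hu, hv,
    map_zero] at this
  rw [← this, rel, map_neg, map_ofNat]
  ring

/-- The relation is weighted homogeneous. -/
theorem rescale_rel {R : Type*} [CommRing R] (s a b : R) (U : R⟦X⟧) :
    PowerSeries.rescale s (rel a b U) = rel (s ^ 4 * a) (s ^ 6 * b) (PowerSeries.rescale s U) := by
  have hC : ∀ c : R, PowerSeries.rescale s (PowerSeries.C c) = PowerSeries.C c := fun c => by
    ext n
    rcases n with _ | n <;> simp [PowerSeries.coeff_rescale, PowerSeries.coeff_C]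
  have hv : PowerSeries.rescale s (vOf U) = vOf (PowerSeries.rescale s U) := by
    ext n
    simp only [PowerSeries.coeff_rescale, coeff_vOf]
    ring
  simp only [rel, map_add, map_sub, map_pow, map_mul, map_ofNat, hv, hC, PowerSeries.rescale_X]
  ring

/-- The coefficients for `ℤ τ + ℤ`, in the variable `2 π i z`. -/
def eCoeff (τ : UpperHalfPlane) (n : ℕ) : ℂ :=
  (FA.Mazur.Wp.tpi)⁻¹ ^ n * wCoeff (latPair τ) n

theorem isSol_eCoeff (τ : UpperHalfPlane) (N : ℕ) :
    IsSol (ModularForm.E₄ τ / 12) (-(ModularForm.E₆ τ / 216)) (eCoeff τ) N := by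
  intro j hj _
  have h0 : FA.Mazur.Wp.tpi ≠ 0 := by
    simp [FA.Mazur.Wp.tpi, Real.pi_ne_zero]
  have h := rescale_rel (FA.Mazur.Wp.tpi)⁻¹ (latPair τ).g₂ (latPair τ).g₃
    (wSeries (latPair τ))
  rw [rel_wSeries, map_zero, FA.Mazur.Wp.g₂_latPair, FA.Mazur.Wp.g₃_latPair,
    show (FA.Mazur.Wp.tpi)⁻¹ ^ 4 * (FA.Mazur.Wp.tpi ^ 4 / 12 * ModularForm.E₄ τ) =
      ModularForm.E₄ τ / 12 by field_simp,
    show (FA.Mazur.Wp.tpi)⁻¹ ^ 6 * (-(FA.Mazur.Wp.tpi ^ 6 / 216) * ModularForm.E₆ τ) =
      -(ModularForm.E₆ τ / 216) by field_simp] at h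
  have h2 := congrArg (PowerSeries.coeff j) h
  have hcoef : ∀ i, i ≠ 0 →
      PowerSeries.coeff i (PowerSeries.rescale (FA.Mazur.Wp.tpi)⁻¹ (wSeries (latPair τ))) =
        eCoeff τ i := fun i hi => by
    simp [PowerSeries.coeff_rescale, wSeries, eCoeff, hi]
  rw [map_zero, coeff_rel (by simp [PowerSeries.coeff_rescale, wSeries]) hj,
    hcoef j (by omega), uTrunc_congr (d := eCoeff τ) fun i hi _ => hcoef i (by omega)] at h2
  linear_combination -h2

theorem eCoeff_eq (τ : UpperHalfPlane) {n : ℕ} (hn : 3 ≤ n) (hev : Even n) :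
    eCoeff τ n = -(((n : ℂ) - 1) * (bernoulli n : ℂ) / n.factorial) * ModularForm.E hn τ := by
  obtain ⟨k, rfl⟩ := even_iff_two_dvd.1 hev
  have hk : k ≠ 0 := by omega
  rw [eCoeff, wCoeff, if_neg (by omega), FA.Mazur.Wp.G_latPair τ hn,
    show ((2 * k : ℕ) : ℂ) = 2 * (k : ℂ) by push_cast; ring, riemannZeta_two_mul_nat hk,
    FA.Mazur.Wp.tpi, inv_pow, mul_pow, mul_pow, pow_mul Complex.I, Complex.I_sq,
    show (2 : ℂ) ^ (2 * k) = 2 * 2 ^ (2 * k - 1) by rw [← pow_succ', Nat.sub_add_cancel (by omega)]]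
  have : (π : ℂ) ≠ 0 := by simp [Real.pi_ne_zero]
  field_simp
  rw [pow_succ]
  ring

/-- **von Staudt at `p - 1`.** -/
theorem exists_bernoulli {p : ℕ} [Fact p.Prime] (h5 : 5 ≤ p) : ∃ B D : ℤ,
    (p : ℚ) * bernoulli (p - 1) * D = B ∧ (D : ZMod p) ≠ 0 ∧ (B : ZMod p) = -(D : ZMod p) := by
  obtain ⟨k, hk⟩ : ∃ k, p - 1 = 2 * k := ⟨(p - 1) / 2, by
    obtain ⟨m, hm⟩ := (Fact.out : p.Prime).odd_of_ne_two (by omega); omega⟩
  obtain ⟨T, hT⟩ := Bernoulli.vonStaudt_clausen k
  set s := (Finset.range (2 * k + 2)).filter fun q => q.Prime ∧ (q - 1) ∣ 2 * k with hs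
  have hp : p ∈ s := by
    rw [hs, Finset.mem_filter, Finset.mem_range]
    exact ⟨by omega, Fact.out, by rw [hk]⟩
  set D := ∏ q ∈ s.erase p, q
  have hD : (D : ZMod p) ≠ 0 := by
    rw [Ne, ZMod.natCast_eq_zero_iff, (Fact.out : p.Prime).prime.dvd_finsetProd_iff]
    rintro ⟨q, hq, hpq⟩
    obtain ⟨hne, hq⟩ := Finset.mem_erase.1 hq
    exact hne ((Nat.prime_dvd_prime_iff_eq Fact.out (Finset.mem_filter.1 hq).2.1).1 hpq).symm
  refine ⟨(p : ℤ) * (T * D - ∑ q ∈ s.erase p, ((D / q : ℕ) : ℤ)) - D, D, ?_, by simpa using hD, ?_⟩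
  · rw [hk, show bernoulli (2 * k) = (T : ℚ) - ∑ q ∈ s, (1 : ℚ) / q by rw [hT]; simp [hs],
      ← Finset.add_sum_erase s _ hp]
    have hsum : ∀ q ∈ s.erase p,
        (((D / q : ℕ) : ℤ) : ℚ) = (D : ℚ) * (1 / q) := fun q hq => by
      rw [Int.cast_natCast, Nat.cast_div (Finset.dvd_prod_of_mem _ hq), mul_one_div]
      exact Nat.cast_ne_zero.2 (Finset.mem_filter.1 (Finset.mem_erase.1 hq).2).2.1.ne_zero
    rw [Int.cast_sub, Int.cast_mul, Int.cast_sub, Int.cast_sum, Finset.sum_congr rfl hsum,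
      ← Finset.mul_sum]
    push_cast
    have : (p : ℚ) ≠ 0 := Nat.cast_ne_zero.2 (Fact.out : p.Prime).ne_zero
    field_simp
    ring
  · push_cast
    simp

/-- Denominators can be cleared. -/
theorem exists_int_poly {M : ℤ} (P : MvPolynomial (Fin 2) (Localization.Away M)) :
    ∃ (r : ℕ) (Q : MvPolynomial (Fin 2) ℤ),
      MvPolynomial.C ((algebraMap ℤ (Localization.Away M) M) ^ r) * P =
        MvPolynomial.map (algebraMap ℤ (Localization.Away M)) Q := by
  induction P using MvPolynomial.induction_on with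
  | C x =>
    obtain ⟨r, a, h⟩ := IsLocalization.Away.surj M x
    exact ⟨r, MvPolynomial.C a, by rw [← map_mul, MvPolynomial.map_C, mul_comm, h]⟩
  | add P P' hP hP' =>
    obtain ⟨r, Q, h⟩ := hP
    obtain ⟨r', Q', h'⟩ := hP'
    refine ⟨r + r', MvPolynomial.C (M ^ r') * Q + MvPolynomial.C (M ^ r) * Q', ?_⟩
    simp only [map_add, map_mul, MvPolynomial.map_C, map_pow, pow_add, ← h, ← h']
    ring
  | mul_X P i hP =>
    obtain ⟨r, Q, h⟩ := hP
    exact ⟨r, Q * MvPolynomial.X i, by rw [← mul_assoc, h, map_mul, MvPolynomial.map_X]⟩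

open MvPolynomial in
/-- The Hasse invariant of `y² = x³ - (X/48) x + Y/864`. -/
def hassePoly (p : ℕ) : MvPolynomial (Fin 2) (ZMod p) :=
  ((Polynomial.X ^ 3 + Polynomial.C (-C ((48 : ZMod p)⁻¹) * X 0) * Polynomial.X +
    Polynomial.C (C ((864 : ZMod p)⁻¹) * X 1) : Polynomial (MvPolynomial (Fin 2) (ZMod p))) ^
      (p / 2)).coeff (p - 1)

theorem natCast_ne_zero_of_coprime {p d : ℕ} (h : p.Coprime d) [Fact p.Prime] :
    (d : ZMod p) ≠ 0 := fun e => by
  rw [ZMod.natCast_eq_zero_iff] at e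
  exact (Fact.out : p.Prime).coprime_iff_not_dvd.1 h e

open MvPolynomial in
/-- **Deligne's congruence.** -/
theorem hasse_eisenstein {p : ℕ} [Fact p.Prime] (h5 : 5 ≤ p) (hk : 3 ≤ p - 1) :
    ∃ (N : ℤ) (Q : MvPolynomial (Fin 2) ℤ), ¬ (p : ℤ) ∣ N ∧
      (∀ τ, (N : ℂ) * ModularForm.E hk τ =
        aeval ![ModularForm.E₄ τ, ModularForm.E₆ τ] Q) ∧
      map (Int.castRingHom (ZMod p)) Q = C (N : ZMod p) * hassePoly p := by
  obtain ⟨n, hn⟩ : ∃ n, p = n + 1 := ⟨p - 1, by omega⟩
  have hn' : p - 1 = n := by omega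
  set M : ℤ := ↑(Nat.factorial (p - 1)) with hM
  have hMp : (M : ZMod p) = -1 := by
    rw [hM]; push_cast; exact ZMod.wilsons_lemma p
  set S := Localization.Away M
  have hu : ∀ d : ℕ, d ∣ (p - 1).factorial → IsUnit (algebraMap ℤ S (d : ℤ)) := fun d hd =>
    isUnit_of_dvd_unit (map_dvd _ (Int.natCast_dvd_natCast.2 hd))
      (IsLocalization.Away.algebraMap_isUnit (S := S) M)
  obtain ⟨i12, h12⟩ := (hu 12 ((show 12 ∣ Nat.factorial 4 by decide).trans
    (Nat.factorial_dvd_factorial (by omega)))).exists_right_inv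
  obtain ⟨i6, h6⟩ := (hu 6 ((show 6 ∣ Nat.factorial 3 by decide).trans
    (Nat.factorial_dvd_factorial hk))).exists_right_inv
  set a : MvPolynomial (Fin 2) S := C i12 * X 0 with ha
  set b : MvPolynomial (Fin 2) S := -(C (i6 ^ 3) * X 1) with hb
  obtain ⟨c, hc⟩ := exists_sol a b (N := p - 1) fun j h1 h2 => by
    have e : (4 : MvPolynomial (Fin 2) S) * ((j : MvPolynomial (Fin 2) S) + 1) =
        C (algebraMap ℤ S ((4 : ℕ) : ℤ) * algebraMap ℤ S ((j + 1 : ℕ) : ℤ)) := by
      simp [map_ofNat]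
    rw [e]
    exact ((hu 4 (Nat.dvd_factorial (by omega) (by omega))).mul
      (hu (j + 1) (Nat.dvd_factorial (by omega) (by omega)))).map C
  set P := PowerSeries.coeff (p - 1) (rel a b (uTrunc (p - 1) c))
  -- over the complex numbers
  have hgC : IsUnit (Int.castRingHom ℂ M) :=
    isUnit_iff_ne_zero.2 (by simp [hM, Nat.factorial_ne_zero])
  let φS : S →+* ℂ := IsLocalization.Away.lift M hgC
  have hφ : ∀ z : ℤ, φS (algebraMap ℤ S z) = z := fun z =>
    RingHom.congr_fun (IsLocalization.Away.lift_comp M hgC) z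
  have hC : ∀ τ, eval₂Hom φS ![ModularForm.E₄ τ, ModularForm.E₆ τ] P =
      4 * (p : ℂ) * eCoeff τ (p - 1) := fun τ => by
    set φ := eval₂Hom φS ![ModularForm.E₄ τ, ModularForm.E₆ τ]
    have ea : φ a = ModularForm.E₄ τ / 12 := by
      have := congrArg φS h12
      rw [map_mul, hφ, map_one] at this
      rw [ha, map_mul, eval₂Hom_C, eval₂Hom_X', Matrix.cons_val_zero]
      push_cast at this
      linear_combination ModularForm.E₄ τ / 12 * this
    have eb : φ b = -(ModularForm.E₆ τ / 216) := by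
      have h6' := congrArg φS h6
      rw [map_mul, hφ, map_one] at h6'
      push_cast at h6'
      have e : φS i6 = 1 / 6 := by linear_combination h6' / 6
      rw [hb, map_neg, map_mul, eval₂Hom_C, eval₂Hom_X', map_pow, e]
      simp
      ring
    have hs := hc.map φ
    rw [ea, eb] at hs
    have hT := isSol_eCoeff τ p
    have heq := sol_unique (N := p - 1) (fun j _ _ => (IsRegular.of_ne_zero
      (mul_ne_zero (by norm_num : (4 : ℂ) ≠ 0) (by exact_mod_cast j.succ_ne_zero))).left) hs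
      fun j h1 h2 => hT j h1 (by omega)
    show φ P = _
    rw [map_coeff_rel (R := MvPolynomial (Fin 2) S) (S := ℂ) φ, ea, eb,
      uTrunc_congr (d := eCoeff τ) fun j h1 h2 => heq j h1 h2, hT (p - 1) (by omega) (by omega),
      Nat.cast_sub (by omega : 1 ≤ p)]
    push_cast
    ring
  -- modulo p
  have hgP : IsUnit (Int.castRingHom (ZMod p) M) :=
    isUnit_iff_ne_zero.2 (by rw [eq_intCast, hMp]; simp)
  let ψS : S →+* ZMod p := IsLocalization.Away.lift M hgP
  have hψ : ∀ z : ℤ, ψS (algebraMap ℤ S z) = z := fun z =>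
    RingHom.congr_fun (IsLocalization.Away.lift_comp M hgP) z
  set ψ : MvPolynomial (Fin 2) S →+* MvPolynomial (Fin 2) (ZMod p) := map ψS
  have hP : ψ P = 8 * hassePoly p := by
    rw [map_coeff_rel (R := MvPolynomial (Fin 2) S) (S := MvPolynomial (Fin 2) (ZMod p)) ψ,
      coeff_rel_eq_hasse4 h5 (hc.map ψ)]
    have n2 : (2 : ZMod p) ≠ 0 := by
      exact_mod_cast natCast_ne_zero_of_coprime (p := p) (d := 2)
        ((Nat.coprime_primes Fact.out Nat.prime_two).2 (by omega))
    have n3 : (3 : ZMod p) ≠ 0 := by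
      exact_mod_cast natCast_ne_zero_of_coprime (p := p) (d := 3)
        ((Nat.coprime_primes Fact.out Nat.prime_three).2 (by omega))
    have e12 : ψS i12 = (12 : ZMod p)⁻¹ := by
      have := congrArg ψS h12
      rw [map_mul, hψ, map_one] at this
      exact eq_inv_of_mul_eq_one_right (by exact_mod_cast this)
    have e6 : ψS i6 = (6 : ZMod p)⁻¹ := by
      have := congrArg ψS h6
      rw [map_mul, hψ, map_one] at this
      exact eq_inv_of_mul_eq_one_right (by exact_mod_cast this)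
    have key : (Polynomial.C 4 * Polynomial.X ^ 3 - Polynomial.C (ψ a) * Polynomial.X -
        Polynomial.C (ψ b)) =
        Polynomial.C (C (4 : ZMod p)) * (Polynomial.X ^ 3 +
          Polynomial.C (-C ((48 : ZMod p)⁻¹) * X 0) * Polynomial.X +
          Polynomial.C (C ((864 : ZMod p)⁻¹) * X 1)) := by
      have c48 : (4 : ZMod p) * (48 : ZMod p)⁻¹ = 12⁻¹ := by
        rw [show (48 : ZMod p) = 4 * 12 by norm_num, mul_inv, ← mul_assoc,
          mul_inv_cancel₀ (show (4 : ZMod p) ≠ 0 by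
            rw [show (4 : ZMod p) = 2 * 2 by norm_num]; exact mul_ne_zero n2 n2), one_mul]
      have c864 : (4 : ZMod p) * (864 : ZMod p)⁻¹ = (6⁻¹) ^ 3 := by
        rw [show (864 : ZMod p) = 4 * 6 ^ 3 by norm_num, mul_inv, ← mul_assoc,
          mul_inv_cancel₀ (show (4 : ZMod p) ≠ 0 by
            rw [show (4 : ZMod p) = 2 * 2 by norm_num]; exact mul_ne_zero n2 n2), one_mul, inv_pow]
      have ea' : ψ a = C (4 * (48 : ZMod p)⁻¹) * X 0 := by rw [c48]; simp [ψ, ha, e12]
      have eb' : ψ b = -(C (4 * (864 : ZMod p)⁻¹) * X 1) := by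
        rw [c864, map_pow]; simp [ψ, hb, e6]
      rw [ea', eb']
      simp [map_ofNat]
      ring
    have h4 : (4 : ZMod p) ^ ((p - 1) / 2) = 1 := by
      rw [show (4 : ZMod p) = 2 ^ 2 by norm_num, ← pow_mul,
        show 2 * ((p - 1) / 2) = p - 1 by
          obtain ⟨m, hm⟩ := (Fact.out : p.Prime).odd_of_ne_two (by omega); omega]
      exact ZMod.pow_card_sub_one_eq_one n2
    rw [hasse4, key, mul_pow, ← map_pow, ← map_pow, h4, map_one, map_one, one_mul, hassePoly,
      show p / 2 = (p - 1) / 2 by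
        obtain ⟨m, hm⟩ := (Fact.out : p.Prime).odd_of_ne_two (by omega); omega]
  -- clearing denominators
  obtain ⟨r, Q₀, hQ₀⟩ := exists_int_poly P
  obtain ⟨B, D, hBD, hD0, hB⟩ := exists_bernoulli (p := p) h5
  refine ⟨-4 * ((p : ℤ) - 2) * B * M ^ r, C (M * D) * Q₀, ?_, fun τ => ?_, ?_⟩
  · rw [← ZMod.intCast_zmod_eq_zero_iff_dvd]
    push_cast
    rw [hB, hMp]
    have n2 : (2 : ZMod p) ≠ 0 := by
      exact_mod_cast natCast_ne_zero_of_coprime (p := p) (d := 2)
        ((Nat.coprime_primes Fact.out Nat.prime_two).2 (by omega))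
    simp [hD0, n2, show (4 : ZMod p) = 2 * 2 by norm_num]
  · have h1 := congrArg (eval₂Hom φS ![ModularForm.E₄ τ, ModularForm.E₆ τ]) hQ₀
    rw [map_mul, eval₂Hom_C, map_pow, hφ, hC, eval₂Hom_map_hom,
      show φS.comp (algebraMap ℤ S) = algebraMap ℤ ℂ from RingHom.ext fun z => by simp,
      ← aeval_eq_eval₂Hom, eCoeff_eq τ hk ((Fact.out : p.Prime).even_sub_one (by omega))] at h1
    rw [map_mul, aeval_C, ← h1]
    have hB' : (p : ℂ) * (bernoulli (p - 1) : ℂ) * (D : ℂ) = (B : ℂ) := by exact_mod_cast hBD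
    have hMc : (M : ℂ) = ((p - 1).factorial : ℂ) := by rw [hM]; push_cast; rfl
    have hf : ((p - 1).factorial : ℂ) ≠ 0 := Nat.cast_ne_zero.2 (p - 1).factorial_ne_zero
    have hp1 : ((p - 1 : ℕ) : ℂ) = (p : ℂ) - 1 := by
      rw [Nat.cast_sub (by omega : 1 ≤ p), Nat.cast_one]
    rw [hMc, hp1]
    simp only [algebraMap_int_eq, eq_intCast]
    push_cast
    rw [hMc, ← hB']
    field_simp
    ring
  · have h1 := congrArg (MvPolynomial.map ψS) hQ₀
    rw [map_mul, MvPolynomial.map_C, map_pow, hψ, MvPolynomial.map_map,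
      show (MvPolynomial.map ψS) P = ψ P from rfl, hP,
      show ψS.comp (algebraMap ℤ S) = Int.castRingHom (ZMod p) from
        RingHom.ext fun z => by simp] at h1
    rw [map_mul, MvPolynomial.map_C, ← h1]
    simp only [eq_intCast]
    push_cast
    rw [hB, hMp, ← mul_assoc, ← mul_assoc, show (8 : MvPolynomial (Fin 2) (ZMod p)) = C 8 from
      (map_ofNat C 8).symm, ← map_mul, ← map_mul]
    simp only [ZMod.natCast_self]
    congr 2
    ring

/-- The trace of Frobenius from `E_(p-1)`. -/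
theorem eval_hassePoly {p : ℕ} [Fact p.Prime] (h5 : 5 ≤ p) (A B : ZMod p) :
    MvPolynomial.eval ![-48 * A, 864 * B] (hassePoly p) = FA.ReducedGroups.hasseShort A B := by
  have n2 : (2 : ZMod p) ≠ 0 := by
    exact_mod_cast natCast_ne_zero_of_coprime (p := p) (d := 2)
      ((Nat.coprime_primes Fact.out Nat.prime_two).2 (by omega))
  have n3 : (3 : ZMod p) ≠ 0 := by
    exact_mod_cast natCast_ne_zero_of_coprime (p := p) (d := 3)
      ((Nat.coprime_primes Fact.out Nat.prime_three).2 (by omega))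
  have h48 : (48 : ZMod p) ≠ 0 := by
    rw [show (48 : ZMod p) = 2 ^ 4 * 3 by norm_num]
    exact mul_ne_zero (pow_ne_zero _ n2) n3
  have h864 : (864 : ZMod p) ≠ 0 := by
    rw [show (864 : ZMod p) = 2 ^ 5 * 3 ^ 3 by norm_num]
    exact mul_ne_zero (pow_ne_zero _ n2) (pow_ne_zero _ n3)
  rw [hassePoly, ← Polynomial.coeff_map, Polynomial.map_pow, FA.ReducedGroups.hasseShort]
  congr 2
  simp [← mul_assoc]
  simp only [← Polynomial.C_mul, inv_mul_cancel₀ h48, inv_mul_cancel₀ h864, one_mul]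

end FA.HasseEis

end
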