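import Fermat.Agent.Tau.ModEleven
import Mathlib.NumberTheory.ModularForms.LevelOne.GradedRing

/-!
# The coefficients of `Δ` modulo 691

`E₄³ - E₁₂` is a cusp form of weight twelve, so a multiple of `Δ`, and `B₁₂ = -691/2730`.
-/

set_option autoImplicit false

noncomputable section

namespace FA.Tau

open UpperHalfPlane hiding I
open ModularForm EisensteinSeries
open scoped MatrixGroups ArithmeticFunction.sigma

/-- The integral series of `E₄`. -/
def eFourInt : PowerSeries ℤ := PowerSeries.mk fun m => if m = 0 then 1 else 240 * (σ 3 m : ℤ)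

theorem qExpansion_eFour : qExpansion 1 E₄ = eFourInt.map (Int.castRingHom ℂ) := by
  ext m
  rw [PowerSeries.coeff_map, eFourInt, PowerSeries.coeff_mk,
    show E₄ = ModularForm.E (k := 4) (by norm_num) from rfl,
    E_qExpansion_coeff _ (by decide), show bernoulli 4 = -1 / 30 by decide +kernel]
  split_ifs <;> simp
  ring

/-- The cusp form `E₄³ - E₁₂`. -/
def cuspTwelve : ModularForm 𝒮ℒ 12 :=
  ModularForm.mcast (by decide) (E₄.pow 3) -
    ModularForm.mcast (by decide) (ModularForm.E (k := 12) (by norm_num))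

theorem coeff_cuspTwelve (m : ℕ) : (qExpansion 1 cuspTwelve).coeff m =
    ((PowerSeries.coeff m (eFourInt ^ 3) : ℤ) : ℂ) -
      if m = 0 then 1 else (65520 / 691 : ℂ) * (σ 11 m : ℂ) := by
  have h : qExpansion 1 cuspTwelve = qExpansion 1 E₄ ^ 3 -
      qExpansion 1 (ModularForm.E (k := 12) (by norm_num)) := by
    simp only [cuspTwelve, FunLike.coe_sub, coe_mcast,
      ModularForm.qExpansion_sub one_pos one_mem_strictPeriods_SL,
      ModularForm.qExpansion_pow one_pos one_mem_strictPeriods_SL]
  rw [h, map_sub, qExpansion_eFour, ← map_pow, PowerSeries.coeff_map, eq_intCast,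
    E_qExpansion_coeff _ (by decide), show bernoulli 12 = -691 / 2730 by decide +kernel]
  split_ifs <;> push_cast <;> ring

/-- `Δ` is a rational multiple of `E₄³ - E₁₂`. -/
theorem discriminant_eq_cuspTwelve (m : ℕ) :
    (432000 / 691 : ℂ) * (qExpansion 1 ModularForm.discriminant).coeff m =
      (qExpansion 1 cuspTwelve).coeff m := by
  have hf : IsCuspForm cuspTwelve := by
    rw [isCuspForm_iff_coeffZero_eq_zero, coeff_cuspTwelve]
    simp [eFourInt]
  obtain ⟨g, hg⟩ := hf
  obtain ⟨c, hc⟩ := CuspForm.exists_smul_discriminant_of_weight_eq_twelve g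
  have hgf : (g : ℍ → ℂ) = cuspTwelve := congrArg DFunLike.coe hg
  have hcg : (c • CuspForm.discriminant : ℍ → ℂ) = g := congrArg DFunLike.coe hc
  have he := ModularForm.qExpansion_smul one_pos one_mem_strictPeriods_SL c CuspForm.discriminant
  rw [hcg, hgf] at he
  have he' : ∀ m, (qExpansion 1 cuspTwelve).coeff m =
      c * (qExpansion 1 ModularForm.discriminant).coeff m := fun m => by
    rw [he]; rfl
  have h1 : c = 432000 / 691 := by
    have := he' 1
    rw [coeff_cuspTwelve, discriminant_qExpansion_coeff_one, mul_one] at this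
    rw [← this]
    norm_num [eFourInt, pow_succ, PowerSeries.coeff_mul, Finset.Nat.antidiagonal_succ,
      ArithmeticFunction.sigma_one]
  rw [he' m, h1]

/-- The coefficients of `Δ` are congruent to `σ₁₁` modulo `691`. -/
theorem dvd_coeff_deltaInt_sub_sigma (n : ℕ) :
    (691 : ℤ) ∣ PowerSeries.coeff n deltaInt - (σ 11 n : ℤ) := by
  rcases eq_or_ne n 0 with rfl | hn
  · simp [deltaInt]
  have h := discriminant_eq_cuspTwelve n
  rw [qExpansion_discriminant, coeff_cuspTwelve, if_neg hn] at h
  have hZ : 432000 * (PowerSeries.coeff n deltaInt - (σ 11 n : ℤ)) =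
      691 * (PowerSeries.coeff n (eFourInt ^ 3) - 720 * (σ 11 n : ℤ)) := by
    apply Int.cast_injective (α := ℂ)
    push_cast
    linear_combination 691 * h
  exact (Int.Prime.dvd_mul' (by norm_num : Nat.Prime 691)
    (dvd_of_mul_right_eq _ hZ.symm)).resolve_left (by norm_num)

end FA.Tau

end
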