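import Fermat.Agent.ClassNumberOne.Descent
import Fermat.Agent.Tau.Homothety
import Mathlib.NumberTheory.Modular

/-!
# Singular moduli are algebraic

An automorphism of `ℂ` carries the lattice of a root `τ` of a primitive form of discriminant `D` to
a lattice with the same multiplier ring, hence to the lattice of a reduced primitive form of
discriminant `D`.
-/

set_option autoImplicit false

noncomputable section

namespace FA.Singular

open UpperHalfPlane hiding I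
open FA.Mazur.Wp FA.ModField FA.JInj
open scoped MatrixGroups Modular

/-- The discriminant of `(a, b, c)`. -/
def disc (t : ℤ × ℤ × ℤ) : ℤ := t.2.1 ^ 2 - 4 * t.1 * t.2.2

/-- `τ` is a root of the form `(a, b, c)`. -/
def IsRoot (t : ℤ × ℤ × ℤ) (τ : ℍ) : Prop :=
  (t.1 : ℂ) * (τ : ℂ) ^ 2 + t.2.1 * (τ : ℂ) + t.2.2 = 0

/-- Reduced primitive forms of discriminant `D`. -/
def Red (D : ℤ) : Set (ℤ × ℤ × ℤ) :=
  {t | t.2.1 ^ 2 - 4 * t.1 * t.2.2 = D ∧ Int.gcd (Int.gcd t.1 t.2.1) t.2.2 = 1 ∧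
    0 < t.1 ∧ |t.2.1| ≤ t.1 ∧ t.1 ≤ t.2.2 ∧ ((|t.2.1| = t.1 ∨ t.1 = t.2.2) → 0 ≤ t.2.1)}

theorem red_finite (D : ℤ) : (Red D).Finite := by
  refine ((Set.finite_Icc (-|D|) |D|).prod ((Set.finite_Icc (-|D|) |D|).prod
    (Set.finite_Icc (-|D|) |D|))).subset ?_
  rintro ⟨a, b, c⟩ ⟨hD, -, ha, hb, hc, -⟩
  simp only [Set.mem_prod, Set.mem_Icc, ← abs_le] at *
  have h1 : b ^ 2 ≤ a * c := by
    rw [← sq_abs]; exact (mul_self_le_mul_self (abs_nonneg b) hb).trans
      (mul_le_mul_of_nonneg_left hc ha.le) |>.trans' (le_of_eq (sq _))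
  have h2 : c ≤ a * c := le_mul_of_one_le_left (by omega) ha
  have h3 : a * c ≤ -D := by nlinarith
  rw [abs_of_pos ha, abs_of_pos (ha.trans_le hc), abs_of_nonpos (by nlinarith : D ≤ 0)]
  omega

theorem root_re_normSq {t : ℤ × ℤ × ℤ} {τ : ℍ} (h : IsRoot t τ) :
    2 * (t.1 : ℝ) * τ.re = -t.2.1 ∧ (t.1 : ℝ) * Complex.normSq τ = t.2.2 := by
  have him := congrArg Complex.im h
  have hre := congrArg Complex.re h
  simp [pow_two, Complex.mul_re, Complex.mul_im] at him hre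
  have h1 : 2 * (t.1 : ℝ) * τ.re = -t.2.1 := by
    refine mul_right_cancel₀ τ.im_pos.ne' ?_
    linear_combination him
  refine ⟨h1, ?_⟩
  rw [Complex.normSq_apply]
  simp only [UpperHalfPlane.coe_re, UpperHalfPlane.coe_im]
  linear_combination -hre + τ.re * h1

theorem root_unique {t : ℤ × ℤ × ℤ} (ht : t.1 ≠ 0) {τ τ' : ℍ} (h : IsRoot t τ)
    (h' : IsRoot t τ') : τ = τ' := by
  have h0 : ((τ : ℂ) - τ') * ((t.1 : ℂ) * ((τ : ℂ) + τ') + t.2.1) = 0 := by
    simp only [IsRoot] at h h'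
    linear_combination h - h'
  refine UpperHalfPlane.ext (sub_eq_zero.mp ((mul_eq_zero.mp h0).resolve_right fun e => ?_))
  have := congrArg Complex.im e
  simp [ht] at this
  linarith [τ.im_pos, τ'.im_pos]

/-- Multiplication by `w` preserves the lattice. -/
def Stable (L : PeriodPair) (w : ℂ) : Prop := ∀ l ∈ L.lattice, w * l ∈ L.lattice

theorem stable_congr {L M : PeriodPair} (h : L.lattice = M.lattice) (w : ℂ) :
    Stable L w ↔ Stable M w := by rw [Stable, Stable, h]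

theorem stable_scale (L : PeriodPair) {c : ℂ} (hc : c ≠ 0) (w : ℂ) :
    Stable (scalePair L c hc) w ↔ Stable L w := by
  refine ⟨fun h l hl => ?_, fun h x hx => ?_⟩
  · obtain ⟨y, hy, e⟩ := mem_scalePair.mp (h (c * l) (mem_scalePair.mpr ⟨l, hl, rfl⟩))
    rwa [show w * l = y from mul_left_cancel₀ hc (by rw [e]; ring)]
  · obtain ⟨y, hy, rfl⟩ := mem_scalePair.mp hx
    exact mem_scalePair.mpr ⟨w * y, h y hy, by ring⟩

theorem stable_smul (τ : ℍ) (g : SL(2, ℤ)) (w : ℂ) :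
    Stable (latPair (g • τ)) w ↔ Stable (latPair τ) w := by
  refine ⟨fun h l hl => ?_, fun h x hx => ?_⟩
  · have h1 := h (l / den g τ)
      ((mem_latPair_smul τ g _).mpr (by rwa [div_mul_cancel₀ _ (den_ne_zero g τ)]))
    rw [mem_latPair_smul, mul_assoc, div_mul_cancel₀ _ (den_ne_zero g τ)] at h1
    exact h1
  · rw [mem_latPair_smul, mul_assoc]
    exact h _ ((mem_latPair_smul τ g x).mp hx)

theorem im_ne_zero_of_disc {w : ℂ} {t n : ℤ} (h : w ^ 2 - t * w + n = 0)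
    (hD : t ^ 2 - 4 * n < 0) : w.im ≠ 0 := fun h0 => by
  have e := congrArg Complex.re h
  simp [pow_two, Complex.mul_re, h0] at e
  have : ((t : ℝ) ^ 2 - 4 * n) < 0 := by exact_mod_cast hD
  nlinarith [sq_nonneg (2 * w.re - t)]

/-- A root of a form gives a multiplier of its lattice. -/
theorem stable_of_form {t : ℤ × ℤ × ℤ} {τ : ℍ} (h : IsRoot t τ) :
    Stable (latPair τ) ((t.1 : ℂ) * τ) ∧
      ((t.1 : ℂ) * τ) ^ 2 - ((-t.2.1 : ℤ) : ℂ) * ((t.1 : ℂ) * τ) + ((t.1 * t.2.2 : ℤ) : ℂ) = 0 := by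
  simp only [IsRoot] at h
  refine ⟨fun l hl => ?_, by push_cast; linear_combination (t.1 : ℂ) * h⟩
  obtain ⟨m, n, rfl⟩ := mem_latPair.mp hl
  refine mem_latPair.mpr ⟨n * t.1 - m * t.2.1, -(m * t.2.2), ?_⟩
  push_cast
  linear_combination -(m : ℂ) * h

/-- A multiplier gives a form with root `τ` and the same discriminant. -/
theorem form_of_stable {τ : ℍ} {w : ℂ} {t n : ℤ} (hs : Stable (latPair τ) w)
    (h : w ^ 2 - t * w + n = 0) (hw : w.im ≠ 0) :
    ∃ f : ℤ × ℤ × ℤ, 0 < f.1 ∧ IsRoot f τ ∧ disc f = t ^ 2 - 4 * n := by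
  obtain ⟨p, y, e1⟩ := mem_latPair.mp (hs 1 (mem_latPair.mpr ⟨0, 1, by simp⟩))
  obtain ⟨m, r, e2⟩ := mem_latPair.mp (hs τ (mem_latPair.mpr ⟨1, 0, by simp⟩))
  rw [mul_one] at e1
  have hp : p ≠ 0 := fun h0 => hw (by rw [← e1, h0]; simp)
  have hroot : IsRoot (p, y - m, -r) τ := by
    simp only [IsRoot]; push_cast; linear_combination (τ : ℂ) * e1 - e2
  simp only [IsRoot] at hroot
  push_cast at hroot
  have h1 : ((y + m - t : ℤ) : ℂ) * w + ((n - (y * m - p * r) : ℤ) : ℂ) = 0 := by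
    push_cast
    rw [← e1] at h ⊢
    linear_combination h - (p : ℂ) * hroot
  have htr : y + m - t = 0 := by
    have := congrArg Complex.im h1
    simp [hw] at this
    exact_mod_cast this
  rw [htr, Int.cast_zero, zero_mul, zero_add, Int.cast_eq_zero] at h1
  have hd : disc (p, y - m, -r) = t ^ 2 - 4 * n := by
    simp only [disc]
    linear_combination (y + m + t) * htr + (-4) * (-h1)
  rcases lt_or_gt_of_ne hp with hneg | hpos
  · exact ⟨(-p, -(y - m), r), neg_pos.mpr hneg,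
      by simp only [IsRoot]; push_cast; linear_combination -hroot,
      by rw [← hd]; simp only [disc]; ring⟩
  · exact ⟨(p, y - m, -r), hpos, by simp only [IsRoot]; push_cast; exact hroot, hd⟩

theorem jfun_eq_invariant (τ : ℍ) :
    jfun τ = 1728 * ((latPair τ).g₂ ^ 3 /
      ((latPair τ).g₂ ^ 3 - 27 * (latPair τ).g₃ ^ 2)) := by
  have h0 := ModularForm.discriminant_ne_zero τ
  have h1 := tpi_ne_zero
  rw [discr_latPair, g₂_latPair, jfun]
  field_simp
  ring

theorem invariant_scale {L M : PeriodPair} {c : ℂ} {hc : c ≠ 0}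
    (h : M.lattice = (scalePair L c hc).lattice) :
    M.g₂ ^ 3 / (M.g₂ ^ 3 - 27 * M.g₃ ^ 2) = L.g₂ ^ 3 / (L.g₂ ^ 3 - 27 * L.g₃ ^ 2) := by
  obtain ⟨e2, e3⟩ := (lattice_eq_iff _ _).mp h
  rw [e2, e3, g₂_scalePair, g₃_scalePair]
  field_simp

/-- A reduced form in the orbit of a form with root in the fundamental domain. -/
theorem exists_red {f : ℤ × ℤ × ℤ} {τ : ℍ} (hf : 0 < f.1) (hr : IsRoot f τ) (hτ : τ ∈ 𝒟)
    (hg : Int.gcd (Int.gcd f.1 f.2.1) f.2.2 = 1) :
    ∃ f' ∈ Red (disc f), ∃ τ', IsRoot f' τ' ∧ jfun τ' = jfun τ := by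
  obtain ⟨a, b, c⟩ := f
  obtain ⟨hre, hns⟩ := root_re_normSq hr
  obtain ⟨hτ1, hτ2⟩ := hτ
  simp only [] at hf hre hns hg
  have ha : (0 : ℝ) < a := by exact_mod_cast hf
  have hb : |b| ≤ a := by
    have : |(b : ℝ)| ≤ a := by
      rw [← abs_neg, ← hre, abs_mul, abs_of_pos (by positivity : (0 : ℝ) < 2 * a)]
      nlinarith
    exact_mod_cast this
  have hc : a ≤ c := by
    have : (a : ℝ) ≤ c := by rw [← hns]; exact le_mul_of_one_le_right ha.le hτ1
    exact_mod_cast this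
  simp only [disc]
  by_cases h1 : b = -a
  · subst h1
    refine ⟨(a, a, c), ⟨by ring, by simpa [Int.gcd_neg, Int.neg_gcd] using hg, hf,
      by simp [abs_of_pos hf], hc, fun _ => hf.le⟩, ModularGroup.T⁻¹ • τ, ?_, jfun_smul _ τ⟩
    have e : (τ : ℂ) = ((ModularGroup.T⁻¹ • τ : ℍ) : ℂ) + 1 := by
      conv_lhs => rw [← smul_inv_smul ModularGroup.T τ, modular_T_smul, coe_vadd]
      push_cast; ring
    simp only [IsRoot] at hr ⊢
    rw [e] at hr
    push_cast at hr
    linear_combination hr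
  by_cases h2 : a = c ∧ b < 0
  · obtain ⟨rfl, hb0⟩ := h2
    refine ⟨(a, -b, a), ⟨by ring, by simpa [Int.gcd_neg, Int.neg_gcd] using hg, hf,
      by rwa [abs_neg], le_rfl, fun _ => neg_nonneg.mpr hb0.le⟩, ModularGroup.S • τ, ?_,
      jfun_smul _ τ⟩
    simp only [IsRoot] at hr ⊢
    rw [modular_S_smul, UpperHalfPlane.coe_mk]
    have := τ.ne_zero
    field_simp
    push_cast
    linear_combination hr
  refine ⟨(a, b, c), ⟨rfl, hg, hf, hb, hc, ?_⟩, τ, hr, rfl⟩
  rintro (h | h)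
  · rcases abs_choice b with e | e <;> simp only [] at h ⊢ <;> omega
  · simp only [] at h ⊢; omega

/-- **Conjugates of singular moduli are singular moduli of the same discriminant.** -/
theorem exists_conjugate {a b c : ℤ} (hprim : Int.gcd (Int.gcd a b) c = 1)
    (hD : b ^ 2 - 4 * a * c < 0) {τ : ℍ} (hτ : IsRoot (a, b, c) τ) (σ : ℂ ≃+* ℂ) :
    ∃ f ∈ Red (b ^ 2 - 4 * a * c), ∃ τ', IsRoot f τ' ∧ σ (jfun τ) = jfun τ' := by
  have hac : a * c ≠ 0 := fun h => by nlinarith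
  have ha : a ≠ 0 := left_ne_zero_of_mul hac
  obtain ⟨hst, hq⟩ := stable_of_form hτ
  set L := latPair τ with hL
  have hΔ := discr_latPair_ne_zero τ
  obtain ⟨L', h2, h3⟩ := exists_g₂_g₃ (a := σ L.g₂) (b := σ L.g₃) (fun e => hΔ (σ.injective (by
    rw [map_zero, map_sub, map_mul, map_pow, map_pow, map_ofNat, e])))
  obtain ⟨hst', -⟩ := FA.ClassNumberOne.transport σ h2.symm h3.symm hst hac hq
  obtain ⟨τ₁, d, hd, hlat⟩ := exists_latPair L'
  obtain ⟨g, hg⟩ := ModularGroup.exists_smul_mem_fd τ₁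
  set τ₂ := g • τ₁ with hτ₂
  have hiff : ∀ w, Stable L' w ↔ Stable (latPair τ₂) w := fun w =>
    (stable_congr hlat w).trans ((stable_scale _ hd w).trans (stable_smul τ₁ g w).symm)
  have hD' : (-b) ^ 2 - 4 * (a * c) = b ^ 2 - 4 * a * c := by ring
  have hq' : (σ ((a : ℂ) * τ)) ^ 2 - ((-b : ℤ) : ℂ) * σ ((a : ℂ) * τ) + ((a * c : ℤ) : ℂ) = 0 := by
    have := congrArg σ hq
    simp only [map_add, map_sub, map_mul, map_pow, map_intCast, map_zero] at this ⊢
    exact this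
  obtain ⟨⟨p, q, r⟩, hp, hroot, hdisc⟩ := form_of_stable ((hiff _).mp hst') hq'
    (im_ne_zero_of_disc hq' (by rw [hD']; exact hD))
  rw [hD'] at hdisc
  simp only [disc] at hdisc
  simp only [] at hp
  -- primitivity
  have hgcd : Int.gcd (Int.gcd p q) r = 1 := by
    set e : ℕ := Int.gcd (Int.gcd p q) r with he
    obtain ⟨p', hp'⟩ : (e : ℤ) ∣ p := (Int.gcd_dvd_left _ _).trans (Int.gcd_dvd_left _ _)
    obtain ⟨q', hq''⟩ : (e : ℤ) ∣ q := (Int.gcd_dvd_left _ _).trans (Int.gcd_dvd_right _ _)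
    obtain ⟨r', hr'⟩ : (e : ℤ) ∣ r := Int.gcd_dvd_right _ _
    have he0 : (e : ℤ) ≠ 0 := fun h => by rw [h, zero_mul] at hp'; omega
    have hroot' : IsRoot (p', q', r') τ₂ := by
      simp only [IsRoot] at hroot ⊢
      refine mul_left_cancel₀ (Int.cast_ne_zero (α := ℂ).mpr he0) ?_
      rw [hp', hq'', hr'] at hroot
      push_cast at hroot ⊢
      linear_combination hroot
    have hD2 : b ^ 2 - 4 * a * c = (e : ℤ) ^ 2 * (q' ^ 2 - 4 * p' * r') := by
      rw [← hdisc, hp', hq'', hr']; ring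
    have hneg : q' ^ 2 - 4 * p' * r' < 0 := by
      by_contra h; nlinarith [mul_nonneg (sq_nonneg (e : ℤ)) (not_lt.mp h)]
    have hpr : p' * r' ≠ 0 := fun h => by nlinarith
    obtain ⟨hs1, hq1⟩ := stable_of_form hroot'
    obtain ⟨hs2, -⟩ := FA.ClassNumberOne.transport σ.symm
      (show σ.symm L'.g₂ = L.g₂ by rw [h2, RingEquiv.symm_apply_apply])
      (show σ.symm L'.g₃ = L.g₃ by rw [h3, RingEquiv.symm_apply_apply])
      ((hiff _).mpr hs1) hpr hq1
    have hq2 := congrArg σ.symm hq1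
    simp only [map_add, map_sub, map_mul, map_pow, map_intCast, map_zero] at hq2
    rw [← map_intCast σ.symm p', ← map_mul] at hq2
    have hD3 : (-q') ^ 2 - 4 * (p' * r') = q' ^ 2 - 4 * p' * r' := by ring
    obtain ⟨⟨u, v, w⟩, -, hroot2, hdisc2⟩ := form_of_stable hs2 (n := p' * r') (t := -q')
      (by push_cast at hq2 ⊢; exact hq2)
      (im_ne_zero_of_disc (n := p' * r') (t := -q') (by push_cast at hq2 ⊢; exact hq2)
        (by rw [hD3]; exact hneg))
    obtain ⟨hub, huc⟩ : u * b - a * v = 0 ∧ u * c - a * w = 0 := eq_zero_of_add (z := τ) (by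
      simp only [IsRoot] at hτ hroot2
      push_cast
      linear_combination (u : ℂ) * hτ - (a : ℂ) * hroot2)
    -- `a` divides `u`
    obtain ⟨k, rfl⟩ : a ∣ u := by
      have h1 := Int.gcd_eq_gcd_ab a b
      have h4 := Int.gcd_eq_gcd_ab (Int.gcd a b) c
      rw [hprim, h1] at h4
      refine ⟨u * (a.gcdA b) * (Int.gcdA (Int.gcd a b) c) +
        v * (a.gcdB b) * (Int.gcdA (Int.gcd a b) c) + w * Int.gcdB (Int.gcd a b) c, ?_⟩
      rw [h1]
      push_cast at h4
      linear_combination u * h4 + (a.gcdB b) * (Int.gcdA (a * a.gcdA b + b * a.gcdB b) c) * hub +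
        Int.gcdB (a * a.gcdA b + b * a.gcdB b) c * huc
    have hv : v = k * b := mul_left_cancel₀ ha (by linear_combination -hub)
    have hw : w = k * c := mul_left_cancel₀ ha (by linear_combination -huc)
    rw [hD3] at hdisc2
    simp only [disc, hv, hw] at hdisc2
    have hone : (e : ℤ) ^ 2 * k ^ 2 = 1 := by
      refine mul_right_cancel₀ hD.ne ?_
      linear_combination (e : ℤ) ^ 2 * hdisc2 - hD2
    have h5 : ((e : ℤ) * k) * ((e : ℤ) * k) = 1 := by linear_combination hone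
    rcases Int.eq_one_or_neg_one_of_mul_eq_one h5 with h6 | h6
    · exact_mod_cast Int.eq_one_of_mul_eq_one_right (Int.natCast_nonneg e) h6
    · exact_mod_cast Int.eq_one_of_mul_eq_one_right (Int.natCast_nonneg e)
        (show (e : ℤ) * -k = 1 by linear_combination -h6)
  obtain ⟨f', hf', τ₃, hr3, hj3⟩ := exists_red hp hroot hg hgcd
  rw [show disc (p, q, r) = b ^ 2 - 4 * a * c from hdisc] at hf'
  refine ⟨f', hf', τ₃, hr3, ?_⟩
  rw [hj3, hτ₂, jfun_smul, jfun_eq_invariant, jfun_eq_invariant, ← invariant_scale hlat, h2, h3]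
  simp only [map_mul, map_div₀, map_sub, map_pow, map_ofNat, hL]

/-- The values of `j` at the roots of the reduced forms of discriminant `D`. -/
def values (D : ℤ) : Set ℂ := {x | ∃ f ∈ Red D, ∃ τ, IsRoot f τ ∧ jfun τ = x}

theorem values_finite_card (D : ℤ) :
    (values D).Finite ∧ (values D).ncard ≤ (Red D).ncard := by
  classical
  let F : ℤ × ℤ × ℤ → ℂ := fun f => if h : ∃ τ, IsRoot f τ then jfun h.choose else 0
  have hsub : values D ⊆ F '' Red D := by
    rintro _ ⟨f, hf, τ, hτ, rfl⟩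
    have h : ∃ τ, IsRoot f τ := ⟨τ, hτ⟩
    refine ⟨f, hf, ?_⟩
    show (if h : ∃ τ, IsRoot f τ then jfun h.choose else 0) = _
    rw [dif_pos h, root_unique hf.2.2.1.ne' h.choose_spec hτ]
  have hfin := (red_finite D).image F
  exact ⟨hfin.subset hsub, (Set.ncard_le_ncard hsub hfin).trans (Set.ncard_image_le (red_finite D))⟩

/-- **Singular moduli are algebraic, of degree at most the class number.** -/
theorem isAlgebraic_natDegree_le {a b c : ℤ} (hprim : Int.gcd (Int.gcd a b) c = 1)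
    (hD : b ^ 2 - 4 * a * c < 0) {τ : ℍ} (hτ : IsRoot (a, b, c) τ) :
    IsAlgebraic ℚ (jfun τ) ∧
      (minpoly ℚ (jfun τ)).natDegree ≤ (Red (b ^ 2 - 4 * a * c)).ncard := by
  set D := b ^ 2 - 4 * a * c
  obtain ⟨hfin, hcard⟩ := values_finite_card D
  have hmem : ∀ σ : ℂ ≃+* ℂ, σ (jfun τ) ∈ values D := fun σ => by
    obtain ⟨f, hf, τ', hr, he⟩ := exists_conjugate hprim hD hτ σ
    exact ⟨f, hf, τ', hr, he.symm⟩
  let j : AlgebraicClosure ℚ →+* ℂ :=
    (IsAlgClosed.lift : AlgebraicClosure ℚ →ₐ[ℚ] ℂ).toRingHom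
  let : Algebra (AlgebraicClosure ℚ) ℂ := j.toAlgebra
  obtain ⟨x, hx⟩ := FA.ClassNumberOne.mem_range_of_finite_orbit j hfin hmem
  have hxi : IsIntegral ℚ x := Algebra.IsIntegral.isIntegral x
  let jA : AlgebraicClosure ℚ →ₐ[ℚ] ℂ := IsAlgClosed.lift
  have hxj : jA x = jfun τ := hx
  have hmin : minpoly ℚ (jfun τ) = minpoly ℚ x := by
    rw [← hxj, minpoly.algHom_eq jA jA.toRingHom.injective]
  refine ⟨hxj ▸ (hxi.isAlgebraic.algHom jA), ?_⟩
  rw [hmin, ← Polynomial.card_rootSet_eq_natDegree (K := AlgebraicClosure ℚ)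
    (minpoly.irreducible hxi).separable (IsAlgClosed.splits _), ← Nat.card_eq_fintype_card,
    Nat.card_coe_set_eq]
  refine (Set.ncard_le_ncard_of_injOn jA ?_ (jA.toRingHom.injective.injOn) hfin).trans hcard
  intro y hy
  rw [Polynomial.mem_rootSet] at hy
  obtain ⟨σ, hσ⟩ := minpoly.exists_algEquiv_of_root' hxi.isAlgebraic hy.2
  obtain ⟨σ', hσ'⟩ := FA.Carayol.exists_extend_complex σ
  have h := hmem σ'
  rw [← hxj, show σ' (jA x) = jA (σ x) from hσ' x, hσ] at h
  exact h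

end FA.Singular

end
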