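import Fermat.Agent.Tau.ClassNumberBound
import Fermat.Agent.Root.SummarySupersingularGenus
import Fermat.Agent.Root.SummaryOggPrimes
import Fermat.Agent.Root.SummarySupersingularMass

/-!
# `H(4 p) / 2` supersingular invariants are fixed by Frobenius

The fixed invariants are those in `𝔽_p`, so they number `H(4 p) / 2`; with the genus formula this
turns the eigenspaces of `U` in weight `p + 1` into class numbers.
-/

set_option autoImplicit false
set_option linter.style.haveILetI false

noncomputable section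

open UpperHalfPlane
open scoped MatrixGroups Classical

namespace FA.SupersingularPoints

open FA.SupersingularCount FA.SwinnertonDyer

variable {p : ℕ} [Fact p.Prime]

/-- `H(4 p)` is twice the number of fixed invariants. -/
theorem classNumberH_eq (h5 : 5 ≤ p) :
    FA.ClassRelation.classNumberH (4 * p) =
      2 * ({j | j ∈ ssInvariants (Fbar p) p ∧ j ^ p = j}.ncard : ℚ) := by
  rw [← FA.Summary.supersingular_primeField_card h5]
  congr 2
  refine Set.ncard_congr (fun j _ => algebraMap (ZMod p) (Fbar p) j) (fun j hj => ⟨hj, ?_⟩)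
    (fun _ _ _ _ h => (algebraMap (ZMod p) (Fbar p)).injective h) ?_
  · rw [← map_pow, ZMod.pow_card]
  · rintro z ⟨hz, hzp⟩
    obtain ⟨a, rfl⟩ := SupersingularPrime.mem_range_of_pow_eq (algebraMap (ZMod p) (Fbar p)) hzp
    exact ⟨a, hz, rfl⟩

/-- `#S = g + 1`. -/
theorem ncard_eq (h5 : 5 ≤ p) :
    (ssInvariants (Fbar p) p).ncard =
      Module.finrank ℂ (CuspForm (CongruenceSubgroup.Gamma0 p) 2) + 1 :=
  FA.Summary.supersingular_card_eq_genus_succ (Fbar p) p h5

/-- The cusp forms in the plus space have codimension one; the minus space is cuspidal. -/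
theorem finrank_cusp_add_one (h5 : 5 ≤ p) {M V : Submodule (ZMod p) (PowerSeries (ZMod p))}
    (hM : (M : Set (PowerSeries (ZMod p))) = {f | ∃ (G : ModularForm 𝒮ℒ ((p + 1 : ℕ) : ℤ))
        (T : PowerSeries ℤ), qExpansion 1 ⇑G = T.map (Int.castRingHom ℂ) ∧
          T.map (Int.castRingHom (ZMod p)) = f})
    (hV : (V : Set (PowerSeries (ZMod p))) = {f | (∃ (G : ModularForm 𝒮ℒ ((p + 1 : ℕ) : ℤ))
        (T : PowerSeries ℤ), qExpansion 1 ⇑G = T.map (Int.castRingHom ℂ) ∧
          T.map (Int.castRingHom (ZMod p)) = f) ∧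
        ∀ n, PowerSeries.coeff (n * p) f = 1 * PowerSeries.coeff n f}) :
    Module.finrank (ZMod p) (LinearMap.ker ((PowerSeries.coeff 0).domRestrict V)) + 1 =
      Module.finrank (ZMod p) V := by
  have hmem : ∀ f ∈ V, IsFormModP p (p + 1) f := fun f hf => by
    rw [← SetLike.mem_coe, hV] at hf
    exact hf.1
  haveI := finite_of_forms h5 hmem
  have h := LinearMap.finrank_range_add_finrank_ker
    ((PowerSeries.coeff 0).domRestrict V : V →ₗ[ZMod p] ZMod p)
  obtain ⟨f, hfM, hf0⟩ : ∃ f ∈ M, PowerSeries.coeff 0 f ≠ 0 := by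
    refine ⟨e2 p, ?_, ?_⟩
    · rw [← SetLike.mem_coe, hM]
      exact (mem_formSpace h5 (e2 p)).1 (FA.SupersingularMass.eTwo_mem p h5)
    · simp [e2, FA.Tau.eTwoInt]
  have hf : IsFormModP p (p + 1) f := by rw [← SetLike.mem_coe, hM] at hfM; exact hfM
  -- `f + U f` is fixed by `U` and its constant term is twice that of `f`
  have hg : f + uOp p f ∈ V := by
    rw [← SetLike.mem_coe, hV]
    refine ⟨?_, fun n => ?_⟩
    · have hU := ((uForms h5) ⟨f, (mem_formSpace h5 f).2 hf⟩).2
      exact (mem_formSpace h5 _).1 (Submodule.add_mem _ ((mem_formSpace h5 f).2 hf) hU)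
    · have := congrArg (PowerSeries.coeff n) (uOp_uOp h5 hf)
      simp only [uOp, PowerSeries.coeff_mk] at this
      simp only [map_add, uOp, PowerSeries.coeff_mk, this, one_mul]
      ring
  rw [LinearMap.range_eq_top.2 (fun c => ⟨(c / (2 * PowerSeries.coeff 0 f)) • ⟨_, hg⟩, by
    have two : (2 : ZMod p) ≠ 0 := Ring.two_ne_zero (by rw [ZMod.ringChar_zmod_n]; omega)
    rw [map_smul, LinearMap.domRestrict_apply, smul_eq_mul]
    simp only [map_add, uOp, PowerSeries.coeff_mk, zero_mul, ← two_mul]
    rw [div_mul_cancel₀ _ (mul_ne_zero two hf0)]⟩), finrank_top, Module.finrank_self] at h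
  omega

end FA.SupersingularPoints

end
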