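import Fermat.Agent.Tau.ContractionModP
import Fermat.Agent.Partition.FiltrationArgument

/-!
# Finiteness of the ordinary forms modulo `p`

The ordinary eigenforms of `U` have weight at most `p + 1`, and there are finitely many forms of
given weight modulo `p`. Up to `p = 11` the only such cusp forms are the multiples of `Δ`.
-/

set_option autoImplicit false

noncomputable section

namespace FA.SwinnertonDyer

variable {p : ℕ} [Fact p.Prime]

/-- Finitely many forms of a given weight. -/
theorem finite_forms (h5 : 5 ≤ p) (n : ℕ) : {f | IsFormModP p n f}.Finite := by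
  have hfin : {F : MvPolynomial (Fin 2) (ZMod p) | Isob F n}.Finite := by
    refine Set.Finite.of_finite_image (f := fun F (ab : Fin (n + 1) × Fin (n + 1)) =>
      F.coeff (Finsupp.single 0 (ab.1 : ℕ) + Finsupp.single 1 (ab.2 : ℕ))) (Set.toFinite _) ?_
    intro F hF G hG he
    ext d
    by_cases hd : 4 * d 0 + 6 * d 1 = n
    · have := congrFun he (⟨d 0, by omega⟩, ⟨d 1, by omega⟩)
      simp only at this
      rwa [show Finsupp.single 0 (d 0) + Finsupp.single 1 (d 1) = d from Finsupp.ext fun i => by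
        fin_cases i <;> simp] at this
    · rw [hF.coeff_eq_zero d (by rwa [weight_eq]), hG.coeff_eq_zero d (by rwa [weight_eq])]
  refine (hfin.image (phi p)).subset fun f hf => ?_
  obtain ⟨F, hF, rfl⟩ := IsFormModP.exists_isob h5 hf
  exact ⟨F, hF, rfl⟩

/-- **Finitely many ordinary eigenforms**, in all weights together. -/
theorem finite_ordinary (h5 : 5 ≤ p) :
    {f | (∃ k, IsFormModP p k f) ∧ ∃ c : ZMod p, c ≠ 0 ∧
      uOp p f = PowerSeries.C c * f}.Finite := by
  refine ((Finset.range (p + 2)).finite_toSet.biUnion fun n _ => finite_forms h5 n).subset ?_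
  rintro f ⟨⟨k, hk⟩, c, hc, he⟩
  obtain ⟨n, hn, hn'⟩ := exists_weight_of_uOp_eq h5 hk hc he
  exact Set.mem_biUnion (Finset.mem_coe.2 (Finset.mem_range.2 (by omega))) hn'

/-- For `p ≤ 11` an ordinary cusp form modulo `p` is a multiple of `Δ`, and `0` for `p < 11`. -/
theorem ordinary_cusp_small (h5 : 5 ≤ p) (h11 : p ≤ 11) {k : ℕ} {f : PowerSeries (ZMod p)}
    (hk : IsFormModP p k f) (h0 : PowerSeries.constantCoeff f = 0) {c : ZMod p} (hc : c ≠ 0)
    (he : uOp p f = PowerSeries.C c * f) :
    ∃ a : ZMod p, f = PowerSeries.C a * FA.Tau.deltaInt.map (Int.castRingHom (ZMod p)) ∧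
      (p < 11 → a = 0) := by
  obtain ⟨n, hn, hn'⟩ := exists_weight_of_uOp_eq h5 hk hc he
  obtain ⟨F, hF, rfl⟩ := hn'.exists_isob h5
  have hd : PowerSeries.X ^ 1 ∣ phi p F := by rw [pow_one]; exact PowerSeries.X_dvd_iff.2 h0
  rcases FA.Partition.eq_pow_mul h5 hF hd with rfl | ⟨G, hn12, hG, rfl⟩
  · exact ⟨0, by simp, fun _ => rfl⟩
  obtain rfl : n = 12 := by omega
  obtain ⟨b, rfl⟩ : ∃ b, G = MvPolynomial.C b := ⟨_, isob_zero_eq_C (by simpa using hG)⟩
  refine ⟨b * 1728, ?_, fun _ => by omega⟩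
  rw [pow_one, map_mul, show phi p (MvPolynomial.C b) = PowerSeries.C b by simp [phi],
    show phi p (MvPolynomial.X 0 ^ 3 - MvPolynomial.X 1 ^ 2) = e4 p ^ 3 - e6 p ^ 2 by simp [phi],
    ← delta_p, show (1728 : PowerSeries (ZMod p)) = PowerSeries.C 1728 from
      (map_ofNat _ 1728).symm, map_mul]
  ring

end FA.SwinnertonDyer

end
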