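import Fermat.Agent.Tau.ModSixNinetyOne
import Fermat.Agent.Eisenstein.LevelP
import Fermat.Agent.Dim.Analysis
import Mathlib.NumberTheory.ModularForms.Derivative
import Mathlib.NumberTheory.ModularForms.LevelOne.DimensionFormula

/-!
# Ramanujan's differential identities as identities of integral series

`θ E₄ = (E₂ E₄ - E₆) / 3`, `θ E₆ = (E₂ E₆ - E₄²) / 2` and `θ Δ = E₂ Δ`, `θ = q d/dq`: the Serre
derivative of a form of weight 4 or 6 is one of weight 6 or 8, which is determined by its constant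
term.
-/

set_option autoImplicit false
set_option linter.style.haveILetI false

noncomputable section

open UpperHalfPlane hiding I
open ModularForm EisensteinSeries Derivative ModularCurve FA.ModField FA.Eis
open scoped MatrixGroups ArithmeticFunction.sigma Manifold

namespace FA.Tau

/-- The integral series of `E₂`. -/
def eTwoInt : PowerSeries ℤ := PowerSeries.mk fun m => if m = 0 then 1 else -24 * (σ 1 m : ℤ)

/-- The integral series of `E₆`. -/
def eSixInt : PowerSeries ℤ := PowerSeries.mk fun m => if m = 0 then 1 else -504 * (σ 5 m : ℤ)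

/-- The operator `q d/dq`. -/
def thetaInt (A : PowerSeries ℤ) : PowerSeries ℤ :=
  PowerSeries.mk fun m => (m : ℤ) * PowerSeries.coeff m A

theorem hasQ_eTwo : HasQ 1 EisensteinSeries.E2 (eTwoInt.map (Int.castRingHom ℂ)) := fun z => by
  refine (hasSum_qExpansion_E2 (z := z)).congr_fun fun m => ?_
  rw [PowerSeries.coeff_map, eTwoInt, PowerSeries.coeff_mk, smul_eq_mul]
  split_ifs <;> simp [Function.Periodic.qParam]

theorem hasQ_form {k : ℤ} (F : ModularForm 𝒮ℒ k) : HasQ 1 ⇑F (qExpansion 1 ⇑F) := fun z =>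
  ModularForm.hasSum_qExpansion (f := F) one_pos one_mem_strictPeriods_SL z

theorem hasQ_eFour : HasQ 1 ⇑E₄ (eFourInt.map (Int.castRingHom ℂ)) := by
  rw [← qExpansion_eFour]; exact hasQ_form E₄

theorem qExpansion_eSix : qExpansion 1 E₆ = eSixInt.map (Int.castRingHom ℂ) := by
  ext m
  rw [PowerSeries.coeff_map, eSixInt, PowerSeries.coeff_mk,
    show E₆ = ModularForm.E (k := 6) (by norm_num) from rfl,
    E_qExpansion_coeff _ (by decide), show bernoulli 6 = 1 / 42 by decide +kernel]
  split_ifs <;> simp [*]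
  ring

theorem hasQ_eSix : HasQ 1 ⇑E₆ (eSixInt.map (Int.castRingHom ℂ)) := by
  rw [← qExpansion_eSix]; exact hasQ_form E₆

theorem hasQ_discriminant :
    HasQ 1 ModularForm.discriminant (deltaInt.map (Int.castRingHom ℂ)) := by
  have h : qExpansion 1 ModularForm.discriminant = deltaInt.map (Int.castRingHom ℂ) := by
    ext n
    rw [qExpansion_discriminant, PowerSeries.coeff_map, eq_intCast]
  rw [← h]
  exact hasQ_form (CuspForm.discriminant : ModularForm 𝒮ℒ 12)

/-- A series in `q` as one in integral powers of `q`. -/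
theorem hasExp_iff {f : ℍ → ℂ} {L : LaurentSeries ℂ} {A : PowerSeries ℂ}
    (hn : ∀ n : ℤ, n < 0 → L.coeff n = 0) (hA : ∀ n : ℕ, L.coeff n = PowerSeries.coeff n A) :
    HasExp (qp 1) f L ↔ HasQ 1 f A := by
  refine forall_congr' fun z => ?_
  rw [← Function.Injective.hasSum_iff (g := fun n : ℕ => (n : ℤ)) Nat.cast_injective fun m hm => by
    rw [hn m (by
      by_contra hcon
      exact hm ⟨m.toNat, Int.toNat_of_nonneg (not_lt.1 hcon)⟩), zero_mul]]
  have e : qp 1 z = Function.Periodic.qParam (1 : ℝ) (z : ℂ) := by simp [qp]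
  simp only [Function.comp_def, hA, e, zpow_natCast]

/-- **The expansion of the derivative.** -/
theorem hasQ_deriv {f : ℍ → ℂ} {A : PowerSeries ℤ} (h : HasQ 1 f (A.map (Int.castRingHom ℂ))) :
    HasQ 1 (normalizedDerivOfComplex f) ((thetaInt A).map (Int.castRingHom ℂ)) := by
  set L := HahnSeries.ofPowerSeries ℤ ℂ (A.map (Int.castRingHom ℂ))
  have hneg : ∀ n : ℤ, n < 0 → L.coeff n = 0 := fun n hn =>
    ModularCurve.ofPowerSeries_coeff_of_neg _ hn
  have hE := ((hasExp_iff hneg fun n => ofPowerSeries_coeff_natCast _ n).mpr h).normalizedDeriv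
  rw [Nat.cast_one, inv_one, map_one, one_mul] at hE
  refine (hasExp_iff (fun n hn => ?_) fun n => ?_).mp hE
  · rw [thetaFun_coeff, hneg n hn, mul_zero]
  · rw [thetaFun_coeff, ofPowerSeries_coeff_natCast, PowerSeries.coeff_map, PowerSeries.coeff_map,
      thetaInt, PowerSeries.coeff_mk]
    simp

/-- In weight below 12 a level one form is determined by its constant term. -/
theorem series_eq_zero {k : ℕ} (hk : k < 12) {f : ℍ → ℂ} {A : PowerSeries ℂ}
    (hinv : ∀ γ : SL(2, ℤ), f ∣[(k : ℤ)] γ = f) (hA : HasQ 1 f A)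
    (h0 : PowerSeries.coeff 0 A = 0) : A = 0 := by
  have hlv : IsLv 1 (k : ℤ) f := ⟨fun γ _ => hinv γ, hA.mdiff one_pos, fun γ => by
    rw [hinv γ]; exact hA.bdd one_pos⟩
  have hord : ((k / 12 : ℕ) : ℕ∞) < (qExpansion 1 ⇑hlv.toMF).order := by
    rw [Nat.div_eq_of_lt hk, show qExpansion 1 ⇑hlv.toMF = A from hA.qExpansion_eq one_pos]
    by_contra hc
    obtain ⟨n, hn, hn'⟩ : ∃ n, A.order = (n : ℕ∞) ∧ n = 0 :=
      ⟨0, le_antisymm (not_lt.mp hc) bot_le, rfl⟩
    subst hn'
    exact ((PowerSeries.order_eq_nat).mp hn).1 h0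
  have hz : f = 0 := congrArg DFunLike.coe (ModularForm.sturm_bound_levelOne_nat hord)
  subst hz
  exact hA.eq_zero_of_fun one_pos

/-- **An identity of Ramanujan's type**: the Serre derivative of a form `F` of weight `k` is the
multiple of the form `G` of weight `k + 2` fixed by the constant terms. -/
theorem theta_identity {k : ℕ} (hk : k + 2 < 12) {F : ModularForm 𝒮ℒ (k : ℤ)} {A B : PowerSeries ℤ}
    {g : ℍ → ℂ} (hg : ∀ γ : SL(2, ℤ), g ∣[((k + 2 : ℕ) : ℤ)] γ = g)
    (hA : HasQ 1 ⇑F (A.map (Int.castRingHom ℂ))) (hB : HasQ 1 g (B.map (Int.castRingHom ℂ)))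
    (hA0 : PowerSeries.coeff 0 A = 1) (hB0 : PowerSeries.coeff 0 B = 1) :
    12 * thetaInt A = (k : ℤ) • (eTwoInt * A - B) := by
  have hs : HasQ 1 (normalizedDerivOfComplex ⇑F - ((k : ℂ) / 12) • (EisensteinSeries.E2 * ⇑F) +
        ((k : ℂ) / 12) • g)
      ((thetaInt A).map (Int.castRingHom ℂ) - ((k : ℂ) / 12) •
        (eTwoInt.map (Int.castRingHom ℂ) * A.map (Int.castRingHom ℂ)) +
        ((k : ℂ) / 12) • B.map (Int.castRingHom ℂ)) :=
    ((hasQ_deriv hA).sub ((hasQ_eTwo.mul one_pos hA).smul _)).add (hB.smul _)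
  have hinv : ∀ γ : SL(2, ℤ), (normalizedDerivOfComplex ⇑F -
        ((k : ℂ) / 12) • (EisensteinSeries.E2 * ⇑F) + ((k : ℂ) / 12) • g) ∣[((k + 2 : ℕ) : ℤ)] γ =
      normalizedDerivOfComplex ⇑F - ((k : ℂ) / 12) • (EisensteinSeries.E2 * ⇑F) +
        ((k : ℂ) / 12) • g := fun γ => by
    rw [SlashAction.add_slash, ModularForm.SL_smul_slash, hg γ]
    congr 1
    have e : normalizedDerivOfComplex ⇑F - ((k : ℂ) / 12) • (EisensteinSeries.E2 * ⇑F) =
        serreDerivative ((k : ℤ) : ℂ) ⇑F := by
      funext z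
      simp only [serreDerivative_apply, Pi.sub_apply, Pi.smul_apply, Pi.mul_apply, smul_eq_mul,
        Int.cast_natCast]
      ring
    rw [e, Nat.cast_add, Nat.cast_ofNat]
    exact serreDerivative_slash_invariant F.holo' (F.slash_action_eq' _ ⟨γ, rfl⟩)
  have hz := series_eq_zero hk hinv hs (by
    simp only [map_add, map_sub, PowerSeries.coeff_smul, ← map_mul, PowerSeries.coeff_map,
      eq_intCast, smul_eq_mul]
    rw [show PowerSeries.coeff 0 (eTwoInt * A) = 1 by
        rw [PowerSeries.coeff_mul, Finset.Nat.antidiagonal_zero, Finset.sum_singleton, eTwoInt,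
          PowerSeries.coeff_mk, hA0]
        simp,
      hB0, show PowerSeries.coeff 0 (thetaInt A) = 0 by rw [thetaInt, PowerSeries.coeff_mk]; simp]
    simp)
  refine PowerSeries.ext fun n => Int.cast_injective (α := ℂ) ?_
  have h := congrArg (PowerSeries.coeff n) hz
  rw [← map_mul] at h
  simp only [map_add, map_sub, PowerSeries.coeff_smul, PowerSeries.coeff_map, map_zero, eq_intCast,
    smul_eq_mul] at h
  rw [show (12 : PowerSeries ℤ) = PowerSeries.C (12 : ℤ) by simp, PowerSeries.coeff_C_mul,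
    map_zsmul, map_sub, smul_eq_mul]
  push_cast
  linear_combination 12 * h

/-- **Ramanujan's identity for `E₄`.** -/
theorem theta_eFour : 3 * thetaInt eFourInt = eTwoInt * eFourInt - eSixInt := by
  have h := theta_identity (k := 4) (by norm_num) (F := E₄)
    (fun γ => E₆.slash_action_eq' _ ⟨γ, rfl⟩) hasQ_eFour hasQ_eSix (by simp [eFourInt])
    (by simp [eSixInt])
  refine PowerSeries.ext fun n => ?_
  have h' := congrArg (PowerSeries.coeff n) h
  rw [show (12 : PowerSeries ℤ) = PowerSeries.C (12 : ℤ) by simp, PowerSeries.coeff_C_mul,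
    map_zsmul, map_sub, smul_eq_mul] at h'
  rw [show (3 : PowerSeries ℤ) = PowerSeries.C (3 : ℤ) by simp, PowerSeries.coeff_C_mul, map_sub]
  push_cast at h'
  omega

/-- **Ramanujan's identity for `E₆`.** -/
theorem theta_eSix : 2 * thetaInt eSixInt = eTwoInt * eSixInt - eFourInt ^ 2 := by
  have hF : HasQ 1 (⇑E₄ * ⇑E₄) ((eFourInt * eFourInt).map (Int.castRingHom ℂ)) := by
    rw [map_mul]; exact hasQ_eFour.mul one_pos hasQ_eFour
  have h := theta_identity (k := 6) (by norm_num) (F := E₆)
    (fun γ => (E₄.mul E₄).slash_action_eq' _ ⟨γ, rfl⟩) hasQ_eSix hF (by simp [eSixInt])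
    (by simp [eFourInt])
  rw [← sq] at h
  refine PowerSeries.ext fun n => ?_
  have h' := congrArg (PowerSeries.coeff n) h
  rw [show (12 : PowerSeries ℤ) = PowerSeries.C (12 : ℤ) by simp, PowerSeries.coeff_C_mul,
    map_zsmul, map_sub, smul_eq_mul] at h'
  rw [show (2 : PowerSeries ℤ) = PowerSeries.C (2 : ℤ) by simp, PowerSeries.coeff_C_mul, map_sub]
  push_cast at h'
  omega

/-- **`θ Δ = E₂ Δ`.** -/
theorem theta_delta : thetaInt deltaInt = eTwoInt * deltaInt := by
  have h2 : HasQ 1 (normalizedDerivOfComplex ModularForm.discriminant)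
      ((eTwoInt * deltaInt).map (Int.castRingHom ℂ)) := by
    rw [show normalizedDerivOfComplex ModularForm.discriminant =
      EisensteinSeries.E2 * ModularForm.discriminant from funext fun z => FA.Dim.D_discriminant z,
      map_mul]
    exact hasQ_eTwo.mul one_pos hasQ_discriminant
  have h := HasQ.unique one_pos (hasQ_deriv hasQ_discriminant) h2
  refine PowerSeries.ext fun n => Int.cast_injective (α := ℂ) ?_
  have h' := congrArg (PowerSeries.coeff n) h
  simpa only [PowerSeries.coeff_map, eq_intCast] using h'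

/-- **`1728 Δ = E₄³ - E₆²`.** -/
theorem delta_eq : 1728 * deltaInt = eFourInt ^ 3 - eSixInt ^ 2 := by
  have hR : HasQ 1 ((1728 : ℂ) • ModularForm.discriminant)
      ((eFourInt ^ 3 - eSixInt ^ 2).map (Int.castRingHom ℂ)) := by
    rw [show (1728 : ℂ) • ModularForm.discriminant = ⇑E₄ ^ 3 - ⇑E₆ ^ 2 from funext fun z => by
        rw [Pi.smul_apply, discriminant_eq_E₄_cube_sub_E₆_sq, Pi.sub_apply, Pi.pow_apply,
          Pi.pow_apply, smul_eq_mul]
        ring,
      map_sub, map_pow, map_pow]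
    exact (hasQ_eFour.pow one_pos 3).sub (hasQ_eSix.pow one_pos 2)
  have h := HasQ.unique one_pos (hasQ_discriminant.smul (1728 : ℂ)) hR
  refine PowerSeries.ext fun n => Int.cast_injective (α := ℂ) ?_
  have h' := congrArg (PowerSeries.coeff n) h
  rw [show (1728 : PowerSeries ℤ) = PowerSeries.C (1728 : ℤ) by simp, PowerSeries.coeff_C_mul,
    Int.cast_mul]
  simpa only [PowerSeries.coeff_smul, PowerSeries.coeff_map, map_sub, smul_eq_mul, eq_intCast,
    Int.cast_sub, Int.cast_ofNat] using h'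

end FA.Tau

end
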