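import Fermat.Agent.Tau.FiltrationModP
import Mathlib.RingTheory.RegularLocalRing.Polynomial
import Mathlib.RingTheory.DiscreteValuationRing.TFAE

/-!
# The algebra of forms modulo `p` is a Dedekind domain

Euler's derivation takes `A - 1` to `-A`, so `A - 1` is never in the square of a prime containing
it, and the curve `A = 1` is regular.
-/

set_option autoImplicit false

noncomputable section

namespace FA.SwinnertonDyer

open MvPolynomial IsLocalRing

/-- In a local ring with maximal ideal `(x, y)`, an element of it outside its square leaves one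
generator. -/
theorem exists_span_pair_eq {R : Type*} [CommRing R] [IsLocalRing R] [IsNoetherianRing R]
    (hfin : (maximalIdeal R).spanFinrank ≤ 2) {π : R} (h1 : π ∈ maximalIdeal R)
    (h2 : π ∉ maximalIdeal R ^ 2) : ∃ y, maximalIdeal R = Ideal.span {π, y} := by
  classical
  set m := maximalIdeal R
  have hfg : m.FG := IsNoetherian.noetherian m
  obtain ⟨x, y, hxy⟩ : ∃ x y, m = Ideal.span {x, y} := by
    obtain ⟨S, hS⟩ := (Submodule.FG.finite_generators hfg).exists_finset_coe
    have hcard : S.card ≤ 2 := by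
      rw [← Set.ncard_coe_finset, hS, Submodule.FG.generators_ncard hfg]
      exact hfin
    have hspan : Ideal.span (S : Set R) = m := by rw [hS]; exact m.span_generators
    rcases (show S.card = 0 ∨ S.card = 1 ∨ S.card = 2 by omega) with h | h | h
    · refine ⟨0, 0, ?_⟩
      rw [← hspan, Finset.card_eq_zero.1 h]
      simp
    · obtain ⟨a, ha⟩ := Finset.card_eq_one.1 h
      refine ⟨a, a, ?_⟩
      rw [← hspan, ha]
      simp
    · obtain ⟨a, b, -, hab⟩ := Finset.card_eq_two.1 h
      exact ⟨a, b, by rw [← hspan, hab, Finset.coe_pair]⟩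
  have hπ := h1
  rw [hxy, Ideal.mem_span_pair] at hπ
  obtain ⟨a, b, hab⟩ := hπ
  have hx : x ∈ m := hxy ▸ Ideal.subset_span (by simp)
  have hy : y ∈ m := hxy ▸ Ideal.subset_span (by simp)
  by_cases ha : IsUnit a
  · refine ⟨y, le_antisymm ?_ (Ideal.span_le.2 (by simp [Set.insert_subset_iff, h1, hy]))⟩
    rw [hxy, Ideal.span_le, Set.insert_subset_iff, Set.singleton_subset_iff]
    refine ⟨?_, Ideal.subset_span (by simp)⟩
    obtain ⟨u, rfl⟩ := ha
    rw [SetLike.mem_coe, Ideal.mem_span_pair]
    exact ⟨↑u⁻¹, -(↑u⁻¹ * b), by linear_combination -(↑u⁻¹ : R) * hab + x * u.inv_mul⟩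
  by_cases hb : IsUnit b
  · refine ⟨x, le_antisymm ?_ (Ideal.span_le.2 (by simp [Set.insert_subset_iff, h1, hx]))⟩
    rw [hxy, Ideal.span_le, Set.insert_subset_iff, Set.singleton_subset_iff]
    refine ⟨Ideal.subset_span (by simp), ?_⟩
    obtain ⟨u, rfl⟩ := hb
    rw [SetLike.mem_coe, Ideal.mem_span_pair]
    exact ⟨↑u⁻¹, -(↑u⁻¹ * a), by linear_combination -(↑u⁻¹ : R) * hab + y * u.inv_mul⟩
  refine absurd ?_ h2
  rw [← hab, pow_two]
  exact add_mem (Ideal.mul_mem_mul ((mem_maximalIdeal _).2 ha) hx)
    (Ideal.mul_mem_mul ((mem_maximalIdeal _).2 hb) hy)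

variable {p : ℕ} [Fact p.Prime]

open FA.HasseEis in
/-- **The algebra `𝔽_p[X, Y]/(A - 1)` is a Dedekind domain.** -/
theorem isDedekindDomain_quotient (h5 : 5 ≤ p) :
    IsDedekindDomain (MvPolynomial (Fin 2) (ZMod p) ⧸ Ideal.span {hassePoly p - 1}) := by
  set I := Ideal.span {hassePoly p - 1}
  have hirr := irreducible_hasse_sub_one (p := p) h5
  have : I.IsPrime :=
    (Ideal.span_singleton_prime hirr.ne_zero).2 (irreducible_iff_prime.1 hirr)
  refine @IsDedekindDomainDvr.isDedekindDomain _ _ _
    { is_dvr_at_nonzero_prime := fun q hq hqp => ?_ }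
  set M := q.comap (Ideal.Quotient.mk I)
  have : M.IsPrime := Ideal.IsPrime.comap _
  set L := Localization.AtPrime M
  set S := Localization.AtPrime q
  suffices (maximalIdeal S).IsPrincipal from ((IsDiscreteValuationRing.TFAE S
    (IsLocalization.AtPrime.not_isField _ hq S)).out 4 0).mp this
  set f : MvPolynomial (Fin 2) (ZMod p) →+* S :=
    (algebraMap _ S).comp (Ideal.Quotient.mk I) with hf
  have hunit : ∀ s : M.primeCompl, IsUnit (f s) := fun s =>
    IsLocalization.map_units S (⟨Ideal.Quotient.mk I s, s.2⟩ : q.primeCompl)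
  set g : L →+* S := IsLocalization.lift hunit
  have hgf : g.comp (algebraMap _ L) = f := IsLocalization.lift_comp hunit
  set π : MvPolynomial (Fin 2) (ZMod p) := hassePoly p - 1
  have hπM : π ∈ M := by
    show Ideal.Quotient.mk I π ∈ q
    rw [Ideal.Quotient.eq_zero_iff_mem.2 (Ideal.mem_span_singleton_self π)]
    exact zero_mem q
  have h1 : algebraMap _ L π ∈ maximalIdeal L := by
    rwa [IsLocalization.AtPrime.to_map_mem_maximal_iff L M]
  have h2 : algebraMap _ L π ∉ maximalIdeal L ^ 2 := fun h => by
    rw [← Localization.AtPrime.map_eq_maximalIdeal, ← Ideal.map_pow,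
      IsLocalization.algebraMap_mem_map_algebraMap_iff M.primeCompl] at h
    obtain ⟨s, hs, hsπ⟩ := h
    have hD : ∀ z ∈ M ^ 2, wOp p z ∈ M := fun z hz => by
      rw [pow_two] at hz
      induction hz using Submodule.mul_induction_on' with
      | mem_mul_mem a ha b hb =>
        rw [Derivation.leibniz, smul_eq_mul, smul_eq_mul]
        exact add_mem (M.mul_mem_right _ ha) (M.mul_mem_right _ hb)
      | add a _ b _ iha ihb => rw [map_add]; exact add_mem iha ihb
    have hsD := hD _ hsπ
    have hwA : wOp p π = -hassePoly p := by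
      have hp : ((p : ℕ) : MvPolynomial (Fin 2) (ZMod p)) = 0 := CharP.cast_eq_zero _ p
      rw [map_sub, wOp_isob (isob_hassePoly h5), Derivation.map_one_eq_zero, sub_zero,
        Nat.cast_sub (by omega : 1 ≤ p), hp]
      simp
    rw [Derivation.leibniz, smul_eq_mul, smul_eq_mul, hwA] at hsD
    have h3 : s * hassePoly p ∈ M := by
      have := sub_mem (M.mul_mem_right (wOp p s) hπM) hsD
      rwa [show π * wOp p s - (s * -hassePoly p + π * wOp p s) = s * hassePoly p by ring] at this
    rcases Ideal.IsPrime.mem_or_mem inferInstance h3 with h4 | h4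
    · exact hs h4
    · exact Ideal.IsPrime.ne_top (inferInstance : M.IsPrime) ((Ideal.eq_top_iff_one M).2 (by
        simpa [π] using sub_mem h4 hπM))
  have hreg := (isRegularLocalRing_iff L).1 inferInstance
  have hfin : (maximalIdeal L).spanFinrank ≤ 2 := by
    have hle : ringKrullDim L ≤ 2 := by
      rw [IsLocalization.AtPrime.ringKrullDim_eq_height M L]
      refine (Ideal.height_le_ringKrullDim_of_isPrime (I := M)).trans_eq ?_
      rw [MvPolynomial.ringKrullDim_of_isNoetherianRing, ringKrullDim_eq_zero_of_field]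
      simp
    rw [← hreg] at hle
    exact_mod_cast hle
  obtain ⟨y, hy⟩ := exists_span_pair_eq hfin h1 h2
  refine ⟨⟨g y, ?_⟩⟩
  have hmax : maximalIdeal S = (maximalIdeal L).map g := by
    rw [← Localization.AtPrime.map_eq_maximalIdeal, ← Localization.AtPrime.map_eq_maximalIdeal,
      Ideal.map_map, hgf, hf, ← Ideal.map_map,
      Ideal.map_comap_of_surjective _ Ideal.Quotient.mk_surjective]
  rw [hmax, hy, Ideal.map_span, Set.image_pair,
    show g (algebraMap _ L π) = 0 by
      rw [IsLocalization.lift_eq hunit, hf, RingHom.comp_apply,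
        Ideal.Quotient.eq_zero_iff_mem.2 (Ideal.mem_span_singleton_self π), map_zero],
    Ideal.span_insert_zero, Ideal.submodule_span_eq]

/-- **The algebra of forms modulo `p` is a Dedekind domain.** -/
theorem isDedekindDomain_range (h5 : 5 ≤ p) : IsDedekindDomain (phi p).range := by
  have := isDedekindDomain_quotient (p := p) h5
  have hker : Ideal.span {FA.HasseEis.hassePoly p - 1} = RingHom.ker (phi p).rangeRestrict := by
    rw [← ker_phi h5]
    ext F
    simp [RingHom.mem_ker, Subtype.ext_iff]
  let e : (MvPolynomial (Fin 2) (ZMod p) ⧸ Ideal.span {FA.HasseEis.hassePoly p - 1}) ≃+*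
      (phi p).range :=
    (Ideal.quotEquivOfEq hker).trans (Ideal.quotientKerAlgEquivOfSurjective
      (f := (phi p).rangeRestrict) (AlgHom.rangeRestrict_surjective _)).toRingEquiv
  let _ := e.toRingHom.toAlgebra
  have : IsLocalization (⊥ : Submonoid (MvPolynomial (Fin 2) (ZMod p) ⧸
      Ideal.span {FA.HasseEis.hassePoly p - 1})) (phi p).range := {
    map_units := fun x => by simp [Submonoid.mem_bot.1 x.2]
    surj := fun z => ⟨(e.symm z, 1), by
      show z * e _ = e (e.symm z)
      simp⟩
    exists_of_eq := fun h => ⟨1, by simpa using e.injective h⟩ }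
  exact IsLocalization.isDedekindDomain (MvPolynomial (Fin 2) (ZMod p) ⧸
    Ideal.span {FA.HasseEis.hassePoly p - 1}) (M := ⊥) bot_le _

end FA.SwinnertonDyer

end
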