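import Fermat.Agent.Tau.FiltrationModP
import Fermat.Agent.Partition.Theta
import Fermat.Agent.Eisenstein.LiftLevelOne
import Fermat.Prelude.Def_ModularForm_HeckeOperatorForms
import Fermat.Prelude.Thm_ModularFormClass_qCoeff_heckeT

/-!
# The contraction of `U_p`

Modulo `p` the operator `U` is the Hecke operator `T_p` and `(U f) ^ p = f - θ ^ (p - 1) f`, of
weight `k + p² - 1` for `f` of weight `k`. Hence `U f` has weight at most `p + (k - 1) / p`.
-/

set_option autoImplicit false

noncomputable section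

open PowerSeries (coeff)
open CongruenceSubgroup UpperHalfPlane
open scoped MatrixGroups

namespace FA.SwinnertonDyer

variable {p : ℕ}

variable (p) in
/-- The operator `U`: the series of the coefficients at the multiples of `p`. -/
def uOp (f : PowerSeries (ZMod p)) : PowerSeries (ZMod p) :=
  PowerSeries.mk fun m => coeff (m * p) f

variable [Fact p.Prime]

theorem IsFormModP.add_weight (h5 : 5 ≤ p) {n : ℕ} {f : PowerSeries (ZMod p)}
    (h : IsFormModP p n f) (i : ℕ) : IsFormModP p (n + i * (p - 1)) f := by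
  obtain ⟨F, hF, rfl⟩ := h.exists_isob h5
  have e : phi p (FA.HasseEis.hassePoly p ^ i * F) = phi p F := by
    rw [map_mul, map_pow, phi_hassePoly h5, one_pow, one_mul]
  rw [← e, add_comm, ← smul_eq_mul]
  exact isFormModP_phi (((isob_hassePoly h5).pow i).mul hF)

theorem IsFormModP.sub (h5 : 5 ≤ p) {n : ℕ} {f g : PowerSeries (ZMod p)}
    (hf : IsFormModP p n f) (hg : IsFormModP p n g) : IsFormModP p n (f - g) := by
  obtain ⟨F, hF, rfl⟩ := hf.exists_isob h5
  obtain ⟨G, hG, rfl⟩ := hg.exists_isob h5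
  rw [← map_sub]
  exact isFormModP_phi (hF.sub hG)

theorem IsFormModP.theta_iterate (h5 : 5 ≤ p) {n : ℕ} {f : PowerSeries (ZMod p)}
    (hf : IsFormModP p n f) (j : ℕ) :
    IsFormModP p (n + j * (p + 1)) ((thetaP p)^[j] f) := by
  induction j with
  | zero => simpa using hf
  | succ j ih =>
    rw [Function.iterate_succ_apply',
      show n + (j + 1) * (p + 1) = n + j * (p + 1) + p + 1 by ring]
    exact ih.theta h5

/-- `U` is the Hecke operator modulo `p`, in weight at least two. -/
theorem isFormModP_uOp_of_two_le {n : ℕ} (hn : 2 ≤ n) {f : PowerSeries (ZMod p)}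
    (h : IsFormModP p n f) : IsFormModP p n (uOp p f) := by
  obtain ⟨G, T, hG, hT⟩ := h
  have hp : p.Prime := Fact.out
  set G₁ : ModularForm (Gamma0 1) (n : ℤ) := ModularForm.mcast rfl G FA.EisCong.gamma0_one_coe
  set g := ModularForm.heckeTLin (n : ℤ) hp hp.not_dvd_one G₁ with hg
  refine ⟨ModularForm.mcast rfl g FA.EisCong.gamma0_one_coe.symm, PowerSeries.mk fun m =>
    coeff (m * p) T + if p ∣ m then (p : ℤ) ^ (n - 1) * coeff (m / p) T else 0, ?_, ?_⟩
  · have hq : ∀ m, ModularFormClass.qCoeff G₁ m = ((coeff m T : ℤ) : ℂ) := fun m => by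
      show (qExpansion 1 ⇑G).coeff m = _
      rw [hG, PowerSeries.coeff_map, eq_intCast]
    ext m
    show ModularFormClass.qCoeff (ModularForm.heckeT (n : ℤ) p ⇑G₁) m = _
    rw [ModularFormClass.qCoeff_heckeT G₁ (one_mem_strictPeriods_Gamma0 1) hp.ne_zero,
      ModularForm.coeffHeckeT_apply, hq, hq, PowerSeries.coeff_map, PowerSeries.coeff_mk,
      eq_intCast, show ((p : ℂ) ^ ((n : ℤ) - 1)) = (p : ℂ) ^ (n - 1) by
        rw [← zpow_natCast, Nat.cast_sub (by omega), Nat.cast_one]]
    split_ifs <;> push_cast <;> ring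
  · ext m
    rw [PowerSeries.coeff_map, PowerSeries.coeff_mk, uOp, PowerSeries.coeff_mk, ← hT,
      PowerSeries.coeff_map, map_add]
    split_ifs
    · rw [map_mul, map_pow, map_natCast, ZMod.natCast_self, zero_pow (by omega), zero_mul,
        add_zero]
    · rw [map_zero, add_zero]

/-- `(U f) ^ p = f - θ ^ (p - 1) f`. -/
theorem uOp_pow (f : PowerSeries (ZMod p)) : uOp p f ^ p = f - (thetaP p)^[p - 1] f := by
  have hp : p.Prime := Fact.out
  have hit : ∀ (j m : ℕ), coeff m ((thetaP p)^[j] f) = (m : ZMod p) ^ j * coeff m f := by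
    intro j
    induction j with
    | zero => simp
    | succ j ih =>
      intro m
      rw [Function.iterate_succ_apply', show thetaP p ((thetaP p)^[j] f) =
        FA.Partition.thetaMod ((thetaP p)^[j] f) from rfl, FA.Partition.coeff_thetaMod, ih,
        pow_succ]
      ring
  rw [← FA.Partition.pow_card_eq_expand hp.ne_zero]
  ext m
  rw [map_sub, hit]
  by_cases hm : p ∣ m
  · obtain ⟨i, rfl⟩ := hm
    rw [PowerSeries.coeff_expand_mul, uOp, PowerSeries.coeff_mk, Nat.cast_mul, ZMod.natCast_self,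
      zero_mul, zero_pow (by have := hp.two_le; omega), zero_mul, sub_zero, mul_comm i]
  · rw [PowerSeries.coeff_expand_of_not_dvd p hp.ne_zero _ hm, ZMod.pow_card_sub_one_eq_one
      (fun e => hm ((ZMod.natCast_eq_zero_iff m p).1 e)), one_mul, sub_self]

/-- **The contraction**: `U f` has a weight at most `p + (k - 1) / p`. -/
theorem exists_weight_uOp (h5 : 5 ≤ p) {k : ℕ} {f : PowerSeries (ZMod p)}
    (h : IsFormModP p k f) : ∃ n ≤ p + (k - 1) / p, IsFormModP p n (uOp p f) := by
  rcases eq_or_ne (uOp p f) 0 with h0 | h0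
  · refine ⟨0, Nat.zero_le _, ?_⟩
    rw [h0, ← map_zero (phi p)]
    exact isFormModP_phi (MvPolynomial.isWeightedHomogeneous_zero _ _ _)
  classical
  have hex : ∃ n, IsFormModP p n (uOp p f) :=
    ⟨_, isFormModP_uOp_of_two_le (by omega : 2 ≤ k + 1 * (p - 1)) (h.add_weight h5 1)⟩
  have hmin : IsLeast {n | IsFormModP p n (uOp p f)} (Nat.find hex) :=
    ⟨Nat.find_spec hex, fun m hm => Nat.find_min' hex hm⟩
  have hpow : IsFormModP p (k + (p - 1) * (p + 1)) (uOp p f ^ p) := by
    rw [uOp_pow]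
    refine IsFormModP.sub h5 ?_ (h.theta_iterate h5 (p - 1))
    have := h.add_weight h5 (p + 1)
    rwa [mul_comm (p + 1)] at this
  have hle := (filtration_pow h5 h0 hmin p).2 hpow
  refine ⟨_, ?_, hmin.1⟩
  have hp0 : 0 < p := by omega
  obtain ⟨m, rfl⟩ : ∃ m, p = m + 1 := ⟨p - 1, by omega⟩
  rw [Nat.add_sub_cancel] at hle
  by_contra hlt
  have h2 : (m + 1) * (m + 1 + (k - 1) / (m + 1) + 1) ≤ (m + 1) * Nat.find hex :=
    Nat.mul_le_mul_left _ (by omega)
  have h3 := Nat.lt_mul_div_succ (k - 1) hp0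
  rw [mul_add, mul_one] at h3
  ring_nf at h2 h3 hle
  omega

/-- Iterates of `U` fall to weight at most `p + 1`. -/
theorem exists_weight_uOp_iterate (h5 : 5 ≤ p) {k : ℕ} {f : PowerSeries (ZMod p)}
    (h : IsFormModP p k f) : ∀ i, ∃ n ≤ max (p + 1) (k - i), IsFormModP p n ((uOp p)^[i] f) := by
  intro i
  induction i with
  | zero => exact ⟨k, le_max_right _ _, h⟩
  | succ i ih =>
    obtain ⟨n, hn, hf⟩ := ih
    obtain ⟨m, hm, hm'⟩ := exists_weight_uOp h5 hf
    rw [Function.iterate_succ_apply']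
    refine ⟨m, hm.trans ?_, hm'⟩
    rcases le_or_gt n (p + 1) with hle | hgt
    · exact le_trans (Nat.add_le_add_left (Nat.div_le_of_le_mul (by omega)) p)
        (le_max_left _ _)
    · have : (n - 1) / p < n - p := by
        rw [Nat.div_lt_iff_lt_mul (by omega)]
        have : (n - p) * 5 ≤ (n - p) * p := Nat.mul_le_mul_left _ h5
        have : 2 * p ≤ (n - p) * p := Nat.mul_le_mul_right _ (by omega)
        omega
      omega

/-- An eigenform of `U` with non-zero eigenvalue has weight at most `p + 1`. -/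
theorem exists_weight_of_uOp_eq (h5 : 5 ≤ p) {k : ℕ} {f : PowerSeries (ZMod p)}
    (h : IsFormModP p k f) {c : ZMod p} (hc : c ≠ 0) (he : uOp p f = PowerSeries.C c * f) :
    ∃ n ≤ p + 1, IsFormModP p n f := by
  obtain ⟨n, hn, hn'⟩ := exists_weight_uOp_iterate h5 h k
  have hlin : ∀ a, uOp p (PowerSeries.C a * f) = PowerSeries.C a * uOp p f := fun a => by
    ext m
    simp only [uOp, PowerSeries.coeff_mk, PowerSeries.coeff_C_mul]
  have e : ∀ i, (uOp p)^[i] f = PowerSeries.C (c ^ i) * f := fun i => by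
    induction i with
    | zero => simp
    | succ i ih => rw [Function.iterate_succ_apply', ih, hlin, he, pow_succ, map_mul, mul_assoc]
  rw [e] at hn'
  obtain ⟨F, hF, hF'⟩ := hn'.exists_isob h5
  refine ⟨n, by omega, ?_⟩
  have e' : phi p (MvPolynomial.C (c ^ k)⁻¹ * F) = f := by
    rw [map_mul, show phi p (MvPolynomial.C (c ^ k)⁻¹) = PowerSeries.C (c ^ k)⁻¹ by simp [phi],
      hF', ← mul_assoc, ← map_mul, inv_mul_cancel₀ (pow_ne_zero _ hc), map_one, one_mul]
  rw [← e']
  exact isFormModP_phi (hF.C_mul _)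

end FA.SwinnertonDyer

end
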