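import Fermat.Agent.Tau.ContractionModP
import Fermat.Agent.Partition.FiltrationArgument

/-!
# Theta cycles

For a form `g` modulo `p` without coefficients at the multiples of `p` the filtrations of `θⁱ g`
have period `p - 1`. Counting how often their residues modulo `p` wrap shows that a period contains
one or two falls, of total size `(p + 1) (p - 1)`, and that no filtration is `1` modulo `p`.
-/

set_option autoImplicit false

noncomputable section

namespace FA.SwinnertonDyer

open Finset

/-- The combinatorics of a theta cycle. -/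
theorem cycle_shape {p : ℕ} (h5 : 5 ≤ p) {w s : ℕ → ℕ}
    (hstep : ∀ i, w (i + 1) + s i * (p - 1) = w i + p + 1)
    (hs : ∀ i, s i = 0 ↔ ¬p ∣ w i) (hper : ∀ i, w (i + (p - 1)) = w i) :
    ∑ i ∈ range (p - 1), s i = p + 1 ∧
    (#{i ∈ range (p - 1) | p ∣ w i} = 1 ∨ #{i ∈ range (p - 1) | p ∣ w i} = 2) ∧
    ∀ i, ¬w i ≡ 1 [MOD p] := by
  have hp0 : p ≠ 0 := by omega
  have htel : ∀ n, w n + (p - 1) * ∑ i ∈ range n, s i = w 0 + n * (p + 1) := by
    intro n
    induction n with
    | zero => simp
    | succ n ih =>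
      have := hstep n
      rw [mul_comm (s n)] at this
      rw [sum_range_succ, mul_add, add_mul, one_mul]
      omega
  have hsum : ∑ i ∈ range (p - 1), s i = p + 1 := by
    have h := htel (p - 1)
    rw [show w (p - 1) = w 0 by simpa using hper 0, Nat.add_left_cancel_iff] at h
    exact Nat.eq_of_mul_eq_mul_left (by omega) h
  have hsle : ∀ i ∈ range (p - 1), s i ≤ p + 1 := fun i hi =>
    hsum ▸ single_le_sum (fun j _ => Nat.zero_le (s j)) hi
  -- the wraps `t i`
  set v : ℕ → ℕ := fun i => w i % p with hv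
  set t : ℕ → ℕ := fun i => (v i + 1 + s i) / p with ht
  have hv0 : ∀ i, v i = 0 ↔ p ∣ w i := fun i => (Nat.dvd_iff_mod_eq_zero).symm
  have hvt : ∀ i, v i + 1 + s i = v (i + 1) + p * t i := fun i => by
    have e : v (i + 1) = (v i + 1 + s i) % p := by
      have h := congrArg (fun x : ℕ => (x : ZMod p)) (hstep i)
      push_cast [Nat.cast_sub (show 1 ≤ p by omega)] at h
      rw [ZMod.natCast_self] at h
      show w (i + 1) % p = _
      rw [← ZMod.natCast_eq_natCast_iff']
      push_cast [hv, ZMod.natCast_mod]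
      linear_combination h
    rw [e, ht]
    exact (Nat.mod_add_div _ p).symm
  have hge : ∀ i, (if v (i + 1) = 0 then 1 else 0) ≤ t i := fun i => by
    split_ifs with h0
    · have := hvt i
      rcases Nat.eq_zero_or_pos (t i) with h | h
      · rw [h0, h] at this; omega
      · exact h
    · exact Nat.zero_le _
  have hlt : ∀ i, v i < p := fun i => Nat.mod_lt _ (by omega)
  have hshift : ∀ f : ℕ → ℕ, f (p - 1) = f 0 →
      ∑ i ∈ range (p - 1), f (i + 1) = ∑ i ∈ range (p - 1), f i := fun f hf => by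
    have h1 := sum_range_succ f (p - 1)
    rw [sum_range_succ', hf] at h1
    omega
  have hvper : v (p - 1) = v 0 := by
    show w (p - 1) % p = w 0 % p
    rw [show w (p - 1) = w 0 by simpa using hper 0]
  have htsum : ∑ i ∈ range (p - 1), t i = 2 := by
    have h := Finset.sum_congr rfl (s₁ := range (p - 1)) fun i _ => hvt i
    rw [sum_add_distrib, sum_add_distrib, sum_add_distrib, hshift v hvper, hsum, sum_const,
      card_range, smul_eq_mul, mul_one, ← mul_sum] at h
    exact Nat.eq_of_mul_eq_mul_left (show 0 < p by omega) (by omega)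
  have hcount : #{i ∈ range (p - 1) | p ∣ w i} =
      ∑ i ∈ range (p - 1), if v (i + 1) = 0 then 1 else 0 := by
    rw [hshift (fun i => if v i = 0 then 1 else 0) (by simp [hvper]), card_filter]
    exact sum_congr rfl fun i _ => by simp [hv0]
  have hle : #{i ∈ range (p - 1) | p ∣ w i} ≤ 2 := by
    rw [hcount, ← htsum]
    exact sum_le_sum fun i _ => hge i
  have hpos : 0 < #{i ∈ range (p - 1) | p ∣ w i} := by
    rw [card_pos, filter_nonempty_iff]
    by_contra! hno
    rw [sum_eq_zero fun i hi => (hs i).2 (hno i hi)] at hsum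
    omega
  refine ⟨hsum, by omega, ?_⟩
  have key : ∀ i ∈ range (p - 1), v (i + 1) ≠ 1 := fun i hi h1 => by
    have e := hvt i
    have hsi := hsle i hi
    rcases Nat.eq_zero_or_pos (v i) with h0 | h0
    · have hne : s i ≠ 0 := fun h => (hs i).1 h ((hv0 i).1 h0)
      have ht1 : t i = 1 := by
        rcases hti : t i with _ | _ | m
        · rw [hti] at e; omega
        · rfl
        · rw [hti] at e
          have : p * 2 ≤ p * (m + 1 + 1) := Nat.mul_le_mul_left _ (by omega)
          omega
      rw [ht1] at e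
      have hsum_lt : #{j ∈ range (p - 1) | p ∣ w j} < 2 := by
        rw [hcount, ← htsum]
        exact sum_lt_sum (fun j _ => hge j) ⟨i, hi, by rw [if_neg (by omega), ht1]; omega⟩
      obtain ⟨d, hd⟩ := card_eq_one.1 (show #{j ∈ range (p - 1) | p ∣ w j} = 1 by omega)
      have hid : i = d := mem_singleton.1 (hd ▸ mem_filter.2 ⟨hi, (hv0 i).1 h0⟩)
      rw [sum_eq_single_of_mem i hi fun j hj hji => (hs j).2 fun hdvd => hji (by
        rw [hid]; exact mem_singleton.1 (hd ▸ mem_filter.2 ⟨hj, hdvd⟩))] at hsum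
      omega
    · have := (hs i).2 fun h => absurd ((hv0 i).2 h) (by omega)
      rw [this, add_zero] at e
      have := hlt i
      rcases hti : t i with _ | m
      · rw [hti] at e; omega
      · rw [hti] at e
        have : p * 1 ≤ p * (m + 1) := Nat.mul_le_mul_left _ (by omega)
        omega
  intro i h1
  have hmul : ∀ q a, w (a + q * (p - 1)) = w a := fun q => by
    induction q with
    | zero => simp
    | succ q ih => intro a; rw [add_mul, one_mul, ← add_assoc, hper, ih]
  obtain ⟨j, hj, hwj⟩ : ∃ j ∈ range (p - 1), w (j + 1) = w i := by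
    refine ⟨(i + (p - 2)) % (p - 1), mem_range.2 (Nat.mod_lt _ (by omega)), ?_⟩
    rw [← hmul ((i + (p - 2)) / (p - 1)) _, ← hper i]
    congr 1
    have := Nat.mod_add_div' (i + (p - 2)) (p - 1)
    omega
  refine key j hj ?_
  show w (j + 1) % p = 1
  rw [hwj]
  exact Eq.trans h1 (Nat.mod_eq_of_lt (by omega))

variable {p : ℕ} [Fact p.Prime]

/-- **Theta cycles.** -/
theorem theta_cycle (h5 : 5 ≤ p) {k : ℕ} {g : PowerSeries (ZMod p)} (hg : g ≠ 0)
    (hform : IsFormModP p k g) (hz : ∀ m, PowerSeries.coeff (p * m) g = 0) :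
    ∃ w s : ℕ → ℕ, (∀ i, IsLeast {n | IsFormModP p n ((thetaP p)^[i] g)} (w i)) ∧
      (∀ i, w (i + (p - 1)) = w i) ∧ (∀ i, w (i + 1) + s i * (p - 1) = w i + p + 1) ∧
      (∀ i, s i = 0 ↔ ¬p ∣ w i) ∧ ∑ i ∈ range (p - 1), s i = p + 1 ∧
      (#{i ∈ range (p - 1) | p ∣ w i} = 1 ∨ #{i ∈ range (p - 1) | p ∣ w i} = 2) ∧
      ∀ i, ¬w i ≡ 1 [MOD p] := by
  classical
  have hne : ∀ i, (thetaP p)^[i] g ≠ 0 := fun i e => hg <| by
    ext n
    rw [map_zero]
    by_cases hn : p ∣ n
    · obtain ⟨m, rfl⟩ := hn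
      exact hz m
    · have h := congrArg (PowerSeries.coeff n) e
      rw [FA.Partition.coeff_thetaP_iterate, map_zero] at h
      exact (mul_eq_zero.1 h).resolve_left (pow_ne_zero _ (natCast_ne hn))
  have hper : (thetaP p)^[p - 1] g = g := by
    ext n
    rw [FA.Partition.coeff_thetaP_iterate]
    by_cases hn : p ∣ n
    · obtain ⟨m, rfl⟩ := hn
      rw [hz, mul_zero]
    · rw [ZMod.pow_card_sub_one_eq_one (natCast_ne hn), one_mul]
  have hex : ∀ i, ∃ n, IsFormModP p n ((thetaP p)^[i] g) :=
    fun i => ⟨_, hform.theta_iterate h5 i⟩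
  set w := fun i => Nat.find (hex i) with hwdef
  have hw : ∀ i, IsLeast {n | IsFormModP p n ((thetaP p)^[i] g)} (w i) :=
    fun i => ⟨Nat.find_spec (hex i), fun n hn => Nat.find_min' (hex i) hn⟩
  have htop : ∀ i, IsFormModP p (w i + p + 1) ((thetaP p)^[i + 1] g) := fun i => by
    rw [Function.iterate_succ_apply']
    exact IsFormModP.theta h5 (hw i).1
  have hle : ∀ i, w (i + 1) ≤ w i + p + 1 := fun i => (hw (i + 1)).2 (htop i)
  have hex' : ∀ i, ∃ s, w (i + 1) + s * (p - 1) = w i + p + 1 := fun i => by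
    obtain ⟨q, hq⟩ := (Nat.modEq_iff_dvd' (hle i)).1
      (FA.Partition.modEq_of_isFormModP h5 (hw (i + 1)).1 (htop i) (hne _))
    exact ⟨q, by rw [mul_comm q, ← hq]; have := hle i; omega⟩
  choose s hs using hex'
  have hiff : ∀ i, s i = 0 ↔ ¬p ∣ w i := fun i => by
    rw [← filtration_theta h5 (hne i) (hw i), ← Function.iterate_succ_apply' (thetaP p) i g]
    refine ⟨fun h => ?_, fun h => ?_⟩
    · have := hs i
      rw [h, zero_mul, add_zero] at this
      exact this ▸ hw (i + 1)
    · have := hs i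
      rw [(hw (i + 1)).unique h, Nat.add_eq_left] at this
      exact (mul_eq_zero.1 this).resolve_right (by omega)
  have hwper : ∀ i, w (i + (p - 1)) = w i := fun i => by
    refine (hw (i + (p - 1))).unique ?_
    rw [Function.iterate_add_apply, hper]
    exact hw i
  exact ⟨w, s, hw, hwper, hs, hiff, cycle_shape h5 hs hiff hwper⟩

end FA.SwinnertonDyer

end
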