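import Fermat.Agent.Tau.HeckeModP
import Fermat.Agent.Tau.SupersingularQuotient
import Fermat.Agent.Tau.ThetaCycle

/-!
# Serre's finiteness of the systems of eigenvalues modulo `p`

An eigenform of least weight `k > max (p + 1) (2p - 10)` killed by `U` is congruent, up to forms of
lower weight, to `θ x` with `x` of weight `k - p - 1`; so its system of eigenvalues is a twist of
one in that weight.
-/

set_option autoImplicit false

noncomputable section

open Module

namespace FA.SwinnertonDyer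

/-- Commuting maps that send a vector outside `N` into `N` have a common kernel. -/
theorem exists_common_kernel {K M ι : Type*} [Field K] [AddCommGroup M] [Module K M]
    {V N : Submodule K M} [Module.Finite K V] (s : ι → M →ₗ[K] M)
    (hc : ∀ i j x, s i (s j x) = s j (s i x)) (hV : ∀ i, ∀ x ∈ V, s i x ∈ V)
    (hN : ∀ i, ∀ x ∈ N, x ∈ V → s i x ∈ N) {x : M} (hxV : x ∈ V) (hxN : x ∉ N)
    (hx : ∀ i, s i x ∈ N) : ∃ y ∈ V, y ≠ 0 ∧ ∀ i, s i y = 0 := by
  classical
  let S : ι → End K V := fun i => (s i).restrict fun y hy => hV i y hy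
  have hcS : ∀ i j y, S i (S j y) = S j (S i y) := fun i j y => Subtype.ext (hc i j y)
  let N' : Submodule K V := N.comap V.subtype
  -- a least invariant subspace containing such a vector
  let good : Set (Submodule K V) :=
    {U | (∀ i, ∀ y ∈ U, S i y ∈ U) ∧ ∃ y ∈ U, y ∉ N' ∧ ∀ i, S i y ∈ N'}
  obtain ⟨U, ⟨hU, y, hyU, hyN, hy⟩, hmin⟩ := wellFounded_lt.has_min good
    ⟨⊤, fun i y _ => trivial, ⟨x, hxV⟩, trivial, hxN, fun i => hx i⟩
  have hnil : ∀ i, ∀ z ∈ U, ∃ n, (S i ^ n) z = 0 := by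
    intro i z hz
    obtain ⟨n, hn⟩ := Filter.eventually_atTop.1
      ((S i).eventually_isCompl_ker_pow_range_pow)
    set T := S i ^ (n + 1) with hT
    have hcompl : IsCompl (LinearMap.ker T) (LinearMap.range T) := hn (n + 1) (by omega)
    have hcT : ∀ j w, S j (T w) = T (S j w) := fun j w => by
      rw [hT]
      clear_value T
      induction n + 1 with
      | zero => simp
      | succ m ih => rw [pow_succ', End.mul_apply, End.mul_apply, hcS, ih]
    have hTU : ∀ m, ∀ w ∈ U, (S i ^ m) w ∈ U := by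
      intro m
      induction m with
      | zero => simp
      | succ m ih => intro w hw; rw [pow_succ', End.mul_apply]; exact hU i _ (ih w hw)
    have hTN : ∀ m, ∀ w ∈ N', (S i ^ m) w ∈ N' := by
      intro m
      induction m with
      | zero => simp
      | succ m ih =>
        intro w hw
        rw [pow_succ', End.mul_apply]
        exact hN i _ (ih w hw) (Subtype.mem _)
    -- `T` is injective on the finite part `U ∩ N ∩ range`, hence onto it
    set R := U ⊓ N' ⊓ LinearMap.range T with hR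
    have hTR : ∀ w ∈ R, T w ∈ R := fun w hw =>
      ⟨⟨hTU _ w hw.1.1, hTN _ w hw.1.2⟩, LinearMap.mem_range_self _ w⟩
    have hinj : Function.Injective (T.restrict hTR) := (injective_iff_map_eq_zero _).2 fun w h => by
      have h1 : T w.1 = 0 := congrArg Subtype.val h
      exact Subtype.ext (Submodule.disjoint_def.1 hcompl.disjoint w.1 h1 w.2.2)
    have hsurj := LinearMap.injective_iff_surjective.1 hinj
    -- the component of `y` in the generalised kernel
    have hTy : T y ∈ R := by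
      refine ⟨⟨hTU _ y hyU, ?_⟩, LinearMap.mem_range_self _ y⟩
      rw [hT, pow_succ, End.mul_apply]
      exact hTN n _ (hy i)
    obtain ⟨r, hr⟩ := hsurj ⟨T y, hTy⟩
    have hr' : T r.1 = T y := congrArg Subtype.val hr
    have hgood : U ⊓ LinearMap.ker T ∈ good := by
      refine ⟨fun j w hw => ⟨hU j w hw.1, ?_⟩, y - r.1, ⟨sub_mem hyU r.2.1.1, ?_⟩,
        fun h => hyN (by simpa using add_mem h r.2.1.2), fun j => ?_⟩
      · show T (S j w) = 0
        rw [← hcT, (hw.2 : T w = 0), map_zero]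
      · show T (y - r.1) = 0
        rw [map_sub, hr', sub_self]
      · rw [map_sub]
        exact sub_mem (hy j) (hN j _ r.2.1.2 (Subtype.mem _))
    have heq : U ≤ LinearMap.ker T := by
      by_contra hle
      exact hmin _ hgood (lt_of_le_of_ne inf_le_left fun e => hle (e ▸ inf_le_right))
    exact ⟨n + 1, heq hz⟩
  -- a least invariant subspace of `U` is killed by all the maps
  obtain ⟨W, ⟨hW, hWU, hW0⟩, hWmin⟩ := wellFounded_lt.has_min
    {W : Submodule K V | (∀ i, ∀ z ∈ W, S i z ∈ W) ∧ W ≤ U ∧ W ≠ ⊥}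
    ⟨U, hU, le_rfl, fun e => hyN (by
      rw [e, Submodule.mem_bot] at hyU
      rw [hyU]
      exact zero_mem _)⟩
  obtain ⟨z, hz, hz0⟩ := W.ne_bot_iff.1 hW0
  refine ⟨z.1, z.2, fun e => hz0 (Subtype.ext e), fun i => ?_⟩
  by_contra hzi
  have hK : W ⊓ LinearMap.ker (S i) ∈
      {W : Submodule K V | (∀ i, ∀ z ∈ W, S i z ∈ W) ∧ W ≤ U ∧ W ≠ ⊥} := by
    refine ⟨fun j w hw => ⟨hW j w hw.1, ?_⟩, inf_le_left.trans hWU, ?_⟩
    · show S i (S j w) = 0
      rw [hcS, (hw.2 : S i w = 0), map_zero]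
    · obtain ⟨n, hn⟩ := hnil i z (hWU hz)
      have hex : ∃ m, (S i ^ m) z = 0 := ⟨n, hn⟩
      obtain ⟨m, hm⟩ : ∃ m, Nat.find hex = m + 1 := ⟨Nat.find hex - 1, by
        rcases Nat.eq_zero_or_pos (Nat.find hex) with h | h
        · have := Nat.find_spec hex
          rw [h] at this
          exact absurd this hz0
        · omega⟩
      have hmem : ∀ j, (S i ^ j) z ∈ W := fun j => by
        induction j with
        | zero => simpa using hz
        | succ j ih => rw [pow_succ', End.mul_apply]; exact hW i _ ih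
      refine W.ne_bot_iff.1 hW0 |>.elim fun _ _ => (Submodule.ne_bot_iff _).2
        ⟨(S i ^ m) z, ⟨hmem m, ?_⟩, Nat.find_min hex (by omega)⟩
      show S i ((S i ^ m) z) = 0
      rw [← End.mul_apply, ← pow_succ', ← hm]
      exact Nat.find_spec hex
  refine hWmin _ hK (lt_of_le_of_ne inf_le_left fun e => hzi ?_)
  exact congrArg Subtype.val (show S i z = 0 from inf_eq_left.1 e hz)

variable {p : ℕ} [Fact p.Prime]

variable (p) in
/-- The forms of weight `k` modulo `p`. -/
def formSpace (k : ℕ) : Submodule (ZMod p) (PowerSeries (ZMod p)) :=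
  (IsobSub p k).map (phi p).toLinearMap

theorem mem_formSpace (h5 : 5 ≤ p) {k : ℕ} {f : PowerSeries (ZMod p)} :
    f ∈ formSpace p k ↔ IsFormModP p k f := by
  constructor
  · rintro ⟨F, hF, rfl⟩
    exact isFormModP_phi hF
  · intro h
    obtain ⟨F, hF, rfl⟩ := h.exists_isob h5
    exact ⟨F, hF, rfl⟩

theorem finite_formSpace (k : ℕ) : Module.Finite (ZMod p) (formSpace p k) := by
  have := finite_isob (p := p) k
  have : Module.Finite (ZMod p) (IsobSub p k) := Module.Finite.of_finite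
  exact Module.Finite.map _ _

variable (p) in
/-- An eigenform of weight `k` with the eigenvalues `a l`, `l ≠ p`. -/
def IsEigen (k : ℕ) (a : ℕ → ZMod p) (f : PowerSeries (ZMod p)) : Prop :=
  f ≠ 0 ∧ IsFormModP p k f ∧ ∀ l, l.Prime → l ≠ p → tOp p k l f = a l • f

variable (p) in
/-- `θ` as a linear map. -/
def thetaLin : PowerSeries (ZMod p) →ₗ[ZMod p] PowerSeries (ZMod p) where
  toFun := thetaP p
  map_add' f g := by simp [thetaP, map_add, mul_add]
  map_smul' c f := by simp [thetaP]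

/-- **One step down.** -/
theorem exists_twist_step (h5 : 5 ≤ p) {k : ℕ} {a : ℕ → ZMod p} {g : PowerSeries (ZMod p)}
    (hg : IsEigen p k a g) (hU : uOp p g = 0) (hk1 : p + 1 < k) (hk2 : 2 * p < k + 10)
    (hmin : k ∈ lowerBounds {n | IsFormModP p n g}) :
    ∃ b y, IsEigen p (k - (p + 1)) b y ∧ ∀ l, l.Prime → l ≠ p → a l = l * b l := by
  obtain ⟨hg0, hgk, hge⟩ := hg
  set k' := k - (p + 1) with hk'
  have hz : ∀ m, PowerSeries.coeff (p * m) g = 0 := fun m => by
    have h := congrArg (PowerSeries.coeff m) hU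
    rwa [uOp, PowerSeries.coeff_mk, map_zero, mul_comm] at h
  obtain ⟨w, -, hw, -, -, -, -, -, hw1⟩ := theta_cycle h5 hg0 hgk hz
  have hw0 : w 0 = k := (hw 0).unique (show IsLeast {n | IsFormModP p n g} k from ⟨hgk, hmin⟩)
  have hk'0 : ((k' : ℕ) : ZMod p) ≠ 0 := fun e => hw1 0 (by
    rw [hw0, ← ZMod.natCast_eq_natCast_iff, show k = k' + p + 1 by omega, Nat.cast_add,
      Nat.cast_add, e, ZMod.natCast_self]
    simp)
  obtain ⟨F, hF, rfl⟩ := hgk.exists_isob h5
  obtain ⟨u, v, hu, hv, rfl⟩ := exists_eq_hasse_add h5 hF hk2 hk1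
  set low := formSpace p (k - (p - 1))
  set x : PowerSeries (ZMod p) := ((12 : ZMod p) * (k' : ZMod p)⁻¹) • phi p v with hx
  set G := phi p (FA.HasseEis.hassePoly p * u + dOp p (FA.HasseEis.hassePoly p) * v)
  have hG : G = phi p u + e2 p * phi p v := by
    simp only [G, map_add, map_mul, phi_hassePoly h5, phi_dOp_hassePoly h5, one_mul]
  have hlow : thetaLin p x - G ∈ low := by
    have h := phi_dOp v
    rw [wOp_isob hv, map_mul, map_natCast] at h
    have e : thetaLin p x - G = (k' : ZMod p)⁻¹ • phi p (dOp p v) - phi p u := by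
      rw [hx, map_smul, show thetaLin p (phi p v) = thetaP p (phi p v) from rfl, mul_comm,
        mul_smul, hG, show (12 : ZMod p) • thetaP p (phi p v) =
          phi p (dOp p v) + (k' : ZMod p) • (e2 p * phi p v) by
        rw [PowerSeries.smul_eq_C_mul, PowerSeries.smul_eq_C_mul, map_natCast,
          show PowerSeries.C (12 : ZMod p) = 12 from map_ofNat _ 12, ← h, hk']
        ring, smul_add, inv_smul_smul₀ hk'0]
      abel
    rw [e]
    refine sub_mem (Submodule.smul_mem _ _ ?_) ((mem_formSpace h5).2 (isFormModP_phi hu))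
    rw [mem_formSpace h5, show k - (p - 1) = k' + 2 by omega]
    exact isFormModP_phi (dOp_isob hv)
  have hGlow : G ∉ low := fun h => by
    have := hmin ((mem_formSpace h5).1 h)
    omega
  have hmodk : k - (p - 1) ≡ k [MOD p - 1] :=
    (Nat.modEq_iff_dvd' (by omega)).2 ⟨1, by omega⟩
  let s : {l : ℕ // l.Prime ∧ l ≠ p} → PowerSeries (ZMod p) →ₗ[ZMod p] PowerSeries (ZMod p) :=
    fun l => tOp p k' l.1 - (a l.1 * (l.1 : ZMod p)⁻¹) • LinearMap.id
  have hθs : ∀ (l : {l : ℕ // l.Prime ∧ l ≠ p}) z, thetaLin p (s l z) =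
      (l.1 : ZMod p)⁻¹ • (tOp p k l.1 (thetaLin p z) - a l.1 • thetaLin p z) := fun l z => by
    have h := tOp_thetaP (k := k') l.2.1 z
    rw [show k' + p + 1 = k by omega] at h
    rw [show thetaLin p z = thetaP p z from rfl, h, smul_sub,
      inv_smul_smul₀ (natCast_prime_ne l.2.1 l.2.2), smul_smul, mul_comm _ (a l.1)]
    simp only [s, LinearMap.sub_apply, LinearMap.smul_apply, LinearMap.id_apply, map_sub, map_smul]
    rfl
  have hlowT : ∀ (l : {l : ℕ // l.Prime ∧ l ≠ p}), ∀ z ∈ low,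
      tOp p k l.1 z - a l.1 • z ∈ low := fun l z hz => by
    refine sub_mem ?_ (Submodule.smul_mem _ _ hz)
    rw [mem_formSpace h5, ← tOp_congr l.2.1 l.2.2 hmodk]
    exact ((mem_formSpace h5).1 hz).tOp h5 l.2.1 l.2.2
  have := finite_formSpace (p := p) k'
  have hcomm : ∀ l m z, s l (s m z) = s m (s l z) := fun l m z => by
    simp only [s, LinearMap.sub_apply, LinearMap.smul_apply, LinearMap.id_apply, map_sub, map_smul,
      tOp_comm k' l.2.1 m.2.1 z, smul_sub, smul_smul, mul_comm (a l.1 * _)]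
    abel
  have hsV : ∀ l, ∀ z ∈ formSpace p k', s l z ∈ formSpace p k' := fun l z hz =>
    sub_mem ((mem_formSpace h5).2 (((mem_formSpace h5).1 hz).tOp h5 l.2.1 l.2.2))
      (Submodule.smul_mem _ _ hz)
  have hsN : ∀ l, ∀ z ∈ low.comap (thetaLin p), z ∈ formSpace p k' →
      s l z ∈ low.comap (thetaLin p) := fun l z hz _ => by
    rw [Submodule.mem_comap, hθs]
    exact Submodule.smul_mem _ _ (hlowT l _ hz)
  have hxN : x ∉ low.comap (thetaLin p) := fun h =>
    hGlow (by simpa using sub_mem (Submodule.mem_comap.1 h) hlow)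
  have hsx : ∀ l, s l x ∈ low.comap (thetaLin p) := fun l => by
    rw [Submodule.mem_comap, hθs]
    refine Submodule.smul_mem _ _ ?_
    have := hlowT l _ hlow
    rwa [map_sub, hge l.1 l.2.1 l.2.2, smul_sub, sub_sub_sub_cancel_right] at this
  obtain ⟨y, hy, hy0, hys⟩ := exists_common_kernel (V := formSpace p k') s hcomm hsV hsN
    (Submodule.smul_mem _ _ ((mem_formSpace h5).2 (isFormModP_phi hv))) hxN hsx
  refine ⟨fun l => a l * (l : ZMod p)⁻¹, y, ⟨hy0, (mem_formSpace h5).1 hy, fun l hl hlp =>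
    sub_eq_zero.1 (by simpa [s] using hys ⟨l, hl, hlp⟩)⟩, fun l hl hlp => ?_⟩
  rw [mul_comm, mul_assoc, inv_mul_cancel₀ (natCast_prime_ne hl hlp), mul_one]

/-- **Every system is a twist of one of small weight.** -/
theorem exists_twist (h5 : 5 ≤ p) : ∀ {k : ℕ} {a : ℕ → ZMod p} {f : PowerSeries (ZMod p)},
    IsEigen p k a f → ∃ i k' b f', k' ≤ max (p + 1) (2 * p - 10) ∧ IsEigen p k' b f' ∧
      ∀ l, l.Prime → l ≠ p → a l = (l : ZMod p) ^ i * b l := by
  intro k
  induction k using Nat.strong_induction_on with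
  | _ k ih =>
    intro a f hf
    by_cases hsmall : k ≤ max (p + 1) (2 * p - 10)
    · exact ⟨0, k, a, f, hsmall, hf, fun l _ _ => by simp⟩
    obtain ⟨hf0, hfk, hfe⟩ := hf
    have hit : ∀ j, IsFormModP p k ((uOp p)^[j] f) ∧
        ∀ l, l.Prime → l ≠ p → tOp p k l ((uOp p)^[j] f) = a l • (uOp p)^[j] f := fun j => by
      induction j with
      | zero => exact ⟨hfk, hfe⟩
      | succ j ih' =>
        rw [Function.iterate_succ_apply']
        refine ⟨isFormModP_uOp_of_two_le (by omega) ih'.1, fun l hl hlp => ?_⟩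
        rw [tOp_uOp k hl hlp, ih'.2 l hl hlp]
        ext m
        simp [uOp]
    have hdown : ∀ g n, g ≠ 0 → IsFormModP p k g →
        (∀ l, l.Prime → l ≠ p → tOp p k l g = a l • g) → IsFormModP p n g → IsEigen p n a g :=
      fun g n hg0 hgk hge hgn => ⟨hg0, hgn, fun l hl hlp => by
        rw [tOp_congr hl hlp (FA.Partition.modEq_of_isFormModP h5 hgn hgk hg0), hge l hl hlp]⟩
    by_cases hk : (uOp p)^[k] f = 0
    swap
    · obtain ⟨n, hn, hn'⟩ := exists_weight_uOp_iterate h5 hfk k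
      exact ⟨0, n, a, _, by omega, hdown _ n hk (hit k).1 (hit k).2 hn',
        fun l _ _ => by simp⟩
    classical
    have hex : ∃ j, (uOp p)^[j] f = 0 := ⟨k, hk⟩
    obtain ⟨j, hj⟩ : ∃ j, Nat.find hex = j + 1 := ⟨Nat.find hex - 1, by
      rcases Nat.eq_zero_or_pos (Nat.find hex) with h | h
      · have := Nat.find_spec hex
        rw [h] at this
        exact absurd this hf0
      · omega⟩
    have hg0 : (uOp p)^[j] f ≠ 0 := Nat.find_min hex (by omega)
    have hU : uOp p ((uOp p)^[j] f) = 0 := by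
      rw [← Function.iterate_succ_apply' (uOp p), show j.succ = Nat.find hex from hj.symm]
      exact Nat.find_spec hex
    by_cases hlow : ∃ n < k, IsFormModP p n ((uOp p)^[j] f)
    · obtain ⟨n, hn, hn'⟩ := hlow
      exact ih n hn (hdown _ n hg0 (hit j).1 (hit j).2 hn')
    · obtain ⟨b, y, hy, hab⟩ := exists_twist_step h5 ⟨hg0, hit j⟩ hU (by omega) (by omega)
        fun n hn => not_lt.1 fun h => hlow ⟨n, h, hn⟩
      obtain ⟨i, k', b', f', hk', hf', hbb⟩ := ih _ (by omega) hy
      exact ⟨i + 1, k', b', f', hk', hf', fun l hl hlp => by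
        rw [hab l hl hlp, hbb l hl hlp, pow_succ]; ring⟩

/-- **Finitely many systems of eigenvalues**, all weights together. -/
theorem finite_systems (h5 : 5 ≤ p) : {a : {l : ℕ // l.Prime ∧ l ≠ p} → ZMod p |
    ∃ k f, f ≠ 0 ∧ IsFormModP p k f ∧ ∀ l, tOp p k l.1 f = a l • f}.Finite := by
  classical
  refine ((Finset.range (max (p + 1) (2 * p - 10) + 1)).finite_toSet.biUnion fun k' _ =>
    (finite_forms h5 k').biUnion fun f' _ => (Finset.range (p - 1)).finite_toSet.biUnion
      fun i _ => Set.Subsingleton.finite (s := {a : {l : ℕ // l.Prime ∧ l ≠ p} → ZMod p |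
        ∃ b : ℕ → ZMod p, IsEigen p k' b f' ∧ ∀ l, a l = (l.1 : ZMod p) ^ i * b l.1}) ?_).subset ?_
  · rintro a ⟨b, hb, ha⟩ a' ⟨b', hb', ha'⟩
    funext l
    rw [ha, ha', smul_left_injective (ZMod p) hb.1
      ((hb.2.2 l.1 l.2.1 l.2.2).symm.trans (hb'.2.2 l.1 l.2.1 l.2.2))]
  rintro a ⟨k, f, hf0, hfk, hfe⟩
  obtain ⟨i, k', b, f', hk', hf', hab⟩ := exists_twist h5
    (a := fun l => if h : l.Prime ∧ l ≠ p then a ⟨l, h⟩ else 0)
    ⟨hf0, hfk, fun l hl hlp => by simp only [dif_pos (And.intro hl hlp)]; exact hfe ⟨l, hl, hlp⟩⟩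
  simp only [Set.mem_iUnion, Finset.mem_coe, Finset.mem_range, Set.mem_ofPred_eq]
  refine ⟨k', by omega, f', hf'.2.1, i % (p - 1), Nat.mod_lt _ (by omega), b, hf', fun l => ?_⟩
  have := hab l.1 l.2.1 l.2.2
  rw [dif_pos l.2] at this
  rw [this, pow_eq_pow_of_modEq (Nat.mod_modEq i (p - 1))
    (ZMod.pow_card_sub_one_eq_one (natCast_prime_ne l.2.1 l.2.2))]

end FA.SwinnertonDyer

end
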