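import Fermat.Agent.Tau.FiltrationModP
import Fermat.Agent.Partition.FiltrationArgument
import Fermat.Agent.Tau.ModSixNinetyOne
import Fermat.Agent.Root.SummaryIrregularPrimes
import Fermat.Agent.Root.SummaryEisensteinCongruence

/-!
# The primes at which `Δ` is congruent to an Eisenstein series

If `τ(n) ≡ nᵃ σ_c(n) (mod p)` for `n` prime to `p` then `θ Δ` is `θʲ` of an Eisenstein series of
weight at most `p + 1`; comparing filtrations leaves only `p = 2, 3, 5, 7, 691`.
-/

set_option autoImplicit false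

noncomputable section

namespace FA.SwinnertonDyer

open UpperHalfPlane FA.Tau FA.OrderTheta
open scoped MatrixGroups ArithmeticFunction.sigma

variable {p : ℕ} [Fact p.Prime]

/-- The Eisenstein series of weight `k` modulo `p`, coefficient of `q` one. -/
theorem exists_eisenstein (h5 : 5 ≤ p) {k : ℕ} (hev : Even k) (h4 : 4 ≤ k)
    (hdvd : ¬p - 1 ∣ k) : ∃ g, IsFormModP p k g ∧
      (∀ n, n ≠ 0 → PowerSeries.coeff n g = ((σ (k - 1) n : ℕ) : ZMod p)) ∧
      ((-(bernoulli k / k) / 2).den : ZMod p) * PowerSeries.coeff 0 g =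
        ((-(bernoulli k / k) / 2).num : ZMod p) := by
  set x : ℚ := -(bernoulli k / k) / 2 with hx
  have hB := FA.EisCong.bernoulli_even_ne_zero (by omega) hev
  have hk0 : (k : ℚ) ≠ 0 := by exact_mod_cast (by omega : k ≠ 0)
  have hD : (x.den : ZMod p) ≠ 0 := by
    have h := (pIntegral_bernoulli_div h5 (by omega) hev hdvd).mul
      ((PIntegral.intCast (-1)).mul (PIntegral.inv_natCast (p := p) (n := 2)
        fun h => absurd (Nat.le_of_dvd two_pos h) (by omega)))
    rw [show bernoulli k / (k : ℚ) * (((-1 : ℤ) : ℚ) * ((2 : ℕ) : ℚ)⁻¹) = x by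
      rw [hx]; push_cast; ring] at h
    rwa [Ne, ZMod.natCast_eq_zero_iff]
  set G : ModularForm 𝒮ℒ (k : ℤ) := (x.num : ℂ) • ModularForm.E (k := k) (show 3 ≤ k by omega)
  set T : PowerSeries ℤ :=
    PowerSeries.mk fun n => if n = 0 then x.num else (x.den : ℤ) * (σ (k - 1) n : ℤ)
  have hG : qExpansion 1 ⇑G = T.map (Int.castRingHom ℂ) := by
    rw [show ⇑G = (x.num : ℂ) • ⇑(ModularForm.E (k := k) (show 3 ≤ k by omega)) from rfl,
      ((FA.Tau.hasQ_form _).smul _).qExpansion_eq one_pos]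
    ext n
    rw [PowerSeries.coeff_smul, EisensteinSeries.E_qExpansion_coeff _ hev, PowerSeries.coeff_map,
      PowerSeries.coeff_mk, eq_intCast, smul_eq_mul]
    have hnum : (x.num : ℂ) = (x.den : ℂ) * (-((bernoulli k : ℂ) / k) / 2) := by
      have h1 : (x.num : ℚ) = x.den * x := by rw [mul_comm, Rat.mul_den_eq_num]
      have h2 := congrArg (Rat.cast : ℚ → ℂ) h1
      rw [hx] at h2
      push_cast at h2
      exact h2
    rcases n with _ | n
    · simp
    · rw [if_neg n.succ_ne_zero, if_neg n.succ_ne_zero, hnum]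
      push_cast
      have h1 : (bernoulli k : ℂ) ≠ 0 := Rat.cast_ne_zero.2 hB
      have h2 : (k : ℂ) ≠ 0 := Nat.cast_ne_zero.2 (by omega)
      field_simp
  obtain ⟨F, hF, hF'⟩ := IsFormModP.exists_isob h5 (⟨G, T, hG, rfl⟩ : IsFormModP p k _)
  refine ⟨phi p (MvPolynomial.C (x.den : ZMod p)⁻¹ * F), isFormModP_phi (hF.C_mul _), ?_⟩
  have hc : ∀ n, PowerSeries.coeff n (phi p (MvPolynomial.C (x.den : ZMod p)⁻¹ * F)) =
      (x.den : ZMod p)⁻¹ * ((PowerSeries.coeff n T : ℤ) : ZMod p) := fun n => by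
    rw [map_mul, hF', show phi p (MvPolynomial.C (x.den : ZMod p)⁻¹) =
      PowerSeries.C (x.den : ZMod p)⁻¹ by simp [phi], PowerSeries.coeff_C_mul,
      PowerSeries.coeff_map, eq_intCast]
  refine ⟨fun n hn => ?_, ?_⟩
  · rw [hc, PowerSeries.coeff_mk, if_neg hn]
    push_cast
    rw [inv_mul_cancel_left₀ hD]
  · rw [hc, PowerSeries.coeff_mk, if_pos rfl, mul_inv_cancel_left₀ hD]

theorem tau_two : PowerSeries.coeff 2 deltaInt = -24 := by
  rw [deltaInt, PowerSeries.coeff_succ_X_mul, FA.Partition.coeff_dedekindEtaUnit_one]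

theorem ne_zero_of_coeff_one {g : PowerSeries (ZMod p)} (h : PowerSeries.coeff 1 g = 1) :
    g ≠ 0 := fun e => by
  rw [e, map_zero] at h
  exact zero_ne_one h

/-- The filtration of the iterates of `θ` while no weight is divisible by `p`. -/
theorem isLeast_theta_iterate (h5 : 5 ≤ p) {k : ℕ} {g : PowerSeries (ZMod p)}
    (h1 : PowerSeries.coeff 1 g = 1) (hk : IsLeast {n | IsFormModP p n g} k) :
    ∀ j, (∀ i < j, ¬p ∣ k + i) →
      IsLeast {n | IsFormModP p n ((thetaP p)^[j] g)} (k + j * (p + 1)) := by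
  intro j
  induction j with
  | zero => intro _; simpa using hk
  | succ j ih =>
    intro h
    rw [Function.iterate_succ_apply',
      show k + (j + 1) * (p + 1) = k + j * (p + 1) + p + 1 by ring]
    refine (filtration_theta h5 (ne_zero_of_coeff_one ?_)
      (ih fun i hi => h i (by omega))).2 fun hd => h j (by omega) ?_
    · rw [FA.Partition.coeff_thetaP_iterate, h1, Nat.cast_one, one_pow, one_mul]
    · rw [show k + j * (p + 1) = k + j + p * j by ring] at hd
      exact (Nat.dvd_add_left (dvd_mul_right p j)).1 hd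

/-- `n τ(n) ≡ nʲ σ_(k-1)(n)` forces the weights to agree. -/
theorem weight_eq_of_congr (h5 : 5 ≤ p) {k j : ℕ} {g : PowerSeries (ZMod p)}
    (hcoef : ∀ n, n ≠ 0 → PowerSeries.coeff n g = ((σ (k - 1) n : ℕ) : ZMod p))
    (hk : IsLeast {n | IsFormModP p n g} k) (hj : 0 < j) (hdrop : ∀ i < j, ¬p ∣ k + i)
    (hc : ∀ n : ℕ, (n : ZMod p) ^ j * ((σ (k - 1) n : ℕ) : ZMod p) =
      (n : ZMod p) * ((PowerSeries.coeff n deltaInt : ℤ) : ZMod p)) :
    k + j * (p + 1) = p + 13 := by
  have hd1 : PowerSeries.coeff 1 (FA.Partition.deltaPow p 1) = 1 := FA.Partition.coeff_deltaPow 1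
  have hΔ : IsLeast {n | IsFormModP p n (FA.Partition.deltaPow p 1)} 12 :=
    ⟨FA.Partition.isFormModP_deltaPow h5 1, fun n hn => FA.Partition.weight_ge h5 hn
      (by rw [FA.Partition.deltaPow_eq]; exact dvd_mul_right _ _) (ne_zero_of_coeff_one hd1)⟩
  have h12 := isLeast_theta_iterate h5 hd1 hΔ 1 fun i hi hd => by
    obtain rfl : i = 0 := by omega
    rw [add_zero, show (12 : ℕ) = 2 * 2 * 3 by norm_num,
      (Fact.out : p.Prime).dvd_mul, (Fact.out : p.Prime).dvd_mul] at hd
    rcases hd with (h | h) | h <;> exact absurd (Nat.le_of_dvd (by norm_num) h) (by omega)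
  have hg := isLeast_theta_iterate h5 (by rw [hcoef 1 one_ne_zero]; simp) hk j hdrop
  have e : (thetaP p)^[j] g = (thetaP p)^[1] (FA.Partition.deltaPow p 1) := by
    ext n
    rw [FA.Partition.coeff_thetaP_iterate, FA.Partition.coeff_thetaP_iterate, pow_one,
      FA.Partition.deltaPow, pow_one, PowerSeries.coeff_map, eq_intCast, ← hc n]
    rcases eq_or_ne n 0 with rfl | hn
    · rw [Nat.cast_zero, zero_pow (by omega), zero_mul, zero_mul]
    · rw [hcoef n hn]
  rw [e] at hg
  have := hg.unique h12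
  omega

/-- The determinant of a reducible congruence. -/
theorem modEq_of_congr {a c : ℕ} (h : ∀ n : ℕ, ¬p ∣ n →
    ((PowerSeries.coeff n deltaInt : ℤ) : ZMod p) = (n : ZMod p) ^ a * ((σ c n : ℕ) : ZMod p)) :
    2 * a + c ≡ 11 [MOD p - 1] := by
  have hp : p.Prime := Fact.out
  have key : ∀ n : ℕ, ¬p ∣ n → (n : ZMod p) ^ (2 * a + c) = (n : ZMod p) ^ 11 := by
    intro n
    induction n using Nat.recOnMul with
    | zero => exact fun hn => absurd (dvd_zero p) hn
    | one => intro _; simp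
    | prime l hl =>
      intro hn
      have h1 := h l hn
      have h2 := h (l ^ 2) fun hd => hn (hp.dvd_of_dvd_pow hd)
      have hrec := congrArg (Int.cast : ℤ → ZMod p) (coeff_deltaInt_prime_pow hl 0)
      rw [zero_add, zero_add, pow_one, pow_zero, coeff_deltaInt_one] at hrec
      push_cast at hrec h2
      have s1 : ((σ c l : ℕ) : ZMod p) = 1 + (l : ZMod p) ^ c := by
        rw [ArithmeticFunction.sigma_apply, hl.divisors,
          Finset.sum_pair hl.ne_one.symm]
        push_cast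
        simp
      have s2 : ((σ c (l ^ 2) : ℕ) : ZMod p) = 1 + (l : ZMod p) ^ c + ((l : ZMod p) ^ c) ^ 2 := by
        rw [ArithmeticFunction.sigma_apply_prime_pow hl]
        push_cast
        simp [Finset.sum_range_succ, ← pow_mul]
        ring
      rw [hrec, h1, s1, s2] at h2
      rw [pow_add, pow_mul']
      linear_combination h2
    | mul x y hx hy =>
      intro hn
      rw [Nat.cast_mul, mul_pow, mul_pow, hx fun h => hn (h.mul_right y),
        hy fun h => hn (h.mul_left x)]
  obtain ⟨g, hg⟩ := IsCyclic.exists_generator (α := (ZMod p)ˣ)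
  have e := key (g : ZMod p).val fun hd => g.ne_zero (by
    rw [← ZMod.natCast_zmod_val (g : ZMod p), (ZMod.natCast_eq_zero_iff _ p).2 hd])
  rw [ZMod.natCast_zmod_val] at e
  have e' : g ^ (2 * a + c) = g ^ 11 := Units.ext (by simpa using e)
  rwa [pow_eq_pow_iff_modEq, orderOf_eq_card_of_forall_mem_zpowers hg, Nat.card_eq_fintype_card,
    ZMod.card_units] at e'

theorem sigma_congr {n : ℕ} (hn : ¬p ∣ n) {c c' : ℕ} (h : c ≡ c' [MOD p - 1]) :
    ((σ c n : ℕ) : ZMod p) = ((σ c' n : ℕ) : ZMod p) := by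
  simp only [ArithmeticFunction.sigma_apply, Nat.cast_sum, Nat.cast_pow]
  exact Finset.sum_congr rfl fun d hd => pow_eq_pow_of_modEq h (ZMod.pow_card_sub_one_eq_one
    fun e => hn (((ZMod.natCast_eq_zero_iff d p).1 e).trans (Nat.dvd_of_mem_divisors hd)))

theorem sigma_swap {n : ℕ} (hn : ¬p ∣ n) {c c' : ℕ} (h : c + c' = p - 1) :
    ((σ c n : ℕ) : ZMod p) = (n : ZMod p) ^ c * ((σ c' n : ℕ) : ZMod p) := by
  simp only [ArithmeticFunction.sigma_apply, Nat.cast_sum, Nat.cast_pow, Finset.mul_sum]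
  rw [← Nat.sum_div_divisors n fun d => ((d : ZMod p)) ^ c]
  refine Finset.sum_congr rfl fun d hd => ?_
  have hdn := Nat.dvd_of_mem_divisors hd
  have hd0 : (d : ZMod p) ≠ 0 := fun e => hn (((ZMod.natCast_eq_zero_iff d p).1 e).trans hdn)
  have e : (n : ZMod p) = ((n / d : ℕ) : ZMod p) * d := by
    rw [← Nat.cast_mul, Nat.div_mul_cancel hdn]
  rw [e, mul_pow, mul_assoc, ← pow_add, h, ZMod.pow_card_sub_one_eq_one hd0, mul_one]

/-- **The congruences of Eisenstein type for `τ`.** -/
theorem eq_of_congr (h5 : 5 ≤ p) {a c : ℕ} (h : ∀ n : ℕ, ¬p ∣ n →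
    ((PowerSeries.coeff n deltaInt : ℤ) : ZMod p) = (n : ZMod p) ^ a * ((σ c n : ℕ) : ZMod p)) :
    p = 5 ∨ p = 7 ∨ p = 691 := by
  by_contra! hne
  obtain ⟨hne5, hne7, hne691⟩ := hne
  have hp : p.Prime := Fact.out
  have hodd : p % 2 = 1 := Nat.odd_iff.1 (hp.odd_of_ne_two (by omega))
  have h11 : 11 ≤ p := by
    by_contra hlt
    have : p = 9 := by omega
    subst this
    exact absurd hp (by decide)
  have hdet := modEq_of_congr h
  set c₀ := c % (p - 1) with hc₀
  have hlt : c₀ < p - 1 := Nat.mod_lt _ (by omega)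
  have hc2 : c₀ % 2 = 1 := by
    have h2 : 2 ∣ p - 1 := by omega
    rw [hc₀, Nat.mod_mod_of_dvd c h2]
    have : 2 * a + c ≡ 11 [MOD 2] := hdet.of_dvd h2
    unfold Nat.ModEq at this
    omega
  -- `(e, j)`: `n τ(n) = nʲ σ_e(n)`, with the exponent at `1` or the pair without a drop
  obtain ⟨e, j, hj0, hjp, hcase, hej⟩ : ∃ e j, 0 < j ∧ j ≤ p - 1 ∧
      (e = 1 ∨ e % 2 = 1 ∧ 3 ≤ e ∧ e + 4 ≤ p ∧ e + 1 + j ≤ p) ∧
      ∀ n : ℕ, ¬p ∣ n → (n : ZMod p) ^ j * ((σ e n : ℕ) : ZMod p) =
        (n : ZMod p) * ((PowerSeries.coeff n deltaInt : ℤ) : ZMod p) := by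
    set a₀ := a % (p - 1) with ha₀
    have hal : a₀ < p - 1 := Nat.mod_lt _ (by omega)
    have ht : ∀ n : ℕ, ¬p ∣ n → ∀ i, i ≡ a + 1 [MOD p - 1] →
        (n : ZMod p) ^ i * ((σ c₀ n : ℕ) : ZMod p) =
          (n : ZMod p) * ((PowerSeries.coeff n deltaInt : ℤ) : ZMod p) := fun n hn i hi => by
      rw [h n hn, sigma_congr hn (Nat.mod_modEq c (p - 1)), pow_eq_pow_of_modEq hi
        (ZMod.pow_card_sub_one_eq_one fun e => hn ((ZMod.natCast_eq_zero_iff n p).1 e)), pow_succ]
      ring
    by_cases hfirst : c₀ = 1 ∨ (c₀ + 4 ≤ p ∧ c₀ + 1 + (a₀ + 1) ≤ p)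
    · refine ⟨c₀, a₀ + 1, by omega, by omega, ?_, fun n hn => ht n hn _
        ((Nat.mod_modEq a (p - 1)).add_right 1)⟩
      omega
    · set j := (a₀ + c₀) % (p - 1) + 1 with hj
      have hjlt : (a₀ + c₀) % (p - 1) < p - 1 := Nat.mod_lt _ (by omega)
      refine ⟨p - 1 - c₀, j, by omega, by omega, ?_, fun n hn => ?_⟩
      · by_cases hlast : c₀ + 2 = p
        · omega
        have : a₀ + c₀ ≥ p - 1 := by omega
        rw [Nat.mod_eq_sub_mod this, Nat.mod_eq_of_lt (by omega)] at hj
        omega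
      · have hn0 : (n : ZMod p) ≠ 0 := fun e => hn ((ZMod.natCast_eq_zero_iff n p).1 e)
        rw [← ht n hn _ ((Nat.mod_modEq a (p - 1)).add_right 1),
          sigma_swap hn (show c₀ + (p - 1 - c₀) = p - 1 by omega), ← mul_assoc, ← pow_add]
        congr 1
        refine pow_eq_pow_of_modEq ?_ (ZMod.pow_card_sub_one_eq_one hn0)
        rw [hj, show a % (p - 1) + 1 + c₀ = a₀ + c₀ + 1 by omega]
        exact (Nat.mod_modEq _ _).add_right 1
  have hall : ∀ e' : ℕ, e' ≡ e [MOD p - 1] → ∀ n : ℕ,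
      (n : ZMod p) ^ j * ((σ e' n : ℕ) : ZMod p) =
        (n : ZMod p) * ((PowerSeries.coeff n deltaInt : ℤ) : ZMod p) := fun e' he n => by
    by_cases hn : p ∣ n
    · rw [(ZMod.natCast_eq_zero_iff n p).2 hn, zero_pow (by omega), zero_mul, zero_mul]
    · rw [sigma_congr hn he]; exact hej n hn
  rcases hcase with rfl | ⟨he2, he3, he4, hej'⟩
  · -- weight two: `E₂` has filtration `p + 1`
    set g := PowerSeries.C (-(24 : ZMod p)⁻¹) * e2 p with hgdef
    have h24 : (24 : ZMod p) ≠ 0 := by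
      rw [show (24 : ZMod p) = 2 * 12 by norm_num]
      exact mul_ne_zero (ne_two_three h5).1 (twelve_ne h5)
    have hcoef : ∀ n, n ≠ 0 → PowerSeries.coeff n g = ((σ (p + 1 - 1) n : ℕ) : ZMod p) := by
      intro n hn
      rw [hgdef, PowerSeries.coeff_C_mul, e2, PowerSeries.coeff_map, eTwoInt, PowerSeries.coeff_mk,
        if_neg hn, eq_intCast, Nat.add_sub_cancel]
      push_cast
      rw [ArithmeticFunction.sigma_apply, ArithmeticFunction.sigma_apply]
      push_cast
      simp only [ZMod.pow_card, pow_one]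
      field_simp
    have hform : IsFormModP p (p + 1) g := by
      have e : phi p (MvPolynomial.C (-(24 : ZMod p)⁻¹) * dOp p (FA.HasseEis.hassePoly p)) = g := by
        rw [map_mul, phi_dOp_hassePoly h5]
        simp [phi, hgdef]
      rw [← e]
      have := (dOp_isob (isob_hassePoly (p := p) h5)).C_mul (-(24 : ZMod p)⁻¹)
      rw [show p - 1 + 2 = p + 1 by omega] at this
      exact isFormModP_phi this
    have hg1 : PowerSeries.coeff 1 g = 1 := by rw [hcoef 1 one_ne_zero]; simp
    have hleast : IsLeast {n | IsFormModP p n g} (p + 1) := by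
      refine ⟨hform, fun n hn => ?_⟩
      by_contra hlt
      obtain ⟨q, hq⟩ := (Nat.modEq_iff_dvd' (by omega : n ≤ p + 1)).1
        (FA.Partition.modEq_of_isFormModP h5 hn hform (ne_zero_of_coeff_one hg1))
      obtain rfl : n = 2 := by
        rcases q with _ | _ | q
        · rw [mul_zero] at hq; omega
        · simp at hq; omega
        · have : (p - 1) * 2 ≤ (p - 1) * (q + 1 + 1) := Nat.mul_le_mul_left _ (by omega)
          omega
      obtain ⟨F, hF, hF'⟩ := IsFormModP.exists_isob h5 hn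
      have hF0 : F = 0 := by
        ext d
        rw [MvPolynomial.coeff_zero]
        exact hF.coeff_eq_zero d (by rw [weight_eq]; omega)
      rw [hF0, map_zero] at hF'
      exact ne_zero_of_coeff_one hg1 hF'.symm
    have hw := weight_eq_of_congr h5 hcoef hleast hj0 (fun i hi hd => by
      rw [show p + 1 + i = 1 + i + p by ring] at hd
      exact absurd (Nat.le_of_dvd (by omega) ((Nat.dvd_add_left dvd_rfl).1 hd)) (by omega))
      (hall _ (by
        rw [Nat.add_sub_cancel]
        exact ((Nat.modEq_iff_dvd' (by omega : 1 ≤ p)).2 dvd_rfl).symm))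
    have hj1 : j = 1 := by
      rcases Nat.lt_or_ge j 2 with hj | hj
      · omega
      · have : 2 * (p + 1) ≤ j * (p + 1) := Nat.mul_le_mul_right _ hj
        omega
    subst hj1
    obtain rfl : p = 11 := by omega
    have := hej 2 (by norm_num)
    rw [tau_two, ArithmeticFunction.sigma_apply, Nat.prime_two.divisors,
      Finset.sum_pair (by norm_num)] at this
    push_cast at this
    have h54 : ((54 : ℕ) : ZMod 11) = 0 := by
      push_cast
      linear_combination this
    exact absurd ((ZMod.natCast_eq_zero_iff 54 11).1 h54) (by norm_num)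
  -- weight `e + 1` between `4` and `p - 3`
  have hev : Even (e + 1) := Nat.even_iff.2 (by omega)
  obtain ⟨g, hg, hcoef, hg0⟩ := exists_eisenstein (p := p) h5 hev (by omega)
    fun hd => absurd (Nat.le_of_dvd (by omega) hd) (by omega)
  have hg1 : PowerSeries.coeff 1 g = 1 := by rw [hcoef 1 one_ne_zero]; simp
  have hleast : ∀ {k : ℕ} {f : PowerSeries (ZMod p)}, k < p - 1 → f ≠ 0 → IsFormModP p k f →
      IsLeast {n | IsFormModP p n f} k := fun {k f} hk hf hform => ⟨hform, fun n hn => by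
    by_contra hlt
    have h' := FA.Partition.modEq_of_isFormModP h5 hn hform hf
    rw [Nat.ModEq, Nat.mod_eq_of_lt (by omega), Nat.mod_eq_of_lt hk] at h'
    omega⟩
  have hw := weight_eq_of_congr h5 hcoef (hleast (by omega) (ne_zero_of_coeff_one hg1) hg) hj0
    (fun i hi hd => absurd (Nat.le_of_dvd (by omega) hd) (by omega))
    (hall _ (by rw [Nat.add_sub_cancel]))
  have hj1 : j = 1 := by
    rcases Nat.lt_or_ge j 2 with hj | hj
    · omega
    · have : 2 * (p + 1) ≤ j * (p + 1) := Nat.mul_le_mul_right _ hj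
      omega
  subst hj1
  obtain rfl : e = 11 := by omega
  -- `θ E₁₂ = θ Δ`, so `E₁₂ = Δ` and the constant term vanishes
  have hD : g - FA.Partition.deltaPow p 1 = 0 := by
    by_contra hD0
    have hform : IsFormModP p 12 (g - FA.Partition.deltaPow p 1) := by
      obtain ⟨F, hF, hF'⟩ := hg.exists_isob h5
      obtain ⟨G, hG, hG'⟩ := (FA.Partition.isFormModP_deltaPow (p := p) h5 1).exists_isob h5
      rw [← hF', ← hG', ← map_sub]
      exact isFormModP_phi (hF.sub hG)
    have hth := (filtration_theta h5 hD0 (hleast (by omega) hD0 hform)).2 fun hd => by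
      have := Nat.le_of_dvd (by norm_num) hd
      omega
    have hz : thetaP p (g - FA.Partition.deltaPow p 1) = 0 := by
      ext n
      rw [FA.Partition.coeff_thetaP, map_sub, map_zero, FA.Partition.deltaPow, pow_one,
        PowerSeries.coeff_map, eq_intCast, mul_sub, ← hall 11 rfl n, pow_one]
      rcases eq_or_ne n 0 with rfl | hn
      · simp
      · rw [hcoef n hn]; simp
    rw [hz] at hth
    have := hth.2 (show 0 ∈ {n | IsFormModP p n (0 : PowerSeries (ZMod p))} by
      rw [← map_zero (phi p)]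
      exact isFormModP_phi (MvPolynomial.isWeightedHomogeneous_zero _ _ _))
    omega
  rw [sub_eq_zero.1 hD, FA.Partition.deltaPow, pow_one, PowerSeries.coeff_map,
    coeff_deltaInt_zero, map_zero, mul_zero] at hg0
  rw [show (-(bernoulli (11 + 1) / ((11 + 1 : ℕ) : ℚ)) / 2).num = 691 by
    rw [show bernoulli (11 + 1) = -691 / 2730 by decide +kernel]; norm_num] at hg0
  have h691 : ((691 : ℕ) : ZMod p) = 0 := by exact_mod_cast hg0.symm
  exact hne691 ((Nat.prime_dvd_prime_iff_eq hp (by norm_num)).1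
    ((ZMod.natCast_eq_zero_iff _ p).1 h691))

end FA.SwinnertonDyer

end
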