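import Fermat.Agent.Tau.ModEleven
import Fermat.Agent.Root.SummarySurjectiveIrreducible
import Fermat.Agent.Root.LFunctionForm
import Fermat.Agent.Ribet.SerreMore

/-!
# The representation modulo 11 attached to `Δ`

Irreducible `p`-torsion of a semistable equation gives a representation onto `GL₂(𝔽_p)`; that
attached to `Δ` modulo `11` is the representation on the `11`-torsion of `y² + y = x³ - x²`, whose image is everything.
-/

set_option autoImplicit false
set_option linter.style.haveILetI false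

noncomputable section

open WeierstrassCurve Matrix FA.Frob FA.RT
open IsLocalRing (ResidueField)
open scoped WeierstrassCurve.Affine

local notation "Qb" => AlgebraicClosure ℚ
local notation "GQ" => AlgebraicClosure ℚ ≃ₐ[ℚ] AlgebraicClosure ℚ

namespace FA.Tau

/-- The representation on irreducible `p`-torsion of a semistable equation. -/
theorem exists_rep {W : WeierstrassCurve ℤ} (hΔ : W.Δ ≠ 0) (hs : W.IsSemistableModel) (p : ℕ)
    [Fact p.Prime] (hirr : W.ModRepIsIrreducible p) :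
    ∃ ρ : GQ →* GL (Fin 2) (ZMod p), IsOpen (ρ.ker : Set GQ) ∧ Function.Surjective ρ ∧
      ∀ l : ℕ, l.Prime → l ≠ p → ¬ (l : ℤ) ∣ W.Δ →
        ∀ A : ValuationSubring Qb, (l : Qb) ∈ A.nonunits →
          (∀ σ ∈ A.inertiaSubgroup ℚ, ρ σ = 1) ∧
          ∀ σ : A.decompositionSubgroup ℚ, (∀ x : ResidueField A, σ • x = x ^ l) →
            (ρ σ).val.trace = (W.apOfModel l : ZMod p) ∧ (ρ σ).val.det = (l : ZMod p) := by
  haveI := FA.Frob.ratCurve_isElliptic_of_Δ hΔ
  set r := curveRep p W with hr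
  refine ⟨r.toHomUnits, ?_, fun M => ?_, fun l hl hlp hgood A hA =>
    ⟨fun σ hσ => ?_, fun σ hσ => ?_⟩⟩
  · have e : (r.toHomUnits.ker : Set GQ) = (r.ker : Set GQ) := Set.ext fun σ => by
      simp [MonoidHom.mem_ker]
    rw [e]
    exact isOpen_ker_curveRep _
  · obtain ⟨σ, hσ⟩ := FA.Root.Irred.exists_curveRep_eq_of_irreducible hΔ hs hirr (M := M.val)
      ((Matrix.isUnit_iff_isUnit_det _).mp M.isUnit).ne_zero
    exact ⟨σ, Units.ext hσ⟩
  · exact Units.ext (curveRep_unramified (p := p) W hl hlp hgood hA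
      (Subgroup.mem_map.mpr ⟨σ, hσ, rfl⟩))
  · exact FA.Ribet.curveRep_frobenius (p := p) hl hlp hgood hA ⟨σ.2, hσ⟩

theorem curve11_good {l : ℕ} (hl : l.Prime) (h11 : l ≠ 11) :
    ¬ (l : ℤ) ∣ FA.Ribet.curve11.Δ := fun hd => h11 <| by
  rw [FA.Ribet.curve11_Δ, dvd_neg] at hd
  exact (Nat.prime_dvd_prime_iff_eq hl (by norm_num)).mp (Int.natCast_dvd_natCast.mp hd)

theorem semistable_curve11 : FA.Ribet.curve11.IsSemistableModel :=
  FA.Ribet.semistable_of_Δ (q := 11) (i := 0) (j := 1) (by norm_num) (by decide) (Or.inl rfl)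
    (by decide)

/-- The trace of Frobenius of `11a3` is its `L`-function coefficient. -/
theorem apOfModel_curve11 {l : ℕ} (hl : l.Prime) (h11 : l ≠ 11) :
    FA.Ribet.curve11.apOfModel l = (⟨0, -1, 1, 0, 0⟩ : WeierstrassCurve ℚ).LFunction l :=
  (FA.Root.LFunction_apply_prime _ FA.Ribet.curve11
    ⟨1, by rw [one_smul]; ext <;> simp [FA.Ribet.curve11]⟩ hl (curve11_good hl h11)).symm

/-- The representation on the `11`-torsion, from a congruence of the traces with integers. -/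
theorem exists_rep_eleven (τ : ℕ → ℤ)
    (hτ : ∀ n, (11 : ℤ) ∣ τ n - (⟨0, -1, 1, 0, 0⟩ : WeierstrassCurve ℚ).LFunction n) :
    ∃ ρ : GQ →* GL (Fin 2) (ZMod 11), IsOpen (ρ.ker : Set GQ) ∧ Function.Surjective ρ ∧
      ∀ l : ℕ, l.Prime → l ≠ 11 → ∀ A : ValuationSubring Qb, (l : Qb) ∈ A.nonunits →
        (∀ σ ∈ A.inertiaSubgroup ℚ, ρ σ = 1) ∧
        ∀ σ : A.decompositionSubgroup ℚ, (∀ x : ResidueField A, σ • x = x ^ l) →
          (ρ σ).val.trace = (τ l : ZMod 11) ∧ (ρ σ).val.det = (l : ZMod 11) ^ 11 := by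
  haveI : Fact (Nat.Prime 11) := ⟨by norm_num⟩
  have hΔ : FA.Ribet.curve11.Δ ≠ 0 := by decide
  haveI := FA.Frob.ratCurve_isElliptic_of_Δ hΔ
  obtain ⟨ρ, hopen, hsurj, h⟩ := exists_rep hΔ semistable_curve11 11
    (FA.Ribet.modRepIsIrreducible_of_semistable hΔ semistable_curve11 (by norm_num) le_rfl
      (by norm_num))
  refine ⟨ρ, hopen, hsurj, fun l hl h11 A hA =>
    ⟨(h l hl h11 (curve11_good hl h11) A hA).1, fun σ hσ => ?_⟩⟩
  obtain ⟨ht, hd⟩ := (h l hl h11 (curve11_good hl h11) A hA).2 σ hσ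
  refine ⟨ht.trans ?_, hd.trans (ZMod.pow_card _).symm⟩
  rw [apOfModel_curve11 hl h11, ZMod.intCast_eq_intCast_iff_dvd_sub]
  exact_mod_cast hτ l

end FA.Tau

end
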