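import Fermat.Agent.Root.SummarySiegel
import Fermat.Agent.Root.SummaryGenus

/-!
# Few genera, many classes

`2 ^ ω(n) ≤ C(ε) n ^ ε`, so by Siegel's bound the number `h(n) / 2 ^ (μ - 1)` of classes in a genus
tends to infinity.
-/

set_option autoImplicit false

noncomputable section

open Filter Topology
open FA.OrderTheta (Cl genusMu)

namespace FA.IdonealFinite

/-- `2 ^ ω(n) ≤ C n ^ ε`. -/
theorem two_pow_card_primeFactors_le (ε : ℝ) (hε : 0 < ε) :
    ∃ C : ℝ, 1 ≤ C ∧ ∀ n : ℕ, n ≠ 0 → (2 : ℝ) ^ n.primeFactors.card ≤ C * (n : ℝ) ^ ε := by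
  set t := ⌈(2 : ℝ) ^ (1 / ε)⌉₊
  refine ⟨2 ^ t, one_le_pow₀ one_le_two, fun n hn => ?_⟩
  have hp : ∀ p ∈ n.primeFactors, (2 : ℝ) ≤ (if p < t then 2 else 1) * (p : ℝ) ^ ε := by
    intro p hp
    have h2 : (1 : ℝ) ≤ p := by exact_mod_cast (Nat.prime_of_mem_primeFactors hp).one_lt.le
    split_ifs with h
    · linarith [Real.one_le_rpow h2 hε.le]
    · rw [one_mul]
      have h3 : (2 : ℝ) ^ (1 / ε) ≤ p := (Nat.le_ceil _).trans (Nat.cast_le.2 (not_lt.1 h))
      refine le_of_eq_of_le ?_ (Real.rpow_le_rpow (by positivity) h3 hε.le)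
      rw [← Real.rpow_mul (by norm_num), one_div_mul_cancel hε.ne', Real.rpow_one]
  calc (2 : ℝ) ^ n.primeFactors.card = ∏ _p ∈ n.primeFactors, (2 : ℝ) := by
        rw [Finset.prod_const]
    _ ≤ ∏ p ∈ n.primeFactors, ((if p < t then 2 else 1) * (p : ℝ) ^ ε) :=
        Finset.prod_le_prod (fun _ _ => by norm_num) hp
    _ ≤ 2 ^ t * (n : ℝ) ^ ε := by
        rw [Finset.prod_mul_distrib, Real.finsetProd_rpow _ _ (fun p _ => Nat.cast_nonneg p),
          ← Nat.cast_prod]
        refine mul_le_mul ?_ (Real.rpow_le_rpow (Nat.cast_nonneg _) (Nat.cast_le.2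
          (Nat.le_of_dvd (Nat.pos_of_ne_zero hn) (Nat.prod_primeFactors_dvd n))) hε.le)
          (by positivity) (by positivity)
        rw [← Finset.prod_filter, Finset.prod_const]
        refine pow_le_pow_right₀ one_le_two ?_
        exact (Finset.card_le_card fun p hp => Finset.mem_range.2 (Finset.mem_filter.1 hp).2).trans
          (Finset.card_range t).le

theorem genusMu_le (n : ℕ) : genusMu n - 1 ≤ n.primeFactors.card + 1 := by
  have := Finset.card_erase_le (s := n.primeFactors) (a := 2)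
  unfold genusMu
  split_ifs <;> omega

/-- The number of genera is at most `C n ^ ε`. -/
theorem genera_le (ε : ℝ) (hε : 0 < ε) :
    ∃ C : ℝ, 0 < C ∧ ∀ n : ℕ, n ≠ 0 → (2 : ℝ) ^ (genusMu n - 1) ≤ C * (n : ℝ) ^ ε := by
  obtain ⟨C, hC, h⟩ := two_pow_card_primeFactors_le ε hε
  refine ⟨2 * C, by linarith, fun n hn => ?_⟩
  refine (pow_le_pow_right₀ one_le_two (genusMu_le n)).trans ?_
  rw [pow_succ', mul_assoc]
  exact mul_le_mul_of_nonneg_left (h n hn) zero_le_two

/-- **The number of classes in a genus tends to infinity** (ineffective). -/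
theorem tendsto_classes_per_genus :
    Tendsto (fun n : ℕ => (Nat.card (Cl (n + 1)) : ℝ) / 2 ^ (genusMu (n + 1) - 1)) atTop atTop := by
  obtain ⟨C, hC, hlo⟩ := FA.Siegel.classNumber_lower_bound (1 / 8) (by norm_num)
  obtain ⟨C', hC', hup⟩ := genera_le (1 / 8) (by norm_num)
  refine tendsto_atTop_mono (f := fun n : ℕ => C / C' * ((n + 1 : ℕ) : ℝ) ^ (1 / 4 : ℝ))
    (fun n => ?_) (Tendsto.const_mul_atTop (div_pos hC hC')
      (((tendsto_rpow_atTop (by norm_num)).comp tendsto_natCast_atTop_atTop).comp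
        (tendsto_add_atTop_nat 1)))
  have hn : (0 : ℝ) < (n + 1 : ℕ) := Nat.cast_pos.2 n.succ_pos
  rw [le_div_iff₀ (by positivity)]
  refine le_trans ?_ (hlo (n + 1))
  refine (mul_le_mul_of_nonneg_left (hup _ n.succ_ne_zero) (by positivity)).trans (le_of_eq ?_)
  rw [show (1 / 2 - 1 / 8 : ℝ) = 1 / 4 + 1 / 8 by norm_num, Real.rpow_add hn]
  field_simp

/-- **Chowla**: only finitely many determinants have one class in each genus (ineffective). -/
theorem finite_one_class_per_genus : {n : ℕ | ∀ c : Cl (n + 1), c * c = 1}.Finite := by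
  obtain ⟨N, hN⟩ := eventually_atTop.1 (tendsto_classes_per_genus.eventually_gt_atTop 1)
  refine (Set.finite_le_nat N).subset fun n (hn : ∀ c : Cl (n + 1), c * c = 1) =>
    show n ≤ N from not_lt.1 fun hlt => ?_
  have h := hN n hlt.le
  rw [(FA.Summary.idoneal_iff_classNumber (n := n + 1) (by omega)).1 hn, Nat.cast_pow,
    Nat.cast_ofNat, div_self (by positivity)] at h
  exact lt_irrefl _ h

end FA.IdonealFinite

end
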