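import Fermat.Agent.Tau.RingClassJ
import Fermat.Agent.ThetaOne.OrderField
import Mathlib.FieldTheory.Finite.Extension
import Mathlib.Analysis.SpecialFunctions.Complex.CircleAddChar

/-!
# The Galois action on singular moduli of discriminant `-4n`

The automorphisms of the ring class field fixing `√-n` form a group isomorphic to the class group
of `ℤ[√-n]`, simply transitive on the singular moduli; modulo `p`, an ideal `P` of norm `p` makes
every irreducible factor of the class polynomial have degree the order of the class of `P`.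
-/

set_option autoImplicit false
set_option linter.style.haveILetI false

noncomputable section

namespace FA.GaloisModuli

open UpperHalfPlane hiding I
open FA.ModField FA.RingClassJ FA.OrderTheta NumberField Polynomial FA.Density Module
open FA.ThetaOne (DihedralFamily)
open FA.Singular hiding IsRoot

local notation "Qb" => AlgebraicClosure ℚ
local notation "GQ" => AlgebraicClosure ℚ ≃ₐ[ℚ] AlgebraicClosure ℚ

section Group

variable {G C : Type*} [Group G] [Finite G] [CommGroup C] [Finite C] (W : DihedralFamily G C)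

/-- The class of a power. -/
theorem cl_pow (g : W.H) (m : ℕ) :
    W.cl (g ^ m) = W.cl g ^ m ∨ W.cl (g ^ m) = (W.cl g ^ m)⁻¹ := by
  have h := W.cl_unique (g := g ^ m) (c := W.cl g ^ m) fun ψ => by
    obtain ⟨θ, hθ⟩ := W.exists_lift ψ.1
    rw [W.trace_cl, ← W.pm_eq hθ, map_pow, map_pow]
    rcases hθ g with e | e <;> rw [e]
    rw [inv_pow, inv_inv, add_comm]
  rcases h with e | e
  · exact Or.inl e.symm
  · exact Or.inr (by rw [e, inv_inv])

/-- A quotient of the classes is a quotient of `H`. -/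
theorem exists_hom {D : Type*} [CommGroup D] [Finite D] (π : C →* D)
    (hπ : Function.Surjective π) :
    ∃ Φ : W.H →* D, Function.Surjective Φ ∧ ∀ g, Φ g = 1 ↔ π (W.cl g) = 1 := by
  classical
  obtain ⟨ι, hι, n, hn, ⟨e⟩⟩ := CommGroup.equiv_prod_multiplicative_zmod_of_finite D
  haveI : ∀ i, NeZero (n i) := fun i => ⟨(zero_lt_one.trans (hn i)).ne'⟩
  let ε : ∀ i, Multiplicative (ZMod (n i)) →* ℂˣ := fun i =>
    Circle.toUnits.comp (ZMod.toCircle (N := n i)).toMonoidHom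
  have hε : ∀ i, Function.Injective (ε i) := fun i a b h => by
    refine Multiplicative.toAdd.injective (ZMod.injective_toCircle ?_)
    have h' := congrArg (fun u : ℂˣ => (u : ℂ)) h
    exact Subtype.ext h'
  let pr : ∀ i, C →* Multiplicative (ZMod (n i)) := fun i =>
    (Pi.evalMonoidHom _ i).comp (e.toMonoidHom.comp π)
  choose θ hθ using fun i => W.exists_lift ((ε i).comp (pr i))
  have hmem : ∀ i g, θ i g ∈ (ε i).range := fun i g => by
    rcases hθ i g with h | h <;> rw [h]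
    · exact ⟨_, rfl⟩
    · exact inv_mem ⟨_, rfl⟩
  let φ : ∀ i, W.H →* Multiplicative (ZMod (n i)) := fun i =>
    (MonoidHom.ofInjective (hε i)).symm.toMonoidHom.comp ((θ i).codRestrict _ (hmem i))
  have hφ : ∀ i g, ε i (φ i g) = θ i g := fun i g => by
    exact congrArg Subtype.val
      ((MonoidHom.ofInjective (hε i)).apply_symm_apply ⟨θ i g, hmem i g⟩)
  let Φ : W.H →* D := e.symm.toMonoidHom.comp (MonoidHom.pi φ)
  have hker : ∀ g, Φ g = 1 ↔ π (W.cl g) = 1 := fun g => by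
    rw [show Φ g = e.symm (fun i => φ i g) from rfl,
      map_eq_one_iff e.symm e.symm.injective, ← map_eq_one_iff e e.injective, funext_iff,
      funext_iff]
    refine forall_congr' fun i => ?_
    simp only [Pi.one_apply]
    rw [← map_eq_one_iff _ (hε i), hφ, ← map_eq_one_iff _ (hε i) (x := e (π (W.cl g)) i)]
    rcases hθ i g with h | h <;> rw [h]
    · exact Iff.rfl
    · exact inv_eq_one
  refine ⟨Φ, ?_, hker⟩
  have hk : Nat.card Φ.ker = Nat.card π.ker := by
    have := FA.OrderTheta.card_cl_mem W (T := (π.ker : Set C)) fun c hc => inv_mem hc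
    rw [show Nat.card (π.ker : Set C) = Nat.card π.ker from rfl] at this
    rw [← this]
    exact Nat.card_congr (Equiv.subtypeEquivRight fun g => hker g)
  have h1 := Φ.ker.card_mul_index
  have h2 := π.ker.card_mul_index
  rw [Subgroup.index_ker, W.card_eq, hk] at h1
  rw [Subgroup.index_ker, π.range_eq_top.mpr hπ, Subgroup.card_top] at h2
  exact MonoidHom.range_eq_top.mp (Subgroup.eq_top_of_card_eq _
    (mul_left_cancel₀ Nat.card_pos.ne' (h1.trans h2.symm)))

end Group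

variable {n : ℕ} [NeZero n]

/-- An element restricts to one fixing `√-n` iff it lies in `H`. -/
theorem fixes_iff {L : IntermediateField ℚ Qb} [Normal ℚ L]
    (R : ClassData (81 * n)) (res : (R.L ≃ₐ[ℚ] R.L) →* (L ≃ₐ[ℚ] L))
    (hres : ∀ σ : GQ, res (AlgEquiv.restrictNormalHom R.L σ) = AlgEquiv.restrictNormalHom L σ)
    {d : L} (hd : d ^ 2 = -(n : L)) (g : R.L ≃ₐ[ℚ] R.L) : res g d = d ↔ g ∈ R.W.H := by
  have hRn : Normal ℚ R.L := IsGalois.to_normal
  obtain ⟨σ, rfl⟩ := AlgEquiv.restrictNormalHom_surjective (E := Qb) (F := ℚ) (K₁ := R.L) g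
  rw [hres, R.mem_H, ← Subtype.coe_inj, ← Subtype.coe_inj]
  rw [show ((AlgEquiv.restrictNormalHom L σ d : L) : Qb) = σ d from
    AlgEquiv.restrictNormal_commutes σ L d,
    show ((AlgEquiv.restrictNormalHom R.L σ R.δL : R.L) : Qb) = σ R.δL from
    AlgEquiv.restrictNormal_commutes σ R.L R.δL]
  have hδ : (R.δL : Qb) ^ 2 = (9 * (d : Qb)) ^ 2 := by
    have h1 := congrArg (algebraMap R.L Qb) R.sq
    have h2 := congrArg (algebraMap L Qb) hd
    rw [map_pow, map_neg, map_natCast, Nat.cast_mul] at h1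
    rw [map_pow, map_neg, map_natCast] at h2
    change (R.δL : Qb) ^ 2 = _ at h1
    change (d : Qb) ^ 2 = _ at h2
    rw [h1, mul_pow, h2]
    push_cast
    ring
  rcases sq_eq_sq_iff_eq_or_eq_neg.1 hδ with e | e <;> rw [e]
  · rw [map_mul, map_ofNat]
    exact ⟨fun h => by rw [h], fun h => mul_left_cancel₀ (by norm_num) h⟩
  · rw [map_neg, map_mul, map_ofNat, neg_inj]
    exact ⟨fun h => by rw [h], fun h => mul_left_cancel₀ (by norm_num) h⟩

/-- An automorphism fixing `√-n` and one generator is trivial. -/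
theorem eq_one_of_fix {L : IntermediateField ℚ Qb} {d y : L}
    (hL : L = IntermediateField.adjoin ℚ {(d : Qb), (y : Qb)}) {σ : L ≃ₐ[ℚ] L}
    (hd : σ d = d) (hy : σ y = y) : σ = 1 := by
  have key : ∀ x ∈ IntermediateField.adjoin ℚ {(d : Qb), (y : Qb)}, ∀ hx : x ∈ L,
      σ ⟨x, hx⟩ = ⟨x, hx⟩ := by
    intro x hx
    induction hx using IntermediateField.adjoin_induction with
    | mem x hx =>
      rcases hx with rfl | rfl
      · exact fun _ => hd
      · exact fun _ => hy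
    | algebraMap x => exact fun _ => σ.commutes x
    | add x z hx hz h1 h2 =>
      intro h
      have hxL : x ∈ L := hL.symm ▸ hx
      have hzL : z ∈ L := hL.symm ▸ hz
      show σ ((⟨x, hxL⟩ : L) + ⟨z, hzL⟩) = (⟨x, hxL⟩ : L) + ⟨z, hzL⟩
      rw [map_add, h1 hxL, h2 hzL]
    | inv x hx h1 =>
      intro h
      have hxL : x ∈ L := hL.symm ▸ hx
      show σ (⟨x, hxL⟩ : L)⁻¹ = (⟨x, hxL⟩ : L)⁻¹
      rw [map_inv₀, h1 hxL]
    | mul x z hx hz h1 h2 =>
      intro h
      have hxL : x ∈ L := hL.symm ▸ hx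
      have hzL : z ∈ L := hL.symm ▸ hz
      show σ ((⟨x, hxL⟩ : L) * ⟨z, hzL⟩) = (⟨x, hxL⟩ : L) * ⟨z, hzL⟩
      rw [map_mul, h1 hxL, h2 hzL]
  refine AlgEquiv.ext fun x => key x.1 (?_) x.2
  rw [← hL]
  exact x.2

/-- The degree of a factor is the length of a Frobenius cycle on the roots. -/
theorem exists_root_natDegree_dvd {E : Type*} [Field E] [NumberField E] {q : ℕ} [Fact q.Prime]
    {P : Ideal (𝓞 E)} {g : E ≃ₐ[ℚ] E} (hmax : P.IsMaximal) (hqP : (q : 𝓞 E) ∈ P)
    (hfrob : ∀ y : 𝓞 E, g • y - y ^ q ∈ P) {H : ℤ[X]} (hmon : H.Monic)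
    (hsplits : (H.map (algebraMap ℤ E)).Splits)
    (hsep : (H.map (Int.castRingHom (ZMod q))).Separable) {f : (ZMod q)[X]} (hf : Irreducible f)
    (hfH : f ∣ H.map (Int.castRingHom (ZMod q))) :
    ∃ z : E, aeval z H = 0 ∧ ∀ m : ℕ, f.natDegree ∣ m ↔ (g ^ m) z = z := by
  have hq := (Fact.out : q.Prime)
  let := Ideal.Quotient.field P
  set π := Ideal.Quotient.mk P with hπ
  haveI : CharP (𝓞 E ⧸ P) q := (CharP.charP_iff_prime_eq_zero hq).mpr <| by
    rw [← map_natCast π, hπ, Ideal.Quotient.eq_zero_iff_mem]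
    exact hqP
  set φ := ZMod.castHom (dvd_refl q) (𝓞 E ⧸ P) with hφ
  set ι := algebraMap (𝓞 E) E
  have hint : ∀ z : E, aeval z H = 0 → IsIntegral ℤ z := fun z hz =>
    ⟨H, hmon, by rwa [← aeval_def]⟩
  have hHO : (H.map (algebraMap ℤ (𝓞 E))).Splits := by
    refine Splits.of_splits_map_of_injective (i := ι)
      (FaithfulSMul.algebraMap_injective _ _) ?_ fun a ha => ?_
    · rw [Polynomial.map_map, show ι.comp (algebraMap ℤ (𝓞 E)) = algebraMap ℤ E from
        Subsingleton.elim _ _]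
      exact hsplits
    · rw [Polynomial.map_map, show ι.comp (algebraMap ℤ (𝓞 E)) = algebraMap ℤ E from
        Subsingleton.elim _ _] at ha
      exact ⟨⟨a, hint a (mem_aroots.1 ha).2⟩, rfl⟩
  have hHk : (H.map (Int.castRingHom (ZMod q))).map φ = (H.map (algebraMap ℤ (𝓞 E))).map π := by
    rw [Polynomial.map_map, Polynomial.map_map, show φ.comp (Int.castRingHom (ZMod q)) =
      π.comp (algebraMap ℤ (𝓞 E)) from Subsingleton.elim _ _]
  have hne : (H.map (algebraMap ℤ (𝓞 E))).map π ≠ 0 := ((hmon.map _).map _).ne_zero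
  -- a root of `f` among the residues
  obtain ⟨x, hx⟩ := ((hHO.map π).of_dvd hne (hHk ▸ Polynomial.map_dvd φ hfH)).exists_eval_eq_zero
    (f := f.map φ) (by
      rw [degree_map]
      exact (natDegree_pos_iff_degree_pos.mp hf.natDegree_pos).ne')
  have hxr : x ∈ ((H.map (algebraMap ℤ (𝓞 E))).map π).roots := (mem_roots hne).2
    (eval_eq_zero_of_dvd_of_eval_eq_zero (hHk ▸ Polynomial.map_dvd φ hfH) hx)
  rw [hHO.roots_map_of_ne_zero hne] at hxr
  obtain ⟨z, hz, rfl⟩ := Multiset.mem_map.1 hxr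
  have hzH : aeval z H = 0 := (mem_aroots.1 hz).2
  have hgz : ∀ m : ℕ, π ((g ^ m) • z) = π z ^ q ^ m := fun m => by
    induction m with
    | zero => simp
    | succ m ih =>
      rw [pow_succ', mul_smul, Ideal.Quotient.eq.2 (hfrob ((g ^ m) • z)), map_pow, ih, ← pow_mul,
        pow_succ]
  have hroot : ∀ P' : (ZMod q)[X], f ∣ P' ↔ (P'.map φ).eval (π z) = 0 := fun P' => by
    refine ⟨fun h => eval_eq_zero_of_dvd_of_eval_eq_zero (Polynomial.map_dvd φ h) hx, fun h => ?_⟩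
    by_contra hnd
    obtain ⟨u, v, e⟩ := hf.coprime_iff_not_dvd.2 hnd
    have := congrArg (fun r : (ZMod q)[X] => (r.map φ).eval (π z)) e
    simp [hx, h] at this
  have h0 := aeval_algHom_apply ι.toIntAlgHom z H
  rw [hzH, map_zero] at h0
  refine ⟨(z : E), h0, fun m => ?_⟩
  rw [hf.natDegree_dvd_iff_dvd_X_pow_card_pow_sub_X, Nat.card_zmod, hroot,
    Polynomial.map_sub, Polynomial.map_pow, map_X, eval_sub,
    eval_pow, eval_X, sub_eq_zero, ← hgz]
  refine ⟨fun e => ?_, fun e => congrArg π (RingOfIntegers.ext e)⟩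
  have h1 : aeval ((g ^ m) • z) H = 0 := FaithfulSMul.algebraMap_injective (𝓞 E) E
    (((aeval_algHom_apply ι.toIntAlgHom _ H).symm.trans
      (aeval_algHom_apply (((g ^ m).restrictScalars ℤ).toAlgHom) (ι z) H)).trans
        ((congrArg (g ^ m) h0).trans ((map_zero (g ^ m)).trans (map_zero _).symm)))
  exact congrArg (fun t : 𝓞 E => (t : E)) (eq_of_residue_eq π φ hsep h1 hzH e)

/-- The degree of a factor is the order of a Frobenius acting freely on the roots. -/
theorem natDegree_eq_orderOf {E : Type*} [Field E] [NumberField E] {q : ℕ} [Fact q.Prime]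
    {P : Ideal (𝓞 E)} {g : E ≃ₐ[ℚ] E} (hmax : P.IsMaximal) (hqP : (q : 𝓞 E) ∈ P)
    (hfrob : ∀ y : 𝓞 E, g • y - y ^ q ∈ P) {H : ℤ[X]} (hmon : H.Monic)
    (hsplits : (H.map (algebraMap ℤ E)).Splits)
    (hfree : ∀ z : E, aeval z H = 0 → ∀ m : ℕ, (g ^ m) z = z → g ^ m = 1)
    (hsep : (H.map (Int.castRingHom (ZMod q))).Separable) {f : (ZMod q)[X]} (hf : Irreducible f)
    (hfH : f ∣ H.map (Int.castRingHom (ZMod q))) : f.natDegree = orderOf g := by
  obtain ⟨z, hz, key⟩ := exists_root_natDegree_dvd hmax hqP hfrob hmon hsplits hsep hf hfH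
  have hk : ∀ m : ℕ, f.natDegree ∣ m ↔ orderOf g ∣ m := fun m => by
    rw [key, orderOf_dvd_iff_pow_eq_one]
    exact ⟨hfree z hz m, fun e => by rw [e]; rfl⟩
  exact Nat.dvd_antisymm ((hk _).2 dvd_rfl) ((hk _).1 dvd_rfl)

/-- **The Galois action on the singular moduli of discriminant `-4n`.** -/
theorem exists_galois_data (n : ℕ) [NeZero n] {τ : ℍ} (hτ : (τ : ℂ) ^ 2 = -(n : ℂ)) :
    ∃ (L : IntermediateField ℚ Qb) (_ : FiniteDimensional ℚ L) (_ : IsGalois ℚ L)
      (ι : Qb →ₐ[ℚ] ℂ) (d y : L), d ^ 2 = -(n : L) ∧ ι (y : Qb) = jfun τ ∧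
      L = IntermediateField.adjoin ℚ {(d : Qb), (y : Qb)} ∧
      Nonempty (MulAction.stabilizer (L ≃ₐ[ℚ] L) d ≃* Cl n) ∧
      finrank ℚ L = 2 * Nat.card (Cl n) ∧
      (∀ s : L ≃ₐ[ℚ] L, s d ≠ d → s * s = 1) ∧
      (∀ p : ℕ, p.Prime → ¬ p ∣ 6 * n →
        (((Ideal.span {(p : ℤ)}).primesOver (𝓞 L)).ncard = finrank ℚ L ↔
          ∃ x y : ℤ, (p : ℤ) = x ^ 2 + n * y ^ 2)) ∧
      (∀ v ∈ values (-4 * (n : ℤ)), ∃ z : L, ι (z : Qb) = v) ∧
      (∀ z w : L, ι (z : Qb) ∈ values (-4 * (n : ℤ)) → ι (w : Qb) ∈ values (-4 * (n : ℤ)) →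
        ∃! σ : L ≃ₐ[ℚ] L, σ d = d ∧ σ z = w) ∧
      ∀ p : ℕ, p.Prime → ¬ p ∣ 6 * n → ∀ P : II n, nrm P = p →
        (∃ (Q : Ideal (𝓞 L)) (g : L ≃ₐ[ℚ] L), Q.IsMaximal ∧ (p : 𝓞 L) ∈ Q ∧
          (∀ x : 𝓞 L, g • x - x ^ p ∈ Q) ∧ g d = d ∧ orderOf g = orderOf (cls P)) ∧
        (((minpoly ℤ (jfun τ)).map (Int.castRingHom (ZMod p))).Separable →
          ∀ f : (ZMod p)[X], Irreducible f →
            f ∣ (minpoly ℤ (jfun τ)).map (Int.castRingHom (ZMod p)) →
            f.natDegree = orderOf (cls P)) := by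
  classical
  obtain ⟨L, hfin, hgal, d, hd, hdeg, hab, -, R, res, hsurj, hres1, hres⟩ :=
    exists_ringClassField n
  have : NumberField L := { }
  have hnorm : Normal ℚ L := IsGalois.to_normal
  have hsplit : ∀ p : ℕ, p.Prime → ¬ p ∣ 6 * n →
      (((Ideal.span {(p : ℤ)}).primesOver (𝓞 L)).ncard = finrank ℚ L ↔
        ∃ x y : ℤ, (p : ℤ) = x ^ 2 + n * y ^ 2) := fun p hp hpn => by
    obtain ⟨A, σ, P, -, -, hP, h⟩ := exists_frob_field R res hres1 hres hp hpn
    rw [ncard_primesOver_iff hP, h]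
  let ι : Qb →ₐ[ℚ] ℂ := IsAlgClosed.lift
  obtain ⟨y, hy, hdy, hL, hall⟩ := eq_adjoin n L d hd hdeg hsplit ι τ hτ
  set D : ℤ := -4 * (n : ℤ) with hDdef
  have hD : D < 0 := by have := NeZero.pos n; omega
  have hall' : ∀ v ∈ values D, ∃ z : L, ι (z : Qb) = v := by
    rintro v ⟨f, hf, σ, hσ, rfl⟩
    exact hall f hf σ hσ
  have hu : jfun τ ∈ values D := by
    have hdisc : disc (1, 0, (n : ℤ)) = D := by simp [disc, hDdef]
    rw [← hdisc]
    exact jfun_mem_values one_pos (by rw [hdisc]; exact hD) (by simp)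
      (by simp [FA.Singular.IsRoot, hτ])
  have hi := isIntegral_values hD hu
  set H := minpoly ℤ (jfun τ) with hH
  have hroot : ∀ z : L, aeval z H = 0 ↔ ι (z : Qb) ∈ values D := fun z => by
    have e : aeval (ι (z : Qb)) H = ι (L.val (aeval z H)) := by
      exact aeval_algHom_apply ((ι.comp L.val).restrictScalars ℤ) z H
    refine ⟨fun h => root_mem_values hD hu (by rw [← hH, e, h, map_zero, map_zero]), fun h => ?_⟩
    refine (ι.comp L.val).toRingHom.injective ?_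
    rw [map_zero]
    show ι (L.val (aeval z H)) = 0
    rw [← e, hH, minpoly_eq_of_mem hD hu h]
    exact minpoly.aeval ℤ _
  -- the group
  obtain ⟨Φ, hΦ, hΦker⟩ := @exists_hom (R.L ≃ₐ[ℚ] R.L) (Cl (81 * n)) _ _ _ _ R.W (Cl n) _ _
    (extCls n) (extCls_surjective n)
  have hfix := fixes_iff R res hres hd
  let ψ : R.W.H →* MulAction.stabilizer (L ≃ₐ[ℚ] L) d :=
    (res.comp R.W.H.subtype).codRestrict _ fun g =>
      MulAction.mem_stabilizer_iff.2 ((hfix g).2 g.2)
  have hψ : Function.Surjective ψ := fun s => by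
    obtain ⟨g, hg⟩ := hsurj s.1
    refine ⟨⟨g, (hfix g).1 (by rw [hg]; exact s.2)⟩, Subtype.ext hg⟩
  have hψker : ∀ g, ψ g = 1 ↔ extCls n (R.W.cl g) = 1 := fun g => by
    rw [Subtype.ext_iff]
    show res g.1 = 1 ↔ _
    rw [hres1]
    show (g : R.L ≃ₐ[ℚ] R.L) ∈ R.classSet 1 ↔ _
    simp only [ClassData.classSet, inv_one, or_self, Set.mem_ofPred_eq]
    exact ⟨fun ⟨_, h⟩ => h, fun h => ⟨g.2, h⟩⟩
  have hkers : ψ.ker = Φ.ker := Subgroup.ext fun g => (hψker g).trans (hΦker g).symm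
  let e : MulAction.stabilizer (L ≃ₐ[ℚ] L) d ≃* Cl n :=
    ((QuotientGroup.quotientKerEquivOfSurjective ψ hψ).symm.trans
      (QuotientGroup.quotientMulEquivOfEq hkers)).trans
      (QuotientGroup.quotientKerEquivOfSurjective Φ hΦ)
  -- simply transitive
  have hmap : ∀ (s : L ≃ₐ[ℚ] L) (z : L), aeval z H = 0 → aeval (s z) H = 0 := fun s z hz =>
    ((aeval_algHom_apply ((s.restrictScalars ℤ).toAlgHom) z H).trans (congrArg s hz)).trans
      (map_zero s)
  have hy0 : aeval y H = 0 := (hroot y).2 (by rw [hy]; exact hu)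
  let orb : MulAction.stabilizer (L ≃ₐ[ℚ] L) d → {z : L // aeval z H = 0} := fun s =>
    ⟨s.1 y, hmap _ _ hy0⟩
  have hinj : Function.Injective orb := fun s t h => by
    have h' : s.1 y = t.1 y := congrArg Subtype.val h
    have h1 := eq_one_of_fix hL (σ := (t⁻¹ * s : MulAction.stabilizer (L ≃ₐ[ℚ] L) d).1)
      (t⁻¹ * s).2 (by
        show t.1⁻¹ (s.1 y) = y
        rw [h']
        exact t.1.symm_apply_apply y)
    exact (inv_mul_eq_one.1 (Subtype.ext h1 : t⁻¹ * s = 1)).symm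
  have hbij : Function.Bijective orb := by
    have hcard : Nat.card {z : L // aeval z H = 0} = Nat.card (Cl n) := by
      rw [← ncard_red_eq n, ← values_ncard hD, ← Nat.card_coe_set_eq]
      refine Nat.card_eq_of_bijective
        (fun z => (⟨ι (z.1 : Qb), (hroot z.1).1 z.2⟩ : values D))
        ⟨fun a b h => Subtype.ext ((ι.comp L.val).injective (congrArg Subtype.val h)),
          fun v => ?_⟩
      obtain ⟨z, hz⟩ := hall' v.1 v.2
      exact ⟨⟨z, (hroot z).2 (hz ▸ v.2)⟩, Subtype.ext hz⟩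
    haveI : Finite {z : L // aeval z H = 0} := Nat.finite_of_card_ne_zero (by
      rw [hcard]; exact Nat.card_pos.ne')
    exact (Nat.bijective_iff_injective_and_card orb).2
      ⟨hinj, (Nat.card_congr e.toEquiv).trans hcard.symm⟩
  have hfree : ∀ σ : L ≃ₐ[ℚ] L, σ d = d → ∀ z : L, aeval z H = 0 → σ z = z → σ = 1 := by
    intro σ hσ z hz hσz
    obtain ⟨s, hs⟩ := hbij.2 ⟨z, hz⟩
    have hsy : s.1 y = z := congrArg Subtype.val hs
    refine eq_one_of_fix hL hσ (s.1.injective ?_)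
    have hc := congrArg (fun t : L ≃ₐ[ℚ] L => t y) (hab σ s.1 hσ s.2)
    simp only [AlgEquiv.mul_apply] at hc
    rw [← hc, hsy, hσz]
  refine ⟨L, hfin, hgal, ι, d, y, hd, hy, hL, ⟨e⟩, hdeg, fun s hs => ?_, hsplit, hall',
    fun z w hz hw => ?_, fun p hp hpn P hP => ?_⟩
  · obtain ⟨g, rfl⟩ := hsurj s
    rw [← map_mul, R.W.sq_of_notMem fun hg => hs ((hfix g).2 hg), map_one]
  · obtain ⟨s, hs⟩ := hbij.2 ⟨z, (hroot z).2 hz⟩
    obtain ⟨t, ht⟩ := hbij.2 ⟨w, (hroot w).2 hw⟩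
    have hsy : s.1 y = z := congrArg Subtype.val hs
    have hty : t.1 y = w := congrArg Subtype.val ht
    refine ⟨t.1 * s.1⁻¹, ⟨(t * s⁻¹).2, ?_⟩, fun σ hσ => ?_⟩
    · show t.1 (s.1.symm z) = w
      rw [← hsy, AlgEquiv.symm_apply_apply, hty]
    · have h2 : (σ * s.1) y = t.1 y := by rw [AlgEquiv.mul_apply, hsy, hσ.2, hty]
      have hmem : σ * s.1 ∈ MulAction.stabilizer (L ≃ₐ[ℚ] L) d :=
        mul_mem (MulAction.mem_stabilizer_iff.2 hσ.1) s.2
      have h3 : (⟨_, hmem⟩ : MulAction.stabilizer (L ≃ₐ[ℚ] L) d) = t := hinj (Subtype.ext h2)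
      exact eq_mul_inv_of_mul_eq (congrArg Subtype.val h3)
  haveI := Fact.mk hp
  obtain ⟨A, σ, Q, hA, hσ, hQ, -⟩ := exists_frob_field R res hres1 hres hp hpn
  set g := AlgEquiv.restrictNormalHom L σ with hgdef
  obtain ⟨hgH, hcl⟩ := (R.mem_classSet_iff hp hpn hA hσ (cls P)).2 ⟨P, hP, Or.inl rfl⟩
  set g₁ : R.W.H := ⟨_, hgH⟩
  have hgd : g d = d := by rw [hgdef, ← hres]; exact (hfix _).2 hgH
  have hord : orderOf g = orderOf (cls P) := by
    refine orderOf_eq_orderOf_iff.2 fun m => ?_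
    rw [hgdef, ← hres, ← map_pow,
      show (AlgEquiv.restrictNormalHom R.L σ) ^ m = ((g₁ ^ m : R.W.H) : R.L ≃ₐ[ℚ] R.L) from rfl,
      show res ((g₁ ^ m : R.W.H) : R.L ≃ₐ[ℚ] R.L) = (ψ (g₁ ^ m)).1 from rfl]
    rw [show ((ψ (g₁ ^ m)).1 = 1) = (ψ (g₁ ^ m) = 1) from
      propext ⟨fun h => Subtype.ext h, congrArg Subtype.val⟩, hψker]
    rcases cl_pow R.W g₁ m with h | h <;> rw [h] <;>
      rcases hcl with h' | h' <;> simp [h']
  refine ⟨⟨Q, g, hQ.isMaximal, hQ.mem, hQ.frob, hgd, hord⟩, fun hsep f hf hfH => ?_⟩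
  rw [← hord]
  refine natDegree_eq_orderOf hQ.isMaximal hQ.mem hQ.frob (minpoly.monic hi) ?_ ?_ hsep hf hfH
  · refine Splits.of_splits_map_of_injective (i := (ι.comp L.val).toRingHom)
      (ι.comp L.val).injective (IsAlgClosed.splits _) fun a ha => ?_
    rw [Polynomial.map_map, Subsingleton.elim (RingHom.comp _ _) (algebraMap ℤ ℂ)] at ha
    obtain ⟨z, hz⟩ := hall' a (root_mem_values hD hu (mem_aroots.1 ha).2)
    exact ⟨z, hz⟩
  · intro z hz m hm
    have hst : g ∈ MulAction.stabilizer (L ≃ₐ[ℚ] L) d := MulAction.mem_stabilizer_iff.2 hgd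
    have hgd' : (g ^ m) d = d := MulAction.mem_stabilizer_iff.1 (pow_mem hst m)
    exact hfree _ hgd' z hz hm

end FA.GaloisModuli

end
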