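import Fermat.Agent.Tau.GaussianClassQuotient
import Fermat.Agent.ThetaOne.OrderExt
import Fermat.Agent.ThetaOne.OrderLattice
import Fermat.Agent.ThetaOne.OrderGalois
import Mathlib.NumberTheory.LSeries.PrimesInAP
import Mathlib.GroupTheory.FiniteAbelian.Duality
import Mathlib.RingTheory.RootsOfUnity.Complex

/-!
# Class groups of the orders of `ℚ(√-n)` have every finite abelian quotient

For primes `qᵢ ≡ 1 (mod 8 mᵢ n)` with product `f`, square roots `sᵢ` of `-n` and `aᵢ` with
`(aᵢ + sᵢ)/(aᵢ - sᵢ)` a generator modulo `qᵢ` and `aᵢ ≡ 0` at the other primes, the ideals of the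
forms `(aᵢ² + n, 2 f aᵢ, f²)` of `ℤ[f√-n]` become `(aᵢ + √-n)` in `ℤ[√-n]`, so their classes
are independent to the orders `mᵢ`; a quotient of a subgroup is a quotient by duality.
-/

set_option autoImplicit false
set_option linter.style.haveILetI false

noncomputable section

namespace FA.OrderQuotient

open Ideal FA.OrderTheta

/-! ### Finite abelian groups -/

/-- A quotient of a subgroup of a finite abelian group is a quotient of the group. -/
theorem exists_surjective_of_subgroup {G : Type} [CommGroup G] [Finite G] {A : Type*} [CommGroup A]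
    (S : Subgroup G) (η : S →* A) (hη : Function.Surjective η) :
    ∃ π : G →* A, Function.Surjective π := by
  set K := η.ker.map S.subtype
  let φ : S →* G ⧸ K := (QuotientGroup.mk' K).comp S.subtype
  have hφ : ∀ x, φ x = 1 ↔ η x = 1 := fun x => by
    show ((x : G) : G ⧸ K) = 1 ↔ _
    rw [QuotientGroup.eq_one_iff]
    exact ⟨fun ⟨y, hy, e⟩ => Subtype.ext e ▸ hy, fun h => ⟨x, h, rfl⟩⟩
  let j : A →* G ⧸ K := η.liftOfSurjective hη ⟨φ, fun x hx => (hφ x).2 hx⟩
  have hj : ∀ x, j (η x) = φ x := fun x =>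
    η.liftOfRightInverse_comp_apply _ _ ⟨φ, fun x hx => (hφ x).2 hx⟩ x
  have hinj : Function.Injective j := (injective_iff_map_eq_one j).2 fun a ha => by
    obtain ⟨x, rfl⟩ := hη a
    rw [hj, hφ] at ha
    exact ha
  obtain ⟨e⟩ := CommGroup.monoidHom_mulEquiv_of_hasEnoughRootsOfUnity (G ⧸ K) ℂ
  obtain ⟨e'⟩ := CommGroup.monoidHom_mulEquiv_of_hasEnoughRootsOfUnity j.range ℂ
  exact ⟨((((MonoidHom.ofInjective hinj).symm.toMonoidHom.comp e'.toMonoidHom).comp
      (MonoidHom.domRestrictHom j.range ℂˣ)).comp e.symm.toMonoidHom).comp (QuotientGroup.mk' K),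
    ((((MonoidHom.ofInjective hinj).symm.surjective.comp e'.surjective).comp
      (MonoidHom.domRestrict_surjective ℂ j.range)).comp e.symm.surjective).comp
        (QuotientGroup.mk'_surjective K)⟩

/-- Elements with only the relations allowed by `m` give a quotient `∏ ℤ/mᵢ`. -/
theorem exists_surjective_of_independent {G : Type} [CommGroup G] [Finite G] {ι : Type*}
    [Fintype ι] (c : ι → G) (m : ι → ℕ)
    (h : ∀ t : ι → ℕ, ∏ i, c i ^ t i = 1 → ∀ i, m i ∣ t i) :
    ∃ π : G →* ((i : ι) → Multiplicative (ZMod (m i))), Function.Surjective π := by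
  classical
  set E := Nat.card G with hE
  have hE0 : 0 < E := Nat.card_pos
  have hmE : ∀ i, (m i : ℤ) ∣ E := fun i => Int.natCast_dvd_natCast.2
    (h (fun _ => E) (Finset.prod_eq_one fun j _ => pow_card_eq_one') i)
  let θ : Multiplicative (ι → ℤ) →* G := MonoidHom.mk'
    (fun t => ∏ i, c i ^ Multiplicative.toAdd t i) fun a b => by
      rw [← Finset.prod_mul_distrib]
      exact Finset.prod_congr rfl fun i _ => by rw [toAdd_mul, Pi.add_apply, zpow_add]
  let q : Multiplicative (ι → ℤ) →* ((i : ι) → Multiplicative (ZMod (m i))) := MonoidHom.mk'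
    (fun t i => Multiplicative.ofAdd (Multiplicative.toAdd t i : ZMod (m i))) fun a b => by
      funext i
      simp [Pi.mul_apply, ← ofAdd_add]
  have hq : Function.Surjective q := fun x => by
    choose z hz using fun i => ZMod.intCast_surjective (Multiplicative.toAdd (x i))
    exact ⟨Multiplicative.ofAdd z, funext fun i => by simp [q, hz]⟩
  have hker : θ.rangeRestrict.ker ≤ q.ker := fun t ht => by
    rw [MonoidHom.ker_rangeRestrict, MonoidHom.mem_ker] at ht
    set z := Multiplicative.toAdd t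
    let t' : ι → ℕ := fun i => (z i % E).toNat
    have ht' : ∀ i, (t' i : ℤ) = z i % E := fun i =>
      Int.toNat_of_nonneg (Int.emod_nonneg _ (by exact_mod_cast hE0.ne'))
    have he : ∀ i, c i ^ t' i = c i ^ z i := fun i => by
      rw [← zpow_natCast, ht', Int.emod_def, zpow_sub, zpow_mul, zpow_natCast, hE,
        pow_card_eq_one', one_zpow, inv_one, mul_one]
    have h1 := h t' (by rw [Finset.prod_congr rfl fun i _ => he i]; exact ht)
    refine funext fun i => ?_
    have h2 : (m i : ℤ) ∣ z i % E := ht' i ▸ Int.natCast_dvd_natCast.2 (h1 i)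
    show Multiplicative.ofAdd (z i : ZMod (m i)) = 1
    have h3 : (m i : ℤ) ∣ z i := Int.emod_add_mul_ediv (z i) E ▸ dvd_add h2 ((hmE i).mul_right _)
    rw [(ZMod.intCast_zmod_eq_zero_iff_dvd _ _).2 h3, ofAdd_zero]
  let η := θ.rangeRestrict.liftOfSurjective θ.rangeRestrict_surjective ⟨q, hker⟩
  refine exists_surjective_of_subgroup θ.range η fun x => ?_
  obtain ⟨t, rfl⟩ := hq x
  exact ⟨θ.rangeRestrict t,
    θ.rangeRestrict.liftOfRightInverse_comp_apply _ _ ⟨q, hker⟩ t⟩

/-! ### The ideal becoming principal -/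

variable (n p : ℕ)

/-- The inclusion `ℤ[p√-n] → ℤ[√-n]`. -/
def incl : OrderTheta.Ord (n * p ^ 2) →+* OrderTheta.Ord n :=
  Zsqrtd.lift ⟨⟨0, p⟩, by ext <;> simp [pow_two]; ring⟩

theorem incl_apply (x : OrderTheta.Ord (n * p ^ 2)) : incl n p x = ⟨x.re, x.im * p⟩ := by
  ext <;> simp [incl, Zsqrtd.lift_apply_apply]

variable [NeZero n]

instance instNeZeroMulSq [NeZero p] : NeZero (n * p ^ 2) :=
  ⟨mul_ne_zero (NeZero.ne n) (pow_ne_zero _ (NeZero.ne p))⟩

/-- The ideal of the form `(a² + n, 2 p a, p²)` extends to `(a + √-n)`. -/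
theorem exists_ideal [NeZero p] (a : ℕ) (hcop : (a ^ 2 + n).Coprime p) :
    ∃ J : II (n * p ^ 2), (J : Ideal (OrderTheta.Ord (n * p ^ 2))).map (incl n p) =
      span {(⟨(a : ℤ), 1⟩ : OrderTheta.Ord n)} := by
  obtain ⟨u, v, huv⟩ : ∃ u v : ℤ, u * ((a ^ 2 + n : ℕ) : ℤ) + v * ((p : ℤ) ^ 2) = 1 := by
    obtain ⟨u, v, e⟩ := Nat.isCoprime_iff_coprime.mpr (hcop.pow_right 2)
    exact ⟨u, v, by exact_mod_cast e⟩
  have hdet : ((a ^ 2 + n : ℕ) : ℤ) * (p : ℤ) ^ 2 - ((p : ℤ) * a) ^ 2 =
      ((n * p ^ 2 : ℕ) : ℤ) := by push_cast; ring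
  have hp : ∃ u v w : ℤ, u * ((a ^ 2 + n : ℕ) : ℤ) + v * (p : ℤ) ^ 2 + w * (2 * ((p : ℤ) * a))
      = 1 := ⟨u, v, 0, by linear_combination huv⟩
  have hA : 0 < a ^ 2 + n := by have := NeZero.pos n; positivity
  refine ⟨rootII (N := n * p ^ 2) (a ^ 2 + n) ((p : ℤ) * a) ((p : ℤ) ^ 2) hA hdet hp, ?_⟩
  set J := rootII (N := n * p ^ 2) (a ^ 2 + n) ((p : ℤ) * a) ((p : ℤ) ^ 2) hA hdet hp
  set α : OrderTheta.Ord n := ⟨(a : ℤ), 1⟩ with hα
  refine le_antisymm (Ideal.map_le_iff_le_comap.2 fun x hx => ?_) ?_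
  · obtain ⟨k, hk⟩ := (mem_rootII _ _ _).1 hx
    rw [Ideal.mem_comap, mem_span_singleton, incl_apply]
    push_cast at hk
    refine ⟨⟨k * a + x.im * p, -k⟩, ?_⟩
    ext
    · simp [hα]; linarith
    · simp [hα]; ring
  · rw [span_singleton_le_iff_mem]
    have h1 : incl n p ((a ^ 2 + n : ℕ) : OrderTheta.Ord (n * p ^ 2)) ∈
        (J : Ideal (OrderTheta.Ord (n * p ^ 2))).map (incl n p) :=
      Ideal.mem_map_of_mem _
        ((mem_rootII _ _ _).2 (by simp [-Nat.cast_add, -Nat.cast_pow]))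
    have h2 : incl n p ⟨(p : ℤ) * a, 1⟩ ∈
        (J : Ideal (OrderTheta.Ord (n * p ^ 2))).map (incl n p) :=
      Ideal.mem_map_of_mem _ ((mem_rootII _ _ _).2 (by simp))
    have e : α = ((u : OrderTheta.Ord n) * α) *
          incl n p ((a ^ 2 + n : ℕ) : OrderTheta.Ord (n * p ^ 2)) +
        ((v * p : ℤ) : OrderTheta.Ord n) * incl n p ⟨(p : ℤ) * a, 1⟩ := by
      rw [map_natCast, incl_apply]
      push_cast at huv ⊢
      ext
      · simp [hα, pow_two]; linear_combination -(a : ℤ) * huv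
      · simp [hα, pow_two]; linear_combination -huv
    rw [e]
    exact add_mem (Ideal.mul_mem_left _ _ h1) (Ideal.mul_mem_left _ _ h2)

variable {n p}

/-- Evaluation at a square root of `-n`. -/
def evAt {q : ℕ} {s : ZMod q} (hs : s * s = -(n : ZMod q)) : OrderTheta.Ord n →+* ZMod q :=
  Zsqrtd.lift ⟨s, by simpa using hs⟩

omit [NeZero n] in
theorem evAt_apply {q : ℕ} {s : ZMod q} (hs : s * s = -(n : ZMod q)) (x : OrderTheta.Ord n) :
    evAt hs x = (x.re : ZMod q) + x.im * s := rfl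

omit [NeZero n] in
theorem neg_root {q : ℕ} {s : ZMod q} (hs : s * s = -(n : ZMod q)) :
    (-s) * (-s) = -(n : ZMod q) := by rw [neg_mul_neg, hs]

/-- If the class of an ideal extending to `(α)` is trivial, the two values of `α` modulo a prime
`q ∣ p` have equal squares. -/
theorem sq_eq_of_cls [NeZero p] {J : II (n * p ^ 2)} {α : OrderTheta.Ord n}
    (hJ : (J : Ideal (OrderTheta.Ord (n * p ^ 2))).map (incl n p) = span {α}) (hc : cls J = 1)
    {q : ℕ} [Fact q.Prime] (hqp : q ∣ p) {s : ZMod q} (hs : s * s = -(n : ZMod q)) :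
    evAt hs α ^ 2 = evAt (neg_root hs) α ^ 2 := by
  obtain ⟨y, hy, hJy⟩ := exists_gen_of_cls hc
  rw [hJy, coe_prin, Ideal.map_span, Set.image_singleton] at hJ
  obtain ⟨w, hw⟩ := Ideal.span_singleton_eq_span_singleton.1 hJ.symm
  have hy' : evAt hs (incl n p y) = evAt (neg_root hs) (incl n p y) := by
    rw [evAt_apply hs, evAt_apply (neg_root hs), incl_apply]
    simp [(ZMod.natCast_eq_zero_iff p q).2 hqp]
  rw [← hw, map_mul, map_mul] at hy'
  have hunit : ((w : OrderTheta.Ord n).re : ℤ) ^ 2 + n * (w : OrderTheta.Ord n).im ^ 2 = 1 := by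
    rw [← OrderTheta.norm_eq]
    exact (Zsqrtd.norm_eq_one_iff' (by simp) _).2 w.isUnit
  have hsq : evAt hs (w : OrderTheta.Ord n) ^ 2 =
      evAt (neg_root hs) (w : OrderTheta.Ord n) ^ 2 := by
    have h0 : (w : OrderTheta.Ord n).re * (w : OrderTheta.Ord n).im = 0 := by
      by_contra h
      obtain ⟨h1, h2⟩ := mul_ne_zero_iff.1 h
      have := NeZero.pos n
      nlinarith [mul_self_pos.2 h1, mul_self_pos.2 h2]
    have h0' := congrArg (Int.cast : ℤ → ZMod q) h0
    push_cast at h0'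
    rw [evAt_apply hs, evAt_apply (neg_root hs)]
    linear_combination (4 * s) * h0'
  refine mul_right_cancel₀ (pow_ne_zero 2
    ((w.isUnit.map (evAt (neg_root hs))).ne_zero)) ?_
  have h := congrArg (· ^ 2) hy'
  simp only [mul_pow, hsq] at h
  exact h

/-- A square root of `-n` modulo a prime `≡ 1 (mod 4 n)`. -/
theorem exists_sqrt (n : ℕ) [NeZero n] {q : ℕ} [Fact q.Prime] (h : 4 * n ∣ q - 1) :
    ∃ s : ZMod q, s * s = -(n : ZMod q) ∧ s ≠ 0 := by
  have hq : q.Prime := Fact.out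
  have hn := NeZero.pos n
  have hle := Nat.le_of_dvd (by have := hq.two_le; omega) h
  obtain ⟨s, hs⟩ : IsSquare (((-(n : ℤ) : ℤ)) : ZMod q) := by
    refine ZMod.isSquare_of_jacobiSym_eq_one ?_
    rw [jacobiSym.mod_right _ (hq.odd_of_ne_two (by omega))]
    have h4 : q % (4 * (-(n : ℤ)).natAbs) = 1 := by
      rw [Int.natAbs_neg, Int.natAbs_natCast]
      obtain ⟨k, hk⟩ := h
      rw [show q = 1 + 4 * n * k by omega, Nat.add_mul_mod_self_left,
        Nat.mod_eq_of_lt (show 1 < 4 * n by omega)]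
    rw [h4, jacobiSym.one_right]
  push_cast at hs
  refine ⟨s, hs.symm, fun e => ?_⟩
  rw [e, mul_zero, neg_eq_zero, ZMod.natCast_eq_zero_iff] at hs
  have := Nat.le_of_dvd hn hs
  omega

/-- The class group of some order `ℤ[f√-n]` contains classes independent to prescribed orders. -/
theorem exists_independent (n : ℕ) [NeZero n] {ι : Type*} [Fintype ι] (m : ι → ℕ)
    (hm : ∀ i, 0 < m i) :
    ∃ (f : ℕ) (_ : NeZero f) (c : ι → Cl (n * f ^ 2)),
      ∀ t : ι → ℕ, ∏ i, c i ^ t i = 1 → ∀ i, m i ∣ t i := by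
  classical
  have hn := NeZero.pos n
  let ei := Fintype.equivFin ι
  obtain ⟨q', hq'inj, hq'⟩ := GaussianClass.exists_injective_primes
    (fun i => 2 * m (ei.symm i) * n) fun i => Nat.mul_pos (Nat.mul_pos two_pos (hm _)) hn
  let q : ι → ℕ := fun i => q' (ei i)
  have hqinj : Function.Injective q := hq'inj.comp ei.injective
  have hq : ∀ i, (q i).Prime ∧ 4 * (2 * m i * n) ∣ q i - 1 := fun i => by
    simpa using hq' (ei i)
  haveI : ∀ i, Fact (q i).Prime := fun i => ⟨(hq i).1⟩
  choose s hs hs0 using fun i =>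
    exists_sqrt n (q := q i) ((Dvd.intro (2 * m i) (by ring)).trans (hq i).2)
  have hgt : ∀ i, 2 < q i := fun i => by
    have h := Nat.le_of_dvd (by have := (hq i).1.two_le; omega) (hq i).2
    have : 0 < 2 * m i * n := Nat.mul_pos (Nat.mul_pos two_pos (hm _)) hn
    omega
  have h2 : ∀ i, (2 : ZMod (q i)) ≠ 0 := fun i e => by
    have h := Nat.le_of_dvd two_pos ((ZMod.natCast_eq_zero_iff 2 (q i)).1 (by exact_mod_cast e))
    have := hgt i
    omega
  choose g hg using fun i => IsCyclic.exists_ofOrder_eq_natCard (α := (ZMod (q i))ˣ)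
  have hg' : ∀ i, orderOf (g i) = q i - 1 := fun i => by
    rw [hg, Nat.card_eq_fintype_card, ZMod.card_units]
  have hg1 : ∀ i, (g i : ZMod (q i)) - 1 ≠ 0 := fun i e => by
    have h := hg' i
    rw [show g i = 1 from Units.ext (sub_eq_zero.1 e), orderOf_one] at h
    have := hgt i
    omega
  -- the prescribed residues
  have hcr : ∀ i, ∃ a : ℕ, (a : ZMod (q i)) =
      s i * ((g i : ZMod (q i)) + 1) / ((g i : ZMod (q i)) - 1) ∧
      ∀ j, j ≠ i → (a : ZMod (q j)) = 0 := fun i => by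
    obtain ⟨a, ha⟩ := Nat.chineseRemainderOfFinset
      (fun j => if j = i then (s i * ((g i : ZMod (q i)) + 1) / ((g i : ZMod (q i)) - 1)).val
        else 0) q Finset.univ (fun j _ => (hq j).1.ne_zero) fun j _ k _ hjk =>
        (Nat.coprime_primes (hq j).1 (hq k).1).2 (hqinj.ne hjk)
    refine ⟨a, ?_, fun j hj => ?_⟩
    · have h := (ZMod.natCast_eq_natCast_iff a _ (q i)).2 (ha i (Finset.mem_univ i))
      rw [if_pos rfl, ZMod.natCast_zmod_val] at h
      exact h
    · have h := (ZMod.natCast_eq_natCast_iff a _ (q j)).2 (ha j (Finset.mem_univ j))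
      rw [if_neg hj, Nat.cast_zero] at h
      exact h
  choose a hai haj using hcr
  have hap : ∀ i, (a i : ZMod (q i)) + s i = 2 * s i * g i / ((g i : ZMod (q i)) - 1) ∧
      (a i : ZMod (q i)) - s i = 2 * s i / ((g i : ZMod (q i)) - 1) := fun i => by
    have := hg1 i
    rw [hai]
    constructor <;> field_simp <;> ring
  have hne : ∀ i, (a i : ZMod (q i)) + s i ≠ 0 ∧ (a i : ZMod (q i)) - s i ≠ 0 := fun i => by
    rw [(hap i).1, (hap i).2]
    exact ⟨div_ne_zero (mul_ne_zero (mul_ne_zero (h2 i) (hs0 i)) (g i).ne_zero) (hg1 i),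
      div_ne_zero (mul_ne_zero (h2 i) (hs0 i)) (hg1 i)⟩
  set f := ∏ i, q i
  haveI : NeZero f := ⟨Finset.prod_ne_zero_iff.2 fun i _ => (hq i).1.ne_zero⟩
  have hqf : ∀ i, q i ∣ f := fun i => Finset.dvd_prod_of_mem q (Finset.mem_univ i)
  have hcop : ∀ i, (a i ^ 2 + n).Coprime f := fun i => Nat.Coprime.prod_right fun j _ => by
    rw [Nat.coprime_comm, (hq j).1.coprime_iff_not_dvd, ← ZMod.natCast_eq_zero_iff]
    push_cast
    by_cases hj : j = i
    · subst hj
      rw [show (a j : ZMod (q j)) ^ 2 + n =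
          ((a j : ZMod (q j)) + s j) * ((a j : ZMod (q j)) - s j) by linear_combination hs j]
      exact mul_ne_zero (hne j).1 (hne j).2
    · rw [haj i j hj, zero_pow two_ne_zero, zero_add]
      intro e
      exact mul_ne_zero (hs0 j) (hs0 j) (by rw [hs j, e, neg_zero])
  choose J hJ using fun i => exists_ideal n f (a i) (hcop i)
  refine ⟨f, inferInstance, fun i => cls (J i), fun t ht i => ?_⟩
  simp only [← map_pow, ← map_prod] at ht
  have hmap : ((∏ j, J j ^ t j : II (n * f ^ 2)) : Ideal (OrderTheta.Ord (n * f ^ 2))).map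
      (incl n f) = span {∏ j, (⟨(a j : ℤ), 1⟩ : OrderTheta.Ord n) ^ t j} := by
    rw [SubmonoidClass.coe_finsetProd, ← Ideal.mapHom_apply, map_prod]
    simp [Ideal.map_pow, hJ, Ideal.span_singleton_pow, Ideal.prod_span_singleton]
  have h := sq_eq_of_cls hmap ht (hqf i) (hs i)
  rw [map_prod, map_prod] at h
  simp only [map_pow, ← Finset.prod_pow, ← pow_mul] at h
  simp only [evAt_apply (hs i), evAt_apply (neg_root (hs i))] at h
  rw [← Finset.mul_prod_erase _ _ (Finset.mem_univ i),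
    ← Finset.mul_prod_erase _ _ (Finset.mem_univ i)] at h
  have hrest : ∀ j ∈ Finset.univ.erase i,
      (((a j : ℤ) : ZMod (q i)) + ((1 : ℤ) : ZMod (q i)) * -s i) ^ (t j * 2) =
        (((a j : ℤ) : ZMod (q i)) + ((1 : ℤ) : ZMod (q i)) * s i) ^ (t j * 2) := fun j hj => by
    simp [haj j i (Finset.ne_of_mem_erase hj).symm, pow_mul']
  rw [Finset.prod_congr rfl hrest] at h
  have h' := mul_right_cancel₀ (Finset.prod_ne_zero_iff.2 fun j hj => pow_ne_zero _ (by
    simp [haj j i (Finset.ne_of_mem_erase hj).symm, hs0 i])) h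
  simp only [Int.cast_natCast, Int.cast_one, one_mul, ← sub_eq_add_neg] at h'
  have hgt' : g i ^ (t i * 2) = 1 := by
    refine Units.ext ?_
    rw [Units.val_pow_eq_pow_val, Units.val_one]
    refine mul_right_cancel₀ (pow_ne_zero (t i * 2) (hne i).2) ?_
    rw [one_mul, ← mul_pow, show (g i : ZMod (q i)) * ((a i : ZMod (q i)) - s i) =
      (a i : ZMod (q i)) + s i by rw [(hap i).1, (hap i).2]; ring]
    exact h'
  have h1 : m i * 2 ∣ t i * 2 := ((Dvd.intro (4 * n) (by ring)).trans (hq i).2).trans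
    (hg' i ▸ orderOf_dvd_of_pow_eq_one hgt')
  exact Nat.dvd_of_mul_dvd_mul_right two_pos h1

/-- Independent classes give the quotient. -/
theorem exists_cl_quotient [NeZero p] {ι : Type*} [Fintype ι] (c : ι → Cl (n * p ^ 2))
    (m : ι → ℕ) (h : ∀ t : ι → ℕ, ∏ i, c i ^ t i = 1 → ∀ i, m i ∣ t i) :
    ∃ π : Cl (n * p ^ 2) →* ((i : ι) → Multiplicative (ZMod (m i))), Function.Surjective π := by
  haveI : Finite (Cl (n * p ^ 2)) := finite_cl
  exact exists_surjective_of_independent c m h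

/-- **Class groups of orders of `ℚ(√-n)` have every finite abelian quotient.** -/
theorem exists_cl_abelian_quotient (n : ℕ) [NeZero n] (A : Type*) [CommGroup A] [Finite A] :
    ∃ (f : ℕ) (_ : NeZero f) (π : Cl (n * f ^ 2) →* A), Function.Surjective π := by
  obtain ⟨ι, hι, m, hm, ⟨e⟩⟩ := CommGroup.equiv_prod_multiplicative_zmod_of_finite A
  obtain ⟨f, hf, c, hc⟩ := exists_independent n m fun i => zero_lt_one.trans (hm i)
  obtain ⟨π, hπ⟩ := exists_cl_quotient c m hc
  exact ⟨f, hf, e.symm.toMonoidHom.comp π, e.symm.surjective.comp hπ⟩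

/-- **Class groups of orders of `ℚ(√-n)` have every cyclic quotient.** -/
theorem exists_cl_cyclic_quotient (n : ℕ) [NeZero n] {m : ℕ} (hm : 0 < m) :
    ∃ (f : ℕ) (_ : NeZero f) (π : Cl (n * f ^ 2) →* Multiplicative (ZMod m)),
      Function.Surjective π := by
  haveI : NeZero m := ⟨hm.ne'⟩
  exact exists_cl_abelian_quotient n _

end FA.OrderQuotient

end
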