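import Fermat.Agent.Tau.DihedralEveryField
import Fermat.Agent.Tau.OrderCyclicQuotient
import Fermat.Agent.Tau.GaloisModuli

/-!
# Generalised dihedral extensions and infinitely many dihedral forms

Every finite abelian group is a quotient of some `Cl(n f²)`, so a group of inversion type over
every `ℚ(√-n)`; with `(ℤ/m)^r` this gives at least `r` different kernels of dihedral modular
representations for every `r`.
-/

set_option autoImplicit false
set_option linter.style.haveILetI false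

noncomputable section

namespace FA.DihedralFamily

open UpperHalfPlane hiding I
open Module FA.OrderTheta
open CongruenceSubgroup (Gamma1)
open scoped MatrixGroups

local notation "Qb" => AlgebraicClosure ℚ
local notation "GQ" => AlgebraicClosure ℚ ≃ₐ[ℚ] AlgebraicClosure ℚ

/-- **Every finite abelian group over every imaginary quadratic field, inverted over `ℚ`.** -/
theorem exists_galois_generalisedDihedral (n : ℕ) [NeZero n] (A : Type*) [CommGroup A] [Finite A] :
    ∃ (L : IntermediateField ℚ Qb) (_ : FiniteDimensional ℚ L) (_ : IsGalois ℚ L) (z : L),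
      z ^ 2 = -(n : L) ∧ finrank ℚ L = 2 * Nat.card A ∧
      Nonempty (MulAction.stabilizer (L ≃ₐ[ℚ] L) z ≃* A) ∧
      ∀ s : L ≃ₐ[ℚ] L, s z ≠ z → s * s = 1 := by
  obtain ⟨f, hf, π, hπ⟩ := FA.OrderQuotient.exists_cl_abelian_quotient n A
  have hf0 : (0 : ℝ) < f := Nat.cast_pos.2 (NeZero.pos f)
  have hn0 : (0 : ℝ) < Real.sqrt n := Real.sqrt_pos.2 (Nat.cast_pos.2 (NeZero.pos n))
  let τ : ℍ := ⟨((Real.sqrt n * f : ℝ) : ℂ) * Complex.I, by simpa using mul_pos hn0 hf0⟩
  have hτ : (τ : ℂ) ^ 2 = -((n * f ^ 2 : ℕ) : ℂ) := by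
    show (((Real.sqrt n * f : ℝ) : ℂ) * Complex.I) ^ 2 = _
    rw [mul_pow, Complex.I_sq, ← Complex.ofReal_pow, mul_pow,
      Real.sq_sqrt (Nat.cast_nonneg n)]
    push_cast
    ring
  obtain ⟨L, hfin, hgal, ι, d, y, hd, -, -, ⟨e⟩, hdeg, hinv, -, -, -, -⟩ :=
    FA.GaloisModuli.exists_galois_data (n * f ^ 2) hτ
  let πe : MulAction.stabilizer (L ≃ₐ[ℚ] L) d →* A := π.comp e.toMonoidHom
  have hπe : Function.Surjective πe := hπ.comp e.surjective
  set K : Subgroup (L ≃ₐ[ℚ] L) :=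
    πe.ker.map (MulAction.stabilizer (L ≃ₐ[ℚ] L) d).subtype with hK
  have hKle : K ≤ MulAction.stabilizer (L ≃ₐ[ℚ] L) d := Subgroup.map_subtype_le _
  haveI hKn : K.Normal := by
    refine ⟨?_⟩
    rintro _ ⟨k, hk, rfl⟩ g
    show g * (k : L ≃ₐ[ℚ] L) * g⁻¹ ∈ K
    by_cases hg : g d = d
    · refine ⟨k, hk, ?_⟩
      set g' : MulAction.stabilizer (L ≃ₐ[ℚ] L) d := ⟨g, hg⟩
      have hc : g' * k = k * g' := e.injective (by
        rw [map_mul, map_mul]; exact mul_comm (e g') (e k))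
      show (k : L ≃ₐ[ℚ] L) = _
      rw [show g * (k : L ≃ₐ[ℚ] L) = k * g from congrArg Subtype.val hc, mul_inv_cancel_right]
    · have hgk : (g * (k : L ≃ₐ[ℚ] L)) d ≠ d := by
        rw [AlgEquiv.mul_apply, show (k : L ≃ₐ[ℚ] L) d = d from k.2]
        exact hg
      rw [show g * (k : L ≃ₐ[ℚ] L) * g⁻¹ = (k : L ≃ₐ[ℚ] L)⁻¹ by
        rw [inv_eq_of_mul_eq_one_right (hinv g hg), eq_inv_iff_mul_eq_one,
          mul_assoc (g * (k : L ≃ₐ[ℚ] L))]
        exact hinv _ hgk]
      exact inv_mem ⟨k, hk, rfl⟩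
  set M : IntermediateField ℚ L := IntermediateField.fixedField K with hM
  have hfix : M.fixingSubgroup = K := IntermediateField.fixingSubgroup_fixedField K
  haveI : IsGalois ℚ M := IsGalois.of_fixedField_normal_subgroup K
  haveI : Normal ℚ M := IsGalois.to_normal
  have hf0' : (f : L) ≠ 0 := Nat.cast_ne_zero.2 (NeZero.ne f)
  have hzmem : d / (f : L) ∈ M := by
    rw [hM, IntermediateField.mem_fixedField_iff]
    intro k hk
    rw [map_div₀, map_natCast, show k d = d from hKle hk]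
  set z : M := ⟨d / (f : L), hzmem⟩ with hz
  let res : (L ≃ₐ[ℚ] L) →* (M ≃ₐ[ℚ] M) := AlgEquiv.restrictNormalHom M
  have hres : Function.Surjective res := AlgEquiv.restrictNormalHom_surjective L
  have hker : res.ker = K := (IntermediateField.restrictNormalHom_ker M).trans hfix
  have hfixz : ∀ g : L ≃ₐ[ℚ] L, res g z = z ↔ g d = d := fun g => by
    rw [← Subtype.coe_inj, show ((res g z : M) : L) = g (z : L) from
      AlgEquiv.restrictNormal_commutes g M z, hz]
    show g (d / (f : L)) = d / (f : L) ↔ _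
    rw [map_div₀, map_natCast, div_left_inj' hf0']
  have hinv' : ∀ s : M ≃ₐ[ℚ] M, s z ≠ z → s * s = 1 := fun s hs => by
    obtain ⟨g, rfl⟩ := hres s
    rw [← map_mul, hinv g fun h => hs ((hfixz g).2 h), map_one]
  let ρ : MulAction.stabilizer (L ≃ₐ[ℚ] L) d →* MulAction.stabilizer (M ≃ₐ[ℚ] M) z :=
    (res.comp (MulAction.stabilizer (L ≃ₐ[ℚ] L) d).subtype).codRestrict _ fun g =>
      MulAction.mem_stabilizer_iff.2 ((hfixz g).2 g.2)
  have hρ : Function.Surjective ρ := fun s => by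
    obtain ⟨g, hg⟩ := hres s.1
    exact ⟨⟨g, (hfixz g).1 (by rw [hg]; exact s.2)⟩, Subtype.ext hg⟩
  have hρker : ρ.ker = πe.ker := by
    ext g
    rw [MonoidHom.mem_ker, Subtype.ext_iff]
    show res (g : L ≃ₐ[ℚ] L) = 1 ↔ _
    rw [← MonoidHom.mem_ker, hker, hK]
    exact ⟨fun ⟨k, hk, hkg⟩ => Subtype.ext hkg ▸ hk, fun h => ⟨g, h, rfl⟩⟩
  let eA : MulAction.stabilizer (M ≃ₐ[ℚ] M) z ≃* A :=
    ((QuotientGroup.quotientKerEquivOfSurjective ρ hρ).symm.trans
      (QuotientGroup.quotientMulEquivOfEq hρker)).trans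
      (QuotientGroup.quotientKerEquivOfSurjective πe hπe)
  have hMdeg : finrank ℚ M = 2 * Nat.card A := by
    rw [IntermediateField.finrank_eq_fixingSubgroup_index, hfix]
    have h1 := Subgroup.card_mul_index K
    have h2 := Subgroup.card_mul_index πe.ker
    rw [Subgroup.index_ker, πe.range_eq_top.mpr hπe, Subgroup.card_top,
      Nat.card_congr e.toEquiv] at h2
    rw [IsGalois.card_aut_eq_finrank, hdeg, hK,
      Subgroup.card_map_of_injective Subtype.val_injective, ← h2, ← mul_assoc, mul_comm 2,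
      mul_assoc] at h1
    exact Nat.eq_of_mul_eq_mul_left Nat.card_pos h1
  -- move the field into `ℚ̄`
  let M' : IntermediateField ℚ Qb := M.map L.val
  let eM : M ≃ₐ[ℚ] M' := M.equivMap L.val
  haveI : FiniteDimensional ℚ M' := eM.toLinearEquiv.finiteDimensional
  haveI : IsGalois ℚ M' := IsGalois.of_algEquiv eM
  refine ⟨M', inferInstance, inferInstance, eM z, ?_, ?_, ?_, fun s hs => ?_⟩
  · rw [← map_pow, show z ^ 2 = -(n : M) from Subtype.ext (by
      show (d / (f : L)) ^ 2 = -(n : L)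
      rw [div_pow, hd, Nat.cast_mul, Nat.cast_pow, neg_div,
        mul_div_assoc, div_self (pow_ne_zero 2 hf0'), mul_one]), map_neg, map_natCast]
  · rw [← eM.toLinearEquiv.finrank_eq, hMdeg]
  · refine ⟨MulEquiv.trans ?_ eA⟩
    refine ((MulEquiv.subgroupCongr ?_).trans
      ((MulAction.stabilizer (M ≃ₐ[ℚ] M) z).equivMapOfInjective eM.autCongr.toMonoidHom
        eM.autCongr.injective).symm)
    ext s
    refine ⟨fun hs => ⟨eM.autCongr.symm s, ?_, eM.autCongr.apply_symm_apply s⟩, ?_⟩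
    · show eM.symm (s (eM z)) = z
      rw [show s (eM z) = eM z from hs, AlgEquiv.symm_apply_apply]
    · rintro ⟨g, hg, rfl⟩
      show eM (g (eM.symm (eM z))) = eM z
      rw [AlgEquiv.symm_apply_apply, show g z = z from hg]
  · have h1 : eM.autCongr.symm s z ≠ z := fun h => hs (by
      have h' : eM.symm (s (eM z)) = z := h
      rw [← eM.apply_symm_apply (s (eM z)), h'])
    apply eM.autCongr.symm.injective
    rw [map_mul, map_one, hinv' _ h1]


/-- **Infinitely many modular dihedral representations with the character of `ℚ(√-n)`**: their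
kernels form an infinite set. -/
theorem infinite_weightOne_dihedral (n : ℕ) [NeZero n] (m : ℕ) (hm : 3 ≤ m) :
    {H : Subgroup GQ | ∃ (N : ℕ) (_ : NeZero N) (f : CuspForm (Gamma1 N) 1)
      (ρ : GQ →* GL (Fin 2) ℂ), ρ.ker = H ∧
      IsOpen (ρ.ker : Set GQ) ∧ Nonempty (ρ.range ≃* DihedralGroup m) ∧
      (∀ v : Fin 2 → ℂ, v ≠ 0 → ∃ σ, ∀ μ : ℂ,
        Matrix.mulVec ((ρ σ : GL (Fin 2) ℂ) : Matrix (Fin 2) (Fin 2) ℂ) v ≠ μ • v) ∧
      ModularFormClass.qCoeff f 1 = 1 ∧
      (∀ p : ℕ, p.Prime → ¬ p ∣ N → ∀ k : ℕ,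
        ModularFormClass.qCoeff f (p * k) +
            (jacobiSym (-(n : ℤ)) p : ℂ) *
              (if p ∣ k then ModularFormClass.qCoeff f (k / p) else 0) =
          ModularFormClass.qCoeff f p * ModularFormClass.qCoeff f k) ∧
      (∀ p : ℕ, p.Prime → ¬ p ∣ N → ∀ A : ValuationSubring Qb, A.LiesOverPrime p →
        (∀ σ ∈ A.inertiaSubgroupIn ℚ, ρ σ = 1) ∧
        ∀ σ : GQ, A.IsFrobeniusAt σ p →
          ((ρ σ : GL (Fin 2) ℂ) : Matrix (Fin 2) (Fin 2) ℂ).trace = ModularFormClass.qCoeff f p ∧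
          ((ρ σ : GL (Fin 2) ℂ) : Matrix (Fin 2) (Fin 2) ℂ).det =
            (jacobiSym (-(n : ℤ)) p : ℂ)) ∧
      ∃ d : Qb, d ^ 2 = -(n : Qb) ∧ ∀ σ : GQ,
        ((ρ σ : GL (Fin 2) ℂ) : Matrix (Fin 2) (Fin 2) ℂ).det = 1 ↔ σ d = d}.Infinite := by
  classical
  intro hfin
  haveI : NeZero m := ⟨by omega⟩
  set S := hfin.toFinset with hS
  obtain ⟨k, hk, π, hπ⟩ := FA.OrderQuotient.exists_cl_abelian_quotient n
    (Fin (S.card + 1) → Multiplicative (ZMod m))
  obtain ⟨D, θ, hθ, h⟩ := FA.DihedralModular.exists_weightOne_of_quotients (n * k ^ 2)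
  let ev : Fin (S.card + 1) → Cl (n * k ^ 2) →* Multiplicative (ZMod m) := fun i =>
    (Pi.evalMonoidHom _ i).comp π
  have hev : ∀ i, Function.Surjective (ev i) := fun i =>
    (Function.surjective_eval i).comp hπ
  choose N hN f ρ hN' hopen hrange hirr hone hrel hloc hd hF hker using fun i =>
    h hm (ev i) (hev i)
  have hchar : ∀ i, ∀ p : ℕ, p.Prime → ¬ p ∣ N i →
      jacobiSym (-((n * k ^ 2 : ℕ) : ℤ)) p = jacobiSym (-(n : ℤ)) p := fun i p hp hpN =>
    FA.DihedralEveryField.jacobiSym_mul_sq n ((Nat.Prime.coprime_iff_not_dvd hp).2 fun hpk =>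
      hpN (((hpk.trans (dvd_pow_self k two_ne_zero)).mul_left n).trans
        ⟨324, by rw [hN' i]; ring⟩))
  have hmem : ∀ i, (ρ i).ker ∈ S := fun i => by
    rw [hS, Set.Finite.mem_toFinset]
    obtain ⟨d, hd2, hdet⟩ := hd i
    refine ⟨N i, hN i, f i, ρ i, rfl, hopen i, hrange i, hirr i, hone i, fun p hp hpN => ?_,
      fun p hp hpN => ?_, d / (k : Qb), ?_, fun σ => ?_⟩
    · rw [← hchar i p hp hpN]; exact hrel i p hp hpN
    · rw [← hchar i p hp hpN]; exact hloc i p hp hpN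
    · rw [div_pow, hd2, div_eq_iff (pow_ne_zero _ (Nat.cast_ne_zero.2 (NeZero.ne k)))]
      push_cast
      ring
    · rw [hdet σ, map_div₀, map_natCast, div_left_inj' (Nat.cast_ne_zero.2 (NeZero.ne k))]
  have hinj : Function.Injective fun i => (ρ i).ker := fun i j hij => by
    by_contra hne
    obtain ⟨c, hc⟩ := hπ (Pi.mulSingle i (Multiplicative.ofAdd 1))
    obtain ⟨σ, rfl⟩ := hθ c
    have hj : ρ j σ = 1 := (hker j σ).2 (by simp [ev, hc, Pi.mulSingle_eq_of_ne (Ne.symm hne)])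
    have hi : ρ i σ = 1 := by
      have : (σ : GQ) ∈ (ρ i).ker := by
        rw [show (ρ i).ker = (ρ j).ker from hij]; exact hj
      exact this
    have h1 := (hker i σ).1 hi
    haveI : Fact (1 < m) := ⟨by omega⟩
    simp [ev, hc] at h1
  have hcard := Finset.card_le_card_of_injOn (fun i => (ρ i).ker)
    (s := (Finset.univ : Finset (Fin (S.card + 1)))) (fun i _ => hmem i) hinj.injOn
  rw [Finset.card_univ, Fintype.card_fin] at hcard
  omega

/-- **Infinitely many dihedral fields containing `√-n`.** -/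
theorem infinite_dihedral_fields (n : ℕ) [NeZero n] (m : ℕ) (hm : 3 ≤ m) :
    {L : IntermediateField ℚ Qb | FiniteDimensional ℚ L ∧ IsGalois ℚ L ∧
      Nonempty ((L ≃ₐ[ℚ] L) ≃* DihedralGroup m) ∧ ∃ d ∈ L, d ^ 2 = -(n : Qb)}.Infinite := by
  refine Set.Infinite.mono ?_ ((infinite_weightOne_dihedral n m hm).image
    (f := fun H => IntermediateField.fixedField H) ?_)
  · rintro _ ⟨_, ⟨N, hN, f, ρ, rfl, hopen, ⟨e⟩, -, -, -, -, d, hd, hdet⟩, rfl⟩
    let H : ClosedSubgroup GQ := ⟨ρ.ker, Subgroup.isClosed_of_isOpen _ hopen⟩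
    haveI hH : H.Normal := inferInstanceAs ρ.ker.Normal
    have hfix := InfiniteGalois.fixingSubgroup_fixedField H
    refine ⟨?_, ?_, ⟨?_⟩, d, fun g => ?_, hd⟩
    · refine (InfiniteGalois.isOpen_iff_finite _).1 ?_
      show IsOpen ((IntermediateField.fixedField H.1).fixingSubgroup : Set GQ)
      rw [hfix]
      exact hopen
    · refine (InfiniteGalois.normal_iff_isGalois _).1 ?_
      show ((IntermediateField.fixedField H.1).fixingSubgroup).Normal
      rw [hfix]
      exact hH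
    · exact ((InfiniteGalois.normalAutEquivQuotient H).symm.trans
        (QuotientGroup.quotientKerEquivRange ρ)).trans e
    · show g.1 d = d
      refine (hdet g.1).1 ?_
      rw [MonoidHom.mem_ker.1 g.2, Units.val_one, Matrix.det_one]
  · rintro H ⟨_, _, _, ρ, rfl, ho, -⟩ H' ⟨_, _, _, ρ', rfl, ho', -⟩ he
    have h1 := InfiniteGalois.fixingSubgroup_fixedField
      (⟨ρ.ker, Subgroup.isClosed_of_isOpen _ ho⟩ : ClosedSubgroup GQ)
    have h2 := InfiniteGalois.fixingSubgroup_fixedField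
      (⟨ρ'.ker, Subgroup.isClosed_of_isOpen _ ho'⟩ : ClosedSubgroup GQ)
    exact h1.symm.trans ((congrArg IntermediateField.fixingSubgroup he).trans h2)

end FA.DihedralFamily

end
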