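import Fermat.Agent.Tau.EigenSystems
import Fermat.Agent.Eisenstein.LiftLevelOne
import Fermat.Agent.Root.SummaryEisensteinCongruence

/-!
# Lifting systems of eigenvalues modulo `p`

The lemma of Deligne and Serre for systems given outside `p` only: a form modulo `p` with constant
term zero lifts to a cusp form, so its system is the reduction of one in characteristic zero; with
constant term non-zero the system is `1 + l^(k - 1)`, the reduction of the one of `E_k`.
-/

set_option autoImplicit false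

noncomputable section

open CongruenceSubgroup
open scoped MatrixGroups ArithmeticFunction.sigma

namespace FA.SwinnertonDyer

open FA.EisCong

local notation "ZB" => integralClosure ℤ ℂ

/-- **Deligne–Serre**, for a system given outside `q`. -/
theorem exists_cusp_eigen_lift {k : ℤ} (hk : 1 ≤ k) {q : ℕ} (hq : q.Prime) {b : ℕ → ℤ}
    (f₀ : CuspForm (Gamma0 1) k) (hf₀ : f₀ ∈ CuspForm.intLattice 1 k)
    (h1 : ∃ (n : ℕ) (z : ℤ), qL k f₀ n = (z : ℂ) ∧ ¬(q : ℤ) ∣ z)
    (heig : ∀ (ℓ : ℕ) (hℓ : ℓ.Prime), ℓ ≠ q → ∀ n : ℕ, ∃ z : ℤ,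
      qL k (CuspForm.heckeTLin k hℓ hℓ.not_dvd_one f₀ - (b ℓ : ℂ) • f₀) n = ((q * z : ℤ) : ℂ)) :
    ∃ (f : CuspForm (Gamma0 1) k) (m : Ideal ZB), m.IsMaximal ∧ (q : ZB) ∈ m ∧ f ≠ 0 ∧
      ∀ ℓ : ℕ, ℓ.Prime → ∃ c : ZB, (ℓ ≠ q → c - (b ℓ : ZB) ∈ m) ∧ ∀ n,
        qL k f (n * ℓ) + (if ℓ ∣ n then (ℓ : ℂ) ^ (k - 1) * qL k f (n / ℓ) else 0) =
          (c : ℂ) * qL k f n := by
  classical
  let T := CuspForm.heckeAlgebra 1 k ∅
  let act : T →+* Module.End ℂ (CuspForm (Gamma0 1) k) := T.val.toRingHom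
  have := latSpan_finite (k := k)
  let Dv : CuspForm (Gamma0 1) k → Prop := fun g => ∀ n, ∃ z : ℤ, qL k g n = ((q * z : ℤ) : ℂ)
  have hq0 : (q : ℂ) ≠ 0 := by exact_mod_cast hq.ne_zero
  have hdiv : ∀ g, Dv g → ∃ g', g' ∈ CuspForm.intLattice 1 k ∧ g = (q : ℂ) • g' := by
    intro g hg
    refine ⟨(q : ℂ)⁻¹ • g, Submodule.subset_span fun n => ?_,
      by rw [smul_smul, mul_inv_cancel₀ hq0, one_smul]⟩
    obtain ⟨z, hz⟩ := hg n
    refine ⟨z, ?_⟩
    rw [← qL_apply, map_smul, Pi.smul_apply, hz, smul_eq_mul]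
    push_cast
    field_simp
  let I : Ideal T :=
    { carrier := {t | Dv (act t f₀)}
      zero_mem' := fun n => ⟨0, by simp⟩
      add_mem' := fun {x y} hx hy n => by
        obtain ⟨u, hu⟩ := hx n
        obtain ⟨w, hw⟩ := hy n
        refine ⟨u + w, ?_⟩
        rw [map_add, LinearMap.add_apply, map_add, Pi.add_apply, hu, hw]
        push_cast
        ring
      smul_mem' := fun s t ht n => by
        obtain ⟨g, hg, hgt⟩ := hdiv _ ht
        obtain ⟨z, hz⟩ := intLattice_int _
          (CuspForm.mem_intLattice_of_mem_heckeAlgebra hk s.2 hg) n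
        refine ⟨z, ?_⟩
        rw [smul_eq_mul, map_mul, Module.End.mul_apply, hgt, map_smul, map_smul, Pi.smul_apply,
          show act s g = (s : Module.End ℂ (CuspForm (Gamma0 1) k)) g from rfl, hz, smul_eq_mul]
        push_cast
        ring }
  have hI : I ≠ ⊤ := by
    rw [Ne, Ideal.eq_top_iff_one]
    intro h'
    obtain ⟨n, z, hz, hzq⟩ := h1
    obtain ⟨z', hz'⟩ := h' n
    rw [map_one, Module.End.one_apply, hz, Int.cast_inj] at hz'
    exact hzq (hz' ▸ dvd_mul_right _ _)
  obtain ⟨m, hmax, hIm⟩ := I.exists_le_maximal hI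
  have := hmax.isPrime
  have hqm : (q : T) ∈ m := hIm fun n => by
    obtain ⟨z, hz⟩ := intLattice_int f₀ hf₀ n
    refine ⟨z, ?_⟩
    rw [map_natCast, Module.End.natCast_apply, map_nsmul, Pi.smul_apply, hz, nsmul_eq_mul]
    push_cast
    rfl
  obtain ⟨v, χ, hv, hev, hker⟩ := FA.Deform.exists_eigenvector_of_prime (actW hk) m (fun t ht => hIm
    fun n => by
      have h := congrArg Subtype.val (LinearMap.congr_fun ht ⟨f₀, Submodule.subset_span hf₀⟩)
      refine ⟨0, ?_⟩
      rw [show act t f₀ = 0 from h]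
      simp)
  -- the prime over `m`
  let χ' : T →+* ZB := χ.codRestrict (integralClosure ℤ ℂ).toSubring fun t =>
    isIntegral_eigenvalue hk χ hv hev t
  let : Algebra T ZB := χ'.toAlgebra
  have : IsScalarTower ℤ T ZB := IsScalarTower.of_algebraMap_eq' (RingHom.ext_int _ _)
  have : Algebra.IsIntegral T ZB :=
    ⟨fun x => (Algebra.IsIntegral.isIntegral (R := ℤ) x).tower_top⟩
  obtain ⟨m', hm', hover⟩ :=
    Ideal.exists_ideal_over_maximal_of_isIntegral (S := ZB) m (by
      intro t ht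
      exact hker (congrArg Subtype.val (RingHom.mem_ker.mp ht)))
  have hmem : ∀ t : T, χ' t ∈ m' ↔ t ∈ m := fun t => by rw [← hover]; rfl
  refine ⟨v, m', hm', ?_, fun e => hv (Subtype.ext e), fun l hl => ?_⟩
  · have := (hmem (q : T)).mpr hqm
    rwa [map_natCast] at this
  refine ⟨χ' (CuspForm.heckeAlgebra.T hl hl.not_dvd_one (Set.notMem_empty _)), fun hlq => ?_,
    fun n => ?_⟩
  · have h : CuspForm.heckeAlgebra.T hl hl.not_dvd_one (Set.notMem_empty _) - (b l : T) ∈ m :=
      hIm fun n => by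
        obtain ⟨z, hz⟩ := heig l hl hlq n
        refine ⟨z, ?_⟩
        rw [map_sub, map_intCast, LinearMap.sub_apply, Module.End.intCast_apply,
          ← Int.cast_smul_eq_zsmul ℂ, ← hz]
        rfl
    have h' := (hmem _).mpr h
    rwa [map_sub, map_intCast] at h'
  · have h := congrArg (fun w : latSpan k => qL k (w : CuspForm (Gamma0 1) k) n)
      (hev (CuspForm.heckeAlgebra.T hl hl.not_dvd_one (Set.notMem_empty _)))
    simp only [coe_actW, CuspForm.heckeAlgebra.coe_T, Submodule.coe_smul, map_smul, Pi.smul_apply,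
      smul_eq_mul, qL_heckeT hl] at h
    exact h

open UpperHalfPlane hiding I

variable {p : ℕ} [Fact p.Prime]

/-- **Every system modulo `p` lifts.** -/
theorem exists_eigen_lift (h5 : 5 ≤ p) {k : ℕ} (hk : 1 ≤ k) {a : ℕ → ZMod p}
    {f : PowerSeries (ZMod p)} (hf : IsEigen p k a f) :
    ∃ (F : ModularForm 𝒮ℒ (k : ℤ)) (m : Ideal ZB), m.IsMaximal ∧ (p : ZB) ∈ m ∧ F ≠ 0 ∧
      ∀ l : ℕ, l.Prime → ∃ c : ZB, (l ≠ p → c - ((a l).val : ZB) ∈ m) ∧ ∀ n,
        (qExpansion 1 F).coeff (n * l) +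
          (if l ∣ n then (l : ℂ) ^ (k - 1) * (qExpansion 1 F).coeff (n / l) else 0) =
          (c : ℂ) * (qExpansion 1 F).coeff n := by
  obtain ⟨hf0, hfk, hfe⟩ := hf
  have hp : p.Prime := Fact.out
  obtain ⟨G₀, hG₀, hG₀'⟩ := hfk.exists_isob h5
  have hev : Even k ∧ 4 ≤ k := by
    constructor
    · by_contra hodd
      refine hf0 ?_
      rw [← hG₀', show G₀ = 0 from MvPolynomial.ext _ _ fun d => by
        rw [MvPolynomial.coeff_zero, hG₀.coeff_eq_zero d (by
          rw [weight_eq]; intro e; exact hodd ⟨2 * d 0 + 3 * d 1, by omega⟩)], map_zero]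
    · by_contra hlt
      refine hf0 ?_
      rw [← hG₀', show G₀ = 0 from MvPolynomial.ext _ _ fun d => by
        rw [MvPolynomial.coeff_zero, hG₀.coeff_eq_zero d (by rw [weight_eq]; omega)], map_zero]
  have hzpow : ∀ l : ℕ, (l : ℂ) ^ ((k : ℤ) - 1) = (l : ℂ) ^ (k - 1) := fun l => by
    rw [show (k : ℤ) - 1 = ((k - 1 : ℕ) : ℤ) by omega, zpow_natCast]
  have hcoef : ∀ l : ℕ, l.Prime → l ≠ p → ∀ n, PowerSeries.coeff (n * l) f +
      (if l ∣ n then (l : ZMod p) ^ (k - 1) * PowerSeries.coeff (n / l) f else 0) =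
        a l * PowerSeries.coeff n f := fun l hl hlp n => by
    have h := congrArg (PowerSeries.coeff n) (hfe l hl hlp)
    rwa [coeff_tOp, map_smul, smul_eq_mul, show k + (p - 2) = k - 1 + (p - 1) by omega, pow_add,
      ZMod.pow_card_sub_one_eq_one (natCast_prime_ne hl hlp), mul_one] at h
  by_cases h0 : PowerSeries.coeff 0 f = 0
  · -- cuspidal: the lemma of Deligne and Serre
    obtain ⟨G, T, hG, rfl⟩ := hfk
    obtain ⟨P, e, he, hP⟩ := exists_monomial k hev.1 hev.2
    set t := PowerSeries.coeff 0 T with ht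
    have ht0 : ((t : ℤ) : ZMod p) = 0 := by
      rwa [PowerSeries.coeff_map, eq_intCast] at h0
    let g : ModularForm 𝒮ℒ (k : ℤ) := G - (t : ℂ) • P
    set z : ℕ → ℤ := fun n => PowerSeries.coeff n T - t * e n with hzdef
    have hg : ∀ n, (qExpansion 1 g).coeff n = (z n : ℂ) := fun n => by
      simp only [g]
      rw [FunLike.coe_sub, ModularForm.qExpansion_sub one_pos one_mem_strictPeriods_SL,
        FunLike.coe_smul, ModularForm.qExpansion_smul one_pos one_mem_strictPeriods_SL, map_sub,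
        PowerSeries.coeff_smul, hG, hP, PowerSeries.coeff_map, eq_intCast, smul_eq_mul, hzdef]
      push_cast
      ring
    have hzmod : ∀ n, ((z n : ℤ) : ZMod p) =
        PowerSeries.coeff n (T.map (Int.castRingHom (ZMod p))) := fun n => by
      simp only [hzdef]
      push_cast
      rw [ht0, zero_mul, sub_zero, PowerSeries.coeff_map, eq_intCast]
    have hg0 : (qExpansion 1 g).coeff 0 = 0 := by rw [hg]; simp [hzdef, he, ht]
    let f₀ : CuspForm (Gamma0 1) (k : ℤ) :=
      CuspForm.mcast rfl (ModularForm.toCuspForm g hg0) gamma0_one_coe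
    have hfg : ∀ n, qL k f₀ n = (z n : ℂ) := hg
    obtain ⟨F, m, hm, hpm, hF0, hF⟩ := exists_cusp_eigen_lift (k := (k : ℤ)) (by omega) hp
      (b := fun l => ((a l).val : ℤ)) f₀ (Submodule.subset_span fun n => ⟨_, hfg n⟩)
      (by
        by_contra! hall
        refine hf0 (PowerSeries.ext fun n => ?_)
        rw [map_zero, ← hzmod n, ZMod.intCast_zmod_eq_zero_iff_dvd]
        exact hall n _ (hfg n))
      (fun l hl hlp n => by
        obtain ⟨w, hw⟩ := (ZMod.intCast_zmod_eq_zero_iff_dvd (z (n * l) +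
          (if l ∣ n then (l : ℤ) ^ (k - 1) * z (n / l) else 0) - ((a l).val : ℤ) * z n) p).1 (by
          push_cast [apply_ite (Int.cast : ℤ → ZMod p), hzmod, ZMod.natCast_zmod_val]
          rw [hcoef l hl hlp n, sub_self])
        refine ⟨w, ?_⟩
        rw [map_sub, map_smul, Pi.sub_apply, Pi.smul_apply, smul_eq_mul, qL_heckeT hl, hzpow,
          hfg, hfg, hfg, ← hw]
        push_cast [apply_ite (Int.cast : ℤ → ℂ)]
        ring)
    refine ⟨(CuspForm.mcast rfl F gamma0_one_coe.symm : CuspForm 𝒮ℒ (k : ℤ)), m, hm, hpm,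
      fun e' => hF0 (DFunLike.coe_injective (congrArg DFunLike.coe e' :)), fun l hl => ?_⟩
    obtain ⟨c, hc, hc'⟩ := hF l hl
    exact ⟨c, hc, fun n => by
      have h := hc' n
      rw [hzpow] at h
      exact h⟩
  · -- Eisenstein
    have hint : IsIntegral ℤ (p : ℂ) := isIntegral_algebraMap (x := (p : ℤ))
    obtain ⟨m, hm, hpm⟩ : ∃ m : Ideal ZB, m.IsMaximal ∧ (p : ZB) ∈ m := by
      have hne : Ideal.span {(p : ZB)} ≠ ⊤ := by
        rw [Ne, Ideal.span_singleton_eq_top]
        intro hu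
        obtain ⟨u, hu⟩ := hu.exists_left_inv
        have h := congrArg Subtype.val hu
        have hi : IsIntegral ℤ ((1 / p : ℚ) : ℂ) := by
          rw [show ((1 / p : ℚ) : ℂ) = (u : ℂ) by
            push_cast at h ⊢
            rw [div_eq_iff (Nat.cast_ne_zero.2 hp.ne_zero), h]]
          exact u.2
        obtain ⟨y, hy⟩ := IsIntegrallyClosed.isIntegral_iff.1
          ((isIntegral_algebraMap_iff (R := ℤ) (algebraMap ℚ ℂ).injective).1 hi)
        rw [eq_intCast, eq_div_iff (Nat.cast_ne_zero.2 hp.ne_zero)] at hy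
        exact hp.not_dvd_one (Int.natCast_dvd_natCast.1 ⟨y, by
          rw [mul_comm]; exact_mod_cast hy.symm⟩)
      obtain ⟨m, hm, hle⟩ := Ideal.exists_le_maximal _ hne
      exact ⟨m, hm, hle (Ideal.mem_span_singleton_self _)⟩
    refine ⟨ModularForm.E (k := k) (show 3 ≤ k by omega), m, hm, hpm, fun e => ?_, fun l hl => ?_⟩
    · have h := congrArg (fun g : ModularForm 𝒮ℒ (k : ℤ) => (qExpansion 1 g).coeff 0) e
      simp [EisensteinSeries.E_qExpansion_coeff _ hev.1, qExpansion_zero] at h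
    refine ⟨1 + (l : ZB) ^ (k - 1), fun hlp => ?_, fun n => ?_⟩
    · have ha : a l = ((1 + l ^ (k - 1) : ℕ) : ZMod p) := by
        have h := hcoef l hl hlp 0
        rw [zero_mul, if_pos (dvd_zero l), Nat.zero_div] at h
        push_cast
        exact (mul_right_cancel₀ h0 (by linear_combination h)).symm
      obtain ⟨d, hd⟩ : (p : ℤ) ∣ (1 + l ^ (k - 1) : ℕ) - ((a l).val : ℤ) := by
        rw [← ZMod.intCast_zmod_eq_zero_iff_dvd]
        push_cast
        rw [ZMod.natCast_zmod_val, ha]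
        push_cast
        ring
      have h' := congrArg (fun x : ℤ => (x : ZB)) hd
      push_cast at h'
      rw [h']
      exact m.mul_mem_right _ hpm
    · simp only [EisensteinSeries.E_qExpansion_coeff _ hev.1]
      push_cast
      rcases eq_or_ne n 0 with rfl | hn
      · simp
      rw [if_neg (Nat.mul_ne_zero hn hl.ne_zero), if_neg hn]
      have hs := congrArg (Int.cast : ℤ → ℂ) (sigma_hecke hl (k - 1) hn)
      by_cases hd : l ∣ n
      · rw [if_pos hd, if_neg (Nat.div_pos (Nat.le_of_dvd (Nat.pos_of_ne_zero hn) hd) hl.pos).ne']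
        rw [if_pos hd] at hs
        push_cast at hs
        linear_combination (-(2 * (k : ℂ) / (bernoulli k : ℂ))) * hs
      · rw [if_neg hd]
        rw [if_neg hd] at hs
        push_cast at hs
        linear_combination (-(2 * (k : ℂ) / (bernoulli k : ℂ))) * hs

end FA.SwinnertonDyer

end
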