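import Fermat.Agent.Tau.FieldClassBound
import Mathlib.NumberTheory.PrimesCongruentOne
import Mathlib.RingTheory.ZMod.UnitsCyclic
import Mathlib.FieldTheory.IntermediateField.Adjoin.Basic

/-!
# Nagell's theorem on class numbers of imaginary quadratic fields

If `m² d = b² - 4 a ^ g` with `a`, `b` coprime and `α = (b + m √d) / 2`, then the ideal `(a, α)` has
`g`-th power `(α)`. A prime `q ∣ a` with `q ≡ 1 (mod 12 g)` modulo which `b` is no `l`-th power for
any prime `l ∣ g` makes its class have order exactly `g`. A further prime `r` dividing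
`4 a ^ g - b²` exactly once shows that `|d|` can be taken arbitrarily large.
-/

set_option autoImplicit false
set_option linter.style.haveILetI false

noncomputable section

namespace FA.Nagell

open NumberField Module
open scoped nonZeroDivisors IntermediateField

variable {K : Type*} [Field K] [NumberField K] {d : ℤ} {s : K}

/-- The units of an imaginary quadratic field are twelfth roots of unity. -/
theorem unit_pow_twelve (hK : finrank ℚ K = 2) (hd : Squarefree d) (hd0 : d < 0)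
    (hs : s ^ 2 = (d : K)) (u : (𝓞 K)ˣ) : (u : 𝓞 K) ^ 12 = 1 := by
  obtain ⟨A, B, N, h1, hN⟩ := FA.FieldClassBound.exists_double_coord hK hd hd0 hs (u : 𝓞 K)
  obtain ⟨A', B', N', h1', hN'⟩ :=
    FA.FieldClassBound.exists_double_coord hK hd hd0 hs ((u⁻¹ : (𝓞 K)ˣ) : 𝓞 K)
  obtain ⟨e, he⟩ := FA.FieldClassBound.exists_emb hd0 hs
  have hnorm : ∀ (w : K) (X Y Z : ℤ), 2 * w = (X : K) + (Y : K) * s →
      X ^ 2 - d * Y ^ 2 = 4 * Z → Complex.normSq (e w) = (Z : ℝ) := by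
    intro w X Y Z hw hZ
    have h := congrArg Complex.normSq (congrArg e hw)
    have hdr : (0 : ℝ) ≤ -(d : ℝ) := by
      have : (d : ℝ) < 0 := Int.cast_lt_zero.2 hd0
      linarith
    have hZ' : (X : ℝ) ^ 2 - d * (Y : ℝ) ^ 2 = 4 * Z := by exact_mod_cast hZ
    simp only [map_mul, map_add, map_ofNat, map_intCast, he] at h
    rw [show (X : ℂ) + (Y : ℂ) * (Complex.I * (Real.sqrt (-(d : ℝ)) : ℂ)) =
      ((X : ℝ) : ℂ) + ((Y * Real.sqrt (-(d : ℝ)) : ℝ) : ℂ) * Complex.I by push_cast; ring,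
      Complex.normSq_add_mul_I, mul_pow, Real.sq_sqrt hdr,
      show Complex.normSq (2 : ℂ) = 4 by norm_num [Complex.normSq_apply]] at h
    linarith
  have hA := hnorm _ A B N h1 hN
  have hA' := hnorm _ A' B' N' h1' hN'
  have hNN : N * N' = 1 := by
    have h : ((N * N' : ℤ) : ℝ) = 1 := by
      rw [Int.cast_mul, ← hA, ← hA', ← map_mul, ← map_mul,
        show ((u : 𝓞 K) : K) * (((u⁻¹ : (𝓞 K)ˣ) : 𝓞 K) : K) = 1 from by
          rw [← map_mul, ← Units.val_mul, mul_inv_cancel, Units.val_one, map_one],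
        map_one, map_one]
    exact_mod_cast h
  have hN0 : 0 ≤ N := by
    have := Complex.normSq_nonneg (e ((u : 𝓞 K) : K))
    rw [hA] at this
    exact_mod_cast this
  obtain rfl : N = 1 := Int.eq_one_of_mul_eq_one_right hN0 hNN
  set w : K := ((u : 𝓞 K) : K) with hw
  have hrel : w ^ 2 - (A : K) * w + 1 = 0 := by
    have hN2 : (A : K) ^ 2 - (d : K) * (B : K) ^ 2 = 4 * 1 := by exact_mod_cast hN
    have : 4 * (w ^ 2 - (A : K) * w + 1) = 0 := by
      linear_combination (2 * w - (A : K) + (B : K) * s) * h1 + (B : K) ^ 2 * hs - hN2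
    exact (mul_eq_zero.1 this).resolve_left (by norm_num)
  have hAl : -2 ≤ A ∧ A ≤ 2 := by
    have : A ^ 2 ≤ 4 := by nlinarith [sq_nonneg B]
    constructor <;> nlinarith
  suffices h : w ^ 12 = 1 by
    apply RingOfIntegers.ext
    push_cast
    exact h
  obtain ⟨hl, hu⟩ := hAl
  interval_cases A <;> push_cast at hrel
  · rw [show w = -1 by
      have : (w + 1) ^ 2 = 0 := by linear_combination hrel
      linear_combination sq_eq_zero_iff.1 this]
    ring
  · linear_combination (w ^ 4 - w ^ 3 + w - 1) * (w ^ 6 + 1) * hrel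
  · linear_combination (w ^ 10 - w ^ 8 + w ^ 6 - w ^ 4 + w ^ 2 - 1) * hrel
  · linear_combination (w ^ 4 + w ^ 3 - w - 1) * (w ^ 6 + 1) * hrel
  · rw [show w = 1 by
      have : (w - 1) ^ 2 = 0 := by linear_combination hrel
      linear_combination sq_eq_zero_iff.1 this]
    ring

theorem sup_pow_le {R : Type*} [CommRing R] (A B : Ideal R) (n : ℕ) :
    (A ⊔ B) ^ n ≤ A ^ n ⊔ B := by
  induction n with
  | zero => simp
  | succ k ih =>
    rw [pow_succ, pow_succ]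
    refine (Ideal.mul_mono_left ih).trans ?_
    rw [Ideal.sup_mul, Ideal.mul_sup, Ideal.mul_sup]
    exact sup_le (sup_le le_sup_left (le_sup_of_le_right (Ideal.mul_le_inf.trans inf_le_right)))
      (sup_le (le_sup_of_le_right (Ideal.mul_le_inf.trans inf_le_left))
        (le_sup_of_le_right (Ideal.mul_le_inf.trans inf_le_left)))

/-- The class of `(a, (b + m √d) / 2)` has order exactly `g`. -/
theorem exists_orderOf_eq (hK : finrank ℚ K = 2) (hd : Squarefree d) (hd0 : d < 0)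
    (hs : s ^ 2 = (d : K)) {g a b q : ℕ} {m : ℤ} (hg : 0 < g) (ha : 0 < a)
    (heq : m ^ 2 * d = (b : ℤ) ^ 2 - 4 * (a : ℤ) ^ g) (hab : Nat.Coprime a b) (hq : q.Prime)
    (hqa : q ∣ a) (hqg : 12 * g ∣ q - 1)
    (hpow : ∀ l : ℕ, l.Prime → l ∣ g → (b : ZMod q) ^ ((q - 1) / l) ≠ 1) :
    ∃ x : ClassGroup (𝓞 K), orderOf x = g := by
  haveI := Fact.mk hq
  have hqb : ¬ q ∣ b := fun h => hq.not_dvd_one (hab ▸ Nat.dvd_gcd hqa h)
  have heqK : (m : K) ^ 2 * (d : K) = (b : K) ^ 2 - 4 * (a : K) ^ g := by exact_mod_cast heq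
  have hint : IsIntegral ℤ (((b : K) + (m : K) * s) / 2) :=
    ⟨Polynomial.X ^ 2 - Polynomial.C (b : ℤ) * Polynomial.X + Polynomial.C ((a : ℤ) ^ g),
      by monicity!, by
      rw [← Polynomial.aeval_def]
      simp only [map_add, map_sub, map_mul, map_pow, Polynomial.aeval_X, map_natCast]
      linear_combination ((m : K) ^ 2 / 4) * hs + heqK / 4⟩
  obtain ⟨α, hα⟩ : ∃ α : 𝓞 K, (α : K) = ((b : K) + (m : K) * s) / 2 := ⟨⟨_, hint⟩, rfl⟩
  set β' : 𝓞 K := (b : 𝓞 K) - α with hβ'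
  have hprod : α * β' = (a : 𝓞 K) ^ g := RingOfIntegers.ext (by
    push_cast [hβ', hα]
    linear_combination (-((m : K) ^ 2) / 4) * hs - heqK / 4)
  have hα0 : α ≠ 0 := fun h => by
    rw [h, zero_mul] at hprod
    exact pow_ne_zero g (Nat.cast_ne_zero.2 ha.ne') hprod.symm
  set I : Ideal (𝓞 K) := Ideal.span {(a : 𝓞 K)} ⊔ Ideal.span {α} with hI
  have hIg : I ^ g = Ideal.span {α} := by
    refine le_antisymm ((sup_pow_le _ _ g).trans (sup_le ?_ le_rfl)) ?_
    · rw [Ideal.span_singleton_pow, Ideal.span_singleton_le_span_singleton]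
      exact ⟨β', hprod.symm⟩
    · have hu : IsCoprime ((a : ℤ) ^ g) (b : ℤ) :=
        (Nat.isCoprime_iff_coprime.2 hab).pow_left
      obtain ⟨x, y, hxy⟩ := hu
      have hxy' : (x : 𝓞 K) * (a : 𝓞 K) ^ g + (y : 𝓞 K) * (b : 𝓞 K) = 1 := by
        exact_mod_cast congrArg (Int.cast : ℤ → 𝓞 K) hxy
      have hcop : IsCoprime α β' := ⟨(x : 𝓞 K) * β' + y, y, by
        rw [hβ'] at hprod ⊢
        linear_combination (x : 𝓞 K) * hprod + hxy'⟩
      obtain ⟨z, t, hzt⟩ := hcop.pow_left (m := g - 1)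
      have hmem : α = z * α ^ g + t * (a : 𝓞 K) ^ g := by
        conv_rhs => rw [show g = g - 1 + 1 by omega, pow_succ α]
        rw [show g - 1 + 1 = g by omega, ← hprod]
        linear_combination -α * hzt
      rw [Ideal.span_singleton_le_iff_mem, hmem]
      refine add_mem (Ideal.mul_mem_left _ _ (Ideal.pow_mem_pow ?_ g))
        (Ideal.mul_mem_left _ _ (Ideal.pow_mem_pow ?_ g))
      · exact Ideal.mem_sup_right (Ideal.mem_span_singleton_self α)
      · exact Ideal.mem_sup_left (Ideal.mem_span_singleton_self _)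
  have hI0 : I ∈ (Ideal (𝓞 K))⁰ := mem_nonZeroDivisors_iff_ne_zero.2 fun h => by
    have h2 : (a : 𝓞 K) ∈ I := Ideal.mem_sup_left (Ideal.mem_span_singleton_self _)
    rw [h, Ideal.zero_eq_bot, Ideal.mem_bot] at h2
    exact Nat.cast_ne_zero.2 ha.ne' h2
  refine ⟨ClassGroup.mk0 ⟨I, hI0⟩, orderOf_eq_of_pow_and_pow_div_prime hg ?_ ?_⟩
  · rw [← map_pow, ← Subtype.coe_eta (⟨I, hI0⟩ ^ g : (Ideal (𝓞 K))⁰) (SetLike.coe_mem _),
      ClassGroup.mk0_eq_one_iff]
    exact ⟨⟨α, by rw [SubmonoidClass.coe_pow]; exact hIg⟩⟩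
  intro l hl hlg hone
  rw [← map_pow, ← Subtype.coe_eta (⟨I, hI0⟩ ^ (g / l) : (Ideal (𝓞 K))⁰) (SetLike.coe_mem _),
    ClassGroup.mk0_eq_one_iff] at hone
  obtain ⟨β, hβ⟩ := hone.principal
  rw [SubmonoidClass.coe_pow, Ideal.submodule_span_eq] at hβ
  have h2 := congrArg (· ^ l) hβ
  simp only [← pow_mul, Nat.div_mul_cancel hlg, hIg, Ideal.span_singleton_pow] at h2
  obtain ⟨u, hu⟩ := Ideal.span_singleton_eq_span_singleton.1 h2.symm
  -- reduction modulo a prime containing `q` and the conjugate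
  have hne : Ideal.span {(q : 𝓞 K)} ⊔ Ideal.span {β'} ≠ ⊤ := fun htop => by
    obtain ⟨_, hx, _, hy, hxy⟩ := Submodule.mem_sup.1
      (show (1 : 𝓞 K) ∈ Ideal.span {(q : 𝓞 K)} ⊔ Ideal.span {β'} by rw [htop]; trivial)
    obtain ⟨x, rfl⟩ := Ideal.mem_span_singleton'.1 hx
    obtain ⟨y, rfl⟩ := Ideal.mem_span_singleton'.1 hy
    obtain ⟨c, hc⟩ : q ∣ a ^ g := dvd_pow hqa hg.ne'
    have hc' : (a : 𝓞 K) ^ g = (q : 𝓞 K) * (c : 𝓞 K) := by exact_mod_cast hc
    have hγ : α = (q : 𝓞 K) * (x * α + y * c) := by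
      linear_combination (-α) * hxy + y * hprod + y * hc'
    obtain ⟨A, B, -, h1, -⟩ :=
      FA.FieldClassBound.exists_double_coord hK hd hd0 hs (x * α + y * c)
    have hγ' := congrArg (fun r : 𝓞 K => (r : K)) hγ
    push_cast [hα] at hγ' h1
    have h3 : ((b : ℤ) - q * A : ℤ) = ((q * B - m : ℤ) : K) * s := by
      push_cast
      linear_combination 2 * hγ' + (q : K) * h1
    have h4 : ((b : ℤ) - q * A) ^ 2 = (q * B - m) ^ 2 * d := by
      have h5 := congrArg (· ^ 2) h3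
      simp only [mul_pow, hs] at h5
      exact_mod_cast h5
    have h6 : ((b : ℤ) - q * A) = 0 := by
      nlinarith [sq_nonneg ((b : ℤ) - q * A), sq_nonneg ((q : ℤ) * B - m)]
    exact hqb (Int.natCast_dvd_natCast.1 ⟨A, by linarith⟩)
  obtain ⟨M, hM, hle⟩ := Ideal.exists_le_maximal _ hne
  haveI := hM
  letI : Field (𝓞 K ⧸ M) := Ideal.Quotient.field M
  set π := Ideal.Quotient.mk M with hπ
  have hq0 : (q : 𝓞 K ⧸ M) = 0 := by
    rw [← map_natCast π q, hπ, Ideal.Quotient.eq_zero_iff_mem]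
    exact hle (Ideal.mem_sup_left (Ideal.mem_span_singleton_self _))
  haveI : CharP (𝓞 K ⧸ M) q := (CharP.charP_iff_prime_eq_zero hq).2 hq0
  set φ : ZMod q →+* 𝓞 K ⧸ M := ZMod.castHom dvd_rfl _
  have hπα : π α = (b : 𝓞 K ⧸ M) := by
    have : π β' = 0 := Ideal.Quotient.eq_zero_iff_mem.2
      (hle (Ideal.mem_sup_right (Ideal.mem_span_singleton_self _)))
    rw [hβ', map_sub, map_natCast, sub_eq_zero] at this
    exact this.symm
  have hb0 : (b : ZMod q) ≠ 0 := fun h => hqb ((ZMod.natCast_eq_zero_iff b q).1 h)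
  have hm0 : (m : ZMod q) ≠ 0 := fun h => hb0 (by
    have h1 := congrArg (Int.cast : ℤ → ZMod q) heq
    push_cast at h1
    rw [h, (ZMod.natCast_eq_zero_iff a q).2 hqa, zero_pow hg.ne'] at h1
    exact sq_eq_zero_iff.1 (by linear_combination -h1))
  have h20 : (2 : ZMod q) ≠ 0 := fun h => by
    have h12 : 12 ≤ q - 1 := (Nat.le_mul_of_pos_right 12 hg).trans
      (Nat.le_of_dvd (Nat.sub_pos_of_lt hq.one_lt) hqg)
    have := Nat.le_of_dvd two_pos ((ZMod.natCast_eq_zero_iff 2 q).1 (by exact_mod_cast h))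
    omega
  have hres : ∀ r : 𝓞 K, ∃ c : ZMod q, φ c = π r := by
    intro r
    obtain ⟨A, B, -, h1, -⟩ := FA.FieldClassBound.exists_double_coord hK hd hd0 hs r
    have h3 : ((m : 𝓞 K) + m) * r = m * A + B * (α + α - b) := RingOfIntegers.ext (by
      simp [hα]
      linear_combination (m : K) * h1)
    have h4 := congrArg π h3
    simp only [map_mul, map_add, map_sub, map_natCast, map_intCast, hπα] at h4
    have h5 : φ (2 * (m : ZMod q)) ≠ 0 := (map_ne_zero φ).2 (mul_ne_zero h20 hm0)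
    refine ⟨((m : ZMod q) * A + B * b) / (2 * m), ?_⟩
    rw [map_div₀, div_eq_iff h5]
    simp only [map_mul, map_add, map_natCast, map_intCast, map_ofNat]
    linear_combination -h4
  obtain ⟨c, hc⟩ := hres β
  obtain ⟨v, hv⟩ := hres (u : 𝓞 K)
  have hv12 : v ^ 12 = 1 := φ.injective (by
    rw [map_pow, hv, ← map_pow, unit_pow_twelve hK hd hd0 hs u, map_one, map_one])
  have hbcv : (b : ZMod q) = c ^ l * v := φ.injective (by
    rw [map_natCast, map_mul, map_pow, hc, hv, ← map_pow, ← map_mul, hu, hπα])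
  have hc0 : c ≠ 0 := fun h => hb0 (by rw [hbcv, h, zero_pow hl.pos.ne', zero_mul])
  obtain ⟨k, hk⟩ : 12 * l ∣ q - 1 := (Nat.mul_dvd_mul_left 12 hlg).trans hqg
  refine hpow l hl hlg ?_
  rw [show (q - 1) / l = 12 * k by
      rw [hk, show 12 * l * k = l * (12 * k) by ring, Nat.mul_div_cancel_left _ hl.pos],
    hbcv, mul_pow, pow_mul v, hv12, one_pow, mul_one, ← pow_mul,
    show l * (12 * k) = q - 1 by rw [hk]; ring, ZMod.pow_card_sub_one_eq_one hc0]

/-- The parameters, with `d` as large as wanted. -/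
theorem exists_params {g : ℕ} (hg : 0 < g) (M : ℕ) :
    ∃ (d m : ℤ) (a b q : ℕ), Squarefree d ∧ d < 0 ∧ M < d.natAbs ∧ 0 < a ∧
      m ^ 2 * d = (b : ℤ) ^ 2 - 4 * (a : ℤ) ^ g ∧ Nat.Coprime a b ∧ q.Prime ∧ q ∣ a ∧
      12 * g ∣ q - 1 ∧ ∀ l : ℕ, l.Prime → l ∣ g → (b : ZMod q) ^ ((q - 1) / l) ≠ 1 := by
  obtain ⟨q, hq, -, hqk⟩ := Nat.exists_prime_gt_modEq_one (k := 12 * g) 2 (by omega)
  have hqg : 12 * g ∣ q - 1 := (Nat.modEq_iff_dvd' hq.one_lt.le).1 hqk.symm
  haveI := Fact.mk hq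
  haveI := ZMod.isCyclic_units_prime hq
  obtain ⟨γ, hγ⟩ := IsCyclic.exists_generator (α := (ZMod q)ˣ)
  have hord : orderOf γ = q - 1 := by
    rw [orderOf_eq_card_of_forall_mem_zpowers hγ, Nat.card_eq_fintype_card, ZMod.card_units]
  obtain ⟨r, hr, hrp⟩ := Nat.exists_infinite_primes (q + M + 6)
  have hcop : Nat.Coprime q (r ^ 2) :=
    ((Nat.coprime_primes hq hrp).2 (by omega)).pow_right 2
  obtain ⟨b, hbq, hbr⟩ := Nat.chineseRemainder hcop (γ : ZMod q).val (2 + r)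
  have hbz : (b : ZMod q) = (γ : ZMod q) := by
    rw [(ZMod.natCast_eq_natCast_iff _ _ _).2 hbq, ZMod.natCast_zmod_val]
  have hqb : ¬ q ∣ b := fun h => γ.ne_zero (by rw [← hbz, (ZMod.natCast_eq_zero_iff b q).2 h])
  have hb0 : b ≠ 0 := fun h => hqb (h ▸ dvd_zero q)
  have hcop2 : Nat.Coprime q (r ^ 2 * b) :=
    hcop.mul_right ((Nat.Prime.coprime_iff_not_dvd hq).2 hqb)
  obtain ⟨a₀, ha₀q, ha₀⟩ := Nat.chineseRemainder hcop2 0 1
  set a := a₀ + q * (r ^ 2 * b) * (b ^ 2 + 1) with ha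
  have haq : q ∣ a := dvd_add (Nat.modEq_zero_iff_dvd.1 ha₀q) (dvd_mul_of_dvd_left
    (dvd_mul_right _ _) _)
  have ha1 : a ≡ 1 [MOD r ^ 2 * b] := by
    have : q * (r ^ 2 * b) * (b ^ 2 + 1) ≡ 0 [MOD r ^ 2 * b] :=
      Nat.modEq_zero_iff_dvd.2 (dvd_mul_of_dvd_left (dvd_mul_left _ _) _)
    simpa [ha] using ha₀.add this
  have hab : Nat.Coprime a b := by
    rw [Nat.coprime_comm, Nat.Coprime, Nat.gcd_comm, Nat.ModEq.gcd_eq
      (ha1.of_mul_left (r ^ 2)), Nat.gcd_one_left]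
  have hba : b ^ 2 < a := by
    have h1 : 1 * (b ^ 2 + 1) ≤ q * (r ^ 2 * b) * (b ^ 2 + 1) :=
      Nat.mul_le_mul_right _ (Nat.one_le_iff_ne_zero.2
        (mul_ne_zero hq.ne_zero (mul_ne_zero (pow_ne_zero 2 hrp.ne_zero) hb0)))
    omega
  have hag : b ^ 2 < 4 * a ^ g := by
    have := Nat.le_self_pow hg.ne' a
    omega
  set N := 4 * a ^ g - b ^ 2 with hN
  have hNz : (N : ℤ) = 4 * (a : ℤ) ^ g - (b : ℤ) ^ 2 := by
    rw [hN, Nat.cast_sub hag.le]; push_cast; ring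
  have hrN : ((r : ℤ) ^ 2) ∣ (N : ℤ) + 4 * r := by
    have h1 : (a : ℤ) ≡ 1 [ZMOD ((r ^ 2 : ℕ) : ℤ)] := by
      exact_mod_cast Int.natCast_modEq_iff.2 (ha1.of_mul_right b)
    have h2 : (b : ℤ) ≡ 2 + r [ZMOD ((r ^ 2 : ℕ) : ℤ)] := by
      exact_mod_cast Int.natCast_modEq_iff.2 hbr
    have h3 := Int.modEq_iff_dvd.1 (((h1.pow g).mul_left 4).sub (h2.pow 2))
    push_cast at h3
    rw [one_pow, ← hNz] at h3
    have := dvd_neg.2 (dvd_add h3 (dvd_refl ((r : ℤ) ^ 2)))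
    exact this.trans (dvd_of_eq (by ring))
  obtain ⟨n, f, hn, hf, hnf, hsq⟩ := Nat.sq_mul_squarefree_of_pos (n := N) (by omega)
  have hrN1 : r ∣ f ^ 2 * n := by
    rw [hnf]
    have := (dvd_add_left (dvd_mul_left (r : ℤ) 4)).1 ((dvd_pow_self _ two_ne_zero).trans hrN)
    exact_mod_cast this
  have hrn : r ∣ n := (hrp.dvd_mul.1 hrN1).resolve_left fun h => by
    have h2 : ((r : ℤ) ^ 2) ∣ (N : ℤ) := by
      rw [← hnf]
      exact_mod_cast dvd_mul_of_dvd_left (pow_dvd_pow_of_dvd (hrp.dvd_of_dvd_pow h) 2) n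
    have h3 : (r : ℤ) * r ∣ 4 * r := by
      rw [← pow_two]; exact (dvd_add_right h2).1 hrN
    have h4 := (mul_dvd_mul_iff_right (Int.natCast_ne_zero.2 hrp.ne_zero)).1 h3
    have := Int.le_of_dvd (by norm_num) h4
    omega
  refine ⟨-(n : ℤ), f, a, b, q, Int.squarefree_natAbs.1 (by simpa using hsq), by omega, ?_,
    by omega, ?_, hab, hq, haq, hqg, fun l hl hlg h => ?_⟩
  · have := Nat.le_of_dvd hn hrn
    omega
  · have : (f : ℤ) ^ 2 * n = N := by exact_mod_cast hnf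
    linarith [hNz, this]
  · rw [hbz, ← Units.val_pow_eq_pow_val, Units.val_eq_one] at h
    have h1 := Nat.le_of_dvd (Nat.div_pos (Nat.le_of_dvd (Nat.sub_pos_of_lt hq.one_lt)
      ((hlg.trans (dvd_mul_left g 12)).trans hqg)) hl.pos) (hord ▸ orderOf_dvd_of_pow_eq_one h)
    exact absurd (Nat.div_lt_self (Nat.sub_pos_of_lt hq.one_lt) hl.one_lt) (not_lt.2 h1)

/-- An imaginary quadratic field inside `ℂ`. -/
theorem exists_field {d : ℤ} (hd0 : d < 0) :
    ∃ (K : IntermediateField ℚ ℂ) (_ : NumberField K),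
      finrank ℚ K = 2 ∧ ∃ s : K, s ^ 2 = (d : K) := by
  set x : ℂ := Complex.I * (Real.sqrt (-(d : ℝ)) : ℂ) with hx
  have hdr : (d : ℝ) < 0 := Int.cast_lt_zero.2 hd0
  have hx2 : x ^ 2 = (d : ℂ) := by
    rw [hx, mul_pow, Complex.I_sq, ← Complex.ofReal_pow, Real.sq_sqrt (by linarith)]
    push_cast; ring
  have hmonic : (Polynomial.X ^ 2 - Polynomial.C (d : ℚ)).Monic :=
    Polynomial.monic_X_pow_sub_C _ two_ne_zero
  have hroot : Polynomial.aeval x (Polynomial.X ^ 2 - Polynomial.C (d : ℚ)) = 0 := by simp [hx2]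
  have hint : IsIntegral ℚ x := ⟨_, hmonic, hroot⟩
  haveI : FiniteDimensional ℚ (IntermediateField.adjoin ℚ {x}) :=
    IntermediateField.adjoin.finiteDimensional hint
  haveI : NumberField (IntermediateField.adjoin ℚ {x}) := { }
  refine ⟨IntermediateField.adjoin ℚ {x}, inferInstance, ?_,
    ⟨x, IntermediateField.mem_adjoin_simple_self ℚ x⟩, Subtype.ext (by simpa using hx2)⟩
  rw [IntermediateField.adjoin.finrank hint]
  refine le_antisymm
    ((Polynomial.natDegree_le_of_dvd (minpoly.dvd ℚ x hroot) hmonic.ne_zero).trans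
    (le_of_eq Polynomial.natDegree_X_pow_sub_C)) ?_
  by_contra hlt
  obtain ⟨q, hq⟩ := minpoly.natDegree_eq_one_iff.1
    (le_antisymm (by omega) (minpoly.natDegree_pos hint))
  have h2 := congrArg (fun z : ℂ => z ^ 2) hq
  simp only [eq_ratCast, hx2] at h2
  have h3 : q ^ 2 = (d : ℚ) := by exact_mod_cast h2
  have : (d : ℚ) < 0 := Int.cast_lt_zero.2 hd0
  nlinarith [sq_nonneg q]

end FA.Nagell

end
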