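import Fermat.Agent.Tau.HurwitzGeneral

/-!
# The classes of integral matrices with a given elliptic characteristic polynomial

For `t² < 4 n` the classes under conjugation by `SL₂(ℤ)` of the matrices of trace `t` and
determinant `n` correspond to the reduced forms of discriminant `t² - 4 n` and their negatives
(Latimer–MacDuffee), and half the centraliser of a class is the inverse of the weight of its form.
-/

set_option autoImplicit false
set_option linter.style.haveILetI false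

noncomputable section

namespace FA.MatrixClasses

open UpperHalfPlane hiding I
open FA.ModField FA.ModPoly FA.JInj FA.Singular FA.ClassRelation
open scoped Classical MatrixGroups

attribute [local irreducible] redForms

/-- The matrices of trace `t` and determinant `n`. -/
abbrev MatTN (t : ℤ) (n : ℕ) : Type := {M : Mat // M.trace = t ∧ M.det = n}

/-- Conjugation by `SL₂(ℤ)`. -/
def Conj {t : ℤ} {n : ℕ} (M M' : MatTN t n) : Prop :=
  ∃ g : SL(2, ℤ), (g : Mat) * M = M' * g

theorem conj_equivalence (t : ℤ) (n : ℕ) : Equivalence (Conj (t := t) (n := n)) where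
  refl M := ⟨1, by simp⟩
  symm := by
    rintro M M' ⟨g, hg⟩
    refine ⟨g⁻¹, ?_⟩
    have h := congrArg (fun X : Mat => ((g⁻¹ : SL(2, ℤ)) : Mat) * X * ((g⁻¹ : SL(2, ℤ)) : Mat)) hg
    simp only [← Matrix.mul_assoc, ← Matrix.SpecialLinearGroup.coe_mul, inv_mul_cancel,
      Matrix.SpecialLinearGroup.coe_one, Matrix.one_mul] at h
    rw [h, Matrix.mul_assoc _ (g : Mat), ← Matrix.SpecialLinearGroup.coe_mul, mul_inv_cancel,
      Matrix.SpecialLinearGroup.coe_one, Matrix.mul_one]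
  trans := by
    rintro M M' M'' ⟨g, hg⟩ ⟨g', hg'⟩
    refine ⟨g' * g, ?_⟩
    rw [Matrix.SpecialLinearGroup.coe_mul, Matrix.mul_assoc, hg, ← Matrix.mul_assoc, hg',
      Matrix.mul_assoc]

/-- The form of a matrix. -/
def formOf (M : Mat) : ℤ × ℤ × ℤ := (M 1 0, M 1 1 - M 0 0, -M 0 1)

theorem disc_formOf (M : Mat) : disc (formOf M) = M.trace ^ 2 - 4 * M.det := by
  simp only [disc, formOf, Matrix.trace_fin_two, Matrix.det_fin_two]
  ring

theorem eq_of_formOf {M M' : Mat} (ht : M.trace = M'.trace) (h : formOf M = formOf M') :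
    M = M' := by
  simp only [formOf, Prod.mk.injEq] at h
  simp only [Matrix.trace_fin_two] at ht
  refine Matrix.ext fun i j => ?_
  fin_cases i <;> fin_cases j <;> simp only [Fin.isValue, Fin.mk_one, Fin.zero_eta] <;> linarith

/-- Matrices with proportional forms commute. -/
theorem commute_of_formOf {M M' : Mat} {m m' : ℤ} {f : ℤ × ℤ × ℤ}
    (h : formOf M = smulForm m f) (h' : formOf M' = smulForm m' f) : M * M' = M' * M := by
  obtain ⟨a, b, c⟩ := f
  simp only [formOf, smulForm, Prod.mk.injEq] at h h'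
  obtain ⟨h1, h2, h3⟩ := h
  obtain ⟨h1', h2', h3'⟩ := h'
  have e1 : M 0 1 = -(m * c) := by linarith
  have e1' : M' 0 1 = -(m' * c) := by linarith
  have e2 : M 1 1 = M 0 0 + m * b := by linarith
  have e2' : M' 1 1 = M' 0 0 + m' * b := by linarith
  ext i j
  fin_cases i <;> fin_cases j <;>
    simp [Matrix.mul_apply, Fin.sum_univ_two, h1, h1', e1, e1', e2, e2'] <;> ring

theorem fixes_of_formOf {M : Mat} (hM : M.det ≠ 0) {m : ℤ} {f : ℤ × ℤ × ℤ}
    (h : formOf M = smulForm m f) {τ : ℍ} (hr : IsRoot f τ) : mob M τ = (τ : ℂ) := by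
  obtain ⟨a, b, c⟩ := f
  simp only [formOf, smulForm, Prod.mk.injEq] at h
  obtain ⟨h1, h2, h3⟩ := h
  simp only [IsRoot] at hr
  rw [fixes_iff hM]
  have e1 : (M 1 0 : ℂ) = m * a := by exact_mod_cast h1
  have e2 : (M 1 1 : ℂ) - M 0 0 = m * b := by exact_mod_cast h2
  have e3 : -(M 0 1 : ℂ) = m * c := by exact_mod_cast h3
  linear_combination (τ : ℂ) ^ 2 * e1 + (τ : ℂ) * e2 + e3 + (m : ℂ) * hr

theorem isRoot_formOf {M : Mat} (hM : M.det ≠ 0) {τ : ℍ} (h : mob M τ = (τ : ℂ)) :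
    IsRoot (formOf M) τ := by
  rw [fixes_iff hM] at h
  simp only [IsRoot, formOf]
  push_cast
  linear_combination h

theorem isRoot_of_smulForm {m : ℤ} (hm : m ≠ 0) {f : ℤ × ℤ × ℤ} {τ : ℍ}
    (h : IsRoot (smulForm m f) τ) : IsRoot f τ := by
  simp only [IsRoot, smulForm] at h ⊢
  push_cast at h
  refine mul_left_cancel₀ (show (m : ℂ) ≠ 0 by exact_mod_cast hm) ?_
  linear_combination h

/-- A fixed point moves with the conjugation. -/
theorem fixes_conj {M M' : Mat} (hM : 0 < M.det) {g : SL(2, ℤ)}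
    (hg : (g : Mat) * M = M' * g) {τ : ℍ} (h : mob M τ = (τ : ℂ)) :
    mob M' ((g • τ : ℍ) : ℂ) = ((g • τ : ℍ) : ℂ) := by
  have h1 : mob ((g : Mat) * M) τ = ((g • τ : ℍ) : ℂ) := by rw [mob_mul hM, h, mob_SL]
  rw [hg, mob_mul (by rw [g.det_coe]; exact one_pos), mob_SL] at h1
  exact h1

/-- A reduced form is a multiple of a reduced primitive one. -/
theorem exists_red_content {N : ℕ} (hN : 0 < N) {f : ℤ × ℤ × ℤ} (hf : f ∈ redForms N) :
    ∃ (k : ℤ) (f₁ : ℤ × ℤ × ℤ), 0 < k ∧ f = smulForm k f₁ ∧ f₁ ∈ Red (disc f₁) ∧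
      disc f₁ < 0 := by
  obtain ⟨hd, ha, hb, hc, hbd⟩ := mem_redForms.1 hf
  obtain ⟨k, ⟨a, b, c⟩, hk, rfl, ha₁, hprim⟩ := exists_content f ha
  have hd' := disc_smulForm k (a, b, c)
  simp only [disc, smulForm] at hd' hd ha hb hc hbd
  refine ⟨k, (a, b, c), hk, rfl, ⟨rfl, hprim, ha₁, ?_, le_of_mul_le_mul_left hc hk, fun h => ?_⟩,
    ?_⟩
  · rw [abs_mul, abs_of_pos hk] at hb
    exact le_of_mul_le_mul_left hb hk
  · refine nonneg_of_mul_nonneg_right (hbd ?_) hk
    rw [abs_mul, abs_of_pos hk]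
    exact h.imp (congrArg (k * ·)) (congrArg (k * ·))
  · simp only [disc]
    rw [hd] at hd'
    nlinarith [sq_nonneg k]

variable {t : ℤ} {n : ℕ} (htn : t ^ 2 < 4 * (n : ℤ))

include htn in
theorem det_pos (M : MatTN t n) : 0 < (M : Mat).det := by
  rw [M.2.2]
  nlinarith [sq_nonneg t]

include htn in
theorem natAbs_disc : ((4 * (n : ℤ) - t ^ 2).toNat : ℤ) = 4 * (n : ℤ) - t ^ 2 :=
  Int.toNat_of_nonneg (by omega)

include htn in
/-- The matrix of a form and a sign. -/
theorem exists_rep {f : ℤ × ℤ × ℤ} (hf : f ∈ redForms (4 * (n : ℤ) - t ^ 2).toNat) (s : Bool) :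
    ∃ M : MatTN t n, formOf (M : Mat) = smulForm (if s then 1 else -1) f := by
  obtain ⟨hd, -⟩ := mem_redForms.1 hf
  rw [natAbs_disc htn] at hd
  obtain ⟨a, b, c⟩ := f
  simp only at hd
  set e : ℤ := if s then 1 else -1
  have he : e ^ 2 = 1 := by cases s <;> simp [e]
  obtain ⟨x, hx⟩ : (2 : ℤ) ∣ t - e * b := by
    have h : (2 : ℤ) ∣ (t - e * b) * (t + e * b) :=
      ⟨2 * n - 2 * a * c, by linear_combination -hd - b ^ 2 * he⟩
    rcases Int.prime_two.dvd_or_dvd h with h | ⟨w, hw⟩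
    · exact h
    · exact ⟨w - e * b, by linarith⟩
  refine ⟨⟨!![x, -(e * c); e * a, t - x], by simp [Matrix.trace_fin_two], ?_⟩, ?_⟩
  · rw [Matrix.det_fin_two_of]
    refine mul_left_cancel₀ (show (4 : ℤ) ≠ 0 by norm_num) ?_
    linear_combination -hd - (t - 2 * x + e * b) * hx + (4 * a * c - b ^ 2) * he
  · simp [formOf, smulForm]
    linarith

/-- The matrix of a form and a sign. -/
def rep (q : {f // f ∈ redForms (4 * (n : ℤ) - t ^ 2).toNat} × Bool) : MatTN t n :=
  (exists_rep htn q.1.2 q.2).choose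

theorem formOf_rep (q : {f // f ∈ redForms (4 * (n : ℤ) - t ^ 2).toNat} × Bool) :
    formOf (rep htn q : Mat) = smulForm (if q.2 then 1 else -1) q.1.1 :=
  (exists_rep htn q.1.2 q.2).choose_spec

theorem rep_injective {q q' : {f // f ∈ redForms (4 * (n : ℤ) - t ^ 2).toNat} × Bool}
    (h : Conj (rep htn q) (rep htn q')) : q = q' := by
  obtain ⟨g, hg⟩ := h
  have hN : 0 < (4 * (n : ℤ) - t ^ 2).toNat := by omega
  obtain ⟨k, f₁, hk, hqf, hred, hD⟩ := exists_red_content hN q.1.2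
  obtain ⟨k', f₁', hk', hqf', hred', hD'⟩ := exists_red_content hN q'.1.2
  have hM := formOf_rep htn q
  have hM' := formOf_rep htn q'
  set M := rep htn q with hMdef
  set M' := rep htn q' with hM'def
  rw [hqf] at hM
  rw [hqf'] at hM'
  obtain ⟨τ, hτ⟩ := exists_isRoot hred.2.2.1 hD
  obtain ⟨τ', hτ'⟩ := exists_isRoot hred'.2.2.1 hD'
  have he : ∀ s : Bool, (if s then (1 : ℤ) else -1) ≠ 0 := fun s => by cases s <;> simp
  have hfix : mob (M : Mat) τ = (τ : ℂ) := fixes_of_formOf (det_pos htn M).ne'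
    (m := (if q.2 then 1 else -1) * k) (f := f₁)
    (by rw [hM]; simp only [smulForm, mul_assoc]) hτ
  have hfix' := fixes_conj (det_pos htn M) hg hfix
  have hroot' : IsRoot f₁' (g • τ) := by
    refine isRoot_of_smulForm hk'.ne' (isRoot_of_smulForm (he q'.2) ?_)
    rw [← hM']
    exact isRoot_formOf (det_pos htn M').ne' hfix'
  obtain ⟨u, hu⟩ := exists_disc_multiple hred.2.2.1.ne' hred.2.1 hτ hroot' rfl
  obtain ⟨v, hv⟩ := exists_disc_multiple hred'.2.2.1.ne' hred'.2.1 hroot' hτ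
    (g := g⁻¹) (inv_smul_smul g τ)
  have hu1 : 1 ≤ u ^ 2 := Int.add_one_le_iff.2 (sq_pos_iff.2 fun e => by rw [e] at hu; linarith)
  have hv1 : 1 ≤ v ^ 2 := Int.add_one_le_iff.2 (sq_pos_iff.2 fun e => by rw [e] at hv; linarith)
  have hDD : disc f₁' = disc f₁ := by nlinarith
  rw [hDD] at hred'
  obtain rfl : f₁ = f₁' := red_eq_of_smul hD hred hred' hτ hroot' rfl
  have hkk : k = k' := by
    have h1 := (mem_redForms.1 q.1.2).1
    have h2 := (mem_redForms.1 q'.1.2).1
    rw [show q.1.1.2.1 ^ 2 - 4 * q.1.1.1 * q.1.1.2.2 = disc q.1.1 from rfl, hqf,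
      disc_smulForm] at h1
    rw [show q'.1.1.2.1 ^ 2 - 4 * q'.1.1.1 * q'.1.1.2.2 = disc q'.1.1 from rfl, hqf',
      disc_smulForm] at h2
    exact (pow_left_inj₀ hk.le hk'.le two_ne_zero).1 (mul_right_cancel₀ hD.ne (h1.trans h2.symm))
  subst hkk
  have hq1 : q.1 = q'.1 := Subtype.ext (hqf.trans hqf'.symm)
  -- `g` fixes the root, so it commutes with the matrix
  have hgτ : g • τ = τ := root_unique hred.2.2.1.ne' hroot' hτ
  obtain ⟨l, hl⟩ := exists_multiple (h := formOf (g : Mat)) hred.2.2.1.ne' hred.2.1 hτ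
    (isRoot_formOf (by rw [g.det_coe]; exact one_ne_zero) (by rw [mob_SL, hgτ]))
  have hcomm : (g : Mat) * M = M * g := commute_of_formOf hl
    (m' := (if q.2 then 1 else -1) * k) (by rw [hM]; simp only [smulForm, mul_assoc])
  have hMM : (M : Mat) = M' := by
    have h := hcomm.symm.trans hg
    have h' := congrArg (fun X : Mat => X * ((g⁻¹ : SL(2, ℤ)) : Mat)) h
    simpa only [Matrix.mul_assoc, ← Matrix.SpecialLinearGroup.coe_mul, mul_inv_cancel,
      Matrix.SpecialLinearGroup.coe_one, Matrix.mul_one] using h'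
  rw [hMM, hM'] at hM
  have hs : q.2 = q'.2 := by
    have h := congrArg Prod.fst hM
    simp only [smulForm] at h
    have hne : k * f₁.1 ≠ 0 := mul_ne_zero hk.ne' hred.2.2.1.ne'
    rcases q with ⟨_, _ | _⟩ <;> rcases q' with ⟨_, _ | _⟩ <;> simp at h ⊢ <;> omega
  exact Prod.ext hq1 hs

include htn in
theorem exists_rep_conj (M : MatTN t n) : ∃ q, Conj M (rep htn q) := by
  have hdet := det_pos htn M
  have hdneg : disc (formOf (M : Mat)) < 0 := by
    rw [disc_formOf, M.2.1, M.2.2]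
    linarith
  have h10 : (M : Mat) 1 0 ≠ 0 := fun e => by
    simp only [disc, formOf, e, mul_zero, zero_mul, sub_zero] at hdneg
    linarith [sq_nonneg ((M : Mat) 1 1 - (M : Mat) 0 0)]
  -- a positive form at a fixed point
  obtain ⟨e, he, hpos⟩ : ∃ e : ℤ, e ≠ 0 ∧ 0 < (smulForm e (formOf (M : Mat))).1 := by
    rcases lt_or_gt_of_ne h10 with h | h
    · exact ⟨-1, by norm_num, by simpa [smulForm, formOf] using h⟩
    · exact ⟨1, one_ne_zero, by simpa [smulForm, formOf] using h⟩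
  obtain ⟨τ, hτ⟩ := exists_isRoot hpos (by
    rw [disc_smulForm]
    exact mul_neg_of_pos_of_neg (sq_pos_iff.2 he) hdneg)
  have hfix : mob (M : Mat) τ = (τ : ℂ) := fixes_of_formOf hdet.ne' (m := 1)
    (f := formOf (M : Mat)) (by simp [smulForm]) (isRoot_of_smulForm he hτ)
  obtain ⟨g, hg⟩ := ModularGroup.exists_smul_mem_fd τ
  have mk : ∀ (N : MatTN t n) (γ : SL(2, ℤ)), ∃ N' : MatTN t n, (γ : Mat) * N = N' * γ := by
    intro N γ
    refine ⟨⟨(γ : Mat) * N * ((γ⁻¹ : SL(2, ℤ)) : Mat), ?_, ?_⟩, ?_⟩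
    · rw [Matrix.trace_mul_cycle, ← Matrix.SpecialLinearGroup.coe_mul, inv_mul_cancel,
        Matrix.SpecialLinearGroup.coe_one, Matrix.one_mul, N.2.1]
    · rw [Matrix.det_mul, Matrix.det_mul, γ.det_coe, (γ⁻¹).det_coe, one_mul, mul_one, N.2.2]
    · rw [Matrix.mul_assoc, ← Matrix.SpecialLinearGroup.coe_mul, inv_mul_cancel,
        Matrix.SpecialLinearGroup.coe_one, Matrix.mul_one]
  obtain ⟨M₀, hM₀⟩ := mk M g
  have hfix₀ := fixes_conj hdet hM₀ hfix
  have hroot₀ := isRoot_formOf (det_pos htn M₀).ne' hfix₀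
  -- its primitive reduced form
  obtain ⟨e₀, he₀, hpos₀⟩ : ∃ e : ℤ, e ≠ 0 ∧ 0 < (smulForm e (formOf (M₀ : Mat))).1 := by
    have h' : (M₀ : Mat) 1 0 ≠ 0 := fun h => by
      have := disc_formOf (M₀ : Mat)
      rw [M₀.2.1, M₀.2.2] at this
      simp only [disc, formOf, h, mul_zero, zero_mul, sub_zero] at this
      linarith [sq_nonneg ((M₀ : Mat) 1 1 - (M₀ : Mat) 0 0)]
    rcases lt_or_gt_of_ne h' with h | h
    · exact ⟨-1, by norm_num, by simpa [smulForm, formOf] using h⟩
    · exact ⟨1, one_ne_zero, by simpa [smulForm, formOf] using h⟩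
  obtain ⟨k, f₁, hk, hf₁, hf₁0, hprim⟩ := exists_content _ hpos₀
  have hr₁ : IsRoot f₁ (g • τ) := isRoot_of_smulForm hk.ne' (hf₁ ▸ isRoot_smulForm hroot₀)
  obtain ⟨f', hf', τ', hr', hj'⟩ := exists_red hf₁0 hr₁ hg hprim
  obtain ⟨γ, hγ⟩ := (jfun_eq_iff _ _).1 hj'.symm
  obtain ⟨M₁, hM₁⟩ := mk M₀ γ
  have hfix₁ := fixes_conj (det_pos htn M₀) hM₁ hfix₀
  rw [hγ] at hfix₁
  obtain ⟨m, hm⟩ := exists_multiple (h := formOf (M₁ : Mat)) hf'.2.2.1.ne' hf'.2.1 hr'
    (isRoot_formOf (det_pos htn M₁).ne' hfix₁)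
  have hd₁ := disc_formOf (M₁ : Mat)
  rw [hm, disc_smulForm, M₁.2.1, M₁.2.2] at hd₁
  have hm0 : m ≠ 0 := fun h => by rw [h] at hd₁; linarith
  obtain ⟨hfd, -, ha', hb', hc', hbd'⟩ := hf'
  have hq : smulForm |m| f' ∈ redForms (4 * (n : ℤ) - t ^ 2).toNat := by
    refine mem_redForms.2 ⟨?_, mul_pos (abs_pos.2 hm0) ha', ?_, ?_, fun h => ?_⟩
    · rw [natAbs_disc htn, show (smulForm |m| f').2.1 ^ 2 -
        4 * (smulForm |m| f').1 * (smulForm |m| f').2.2 = disc (smulForm |m| f') from rfl,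
        disc_smulForm, sq_abs]
      linarith
    · simp only [smulForm, abs_mul, abs_abs]
      exact mul_le_mul_of_nonneg_left hb' (abs_nonneg m)
    · exact mul_le_mul_of_nonneg_left hc' (abs_nonneg m)
    · simp only [smulForm, abs_mul, abs_abs] at h
      exact mul_nonneg (abs_nonneg m) (hbd' (h.imp (mul_left_cancel₀ (abs_ne_zero.2 hm0))
        (mul_left_cancel₀ (abs_ne_zero.2 hm0))))
  refine ⟨(⟨_, hq⟩, decide (0 < m)), ?_⟩
  have hrep : (M₁ : Mat) = rep htn (⟨_, hq⟩, decide (0 < m)) := by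
    refine eq_of_formOf (M₁.2.1.trans (rep htn _).2.1.symm) ?_
    rw [hm, formOf_rep]
    rcases lt_or_gt_of_ne hm0 with h | h
    · simp [smulForm, not_lt.2 h.le, abs_of_neg h]
    · simp [smulForm, h, abs_of_pos h]
  exact (conj_equivalence t n).trans ⟨g, hM₀⟩ ⟨γ, hrep ▸ hM₁⟩

include htn in
/-- **Latimer–MacDuffee**: the classes are the reduced forms and their negatives. -/
theorem bijective_rep : Function.Bijective
    fun q : {f // f ∈ redForms (4 * (n : ℤ) - t ^ 2).toNat} × Bool =>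
      Quot.mk (Conj (t := t) (n := n)) (rep htn q) := by
  refine ⟨fun q q' h => rep_injective htn
    ((conj_equivalence t n).eqvGen_iff.1 (Quot.eqvGen_exact h)), fun c => ?_⟩
  induction c using Quot.ind with
  | _ M =>
    obtain ⟨q, hq⟩ := exists_rep_conj htn M
    exact ⟨q, (Quot.sound hq).symm⟩

include htn in
theorem natCard_classes :
    Nat.card (Quot (Conj (t := t) (n := n))) =
      2 * (redForms (4 * (n : ℤ) - t ^ 2).toNat).card := by
  rw [← Nat.card_eq_of_bijective _ (bijective_rep htn), Nat.card_prod, Nat.card_eq_finsetCard,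
    Nat.card_eq_fintype_card, Fintype.card_bool, mul_comm]

/-- The centraliser in `SL₂(ℤ)`. -/
def cent (M : Mat) : Set (SL(2, ℤ)) := {g | (g : Mat) * M = M * g}

theorem cent_conj {M M' : MatTN t n} (h : Conj M M') :
    Nat.card (cent (M : Mat)) = Nat.card (cent (M' : Mat)) := by
  obtain ⟨g, hg⟩ := h
  refine Nat.card_congr ((Equiv.subtypeEquiv (MulAut.conj g).toEquiv) fun x => ?_)
  have hM' : (M' : Mat) = g * M * (g⁻¹ : SL(2, ℤ)) := by
    rw [hg, Matrix.mul_assoc, ← Matrix.SpecialLinearGroup.coe_mul, mul_inv_cancel,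
      Matrix.SpecialLinearGroup.coe_one, Matrix.mul_one]
  show (x : Mat) * M = M * x ↔ ((g * x * g⁻¹ : SL(2, ℤ)) : Mat) * M' =
    M' * ((g * x * g⁻¹ : SL(2, ℤ)) : Mat)
  simp only [hM', Matrix.SpecialLinearGroup.coe_mul, Matrix.mul_assoc]
  have hc : ∀ X : Mat, ((g⁻¹ : SL(2, ℤ)) : Mat) * ((g : Mat) * X) = X := fun X => by
    rw [← Matrix.mul_assoc, ← Matrix.SpecialLinearGroup.coe_mul, inv_mul_cancel,
      Matrix.SpecialLinearGroup.coe_one, Matrix.one_mul]
  simp only [hc]
  refine ⟨fun h => by rw [← Matrix.mul_assoc (x : Mat), h, Matrix.mul_assoc], fun h => ?_⟩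
  have h' := congrArg (fun X : Mat => ((g⁻¹ : SL(2, ℤ)) : Mat) * X * (g : Mat)) h
  simp only [Matrix.mul_assoc, ← Matrix.SpecialLinearGroup.coe_mul, inv_mul_cancel,
    inv_mul_cancel_right, Matrix.SpecialLinearGroup.coe_one, Matrix.mul_one, hc] at h'
  exact h'

include htn in
/-- **Half the centraliser is the inverse weight.** -/
theorem two_div_cent (q : {f // f ∈ redForms (4 * (n : ℤ) - t ^ 2).toNat} × Bool) :
    (2 : ℚ) / Nat.card (cent (rep htn q : Mat)) = weight q.1.1 := by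
  obtain ⟨k, ⟨a, b, c⟩, hk, hqf, hred, hD⟩ :=
    exists_red_content (show 0 < (4 * (n : ℤ) - t ^ 2).toNat by omega) q.1.2
  obtain ⟨τ, hτ⟩ := exists_isRoot hred.2.2.1 hD
  have hM := formOf_rep htn q
  rw [hqf] at hM
  set M := rep htn q
  have hM' : formOf (M : Mat) = smulForm ((if q.2 then 1 else -1) * k) (a, b, c) := by
    rw [hM]; simp only [smulForm, mul_assoc]
  have hfix := fixes_of_formOf (det_pos htn M).ne' hM' hτ
  have hroot : ∀ x : SL(2, ℤ), (x : Mat) * M = M * x ↔ mob (x : Mat) τ = (τ : ℂ) := fun x => by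
    refine ⟨fun h => ?_, fun h => ?_⟩
    · have h1 := isRoot_formOf (det_pos htn M).ne' (fixes_conj (det_pos htn M) h hfix)
      rw [hM'] at h1
      rw [mob_SL, root_unique hred.2.2.1.ne' (isRoot_of_smulForm
        (mul_ne_zero (by cases q.2 <;> simp) hk.ne') h1) hτ]
    · obtain ⟨l, hl⟩ := exists_multiple (h := formOf (x : Mat)) hred.2.2.1.ne' hred.2.1 hτ
        (isRoot_formOf (by rw [x.det_coe]; exact one_ne_zero) h)
      exact commute_of_formOf hl hM'
  have hcard : Nat.card (cent (M : Mat)) = (fixPairs (disc (a, b, c)) 1).card := by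
    rw [← card_fixMat_eq hred.2.2.1 hred.2.1 hτ one_ne_zero]
    exact Nat.card_congr
      { toFun := fun x => ⟨(x.1 : Mat), by exact_mod_cast x.1.det_coe, (hroot x.1).1 x.2⟩
        invFun := fun N => ⟨⟨N.1, by exact_mod_cast N.2.1⟩, (hroot _).2 N.2.2⟩
        left_inv := fun _ => rfl
        right_inv := fun _ => rfl }
  have h3 := weight_mul_card hred hτ
  have hne : ((fixPairs (disc (a, b, c)) 1).card : ℚ) ≠ 0 := fun e => by simp [e] at h3
  rw [hcard, hqf, weight_smulForm hk.ne', div_eq_iff hne]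
  exact h3.symm

include htn in
/-- The classes weighted by half their centralisers. -/
theorem finsum_classes :
    ∑ᶠ c : Quot (Conj (t := t) (n := n)), (2 : ℚ) / Nat.card (cent (c.out : Mat)) =
      2 * classNumberH (4 * (n : ℤ) - t ^ 2).toNat := by
  haveI : Fintype (Quot (Conj (t := t) (n := n))) :=
    Fintype.ofBijective _ (bijective_rep htn)
  rw [finsum_eq_sum_of_fintype, ← Fintype.sum_bijective _ (bijective_rep htn)
    (fun q => weight q.1.1) _ fun q => ?_, Fintype.sum_prod_type]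
  · simp only [Fintype.sum_bool]
    rw [Finset.sum_add_distrib, Finset.sum_coe_sort, classNumberH]
    ring
  · rw [← two_div_cent htn q, cent_conj ((conj_equivalence t n).eqvGen_iff.1
      (Quot.eqvGen_exact (Quot.out_eq (Quot.mk (Conj (t := t) (n := n)) (rep htn q)))))]

/-- An element of finite order and of trace at least two in absolute value is `1` or `-1`. -/
theorem eq_one_or_of_finOrder {g : SL(2, ℤ)} (hg : IsOfFinOrder g)
    (h2 : 2 ≤ |(g : Mat).trace|) : g = 1 ∨ g = -1 := by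
  have hd : g 0 0 * g 1 1 - g 0 1 * g 1 0 = 1 := by
    have := g.det_coe; rwa [Matrix.det_fin_two] at this
  set t := (g : Mat).trace with ht
  rw [Matrix.trace_fin_two] at ht
  have hCH : (g : Mat) * g = t • (g : Mat) - 1 := by
    ext i j
    rw [Matrix.sub_apply, Matrix.smul_apply, smul_eq_mul, Matrix.mul_apply, Fin.sum_univ_two, ht]
    fin_cases i <;> fin_cases j <;> simp <;> linarith
  have key : ∀ m : ℕ, ∃ u u' : ℤ, (g : Mat) ^ (m + 1) = u' • (g : Mat) - u • 1 ∧ |u| < |u'| :=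
    fun m => by
      induction m with
      | zero => exact ⟨0, 1, by simp, by norm_num⟩
      | succ m ih =>
        obtain ⟨u, u', h, hlt⟩ := ih
        refine ⟨u', t * u' - u, ?_, ?_⟩
        · rw [pow_succ, h, sub_mul, smul_mul_assoc, smul_mul_assoc, one_mul, hCH, smul_sub,
            smul_smul, sub_smul, mul_comm u' t]
          abel
        · have h1 := abs_sub_abs_le_abs_sub (t * u') u
          rw [abs_mul] at h1
          nlinarith [abs_nonneg u', abs_nonneg u]
  obtain ⟨m, hm, hpow⟩ := isOfFinOrder_iff_pow_eq_one.1 hg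
  obtain ⟨u, u', h, hlt⟩ := key (m - 1)
  rw [Nat.sub_add_cancel hm, ← Matrix.SpecialLinearGroup.coe_pow, hpow,
    Matrix.SpecialLinearGroup.coe_one] at h
  have hu : u' ≠ 0 := fun e => by rw [e, abs_zero] at hlt; linarith [abs_nonneg u]
  have e1 : g 1 0 = 0 := by
    have h' := congrFun (congrFun h 1) 0
    rw [Matrix.sub_apply, Matrix.smul_apply, Matrix.smul_apply, Matrix.one_apply_ne (by decide),
      smul_zero, sub_zero, smul_eq_mul] at h'
    exact (mul_eq_zero.1 h'.symm).resolve_left hu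
  have e2 : g 0 1 = 0 := by
    have h' := congrFun (congrFun h 0) 1
    rw [Matrix.sub_apply, Matrix.smul_apply, Matrix.smul_apply, Matrix.one_apply_ne (by decide),
      smul_zero, sub_zero, smul_eq_mul] at h'
    exact (mul_eq_zero.1 h'.symm).resolve_left hu
  rw [e1, mul_zero, sub_zero] at hd
  rcases Int.eq_one_or_neg_one_of_mul_eq_one' hd with ⟨h0, h1⟩ | ⟨h0, h1⟩
  · exact Or.inl (Subtype.ext (Matrix.ext fun i j => by
      fin_cases i <;> fin_cases j <;> simp [e1, e2, h0, h1]))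
  · exact Or.inr (Subtype.ext (Matrix.ext fun i j => by
      fin_cases i <;> fin_cases j <;> simp [e1, e2, h0, h1]))

end FA.MatrixClasses

end
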