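import Fermat.Agent.Tau.SingularConjugate
import Mathlib.FieldTheory.Finite.Basic

/-!
# Primes represented by the principal form and the class polynomial

For an odd prime `p` not dividing `D`, modulo which the class polynomial is separable, `p` is
represented by the principal form of discriminant `D` iff `D` is a square modulo `p` and the class
polynomial has a root modulo `p`, iff `D` is a square and the polynomial splits completely.
-/

set_option autoImplicit false
set_option linter.style.haveILetI false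

noncomputable section

namespace FA.Singular

open UpperHalfPlane hiding I
open FA.ModField FA.Kronecker FA.JInj
open scoped MatrixGroups

/-- An element of `values D` as an algebraic integer. -/
def valInt {D : ℤ} (hD : D < 0) (v : values D) : AlgInt :=
  ⟨v.1, isIntegral_values hD v.2⟩

/-- The class polynomial factors over the algebraic integers. -/
theorem map_classPoly {D : ℤ} (hD : D < 0) [Fintype (values D)] {u : ℂ} (hu : u ∈ values D) :
    (minpoly ℤ u).map (Int.castRingHom AlgInt) =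
      ∏ v : values D, (Polynomial.X - Polynomial.C (valInt hD v)) := by
  have hi := isIntegral_values hD hu
  refine Polynomial.map_injective incl Subtype.val_injective ?_
  rw [Polynomial.map_map, Polynomial.map_prod]
  simp only [Polynomial.map_sub, Polynomial.map_X, Polynomial.map_C]
  refine (Polynomial.eq_of_monic_of_dvd_of_natDegree_le
    (Polynomial.monic_prod_of_monic _ _ fun _ _ => Polynomial.monic_X_sub_C _)
    ((minpoly.monic hi).map _) (Finset.prod_dvd_of_coprime ?_ fun v _ => ?_) ?_)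
  · intro v _ w _ hne
    exact Polynomial.pairwise_coprime_X_sub_C (fun a b e => Subtype.ext e) hne
  · rw [Polynomial.dvd_iff_isRoot, Polynomial.IsRoot, Polynomial.eval_map]
    show Polynomial.eval₂ (incl.comp (Int.castRingHom AlgInt)) v.1 _ = 0
    rw [show incl.comp (Int.castRingHom AlgInt) = algebraMap ℤ ℂ from Subsingleton.elim _ _,
      ← Polynomial.aeval_def, minpoly_eq_of_mem hD hu v.2]
    exact minpoly.aeval ℤ _
  · rw [Polynomial.natDegree_prod_of_monic _ _ fun _ _ => Polynomial.monic_X_sub_C _,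
      (minpoly.monic hi).natDegree_map]
    simp only [Polynomial.natDegree_X_sub_C, Finset.sum_const, Finset.card_univ, smul_eq_mul,
      mul_one]
    rw [← (minpoly.monic hi).natDegree_map (algebraMap ℤ ℚ),
      ← minpoly.isIntegrallyClosed_eq_field_fractions' ℚ hi, natDegree_minpoly hD hu,
      ← values_ncard hD, ← Nat.card_coe_set_eq, Nat.card_eq_fintype_card]

/-- A residue field of the algebraic integers over `p`. -/
theorem exists_maximal_over {p : ℕ} (hp : p.Prime) :
    ∃ m : Ideal AlgInt, m.IsMaximal ∧ ((p : ℤ) : AlgInt) ∈ m := by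
  have hnu : ¬ IsUnit ((p : ℤ) : AlgInt) := fun hu => by
    obtain ⟨t, ht⟩ := hu.exists_right_inv
    have h1 : IsIntegral ℤ ((p : ℚ)⁻¹) := by
      rw [← isIntegral_algebraMap_iff (algebraMap ℚ ℂ).injective]
      have : (algebraMap ℚ ℂ) (p : ℚ)⁻¹ = (t : ℂ) := by
        have := congrArg (fun s : AlgInt => (s : ℂ)) ht
        push_cast at this
        rw [map_inv₀, map_natCast]
        exact inv_eq_of_mul_eq_one_right this
      rw [this]; exact t.2
    obtain ⟨n, hn⟩ := IsIntegrallyClosed.isIntegral_iff.1 h1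
    have hn' : (n : ℚ) * p = 1 := by
      rw [show (n : ℚ) = (p : ℚ)⁻¹ from hn]
      exact inv_mul_cancel₀ (by exact_mod_cast hp.ne_zero)
    have : n * (p : ℤ) = 1 := by exact_mod_cast hn'
    rcases Int.eq_one_or_neg_one_of_mul_eq_one' this with ⟨-, e⟩ | ⟨-, e⟩
    · exact hp.ne_one (by exact_mod_cast e)
    · omega
  obtain ⟨m, hm, hle⟩ := Ideal.exists_le_maximal _ (mt Ideal.span_singleton_eq_top.1 hnu)
  exact ⟨m, hm, hle (Ideal.mem_span_singleton_self _)⟩

variable {p : ℕ} {k : Type} [Field k] [CharP k p] (π : AlgInt →+* k)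

/-- A prime represented by the principal form fixes every value modulo `p`. -/
theorem pow_eq_of_represented (hp : p.Prime) {D B C x y : ℤ} (hD : D < 0)
    (hBC : B ^ 2 - 4 * C = D) (hrep : (p : ℤ) = x ^ 2 + B * x * y + C * y ^ 2)
    (v : values D) : π (valInt hD v) ^ p = π (valInt hD v) := by
  haveI : NeZero p := ⟨hp.ne_zero⟩
  obtain ⟨⟨a, b, c⟩, hf, τ, hτ, hv⟩ := v.2
  have hd : b ^ 2 - 4 * a * c = D := hf.1
  obtain ⟨m, hm⟩ : (2 : ℤ) ∣ b - B := by
    have h4 : (2 : ℤ) ∣ (b - B) * (b + B) :=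
      ⟨2 * (a * c - C), by linear_combination hd - hBC⟩
    rcases Int.prime_two.dvd_or_dvd h4 with h5 | h5
    · exact h5
    · have := dvd_sub h5 (dvd_mul_right (2 : ℤ) B)
      ring_nf at this ⊢; exact this
  have hac : a * c = C + m * B + m ^ 2 := mul_left_cancel₀ (by norm_num : (4 : ℤ) ≠ 0) (by
    rw [show b = B + 2 * m by linarith] at hd; linarith)
  simp only [IsRoot] at hτ
  -- the matrix of norm `p` fixing `τ`
  obtain ⟨γ, hγ⟩ := FA.SingularIntegral.exists_gamma p hp (m := (x - m * y) + b * y) (n := y * c)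
    (r := -(y * a)) (s := x - m * y) (τ := τ)
    (by rw [hrep, show b = B + 2 * m by linarith]; linear_combination y ^ 2 * hac)
    (by push_cast; linear_combination (y : ℂ) * hτ)
  have hz : IsIntegral ℤ (jfun (γ • τ)) := by rw [jfun_smul, hv]; exact isIntegral_values hD v.2
  have hw : IsIntegral ℤ (jfun (scaleH p (γ • τ))) := by
    rw [hγ, hv]; exact isIntegral_values hD v.2
  have e1 : (⟨_, hz⟩ : AlgInt) = valInt hD v := Subtype.ext ((jfun_smul γ τ).trans hv)
  have e2 : (⟨_, hw⟩ : AlgInt) = valInt hD v := Subtype.ext (hγ.trans hv)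
  have h := congruence p hp hz hw π
  rw [e1, e2] at h
  exact h.elim Eq.symm id

/-- Any value comes from a form whose leading coefficient is prime to `p`. -/
theorem exists_form_not_dvd {D : ℤ} (hp : p.Prime) (v : values D) :
    ∃ (a b c : ℤ) (τ : ℍ), 0 < a ∧ b ^ 2 - 4 * a * c = D ∧ Int.gcd (Int.gcd a b) c = 1 ∧
      IsRoot (a, b, c) τ ∧ jfun τ = v.1 ∧ ¬ (p : ℤ) ∣ a := by
  obtain ⟨⟨a, b, c⟩, ⟨hd, hg, ha, hb, hc, -⟩, τ, hτ, hv⟩ := v.2
  simp only [] at hd hg ha hb hc
  have hprim : ∀ a' b' c' : ℤ, (∀ e : ℤ, e ∣ a' → e ∣ b' → e ∣ c' → e ∣ a ∧ e ∣ b ∧ e ∣ c) →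
      Int.gcd (Int.gcd a' b') c' = 1 := fun a' b' c' h => by
    set e := Int.gcd (Int.gcd a' b') c'
    have h0 := Int.gcd_dvd_left (Int.gcd a' b' : ℤ) c'
    obtain ⟨h1, h2, h3⟩ := h e (h0.trans (Int.gcd_dvd_left _ _)) (h0.trans (Int.gcd_dvd_right _ _))
      (Int.gcd_dvd_right _ _)
    have h4 := Int.dvd_coe_gcd (Int.dvd_coe_gcd h1 h2) h3
    rw [hg, Nat.cast_one] at h4
    exact_mod_cast Int.eq_one_of_dvd_one (Int.natCast_nonneg e) h4
  simp only [IsRoot] at hτ
  by_cases hpa : (p : ℤ) ∣ a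
  swap
  · exact ⟨a, b, c, τ, ha, hd, hg, hτ, hv, hpa⟩
  -- the form turned upside down
  have hS : ∀ (A B C : ℤ) (σ : ℍ), (A : ℂ) * (σ : ℂ) ^ 2 + B * σ + C = 0 →
      IsRoot (C, -B, A) (ModularGroup.S • σ) := fun A B C σ h => by
    simp only [IsRoot]
    rw [modular_S_smul, UpperHalfPlane.coe_mk]
    have := σ.ne_zero
    field_simp
    push_cast
    linear_combination h
  by_cases hpc : (p : ℤ) ∣ c
  swap
  · exact ⟨c, -b, a, ModularGroup.S • τ, ha.trans_le hc, by linarith,
      hprim _ _ _ fun e h1 h2 h3 => ⟨h3, dvd_neg.1 h2, h1⟩, hS _ _ _ _ hτ,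
      by rw [jfun_smul, hv], hpc⟩
  have hpb : ¬ (p : ℤ) ∣ b := fun h => by
    have h4 := Int.dvd_coe_gcd (Int.dvd_coe_gcd hpa h) hpc
    rw [hg, Nat.cast_one] at h4
    exact hp.not_dvd_one (Int.natCast_dvd_natCast.1 h4)
  refine ⟨a + b + c, -(2 * a + b), a, ModularGroup.S • (ModularGroup.T ^ (-1 : ℤ) • τ),
    ?_, by linear_combination hd, hprim _ _ _ fun e h1 h2 h3 => ?_, hS _ _ _ _ ?_,
    by rw [jfun_smul, jfun_smul, hv], fun h => hpb ?_⟩
  · linarith [neg_abs_le b]
  · have hb' : e ∣ b := by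
      have := dvd_sub (dvd_neg.1 h2) (dvd_mul_of_dvd_right h3 2)
      ring_nf at this; exact this
    refine ⟨h3, hb', ?_⟩
    have := dvd_sub h1 (dvd_add h3 hb')
    ring_nf at this; exact this
  · rw [modular_T_zpow_smul, coe_vadd]
    push_cast
    linear_combination hτ
  · have := dvd_sub h (dvd_add hpa hpc)
    ring_nf at this; exact this

/-- One value fixed modulo `p` makes `p` principal. -/
theorem represented_of_pow_eq (hp : p.Prime) (hp2 : p ≠ 2) {D B C : ℤ} (hD : D < 0)
    (hpD : ¬ (p : ℤ) ∣ D) (hBC : B ^ 2 - 4 * C = D) (hsq : IsSquare (D : ZMod p))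
    (hinj : Function.Injective fun v : values D => π (valInt hD v)) (v : values D)
    (hv : π (valInt hD v) ^ p = π (valInt hD v)) :
    ∃ x y : ℤ, (p : ℤ) = x ^ 2 + B * x * y + C * y ^ 2 := by
  haveI := Fact.mk hp
  haveI : NeZero p := ⟨hp.ne_zero⟩
  obtain ⟨a, b, c, τ, ha, hd, hg, hτ, hjv, hpa⟩ := exists_form_not_dvd hp v
  -- a root of the form modulo `p`
  obtain ⟨t, c', hc'⟩ : ∃ t c' : ℤ, a * t ^ 2 + b * t + c = (p : ℤ) * c' := by
    obtain ⟨s, hs⟩ := hsq
    have ha2 : (2 * (a : ZMod p)) ≠ 0 := mul_ne_zero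
      (by
        intro h
        exact hp2 ((Nat.prime_dvd_prime_iff_eq hp Nat.prime_two).1
          ((ZMod.natCast_eq_zero_iff 2 p).1 (by exact_mod_cast h))))
      (fun h => hpa ((ZMod.intCast_zmod_eq_zero_iff_dvd _ _).1 h))
    obtain ⟨t, ht⟩ := ZMod.intCast_surjective ((-(b : ZMod p) + s) / (2 * (a : ZMod p)))
    refine ⟨t, _, Int.mul_ediv_cancel' ((ZMod.intCast_zmod_eq_zero_iff_dvd _ _).1 ?_) |>.symm⟩
    push_cast
    have e : 2 * (a : ZMod p) * t = -(b : ZMod p) + s := by rw [ht, mul_div_cancel₀ _ ha2]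
    have hd' : (b : ZMod p) ^ 2 - 4 * a * c = s * s := by
      rw [← hs, ← hd]; push_cast; ring
    have h4a : (4 : ZMod p) * a ≠ 0 := by
      rw [show (4 : ZMod p) * a = 2 * (2 * a) by ring]
      exact mul_ne_zero (left_ne_zero_of_mul ha2) ha2
    refine mul_left_cancel₀ h4a ?_
    linear_combination (2 * (a : ZMod p) * t + b + s) * e - hd'
  set b' := b + 2 * a * t with hb'
  set σ : ℍ := ModularGroup.T ^ (-t) • τ with hσ
  have hσroot : IsRoot (a, b', p * c') σ := by
    simp only [IsRoot] at hτ ⊢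
    have hc2 : ((a * t ^ 2 + b * t + c : ℤ) : ℂ) = (((p : ℤ) * c' : ℤ) : ℂ) := by rw [hc']
    rw [hσ, modular_T_zpow_smul, coe_vadd, hb']
    push_cast at hc2 ⊢
    linear_combination hτ - hc2
  have hd' : b' ^ 2 - 4 * (a * p) * c' = D := by
    rw [hb', ← hd]; linear_combination 4 * a * hc'
  have hpb' : ¬ (p : ℤ) ∣ b' := fun h => hpD (by
    rw [← hd']
    exact dvd_sub (dvd_pow h two_ne_zero) ⟨4 * a * c', by ring⟩)
  -- the neighbour
  obtain ⟨z, hz⟩ : ∃ z : ℍ, (z : ℂ) = (σ : ℂ) / p :=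
    ⟨⟨(σ : ℂ) / p, by
      rw [Complex.div_natCast_im]; exact div_pos σ.im_pos (by exact_mod_cast hp.pos)⟩, rfl⟩
  have hpC : (p : ℂ) ≠ 0 := Nat.cast_ne_zero.2 hp.ne_zero
  have hsz : scaleH p z = σ := UpperHalfPlane.ext (by rw [coe_scaleH, hz]; field_simp)
  have hzroot : IsRoot (a * p, b', c') z := by
    simp only [IsRoot] at hσroot ⊢
    rw [hz]
    push_cast at hσroot ⊢
    field_simp
    linear_combination hσroot
  have hg' : Int.gcd (Int.gcd (a * p) b') c' = 1 := by
    set e := Int.gcd (Int.gcd (a * p) b') c'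
    have h0 := Int.gcd_dvd_left (Int.gcd (a * p) b' : ℤ) c'
    have h1 : (e : ℤ) ∣ a * p := h0.trans (Int.gcd_dvd_left _ _)
    have h2 : (e : ℤ) ∣ b' := h0.trans (Int.gcd_dvd_right _ _)
    have h3 : (e : ℤ) ∣ c' := Int.gcd_dvd_right _ _
    have hco : IsCoprime (e : ℤ) (p : ℤ) :=
      ((Nat.prime_iff_prime_int.1 hp).coprime_iff_not_dvd.2 fun h => hpb' (h.trans h2)).symm
    have ha' := hco.dvd_of_dvd_mul_right h1
    have hb : (e : ℤ) ∣ b := by
      have := dvd_sub h2 (ha'.mul_right (2 * t))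
      rwa [show b' - a * (2 * t) = b by rw [hb']; ring] at this
    have hc : (e : ℤ) ∣ c := by
      have := dvd_sub (dvd_mul_of_dvd_right h3 (p : ℤ))
        (dvd_add (ha'.mul_right (t ^ 2)) (hb.mul_right t))
      rwa [← hc', show a * t ^ 2 + b * t + c - (a * t ^ 2 + b * t) = c by ring] at this
    have h4 := Int.dvd_coe_gcd (Int.dvd_coe_gcd ha' hb) hc
    rw [hg, Nat.cast_one] at h4
    exact_mod_cast Int.eq_one_of_dvd_one (Int.natCast_nonneg e) h4
  have hdz : disc (a * p, b', c') = D := hd'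
  have hzV : jfun z ∈ values D := by
    rw [← hdz]
    exact jfun_mem_values (Int.mul_pos ha (by exact_mod_cast hp.pos)) (by rw [hdz]; exact hD) hg'
      hzroot
  have hzi := isIntegral_values hD hzV
  have hwi : IsIntegral ℤ (jfun (scaleH p z)) := by
    rw [hsz, hσ, jfun_smul, hjv]; exact isIntegral_values hD v.2
  have hjz : jfun z = v.1 := by
    have e : (⟨_, hwi⟩ : AlgInt) = valInt hD v :=
      Subtype.ext (show jfun (scaleH p z) = v.1 by rw [hsz, hσ, jfun_smul, hjv])
    have h := congruence p hp hzi hwi π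
    rw [e] at h
    have : π (valInt hD ⟨_, hzV⟩) = π (valInt hD v) := by
      rcases h with h | h
      · refine frobenius_inj k p ?_
        simp only [frobenius_def]
        rw [hv]; exact h.symm
      · rw [← hv]; exact h.symm
    exact congrArg Subtype.val (hinj this)
  obtain ⟨g, hgσ⟩ := (jfun_eq_iff z σ).1 (by rw [hjz, hσ, jfun_smul, hjv])
  obtain ⟨α, β, γ, δ, hA, hB, hC, hE⟩ :
      ∃ α β γ δ : ℤ, g 0 0 = α ∧ g 0 1 = β ∧ g 1 0 = γ ∧ g 1 1 = δ :=
    ⟨_, _, _, _, rfl, rfl, rfl, rfl⟩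
  have hdet : α * δ - β * γ = 1 := by
    have := g.det_coe
    rw [Matrix.det_fin_two] at this
    rw [← hA, ← hB, ← hC, ← hE]
    exact this
  have hrel : ((p * γ : ℤ) : ℂ) * (z : ℂ) ^ 2 + ((p * δ - α : ℤ) : ℂ) * z + ((-β : ℤ) : ℂ) = 0 := by
    have hden : ((γ : ℂ) * z + δ) ≠ 0 := by
      have := smul_denom_ne g z
      rwa [hC, hE] at this
    have e : (σ : ℂ) * ((γ : ℂ) * z + δ) = (α : ℂ) * z + β := by
      rw [← hgσ, coe_smul_int, hA, hB, hC, hE]
      exact div_mul_cancel₀ _ hden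
    have e' : (σ : ℂ) = (p : ℂ) * z := by rw [hz]; field_simp
    rw [e'] at e
    push_cast
    linear_combination e
  simp only [IsRoot] at hzroot
  obtain ⟨h1, h2⟩ : a * p * (p * δ - α) - p * γ * b' = 0 ∧
      a * p * (-β) - p * γ * c' = 0 := eq_zero_of_add (z := z) (by
    push_cast at hzroot hrel ⊢
    linear_combination ((a : ℂ) * p) * hrel - ((p : ℂ) * γ) * hzroot)
  -- the endomorphism is `k` times the primitive form
  obtain ⟨u₁, u₂, u₃, hu⟩ := FA.OrderTheta.exists_bezout hg'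
  set K := u₁ * (p * γ) + u₃ * (p * δ - α) + u₂ * (-β) with hK
  have hA' : p * γ = K * (a * p) := by
    rw [hK]; linear_combination -(p * γ) * hu - u₃ * h1 - u₂ * h2
  have hap : a * (p : ℤ) ≠ 0 := mul_ne_zero ha.ne' (by exact_mod_cast hp.ne_zero)
  have hB' : p * δ - α = K * b' := mul_left_cancel₀ hap (by linear_combination h1 + b' * hA')
  have hC' : -β = K * c' := mul_left_cancel₀ hap (by linear_combination h2 + c' * hA')
  have hnorm : (p * δ + α) ^ 2 - D * K ^ 2 = 4 * (p : ℤ) := by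
    rw [← hd']
    linear_combination 4 * (p : ℤ) * hdet + ((p * δ - α) + K * b') * hB' -
      4 * (-β) * hA' - 4 * K * (a * p) * hC'
  obtain ⟨x, hx⟩ : (2 : ℤ) ∣ (p * δ + α) - B * K := by
    have h4 : (2 : ℤ) ∣ ((p * δ + α) - B * K) * ((p * δ + α) + B * K) :=
      ⟨2 * p - 2 * C * K ^ 2, by rw [← hBC] at hnorm; linear_combination hnorm⟩
    rcases Int.prime_two.dvd_or_dvd h4 with h5 | h5
    · exact h5
    · have := dvd_sub h5 (dvd_mul_right (2 : ℤ) (B * K))
      ring_nf at this ⊢; exact this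
  refine ⟨x, K, mul_left_cancel₀ (by norm_num : (4 : ℤ) ≠ 0) ?_⟩
  rw [← hnorm, show (p : ℤ) * δ + α = 2 * x + B * K by linarith, ← hBC]
  ring

omit [CharP k p] in
/-- A represented odd prime not dividing `D` has `D` as a square residue. -/
theorem isSquare_of_represented (hp : p.Prime) (hp2 : p ≠ 2) {D B C x y : ℤ}
    (hBC : B ^ 2 - 4 * C = D) (hrep : (p : ℤ) = x ^ 2 + B * x * y + C * y ^ 2) :
    IsSquare (D : ZMod p) := by
  haveI := Fact.mk hp
  have h : ((2 * x + B * y : ℤ) : ZMod p) ^ 2 = (D : ZMod p) * (y : ZMod p) ^ 2 := by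
    have e : (2 * x + B * y) ^ 2 = D * y ^ 2 + 4 * (p : ℤ) := by rw [hrep, ← hBC]; ring
    have := congrArg (fun i : ℤ => (i : ZMod p)) e
    simpa using this
  refine ⟨((2 * x + B * y : ℤ) : ZMod p) * (y : ZMod p)⁻¹, ?_⟩
  have hy : (y : ZMod p) ≠ 0 := fun hy => by
    rw [hy, zero_pow two_ne_zero, mul_zero] at h
    have h2 : (p : ℤ) ∣ 2 * x + B * y :=
      (ZMod.intCast_zmod_eq_zero_iff_dvd _ _).1 (pow_eq_zero_iff two_ne_zero |>.1 h)
    have hyp : (p : ℤ) ∣ y := (ZMod.intCast_zmod_eq_zero_iff_dvd _ _).1 hy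
    obtain ⟨y', rfl⟩ := hyp
    have h3 : (p : ℤ) ∣ 2 * x := by
      have := dvd_sub h2 (dvd_mul_of_dvd_right (dvd_mul_right (p : ℤ) y') B)
      simpa using this
    have hx : (p : ℤ) ∣ x := ((Nat.prime_iff_prime_int.1 hp).dvd_or_dvd h3).resolve_left
      fun h2 => hp2 ((Nat.prime_dvd_prime_iff_eq hp Nat.prime_two).1 (by exact_mod_cast h2))
    obtain ⟨x', rfl⟩ := hx
    have : (p : ℤ) * ((p : ℤ) * (x' ^ 2 + B * x' * y' + C * y' ^ 2) - 1) = 0 := by
      linear_combination -hrep
    have hone : (p : ℤ) ∣ 1 := ⟨x' ^ 2 + B * x' * y' + C * y' ^ 2, by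
      rcases mul_eq_zero.1 this with h0 | h0
      · exact absurd h0 (by exact_mod_cast hp.ne_zero)
      · linarith⟩
    exact hp.not_dvd_one (by exact_mod_cast hone)
  field_simp
  linear_combination -h

/-- **The primes represented by the principal form, by the class polynomial.** -/
theorem principal_tfae (hp : p.Prime) (hp2 : p ≠ 2) {D B C : ℤ} (hD : D < 0)
    (hpD : ¬ (p : ℤ) ∣ D) (hBC : B ^ 2 - 4 * C = D) {u : ℂ} (hu : u ∈ values D)
    (hsep : ((minpoly ℤ u).map (Int.castRingHom (ZMod p))).Separable) :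
    List.TFAE
      [∃ x y : ℤ, (p : ℤ) = x ^ 2 + B * x * y + C * y ^ 2,
        IsSquare (D : ZMod p) ∧
          ∃ r : ZMod p, ((minpoly ℤ u).map (Int.castRingHom (ZMod p))).IsRoot r,
        IsSquare (D : ZMod p) ∧ ((minpoly ℤ u).map (Int.castRingHom (ZMod p))).Splits] := by
  classical
  haveI := Fact.mk hp
  haveI : Fintype (values D) := (values_finite_card D).1.fintype
  obtain ⟨m, hm, hpm⟩ := exists_maximal_over hp
  let := Ideal.Quotient.field m
  set π := Ideal.Quotient.mk m with hπ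
  haveI : CharP (AlgInt ⧸ m) p := by
    refine CharP.congr (ringChar (AlgInt ⧸ m)) (h := ?_)
    refine CharP.ringChar_of_prime_eq_zero hp ?_
    rw [← map_natCast π, hπ, Ideal.Quotient.eq_zero_iff_mem]
    exact_mod_cast hpm
  set φ := ZMod.castHom (dvd_refl p) (AlgInt ⧸ m) with hφ
  have hmap : ((minpoly ℤ u).map (Int.castRingHom (ZMod p))).map φ =
      ∏ v : values D, (Polynomial.X - Polynomial.C (π (valInt hD v))) := by
    rw [Polynomial.map_map, show φ.comp (Int.castRingHom (ZMod p)) =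
        π.comp (Int.castRingHom AlgInt) from Subsingleton.elim _ _, ← Polynomial.map_map,
      map_classPoly hD hu, Polynomial.map_prod]
    simp only [Polynomial.map_sub, Polynomial.map_X, Polynomial.map_C]
  have hinj : Function.Injective fun v : values D => π (valInt hD v) := by
    have h := hsep.map (f := φ)
    rw [hmap, Polynomial.separable_prod_X_sub_C_iff] at h
    exact h
  have hmem : ∀ v : values D, π (valInt hD v) ^ p = π (valInt hD v) →
      ∃ z : ZMod p, φ z = π (valInt hD v) := fun v h => by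
    have h' := (Subfield.mem_bot_iff_pow_eq_self (AlgInt ⧸ m) p).mpr h
    rw [← ZMod.fieldRange_castHom_eq_bot p] at h'
    exact h'
  tfae_have 1 → 3 := by
    rintro ⟨x, y, hrep⟩
    refine ⟨isSquare_of_represented hp hp2 hBC hrep, ?_⟩
    choose z hz using fun v => hmem v (pow_eq_of_represented π hp hD hBC hrep v)
    have e : (minpoly ℤ u).map (Int.castRingHom (ZMod p)) =
        ∏ v : values D, (Polynomial.X - Polynomial.C (z v)) := by
      refine Polynomial.map_injective φ φ.injective ?_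
      rw [hmap, Polynomial.map_prod]
      simp only [Polynomial.map_sub, Polynomial.map_X, Polynomial.map_C, hz]
    rw [e]
    exact Polynomial.Splits.prod fun v _ => Polynomial.Splits.X_sub_C _
  tfae_have 3 → 2 := by
    rintro ⟨hs, hsp⟩
    refine ⟨hs, hsp.exists_eval_eq_zero ?_⟩
    have hi := isIntegral_values hD hu
    refine (Polynomial.natDegree_pos_iff_degree_pos.mp ?_).ne'
    rw [(minpoly.monic hi).natDegree_map]
    exact minpoly.natDegree_pos hi
  tfae_have 2 → 1 := by
    rintro ⟨hs, r, hr⟩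
    have h := hr.map (f := φ)
    rw [hmap, Polynomial.IsRoot, Polynomial.eval_prod, Finset.prod_eq_zero_iff] at h
    obtain ⟨v, -, hv⟩ := h
    rw [Polynomial.eval_sub, Polynomial.eval_X, Polynomial.eval_C, sub_eq_zero] at hv
    refine represented_of_pow_eq π hp hp2 hD hpD hBC hs hinj v ?_
    rw [← hv, ← map_pow, ZMod.pow_card]
  tfae_finish

/-- The class polynomial stays separable modulo all but finitely many primes. -/
theorem exists_separable_bound {D : ℤ} (hD : D < 0) {u : ℂ} (hu : u ∈ values D) :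
    ∃ M : ℕ, ∀ p : ℕ, p.Prime → M < p →
      ((minpoly ℤ u).map (Int.castRingHom (ZMod p))).Separable := by
  classical
  obtain ⟨M, hM⟩ := exists_bound D
  refine ⟨M, fun p hp hlt => ?_⟩
  haveI := Fact.mk hp
  haveI : Fintype (values D) := (values_finite_card D).1.fintype
  obtain ⟨m, hm, hpm⟩ := exists_maximal_over hp
  let := Ideal.Quotient.field m
  haveI : CharP (AlgInt ⧸ m) p := by
    refine CharP.congr (ringChar (AlgInt ⧸ m)) (h := ?_)
    refine CharP.ringChar_of_prime_eq_zero hp ?_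
    rw [← map_natCast (Ideal.Quotient.mk m), Ideal.Quotient.eq_zero_iff_mem]
    exact_mod_cast hpm
  rw [← Polynomial.separable_map (ZMod.castHom (dvd_refl p) (AlgInt ⧸ m)), Polynomial.map_map,
    show (ZMod.castHom (dvd_refl p) (AlgInt ⧸ m)).comp (Int.castRingHom (ZMod p)) =
      (Ideal.Quotient.mk m).comp (Int.castRingHom AlgInt) from Subsingleton.elim _ _,
    ← Polynomial.map_map, map_classPoly hD hu, Polynomial.map_prod]
  simp only [Polynomial.map_sub, Polynomial.map_X, Polynomial.map_C]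
  refine Polynomial.separable_prod_X_sub_C_iff.2 fun v w e => Subtype.ext ?_
  exact hM p hp hlt _ v.1 v.2 w.1 w.2 _ _ e

end FA.Singular

end
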