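import Fermat.Agent.Tau.ModularPolynomial
import Fermat.Agent.Tau.SplittingLaw
import Fermat.Agent.ModField.Igusa.LevelP
import Mathlib.Algebra.Polynomial.Bivariate

/-!
# Symmetry of the modular polynomial, and Kronecker's congruence

A polynomial of degree below the index vanishing at `(j(z), j(N z))` is zero. So the modular
polynomial is the only monic one of its degree with these zeros, and is symmetric for `N > 1`.
For a prime `p` it is `(Y - X ^ p) (Y ^ p - X)` modulo `p`, by the expansions at infinity.
-/

set_option autoImplicit false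
set_option linter.style.haveILetI false

noncomputable section

namespace FA.ModPoly

open UpperHalfPlane hiding I
open FA.ModField FA.SingularIntegral HahnSeries FA.Kronecker CongruenceSubgroup
open scoped MatrixGroups Polynomial

variable (N : ℕ) [NeZero N]

theorem hasExp_evJp (D : ℤ[X]) :
    HasExp (qp N) (fun z => Polynomial.aeval (jfun z) D) (evJp N D) := by
  refine (hasExp_eval N (D.map (Int.castRingHom ℂ))).congr (funext fun z => ?_)
  rw [Polynomial.eval_map, Polynomial.aeval_def, algebraMap_int_eq]

theorem one_lt_card_cos (h : 1 < N) : 1 < Nat.card (FA.Dim.Cos N) := by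
  haveI : Nontrivial (FA.Dim.Cos N) := by
    refine ⟨QuotientGroup.mk ModularGroup.S, QuotientGroup.mk 1, fun hS => ?_⟩
    have h1 := QuotientGroup.eq.mp hS
    rw [mul_one, inv_mem_iff, Gamma0_mem] at h1
    haveI := Fact.mk h
    simp [ModularGroup.S] at h1
  exact Finite.one_lt_card

variable [Fintype (FA.Dim.Cos N)]

/-- A polynomial of degree below the index that vanishes at `(j(z), j(N z))` is zero. -/
theorem eq_zero_of_vanish {R : ℤ[X][X]} (hd : R.natDegree < Nat.card (FA.Dim.Cos N))
    (hR : ∀ z, R.eval₂ (Polynomial.aeval (R := ℤ) (jfun z)).toRingHom (fN N z) = 0) : R = 0 := by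
  refine Polynomial.map_injective (evJp N) (evJp_injective N) ?_
  rw [Polynomial.map_zero]
  refine Polynomial.eq_zero_of_natDegree_lt_card_of_eval_eq_zero _ (ser_injective N) (fun i => ?_)
    (by rwa [Polynomial.natDegree_map_eq_of_injective (evJp_injective N),
      ← Nat.card_eq_fintype_card])
  rw [Polynomial.eval_map, Polynomial.eval₂_eq_sum_range]
  refine hasExp_eq_zero (covers_qp N) ((hasExp_sum _ fun k _ => (hasExp_evJp N _).mul
    (qp_ne_zero N) ((hasExp_ser N i).pow (qp_ne_zero N) k)).congr ?_)
  induction i using QuotientGroup.induction_on with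
  | H g =>
  funext z
  have := hR (g⁻¹ • z)
  rw [Polynomial.eval₂_eq_sum_range] at this
  simp only [Finset.sum_apply, Pi.mul_apply, Pi.pow_apply, Pi.zero_apply, cosVal_mk (fN_mem N),
    jfun_smul, AlgHom.toRingHom_eq_coe, RingHom.coe_coe] at this ⊢
  exact this

/-- **Uniqueness.** -/
theorem eq_phi {Q : ℤ[X][X]} (hm : Q.Monic) (hd : Q.natDegree = Nat.card (FA.Dim.Cos N))
    (hQ : ∀ z, Q.eval₂ (Polynomial.aeval (R := ℤ) (jfun z)).toRingHom (fN N z) = 0) :
    Q = phi N := by
  have hlt := Polynomial.degree_sub_lt_left (p := Q) (q := phi N)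
    (by rw [Polynomial.degree_eq_natDegree hm.ne_zero,
      Polynomial.degree_eq_natDegree (phi_monic N).ne_zero, hd, phi_natDegree])
    hm.ne_zero (by rw [hm.leadingCoeff, (phi_monic N).leadingCoeff])
  refine sub_eq_zero.mp (by_contra fun hne => hne (eq_zero_of_vanish N ?_ fun z => ?_))
  · rw [Polynomial.degree_eq_natDegree hne, Polynomial.degree_eq_natDegree hm.ne_zero, hd] at hlt
    exact_mod_cast hlt
  · have h := phi_eval N z 1
    rw [one_smul] at h
    rw [Polynomial.eval₂_sub, hQ, h, sub_zero]

omit [NeZero N] [Fintype (FA.Dim.Cos N)] in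
theorem eval₂_aeval {A : Type} [CommRing A] [Algebra ℤ A] (x y : A) (P : ℤ[X][X]) :
    P.eval₂ (Polynomial.aeval (R := ℤ) x).toRingHom y = Polynomial.aevalAeval x y P := by
  induction P using Polynomial.induction_on' with
  | add a b ha hb => rw [Polynomial.eval₂_add, map_add, ha, hb]
  | monomial n a => simp [← Polynomial.C_mul_X_pow_eq_monomial, Polynomial.aeval_def]

/-- **Symmetry.** -/
theorem swap_phi (h : 1 < N) : Polynomial.Bivariate.swap (phi N) = phi N := by
  set Ψ := Polynomial.Bivariate.swap (phi N)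
  have hΨ : ∀ z, Ψ.eval₂ (Polynomial.aeval (R := ℤ) (jfun z)).toRingHom (fN N z) = 0 := fun z => by
    rw [eval₂_aeval, Polynomial.Bivariate.aevalAeval_swap, ← eval₂_aeval]
    have h := phi_eval N (ModularGroup.S • scaleH N z) 1
    have hw : scaleH N (ModularGroup.S • scaleH N z) = ModularGroup.S • z := by
      refine UpperHalfPlane.ext ?_
      rw [coe_scaleH, modular_S_smul, modular_S_smul]
      show (N : ℂ) * (-(scaleH N z : ℂ))⁻¹ = (-(z : ℂ))⁻¹
      have hN : (N : ℂ) ≠ 0 := NeZero.ne _
      rw [coe_scaleH]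
      field_simp
    rw [one_smul, fN, hw, jfun_smul, jfun_smul] at h
    exact h
  have h1 : phi N ≠ 1 := fun e => by
    have := phi_natDegree N
    rw [e, Polynomial.natDegree_one] at this
    exact (Nat.card_pos (α := FA.Dim.Cos N)).ne this
  have h0 : Ψ %ₘ phi N = 0 := by
    refine eq_zero_of_vanish N ?_ fun z => ?_
    · rw [← phi_natDegree]
      exact Polynomial.natDegree_modByMonic_lt _ (phi_monic N) h1
    · have hz := phi_eval N z 1
      rw [one_smul] at hz
      rw [Polynomial.eval₂_modByMonic_eq_self_of_root hz, hΨ]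
  have hG : Ψ = phi N * (Ψ /ₘ phi N) := by
    conv_lhs => rw [← Polynomial.modByMonic_add_div Ψ (phi N), h0, zero_add]
  set G := Ψ /ₘ phi N
  have hGG : G * Polynomial.Bivariate.swap G = 1 := by
    refine mul_left_cancel₀ (phi_monic N).ne_zero ?_
    have := congrArg Polynomial.Bivariate.swap hG
    rw [Polynomial.Bivariate.swap_swap_apply, map_mul, show Polynomial.Bivariate.swap (phi N) = Ψ
      from rfl, hG, mul_assoc] at this
    rw [mul_one]
    exact this.symm
  obtain ⟨r, hr, hGr⟩ := Polynomial.isUnit_iff.mp (IsUnit.of_mul_eq_one _ hGG)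
  obtain ⟨u, hu, hru⟩ := Polynomial.isUnit_iff.mp hr
  rcases Int.isUnit_iff.mp hu with rfl | rfl
  · rw [hG, ← hGr, ← hru]; simp
  exfalso
  have hd : Polynomial.aevalAeval (Polynomial.X : ℤ[X]) Polynomial.X Ψ =
      -Polynomial.aevalAeval (Polynomial.X : ℤ[X]) Polynomial.X (phi N) := by
    rw [hG, ← hGr, ← hru]; simp
  rw [Polynomial.Bivariate.aevalAeval_swap, eq_neg_iff_add_eq_zero, add_self_eq_zero,
    ← eval₂_aeval, Polynomial.aeval_X_left] at hd
  have hroot : (phi N).IsRoot Polynomial.X := hd
  have h2 := Polynomial.natDegree_eq_of_degree_eq_some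
    (Polynomial.degree_eq_one_of_irreducible_of_root (phi_irreducible N) hroot)
  rw [phi_natDegree] at h2
  exact (one_lt_card_cos N h).ne' h2

end FA.ModPoly

namespace FA.ModPoly

open UpperHalfPlane hiding I
open FA.ModField FA.SingularIntegral HahnSeries FA.Kronecker CongruenceSubgroup
open scoped MatrixGroups Polynomial

variable (p : ℕ) [Fact p.Prime] [Fintype (FA.Dim.Cos p)]

omit [Fintype (FA.Dim.Cos p)] in
/-- The roots in series: one is in `T ^ (p * p)`, the others in `T`. -/
theorem exists_sj (i : FA.Dim.Cos p) :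
    ∃ (e : ℕ) (_ : NeZero e) (c : AlgIntˣ), c ^ p = 1 ∧
      (i = QuotientGroup.mk 1 ∧ e = p * p ∨ i ≠ QuotientGroup.mk 1 ∧ e = 1) ∧
      ser p i = ModularCurve.coeffMap incl (sj AlgInt c e) := by
  classical
  obtain ⟨e, he, c, hek, hc, hexp⟩ := exists_conj_sj p Fact.out (Quotient.out i)⁻¹
  haveI := he
  have hS : ser p i = ModularCurve.coeffMap incl (sj AlgInt c e) :=
    (hasExp_ser p i).unique (covers_qp p) hexp
  refine ⟨e, he, c, hc, ?_, hS⟩
  rw [coeffMap_sj] at hexp
  by_cases hi : i = QuotientGroup.mk 1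
  · refine Or.inl ⟨hi, ?_⟩
    have h2 : HasExp (qp p) (cosVal p (fN p) i) (sj ℂ 1 (p * p)) := by
      have h3 := hasExp_jfun.comp (U := qp p) (scaleH p) (p * p) 1 (fun z => by
        rw [qp_scale, Units.val_one, one_mul, pow_mul, qp_pow_self])
      refine h3.congr (funext fun z => ?_)
      rw [hi, cosVal_mk (fN_mem p), inv_one, one_smul]
      rfl
    have h4 := (hasExp_ser p i).unique (covers_qp p) h2
    rw [hS, coeffMap_sj] at h4
    exact (sj_inj h4).2
  · refine Or.inr ⟨hi, hek.resolve_right fun hpp => hi ?_⟩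
    obtain ⟨a, k, hk, c', hka, -, hac, hexp'⟩ :=
      exists_coset_exp p p dvd_rfl (Quotient.out i)⁻¹
    haveI := hk
    have hek' : e = k := (sj_inj (b' := c') (hexp.unique (covers_qp p) hexp')).2
    rw [Nat.div_self (Fact.out : p.Prime).pos, mul_one, ← hek', hpp] at hka
    obtain rfl : p = a := Nat.mul_self_inj.1 hka
    have hmem : (Quotient.out i)⁻¹ ∈ Gamma0 p := by
      rw [Gamma0_mem, ZMod.intCast_zmod_eq_zero_iff_dvd]
      exact hac
    rw [← QuotientGroup.out_eq' i, QuotientGroup.eq]
    simpa using hmem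

/-- Kronecker's congruence in a field of characteristic `p` to which the integers reduce. -/
theorem phi_map_char {k : Type} [Field k] [CharP k p] (π : AlgInt →+* k) :
    (phi p).map (Polynomial.mapRingHom (Int.castRingHom k)) =
      (Polynomial.X - Polynomial.C (Polynomial.X ^ p)) *
        (Polynomial.X ^ p - Polynomial.C Polynomial.X) := by
  classical
  have hp : p.Prime := Fact.out
  refine Polynomial.map_injective (evalJ k p) (evalJ_injective p) ?_
  choose e he c hc hei hS using exists_sj p
  let S : FA.Dim.Cos p → LaurentSeries AlgInt := fun i =>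
    haveI := he i
    sj AlgInt (c i) (e i)
  have hA : (phi p).map ((evalJ AlgInt p).comp (Polynomial.mapRingHom (Int.castRingHom AlgInt))) =
      ∏ i, (Polynomial.X - Polynomial.C (S i)) := by
    refine Polynomial.map_injective (ModularCurve.coeffMap incl)
      (coeffMap_injective' Subtype.val_injective) ?_
    rw [Polynomial.map_map, show (ModularCurve.coeffMap incl).comp ((evalJ AlgInt p).comp
      (Polynomial.mapRingHom (Int.castRingHom AlgInt))) = evJp p from RingHom.ext fun D => ?_,
      map_phi, prodSer, Polynomial.map_prod]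
    · simp only [Polynomial.map_sub, Polynomial.map_X, Polynomial.map_C]
      exact Finset.prod_congr rfl fun i _ => by rw [hS i]
    · simp only [RingHom.comp_apply, coeffMap_evalJ, Polynomial.coe_mapRingHom,
        Polynomial.map_map]
      rw [show incl.comp (Int.castRingHom AlgInt) = Int.castRingHom ℂ from Subsingleton.elim _ _]
      rfl
  have hA' := congrArg (Polynomial.map (ModularCurve.coeffMap π)) hA
  rw [Polynomial.map_map, Polynomial.map_prod, show (ModularCurve.coeffMap π).comp
    ((evalJ AlgInt p).comp (Polynomial.mapRingHom (Int.castRingHom AlgInt))) =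
      (evalJ k p).comp (Polynomial.mapRingHom (Int.castRingHom k)) from RingHom.ext fun D => ?_,
    ← Polynomial.map_map] at hA'
  swap
  · simp only [RingHom.comp_apply, coeffMap_evalJ, Polynomial.coe_mapRingHom, Polynomial.map_map]
    rw [show π.comp (Int.castRingHom AlgInt) = Int.castRingHom k from Subsingleton.elim _ _]
  set s : LaurentSeries k := ModularCurve.qExpand k 1 (ModularCurve.jqModC k) with hs
  set t : LaurentSeries k := evalJ k p (Polynomial.X ^ p) with ht
  have hsp : s ^ p = evalJ k p Polynomial.X := by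
    rw [hs, ← sj_one, sj_pow p (1 : kˣ) (one_pow _)]
    simp only [evalJ_X, one_mul]
  have himg : ∀ i, ModularCurve.coeffMap π (S i) = if i = QuotientGroup.mk 1 then t else s := by
    intro i
    haveI := he i
    have hc1 : Units.map (π : AlgInt →* k) (c i) = 1 := by
      refine Units.ext (sub_eq_zero.1 (pow_eq_zero_iff hp.ne_zero |>.1 ?_))
      rw [sub_pow_char, ← Units.val_pow_eq_pow_val, ← map_pow, hc i, map_one, Units.val_one,
        one_pow, sub_self]
    simp only [S]
    rw [coeffMap_sj, hc1, sj_one]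
    rcases hei i with ⟨hi, h⟩ | ⟨hi, h⟩
    · rw [if_pos hi, ht, map_pow, evalJ_X, pow_char_eq_qExpand, ModularCurve.coeffMap_qExpand,
        ModularCurve.coeffMap_jqModC, ModularCurve.qExpand_qExpand]
      simp only [h]
    · rw [if_neg hi]
      simp only [hs, h]
  rw [hA']
  simp only [Polynomial.map_sub, Polynomial.map_X, Polynomial.map_C, himg]
  rw [← Finset.mul_prod_erase _ _ (Finset.mem_univ (QuotientGroup.mk 1 : FA.Dim.Cos p)),
    if_pos rfl, Finset.prod_congr rfl (fun i hi => by
      rw [if_neg (Finset.ne_of_mem_erase hi)]), Finset.prod_const,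
    Finset.card_erase_of_mem (Finset.mem_univ _), Finset.card_univ, ← Nat.card_eq_fintype_card,
    FA.Dim.card_cos, FA.ModField.dedekindPsi_prime hp, Nat.add_sub_cancel]
  haveI : CharP (LaurentSeries k) p :=
    charP_of_injective_ringHom (f := (HahnSeries.C : k →+* LaurentSeries k))
      HahnSeries.C_injective p
  rw [sub_pow_char, ← map_pow, hsp]
  simp [ht]

/-- **Kronecker's congruence.** -/
theorem phi_mod_p : (phi p).map (Polynomial.mapRingHom (Int.castRingHom (ZMod p))) =
    (Polynomial.X - Polynomial.C (Polynomial.X ^ p)) *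
      (Polynomial.X ^ p - Polynomial.C Polynomial.X) := by
  have hp : p.Prime := Fact.out
  obtain ⟨m, hm, hpm⟩ := FA.Singular.exists_maximal_over hp
  let := Ideal.Quotient.field m
  haveI : CharP (AlgInt ⧸ m) p := by
    refine (CharP.charP_iff_prime_eq_zero hp).mpr ?_
    rw [← map_natCast (Ideal.Quotient.mk m), Ideal.Quotient.eq_zero_iff_mem]
    simpa using hpm
  refine Polynomial.map_injective (Polynomial.mapRingHom (ZMod.castHom dvd_rfl (AlgInt ⧸ m)))
    (Polynomial.map_injective _ (ZMod.castHom_injective _)) ?_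
  rw [Polynomial.map_map, Polynomial.mapRingHom_comp,
    show (ZMod.castHom dvd_rfl (AlgInt ⧸ m)).comp (Int.castRingHom (ZMod p)) =
      Int.castRingHom (AlgInt ⧸ m) from Subsingleton.elim _ _, phi_map_char p (Ideal.Quotient.mk m)]
  simp

end FA.ModPoly

end
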