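import Fermat.Agent.Tau.JInjective

/-!
# Invariant functions are polynomials in `j`

If `f` is holomorphic and invariant under `SL₂(ℤ)` and is `O(|q|^(-N))` at infinity, then `f Δ^N`
is a form of weight `12 N`, hence a polynomial in `E₄³` and `E₆²`.
-/

set_option autoImplicit false

noncomputable section

open UpperHalfPlane hiding I
open Filter Asymptotics ModularForm EisensteinSeries FA.ModField Polynomial
open scoped Topology MatrixGroups Real Manifold

namespace FA.JPoly

/-- `O(|q|^(-N))` at infinity. -/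
def PoleLe (f : ℍ → ℂ) (N : ℕ) : Prop :=
  f =O[atImInfty] fun z => Real.exp (2 * π * N * z.im)

theorem discriminant_isBigO :
    ModularForm.discriminant =O[atImInfty] fun z : ℍ => Real.exp (-2 * π * z.im) := by
  have h := CuspFormClass.exp_decay_atImInfty (h := 1) CuspForm.discriminant one_pos
    one_mem_strictPeriods_SL
  simp only [div_one] at h
  exact h

theorem exists_eval_eq {f : ℍ → ℂ} (hm : MDiff f) (hinv : ∀ g : SL(2, ℤ), ∀ z, f (g • z) = f z)
    {N : ℕ} (hN : PoleLe f N) : ∃ P : ℂ[X], ∀ z, f z = P.eval (jfun z) := by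
  set F : ℍ → ℂ := fun z => f z * ModularForm.discriminant z ^ N with hF
  have hFm : MDiff F := by
    rw [UpperHalfPlane.mdifferentiable_iff] at hm ⊢
    exact hm.mul ((UpperHalfPlane.mdifferentiable_iff.1 CuspForm.discriminant.holo').pow N)
  have hFinv : ∀ g : SL(2, ℤ), F ∣[((12 * N : ℕ) : ℤ)] g = F := fun g =>
    (slash_eq_iff_smul g).2 fun z => by
      simp only [hF]
      rw [hinv, discriminant_smul, mul_pow, ← zpow_natCast (denom g z ^ (12 : ℤ)), ← zpow_mul]
      push_cast
      ring
  have hFb : IsBoundedAtImInfty F := by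
    have h := hN.mul (discriminant_isBigO.pow N)
    refine (show F =O[atImInfty] (fun _ => (1 : ℝ)) from h.trans ?_)
    refine .of_bound 1 (Eventually.of_forall fun z => ?_)
    rw [← Real.exp_nat_mul, ← Real.exp_add,
      show 2 * π * N * z.im + N * (-2 * π * z.im) = 0 by ring, Real.exp_zero, one_mul]
  have hspan := FA.LevelOneRing.mem_span (12 * N + 1) _ (by push_cast; omega)
    (levelOneForm F hFinv hFm hFb)
  suffices H : ∀ h ∈ Submodule.span ℂ
      (Set.range (FA.LevelOneRing.monomials ((12 * N : ℕ) : ℤ))),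
      ∃ P : ℂ[X], ∀ z, h z = P.eval (jfun z) * ModularForm.discriminant z ^ N by
    obtain ⟨P, hP⟩ := H _ hspan
    exact ⟨P, fun z => mul_right_cancel₀ (pow_ne_zero N (ModularForm.discriminant_ne_zero z))
      (hP z)⟩
  intro h hh
  induction hh using Submodule.span_induction with
  | mem x hx =>
    obtain ⟨⟨⟨a, b⟩, hab⟩, rfl⟩ := hx
    have hab' : 4 * a + 6 * b = 12 * N := by exact_mod_cast hab
    obtain ⟨u, rfl⟩ : 3 ∣ a := by omega
    obtain ⟨v, rfl⟩ : 2 ∣ b := by omega
    obtain rfl : N = u + v := by omega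
    refine ⟨X ^ u * (X - C 1728) ^ v, fun z => ?_⟩
    have hd := ModularForm.discriminant_ne_zero z
    simp only [eval_mul, eval_pow, eval_X, eval_sub, eval_C, FA.LevelOneRing.monomials,
      Pi.mul_apply, Pi.pow_apply, pow_add]
    rw [jfun_sub_1728, jfun, div_pow, div_pow, pow_mul, pow_mul]
    field_simp
  | zero => exact ⟨0, by simp⟩
  | add x y _ _ hx hy =>
    obtain ⟨P, hP⟩ := hx
    obtain ⟨Q, hQ⟩ := hy
    exact ⟨P + Q, fun z => by simp [hP, hQ, add_mul]⟩
  | smul r x _ hx =>
    obtain ⟨P, hP⟩ := hx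
    exact ⟨C r * P, fun z => by simp [hP, mul_assoc]⟩

theorem eval_jfun_injective {P Q : ℂ[X]} (h : ∀ z, P.eval (jfun z) = Q.eval (jfun z)) : P = Q :=
  Polynomial.funext fun a => (exists_jfun_eq a).elim fun z hz => hz ▸ h z

theorem jfun_isBigO : jfun =O[atImInfty] fun z : ℍ => Real.exp (2 * π * z.im) := by
  have h1 : (fun z : ℍ => (ModularForm.discriminant z)⁻¹) =O[atImInfty]
      fun z => (Real.exp (-2 * π * z.im))⁻¹ :=
    ModularForm.exp_isBigO_discriminant.inv_rev
      (Eventually.of_forall fun z hz => absurd hz (Real.exp_pos _).ne')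
  have h2 : ⇑E₄ =O[atImInfty] (fun _ => (1 : ℝ)) := ModularFormClass.bdd_at_infty _
  have h := (h2.pow 3).mul h1
  refine (show jfun =O[atImInfty] _ from h.congr_left fun z => (div_eq_mul_inv _ _).symm).trans ?_
  refine .of_bound 1 (Eventually.of_forall fun z => ?_)
  rw [one_pow, one_mul, one_mul, ← Real.exp_neg, show -(-2 * π * z.im) = 2 * π * z.im by ring]

theorem eval_properties (P : ℂ[X]) :
    MDiff (fun z => P.eval (jfun z)) ∧
      (∀ g : SL(2, ℤ), ∀ z, P.eval (jfun (g • z)) = P.eval (jfun z)) ∧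
      PoleLe (fun z => P.eval (jfun z)) P.natDegree := by
  refine ⟨?_, fun g z => by rw [jfun_smul], ?_⟩
  · rw [UpperHalfPlane.mdifferentiable_iff]
    exact P.differentiable.comp_differentiableOn
      (UpperHalfPlane.mdifferentiable_iff.1 mdiff_jfun)
  · simp only [PoleLe, Polynomial.eval_eq_sum_range]
    refine IsBigO.fun_sum fun i hi => IsBigO.const_mul_left ?_ _
    refine (jfun_isBigO.pow i).trans ?_
    refine IsBigO.of_bound 1 (Eventually.of_forall fun z => ?_)
    rw [one_mul, Real.norm_of_nonneg (by positivity), Real.norm_of_nonneg (by positivity),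
      ← Real.exp_nat_mul, Real.exp_le_exp]
    have hi' : (i : ℝ) ≤ P.natDegree := by
      exact_mod_cast Nat.lt_succ_iff.mp (Finset.mem_range.mp hi)
    have : 0 ≤ 2 * π * z.im := by have := z.im_pos; positivity
    nlinarith

end FA.JPoly

end
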