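import Fermat.Agent.Tau.ModularFormsModP
import Fermat.Agent.Tau.JPolynomial

/-!
# The basis `E₄^(3 (m - i)) Δ^i` in weight `12 m`

A form of level one and weight `12 m` whose expansion has coefficients in a subring of `ℂ` is an
integral combination of the `E₄^(3 (m - i)) Δ^i`, `i ≤ m`, over that subring.
-/

set_option autoImplicit false

noncomputable section

namespace FA.Hatada

open UpperHalfPlane hiding I
open FA.Tau FA.Eis
open scoped MatrixGroups Manifold ModularForm

theorem slash_eFour_pow_mul_delta {m i : ℕ} (hi : i ≤ m) (γ : SL(2, ℤ)) :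
    (⇑ModularForm.E₄ ^ (3 * (m - i)) * ModularForm.discriminant ^ i : ℍ → ℂ)
        ∣[((12 * m : ℕ) : ℤ)] γ =
      ⇑ModularForm.E₄ ^ (3 * (m - i)) * ModularForm.discriminant ^ i := by
  refine (FA.ModField.slash_eq_iff_smul γ).2 fun z => ?_
  obtain ⟨j, rfl⟩ := Nat.exists_eq_add_of_le hi
  simp only [Pi.mul_apply, Pi.pow_apply, Nat.add_sub_cancel_left]
  rw [ModularForm.discriminant_eq_E₄_cube_sub_E₆_sq, ModularForm.discriminant_eq_E₄_cube_sub_E₆_sq,
    FA.ModField.E4_smul, FA.LevelOneRing.E6_smul, zpow_natCast, zpow_ofNat, zpow_ofNat,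
    show ((denom γ z ^ 4 * ModularForm.E₄ z) ^ 3 -
      (denom γ z ^ 6 * ModularForm.E₆ z) ^ 2) / 1728 =
      denom γ z ^ 12 * ((ModularForm.E₄ z ^ 3 - ModularForm.E₆ z ^ 2) / 1728) by ring,
    mul_pow, mul_pow, ← pow_mul, ← pow_mul]
  ring

variable {R : Type*} [CommRing R] (ι : R →+* ℂ)

theorem map_map_intCast (T : PowerSeries ℤ) :
    (T.map (Int.castRingHom R)).map ι = T.map (Int.castRingHom ℂ) := by
  ext n
  simp

/-- The series of `E₄^(3 (m - i)) Δ^i`. -/
def basisInt (m i : ℕ) : PowerSeries ℤ := eFourInt ^ (3 * (m - i)) * deltaInt ^ i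

theorem hasQ_basis (m i : ℕ) :
    HasQ 1 (⇑ModularForm.E₄ ^ (3 * (m - i)) * ModularForm.discriminant ^ i)
      ((basisInt m i).map (Int.castRingHom ℂ)) := by
  rw [basisInt, map_mul, map_pow, map_pow]
  exact (hasQ_eFour.pow one_pos _).mul one_pos (hasQ_discriminant.pow one_pos i)

variable {ι}

/-- **The expansion in `E₄^(3 (m - i)) Δ^i`**, with coefficients in the subring. -/
theorem exists_delta_expansion (hι : Function.Injective ι) : ∀ (m : ℕ) (f : ℍ → ℂ)
    (S : PowerSeries R), (∀ γ : SL(2, ℤ), f ∣[((12 * m : ℕ) : ℤ)] γ = f) →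
    HasQ 1 f (S.map ι) → ∃ b : ℕ → R,
      f = ∑ i ∈ Finset.range (m + 1),
        ι (b i) • (⇑ModularForm.E₄ ^ (3 * (m - i)) * ModularForm.discriminant ^ i) ∧
      S = ∑ i ∈ Finset.range (m + 1),
        PowerSeries.C (b i) * (basisInt m i).map (Int.castRingHom R) := by
  intro m
  induction m with
  | zero =>
    intro f S hinv hS
    set s₀ := PowerSeries.coeff 0 S
    have hT : HasQ 1 (f - ι s₀ • 1) ((S - PowerSeries.C s₀).map ι) := by
      rw [map_sub, PowerSeries.map_C]
      refine hS.sub ?_
      have := (hasQ_eFour.pow one_pos 0).smul (ι s₀)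
      rwa [pow_zero, pow_zero, PowerSeries.smul_eq_C_mul, mul_one] at this
    have hz : (S - PowerSeries.C s₀).map ι = 0 := series_eq_zero (k := 0)
      (f := f - ι s₀ • 1) (by norm_num)
      (fun γ => by
        rw [sub_eq_add_neg, SlashAction.add_slash, SlashAction.neg_slash,
          ModularForm.SL_smul_slash]
        simp only [Nat.cast_zero]
        rw [ModularForm.is_invariant_one γ, show f ∣[(0 : ℤ)] γ = f by simpa using hinv γ])
      hT (by rw [PowerSeries.coeff_map, map_sub, PowerSeries.coeff_zero_C, sub_self, map_zero])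
    refine ⟨fun _ => s₀, ?_, ?_⟩
    · rw [hz] at hT
      have h : f - ι s₀ • 1 = 0 := funext fun z =>
        (hT z).unique (by simp [hasSum_zero])
      simp [sub_eq_zero.1 h]
    · have h0 : S - PowerSeries.C s₀ = 0 := PowerSeries.map_injective ι hι (by rw [hz, map_zero])
      simpa [basisInt, sub_eq_zero] using h0
  | succ m ih =>
    intro f S hinv hS
    set s₀ := PowerSeries.coeff 0 S with hs₀
    set g : ℍ → ℂ := ⇑ModularForm.E₄ ^ (3 * (m + 1 - 0)) * ModularForm.discriminant ^ 0 with hg
    set g' : PowerSeries R := (basisInt (m + 1) 0).map (Int.castRingHom R) with hg'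
    set T := S - PowerSeries.C s₀ * g' with hTdef
    have hT : HasQ 1 (f - ι s₀ • g) (T.map ι) := by
      rw [map_sub, map_mul, PowerSeries.map_C, hg', map_map_intCast, ← PowerSeries.smul_eq_C_mul]
      exact hS.sub ((hasQ_basis (m + 1) 0).smul _)
    have hTinv : ∀ γ : SL(2, ℤ),
        (f - ι s₀ • g) ∣[((12 * (m + 1) : ℕ) : ℤ)] γ = f - ι s₀ • g := fun γ => by
      rw [sub_eq_add_neg, SlashAction.add_slash, SlashAction.neg_slash, ModularForm.SL_smul_slash,
        hinv γ, slash_eFour_pow_mul_delta (Nat.zero_le _) γ]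
    have hT0 : PowerSeries.coeff 0 T = 0 := by
      have h4 : PowerSeries.constantCoeff eFourInt = 1 := by
        rw [← PowerSeries.coeff_zero_eq_constantCoeff_apply]; simp [eFourInt]
      rw [map_sub, PowerSeries.coeff_C_mul, hg', PowerSeries.coeff_map, basisInt]
      simp [h4, s₀]
    set F := FA.ModField.levelOneForm (f - ι s₀ • g) hTinv (hT.mdiff one_pos) (hT.bdd one_pos)
    have hFc : (qExpansion 1 ⇑F).coeff 0 = 0 := by
      rw [show qExpansion 1 ⇑F = T.map ι from hT.qExpansion_eq one_pos, PowerSeries.coeff_map, hT0,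
        map_zero]
    set F₁ := CuspForm.discriminantEquiv (ModularForm.toCuspForm F hFc)
    have hF₁ : ModularForm.discriminant * ⇑F₁ = f - ι s₀ • g := funext fun z =>
      ModularForm.discriminant_mul_discriminantEquiv_apply (ModularForm.toCuspForm F hFc) z
    obtain ⟨W, hW⟩ : PowerSeries.X ∣ T := PowerSeries.X_dvd_iff.2
      (by rwa [← PowerSeries.coeff_zero_eq_constantCoeff_apply])
    set u : PowerSeries R := ModularCurve.dedekindEtaUnit.map (Int.castRingHom R)
    set S₁ := W * u.invOfUnit 1
    have hTS : T = deltaInt.map (Int.castRingHom R) * S₁ := by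
      have := PowerSeries.mul_invOfUnit u 1
        (by rw [← PowerSeries.coeff_zero_eq_constantCoeff_apply, PowerSeries.coeff_map,
              PowerSeries.coeff_zero_eq_constantCoeff_apply,
              ModularCurve.constantCoeff_dedekindEtaUnit, map_one]; rfl)
      rw [show deltaInt.map (Int.castRingHom R) = PowerSeries.X * u by simp [u, deltaInt], hW,
        show PowerSeries.X * u * S₁ = PowerSeries.X * W * (u * u.invOfUnit 1) by ring, this,
        mul_one]
    have hS1 : HasQ 1 ⇑F₁ (S₁.map ι) := by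
      have h1 := FA.Tau.hasQ_discriminant.mul one_pos (hasQ_form F₁)
      rw [hF₁] at h1
      have h2 := HasQ.unique one_pos h1 hT
      rw [hTS, map_mul, map_map_intCast] at h2
      rw [← mul_left_cancel₀ (fun e => by
        have := congrArg (PowerSeries.coeff 1) e
        simp [PowerSeries.coeff_map, coeff_deltaInt_one] at this) h2]
      exact hasQ_form F₁
    obtain ⟨b, hb, hbS⟩ := ih ⇑F₁ S₁ (fun γ => by
      rw [show ((12 * m : ℕ) : ℤ) = ((12 * (m + 1) : ℕ) : ℤ) - 12 by push_cast; ring]
      exact F₁.slash_action_eq' _ ⟨γ, rfl⟩) hS1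
    refine ⟨fun i => if i = 0 then s₀ else b (i - 1), ?_, ?_⟩
    · rw [Finset.sum_range_succ', show f = ι s₀ • g + ModularForm.discriminant * ⇑F₁ by
        rw [hF₁, add_sub_cancel], hb, Finset.mul_sum, add_comm]
      refine congrArg₂ _ (Finset.sum_congr rfl fun i hi => ?_) (by simp [hg])
      simp only [if_neg i.succ_ne_zero, Nat.add_sub_cancel]
      rw [mul_smul_comm,
        show m + 1 - (i + 1) = m - i by omega, pow_succ]
      congr 1
      ring
    · rw [Finset.sum_range_succ', show S = PowerSeries.C s₀ * g' + T from (add_sub_cancel _ _).symm,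
        hTS, hbS, Finset.mul_sum, add_comm]
      refine congrArg₂ _ (Finset.sum_congr rfl fun i hi => ?_) (by simp [hg'])
      simp only [if_neg i.succ_ne_zero, Nat.add_sub_cancel]
      simp only [basisInt, show m + 1 - (i + 1) = m - i by omega, map_mul, map_pow, pow_succ]
      ring

end FA.Hatada

end
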