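import Fermat.Agent.Tau.JValues

/-!
# Complex multiplication in the lattice sense, for curves over `ℚ`
-/

set_option autoImplicit false

noncomputable section

open UpperHalfPlane hiding I
open FA.ModField FA.Mazur.Wp FA.JInj
open scoped MatrixGroups

namespace FA.CMLattice

/-- A curve over `ℚ` whose lattice has a multiplier outside `ℤ`. -/
def HasCM (E : WeierstrassCurve ℚ) : Prop :=
  ∃ L : PeriodPair, L.g₂ = (E.c₄ : ℂ) / 12 ∧ L.g₃ = (E.c₆ : ℂ) / 216 ∧
    ∃ ω : ℂ, (∀ m : ℤ, ω ≠ m) ∧ ∀ l ∈ L.lattice, ω * l ∈ L.lattice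

/-- The thirteen invariants. -/
def values : Finset ℚ :=
  {0, 1728, -3375, 8000, -32768, 54000, 287496, -884736, -12288000, 16581375, -884736000,
    -147197952000, -262537412640768000}

variable {E : WeierstrassCurve ℚ} [E.IsElliptic]

omit [E.IsElliptic] in
theorem discr_eq : ((E.c₄ : ℂ) / 12) ^ 3 - 27 * ((E.c₆ : ℂ) / 216) ^ 2 = (E.Δ : ℂ) := by
  have h : (1728 : ℂ) * E.Δ = (E.c₄ : ℂ) ^ 3 - (E.c₆ : ℂ) ^ 2 := by exact_mod_cast E.c_relation
  linear_combination (-(1 / 1728) : ℂ) * h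

theorem j_eq {L : PeriodPair} (h2 : L.g₂ = (E.c₄ : ℂ) / 12) (h3 : L.g₃ = (E.c₆ : ℂ) / 216)
    {τ : ℍ} {c : ℂ} {hc : c ≠ 0} (hlat : L.lattice = (scalePair (latPair τ) c hc).lattice) :
    jfun τ = (E.j : ℂ) := by
  rw [FA.Singular.jfun_eq_invariant, ← FA.Singular.invariant_scale hlat, h2, h3, discr_eq,
    WeierstrassCurve.j, Units.val_inv_eq_inv_val, WeierstrassCurve.coe_Δ']
  push_cast
  ring

theorem mem_values_of_table {D v : ℤ} (h : (D, v) ∈ FA.JValues.table) : (v : ℚ) ∈ values := by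
  simp only [FA.JValues.table, List.mem_cons, List.not_mem_nil, or_false, Prod.mk.injEq] at h
  simp only [values, Finset.mem_insert, Finset.mem_singleton]
  rcases h with ⟨-, rfl⟩ | ⟨-, rfl⟩ | ⟨-, rfl⟩ | ⟨-, rfl⟩ | ⟨-, rfl⟩ | ⟨-, rfl⟩ | ⟨-, rfl⟩ |
    ⟨-, rfl⟩ | ⟨-, rfl⟩ | ⟨-, rfl⟩ | ⟨-, rfl⟩ | ⟨-, rfl⟩ | ⟨-, rfl⟩ <;> norm_num

theorem exists_table {D : ℤ} (h : D ∈ FA.ThirteenOrders.thirteen) :
    ∃ v : ℤ, (D, v) ∈ FA.JValues.table := by
  simp only [FA.ThirteenOrders.thirteen, Finset.mem_insert, Finset.mem_singleton] at h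
  rcases h with rfl | rfl | rfl | rfl | rfl | rfl | rfl | rfl | rfl | rfl | rfl | rfl | rfl <;>
    exact ⟨_, by simp [FA.JValues.table]; rfl⟩

theorem j_mem_of_hasCM (h : HasCM E) : E.j ∈ values := by
  obtain ⟨L, h2, h3, ω, hω, hst⟩ := h
  obtain ⟨τ, c, hc, hlat⟩ := exists_latPair L
  have hst' : FA.Singular.Stable (latPair τ) ω :=
    (FA.Singular.stable_scale _ hc ω).mp ((FA.Singular.stable_congr hlat ω).mp hst)
  obtain ⟨p, y, e⟩ := mem_latPair.mp (hst' 1 (mem_latPair.mpr ⟨0, 1, by simp⟩))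
  rw [mul_one] at e
  have him : ω.im ≠ 0 := by
    rw [← e]
    simp [τ.im_pos.ne']
    rintro rfl
    exact hω y (by rw [← e]; simp)
  obtain ⟨A, B, C, hroot⟩ := FA.ThirteenOrders.exists_isRootOf him hst'
  have hj := j_eq h2 h3 hlat
  have hD := (FA.Summary.rational_singularModulus_iff τ A B C hroot.pos hroot.prim hroot.eq).mp
    ⟨E.j, hj⟩
  obtain ⟨v, hv⟩ := exists_table hD
  have e' := FA.JValues.value hroot rfl hv
  rw [hj, ← Rat.cast_intCast, Rat.cast_inj] at e'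
  exact e' ▸ mem_values_of_table hv

theorem exists_table_of_values {r : ℚ} (h : r ∈ values) :
    ∃ D v : ℤ, (D, v) ∈ FA.JValues.table ∧ D ∈ FA.ThirteenOrders.thirteen ∧ (v : ℚ) = r := by
  simp only [values, Finset.mem_insert, Finset.mem_singleton] at h
  obtain ⟨v, D, hv, rfl⟩ : ∃ v D : ℤ, (D, v) ∈ FA.JValues.table ∧ r = v := by
    rcases h with rfl | rfl | rfl | rfl | rfl | rfl | rfl | rfl | rfl | rfl | rfl | rfl | rfl
    exacts [⟨0, -3, by decide, by norm_num⟩, ⟨1728, -4, by decide, by norm_num⟩,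
      ⟨-3375, -7, by decide, by norm_num⟩, ⟨8000, -8, by decide, by norm_num⟩,
      ⟨-32768, -11, by decide, by norm_num⟩, ⟨54000, -12, by decide, by norm_num⟩,
      ⟨287496, -16, by decide, by norm_num⟩, ⟨-884736, -19, by decide, by norm_num⟩,
      ⟨-12288000, -27, by decide, by norm_num⟩, ⟨16581375, -28, by decide, by norm_num⟩,
      ⟨-884736000, -43, by decide, by norm_num⟩, ⟨-147197952000, -67, by decide, by norm_num⟩,
      ⟨-262537412640768000, -163, by decide, by norm_num⟩]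
  refine ⟨D, v, hv, ?_, rfl⟩
  simp only [FA.JValues.table, List.mem_cons, List.not_mem_nil, or_false, Prod.mk.injEq] at hv
  simp only [FA.ThirteenOrders.thirteen, Finset.mem_insert, Finset.mem_singleton]
  omega

theorem hasCM_of_j_mem (h : E.j ∈ values) : HasCM E := by
  obtain ⟨D, v, hv, hD, hr⟩ := exists_table_of_values h
  obtain ⟨hneg, h4⟩ := FA.ThirteenOrders.mem_thirteen_mod hD
  obtain ⟨σ, A, B, C, hroot, hdisc⟩ := FA.ThirteenOrders.exists_root hneg h4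
  obtain ⟨L, h2, h3⟩ := exists_g₂_g₃ (a := (E.c₄ : ℂ) / 12) (b := (E.c₆ : ℂ) / 216)
    (by rw [discr_eq]; exact_mod_cast E.isUnit_Δ.ne_zero)
  obtain ⟨τ, c, hc, hlat⟩ := exists_latPair L
  have hjj : jfun σ = jfun τ := by
    rw [j_eq h2 h3 hlat, FA.JValues.value hroot hdisc hv, ← hr, Rat.cast_intCast]
  obtain ⟨g, hg⟩ := (jfun_eq_iff σ τ).mp hjj
  obtain ⟨hst, -⟩ := FA.Singular.stable_of_form (t := (A, B, C)) hroot.eq
  refine ⟨L, h2, h3, (A : ℂ) * σ, fun m hm => ?_, (FA.Singular.stable_congr hlat _).mpr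
    ((FA.Singular.stable_scale _ hc _).mpr (hg ▸ (FA.Singular.stable_smul σ g _).mpr hst))⟩
  have := congrArg Complex.im hm
  simp [hroot.pos.ne', σ.im_pos.ne'] at this

theorem hasCM_iff : HasCM E ↔ E.j ∈ values := ⟨j_mem_of_hasCM, hasCM_of_j_mem⟩

end FA.CMLattice

end
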