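import Fermat.Agent.Root.SummaryDeuringClassNumber
import Fermat.Agent.Root.SummarySiegel
import Fermat.Agent.Root.SummaryPrimesForms
import Mathlib.NumberTheory.Harmonic.Bounds

/-!
# Bounds for `H(4 p)`

The reduced forms of discriminant `-4 p` are `(a, 2 b, c)` with `b ^ 2 + p = a c`; as a square root
of `-p` modulo `a` comes at most `2 τ(a)` times, there are `O(√p log p)` of them, and at least
`h(p)`.
-/

set_option autoImplicit false

noncomputable section

open Finset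

namespace FA.ClassRelation

variable {p : ℕ}

/-- The shape of a reduced form of discriminant `-4 p`. -/
theorem exists_half {f : ℤ × ℤ × ℤ} (hf : f ∈ redForms (4 * p)) :
    ∃ b : ℤ, f.2.1 = 2 * b ∧ f.1 * f.2.2 = b ^ 2 + p ∧ 0 < f.1 ∧ 2 * |b| ≤ f.1 ∧
      3 * f.1 ^ 2 ≤ 4 * p := by
  obtain ⟨a, B, c⟩ := f
  obtain ⟨hd, ha, hb, hc, -⟩ := mem_redForms.1 hf
  simp only at hd ha hb hc ⊢
  push_cast at hd
  obtain ⟨b, rfl⟩ : 2 ∣ B := Int.prime_two.dvd_of_dvd_pow (n := 2) ⟨2 * a * c - 2 * p, by linarith⟩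
  rw [abs_mul, abs_two] at hb
  refine ⟨b, rfl, by linarith, ha, hb, ?_⟩
  nlinarith [mul_le_mul_of_nonneg_left hc ha.le, mul_le_mul hb hb (by positivity) ha.le, sq_abs b]

/-- For `p ≥ 5` prime all weights are `1`. -/
theorem classNumberH_four_eq_card (hp : p.Prime) (h5 : 5 ≤ p) :
    classNumberH (4 * p) = (redForms (4 * p)).card := by
  rw [classNumberH, Finset.sum_congr rfl fun f hf => ?_, Finset.sum_const, nsmul_eq_mul, mul_one]
  obtain ⟨b, hb, hac, ha, -, h3⟩ := exists_half hf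
  obtain ⟨a, B, c⟩ := f
  simp only at hb hac ha h3
  have hpz : Prime (p : ℤ) := Nat.prime_iff_prime_int.1 hp
  have hlt : a < p := by nlinarith [show (5 : ℤ) ≤ p by exact_mod_cast h5]
  have hnd : ¬(p : ℤ) ∣ a := fun h => absurd (Int.le_of_dvd ha h) (not_le.2 hlt)
  simp only [weight]
  rw [if_neg fun h => hnd (hpz.dvd_of_dvd_pow (n := 2) ⟨1, ?_⟩),
    if_neg fun h => ?_]
  · obtain ⟨h1, h2⟩ := h
    have e : 3 * b ^ 2 = (p : ℤ) := by subst hb; subst h1; subst h2; linarith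
    have h3p : (3 : ℤ) ∣ (p : ℤ) := ⟨b ^ 2, e.symm⟩
    have := (Nat.prime_dvd_prime_iff_eq Nat.prime_three hp).1 (by exact_mod_cast h3p)
    omega
  · obtain ⟨h1, h2⟩ := h
    have : b = 0 := by omega
    subst this h2
    linarith

/-- A square root of a residue prime to `a` occurs at most `2 τ(a)` times in a period. -/
theorem card_sqrt_le (hp : p.Prime) {a : ℕ} (ha : 0 < a) (hap : a < p) {x : ℤ} :
    ((Finset.Ico x (x + a)).filter fun b : ℤ => (a : ℤ) ∣ b ^ 2 + p).card ≤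
      2 * a.divisors.card := by
  set R := (Finset.Ico x (x + a)).filter fun b : ℤ => (a : ℤ) ∣ b ^ 2 + p
  rcases R.eq_empty_or_nonempty with h | ⟨x₀, hx₀⟩
  · simp [h]
  have hx₀' := (Finset.mem_filter.1 hx₀).2
  have hcop : IsCoprime (a : ℤ) x₀ := by
    rw [Int.isCoprime_iff_gcd_eq_one]
    refine Nat.eq_one_of_dvd_one ?_
    have h1 : ((Int.gcd a x₀ : ℕ) : ℤ) ∣ p := by
      have := dvd_sub ((Int.gcd_dvd_left (a : ℤ) x₀).trans hx₀')
        (dvd_pow (Int.gcd_dvd_right (a : ℤ) x₀) two_ne_zero)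
      simpa using this
    rcases (Nat.dvd_prime hp).1 (Int.natCast_dvd_natCast.1 h1) with e | e
    · rw [e]
    · have := Nat.le_of_dvd ha (Int.natCast_dvd_natCast.1 (e ▸ Int.gcd_dvd_left (a : ℤ) x₀))
      omega
  refine card_le_mul_card_image_of_maps_to (f := fun b : ℤ => Int.gcd (b - x₀) a)
    (fun b _ => Nat.mem_divisors.2
      ⟨Int.natCast_dvd_natCast.1 (Int.gcd_dvd_right (b - x₀) (a : ℤ)), ha.ne'⟩) 2 fun d hd => ?_
  have ha0 : (a : ℤ) ≠ 0 := by exact_mod_cast ha.ne'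
  by_contra hlt
  obtain ⟨b₁, hb₁, b₂, hb₂, b₃, hb₃, h12, h13, h23⟩ := two_lt_card.1 (not_le.1 hlt)
  -- two roots with the same `d` differ by a multiple of a number `m` with `a ∣ 2 m`
  have key : ∀ {b c : ℤ}, b ∈ R.filter (fun b : ℤ => Int.gcd (b - x₀) a = d) →
      c ∈ R.filter (fun b : ℤ => Int.gcd (b - x₀) a = d) → (a : ℤ) ∣ 2 * (b - c) := by
    intro b c hb hc
    simp only [R, Finset.mem_filter] at hb hc
    have hd0 : (d : ℤ) ∣ a := by rw [← hb.2]; exact Int.gcd_dvd_right _ _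
    obtain ⟨e, he⟩ := hd0
    have hmul : ∀ {y : ℤ}, (a : ℤ) ∣ y ^ 2 + p → Int.gcd (y - x₀) a = d → e ∣ y + x₀ := by
      intro y hy hyd
      have h1 : (a : ℤ) ∣ (y - x₀) * (y + x₀) := by
        rw [show (y - x₀) * (y + x₀) = y ^ 2 + p - (x₀ ^ 2 + p) by ring]
        exact dvd_sub hy hx₀'
      have hbez := Int.gcd_eq_gcd_ab (y - x₀) a
      rw [hyd] at hbez
      have h2 : (a : ℤ) ∣ (d : ℤ) * (y + x₀) := by
        rw [hbez, add_mul]
        exact dvd_add (by rw [mul_right_comm]; exact dvd_mul_of_dvd_left h1 _)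
          (dvd_mul_of_dvd_left (dvd_mul_right _ _) _)
      rw [he] at h2
      exact (mul_dvd_mul_iff_left fun h => ha0 (by rw [he, h, zero_mul])).1 h2
    have e1 : e ∣ b - c := by
      rw [show b - c = b + x₀ - (c + x₀) by ring]
      exact dvd_sub (hmul hb.1.2 hb.2) (hmul hc.1.2 hc.2)
    have e2 : (d : ℤ) ∣ b - c := by
      rw [show b - c = b - x₀ - (c - x₀) by ring]
      exact dvd_sub (by rw [← hb.2]; exact Int.gcd_dvd_left _ _)
        (by rw [← hc.2]; exact Int.gcd_dvd_left _ _)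
    -- `a = d e` and every common divisor of `d` and `e` divides `2 x₀`
    have h3 : (Int.gcd (d : ℤ) e : ℤ) ∣ 2 := by
      have hg : (Int.gcd (d : ℤ) e : ℤ) ∣ 2 * x₀ := by
        rw [show 2 * x₀ = b + x₀ - (b - x₀) by ring]
        exact dvd_sub ((Int.gcd_dvd_right _ _).trans (hmul hb.1.2 hb.2))
          ((Int.gcd_dvd_left _ _).trans (by rw [← hb.2]; exact Int.gcd_dvd_left _ _))
      refine IsCoprime.dvd_of_dvd_mul_right ?_ hg
      exact hcop.of_isCoprime_of_dvd_left ((Int.gcd_dvd_left _ _).trans ⟨e, he⟩)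
    obtain ⟨q, hq⟩ := h3
    calc (a : ℤ) = d * e := he
      _ ∣ (Int.gcd (d : ℤ) e : ℤ) * (b - c) := by
        rw [Int.gcd_eq_gcd_ab, add_mul]
        refine dvd_add ?_ ?_
        · rw [mul_assoc]; exact mul_dvd_mul_left _ (dvd_mul_of_dvd_right e1 _)
        · rw [mul_assoc, mul_comm (d : ℤ) e]
          exact mul_dvd_mul_left _ (dvd_mul_of_dvd_right e2 _)
      _ ∣ 2 * (b - c) := mul_dvd_mul_right ⟨q, hq⟩ _
  have r : ∀ {b : ℤ}, b ∈ R.filter (fun b : ℤ => Int.gcd (b - x₀) a = d) → x ≤ b ∧ b < x + a :=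
    fun hb => Finset.mem_Ico.1 (Finset.mem_filter.1 (Finset.mem_filter.1 hb).1).1
  have := r hb₁; have := r hb₂; have := r hb₃
  have small : ∀ {b c : ℤ}, (a : ℤ) ∣ 2 * (b - c) → b ≠ c → (a : ℤ) ≤ 2 * |b - c| :=
    fun h hne => by
    have := Int.le_of_dvd (abs_pos.2 (mul_ne_zero two_ne_zero (sub_ne_zero.2 hne)))
      ((dvd_abs _ _).2 h)
    rwa [abs_mul, abs_two] at this
  have := small (key hb₁ hb₂) h12
  have := small (key hb₁ hb₃) h13
  have := small (key hb₂ hb₃) h23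
  simp only [abs_eq_max_neg] at *
  omega

/-- `#{forms} ≤ 3 ∑_{a ≤ M} τ(a)`. -/
theorem card_redForms_four_le (hp : p.Prime) {M : ℕ} (hM : 4 * p < 3 * (M + 1) ^ 2)
    (hMp : M < p) : (redForms (4 * p)).card ≤ 3 * ∑ a ∈ Finset.Ioc 0 M, a.divisors.card := by
  rw [Finset.mul_sum]
  refine (card_le_card_of_injOn (fun f : ℤ × ℤ × ℤ => (⟨f.1.toNat, f.2.1 / 2⟩ : Σ _ : ℕ, ℤ))
    (t := (Finset.Ioc 0 M).sigma fun a => (Finset.Icc (-((a / 2 : ℕ) : ℤ)) (a / 2 : ℕ)).filter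
      fun b : ℤ => (a : ℤ) ∣ b ^ 2 + p) ?_ ?_).trans ?_
  · intro f hf
    obtain ⟨b, hb, hac, ha, hba, h3⟩ := exists_half hf
    obtain ⟨a, B, c⟩ := f
    simp only at hb hac ha hba h3
    lift a to ℕ using ha.le
    have haM : a ≤ M := by
      by_contra h
      have h1 : (M + 1) ^ 2 ≤ a ^ 2 := Nat.pow_le_pow_left (by omega) 2
      have h2 : 3 * a ^ 2 ≤ 4 * p := by exact_mod_cast h3
      omega
    have ha' : 0 < a := by exact_mod_cast ha
    simp only [Finset.mem_coe, Finset.mem_sigma, Finset.mem_Ioc, Finset.mem_filter,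
      Finset.mem_Icc, Int.toNat_natCast, hb, Int.mul_ediv_cancel_left _ (two_ne_zero (α := ℤ))]
    rw [abs_eq_max_neg] at hba
    exact ⟨⟨ha', haM⟩, by omega, ⟨c, hac.symm⟩⟩
  · intro f hf g hg h
    obtain ⟨b, hb, hac, ha, -, -⟩ := exists_half hf
    obtain ⟨b', hb', hac', ha', -, -⟩ := exists_half hg
    simp only [Sigma.mk.injEq, hb, hb', Int.mul_ediv_cancel_left _ (two_ne_zero (α := ℤ)),
      heq_eq_eq] at h
    obtain ⟨h1, rfl⟩ := h
    have e : f.1 = g.1 := by omega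
    refine Prod.ext e (Prod.ext (hb.trans hb'.symm) (mul_left_cancel₀ ha.ne' ?_))
    rw [hac, e, hac']
  rw [Finset.card_sigma]
  refine Finset.sum_le_sum fun a ha => ?_
  rw [Finset.mem_Ioc] at ha
  calc _ ≤ ((Finset.Ico (-((a / 2 : ℕ) : ℤ)) (-((a / 2 : ℕ) : ℤ) + a)).filter
        (fun b : ℤ => (a : ℤ) ∣ b ^ 2 + p) ∪ {((a / 2 : ℕ) : ℤ)}).card := by
        refine Finset.card_le_card fun b hb => ?_
        simp only [Finset.mem_filter, Finset.mem_Icc] at hb
        simp only [Finset.mem_union, Finset.mem_filter, Finset.mem_Ico, Finset.mem_singleton]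
        rcases eq_or_ne b ((a / 2 : ℕ) : ℤ) with h | h
        · exact Or.inr h
        · exact Or.inl ⟨by omega, hb.2⟩
    _ ≤ 2 * a.divisors.card + 1 := (Finset.card_union_le _ _).trans
        (Nat.add_le_add (card_sqrt_le hp ha.1 (by omega)) (Finset.card_singleton _).le)
    _ ≤ 3 * a.divisors.card := by
        have := Finset.card_pos.2 (Nat.nonempty_divisors.2 (show a ≠ 0 by omega))
        omega

/-- `∑_{a ≤ M} τ(a) ≤ M (1 + log M)`. -/
theorem sum_card_divisors_le (M : ℕ) :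
    ((∑ a ∈ Finset.Ioc 0 M, a.divisors.card : ℕ) : ℝ) ≤ M * (1 + Real.log M) := by
  have e : ∑ a ∈ Finset.Ioc 0 M, a.divisors.card = ∑ d ∈ Finset.Ioc 0 M, M / d := by
    rw [Finset.sum_congr rfl fun a ha => show a.divisors.card =
        ((Finset.Ioc 0 M).filter (· ∣ a)).card from congrArg Finset.card (by
      rw [Finset.mem_Ioc] at ha
      ext d
      simp only [Nat.mem_divisors, Finset.mem_filter, Finset.mem_Ioc]
      exact ⟨fun ⟨h, h0⟩ => ⟨⟨Nat.pos_of_dvd_of_pos h (by omega),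
        (Nat.le_of_dvd (by omega) h).trans ha.2⟩, h⟩, fun ⟨_, h⟩ => ⟨h, by omega⟩⟩)]
    simp only [Finset.card_filter]
    rw [Finset.sum_comm]
    refine Finset.sum_congr rfl fun d _ => ?_
    rw [← Finset.card_filter, Nat.Ioc_filter_dvd_card_eq_div]
  rw [e, Nat.cast_sum]
  calc ∑ d ∈ Finset.Ioc 0 M, ((M / d : ℕ) : ℝ) ≤ ∑ d ∈ Finset.Ioc 0 M, (M : ℝ) * (d : ℝ)⁻¹ :=
        Finset.sum_le_sum fun d _ => Nat.cast_div_le.trans (le_of_eq (div_eq_mul_inv _ _))
    _ ≤ M * (1 + Real.log M) := by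
        rw [← Finset.mul_sum]
        refine mul_le_mul_of_nonneg_left (le_trans (le_of_eq ?_) (harmonic_le_one_add_log M))
          (Nat.cast_nonneg M)
        simp [harmonic_eq_sum_Icc, ← Finset.Icc_add_one_left_eq_Ioc]

/-- **`H(4 p) ≤ 4 √p (1 + log (4 p))`.** -/
theorem classNumberH_four_le (hp : p.Prime) (h5 : 5 ≤ p) :
    (classNumberH (4 * p) : ℝ) ≤ 4 * √(p : ℝ) * (1 + Real.log (4 * p)) := by
  rw [classNumberH_four_eq_card hp h5, Rat.cast_natCast]
  set M := Nat.sqrt (4 * p / 3)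
  have h1 : M * M ≤ 4 * p / 3 := Nat.sqrt_le _
  have h2 : 4 * p / 3 < (M + 1) * (M + 1) := Nat.lt_succ_sqrt _
  have hMp : M < p := by
    by_contra h
    have := Nat.mul_le_mul (not_lt.1 h) (not_lt.1 h)
    have := Nat.mul_le_mul_right p h5
    omega
  have hc := card_redForms_four_le hp (M := M) (by rw [sq]; omega) hMp
  have hs := sum_card_divisors_le M
  have hM : (M : ℝ) ≤ 4 / 3 * √(p : ℝ) := by
    have : (3 : ℝ) * (M * M) ≤ 4 * p := by exact_mod_cast (show 3 * (M * M) ≤ 4 * p by omega)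
    nlinarith [Real.sq_sqrt (Nat.cast_nonneg p : (0 : ℝ) ≤ p), Real.sqrt_nonneg (p : ℝ)]
  have hlog : Real.log M ≤ Real.log (4 * p) := by
    rcases Nat.eq_zero_or_pos M with h | h
    · simp [h]
      exact Real.log_nonneg (by norm_cast; omega)
    · exact Real.log_le_log (by exact_mod_cast h) (by norm_cast; omega)
  have hl0 : 0 ≤ Real.log (4 * p) := Real.log_nonneg (by norm_cast; omega)
  calc ((redForms (4 * p)).card : ℝ)
      ≤ 3 * ((∑ a ∈ Finset.Ioc 0 M, a.divisors.card : ℕ) : ℝ) := by exact_mod_cast hc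
    _ ≤ 3 * ((M : ℝ) * (1 + Real.log (4 * p))) := by
        nlinarith [mul_le_mul_of_nonneg_left hlog (Nat.cast_nonneg M : (0 : ℝ) ≤ M)]
    _ ≤ 4 * √(p : ℝ) * (1 + Real.log (4 * p)) := by
        nlinarith [mul_le_mul_of_nonneg_right hM (show 0 ≤ 1 + Real.log (4 * p) by linarith)]

/-- `h(p) ≤ H(4 p)`. -/
theorem natCard_cl_le (hp : p.Prime) (h5 : 5 ≤ p) [NeZero p] :
    (Nat.card (FA.OrderTheta.Cl p) : ℚ) ≤ classNumberH (4 * p) := by
  rw [classNumberH_four_eq_card hp h5, FA.Summary.classNumber_reduced_forms p (2 * p) (by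
    nlinarith), Nat.cast_le]
  refine card_le_card_of_injOn (fun t : ℕ × ℤ => ((t.1 : ℤ), 2 * t.2, (t.2 ^ 2 + p) / t.1)) ?_ ?_
  · rintro ⟨a, b⟩ ht
    obtain ⟨-, ha, hdvd, -, hb, haa, hbd⟩ := Finset.mem_filter.1 ht
    rw [Finset.mem_coe, mem_redForms]
    simp only at ha hdvd hb haa hbd ⊢
    have e := Int.mul_ediv_cancel' hdvd
    have ha' : (0 : ℤ) < a := by exact_mod_cast ha
    refine ⟨by push_cast; linear_combination -4 * e, ha', by rw [abs_mul, abs_two]; exact hb,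
      (Int.le_ediv_iff_mul_le ha').2 haa, fun h => ?_⟩
    have := hbd (h.imp (fun h => by rwa [abs_mul, abs_two] at h)
      fun h => by conv_rhs => rw [← e, ← h])
    omega
  · rintro ⟨a, b⟩ - ⟨a', b'⟩ - h
    simp only [Prod.mk.injEq, Nat.cast_inj] at h
    exact Prod.ext h.1 (by show b = b'; omega)

end FA.ClassRelation

end
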