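import Fermat.Agent.Tau.JInjective
import Fermat.Agent.Tau.ModularPolynomial

/-!
# The diagonal of the modular equation

`j(N γ τ) = j(τ)` for some `N > 1` exactly when `τ` is imaginary quadratic, so the singular moduli
are the roots of the polynomials `Φ_p(X, X)`.
-/

set_option autoImplicit false
set_option linter.style.haveILetI false

noncomputable section

namespace FA.Diagonal

open UpperHalfPlane hiding I
open FA.ModField FA.ModPoly FA.JInj
open scoped MatrixGroups Polynomial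

/-- `τ` is a root of a quadratic polynomial with integral coefficients. -/
def IsQuad (τ : ℍ) : Prop :=
  ∃ a b c : ℤ, a ≠ 0 ∧ (a : ℂ) * (τ : ℂ) ^ 2 + b * (τ : ℂ) + c = 0

theorem disc_neg {τ : ℍ} {a b c : ℤ} (ha : a ≠ 0)
    (h : (a : ℂ) * (τ : ℂ) ^ 2 + b * (τ : ℂ) + c = 0) : b ^ 2 - 4 * a * c < 0 := by
  have hre := congrArg Complex.re h
  have him := congrArg Complex.im h
  simp [pow_two] at hre him
  have him' : (2 * (a : ℝ) * τ.re + b) * τ.im = 0 := by linear_combination him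
  have h2 := (mul_eq_zero.mp him').resolve_right τ.im_pos.ne'
  have ha' : (a : ℝ) ≠ 0 := by exact_mod_cast ha
  have key : ((b ^ 2 - 4 * a * c : ℤ) : ℝ) = -(2 * (a : ℝ) * τ.im) ^ 2 := by
    push_cast
    linear_combination (-4 * (a : ℝ)) * hre + (2 * (a : ℝ) * τ.re + b) * h2
  have : 0 < (2 * (a : ℝ) * τ.im) ^ 2 := by
    have := τ.im_pos
    positivity
  exact_mod_cast (show ((b ^ 2 - 4 * a * c : ℤ) : ℝ) < 0 by linarith)

/-- A point with `j(N γ τ) = j(τ)`, `N > 1`, is imaginary quadratic. -/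
theorem isQuad_of_fixed {N : ℕ} [NeZero N] (hN : 1 < N) {γ : SL(2, ℤ)} {τ : ℍ}
    (h : jfun (scaleH N (γ • τ)) = jfun τ) : IsQuad τ := by
  obtain ⟨g, hg⟩ := (jfun_eq_iff _ _).mp h
  have e := congrArg UpperHalfPlane.coe hg
  have hd := smul_denom_ne γ τ
  have hd' := smul_denom_ne g (scaleH N (γ • τ))
  rw [coe_smul_int, div_eq_iff hd', coe_scaleH] at e
  have hu : ((γ • τ : ℍ) : ℂ) * ((γ 1 0 : ℂ) * τ + γ 1 1) = γ 0 0 * τ + γ 0 1 := by
    rw [coe_smul_int, div_mul_cancel₀ _ hd]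
  set m₀₀ : ℤ := g 0 0 * N * γ 0 0 + g 0 1 * γ 1 0 with h00
  set m₀₁ : ℤ := g 0 0 * N * γ 0 1 + g 0 1 * γ 1 1 with h01
  set m₁₀ : ℤ := g 1 0 * N * γ 0 0 + g 1 1 * γ 1 0 with h10
  set m₁₁ : ℤ := g 1 0 * N * γ 0 1 + g 1 1 * γ 1 1 with h11
  have he : (m₁₀ : ℂ) * (τ : ℂ) ^ 2 + ((m₁₁ - m₀₀ : ℤ) : ℂ) * τ + ((-m₀₁ : ℤ) : ℂ) = 0 := by
    simp only [h00, h01, h10, h11]
    push_cast
    linear_combination -((γ 1 0 : ℂ) * τ + γ 1 1) * e +
      ((N : ℂ) * g 0 0 - τ * g 1 0 * N) * hu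
  refine ⟨m₁₀, _, _, fun h0 => ?_, he⟩
  rw [h0, Int.cast_zero, zero_mul, zero_add] at he
  obtain ⟨hb, hc⟩ := FA.JInj.eq_zero_of_add he
  have hdg : g 0 0 * g 1 1 - g 0 1 * g 1 0 = 1 := by
    have := g.det_coe; rwa [Matrix.det_fin_two] at this
  have hdγ : γ 0 0 * γ 1 1 - γ 0 1 * γ 1 0 = 1 := by
    have := γ.det_coe; rwa [Matrix.det_fin_two] at this
  have e1 : γ 1 0 = m₀₀ * -g 1 0 := by
    rw [h10] at h0; rw [h00]
    linear_combination g 0 0 * h0 - γ 1 0 * hdg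
  have e2 : γ 1 1 = m₀₀ * g 0 0 := by
    have hm : m₁₁ = m₀₀ := sub_eq_zero.mp hb
    have hc' : m₀₁ = 0 := neg_eq_zero.mp hc
    rw [← hm]
    rw [h01] at hc'; rw [h11]
    linear_combination -g 1 0 * hc' - γ 1 1 * hdg
  have hm1 : m₀₀ = 1 ∨ m₀₀ = -1 := Int.eq_one_or_neg_one_of_mul_eq_one
    (show m₀₀ * (γ 0 0 * g 0 0 + γ 0 1 * g 1 0) = 1 by
      linear_combination hdγ - γ 0 0 * e2 + γ 0 1 * e1)
  have hsq : m₀₀ * m₀₀ = N := by
    have hm : m₁₁ = m₀₀ := sub_eq_zero.mp hb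
    have hprod : m₀₀ * m₁₁ - m₀₁ * m₁₀ = N := by
      simp only [h00, h01, h10, h11]
      linear_combination (N : ℤ) * (γ 0 0 * γ 1 1 - γ 0 1 * γ 1 0) * hdg + (N : ℤ) * hdγ
    rw [hm, h0, mul_zero, sub_zero] at hprod
    exact hprod
  rcases hm1 with e' | e' <;> rw [e'] at hsq <;> omega

/-- An imaginary quadratic point has `j(q γ τ) = j(τ)` for a prime `q`. -/
theorem exists_fixed_of_isQuad {τ : ℍ} (h : IsQuad τ) :
    ∃ (q : ℕ) (_ : NeZero q) (γ : SL(2, ℤ)), q.Prime ∧ jfun (scaleH q (γ • τ)) = jfun τ := by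
  obtain ⟨a, b, c, ha, hτ⟩ := h
  have hD := disc_neg ha hτ
  have hprim : Int.gcd (Int.gcd 1 b) (a * c) = 1 := by simp
  obtain ⟨q, hq, x, y, hqxy⟩ := (FA.Summary.infinite_primes_primitive_form 1 b (a * c) one_pos
    (by linarith) hprim).nonempty
  haveI : NeZero q := ⟨hq.ne_zero⟩
  obtain ⟨γ, hγ⟩ := FA.SingularIntegral.exists_gamma q hq (m := x + b * y) (n := y * c)
    (r := -(y * a)) (s := x) (τ := τ) (by rw [hqxy]; ring)
    (by push_cast; linear_combination (y : ℂ) * hτ)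
  exact ⟨q, inferInstance, γ, hq, hγ⟩

variable (N : ℕ) [NeZero N] [Fintype (FA.Dim.Cos N)]

/-- The roots of the modular equation at a point. -/
theorem map_phi_at (z : ℍ) : (phi N).map (Polynomial.aeval (R := ℤ) (jfun z)).toRingHom =
    ∏ i, (Polynomial.X - Polynomial.C (cosVal N (fN N) i z)) := by
  ext1 k
  rw [phi, Polynomial.map_sum]
  simp only [Polynomial.map_mul, Polynomial.map_C, Polynomial.map_pow, Polynomial.map_X,
    Polynomial.finsetSum_coeff, Polynomial.coeff_C_mul_X_pow, Finset.sum_ite_eq,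
    Finset.mem_range]
  split_ifs with h
  · exact (exists_int_coeff N k).choose_spec.2 z
  · rw [Polynomial.coeff_eq_zero_of_natDegree_lt]
    rw [Polynomial.natDegree_finsetProd_X_sub_C_eq_card, Finset.card_univ,
      ← Nat.card_eq_fintype_card]
    omega

theorem phi_diag_iff (τ : ℍ) :
    (phi N).eval₂ (Polynomial.aeval (R := ℤ) (jfun τ)).toRingHom (jfun τ) = 0 ↔
      ∃ γ : SL(2, ℤ), jfun (scaleH N (γ • τ)) = jfun τ := by
  refine ⟨fun h => ?_, fun ⟨γ, hγ⟩ => ?_⟩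
  · rw [← Polynomial.eval_map, map_phi_at, Polynomial.eval_prod, Finset.prod_eq_zero_iff] at h
    obtain ⟨i, -, hi⟩ := h
    rw [Polynomial.eval_sub, Polynomial.eval_X, Polynomial.eval_C, sub_eq_zero] at hi
    exact ⟨(Quotient.out i)⁻¹, hi.symm⟩
  · have := phi_eval N τ γ
    rwa [fN, hγ] at this

/-- The diagonal polynomial `Φ_N(X, X)` is not zero. -/
theorem phi_diag_ne_zero (hN : 1 < N) : (phi N).eval Polynomial.X ≠ 0 := fun h => by
  have h2 := Polynomial.natDegree_eq_of_degree_eq_some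
    (Polynomial.degree_eq_one_of_irreducible_of_root (phi_irreducible N) h)
  rw [phi_natDegree] at h2
  have : Nontrivial (FA.Dim.Cos N) := by
    refine ⟨QuotientGroup.mk ModularGroup.S, QuotientGroup.mk 1, fun hS => ?_⟩
    have h1 := QuotientGroup.eq.mp hS
    rw [mul_one, inv_mem_iff, CongruenceSubgroup.Gamma0_mem] at h1
    haveI := Fact.mk hN
    simp [ModularGroup.S] at h1
  exact (Finite.one_lt_card (α := FA.Dim.Cos N)).ne' h2

omit [NeZero N] [Fintype (FA.Dim.Cos N)] in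
theorem aeval_eval_X (x : ℂ) (P : ℤ[X][X]) :
    Polynomial.aeval x (P.eval Polynomial.X) =
      P.eval₂ (Polynomial.aeval (R := ℤ) x).toRingHom x := by
  rw [show P.eval Polynomial.X = P.eval₂ (RingHom.id ℤ[X]) Polynomial.X from rfl,
    ← AlgHom.coe_toRingHom, Polynomial.hom_eval₂, RingHom.comp_id]
  simp

end FA.Diagonal

end
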