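import Fermat.Agent.Dim.Cosets
import Fermat.Agent.Tau.ModularDiagonal
import Fermat.Agent.Tau.ModularSymmetry
import Fermat.Agent.Tau.SingularModuli

/-!
# Cyclic sublattices and the modular equation

A basis adapted to a surjection of a lattice onto `ℤ/N` identifies a sublattice with cyclic quotient
of order `N` with `⟨N τ, 1⟩ ⊆ ⟨τ, 1⟩`.
-/

set_option autoImplicit false
set_option linter.style.haveILetI false

noncomputable section

namespace FA.CyclicLattice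

open UpperHalfPlane hiding I
open FA.ModField FA.ModPoly FA.JInj FA.Mazur.Wp
open scoped MatrixGroups Polynomial

/-- `c L` is a subgroup of `M` with cyclic quotient of order `N`, for some `c ≠ 0`. -/
def CyclicSub (N : ℕ) (L M : PeriodPair) : Prop :=
  ∃ c : ℂ, c ≠ 0 ∧ ∃ φ : M.lattice →+ ZMod N, Function.Surjective φ ∧
    ∀ x : ℂ, x ∈ (fun z => c * z) '' (L.lattice : Set ℂ) ↔ ∃ h : x ∈ M.lattice, φ ⟨x, h⟩ = 0

/-- The invariant of a lattice. -/
def jInv (L : PeriodPair) : ℂ := 1728 * (L.g₂ ^ 3 / (L.g₂ ^ 3 - 27 * L.g₃ ^ 2))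

theorem jInv_eq {L : PeriodPair} {τ : ℍ} {c : ℂ} {hc : c ≠ 0}
    (h : L.lattice = (scalePair (latPair τ) c hc).lattice) : jInv L = jfun τ := by
  rw [jInv, FA.Singular.invariant_scale h, ← FA.Singular.jfun_eq_invariant]

theorem exists_param (L : PeriodPair) :
    ∃ (τ : ℍ) (c : ℂ) (hc : c ≠ 0), jInv L = jfun τ ∧
      L.lattice = (scalePair (latPair τ) c hc).lattice := by
  obtain ⟨τ, c, hc, h⟩ := exists_latPair L
  exact ⟨τ, c, hc, jInv_eq h, h⟩

variable (N : ℕ) [NeZero N]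

/-- A basis adapted to a surjection onto `ℤ/N`. -/
theorem exists_adapted {M : PeriodPair} {σ : ℍ} {d : ℂ} {hd : d ≠ 0}
    (hM : M.lattice = (scalePair (latPair σ) d hd).lattice) (φ : M.lattice →+ ZMod N)
    (hφ : Function.Surjective φ) :
    ∃ (τ : ℍ) (e : ℂ) (he : e ≠ 0), M.lattice = (scalePair (latPair τ) e he).lattice ∧
      ∀ (m n : ℤ) (h : e * ((m : ℂ) * τ + n) ∈ M.lattice), φ ⟨_, h⟩ = (m : ZMod N) := by
  have hmem : ∀ i j : ℤ, d * ((i : ℂ) * σ + j) ∈ M.lattice := fun i j => by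
    rw [hM, mem_scalePair]
    exact ⟨_, mem_latPair.mpr ⟨i, j, rfl⟩, rfl⟩
  let u : M.lattice := ⟨_, hmem 1 0⟩
  let v : M.lattice := ⟨_, hmem 0 1⟩
  have hlin : ∀ (i j : ℤ) (h : d * ((i : ℂ) * σ + j) ∈ M.lattice),
      φ ⟨_, h⟩ = (i : ZMod N) * φ u + j * φ v := fun i j h => by
    have e : (⟨_, h⟩ : M.lattice) = i • u + j • v := Subtype.ext <| by
      simp [u, v]
      ring
    rw [e, map_add, map_zsmul, map_zsmul, zsmul_eq_mul, zsmul_eq_mul]
  -- integers lifting the values at the periods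
  obtain ⟨A, hA⟩ := ZMod.intCast_surjective (φ u)
  obtain ⟨B₀, hB₀⟩ := ZMod.intCast_surjective (φ v)
  obtain ⟨B, hB, hB0⟩ : ∃ B : ℤ, (B : ZMod N) = φ v ∧ B ≠ 0 := by
    by_cases h : B₀ = 0
    · exact ⟨N, by rw [← hB₀, h]; simp, by exact_mod_cast NeZero.ne N⟩
    · exact ⟨B₀, hB₀, h⟩
  obtain ⟨⟨x, hx⟩, hone⟩ := hφ 1
  obtain ⟨_, hy, e⟩ := mem_scalePair.mp (hM ▸ hx : x ∈ (scalePair (latPair σ) d hd).lattice)
  obtain ⟨i, j, rfl⟩ := mem_latPair.mp hy
  subst e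
  rw [hlin, ← hA, ← hB] at hone
  obtain ⟨A', hcop, hA'⟩ := FA.Dim.exists_coprime_lift (d := B.natAbs) (M := N)
    (Int.natAbs_ne_zero.mpr hB0) (A : ZMod N) (by
      have h1 := congrArg
        (ZMod.castHom (Nat.gcd_dvd_right B.natAbs N) (ZMod (Nat.gcd B.natAbs N))) hone
      simp only [map_add, map_mul, map_intCast, map_one] at h1
      rw [show (B : ZMod (Nat.gcd B.natAbs N)) = 0 from (ZMod.intCast_zmod_eq_zero_iff_dvd _ _).mpr
        ((Int.natCast_dvd_natCast.mpr (Nat.gcd_dvd_left _ _)).trans (Int.natAbs_dvd.mpr dvd_rfl)),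
        mul_zero, add_zero] at h1
      rw [map_intCast]
      exact IsUnit.of_mul_eq_one_right _ h1)
  obtain ⟨x, y, hxy⟩ : IsCoprime A' B := by
    have hB' : (B.natAbs : ℤ) ∣ B ∧ B ∣ (B.natAbs : ℤ) :=
      ⟨Int.natAbs_dvd.mpr dvd_rfl, Int.dvd_natAbs.mpr dvd_rfl⟩
    rw [Int.isCoprime_iff_gcd_eq_one] at hcop ⊢
    simpa [Int.gcd, Int.natAbs_abs] using hcop
  let g : SL(2, ℤ) := ⟨!![x, y; -B, A'], by rw [Matrix.det_fin_two_of]; linear_combination hxy⟩
  have hden := den_ne_zero g σ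
  refine ⟨g • σ, d * den g σ, mul_ne_zero hd hden, ?_, fun m n h => ?_⟩
  · ext z
    rw [hM, mem_scalePair, mem_scalePair]
    constructor
    · rintro ⟨w, hw, rfl⟩
      refine ⟨w / den g σ, (mem_latPair_smul σ g _).mpr (by rwa [div_mul_cancel₀ _ hden]), ?_⟩
      field_simp
    · rintro ⟨w, hw, rfl⟩
      exact ⟨_, (mem_latPair_smul σ g w).mp hw, by ring⟩
  · have e : d * den g σ * ((m : ℂ) * ((g • σ : ℍ) : ℂ) + n) =
        d * (((m * x - n * B : ℤ) : ℂ) * σ + ((m * y + n * A' : ℤ) : ℂ)) := by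
      have hs := smul_mul_den g σ
      simp [den, g] at hs ⊢
      linear_combination d * (m : ℂ) * hs
    have h' := hmem (m * x - n * B) (m * y + n * A')
    rw [show (⟨_, h⟩ : M.lattice) = ⟨_, h'⟩ from Subtype.ext e, hlin, ← hA, ← hB]
    have hxy' : (x : ZMod N) * A + y * B = 1 := by
      rw [← hA']
      exact_mod_cast congrArg (Int.cast : ℤ → ZMod N) hxy
    push_cast
    rw [hA']
    linear_combination (m : ZMod N) * hxy'

/-- Scaling a lattice to a sublattice with cyclic quotient. -/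
theorem exists_of_cyclicSub {L M : PeriodPair} (h : CyclicSub N L M) :
    ∃ τ : ℍ, jInv M = jfun τ ∧ jInv L = jfun (scaleH N τ) := by
  obtain ⟨c, hc, φ, hφ, hL⟩ := h
  obtain ⟨σ, d, hd, -, hM⟩ := exists_param M
  obtain ⟨τ, e, he, hM', hval⟩ := exists_adapted N hM φ hφ
  refine ⟨τ, jInv_eq hM', jInv_eq (c := e / c) (hc := div_ne_zero he hc) ?_⟩
  ext z
  rw [mem_scalePair]
  constructor
  · intro hz
    obtain ⟨hzM, h0⟩ := (hL (c * z)).mp ⟨z, hz, rfl⟩
    obtain ⟨w, hw, hwz⟩ :=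
      mem_scalePair.mp (hM' ▸ hzM : c * z ∈ (scalePair (latPair τ) e he).lattice)
    obtain ⟨m, n, rfl⟩ := mem_latPair.mp hw
    have h1 := hval m n (hwz ▸ hzM)
    rw [show (⟨_, hwz ▸ hzM⟩ : M.lattice) = ⟨c * z, hzM⟩ from Subtype.ext hwz, h0, eq_comm,
      ZMod.intCast_zmod_eq_zero_iff_dvd] at h1
    obtain ⟨k, rfl⟩ := h1
    refine ⟨_, mem_latPair.mpr ⟨k, n, rfl⟩, ?_⟩
    rw [coe_scaleH, div_mul_eq_mul_div, div_eq_iff hc]
    push_cast at hwz
    linear_combination hwz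
  · rintro ⟨w, hw, rfl⟩
    obtain ⟨k, n, rfl⟩ := mem_latPair.mp hw
    have hmem : e * ((((N : ℤ) * k : ℤ) : ℂ) * τ + n) ∈ M.lattice := by
      rw [hM', mem_scalePair]
      exact ⟨_, mem_latPair.mpr ⟨_, n, rfl⟩, rfl⟩
    obtain ⟨z, hz, hzw⟩ := (hL _).mpr ⟨hmem, by
      rw [hval, ZMod.intCast_zmod_eq_zero_iff_dvd]; exact dvd_mul_right _ _⟩
    have : z = e / c * ((k : ℂ) * (scaleH N τ : ℂ) + n) := by
      rw [coe_scaleH, div_mul_eq_mul_div, eq_div_iff hc]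
      simp only at hzw
      push_cast at hzw
      linear_combination hzw
    exact this ▸ hz

/-- Lattices with the invariants `j(τ)` and `j(N τ)`. -/
theorem cyclicSub_of_exists {L M : PeriodPair} {τ : ℍ} (hM : jInv M = jfun τ)
    (hL : jInv L = jfun (scaleH N τ)) : CyclicSub N L M := by
  obtain ⟨σ, d₀, hd₀, hσ, hM₀⟩ := exists_param M
  obtain ⟨g, hg⟩ := (jfun_eq_iff σ τ).mp (hσ.symm.trans hM)
  obtain ⟨ρ, c₀, hc₀, hρ, hL₀⟩ := exists_param L
  obtain ⟨g', hg'⟩ := (jfun_eq_iff ρ (scaleH N τ)).mp (hρ.symm.trans hL)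
  have key : ∀ {P : PeriodPair} {z w : ℍ} {c : ℂ} {hc : c ≠ 0} {g : SL(2, ℤ)},
      P.lattice = (scalePair (latPair z) c hc).lattice → g • z = w →
      ∃ (e : ℂ) (he : e ≠ 0), P.lattice = (scalePair (latPair w) e he).lattice := by
    intro P z w c hc g hP hgw
    subst hgw
    have hden := den_ne_zero g z
    refine ⟨c * den g z, mul_ne_zero hc hden, ?_⟩
    ext x
    rw [hP, mem_scalePair, mem_scalePair]
    constructor
    · rintro ⟨w, hw, rfl⟩
      refine ⟨w / den g z, (mem_latPair_smul z g _).mpr (by rwa [div_mul_cancel₀ _ hden]), ?_⟩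
      field_simp
    · rintro ⟨w, hw, rfl⟩
      exact ⟨_, (mem_latPair_smul z g w).mp hw, by ring⟩
  obtain ⟨d, hd, hM'⟩ := key hM₀ hg
  obtain ⟨e, he, hL'⟩ := key hL₀ hg'
  let P := scalePair (latPair τ) d hd
  have hP : ∀ x : ℂ, x ∈ M.lattice → x ∈ P.lattice := fun x hx => hM' ▸ hx
  let φ : M.lattice →+ ZMod N :=
    { toFun := fun x => ((P.latticeEquivProd ⟨x, hP x x.2⟩).1 : ZMod N)
      map_zero' := by
        rw [show (⟨_, hP _ (0 : M.lattice).2⟩ : P.lattice) = 0 from rfl, map_zero]; simp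
      map_add' := fun x y => by
        rw [show (⟨_, hP _ (x + y).2⟩ : P.lattice) = ⟨x, hP x x.2⟩ + ⟨y, hP y y.2⟩ from rfl,
          map_add]
        simp }
  have hval : ∀ (m n : ℤ) (h : d * ((m : ℂ) * τ + n) ∈ M.lattice), φ ⟨_, h⟩ = (m : ZMod N) := by
    intro m n h
    show ((P.latticeEquivProd ⟨_, hP _ h⟩).1 : ZMod N) = m
    rw [show (⟨_, hP _ h⟩ : P.lattice) = P.latticeEquivProd.symm (m, n) from Subtype.ext (by
      rw [PeriodPair.latticeEquiv_symm_apply]; simp [P, scalePair, latPair]; ring),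
      LinearEquiv.apply_symm_apply]
  have hmem : ∀ m n : ℤ, d * ((m : ℂ) * τ + n) ∈ M.lattice := fun m n => by
    rw [hM', mem_scalePair]
    exact ⟨_, mem_latPair.mpr ⟨m, n, rfl⟩, rfl⟩
  refine ⟨d / e, div_ne_zero hd he, φ, fun a => ?_, fun x => ⟨?_, ?_⟩⟩
  · obtain ⟨m, rfl⟩ := ZMod.intCast_surjective a
    exact ⟨⟨_, hmem m 0⟩, hval m 0 _⟩
  · rintro ⟨z, hz, rfl⟩
    obtain ⟨w, hw, rfl⟩ := mem_scalePair.mp (hL' ▸ hz :
      z ∈ (scalePair (latPair (scaleH N τ)) e he).lattice)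
    obtain ⟨k, n, rfl⟩ := mem_latPair.mp hw
    have hx : d / e * (e * ((k : ℂ) * (scaleH N τ : ℂ) + n)) =
        d * ((((N : ℤ) * k : ℤ) : ℂ) * τ + n) := by
      rw [coe_scaleH]; field_simp; push_cast; ring
    simp only [hx]
    refine ⟨hmem _ n, ?_⟩
    rw [hval, ZMod.intCast_zmod_eq_zero_iff_dvd]
    exact dvd_mul_right _ _
  · rintro ⟨hx, h0⟩
    obtain ⟨w, hw, rfl⟩ := mem_scalePair.mp (hM' ▸ hx :
      x ∈ (scalePair (latPair τ) d hd).lattice)
    obtain ⟨m, n, rfl⟩ := mem_latPair.mp hw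
    rw [hval, ZMod.intCast_zmod_eq_zero_iff_dvd] at h0
    obtain ⟨k, rfl⟩ := h0
    refine ⟨e * ((k : ℂ) * (scaleH N τ : ℂ) + n), ?_, ?_⟩
    · rw [SetLike.mem_coe, hL', mem_scalePair]
      exact ⟨_, mem_latPair.mpr ⟨k, n, rfl⟩, rfl⟩
    · simp only [coe_scaleH]
      field_simp
      push_cast
      ring

variable [Fintype (FA.Dim.Cos N)]

/-- **The meaning of the modular equation.** -/
theorem cyclicSub_iff (L M : PeriodPair) : CyclicSub N L M ↔
    (phi N).eval₂ (Polynomial.aeval (R := ℤ) (jInv M)).toRingHom (jInv L) = 0 := by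
  refine ⟨fun h => ?_, fun h => ?_⟩
  · obtain ⟨τ, hM, hL⟩ := exists_of_cyclicSub N h
    have := phi_eval N τ 1
    rw [one_smul, fN, ← hL, ← hM] at this
    exact this
  · obtain ⟨τ, _, _, hτ, -⟩ := exists_param M
    rw [hτ, ← Polynomial.eval_map, FA.Diagonal.map_phi_at, Polynomial.eval_prod,
      Finset.prod_eq_zero_iff] at h
    obtain ⟨i, -, hi⟩ := h
    rw [Polynomial.eval_sub, Polynomial.eval_X, Polynomial.eval_C, sub_eq_zero] at hi
    exact cyclicSub_of_exists N (τ := (Quotient.out i)⁻¹ • τ) (by rw [hτ, jfun_smul]) hi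

theorem cyclicSub_symm (hN : 1 < N) {L M : PeriodPair} (h : CyclicSub N L M) :
    CyclicSub N M L := by
  rw [cyclicSub_iff] at h ⊢
  rw [eval₂_aeval] at h ⊢
  rwa [← swap_phi N hN, Polynomial.Bivariate.aevalAeval_swap]

end FA.CyclicLattice

end
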