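import Fermat.Agent.Tau.FixedMatrices

/-!
# Triangular matrices and the cosets of `Γ₀(N)`

The cosets of `Γ₀(N)` correspond to the primitive matrices `(a, b; 0, d)` with `a d = N` and
`0 ≤ b < d`: the series of `j(N γ z)` in `T = exp(2 π i z / N)` is `j(ζ^(a b) T^(a²))`. All such matrices of
determinant `n` are the multiples by `f` of the primitive ones of determinant `n / f²`.
-/

set_option autoImplicit false
set_option linter.style.haveILetI false

noncomputable section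

namespace FA.ClassRelation

open UpperHalfPlane hiding I
open FA.ModField FA.ModPoly
open scoped MatrixGroups Classical

/-- The pairs `(a, b)` of the matrices `(a, b; 0, n / a)`. -/
def triSet (n : ℕ) : Finset (ℕ × ℕ) :=
  (n.divisors ×ˢ Finset.range n).filter fun q => q.2 < n / q.1

/-- The content of such a matrix. -/
def triContent (n : ℕ) (q : ℕ × ℕ) : ℕ := Nat.gcd (Nat.gcd q.1 q.2) (n / q.1)

/-- The primitive ones. -/
def primTri (n : ℕ) : Finset (ℕ × ℕ) := (triSet n).filter fun q => triContent n q = 1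

/-- The matrix of a pair. -/
def triMat (n : ℕ) (q : ℕ × ℕ) : Mat := !![(q.1 : ℤ), (q.2 : ℤ); 0, ((n / q.1 : ℕ) : ℤ)]

theorem mem_triSet {n : ℕ} (hn : n ≠ 0) {q : ℕ × ℕ} :
    q ∈ triSet n ↔ q.1 ∣ n ∧ q.2 < n / q.1 := by
  simp only [triSet, Finset.mem_filter, Finset.mem_product, Nat.mem_divisors, Finset.mem_range]
  exact ⟨fun h => ⟨h.1.1.1, h.2⟩,
    fun h => ⟨⟨⟨h.1, hn⟩, h.2.trans_le (Nat.div_le_self _ _)⟩, h.2⟩⟩

theorem content_triMat (n : ℕ) (q : ℕ × ℕ) : content (triMat n q) = triContent n q := by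
  show Int.gcd (Int.gcd (q.1 : ℤ) q.2) (Int.gcd (0 : ℤ) ((n / q.1 : ℕ) : ℤ)) = _
  rw [Int.gcd_zero_left, Int.natAbs_natCast, Int.gcd_natCast_natCast, Int.gcd_natCast_natCast,
    triContent]

theorem det_triMat {n : ℕ} (hn : n ≠ 0) {q : ℕ × ℕ} (hq : q ∈ triSet n) :
    (triMat n q).det = n := by
  rw [triMat, Matrix.det_fin_two_of, mul_zero, sub_zero, ← Nat.cast_mul,
    Nat.mul_div_cancel' ((mem_triSet hn).1 hq).1]

theorem jfun_SL_mul (g : SL(2, ℤ)) {M : Mat} (hM : 0 < M.det) (z : ℍ) :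
    jfun (ofComplex (mob ((g : Mat) * M) z)) = jfun (ofComplex (mob M z)) := by
  rw [mob_mul hM, show mob M z = (mobH hM z : ℂ) from rfl, mob_SL, ofComplex_apply, jfun_smul,
    ofComplex_apply]

/-- A matrix of determinant `n` is unimodular times one of them. -/
theorem exists_triSet {n : ℕ} (hn : n ≠ 0) {M : Mat} (hM : M.det = n) :
    ∃ (g : SL(2, ℤ)) (q : ℕ × ℕ), q ∈ triSet n ∧ M = (g : Mat) * triMat n q := by
  obtain ⟨g, a, b, d, ha, had, hMg⟩ := exists_tri (M := M) (by rw [hM]; positivity)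
  rw [hM] at had
  have hd : 0 < d := by
    by_contra h
    have h1 := mul_nonpos_of_nonneg_of_nonpos (Int.natCast_nonneg a) (not_lt.1 h)
    rw [had] at h1
    omega
  obtain ⟨d, rfl⟩ : ∃ m : ℕ, d = m := ⟨d.toNat, by omega⟩
  have had' : a * d = n := by exact_mod_cast had
  have hdiv : n / a = d := by rw [← had', Nat.mul_div_cancel_left _ ha]
  have hb0 := Int.emod_nonneg b hd.ne'
  refine ⟨g * ⟨!![1, b / d; 0, 1], by simp [Matrix.det_fin_two_of]⟩, (a, (b % d).toNat),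
    (mem_triSet hn).2 ⟨⟨d, had'.symm⟩, ?_⟩, ?_⟩
  · have := Int.emod_lt_of_pos b hd
    rw [hdiv]
    omega
  · rw [hMg, Matrix.SpecialLinearGroup.coe_mul, Matrix.mul_assoc]
    congr 1
    ext i j
    fin_cases i <;> fin_cases j <;>
      simp [triMat, hdiv, Matrix.mul_apply, Fin.sum_univ_two, Int.toNat_of_nonneg hb0]
    exact (by rw [mul_comm]; exact (Int.emod_add_mul_ediv b d).symm)

variable (N : ℕ) [NeZero N]

/-- The series of `j ((a z + b) / d)`. -/
theorem hasExp_tri {q : ℕ × ℕ} (hq : q ∈ triSet N) : ∃ _ : NeZero (q.1 * q.1),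
    HasExp (qp N) (fun z : ℍ => jfun (ofComplex (mob (triMat N q) z)))
      (sj ℂ (zetaN N ^ ((q.2 : ℤ) * q.1)) (q.1 * q.1)) := by
  obtain ⟨⟨δ, hδ⟩, -⟩ := (mem_triSet (NeZero.ne N)).1 hq
  have ha : 0 < q.1 := Nat.pos_of_ne_zero fun e => NeZero.ne N (by rw [hδ, e, zero_mul])
  haveI : NeZero (q.1 * q.1) := ⟨(Nat.mul_pos ha ha).ne'⟩
  have hdiv : N / q.1 = δ := by rw [hδ, Nat.mul_div_cancel_left _ ha]
  have hdet : 0 < (triMat N q).det := by
    rw [det_triMat (NeZero.ne N) hq]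
    exact_mod_cast Nat.pos_of_ne_zero (NeZero.ne N)
  refine ⟨inferInstance, ?_⟩
  have h := hasExp_jfun.comp (U := qp N) (mobH hdet) (q.1 * q.1)
    (zetaN N ^ ((q.2 : ℤ) * q.1)) ?_
  · refine h.congr (funext fun z => ?_)
    exact congrArg jfun (ofComplex_apply (mobH hdet z)).symm
  intro z
  rw [qp_eq, qp_eq, Units.val_zpow_eq_zpow_val, zetaN, Units.val_mk0, ← Complex.exp_int_mul,
    ← Complex.exp_nat_mul, ← Complex.exp_add,
    show ((mobH hdet z : ℍ) : ℂ) = ((q.1 : ℂ) * z + q.2) / δ by simp [mobH, mob, triMat, hdiv]]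
  congr 1
  have hN : (N : ℂ) = (q.1 : ℂ) * δ := by exact_mod_cast hδ
  have hδ' : (δ : ℂ) ≠ 0 := fun h => by
    rw [h, mul_zero] at hN; exact NeZero.ne N (by exact_mod_cast hN)
  have ha' : (q.1 : ℂ) ≠ 0 := by exact_mod_cast ha.ne'
  push_cast
  rw [hN]
  field_simp
  ring

/-- The pairs are determined by the functions. -/
theorem tri_eq_of_fun_eq {q q' : ℕ × ℕ} (hq : q ∈ triSet N) (hq' : q' ∈ triSet N)
    (h : (fun z : ℍ => jfun (ofComplex (mob (triMat N q) z))) =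
      fun z : ℍ => jfun (ofComplex (mob (triMat N q') z))) : q = q' := by
  obtain ⟨_, h1⟩ := hasExp_tri N hq
  obtain ⟨_, h2⟩ := hasExp_tri N hq'
  rw [h] at h1
  obtain ⟨hc, he⟩ := sj_inj (h1.unique (covers_qp N) h2)
  obtain ⟨⟨δ, hδ⟩, hb⟩ := (mem_triSet (NeZero.ne N)).1 hq
  obtain ⟨-, hb'⟩ := (mem_triSet (NeZero.ne N)).1 hq'
  have e : q.1 = q'.1 := Nat.mul_self_inj.1 he
  have hc' := congrArg Units.val hc
  rw [← e, Units.val_zpow_eq_zpow_val, Units.val_zpow_eq_zpow_val] at hc'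
  have hdvd : (N : ℤ) ∣ (q.2 : ℤ) * q.1 - (q'.2 : ℤ) * q.1 := by
    rw [← (zetaN_prim N).zpow_eq_one_iff_dvd, zpow_sub₀ (zetaN N).ne_zero, hc',
      div_self (zpow_ne_zero _ (zetaN N).ne_zero)]
  have ha : 0 < q.1 := Nat.pos_of_ne_zero fun e => NeZero.ne N (by rw [hδ, e, zero_mul])
  rw [hδ, Nat.mul_div_cancel_left _ ha] at hb
  rw [← e, hδ, Nat.mul_div_cancel_left _ ha] at hb'
  rw [← sub_mul, hδ, Nat.cast_mul, mul_comm (q.1 : ℤ)] at hdvd
  have h3 := (mul_dvd_mul_iff_right (show (q.1 : ℤ) ≠ 0 by exact_mod_cast ha.ne')).1 hdvd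
  have h4 := Int.eq_zero_of_abs_lt_dvd h3 (by rw [abs_lt]; omega)
  exact Prod.ext e (by omega)

theorem exists_cosTri (i : FA.Dim.Cos N) : ∃ q ∈ primTri N,
    cosVal N (fN N) i = fun z : ℍ => jfun (ofComplex (mob (triMat N q) z)) := by
  obtain ⟨g, q, hq, hM⟩ := exists_triSet (NeZero.ne N)
    (det_prodMat N 1 (Quotient.out i)⁻¹)
  refine ⟨q, Finset.mem_filter.2 ⟨hq, ?_⟩, funext fun z => ?_⟩
  · rw [← content_triMat, ← content_SL_mul g, ← hM, content_prodMat]
  · have hdet : 0 < (triMat N q).det := by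
      rw [det_triMat (NeZero.ne N) hq]
      exact_mod_cast Nat.pos_of_ne_zero (NeZero.ne N)
    rw [← jfun_SL_mul g hdet, ← hM, jfun_prodMat]
    rfl

/-- The pair of a coset. -/
def cosTri (i : FA.Dim.Cos N) : ℕ × ℕ := (exists_cosTri N i).choose

theorem cosTri_mem (i : FA.Dim.Cos N) : cosTri N i ∈ primTri N :=
  (exists_cosTri N i).choose_spec.1

theorem cosVal_cosTri (i : FA.Dim.Cos N) :
    cosVal N (fN N) i = fun z : ℍ => jfun (ofComplex (mob (triMat N (cosTri N i)) z)) :=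
  (exists_cosTri N i).choose_spec.2

/-- The series of a coset. -/
theorem ser_cosTri (i : FA.Dim.Cos N) : ∃ _ : NeZero ((cosTri N i).1 * (cosTri N i).1),
    ser N i = sj ℂ (zetaN N ^ (((cosTri N i).2 : ℤ) * (cosTri N i).1))
      ((cosTri N i).1 * (cosTri N i).1) := by
  obtain ⟨h0, h⟩ := hasExp_tri N (Finset.mem_filter.1 (cosTri_mem N i)).1
  rw [← cosVal_cosTri] at h
  exact ⟨h0, (hasExp_ser N i).unique (covers_qp N) h⟩

/-- **A sum over the cosets is one over the primitive triangular matrices.** -/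
theorem sum_cosTri [Fintype (FA.Dim.Cos N)] {M : Type*} [AddCommMonoid M] (F : ℕ → M) :
    ∑ i, F (cosTri N i).1 = ∑ q ∈ primTri N, F q.1 := by
  refine Finset.sum_bij (fun i _ => cosTri N i) (fun i _ => cosTri_mem N i)
    (fun i _ j _ h => ser_injective N ?_) (fun q hq => ?_) fun _ _ => rfl
  · have hij : cosVal N (fN N) i = cosVal N (fN N) j := by rw [cosVal_cosTri, cosVal_cosTri, h]
    refine (hasExp_ser N i).unique (covers_qp N) ?_
    rw [hij]
    exact hasExp_ser N j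
  · obtain ⟨hq', hprim⟩ := Finset.mem_filter.1 hq
    have hdet := det_triMat (NeZero.ne N) hq'
    obtain ⟨g, γ, hM⟩ := exists_prodMat (NeZero.ne N) hdet (by rw [content_triMat, hprim])
    refine ⟨QuotientGroup.mk γ⁻¹, Finset.mem_univ _,
      tri_eq_of_fun_eq N (Finset.mem_filter.1 (cosTri_mem N _)).1 hq' ?_⟩
    rw [← cosVal_cosTri]
    funext z
    rw [cosVal_mk (fN_mem N), inv_inv, hM, jfun_prodMat]

omit [NeZero N] in
theorem sum_triSet (hN : N ≠ 0) {M : Type*} [AddCommMonoid M] (F : ℕ → M) :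
    ∑ q ∈ triSet N, F q.1 = ∑ a ∈ N.divisors, (N / a) • F a := by
  rw [← Finset.sum_fiberwise_of_maps_to (g := Prod.fst) (t := N.divisors) fun q hq =>
    Nat.mem_divisors.2 ⟨((mem_triSet hN).1 hq).1, hN⟩]
  refine Finset.sum_congr rfl fun a ha => ?_
  rw [Finset.sum_congr rfl fun q hq => congrArg F (Finset.mem_filter.1 hq).2, Finset.sum_const]
  congr 1
  rw [← Finset.card_range (N / a)]
  refine Finset.card_nbij' Prod.snd (fun b => (a, b)) ?_ ?_ ?_ ?_ <;> intro q hq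
  · obtain ⟨hq', rfl⟩ := Finset.mem_filter.1 hq
    simpa using ((mem_triSet hN).1 hq').2
  · simp only [Finset.coe_range, Set.mem_Iio] at hq
    simp only [Finset.mem_coe, Finset.mem_filter, mem_triSet hN]
    exact ⟨⟨Nat.dvd_of_mem_divisors ha, hq⟩, trivial⟩
  · obtain ⟨-, rfl⟩ := Finset.mem_filter.1 hq
    rfl
  · rfl

omit [NeZero N] in
/-- **All triangular matrices are the multiples of the primitive ones.** -/
theorem sum_primTri {n : ℕ} (hn : n ≠ 0) {M : Type*} [AddCommMonoid M] (F : ℕ → M) :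
    ∑ f ∈ sqDiv n, ∑ q ∈ primTri (n / (f * f)), F (f * q.1) = ∑ q ∈ triSet n, F q.1 := by
  rw [← Finset.sum_fiberwise_of_maps_to (g := triContent n) (s := triSet n) (t := sqDiv n)]
  swap
  · intro q hq
    refine (mem_sqDiv hn).2 ?_
    have h := sq_content_dvd_det (triMat n q)
    rw [det_triMat hn hq, content_triMat, pow_two, ← Nat.cast_mul] at h
    exact Int.natCast_dvd_natCast.1 h
  refine Finset.sum_congr rfl fun f hf => ?_
  obtain ⟨m, hm⟩ := (mem_sqDiv hn).1 hf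
  obtain ⟨hf0, hm0⟩ : 0 < f ∧ m ≠ 0 := by
    constructor
    · exact Nat.pos_of_ne_zero fun e => hn (by simp [hm, e])
    · exact fun e => hn (by simp [hm, e])
  subst hm
  rw [Nat.mul_div_cancel_left _ (Nat.mul_pos hf0 hf0)]
  refine Finset.sum_nbij' (fun q => (f * q.1, f * q.2)) (fun q => (q.1 / f, q.2 / f)) ?_ ?_ ?_ ?_ ?_
    <;> intro q hq
  · obtain ⟨hq, hc⟩ := Finset.mem_filter.1 hq
    obtain ⟨⟨d, hd⟩, hb⟩ := (mem_triSet hm0).1 hq
    subst hd
    have ha0 : 0 < q.1 := Nat.pos_of_ne_zero (left_ne_zero_of_mul hm0)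
    have hdiv : f * f * (q.1 * d) / (f * q.1) = f * d := by
      rw [show f * f * (q.1 * d) = f * q.1 * (f * d) by ring,
        Nat.mul_div_cancel_left _ (Nat.mul_pos hf0 ha0)]
    rw [triContent, Nat.mul_div_cancel_left _ ha0] at hc
    rw [Nat.mul_div_cancel_left _ ha0] at hb
    refine Finset.mem_filter.2 ⟨(mem_triSet hn).2 ⟨⟨f * d, by ring⟩, ?_⟩, ?_⟩
    · rw [hdiv]
      exact Nat.mul_lt_mul_of_pos_left hb hf0
    · rw [triContent, hdiv, Nat.gcd_mul_left, Nat.gcd_mul_left, hc, mul_one]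
  · obtain ⟨hq, hc⟩ := Finset.mem_filter.1 hq
    obtain ⟨⟨d, hd⟩, hb⟩ := (mem_triSet hn).1 hq
    have ha0 : 0 < q.1 := Nat.pos_of_ne_zero fun e => hn (by rw [hd, e, zero_mul])
    rw [triContent, hd, Nat.mul_div_cancel_left _ ha0] at hc
    rw [hd, Nat.mul_div_cancel_left _ ha0] at hb
    obtain ⟨u, hu⟩ : f ∣ q.1 := hc ▸ (Nat.gcd_dvd_left _ _).trans (Nat.gcd_dvd_left _ _)
    obtain ⟨v, hv⟩ : f ∣ q.2 := hc ▸ (Nat.gcd_dvd_left _ _).trans (Nat.gcd_dvd_right _ _)
    obtain ⟨w, hw⟩ : f ∣ d := hc ▸ Nat.gcd_dvd_right _ _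
    rw [hu, hw] at hd
    have hm' : m = u * w := Nat.eq_of_mul_eq_mul_left (Nat.mul_pos hf0 hf0) (by rw [hd]; ring)
    have hu0 : 0 < u := Nat.pos_of_ne_zero fun e => ha0.ne' (by rw [hu, e, mul_zero])
    rw [hu, hv, hw, Nat.gcd_mul_left, Nat.gcd_mul_left] at hc
    rw [hv, hw] at hb
    simp only [hu, hv, Nat.mul_div_cancel_left _ hf0]
    refine Finset.mem_filter.2 ⟨(mem_triSet hm0).2 ⟨⟨w, hm'⟩, ?_⟩, ?_⟩
    · rw [hm', Nat.mul_div_cancel_left _ hu0]
      exact Nat.lt_of_mul_lt_mul_left hb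
    · rw [triContent, hm', Nat.mul_div_cancel_left _ hu0]
      exact (Nat.mul_eq_left hf0.ne').1 hc
  · simp [Nat.mul_div_cancel_left _ hf0]
  · obtain ⟨-, hc⟩ := Finset.mem_filter.1 hq
    rw [triContent] at hc
    exact Prod.ext
      (Nat.mul_div_cancel' (hc ▸ (Nat.gcd_dvd_left _ _).trans (Nat.gcd_dvd_left _ _)))
      (Nat.mul_div_cancel' (hc ▸ (Nat.gcd_dvd_left _ _).trans (Nat.gcd_dvd_right _ _)))
  · rfl

theorem primTri_eq_of_squarefree {n : ℕ} (hn : Squarefree n) : primTri n = triSet n :=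
  Finset.filter_true_of_mem fun q hq => by
    rw [← content_triMat, content_eq_one_of_squarefree hn (det_triMat hn.ne_zero hq)]

end FA.ClassRelation

end
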