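import Fermat.Agent.Tau.FixedMatrices
import Fermat.Agent.Tau.HermiteCosets
import Fermat.Agent.Tau.ModularSymmetry
import Mathlib.Analysis.Analytic.IsolatedZeros
import Mathlib.Analysis.Analytic.Order

/-!
# The degree and the roots of `Φ_p(X, X)`

For every `p > 1` the degree times `p` is the sum of `max (p, a²)` over the primitive
matrices `(a, b; 0, d)` (so the degree is `2 p` for a prime), read off at infinity, and the
multiplicity of `j(τ)` is the number of cosets at which `j(p γ z)` takes this value: the difference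
of `j` with each of them vanishes at `τ` to the order of `j - j(τ)`.
-/

set_option autoImplicit false
set_option linter.style.haveILetI false

noncomputable section

namespace FA.ClassRelation

open UpperHalfPlane hiding I
open Filter FA.ModField FA.ModPoly FA.JInj
open scoped MatrixGroups Topology Manifold

/-- `j` on `ℂ`. -/
def jExt : ℂ → ℂ := jfun ∘ ofComplex

theorem analyticAt_ext {f : ℍ → ℂ} (hf : MDiff f) (τ : ℍ) : AnalyticAt ℂ (f ∘ ofComplex) τ :=
  (UpperHalfPlane.mdifferentiable_iff.1 hf).analyticAt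
    (isOpen_upperHalfPlaneSet.mem_nhds τ.im_pos)

theorem analyticAt_jExt (τ : ℍ) : AnalyticAt ℂ jExt τ := analyticAt_ext mdiff_jfun τ

theorem jExt_not_const (τ : ℍ) :
    analyticOrderAt (fun z => jExt z - jfun τ) (τ : ℂ) ≠ ⊤ := fun h => by
  rw [analyticOrderAt_eq_top] at h
  have hon : AnalyticOnNhd ℂ (fun z => jExt z - jfun τ) {z | 0 < z.im} :=
    ((UpperHalfPlane.mdifferentiable_iff.1 mdiff_jfun).analyticOnNhd isOpen_upperHalfPlaneSet).sub
      analyticOnNhd_const
  have h1 := hon.eqOn_zero_of_preconnected_of_eventuallyEq_zero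
    (convex_halfSpace_im_gt 0).isPreconnected τ.im_pos h
  have e1 := h1 UpperHalfPlane.I.im_pos
  have e2 := h1 rho.im_pos
  simp only [jExt, Function.comp_apply, ofComplex_apply, jfun_I, jfun_rho, Pi.zero_apply] at e1 e2
  rw [← e2] at e1
  norm_num at e1

theorem deriv_jExt (z : ℍ) : deriv jExt (z : ℂ) =
    2 * Real.pi * Complex.I *
      (-(ModularForm.E₄ z ^ 2 * ModularForm.E₆ z) / ModularForm.discriminant z) := by
  have hD := D_jfun z
  rw [Derivative.normalizedDerivOfComplex, inv_mul_eq_iff_eq_mul₀ Complex.two_pi_I_ne_zero] at hD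
  exact hD

/-- The order of `j - j(τ)` at `τ`. -/
theorem exists_jOrder (τ : ℍ) : ∃ e : ℕ, (e = 1 ∨ (jfun τ = 1728 ∧ e = 2) ∨ (jfun τ = 0 ∧ e = 3)) ∧
    analyticOrderAt (fun z => jExt z - jfun τ) (τ : ℂ) = e := by
  set A : ℂ → ℂ := ModularForm.E₄ ∘ ofComplex with hA
  set B : ℂ → ℂ := ModularForm.E₆ ∘ ofComplex with hB
  set D : ℂ → ℂ := (fun z => (ModularForm.discriminant z)⁻¹) ∘ ofComplex with hD
  have hAa : AnalyticAt ℂ A τ := analyticAt_ext ModularForm.E₄.holo' τ
  have hBa : AnalyticAt ℂ B τ := analyticAt_ext ModularForm.E₆.holo' τ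
  have hDa : AnalyticAt ℂ D τ := analyticAt_ext mdiff_inv_discriminant τ
  have hD0 : analyticOrderAt D τ = 0 := by
    rw [hDa.analyticOrderAt_eq_zero]
    simp [hD, ModularForm.discriminant_ne_zero]
  have hev : ∀ᶠ z in 𝓝 (τ : ℂ), 0 < z.im := isOpen_upperHalfPlaneSet.mem_nhds τ.im_pos
  have hderiv : analyticOrderAt (deriv jExt) τ =
      2 • analyticOrderAt A τ + analyticOrderAt B τ := by
    rw [analyticOrderAt_congr (g := (fun _ => -(2 * Real.pi * Complex.I)) * ((A ^ 2 * B) * D))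
      (hev.mono fun z hz => by
        have h := deriv_jExt ⟨z, hz⟩
        simp only at h
        simp only [hA, hB, hD, Pi.mul_apply, Pi.pow_apply, Function.comp_apply,
          ofComplex_apply_of_im_pos hz, h]
        ring),
      analyticOrderAt_mul analyticAt_const (((hAa.pow 2).mul hBa).mul hDa),
      analyticOrderAt_mul ((hAa.pow 2).mul hBa) hDa, analyticOrderAt_mul (hAa.pow 2) hBa,
      analyticOrderAt_pow hAa, hD0, add_zero,
      (analyticAt_const).analyticOrderAt_eq_zero.2 (by simp [Real.pi_ne_zero]), zero_add]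
  have hO : analyticOrderAt (fun z => jExt z - jfun τ) (τ : ℂ) =
      2 • analyticOrderAt A τ + analyticOrderAt B τ + 1 := by
    rw [← hderiv, (analyticAt_jExt τ).analyticOrderAt_deriv_add_one]
    simp [jExt, ofComplex_apply]
  obtain ⟨e, he⟩ := ENat.ne_top_iff_exists.1 (jExt_not_const τ)
  refine ⟨e, ?_, he.symm⟩
  rw [← he] at hO
  by_cases h6 : ModularForm.E₆ τ = 0
  · have hj : jfun τ = 1728 := by
      have := jfun_sub_1728 τ
      rw [h6, zero_pow two_ne_zero, zero_div, sub_eq_zero] at this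
      exact this
    have hA0 : analyticOrderAt A τ = 0 := by
      rw [hAa.analyticOrderAt_eq_zero]
      simpa [hA] using E4_ne_zero_of (z := τ) (by rw [hj]; norm_num)
    have h2 : analyticOrderAt (fun z => jExt z - jfun τ) (τ : ℂ) = 2 • analyticOrderAt B τ := by
      rw [analyticOrderAt_congr (g := B ^ 2 * D) (hev.mono fun z hz => by
          simp only [hj, jExt, hB, hD, Pi.mul_apply, Pi.pow_apply, Function.comp_apply,
            ofComplex_apply_of_im_pos hz, jfun_sub_1728, div_eq_mul_inv]),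
        analyticOrderAt_mul (hBa.pow 2) hDa, analyticOrderAt_pow hBa, hD0, add_zero]
    rw [hA0, smul_zero, zero_add] at hO
    rw [← he] at h2
    cases hb : analyticOrderAt B τ with
    | top => rw [hb] at hO; simp at hO
    | coe b =>
      rw [hb] at hO h2
      rw [nsmul_eq_mul] at h2
      norm_cast at hO h2
      exact Or.inr (Or.inl ⟨hj, by omega⟩)
  have hB0 : analyticOrderAt B τ = 0 := by
    rw [hBa.analyticOrderAt_eq_zero]
    simpa [hB] using h6
  rw [hB0, add_zero] at hO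
  by_cases h4 : ModularForm.E₄ τ = 0
  · have h3 : analyticOrderAt (fun z => jExt z - jfun τ) (τ : ℂ) = 3 • analyticOrderAt A τ := by
      rw [analyticOrderAt_congr (g := A ^ 3 * D) (hev.mono fun z hz => by
          simp [jExt, hA, hD, Pi.mul_apply, Function.comp_apply,
            ofComplex_apply_of_im_pos hz, jfun, h4, div_eq_mul_inv]),
        analyticOrderAt_mul (hAa.pow 3) hDa, analyticOrderAt_pow hAa, hD0, add_zero]
    rw [← he] at h3
    cases ha : analyticOrderAt A τ with
    | top => rw [ha] at hO; simp at hO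
    | coe a =>
      rw [ha] at hO h3
      rw [nsmul_eq_mul] at hO h3
      norm_cast at hO h3
      exact Or.inr (Or.inr ⟨by simp [jfun, h4], by omega⟩)
  · have hA0 : analyticOrderAt A τ = 0 := by
      rw [hAa.analyticOrderAt_eq_zero]
      simpa [hA] using h4
    rw [hA0] at hO
    norm_cast at hO
    exact Or.inl (by simpa using hO)

/-- The multiplier at a fixed point is not an `e`-th root of unity. -/
theorem multiplier_ne {p : ℕ} (hp : 1 < p) {τ : ℍ} {M : Mat} (hM : M ∈ FixPrim τ p) {e : ℕ}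
    (he : e = 1 ∨ (jfun τ = 1728 ∧ e = 2) ∨ (jfun τ = 0 ∧ e = 3)) :
    ((p : ℂ) / ((M 1 0 : ℂ) * τ + M 1 1) ^ 2) ^ e ≠ 1 := by
  have hpne : p ≠ 0 := (zero_lt_one.trans hp).ne'
  have hpz : (0 : ℤ) < p := by exact_mod_cast zero_lt_one.trans hp
  have hM' := hM
  have hc := fix_lower_ne_zero hp hM
  obtain ⟨⟨hd, hf⟩, -⟩ := hM
  have hd0 : M.det ≠ 0 := by rw [hd]; exact_mod_cast hpne
  rw [fixes_iff hd0] at hf
  rw [Matrix.det_fin_two] at hd
  set α : ℂ := (M 1 0 : ℂ) * τ + M 1 1 with hα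
  have hα0 : α ≠ 0 := mob_den_ne_zero hd0 τ
  have hp0 : (p : ℂ) ≠ 0 := by exact_mod_cast hpne
  have him : α.im = (M 1 0 : ℝ) * τ.im := by simp [hα]
  have him0 : α.im ≠ 0 := by
    rw [him]; exact mul_ne_zero (by exact_mod_cast hc) τ.im_pos.ne'
  set t : ℤ := M 0 0 + M 1 1 with ht
  have hchar : α ^ 2 - (t : ℂ) * α + p = 0 := by
    have hd' : (M 0 0 : ℂ) * M 1 1 - (M 0 1 : ℂ) * M 1 0 = p := by exact_mod_cast hd
    rw [hα, ht]
    push_cast
    linear_combination (M 1 0 : ℂ) * hf - hd'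
  have key : α ^ 2 ≠ p := fun h => by
    have h1 : (t : ℂ) * α = ((2 * (p : ℤ) : ℤ) : ℂ) := by push_cast; linear_combination h - hchar
    have h2 := congrArg Complex.im h1
    simp [him0] at h2
    rw [h2] at h1
    simp [hpne] at h1
  intro h
  rcases he with rfl | ⟨hj, rfl⟩ | ⟨hj, rfl⟩
  · rw [pow_one, div_eq_one_iff_eq (pow_ne_zero 2 hα0)] at h
    exact key h.symm
  · rw [div_pow, div_eq_one_iff_eq (pow_ne_zero 2 (pow_ne_zero 2 hα0))] at h
    rcases sq_eq_sq_iff_eq_or_eq_neg.1 h with h | h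
    · exact key h.symm
    -- the trace is zero, and `τ` is equivalent to `i`
    have ht0 : (t : ℂ) = 0 :=
      (mul_eq_zero.1 (show (t : ℂ) * α = 0 by linear_combination -hchar + h)).resolve_right hα0
    have ht0' : t = 0 := by exact_mod_cast ht0
    obtain ⟨g, hg⟩ := (jfun_eq_iff τ UpperHalfPlane.I).1 (hj.trans jfun_I.symm)
    obtain ⟨N, ⟨⟨hNd, hNf⟩, hNp⟩, hNt⟩ := exists_fixPrim_conj hpz hM' g
    rw [hg, fixes_iff (by rw [hNd]; exact hpz.ne'), coe_I, Complex.I_sq] at hNf
    obtain ⟨e1, e2⟩ := eq_zero_of_add (z := UpperHalfPlane.I) (u := N 1 1 - N 0 0)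
      (v := -N 1 0 - N 0 1) (by rw [coe_I]; push_cast; linear_combination hNf)
    rw [Matrix.trace_fin_two, Matrix.trace_fin_two] at hNt
    have h00 : N 0 0 = 0 := by linarith
    have h11 : N 1 1 = 0 := by linarith
    have h01 : N 0 1 = -N 1 0 := by linarith
    rw [Matrix.det_fin_two, h00, h11, h01] at hNd
    have hN1 : (N 1 0).natAbs = 1 := by
      refine Eq.trans ?_ hNp
      simp [content, h00, h11, h01, Int.natAbs_abs]
    have h1 := congrArg Int.natAbs hNd
    rw [show (0 : ℤ) * 0 - -N 1 0 * N 1 0 = N 1 0 * N 1 0 by ring, Int.natAbs_mul, hN1,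
      Int.natAbs_natCast] at h1
    omega
  · rw [div_pow, div_eq_one_iff_eq (pow_ne_zero 3 (pow_ne_zero 2 hα0))] at h
    have hX : α ^ 3 = (((t : ℝ) ^ 2 - p : ℝ) : ℂ) * α - ((t : ℝ) * p : ℝ) := by
      push_cast; linear_combination (α + (t : ℂ)) * hchar
    have h2 : α ^ 3 * α ^ 3 = (((p : ℝ) ^ 3 : ℝ) : ℂ) := by push_cast; rw [h]; ring
    have hre := congrArg Complex.re h2
    have himz := congrArg Complex.im h2
    simp only [Complex.mul_re, Complex.mul_im, Complex.ofReal_re, Complex.ofReal_im] at hre himz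
    have hpos : (0 : ℝ) < (p : ℝ) ^ 3 := pow_pos (by exact_mod_cast Nat.pos_of_ne_zero hpne) 3
    have him3 : (α ^ 3).im = 0 := by
      rcases mul_eq_zero.1 (show (α ^ 3).re * (α ^ 3).im = 0 by linarith) with h0 | h0
      · rw [h0] at hre; nlinarith
      · exact h0
    rw [hX] at him3
    simp only [Complex.sub_im, Complex.mul_im, Complex.ofReal_re, Complex.ofReal_im, zero_mul,
      add_zero, sub_zero] at him3
    have htp : (t : ℝ) ^ 2 = p :=
      sub_eq_zero.1 ((mul_eq_zero.1 him3).resolve_right him0)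
    have htp' : t ^ 2 = (p : ℤ) := by exact_mod_cast htp
    -- the trace squared is the determinant, and `τ` is equivalent to `ρ`
    obtain ⟨g, hg⟩ := (jfun_eq_iff τ rho).1 (hj.trans jfun_rho.symm)
    obtain ⟨N, ⟨⟨hNd, hNf⟩, hNp⟩, hNt⟩ := exists_fixPrim_conj hpz hM' g
    rw [hg, fixes_iff (by rw [hNd]; exact hpz.ne')] at hNf
    obtain ⟨e1, e2⟩ := eq_zero_of_add (z := rho) (u := N 1 1 - N 0 0 - N 1 0)
      (v := -N 1 0 - N 0 1) (by push_cast; linear_combination hNf - (N 1 0 : ℂ) * rho_sq)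
    rw [Matrix.trace_fin_two, Matrix.trace_fin_two] at hNt
    have h11 : N 1 1 = N 0 0 + N 1 0 := by linarith
    have h01 : N 0 1 = -N 1 0 := by linarith
    rw [Matrix.det_fin_two, h11, h01] at hNd
    have h3 : N 0 0 * (N 0 0 + N 1 0) = 0 := by
      rw [ht, show M 0 0 + M 1 1 = 2 * N 0 0 + N 1 0 by linarith] at htp'
      linarith
    have hN1 : (N 1 0).natAbs = 1 := by
      refine Eq.trans ?_ hNp
      rcases mul_eq_zero.1 h3 with e | e
      · simp [content, h11, h01, e, Int.natAbs_abs]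
      · simp [content, h11, h01, show N 0 0 = -N 1 0 by linarith, Int.natAbs_abs]
    have h1 := congrArg Int.natAbs hNd
    rw [h3, show (0 : ℤ) - -N 1 0 * N 1 0 = N 1 0 * N 1 0 by ring, Int.natAbs_mul, hN1,
      Int.natAbs_natCast] at h1
    omega

/-- `j - j ∘ M` vanishes at a fixed point of `M` to the order of `j - j(τ)`. -/
theorem order_factor {p : ℕ} (hp : 1 < p) {τ : ℍ} {M : Mat} (hM : M ∈ FixPrim τ p) {e : ℕ}
    (he : e = 1 ∨ (jfun τ = 1728 ∧ e = 2) ∨ (jfun τ = 0 ∧ e = 3))
    (hord : analyticOrderAt (fun z => jExt z - jfun τ) (τ : ℂ) = e) :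
    analyticOrderAt (fun z => jExt z - jExt (mob M z)) (τ : ℂ) = e := by
  have hmult := multiplier_ne hp hM he
  obtain ⟨⟨hd, hf⟩, -⟩ := hM
  have hd0 : M.det ≠ 0 := by rw [hd]; exact_mod_cast (zero_lt_one.trans hp).ne'
  have hα := mob_den_ne_zero hd0 τ
  set α : ℂ := (M 1 0 : ℂ) * τ + M 1 1 with hαdef
  have hmob : AnalyticAt ℂ (mob M) τ :=
    ((analyticAt_const.mul analyticAt_id).add analyticAt_const).div
      ((analyticAt_const.mul analyticAt_id).add analyticAt_const) hα
  have hjm : AnalyticAt ℂ (fun z => jExt (mob M z)) (τ : ℂ) := by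
    refine AnalyticAt.fun_comp ?_ hmob
    rw [hf]
    exact analyticAt_jExt τ
  obtain ⟨u, hu, hu0, hev⟩ :=
    ((analyticAt_jExt τ).sub analyticAt_const).analyticOrderAt_eq_natCast.1 hord
  have hu' : AnalyticAt ℂ (fun z => u (mob M z)) (τ : ℂ) := AnalyticAt.fun_comp (by rwa [hf]) hmob
  rw [((analyticAt_jExt τ).fun_sub hjm).analyticOrderAt_eq_natCast]
  refine ⟨fun z => u z - ((p : ℂ) / (α * ((M 1 0 : ℂ) * z + M 1 1))) ^ e * u (mob M z),
    hu.fun_sub (((analyticAt_const.div (analyticAt_const.mul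
      ((analyticAt_const.mul analyticAt_id).add analyticAt_const)) (mul_ne_zero hα hα)).pow e).mul
        hu'), ?_, ?_⟩
  · simp only [hf]
    rw [← hαdef, ← pow_two]
    intro h0
    exact hmult (mul_right_cancel₀ hu0 (by rw [one_mul]; exact (sub_eq_zero.1 h0).symm))
  have ht : Tendsto (mob M) (𝓝 (τ : ℂ)) (𝓝 (τ : ℂ)) := by
    have := hmob.continuousAt.tendsto
    rwa [hf] at this
  have hden : ∀ᶠ z in 𝓝 (τ : ℂ), (M 1 0 : ℂ) * z + M 1 1 ≠ 0 :=
    (((continuous_const.mul continuous_id).add continuous_const).continuousAt).eventually_ne hα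
  filter_upwards [hev, ht.eventually hev, hden] with z h1 h2 h3
  have hsub : mob M z - τ = (z - τ) * ((p : ℂ) / (α * ((M 1 0 : ℂ) * z + M 1 1))) := by
    have hf' : ((M 0 0 : ℂ) * τ + M 0 1) = τ * α := by
      rw [← div_eq_iff hα]; exact hf
    have hd' : (M 0 0 : ℂ) * M 1 1 - (M 0 1 : ℂ) * M 1 0 = p := by
      rw [Matrix.det_fin_two] at hd; exact_mod_cast hd
    rw [mob, div_sub' h3, ← mul_div_assoc, div_eq_div_iff h3 (mul_ne_zero hα h3), hαdef]
    linear_combination ((M 1 0 : ℂ) * z + M 1 1) ^ 2 * hf' +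
      ((M 1 0 : ℂ) * z + M 1 1) * (z - (τ : ℂ)) * hd'
  simp only [smul_eq_mul, Pi.sub_apply] at h1 h2 ⊢
  rw [hsub, mul_pow] at h2
  linear_combination h1 - h2

theorem analyticOrderAt_finsetProd {ι : Type*} (s : Finset ι) {f : ι → ℂ → ℂ} {z₀ : ℂ}
    (h : ∀ i ∈ s, AnalyticAt ℂ (f i) z₀) :
    analyticOrderAt (∏ i ∈ s, f i) z₀ = ∑ i ∈ s, analyticOrderAt (f i) z₀ := by
  classical
  induction s using Finset.induction with
  | empty =>
    rw [Finset.prod_empty, Finset.sum_empty]
    exact analyticAt_const.analyticOrderAt_eq_zero.2 one_ne_zero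
  | @insert a s ha ih =>
    rw [Finset.prod_insert ha, Finset.sum_insert ha, analyticOrderAt_mul
      (h a (Finset.mem_insert_self a s))
      (Finset.analyticAt_prod s fun i hi => h i (Finset.mem_insert_of_mem hi)),
      ih fun i hi => h i (Finset.mem_insert_of_mem hi)]

section

/-- A squarefree `p > 1` is no square. -/
instance fact_nonsquare {p : ℕ} [h1 : Fact (1 < p)] [h : Fact (Squarefree p)] :
    Fact (¬ IsSquare p) :=
  ⟨fun hs => not_isSquare_of_squarefree h1.out h.out (Int.isSquare_natCast_iff.2 hs)⟩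

theorem nonsquare (p : ℕ) [h : Fact (¬ IsSquare p)] : ¬ IsSquare (p : ℤ) :=
  fun hs => h.out (Int.isSquare_natCast_iff.1 hs)

variable (p : ℕ) [Fact (1 < p)] [Fintype (FA.Dim.Cos p)]

/-- `Φ_p(X, X)` with complex coefficients. -/
def diagC : Polynomial ℂ :=
  haveI : NeZero p := ⟨(zero_lt_one.trans (Fact.out : 1 < p)).ne'⟩
  ((phi p).eval Polynomial.X).map (Int.castRingHom ℂ)

theorem diagC_ne_zero : diagC p ≠ 0 := by
  haveI : NeZero p := ⟨(zero_lt_one.trans (Fact.out : 1 < p)).ne'⟩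
  exact (Polynomial.map_ne_zero_iff Int.cast_injective).2
    (FA.Diagonal.phi_diag_ne_zero p Fact.out)

theorem eval_diagC [NeZero p] (z : ℍ) : (diagC p).eval (jfun z) =
    ∏ i, (jfun z - cosVal p (fN p) i z) := by
  rw [diagC, Polynomial.eval_map, ← algebraMap_int_eq, ← Polynomial.aeval_def,
    FA.Diagonal.aeval_eval_X, ← Polynomial.eval_map, FA.Diagonal.map_phi_at, Polynomial.eval_prod]
  simp

/-- **The multiplicity of a singular modulus as a root of `Φ_p(X, X)`.** -/
theorem rootMultiplicity_diag (τ : ℍ) :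
    (diagC p).rootMultiplicity (jfun τ) = Nat.card (fixCos p τ) := by
  classical
  haveI : NeZero p := ⟨(zero_lt_one.trans (Fact.out : 1 < p)).ne'⟩
  obtain ⟨e, he, hord⟩ := exists_jOrder τ
  obtain ⟨R, hR, hR0⟩ := (diagC p).exists_eq_pow_rootMultiplicity_mul_and_not_dvd
    (diagC_ne_zero p) (jfun τ)
  rw [Polynomial.dvd_iff_isRoot] at hR0
  set m := (diagC p).rootMultiplicity (jfun τ)
  have hRa : AnalyticAt ℂ (fun z => R.eval (jExt z)) (τ : ℂ) :=
    ((R.differentiable).analyticAt _).fun_comp (analyticAt_jExt τ)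
  have hja : AnalyticAt ℂ (fun z => jExt z - jfun τ) (τ : ℂ) :=
    (analyticAt_jExt τ).fun_sub analyticAt_const
  set G : FA.Dim.Cos p → ℂ → ℂ := fun i z => jExt z - (cosVal p (fN p) i ∘ ofComplex) z
  have hGa : ∀ i, AnalyticAt ℂ (G i) τ := fun i =>
    (analyticAt_jExt τ).fun_sub (analyticAt_ext (mdiff_comp_smul (fN_mem p).1 _) τ)
  have hev : ∀ᶠ z in 𝓝 (τ : ℂ), 0 < z.im := isOpen_upperHalfPlaneSet.mem_nhds τ.im_pos
  have h1 : analyticOrderAt (((fun z => jExt z - jfun τ) ^ m) * fun z => R.eval (jExt z)) (τ : ℂ) =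
      analyticOrderAt (∏ i, G i) (τ : ℂ) := by
    refine analyticOrderAt_congr (hev.mono fun z hz => ?_)
    have h := eval_diagC p ⟨z, hz⟩
    rw [hR] at h
    simpa [G, jExt, ofComplex_apply_of_im_pos hz, Finset.prod_apply] using h
  rw [analyticOrderAt_mul (hja.pow m) hRa, analyticOrderAt_pow hja, hord,
    hRa.analyticOrderAt_eq_zero.2 (by simpa [jExt, Polynomial.IsRoot] using hR0), add_zero,
    analyticOrderAt_finsetProd _ fun i _ => hGa i] at h1
  have hG : ∀ i, analyticOrderAt (G i) (τ : ℂ) = if i ∈ fixCos p τ then (e : ℕ∞) else 0 := by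
    intro i
    split_ifs with hi
    · rw [← order_factor Fact.out (cosMat_prim p τ hi) he hord]
      refine analyticOrderAt_congr (hev.mono fun z hz => ?_)
      have := jfun_cosMat p τ hi ⟨z, hz⟩
      simp only [G, jExt, Function.comp_apply, ofComplex_apply_of_im_pos hz] at this ⊢
      rw [this]
    · rw [(hGa i).analyticOrderAt_eq_zero]
      simp only [G, jExt, Function.comp_apply, ofComplex_apply, ne_eq, sub_eq_zero]
      exact fun h => hi h.symm
  simp only [hG, Finset.sum_ite, Finset.sum_const_zero, add_zero, Finset.sum_const] at h1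
  rw [Nat.card_eq_fintype_card, ← Set.toFinset_card,
    show (fixCos p τ).toFinset = Finset.univ.filter (· ∈ fixCos p τ) by ext; simp]
  rw [nsmul_eq_mul, nsmul_eq_mul, ← Nat.cast_mul, ← Nat.cast_mul, Nat.cast_inj] at h1
  have he0 : 0 < e := by rcases he with rfl | ⟨-, rfl⟩ | ⟨-, rfl⟩ <;> norm_num
  exact Nat.eq_of_mul_eq_mul_right he0 h1

/-- `Φ_p(X, X)` at the series of `j`. -/
theorem eval₂_diagC [NeZero p] : (diagC p).eval₂ HahnSeries.C (FA.SingularIntegral.Jp p) =
    ∏ i, (FA.SingularIntegral.Jp p - ser p i) := by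
  set P : Polynomial ℤ := (phi p).eval Polynomial.X
  show evJp p P = _
  have hX : evJp p Polynomial.X = FA.SingularIntegral.Jp p := by simp [evJp]
  rw [show P = Polynomial.eval₂ (RingHom.id (Polynomial ℤ)) Polynomial.X (phi p) from rfl,
    Polynomial.hom_eval₂, RingHom.comp_id, hX, ← Polynomial.eval_map, map_phi, prodSer,
    Polynomial.eval_prod]
  simp

omit [Fintype (FA.Dim.Cos p)] in
/-- The order at infinity of one factor. -/
theorem order_factor_infty [NeZero p] (i : FA.Dim.Cos p) :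
    FA.SingularIntegral.Jp p - ser p i ≠ 0 ∧ (FA.SingularIntegral.Jp p - ser p i).order =
      -((max p ((cosTri p i).1 * (cosTri p i).1) : ℕ) : ℤ) := by
  obtain ⟨hJ1, hJ2, -⟩ := FA.SingularIntegral.Jp_low p
  obtain ⟨_, hS⟩ := ser_cosTri p i
  set k := (cosTri p i).1 * (cosTri p i).1 with hk
  set c := zetaN p ^ (((cosTri p i).2 : ℤ) * (cosTri p i).1)
  -- the two leading terms do not cancel
  have hcne : k = p → c ≠ 1 := fun e hc => by
    obtain ⟨-, hprim⟩ := Finset.mem_filter.1 (cosTri_mem p i)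
    have ha : 0 < (cosTri p i).1 :=
      Nat.pos_of_ne_zero fun h => NeZero.ne p (by rw [← e, hk, h, zero_mul])
    have hdiv : p / (cosTri p i).1 = (cosTri p i).1 :=
      Nat.div_eq_of_eq_mul_left ha (e.symm.trans hk)
    have hdvd := ((zetaN_prim p).zpow_eq_one_iff_dvd _).1 (by
      simpa [c, Units.ext_iff] using hc :
        (zetaN p : ℂ) ^ (((cosTri p i).2 : ℤ) * (cosTri p i).1) = 1)
    have hab : (cosTri p i).1 ∣ (cosTri p i).2 := Nat.dvd_of_mul_dvd_mul_right ha (by
      have h : p ∣ (cosTri p i).2 * (cosTri p i).1 := by exact_mod_cast hdvd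
      exact Nat.dvd_trans (dvd_of_eq (hk.symm.trans e)) h)
    rw [triContent, hdiv, Nat.gcd_eq_left hab, Nat.gcd_self] at hprim
    have : 1 < p := Fact.out
    rw [hk, hprim] at e
    omega
  suffices h : ∀ m : ℤ, FA.ModField.OrdGE m (FA.SingularIntegral.Jp p - ser p i) →
      (FA.SingularIntegral.Jp p - ser p i).coeff m ≠ 0 →
      FA.SingularIntegral.Jp p - ser p i ≠ 0 ∧
        (FA.SingularIntegral.Jp p - ser p i).order = m by
    rcases lt_trichotomy k p with hlt | heq | hlt
    · rw [max_eq_left hlt.le]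
      have hlt' : -(p : ℤ) < -(k : ℤ) := by omega
      refine h _ (fun n hn => ?_) ?_ <;> rw [hS, HahnSeries.coeff_sub]
      · rw [hJ1 n hn, sj_ordGE _ _ n (hn.trans hlt'), sub_zero]
      · rw [hJ2, sj_ordGE _ _ _ hlt', sub_zero]
        exact one_ne_zero
    · rw [max_eq_left heq.le]
      have heq' : -(p : ℤ) = -(k : ℤ) := by rw [heq]
      refine h _ (fun n hn => ?_) ?_ <;> rw [hS, HahnSeries.coeff_sub]
      · rw [hJ1 n hn, sj_ordGE _ _ n (hn.trans_eq heq'), sub_zero]
      · rw [hJ2, heq', sj_coeff, sub_ne_zero]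
        exact fun h1 => hcne heq (inv_eq_one.1 (Units.ext h1.symm))
    · rw [max_eq_right hlt.le]
      have hlt' : -(k : ℤ) < -(p : ℤ) := by omega
      refine h _ (fun n hn => ?_) ?_ <;> rw [hS, HahnSeries.coeff_sub]
      · rw [hJ1 n (hn.trans hlt'), sj_ordGE _ _ n hn, sub_zero]
      · rw [hJ1 _ hlt', zero_sub, neg_ne_zero, sj_coeff]
        exact Units.ne_zero _
  exact fun m h1 h2 =>
    ⟨HahnSeries.ne_zero_of_coeff_ne_zero h2, FA.SingularIntegral.order_eq_of h1 h2⟩

/-- **The degree of `Φ_p(X, X)`.** -/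
theorem natDegree_diag_mul :
    p * (diagC p).natDegree = ∑ q ∈ primTri p, max p (q.1 * q.1) := by
  classical
  haveI : NeZero p := ⟨(zero_lt_one.trans (Fact.out : 1 < p)).ne'⟩
  obtain ⟨hJ1, hJ2, -⟩ := FA.SingularIntegral.Jp_low p
  have hp0 : 0 < p := NeZero.pos p
  have hm : -(p : ℤ) < 0 := by omega
  have hlhs : ((diagC p).eval₂ HahnSeries.C (FA.SingularIntegral.Jp p)).order =
      -(p : ℤ) * (diagC p).natDegree := by
    obtain ⟨h1, h2⟩ := FA.SingularIntegral.eval_top hm hJ1 hJ2 (le_refl (diagC p).natDegree)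
    refine FA.SingularIntegral.order_eq_of h1 ?_
    rw [h2]
    exact Polynomial.leadingCoeff_ne_zero.2 (diagC_ne_zero p)
  have hsum : ∀ s : Finset (FA.Dim.Cos p),
      (∏ i ∈ s, (FA.SingularIntegral.Jp p - ser p i)).order =
        ∑ i ∈ s, (FA.SingularIntegral.Jp p - ser p i).order := fun s => by
    induction s using Finset.induction with
    | empty => simp
    | @insert a s ha ih =>
      rw [Finset.prod_insert ha, Finset.sum_insert ha, HahnSeries.order_mul
        (order_factor_infty p a).1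
        (Finset.prod_ne_zero_iff.2 fun i _ => (order_factor_infty p i).1), ih]
  rw [eval₂_diagC, hsum, Finset.sum_congr rfl fun i _ => (order_factor_infty p i).2,
    Finset.sum_neg_distrib, ← Nat.cast_sum, sum_cosTri p (fun a => max p (a * a)), neg_mul,
    neg_inj] at hlhs
  exact_mod_cast hlhs.symm

/-- The total over the matrices `(a, b; 0, d)` of a given determinant. -/
theorem sum_triSet_max {n : ℕ} (hn : n ≠ 0) :
    ∑ q ∈ triSet n, max n (q.1 * q.1) = n * ∑ a ∈ n.divisors, max a (n / a) := by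
  rw [sum_triSet n hn (fun a => max n (a * a)), Finset.mul_sum]
  refine Finset.sum_congr rfl fun a ha => ?_
  obtain ⟨d, hd⟩ := Nat.dvd_of_mem_divisors ha
  rw [hd, Nat.mul_div_cancel_left _ (Nat.pos_of_mem_divisors ha), smul_eq_mul, max_comm a d,
    mul_max, mul_max]
  congr 1 <;> ring

end

/-- The degree for a squarefree `p`. -/
theorem natDegree_diag_sum (p : ℕ) [Fact (1 < p)] [Fact (Squarefree p)] [Fintype (FA.Dim.Cos p)] :
    (diagC p).natDegree = ∑ a ∈ p.divisors, max a (p / a) := by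
  have hp : p ≠ 0 := (zero_lt_one.trans (Fact.out : 1 < p)).ne'
  refine Nat.eq_of_mul_eq_mul_left (Nat.pos_of_ne_zero hp) ?_
  rw [natDegree_diag_mul, primTri_eq_of_squarefree Fact.out, sum_triSet_max hp]

/-- **The degree of `Φ_p(X, X)` is `2 p`.** -/
theorem natDegree_diag (p : ℕ) [Fact p.Prime] [Fintype (FA.Dim.Cos p)] :
    (diagC p).natDegree = 2 * p := by
  have hp : p.Prime := Fact.out
  rw [natDegree_diag_sum, hp.divisors, Finset.sum_pair hp.one_lt.ne, Nat.div_one,
    Nat.div_self hp.pos, max_eq_right hp.one_lt.le, max_eq_left hp.one_lt.le, two_mul]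

end FA.ClassRelation

end
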