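import Fermat.Agent.Tau.DihedralModular
import Fermat.Agent.Tau.OrderCyclicQuotient
import Mathlib.FieldTheory.Galois.Infinite

/-!
# Modular dihedral representations over every imaginary quadratic field

With a cyclic quotient of order `m` of the class group of some `ℤ[f√-n]`, the ring class field gives
for every `n` and `m ≥ 3` a weight one form with dihedral image of order `2 m` and determinant the
character of `ℚ(√-n)`.
-/

set_option autoImplicit false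
set_option linter.style.haveILetI false

noncomputable section

namespace FA.DihedralEveryField

open FA.OrderTheta
open CongruenceSubgroup (Gamma1)
open scoped MatrixGroups

local notation "Qb" => AlgebraicClosure ℚ
local notation "GQ" => AlgebraicClosure ℚ ≃ₐ[ℚ] AlgebraicClosure ℚ

/-- The symbol `(-n f²/p)`. -/
theorem jacobiSym_mul_sq (n : ℕ) {f p : ℕ} (h : p.Coprime f) :
    jacobiSym (-((n * f ^ 2 : ℕ) : ℤ)) p = jacobiSym (-(n : ℤ)) p := by
  rw [show -((n * f ^ 2 : ℕ) : ℤ) = -(n : ℤ) * (f : ℤ) ^ 2 by push_cast; ring, jacobiSym.mul_left,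
    jacobiSym.sq_one' (show Int.gcd (f : ℤ) p = 1 from h.symm), mul_one]

/-- **Weight one forms with dihedral image for every `ℚ(√-n)`.** -/
theorem exists_weightOne (n : ℕ) [NeZero n] (m : ℕ) (hm : 3 ≤ m) :
    ∃ (N : ℕ) (_ : NeZero N) (f : CuspForm (Gamma1 N) 1) (ρ : GQ →* GL (Fin 2) ℂ),
      IsOpen (ρ.ker : Set GQ) ∧ Nonempty (ρ.range ≃* DihedralGroup m) ∧
      (∀ v : Fin 2 → ℂ, v ≠ 0 → ∃ σ, ∀ μ : ℂ,
        Matrix.mulVec ((ρ σ : GL (Fin 2) ℂ) : Matrix (Fin 2) (Fin 2) ℂ) v ≠ μ • v) ∧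
      ModularFormClass.qCoeff f 1 = 1 ∧
      (∀ p : ℕ, p.Prime → ¬ p ∣ N → ∀ k : ℕ,
        ModularFormClass.qCoeff f (p * k) +
            (jacobiSym (-(n : ℤ)) p : ℂ) *
              (if p ∣ k then ModularFormClass.qCoeff f (k / p) else 0) =
          ModularFormClass.qCoeff f p * ModularFormClass.qCoeff f k) ∧
      (∀ p : ℕ, p.Prime → ¬ p ∣ N → ∀ A : ValuationSubring Qb, A.LiesOverPrime p →
        (∀ σ ∈ A.inertiaSubgroupIn ℚ, ρ σ = 1) ∧
        ∀ σ : GQ, A.IsFrobeniusAt σ p →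
          ((ρ σ : GL (Fin 2) ℂ) : Matrix (Fin 2) (Fin 2) ℂ).trace = ModularFormClass.qCoeff f p ∧
          ((ρ σ : GL (Fin 2) ℂ) : Matrix (Fin 2) (Fin 2) ℂ).det =
            (jacobiSym (-(n : ℤ)) p : ℂ)) ∧
      (∃ d : Qb, d ^ 2 = -(n : Qb) ∧ ∀ σ : GQ,
        ((ρ σ : GL (Fin 2) ℂ) : Matrix (Fin 2) (Fin 2) ℂ).det = 1 ↔ σ d = d) ∧
      ∃ F : ℂ → ℂ, Differentiable ℂ F ∧ ∀ Fr : Nat.Primes → GQ,
        (∀ p : Nat.Primes, ¬ (p : ℕ) ∣ N → ∃ A : ValuationSubring Qb,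
          A.LiesOverPrime (p : ℕ) ∧ A.IsFrobeniusAt (Fr p) (p : ℕ)) →
        ∀ s : ℂ, 1 < s.re → HasProd (fun p : {p : Nat.Primes // ¬ (p : ℕ) ∣ N} =>
          ((1 - ((p.1 : ℕ) : ℂ) ^ (-s) •
            ((ρ (Fr p.1) : GL (Fin 2) ℂ) : Matrix (Fin 2) (Fin 2) ℂ)).det)⁻¹) (F s) := by
  obtain ⟨k, hk, π₀, hπ₀⟩ := FA.OrderQuotient.exists_cl_cyclic_quotient n (m := m) (by omega)
  obtain ⟨N, hN, f, ρ, hdvd, h1, h2, h3, h4, h5, h6, ⟨d, hd, hdet⟩, hF⟩ :=
    FA.DihedralModular.exists_weightOne_of_quotient hm (n * k ^ 2) π₀ hπ₀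
  have hchar : ∀ p : ℕ, p.Prime → ¬ p ∣ N →
      jacobiSym (-((n * k ^ 2 : ℕ) : ℤ)) p = jacobiSym (-(n : ℤ)) p := fun p hp h =>
    jacobiSym_mul_sq n ((Nat.Prime.coprime_iff_not_dvd hp).2 fun hpk =>
      h (((hpk.trans (dvd_pow_self k two_ne_zero)).mul_left n).trans hdvd))
  refine ⟨N, hN, f, ρ, h1, h2, h3, h4, fun p hp hpn => ?_, fun p hp hpn => ?_,
    ⟨d / (k : Qb), ?_, fun σ => ?_⟩, hF⟩
  · rw [← hchar p hp hpn]; exact h5 p hp hpn
  · rw [← hchar p hp hpn]; exact h6 p hp hpn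
  · rw [div_pow, hd, div_eq_iff (pow_ne_zero _ (Nat.cast_ne_zero.2 (NeZero.ne k)))]
    push_cast
    ring
  · rw [hdet σ, map_div₀, map_natCast, div_left_inj' (Nat.cast_ne_zero.2 (NeZero.ne k))]

/-- **Every imaginary quadratic field lies in a Galois extension of `ℚ` with dihedral group.** -/
theorem exists_dihedral_field (n : ℕ) [NeZero n] (m : ℕ) (hm : 3 ≤ m) :
    ∃ (L : IntermediateField ℚ Qb) (_ : FiniteDimensional ℚ L) (_ : IsGalois ℚ L),
      Nonempty ((L ≃ₐ[ℚ] L) ≃* DihedralGroup m) ∧ ∃ d ∈ L, d ^ 2 = -(n : Qb) := by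
  obtain ⟨N, hN, f, ρ, hopen, ⟨e⟩, -, -, -, -, ⟨d, hd, hdet⟩, -⟩ := exists_weightOne n m hm
  let H : ClosedSubgroup GQ := ⟨ρ.ker, Subgroup.isClosed_of_isOpen _ hopen⟩
  haveI hH : H.Normal := inferInstanceAs ρ.ker.Normal
  have hfix := InfiniteGalois.fixingSubgroup_fixedField H
  refine ⟨IntermediateField.fixedField ρ.ker, ?_, ?_, ⟨?_⟩, d, fun g => ?_, hd⟩
  · refine (InfiniteGalois.isOpen_iff_finite _).1 ?_
    show IsOpen ((IntermediateField.fixedField H.1).fixingSubgroup : Set GQ)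
    rw [hfix]
    exact hopen
  · refine (InfiniteGalois.normal_iff_isGalois _).1 ?_
    show ((IntermediateField.fixedField H.1).fixingSubgroup).Normal
    rw [hfix]
    exact hH
  · exact ((InfiniteGalois.normalAutEquivQuotient H).symm.trans
      (QuotientGroup.quotientKerEquivRange ρ)).trans e
  · show g.1 d = d
    refine (hdet g.1).1 ?_
    rw [MonoidHom.mem_ker.1 g.2, Units.val_one, Matrix.det_one]

end FA.DihedralEveryField

end
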