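import Fermat.Agent.Tau.DihedralFamily
import Fermat.Agent.OpenImageAll.Traces
import Mathlib.LinearAlgebra.Dimension.Basic

/-!
# Arbitrarily many independent dihedral weight one forms at one level

The dihedral family attached to a quotient `(ℤ/m)^B` of some `Cl(n f²)` lives at one level; by
Chebotarev two of its members differ in some `a_p`, so the Hecke relations make it independent.
-/

set_option autoImplicit false
set_option linter.style.haveILetI false

noncomputable section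

namespace FA.DihedralIndependent

open FA.OrderTheta
open CongruenceSubgroup (Gamma1)
open scoped MatrixGroups

local notation "Qb" => AlgebraicClosure ℚ
local notation "GQ" => AlgebraicClosure ℚ ≃ₐ[ℚ] AlgebraicClosure ℚ

variable (N : ℕ)

theorem one_mem_periods : (1 : ℝ) ∈ (Gamma1 N : Subgroup (GL (Fin 2) ℝ)).strictPeriods := by
  rw [CongruenceSubgroup.strictPeriods_Gamma1]
  exact AddSubgroup.mem_zmultiples 1

/-- The coefficients as a linear map. -/
def coeffLin : CuspForm (Gamma1 N) 1 →ₗ[ℂ] (ℕ → ℂ) where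
  toFun f := ModularFormClass.qCoeff f
  map_add' f g := by
    funext k
    have h := ModularForm.qExpansion_add one_pos (one_mem_periods N) f g
    simpa [ModularFormClass.qCoeff] using congrArg (PowerSeries.coeff k) h
  map_smul' c f := by
    funext k
    have h := ModularForm.qExpansion_smul one_pos (one_mem_periods N) c f
    simpa [ModularFormClass.qCoeff] using congrArg (PowerSeries.coeff k) h

variable {N}

/-- **Normalised forms with the same Hecke relations and different eigenvalues are independent.** -/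
theorem linearIndependent_of_relations {ι : Type*} [Fintype ι]
    (f : ι → CuspForm (Gamma1 N) 1) (χ : ℕ → ℂ)
    (h1 : ∀ i, ModularFormClass.qCoeff (f i) 1 = 1)
    (hrel : ∀ i, ∀ p : ℕ, p.Prime → ¬ p ∣ N → ∀ k : ℕ,
      ModularFormClass.qCoeff (f i) (p * k) +
          χ p * (if p ∣ k then ModularFormClass.qCoeff (f i) (k / p) else 0) =
        ModularFormClass.qCoeff (f i) p * ModularFormClass.qCoeff (f i) k)
    (hsep : ∀ i j, i ≠ j → ∃ p : ℕ, p.Prime ∧ ¬ p ∣ N ∧
      ModularFormClass.qCoeff (f i) p ≠ ModularFormClass.qCoeff (f j) p) :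
    LinearIndependent ℂ f := by
  classical
  rw [Fintype.linearIndependent_iff]
  intro c hc i
  let a : ι → ℕ → ℂ := fun l k => ModularFormClass.qCoeff (f l) k
  have h0 : ∀ k, ∑ l, c l * a l k = 0 := fun k => by
    have h := congrArg (fun v => coeffLin N v k) hc
    simp only [map_sum, map_smul, map_zero, Finset.sum_apply, Pi.smul_apply, Pi.zero_apply,
      smul_eq_mul] at h
    exact h
  choose p hp hpN hne using fun j : {j // j ≠ i} => hsep i j.1 j.2.symm
  have key : ∀ S : Finset {j // j ≠ i}, ∀ k,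
      ∑ l, c l * (∏ j ∈ S, (a l (p j) - a j.1 (p j))) * a l k = 0 := fun S => by
    induction S using Finset.induction with
    | empty => simpa using h0
    | insert j S hj ih =>
      intro k
      have e : ∑ l, c l * (∏ x ∈ S, (a l (p x) - a x.1 (p x))) * (a l (p j) * a l k) = 0 := by
        calc ∑ l, c l * (∏ x ∈ S, (a l (p x) - a x.1 (p x))) * (a l (p j) * a l k)
            = ∑ l, (c l * (∏ x ∈ S, (a l (p x) - a x.1 (p x))) * a l (p j * k) +
              χ (p j) * (if p j ∣ k then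
                c l * (∏ x ∈ S, (a l (p x) - a x.1 (p x))) * a l (k / p j) else 0)) :=
              Finset.sum_congr rfl fun l _ => by
                rw [← hrel l (p j) (hp j) (hpN j) k]
                split <;> ring
          _ = 0 := by
              rw [Finset.sum_add_distrib, ih, zero_add, ← Finset.mul_sum]
              split
              · rw [ih, mul_zero]
              · simp
      calc ∑ l, c l * (∏ x ∈ insert j S, (a l (p x) - a x.1 (p x))) * a l k
          = ∑ l, (c l * (∏ x ∈ S, (a l (p x) - a x.1 (p x))) * (a l (p j) * a l k) -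
            a j.1 (p j) * (c l * (∏ x ∈ S, (a l (p x) - a x.1 (p x))) * a l k)) :=
            Finset.sum_congr rfl fun l _ => by rw [Finset.prod_insert hj]; ring
        _ = 0 := by rw [Finset.sum_sub_distrib, e, ← Finset.mul_sum, ih, mul_zero, sub_zero]
  have h := key Finset.univ 1
  rw [Finset.sum_eq_single i (fun l _ hl => by
      rw [Finset.prod_eq_zero (i := ⟨l, hl⟩) (Finset.mem_univ _) (sub_self _), mul_zero, zero_mul])
    (fun hi => absurd (Finset.mem_univ i) hi), show a i 1 = 1 from h1 i, mul_one] at h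
  exact (mul_eq_zero.1 h).resolve_right
    (Finset.prod_ne_zero_iff.2 fun j _ => sub_ne_zero.2 (hne j))

/-- A matrix of finite order with trace two and determinant one is the identity. -/
theorem eq_one_of_trace_two {M : Matrix (Fin 2) (Fin 2) ℂ} (ht : M.trace = 2) (hd : M.det = 1)
    {k : ℕ} (hk : k ≠ 0) (hMk : M ^ k = 1) : M = 1 := by
  rw [Matrix.trace_fin_two] at ht
  rw [Matrix.det_fin_two] at hd
  set X := M - 1 with hX
  have hXX : X * X = 0 := by
    ext i j
    fin_cases i <;> fin_cases j <;> simp [hX, Matrix.mul_apply, Fin.sum_univ_two, Matrix.sub_apply]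
    · linear_combination (M 0 0) * ht - hd
    · linear_combination (M 0 1) * ht
    · linear_combination (M 1 0) * ht
    · linear_combination (M 1 1) * ht - hd
  have hpow : ∀ l : ℕ, M ^ l = 1 + (l : ℂ) • X := fun l => by
    induction l with
    | zero => simp
    | succ l ih =>
      rw [pow_succ, ih, show M = 1 + X by rw [hX, add_sub_cancel], mul_add, mul_one, add_mul,
        one_mul, smul_mul_assoc, hXX, smul_zero, add_zero, Nat.cast_succ, add_smul, one_smul]
      abel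
  rw [hpow, add_eq_left, smul_eq_zero] at hMk
  exact sub_eq_zero.1 (hMk.resolve_left (Nat.cast_ne_zero.2 hk))

/-- **Arbitrarily many independent dihedral forms at one level.** -/
theorem exists_independent_forms (n : ℕ) [NeZero n] (m : ℕ) (hm : 3 ≤ m) (B : ℕ) :
    ∃ (N : ℕ) (_ : NeZero N) (f : Fin B → CuspForm (Gamma1 N) 1),
      LinearIndependent ℂ f ∧ ∀ i, ModularFormClass.qCoeff (f i) 1 = 1 ∧
      (∀ p : ℕ, p.Prime → ¬ p ∣ N → ∀ k : ℕ,
        ModularFormClass.qCoeff (f i) (p * k) +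
            (jacobiSym (-(n : ℤ)) p : ℂ) *
              (if p ∣ k then ModularFormClass.qCoeff (f i) (k / p) else 0) =
          ModularFormClass.qCoeff (f i) p * ModularFormClass.qCoeff (f i) k) ∧
      ∃ ρ : GQ →* GL (Fin 2) ℂ, IsOpen (ρ.ker : Set GQ) ∧
        Nonempty (ρ.range ≃* DihedralGroup m) ∧
        (∀ v : Fin 2 → ℂ, v ≠ 0 → ∃ σ, ∀ μ : ℂ,
          Matrix.mulVec ((ρ σ : GL (Fin 2) ℂ) : Matrix (Fin 2) (Fin 2) ℂ) v ≠ μ • v) ∧
        ∀ p : ℕ, p.Prime → ¬ p ∣ N → ∀ A : ValuationSubring Qb, A.LiesOverPrime p →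
          (∀ σ ∈ A.inertiaSubgroupIn ℚ, ρ σ = 1) ∧
          ∀ σ : GQ, A.IsFrobeniusAt σ p →
            ((ρ σ : GL (Fin 2) ℂ) : Matrix (Fin 2) (Fin 2) ℂ).trace =
              ModularFormClass.qCoeff (f i) p ∧
            ((ρ σ : GL (Fin 2) ℂ) : Matrix (Fin 2) (Fin 2) ℂ).det =
              (jacobiSym (-(n : ℤ)) p : ℂ) := by
  classical
  haveI : NeZero m := ⟨by omega⟩
  obtain ⟨k, hk, π, hπ⟩ := FA.OrderQuotient.exists_cl_abelian_quotient n
    (Fin B → Multiplicative (ZMod m))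
  obtain ⟨D, θ, hθ, h⟩ := FA.DihedralModular.exists_weightOne_of_quotients (n * k ^ 2)
  let ev : Fin B → Cl (n * k ^ 2) →* Multiplicative (ZMod m) := fun i =>
    (Pi.evalMonoidHom _ i).comp π
  have hev : ∀ i, Function.Surjective (ev i) := fun i => (Function.surjective_eval i).comp hπ
  have hdata : ∀ i, ∃ (f : CuspForm (Gamma1 (4 * (81 * (n * k ^ 2)))) 1)
      (ρ : GQ →* GL (Fin 2) ℂ),
      IsOpen (ρ.ker : Set GQ) ∧ Nonempty (ρ.range ≃* DihedralGroup m) ∧
      (∀ v : Fin 2 → ℂ, v ≠ 0 → ∃ σ, ∀ μ : ℂ,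
        Matrix.mulVec ((ρ σ : GL (Fin 2) ℂ) : Matrix (Fin 2) (Fin 2) ℂ) v ≠ μ • v) ∧
      ModularFormClass.qCoeff f 1 = 1 ∧
      (∀ p : ℕ, p.Prime → ¬ p ∣ 4 * (81 * (n * k ^ 2)) → ∀ k' : ℕ,
        ModularFormClass.qCoeff f (p * k') + (jacobiSym (-(n : ℤ)) p : ℂ) *
              (if p ∣ k' then ModularFormClass.qCoeff f (k' / p) else 0) =
          ModularFormClass.qCoeff f p * ModularFormClass.qCoeff f k') ∧
      (∀ p : ℕ, p.Prime → ¬ p ∣ 4 * (81 * (n * k ^ 2)) → ∀ A : ValuationSubring Qb,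
        A.LiesOverPrime p → (∀ σ ∈ A.inertiaSubgroupIn ℚ, ρ σ = 1) ∧
        ∀ σ : GQ, A.IsFrobeniusAt σ p →
          ((ρ σ : GL (Fin 2) ℂ) : Matrix (Fin 2) (Fin 2) ℂ).trace = ModularFormClass.qCoeff f p ∧
          ((ρ σ : GL (Fin 2) ℂ) : Matrix (Fin 2) (Fin 2) ℂ).det =
            (jacobiSym (-(n : ℤ)) p : ℂ)) ∧
      (∃ d : Qb, d ^ 2 = -((n * k ^ 2 : ℕ) : Qb) ∧ ∀ σ : GQ,
        ((ρ σ : GL (Fin 2) ℂ) : Matrix (Fin 2) (Fin 2) ℂ).det = 1 ↔ σ d = d) ∧
      ∀ σ : D, ρ σ = 1 ↔ ev i (θ σ) = 1 := fun i => by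
    obtain ⟨N, hN, f, ρ, hN', h1, h2, h3, h4, h5, h6, h7, -, h9⟩ := h hm (ev i) (hev i)
    subst hN'
    have hchar : ∀ p : ℕ, p.Prime → ¬ p ∣ 4 * (81 * (n * k ^ 2)) →
        jacobiSym (-((n * k ^ 2 : ℕ) : ℤ)) p = jacobiSym (-(n : ℤ)) p := fun p hp hpN =>
      FA.DihedralEveryField.jacobiSym_mul_sq n ((Nat.Prime.coprime_iff_not_dvd hp).2 fun hpk =>
        hpN (((hpk.trans (dvd_pow_self k two_ne_zero)).mul_left n).trans ⟨324, by ring⟩))
    exact ⟨f, ρ, h1, h2, h3, h4, fun p hp hpN => by rw [← hchar p hp hpN]; exact h5 p hp hpN,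
      fun p hp hpN => by rw [← hchar p hp hpN]; exact h6 p hp hpN, h7, h9⟩
  choose f ρ hopen hrange hirr hone hrel hloc hdet hker using hdata
  haveI : NeZero (4 * (81 * (n * k ^ 2))) := inferInstance
  refine ⟨4 * (81 * (n * k ^ 2)), inferInstance, f,
    linearIndependent_of_relations f (fun p => (jacobiSym (-(n : ℤ)) p : ℂ)) hone hrel ?_,
    fun i => ⟨hone i, hrel i, ρ i, hopen i, hrange i, hirr i, hloc i⟩⟩
  intro i j hij
  -- an element in the kernel of `ρ j` and not of `ρ i`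
  obtain ⟨c, hc⟩ := hπ (Pi.mulSingle i (Multiplicative.ofAdd 1))
  obtain ⟨σ, rfl⟩ := hθ c
  have hj : ρ j σ = 1 := (hker j σ).2 (by simp [ev, hc, Pi.mulSingle_eq_of_ne (Ne.symm hij)])
  have hi : ρ i σ ≠ 1 := fun e => by
    have h1 := (hker i σ).1 e
    haveI : Fact (1 < m) := ⟨by omega⟩
    simp [ev, hc] at h1
  obtain ⟨di, hdi, hdi'⟩ := hdet i
  obtain ⟨dj, hdj, hdj'⟩ := hdet j
  have hσd : (σ : GQ) di = di := by
    have hσj := (hdj' σ).1 (by rw [hj, Units.val_one, Matrix.det_one])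
    rcases eq_or_eq_neg_of_sq_eq_sq di dj (hdi.trans hdj.symm) with rfl | rfl
    · exact hσj
    · rw [map_neg, hσj]
  obtain ⟨e⟩ := hrange i
  obtain ⟨e'⟩ := hrange j
  haveI : Finite (ρ i).range := Finite.of_equiv _ e.symm.toEquiv
  haveI : Finite (ρ j).range := Finite.of_equiv _ e'.symm.toEquiv
  have htr : ((ρ i σ : GL (Fin 2) ℂ) : Matrix (Fin 2) (Fin 2) ℂ).trace ≠ 2 := fun ht => by
    refine hi (Units.ext (eq_one_of_trace_two ht ((hdi' σ).2 hσd)
      (orderOf_pos ((ρ i).rangeRestrict σ)).ne' ?_))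
    have h1 := congrArg (fun x : (ρ i).range => ((x : GL (Fin 2) ℂ) : Matrix (Fin 2) (Fin 2) ℂ))
      (pow_orderOf_eq_one ((ρ i).rangeRestrict σ))
    simp only [SubmonoidClass.coe_pow, Units.val_pow_eq_pow_val, MonoidHom.coe_rangeRestrict,
      OneMemClass.coe_one, Units.val_one] at h1
    exact h1
  set Φ := (ρ i).rangeRestrict.prod (ρ j).rangeRestrict
  have hΦ : IsOpen (Φ.ker : Set GQ) := by
    rw [show (Φ.ker : Set GQ) = ((ρ i).ker : Set GQ) ∩ ((ρ j).ker : Set GQ) by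
      ext x; simp [Φ, MonoidHom.mem_ker, Prod.ext_iff, Subtype.ext_iff]]
    exact (hopen i).inter (hopen j)
  obtain ⟨p, hp, hpS, hF⟩ := FA.OpenImageAll.exists_frobenius_mem_of_mem Φ hΦ
    (X := {g | ((g.1 : GL (Fin 2) ℂ) : Matrix (Fin 2) (Fin 2) ℂ).trace =
        ((ρ i σ : GL (Fin 2) ℂ) : Matrix (Fin 2) (Fin 2) ℂ).trace ∧
      ((g.2 : GL (Fin 2) ℂ) : Matrix (Fin 2) (Fin 2) ℂ).trace = 2})
    (fun g hg x => by
      refine ⟨?_, ?_⟩
      · rw [Prod.fst_mul, Prod.fst_mul, Prod.fst_inv, Subgroup.coe_mul, Subgroup.coe_mul,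
          Subgroup.coe_inv, Units.val_mul, Units.val_mul, Matrix.trace_units_conj]
        exact hg.1
      · rw [Prod.snd_mul, Prod.snd_mul, Prod.snd_inv, Subgroup.coe_mul, Subgroup.coe_mul,
          Subgroup.coe_inv, Units.val_mul, Units.val_mul, Matrix.trace_units_conj]
        exact hg.2)
    (σ := σ) ⟨rfl, by simp [Φ, hj]⟩ (4 * (81 * (n * k ^ 2))).divisors
  have hpN : ¬ p ∣ 4 * (81 * (n * k ^ 2)) := fun hd =>
    hpS (Nat.mem_divisors.2 ⟨hd, NeZero.ne _⟩)
  obtain ⟨A, hA⟩ := FA.Deform.exists_liesOverPrime hp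
  obtain ⟨τ, hτ⟩ := FA.Deform.exists_isFrobeniusAt hp hA
  obtain ⟨h1, h2⟩ := hF A hA τ hτ
  refine ⟨p, hp, hpN, fun heq => htr ?_⟩
  have h1' : ((ρ i τ : GL (Fin 2) ℂ) : Matrix (Fin 2) (Fin 2) ℂ).trace =
      ((ρ i σ : GL (Fin 2) ℂ) : Matrix (Fin 2) (Fin 2) ℂ).trace := h1
  have h2' : ((ρ j τ : GL (Fin 2) ℂ) : Matrix (Fin 2) (Fin 2) ℂ).trace = 2 := h2
  rw [((hloc i p hp hpN A hA).2 τ hτ).1] at h1'
  rw [((hloc j p hp hpN A hA).2 τ hτ).1] at h2'
  rw [← h1', heq, h2']

/-- **The dimension of `S₁(Γ₁(N))` is unbounded.** -/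
theorem rank_unbounded (B : ℕ) :
    ∃ (N : ℕ) (_ : NeZero N), (B : Cardinal) ≤ Module.rank ℂ (CuspForm (Gamma1 N) 1) := by
  obtain ⟨N, hN, f, hf, -⟩ := exists_independent_forms 1 3 le_rfl B
  exact ⟨N, hN, by simpa using hf.cardinal_lift_le_rank⟩

end FA.DihedralIndependent

end
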