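import Fermat.Agent.Tau.GaussianClassQuotient
import Fermat.Agent.Tau.GaloisModuli
import Fermat.Agent.Root.SummaryArtinDihedral
import Mathlib.GroupTheory.SpecificGroups.Dihedral

/-!
# Modular Artin representations with dihedral image of every order

The ring class field of a suitable `ℤ[f i]` maps onto the dihedral group of order `2 m`; composed
with its plane representation this gives a representation of `G_ℚ` attached to a weight one theta
series.
-/

set_option autoImplicit false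
set_option linter.style.haveILetI false

noncomputable section

namespace FA.DihedralModular

open FA.OrderTheta FA.GaloisModuli NumberField
open CongruenceSubgroup (Gamma1)
open scoped MatrixGroups

local notation "Qb" => AlgebraicClosure ℚ
local notation "GQ" => AlgebraicClosure ℚ ≃ₐ[ℚ] AlgebraicClosure ℚ

variable {m : ℕ} [NeZero m]

/-- The matrices of the plane representation. -/
def planeMat : DihedralGroup m → Matrix (Fin 2) (Fin 2) ℂ
  | .r i => !![ZMod.stdAddChar i, 0; 0, ZMod.stdAddChar (-i)]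
  | .sr i => !![0, ZMod.stdAddChar (-i); ZMod.stdAddChar i, 0]

/-- The plane representation. -/
def plane : DihedralGroup m →* GL (Fin 2) ℂ :=
  ({ toFun := planeMat
     map_one' := by
       show planeMat (.r 0) = 1
       simp [planeMat, Matrix.one_fin_two]
     map_mul' := fun a b => by
       rcases a with i | i <;> rcases b with j | j
       · rw [DihedralGroup.r_mul_r]
         simp [planeMat, ← AddChar.map_add_eq_mul]
         rw [add_comm]
       · rw [DihedralGroup.r_mul_sr]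
         simp [planeMat, ← AddChar.map_add_eq_mul, sub_eq_add_neg, add_comm]
       · rw [DihedralGroup.sr_mul_r]
         simp [planeMat, ← AddChar.map_add_eq_mul, add_comm]
       · rw [DihedralGroup.sr_mul_sr]
         simp [planeMat, ← AddChar.map_add_eq_mul, sub_eq_add_neg, add_comm] } :
    DihedralGroup m →* Matrix (Fin 2) (Fin 2) ℂ).toHomUnits

theorem coe_plane (g : DihedralGroup m) :
    ((plane g : GL (Fin 2) ℂ) : Matrix (Fin 2) (Fin 2) ℂ) = planeMat g := rfl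

theorem stdAddChar_ne_zero (i : ZMod m) : ZMod.stdAddChar i ≠ 0 := fun h => by
  have h' := ZMod.stdAddChar.map_add_eq_mul i (-i)
  rw [h, zero_mul, add_neg_cancel, AddChar.map_zero_eq_one] at h'
  exact one_ne_zero h'

theorem plane_injective : Function.Injective (plane (m := m)) := by
  intro a b h
  have h' : planeMat a = planeMat b := congrArg Units.val h
  rcases a with i | i <;> rcases b with j | j
  · exact congrArg _ (ZMod.injective_stdAddChar (by simpa [planeMat] using congrFun₂ h' 0 0))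
  · exact absurd (by simpa [planeMat] using congrFun₂ h' 0 0) (stdAddChar_ne_zero i)
  · exact absurd (by simpa [planeMat] using (congrFun₂ h' 0 0).symm) (stdAddChar_ne_zero j)
  · exact congrArg _ (ZMod.injective_stdAddChar (by simpa [planeMat] using congrFun₂ h' 1 0))

theorem det_planeMat_r (i : ZMod m) : (planeMat (.r i)).det = 1 := by
  simp [planeMat, ← AddChar.map_add_eq_mul]

theorem det_planeMat_sr (i : ZMod m) : (planeMat (.sr i)).det = -1 := by
  simp [planeMat, ← AddChar.map_add_eq_mul]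

/-- The plane representation is irreducible for `m ≥ 3`. -/
theorem plane_irreducible (hm : 3 ≤ m) (v : Fin 2 → ℂ) (hv : v ≠ 0) :
    ∃ g : DihedralGroup m, ∀ μ : ℂ, Matrix.mulVec (planeMat g) v ≠ μ • v := by
  by_contra hcon
  push Not at hcon
  obtain ⟨μ, hμ⟩ := hcon (.r 1)
  obtain ⟨ν, hν⟩ := hcon (.sr 0)
  have e0 := congrFun hμ 0
  have e1 := congrFun hμ 1
  have f0 := congrFun hν 0
  have f1 := congrFun hν 1
  simp [planeMat, Matrix.mulVec, dotProduct, Fin.sum_univ_two] at e0 e1 f0 f1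
  by_cases h0 : v 0 = 0
  · refine hv (funext fun i => ?_)
    fin_cases i
    · exact h0
    · simpa [h0] using f0
  by_cases h1 : v 1 = 0
  · exact h0 (by simpa [h1] using f1)
  have heq : ZMod.stdAddChar (1 : ZMod m) = ZMod.stdAddChar (-1 : ZMod m) := by
    rw [e0.resolve_right h0, e1.resolve_right h1]
  have h2 := ZMod.injective_stdAddChar heq
  have h3 : ((2 : ℕ) : ZMod m) = 0 := by push_cast; linear_combination h2
  rw [ZMod.natCast_eq_zero_iff] at h3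
  exact absurd (Nat.le_of_dvd two_pos h3) (by omega)

/-- A homomorphism onto the dihedral group from an inverting extension. -/
theorem exists_toDihedral {G : Type*} [Group G] (N : Subgroup G)
    (φ : N →* Multiplicative (ZMod m)) (hφ : Function.Surjective φ) {t : G} (ht : t ∉ N)
    (hidx : ∀ g, g ∉ N → t * g ∈ N) (hinv : ∀ g, g ∉ N → g * g = 1) :
    ∃ π : G →* DihedralGroup m, Function.Surjective π ∧
      (∀ g, (planeMat (π g)).det = 1 ↔ g ∈ N) ∧ ∀ a : N, π a = 1 ↔ φ a = 1 := by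
  classical
  have htt := hinv t ht
  let F : G → DihedralGroup m := fun g =>
    if h : g ∈ N then .r (Multiplicative.toAdd (φ ⟨g, h⟩))
    else .sr (Multiplicative.toAdd (φ ⟨t * g, hidx g h⟩))
  have hFr : ∀ a : N, F a = .r (Multiplicative.toAdd (φ a)) := fun a => by simp [F]
  have hFs : ∀ a : N, F (t * a) = .sr (Multiplicative.toAdd (φ a)) := fun a => by
    have h : t * (a : G) ∉ N := fun h => ht (by simpa using mul_mem h (inv_mem a.2))
    simp only [F, dif_neg h]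
    congr 3
    exact Subtype.ext (show t * (t * (a : G)) = a by rw [← mul_assoc, htt, one_mul])
  have hcases : ∀ g : G, (∃ a : N, g = a) ∨ ∃ a : N, g = t * a := fun g => by
    by_cases h : g ∈ N
    · exact Or.inl ⟨⟨g, h⟩, rfl⟩
    · exact Or.inr ⟨⟨t * g, hidx g h⟩, by show g = t * (t * g); rw [← mul_assoc, htt, one_mul]⟩
  have hswap : ∀ a : N, (a : G) * t = t * ((a⁻¹ : N) : G) := fun a => by
    have h : t * ((a⁻¹ : N) : G) ∉ N := fun h => ht (by simpa using mul_mem h a.2)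
    have h1 := hinv _ h
    calc (a : G) * t = (a : G) * t * (t * ((a⁻¹ : N) : G) * (t * ((a⁻¹ : N) : G))) := by
          rw [h1, mul_one]
      _ = (a : G) * (t * t) * ((a⁻¹ : N) : G) * (t * ((a⁻¹ : N) : G)) := by simp only [mul_assoc]
      _ = t * ((a⁻¹ : N) : G) := by rw [htt, mul_one, Subgroup.coe_inv, mul_inv_cancel, one_mul]
  refine ⟨MonoidHom.mk' F fun g h => ?_, fun x => ?_, fun g => ?_, fun a => ?_⟩
  · rcases hcases g with ⟨a, rfl⟩ | ⟨a, rfl⟩ <;> rcases hcases h with ⟨b, rfl⟩ | ⟨b, rfl⟩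
    · rw [← Subgroup.coe_mul, hFr, hFr, hFr, map_mul, toAdd_mul, DihedralGroup.r_mul_r]
    · rw [← mul_assoc, hswap, mul_assoc, ← Subgroup.coe_mul, hFr, hFs, hFs, map_mul, map_inv,
        toAdd_mul, toAdd_inv, DihedralGroup.r_mul_sr, sub_eq_add_neg, add_comm]
    · rw [mul_assoc, ← Subgroup.coe_mul, hFs, hFr, hFs, map_mul, toAdd_mul, DihedralGroup.sr_mul_r]
    · rw [mul_assoc, ← mul_assoc (a : G), hswap, mul_assoc, ← mul_assoc t t, htt, one_mul,
        ← Subgroup.coe_mul, hFr, hFs, hFs, map_mul, map_inv, toAdd_mul, toAdd_inv,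
        DihedralGroup.sr_mul_sr, sub_eq_add_neg, add_comm]
  · rcases x with i | i
    · obtain ⟨a, ha⟩ := hφ (Multiplicative.ofAdd i)
      exact ⟨a, by show F a = _; rw [hFr, ha, toAdd_ofAdd]⟩
    · obtain ⟨a, ha⟩ := hφ (Multiplicative.ofAdd i)
      exact ⟨t * a, by show F (t * a) = _; rw [hFs, ha, toAdd_ofAdd]⟩
  · show (planeMat (F g)).det = 1 ↔ g ∈ N
    by_cases h : g ∈ N
    · simp [F, h, det_planeMat_r]
    · simp [F, h, det_planeMat_sr]; norm_num
  · show F a = DihedralGroup.r 0 ↔ _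
    rw [hFr, DihedralGroup.r.injEq, toAdd_eq_zero]

omit [NeZero m]

/-- The symbol `(-f²/p)`. -/
theorem jacobiSym_neg_sq {f p : ℕ} (h : p.Coprime f) :
    jacobiSym (-((f ^ 2 : ℕ) : ℤ)) p = jacobiSym (-1) p := by
  rw [show -((f ^ 2 : ℕ) : ℤ) = (-1) * (f : ℤ) ^ 2 by push_cast; ring, jacobiSym.mul_left,
    jacobiSym.sq_one' (show Int.gcd (f : ℤ) p = 1 from h.symm), mul_one]

/-- **Weight one forms with dihedral image from every cyclic quotient of the class group of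
`ℤ[√-n]`**, the kernels being read off a surjection of a subgroup of `G_ℚ` onto the class group. -/
theorem exists_weightOne_of_quotients (n : ℕ) [NeZero n] :
    ∃ (D : Subgroup GQ) (θ : D →* Cl n), Function.Surjective θ ∧
      ∀ {m : ℕ}, 3 ≤ m → ∀ π₀ : Cl n →* Multiplicative (ZMod m), Function.Surjective π₀ →
        ∃ (N : ℕ) (_ : NeZero N) (f : CuspForm (Gamma1 N) 1) (ρ : GQ →* GL (Fin 2) ℂ),
          N = 4 * (81 * n) ∧ IsOpen (ρ.ker : Set GQ) ∧ Nonempty (ρ.range ≃* DihedralGroup m) ∧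
          (∀ v : Fin 2 → ℂ, v ≠ 0 → ∃ σ, ∀ μ : ℂ,
            Matrix.mulVec ((ρ σ : GL (Fin 2) ℂ) : Matrix (Fin 2) (Fin 2) ℂ) v ≠ μ • v) ∧
          ModularFormClass.qCoeff f 1 = 1 ∧
          (∀ p : ℕ, p.Prime → ¬ p ∣ N → ∀ k : ℕ,
            ModularFormClass.qCoeff f (p * k) +
                (jacobiSym (-(n : ℤ)) p : ℂ) *
                  (if p ∣ k then ModularFormClass.qCoeff f (k / p) else 0) =
              ModularFormClass.qCoeff f p * ModularFormClass.qCoeff f k) ∧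
          (∀ p : ℕ, p.Prime → ¬ p ∣ N → ∀ A : ValuationSubring Qb, A.LiesOverPrime p →
            (∀ σ ∈ A.inertiaSubgroupIn ℚ, ρ σ = 1) ∧
            ∀ σ : GQ, A.IsFrobeniusAt σ p →
              ((ρ σ : GL (Fin 2) ℂ) : Matrix (Fin 2) (Fin 2) ℂ).trace =
                ModularFormClass.qCoeff f p ∧
              ((ρ σ : GL (Fin 2) ℂ) : Matrix (Fin 2) (Fin 2) ℂ).det =
                (jacobiSym (-(n : ℤ)) p : ℂ)) ∧
          (∃ d : Qb, d ^ 2 = -(n : Qb) ∧ ∀ σ : GQ,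
            ((ρ σ : GL (Fin 2) ℂ) : Matrix (Fin 2) (Fin 2) ℂ).det = 1 ↔ σ d = d) ∧
          (∃ F : ℂ → ℂ, Differentiable ℂ F ∧ ∀ Fr : Nat.Primes → GQ,
            (∀ p : Nat.Primes, ¬ (p : ℕ) ∣ N → ∃ A : ValuationSubring Qb,
              A.LiesOverPrime (p : ℕ) ∧ A.IsFrobeniusAt (Fr p) (p : ℕ)) →
            ∀ s : ℂ, 1 < s.re → HasProd (fun p : {p : Nat.Primes // ¬ (p : ℕ) ∣ N} =>
              ((1 - ((p.1 : ℕ) : ℂ) ^ (-s) •
                ((ρ (Fr p.1) : GL (Fin 2) ℂ) : Matrix (Fin 2) (Fin 2) ℂ)).det)⁻¹) (F s)) ∧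
          ∀ σ : D, ρ σ = 1 ↔ π₀ (θ σ) = 1 := by
  classical
  obtain ⟨L, hfin, hgal, d, hd, hdeg, -, -, R, res, hsurj, hres1, hres⟩ := exists_ringClassField n
  haveI hLn : Normal ℚ L := IsGalois.to_normal
  haveI : Normal ℚ R.L := IsGalois.to_normal
  -- the class group as a subgroup of the Galois group
  obtain ⟨Φ, hΦ, hΦker⟩ := @exists_hom (R.L ≃ₐ[ℚ] R.L) (Cl (81 * n)) _ _ _ _ R.W (Cl n) _ _
    (extCls n) (extCls_surjective n)
  have hfix := fixes_iff R res hres hd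
  let St := MulAction.stabilizer (L ≃ₐ[ℚ] L) d
  let ψ₀ : R.W.H →* St :=
    (res.comp R.W.H.subtype).codRestrict _ fun g => MulAction.mem_stabilizer_iff.2 ((hfix g).2 g.2)
  have hψ₀ : Function.Surjective ψ₀ := fun s => by
    obtain ⟨g, hg⟩ := hsurj s.1
    exact ⟨⟨g, (hfix g).1 (by rw [hg]; exact s.2)⟩, Subtype.ext hg⟩
  have hψker : ∀ g, ψ₀ g = 1 ↔ extCls n (R.W.cl g) = 1 := fun g => by
    rw [Subtype.ext_iff]
    show res g.1 = 1 ↔ _
    rw [hres1]
    show (g : R.L ≃ₐ[ℚ] R.L) ∈ R.classSet 1 ↔ _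
    simp only [ClassData.classSet, inv_one, or_self, Set.mem_ofPred_eq]
    exact ⟨fun ⟨_, h⟩ => h, fun h => ⟨g.2, h⟩⟩
  have hkers : ψ₀.ker = Φ.ker := Subgroup.ext fun g => (hψker g).trans (hΦker g).symm
  let e : St ≃* Cl n :=
    ((QuotientGroup.quotientKerEquivOfSurjective ψ₀ hψ₀).symm.trans
      (QuotientGroup.quotientMulEquivOfEq hkers)).trans
      (QuotientGroup.quotientKerEquivOfSurjective Φ hΦ)
  obtain ⟨h₀, hh₀⟩ := SetLike.exists_not_mem_of_ne_top R.W.H R.W.ne_top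
  have hinv : ∀ g : L ≃ₐ[ℚ] L, g ∉ St → g * g = 1 := fun g hg => by
    obtain ⟨g', rfl⟩ := hsurj g
    rw [← map_mul, R.W.sq_of_notMem fun h => hg ((hfix g').2 h), map_one]
  have hidx : ∀ g : L ≃ₐ[ℚ] L, g ∉ St → res h₀ * g ∈ St := fun g hg => by
    obtain ⟨g', rfl⟩ := hsurj g
    rw [← map_mul]
    exact (hfix _).2 (R.W.mul_mem_of_notMem hh₀ fun h => hg ((hfix g').2 h))
  have hrs : Function.Surjective (AlgEquiv.restrictNormalHom (F := ℚ) (K₁ := Qb) L) :=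
    AlgEquiv.restrictNormalHom_surjective Qb
  refine ⟨St.comap (AlgEquiv.restrictNormalHom L),
    e.toMonoidHom.comp ((AlgEquiv.restrictNormalHom L).subgroupComap St),
    e.surjective.comp (MonoidHom.subgroupComap_surjective_of_surjective _ St hrs), ?_⟩
  intro m hm π₀ hπ₀
  haveI : NeZero m := ⟨by omega⟩
  obtain ⟨π, hπ, hπdet, hπker⟩ := exists_toDihedral St (π₀.comp e.toMonoidHom)
    (hπ₀.comp e.surjective)
    (fun h => hh₀ ((hfix h₀).1 h)) hidx hinv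
  let ρ : GQ →* GL (Fin 2) ℂ := plane.comp (π.comp (AlgEquiv.restrictNormalHom L))
  have hρsurj : Function.Surjective (π.comp (AlgEquiv.restrictNormalHom (F := ℚ) (K₁ := Qb) L)) :=
    hπ.comp (AlgEquiv.restrictNormalHom_surjective Qb)
  let M₀ : (L ≃ₐ[ℚ] L) →* Matrix (Fin 2) (Fin 2) ℂ :=
    (Units.coeHom _).comp (plane.comp π)
  obtain ⟨ψ, hψ⟩ := R.W.exists_eq_trace_det (M₀.comp res) fun v hv => by
    obtain ⟨x, hx⟩ := plane_irreducible hm v hv
    obtain ⟨g, rfl⟩ := hπ x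
    obtain ⟨g', rfl⟩ := hsurj g
    exact ⟨g', hx⟩
  have hn1 : 1 < 81 * n := by have := NeZero.pos n; omega
  let _ : Fintype (Cl (81 * n)) := Fintype.ofFinite _
  haveI : NeZero (4 * (81 * n)) := ⟨by omega⟩
  obtain ⟨f, hf, hf1, hrel⟩ := exists_weightOne hn1 ψ.1 ψ.2
  have h6 : ∀ p : ℕ, ¬ p ∣ 4 * (81 * n) → ¬ p ∣ 6 * n := fun p hp h =>
    hp (h.trans ⟨54, by ring⟩)
  have hchar : ∀ p : ℕ, p.Prime → ¬ p ∣ 4 * (81 * n) →
      signChar (81 * n) (p : ZMod (4 * (81 * n))) = (jacobiSym (-(n : ℤ)) p : ℂ) :=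
    fun p hp hpn => by
    rw [signChar_eightyOne hp (h6 p hpn)]
  have hloc : ∀ p : ℕ, p.Prime → ¬ p ∣ 4 * (81 * n) → ∀ A : ValuationSubring Qb,
      A.LiesOverPrime p → (∀ σ ∈ A.inertiaSubgroupIn ℚ, ρ σ = 1) ∧
      ∀ σ : GQ, A.IsFrobeniusAt σ p →
        ((ρ σ : GL (Fin 2) ℂ) : Matrix (Fin 2) (Fin 2) ℂ).trace = ModularFormClass.qCoeff f p ∧
        ((ρ σ : GL (Fin 2) ℂ) : Matrix (Fin 2) (Fin 2) ℂ).det =
          (jacobiSym (-(n : ℤ)) p : ℂ) := by
    intro p hp hpn A hA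
    refine ⟨fun σ hσ => ?_, fun σ hσ => ?_⟩
    · show plane (π (AlgEquiv.restrictNormalHom L σ)) = 1
      rw [← hres, R.unram p hp hpn A hA σ hσ, map_one, map_one, map_one]
    · obtain ⟨ht, hdet⟩ := R.coefRel p hp hpn A hA σ hσ ψ
      rw [← (hψ _).1, MonoidHom.comp_apply, hres, ← hf] at ht
      rw [← (hψ _).2, MonoidHom.comp_apply, hres, hchar p hp hpn] at hdet
      exact ⟨ht, hdet⟩
  obtain ⟨F, hF, hFp⟩ := FA.Summary.weightOne_partial_LFunction_entire (4 * (81 * n))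
    (signChar (81 * n)) f hf1 hrel
  refine ⟨4 * (81 * n), inferInstance, f, ρ, rfl, ?_, ?_, fun v hv => ?_, hf1,
    fun p hp hpn j => ?_, hloc, ⟨(d : Qb), ?_, fun σ => ?_⟩, ⟨F, hF,
    fun Fr hFr s hs => (hFp s hs).congr_fun fun ⟨p, hpn⟩ => ?_⟩,
    fun σ => ?_⟩
  · refine Subgroup.isOpen_mono (fun σ hσ => ?_) (IntermediateField.fixingSubgroup_isOpen L)
    have h1 : AlgEquiv.restrictNormalHom L σ = 1 :=
      AlgEquiv.ext fun x => Subtype.ext ((AlgEquiv.restrictNormal_commutes σ L x).trans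
        ((IntermediateField.mem_fixingSubgroup_iff _ _).1 hσ x x.2))
    show plane (π (AlgEquiv.restrictNormalHom L σ)) = 1
    rw [h1, map_one, map_one]
  · refine ⟨(MulEquiv.subgroupCongr ?_).trans (MonoidHom.ofInjective plane_injective).symm⟩
    ext x
    refine ⟨fun ⟨σ, hσ⟩ => ⟨_, hσ⟩, fun ⟨y, hy⟩ => ?_⟩
    obtain ⟨σ, rfl⟩ := hρsurj y
    exact ⟨σ, hy⟩
  · obtain ⟨x, hx⟩ := plane_irreducible hm v hv
    obtain ⟨σ, rfl⟩ := hρsurj x
    exact ⟨σ, hx⟩
  · rw [← hchar p hp hpn]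
    exact hrel p hp hpn j
  · simpa using congrArg (Subtype.val : L → Qb) hd
  · show (planeMat (π (AlgEquiv.restrictNormalHom L σ))).det = 1 ↔ _
    rw [hπdet, MulAction.mem_stabilizer_iff, AlgEquiv.smul_def, ← Subtype.coe_inj]
    exact Eq.congr_left (AlgEquiv.restrictNormal_commutes σ L d)
  · obtain ⟨A, hA, hσ⟩ := hFr p hpn
    obtain ⟨htr, hdet⟩ := (hloc p p.2 hpn A hA).2 _ hσ
    rw [hchar p p.2 hpn, ← htr, ← hdet]
    congr 1
    rw [Matrix.det_fin_two, Matrix.det_fin_two, Matrix.trace_fin_two]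
    simp only [Matrix.sub_apply, Matrix.smul_apply, Matrix.one_apply_eq, smul_eq_mul,
      Matrix.one_apply_ne (show (0 : Fin 2) ≠ 1 by decide),
      Matrix.one_apply_ne (show (1 : Fin 2) ≠ 0 by decide)]
    ring
  · show plane (π (AlgEquiv.restrictNormalHom L σ.1)) = 1 ↔ _
    rw [map_eq_one_iff plane plane_injective]
    exact hπker ((AlgEquiv.restrictNormalHom L).subgroupComap St σ)

/-- **Weight one forms with dihedral image from a cyclic quotient of the class group of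
`ℤ[√-n]`.** -/
theorem exists_weightOne_of_quotient {m : ℕ} (hm : 3 ≤ m) (n : ℕ) [NeZero n]
    (π₀ : Cl n →* Multiplicative (ZMod m)) (hπ₀ : Function.Surjective π₀) :
    ∃ (N : ℕ) (_ : NeZero N) (f : CuspForm (Gamma1 N) 1) (ρ : GQ →* GL (Fin 2) ℂ),
      n ∣ N ∧ IsOpen (ρ.ker : Set GQ) ∧ Nonempty (ρ.range ≃* DihedralGroup m) ∧
      (∀ v : Fin 2 → ℂ, v ≠ 0 → ∃ σ, ∀ μ : ℂ,
        Matrix.mulVec ((ρ σ : GL (Fin 2) ℂ) : Matrix (Fin 2) (Fin 2) ℂ) v ≠ μ • v) ∧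
      ModularFormClass.qCoeff f 1 = 1 ∧
      (∀ p : ℕ, p.Prime → ¬ p ∣ N → ∀ k : ℕ,
        ModularFormClass.qCoeff f (p * k) +
            (jacobiSym (-(n : ℤ)) p : ℂ) *
              (if p ∣ k then ModularFormClass.qCoeff f (k / p) else 0) =
          ModularFormClass.qCoeff f p * ModularFormClass.qCoeff f k) ∧
      (∀ p : ℕ, p.Prime → ¬ p ∣ N → ∀ A : ValuationSubring Qb, A.LiesOverPrime p →
        (∀ σ ∈ A.inertiaSubgroupIn ℚ, ρ σ = 1) ∧
        ∀ σ : GQ, A.IsFrobeniusAt σ p →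
          ((ρ σ : GL (Fin 2) ℂ) : Matrix (Fin 2) (Fin 2) ℂ).trace = ModularFormClass.qCoeff f p ∧
          ((ρ σ : GL (Fin 2) ℂ) : Matrix (Fin 2) (Fin 2) ℂ).det =
            (jacobiSym (-(n : ℤ)) p : ℂ)) ∧
      (∃ d : Qb, d ^ 2 = -(n : Qb) ∧ ∀ σ : GQ,
        ((ρ σ : GL (Fin 2) ℂ) : Matrix (Fin 2) (Fin 2) ℂ).det = 1 ↔ σ d = d) ∧
      ∃ F : ℂ → ℂ, Differentiable ℂ F ∧ ∀ Fr : Nat.Primes → GQ,
        (∀ p : Nat.Primes, ¬ (p : ℕ) ∣ N → ∃ A : ValuationSubring Qb,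
          A.LiesOverPrime (p : ℕ) ∧ A.IsFrobeniusAt (Fr p) (p : ℕ)) →
        ∀ s : ℂ, 1 < s.re → HasProd (fun p : {p : Nat.Primes // ¬ (p : ℕ) ∣ N} =>
          ((1 - ((p.1 : ℕ) : ℂ) ^ (-s) •
            ((ρ (Fr p.1) : GL (Fin 2) ℂ) : Matrix (Fin 2) (Fin 2) ℂ)).det)⁻¹) (F s) := by
  obtain ⟨D, θ, -, h⟩ := exists_weightOne_of_quotients n
  obtain ⟨N, hN, f, ρ, h1, h2, h3, h4, h5, h6, h7, h8, h9, -⟩ := h hm π₀ hπ₀
  exact ⟨N, hN, f, ρ, ⟨324, by rw [h1]; ring⟩, h2, h3, h4, h5, h6, h7, h8, h9⟩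

/-- **Weight one forms with dihedral image of every order.** -/
theorem exists_weightOne_dihedral (m : ℕ) (hm : 3 ≤ m) :
    ∃ (N : ℕ) (_ : NeZero N) (f : CuspForm (Gamma1 N) 1) (ρ : GQ →* GL (Fin 2) ℂ),
      IsOpen (ρ.ker : Set GQ) ∧ Nonempty (ρ.range ≃* DihedralGroup m) ∧
      (∀ v : Fin 2 → ℂ, v ≠ 0 → ∃ σ, ∀ μ : ℂ,
        Matrix.mulVec ((ρ σ : GL (Fin 2) ℂ) : Matrix (Fin 2) (Fin 2) ℂ) v ≠ μ • v) ∧
      ModularFormClass.qCoeff f 1 = 1 ∧
      (∀ p : ℕ, p.Prime → ¬ p ∣ N → ∀ k : ℕ,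
        ModularFormClass.qCoeff f (p * k) +
            (jacobiSym (-1) p : ℂ) * (if p ∣ k then ModularFormClass.qCoeff f (k / p) else 0) =
          ModularFormClass.qCoeff f p * ModularFormClass.qCoeff f k) ∧
      (∀ p : ℕ, p.Prime → ¬ p ∣ N → ∀ A : ValuationSubring Qb, A.LiesOverPrime p →
        (∀ σ ∈ A.inertiaSubgroupIn ℚ, ρ σ = 1) ∧
        ∀ σ : GQ, A.IsFrobeniusAt σ p →
          ((ρ σ : GL (Fin 2) ℂ) : Matrix (Fin 2) (Fin 2) ℂ).trace = ModularFormClass.qCoeff f p ∧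
          ((ρ σ : GL (Fin 2) ℂ) : Matrix (Fin 2) (Fin 2) ℂ).det = (jacobiSym (-1) p : ℂ)) ∧
      ∃ F : ℂ → ℂ, Differentiable ℂ F ∧ ∀ Fr : Nat.Primes → GQ,
        (∀ p : Nat.Primes, ¬ (p : ℕ) ∣ N → ∃ A : ValuationSubring Qb,
          A.LiesOverPrime (p : ℕ) ∧ A.IsFrobeniusAt (Fr p) (p : ℕ)) →
        ∀ s : ℂ, 1 < s.re → HasProd (fun p : {p : Nat.Primes // ¬ (p : ℕ) ∣ N} =>
          ((1 - ((p.1 : ℕ) : ℂ) ^ (-s) •
            ((ρ (Fr p.1) : GL (Fin 2) ℂ) : Matrix (Fin 2) (Fin 2) ℂ)).det)⁻¹) (F s) := by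
  haveI : NeZero m := ⟨by omega⟩
  obtain ⟨k, hk, π₀, hπ₀⟩ := FA.GaussianClass.exists_cl_surjection (Multiplicative (ZMod m))
  obtain ⟨N, hN, f, ρ, hdvd, h1, h2, h3, h4, h5, h6, -, hF⟩ :=
    exists_weightOne_of_quotient hm (k ^ 2) π₀ hπ₀
  have hchar : ∀ p : ℕ, p.Prime → ¬ p ∣ N →
      jacobiSym (-((k ^ 2 : ℕ) : ℤ)) p = jacobiSym (-1) p := fun p hp h =>
    jacobiSym_neg_sq ((Nat.Prime.coprime_iff_not_dvd hp).2 fun hpk =>
      h ((hpk.trans (dvd_pow_self k two_ne_zero)).trans hdvd))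
  refine ⟨N, hN, f, ρ, h1, h2, h3, h4, fun p hp hpn => ?_, fun p hp hpn => ?_, hF⟩
  · rw [← hchar p hp hpn]; exact h5 p hp hpn
  · rw [← hchar p hp hpn]; exact h6 p hp hpn

end FA.DihedralModular

end
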