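import Fermat.Agent.Tau.ReduciblePrimes
import Fermat.Agent.Tau.ModTwentyFour
import Fermat.Agent.Tau.TwentyThree

/-!
# The primes at which `Δ` is dihedral

If `p` divides `τ(n)` at every non-residue `n` then `θ ^ ((p + 1) / 2) Δ = θ Δ`, which the
filtration forbids for `p ≥ 25`. The primes that do occur are `2, 3, 7, 23`.
-/

set_option autoImplicit false

noncomputable section

namespace FA.SwinnertonDyer

open FA.Tau
open PowerSeries (coeff)
open scoped ArithmeticFunction.sigma

variable {p : ℕ} [Fact p.Prime]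

theorem tau_three : coeff 3 deltaInt = 252 := by
  have h := congrArg (coeff 3) theta_delta
  rw [thetaInt, PowerSeries.coeff_mk, PowerSeries.coeff_mul, Finset.Nat.sum_antidiagonal_succ,
    Finset.Nat.sum_antidiagonal_succ, Finset.Nat.sum_antidiagonal_succ,
    Finset.Nat.antidiagonal_zero, Finset.sum_singleton, coeff_deltaInt_zero,
    coeff_deltaInt_one, tau_two] at h
  simp [eTwoInt, ArithmeticFunction.sigma_apply, Nat.prime_two.divisors] at h
  linarith

/-- No dihedral prime from `25` on. -/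
theorem lt_of_dihedral (h5 : 5 ≤ p)
    (h : ∀ n : ℕ, ¬IsSquare (n : ZMod p) → ((coeff n deltaInt : ℤ) : ZMod p) = 0) : p < 25 := by
  by_contra! h25
  obtain ⟨m, hm⟩ := (Fact.out : p.Prime).odd_of_ne_two (by omega)
  have hd1 : coeff 1 (FA.Partition.deltaPow p 1) = 1 := FA.Partition.coeff_deltaPow 1
  have hΔ : IsLeast {n | IsFormModP p n (FA.Partition.deltaPow p 1)} 12 :=
    ⟨FA.Partition.isFormModP_deltaPow h5 1, fun n hn => FA.Partition.weight_ge h5 hn
      (by rw [FA.Partition.deltaPow_eq]; exact dvd_mul_right _ _) (ne_zero_of_coeff_one hd1)⟩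
  have hdrop : ∀ j ≤ m + 1, ∀ i < j, ¬p ∣ 12 + i := fun j hj i hi hd => by
    have := Nat.le_of_dvd (by omega) hd
    omega
  have h1 := isLeast_theta_iterate h5 hd1 hΔ 1 (hdrop 1 (by omega))
  have hm1 := isLeast_theta_iterate h5 hd1 hΔ (m + 1) (hdrop _ le_rfl)
  have e : (thetaP p)^[m + 1] (FA.Partition.deltaPow p 1) =
      (thetaP p)^[1] (FA.Partition.deltaPow p 1) := by
    ext n
    rw [FA.Partition.coeff_thetaP_iterate, FA.Partition.coeff_thetaP_iterate, pow_succ, pow_one]
    rcases eq_or_ne (n : ZMod p) 0 with h0 | h0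
    · rw [h0, mul_zero, zero_mul]
    by_cases hsq : IsSquare (n : ZMod p)
    · rw [show (n : ZMod p) ^ m = 1 by
        rw [show m = p / 2 by omega]; exact (ZMod.euler_criterion p h0).1 hsq, one_mul]
    · rw [FA.Partition.deltaPow, pow_one, PowerSeries.coeff_map, eq_intCast, h n hsq]
      simp
  rw [e] at hm1
  have := hm1.unique h1
  rw [Nat.add_left_cancel_iff] at this
  have := Nat.eq_of_mul_eq_mul_right (by omega) this
  omega

/-- The dihedral primes. -/
theorem eq_of_dihedral
    (h : ∀ n : ℕ, ¬IsSquare (n : ZMod p) → ((coeff n deltaInt : ℤ) : ZMod p) = 0) :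
    p = 2 ∨ p = 3 ∨ p = 7 ∨ p = 23 := by
  have hp : p.Prime := Fact.out
  by_cases h5 : 5 ≤ p
  swap
  · have := hp.two_le
    interval_cases p <;> first | omega | exact absurd hp (by decide)
  have h25 := lt_of_dihedral h5 h
  have key : ∀ n : ℕ, n ^ (p / 2) % p ≠ 1 → ¬p ∣ n → (p : ℤ) ∣ coeff n deltaInt := fun n hn h0 =>
    (ZMod.intCast_zmod_eq_zero_iff_dvd _ p).1 (h n fun hsq => hn (by
      have e := (ZMod.euler_criterion p fun e => h0 ((ZMod.natCast_eq_zero_iff n p).1 e)).1 hsq
      have e' : ((n ^ (p / 2) : ℕ) : ZMod p) = ((1 : ℕ) : ZMod p) := by push_cast; exact e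
      rw [ZMod.natCast_eq_natCast_iff'] at e'
      rw [e', Nat.mod_eq_of_lt (by omega)]))
  interval_cases p <;> first
    | omega
    | exact absurd hp (by decide)
    | exact absurd (key 2 (by decide) (by decide)) (by rw [tau_two]; norm_num)
    | exact absurd (key 3 (by decide) (by decide)) (by rw [tau_three]; norm_num)

theorem coeff_deltaInt_three_eq_zero {n : ℕ} (h : ¬IsSquare (n : ZMod 3)) :
    ((coeff n deltaInt : ℤ) : ZMod 3) = 0 := by
  have h23 : ∀ x : ZMod 3, ¬IsSquare x → x = 2 := by decide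
  have h00 : ∀ x : ZMod 3, x = 2 * x → 2 * x = 0 := by decide
  have : Fact (Nat.Prime 3) := ⟨by norm_num⟩
  have hn : ¬3 ∣ n := fun hd => h (by
    rw [(ZMod.natCast_eq_zero_iff n 3).2 hd]; exact IsSquare.zero)
  have hn2 : (n : ZMod 3) = 2 := h23 _ h
  have e := sigma_swap hn (c := 1) (c' := 1) (by norm_num)
  rw [hn2, pow_one] at e
  rw [coeff_deltaInt_three, hn2]
  exact h00 _ e

theorem coeff_deltaInt_twentyThree_eq_zero {n : ℕ} (h : ¬IsSquare (n : ZMod 23)) :
    ((coeff n deltaInt : ℤ) : ZMod 23) = 0 := by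
  rcases Nat.eq_zero_or_pos n with rfl | hn
  · simp [coeff_deltaInt_zero]
  · exact coeff_of_not_isSquare hn h

end FA.SwinnertonDyer

end
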