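import Fermat.Agent.Tau.SpecialPointsLine
import Fermat.Agent.Tau.JValues
import Mathlib.Algebra.Algebra.Hom.Rat

/-!
# The dominant conjugate of a singular modulus

The series of `q j(q)` has non-negative coefficients and `j(i / 2) = 287496`, so `|j - 1/q| ≤ 5000`
in the fundamental domain. A form of discriminant `-N` with first coefficient at least `2` needs
`N ≥ 15`, so the value at the principal form is larger than all its conjugates in absolute value.
Hence powers of conjugate singular moduli are distinct.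
-/

set_option autoImplicit false
set_option linter.style.haveILetI false

noncomputable section

namespace FA.Dominant

open UpperHalfPlane hiding I
open FA.ModField FA.Singular FA.JInj
open scoped Real Modular MatrixGroups IntermediateField

/-- `e ^ π ≤ 24`. -/
theorem exp_pi_le : Real.exp π ≤ 24 := by
  have h := FA.ExpBounds.exp_4.2
  rw [show (4 : ℝ) = 2 ^ 2 by norm_num, Real.sqrt_sq two_pos.le, mul_comm, two_mul, Real.exp_add]
    at h
  nlinarith [Real.exp_pos π]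

/-- A point with `|q| = e ^ (-π)` and `j = 287496`. -/
theorem exists_half :
    ∃ P : ℍ, qp 1 P = ((Real.exp (-π) : ℝ) : ℂ) ∧ jfun P = 287496 := by
  refine ⟨ModularGroup.S • FA.JValues.pt 0 16 (by norm_num), ?_, ?_⟩
  · have h4 : √(16 : ℝ) = 4 := by
      rw [show (16 : ℝ) = 4 ^ 2 by norm_num, Real.sqrt_sq (by norm_num)]
    rw [qp_eq, UpperHalfPlane.modular_S_smul, Complex.ofReal_exp]
    congr 1
    rw [FA.JValues.pt]
    apply Complex.ext <;> simp [Complex.inv_re, Complex.inv_im, Complex.normSq_apply, h4]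
    ring
  · rw [jfun_smul, FA.JValues.value_16]
    norm_num

/-- **`j` is within `5000` of `1/q`** in the fundamental domain. -/
theorem approx {τ : ℍ} (hτ : τ ∈ 𝒟) : ‖jfun τ - (qp 1 τ)⁻¹‖ ≤ 5000 := by
  obtain ⟨P, hqP, hjP⟩ := exists_half
  set t := ‖qp 1 τ‖ with ht
  set t₁ := Real.exp (-π) with ht₁
  have ht0 : 0 < t := norm_pos_iff.2 (qp_ne_zero 1 τ)
  have ht₁0 : 0 < t₁ := Real.exp_pos _
  have him : (0.86 : ℝ) ≤ τ.im := by
    nlinarith [ModularGroup.three_le_four_mul_im_sq_of_mem_fd hτ, τ.im_pos]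
  have htinv : t⁻¹ = Real.exp (2 * π * τ.im) := by
    rw [ht, ← norm_inv, FA.SpecialPoints.norm_qp_inv]
  have h148 : 148 * t ≤ 1 := by
    have h5 : Real.exp 5 ≤ t⁻¹ := by
      rw [htinv, Real.exp_le_exp]; nlinarith [Real.pi_gt_three]
    have he : (148 : ℝ) ≤ Real.exp 5 := by
      have h1 : (2.718 : ℝ) ^ 5 ≤ Real.exp 1 ^ 5 :=
        pow_le_pow_left₀ (by norm_num) (by linarith [Real.exp_one_gt_d9]) 5
      rw [← Real.exp_nat_mul] at h1
      norm_num at h1 ⊢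
      linarith
    have := mul_le_mul_of_nonneg_right (he.trans h5) ht0.le
    rwa [inv_mul_cancel₀ ht0.ne'] at this
  have ht₁24 : 1 ≤ 24 * t₁ := by
    have := mul_le_mul_of_nonneg_right exp_pi_le ht₁0.le
    rwa [ht₁, ← Real.exp_add, add_neg_cancel, Real.exp_zero] at this
  have hle : t ≤ t₁ := by nlinarith
  have hsR : HasSum (fun k : ℕ => (FA.JBound.a (k + 4) : ℝ) * t₁ ^ (k + 4))
      (t₁ * 287496 - (1 + 744 * t₁ + 196884 * t₁ ^ 2 + 21493760 * t₁ ^ 3)) := by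
    have h := Complex.hasSum_re (FA.JBound.hasSum_tail P)
    rw [hqP, hjP] at h
    have e : (t₁ : ℂ) * 287496 - FA.JBound.head (t₁ : ℂ) =
        ((t₁ * 287496 - (1 + 744 * t₁ + 196884 * t₁ ^ 2 + 21493760 * t₁ ^ 3) : ℝ) : ℂ) := by
      simp only [FA.JBound.head]; push_cast; ring
    rw [e, Complex.ofReal_re] at h
    refine h.congr_fun fun k => ?_
    rw [← Complex.ofReal_intCast, ← Complex.ofReal_pow, ← Complex.ofReal_mul, Complex.ofReal_re]
  have hb : ‖qp 1 τ * jfun τ - FA.JBound.head (qp 1 τ)‖ ≤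
      (t / t₁) ^ 4 * (t₁ * 287496 - (1 + 744 * t₁ + 196884 * t₁ ^ 2 + 21493760 * t₁ ^ 3)) := by
    refine (FA.JBound.hasSum_tail τ).norm_le_of_bounded (hsR.mul_left _) fun k => ?_
    have ha : (0 : ℝ) ≤ FA.JBound.a (k + 4) := by exact_mod_cast FA.JBound.a_nonneg (k + 4)
    rw [norm_mul, norm_pow, Complex.norm_intCast, abs_of_nonneg ha, ← ht, pow_add t, pow_add t₁,
      div_pow]
    have : t ^ k ≤ t₁ ^ k := pow_le_pow_left₀ ht0.le hle k
    calc (FA.JBound.a (k + 4) : ℝ) * (t ^ k * t ^ 4)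
        ≤ FA.JBound.a (k + 4) * (t₁ ^ k * t ^ 4) := by gcongr
      _ = t ^ 4 / t₁ ^ 4 * (FA.JBound.a (k + 4) * (t₁ ^ k * t₁ ^ 4)) := by field_simp
  have e : qp 1 τ * jfun τ - FA.JBound.head (qp 1 τ) = qp 1 τ *
      (jfun τ - (qp 1 τ)⁻¹ - (744 + 196884 * qp 1 τ + 21493760 * qp 1 τ ^ 2)) := by
    have hq : qp 1 τ ≠ 0 := qp_ne_zero 1 τ
    simp only [FA.JBound.head]; field_simp; ring
  rw [e, norm_mul, ← ht] at hb
  have htail : ‖jfun τ - (qp 1 τ)⁻¹ - (744 + 196884 * qp 1 τ + 21493760 * qp 1 τ ^ 2)‖ ≤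
      (24 * t) ^ 3 * 287496 := by
    refine le_of_mul_le_mul_left ?_ ht0
    refine hb.trans ((mul_le_mul_of_nonneg_left (sub_le_self _ (by positivity))
      (by positivity)).trans ?_)
    have h3 : t ^ 3 ≤ (24 * t) ^ 3 * t₁ ^ 3 := by
      rw [← mul_pow]
      exact pow_le_pow_left₀ ht0.le (by nlinarith) 3
    rw [div_pow, div_mul_eq_mul_div, div_le_iff₀ (by positivity)]
    nlinarith [mul_le_mul_of_nonneg_left h3 (show (0 : ℝ) ≤ t * t₁ * 287496 by positivity)]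
  have hhead : ‖(744 : ℂ) + 196884 * qp 1 τ + 21493760 * qp 1 τ ^ 2‖ ≤
      744 + 196884 * t + 21493760 * t ^ 2 := by
    refine (norm_add_le _ _).trans (add_le_add ((norm_add_le _ _).trans (le_of_eq ?_))
      (le_of_eq ?_))
    · simp [← ht]
    · simp [← ht]
  have h3 : (24 * t) ^ 3 ≤ (24 / 148) ^ 3 := pow_le_pow_left₀ (by positivity) (by linarith) 3
  have h2 : t ^ 2 ≤ (1 / 148) ^ 2 := pow_le_pow_left₀ ht0.le (by linarith) 2
  have := norm_le_norm_add_norm_sub'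
    (jfun τ - (qp 1 τ)⁻¹) ((744 : ℂ) + 196884 * qp 1 τ + 21493760 * qp 1 τ ^ 2)
  linarith

/-- The size of the value at a reduced form. -/
theorem norm_value {D : ℤ} {f : ℤ × ℤ × ℤ} (hf : f ∈ Red D) {τ : ℍ} (hr : IsRoot f τ) :
    |‖jfun τ‖ - Real.exp (π * √(-(D : ℝ)) / f.1)| ≤ 5000 := by
  obtain ⟨hfd, him⟩ := FA.SpecialPoints.root_mem_fd hf hr
  rw [← him, ← FA.SpecialPoints.norm_qp_inv]
  exact (abs_norm_sub_norm_le _ _).trans (approx hfd)

/-- A form with first coefficient at least two needs `N ≥ 15`. -/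
theorem fifteen_le {D : ℤ} {f : ℤ × ℤ × ℤ} (hf : f ∈ Red D) (h2 : 2 ≤ f.1) : 15 ≤ -D := by
  obtain ⟨a, b, c⟩ := f
  obtain ⟨hd, hg, ha, hb, hc, hbd⟩ := hf
  simp only at hd hg ha hb hc hbd h2
  have hb2 : b ^ 2 ≤ a ^ 2 := sq_le_sq.2 (by rwa [abs_of_pos ha])
  by_cases ha3 : 3 ≤ a
  · nlinarith [mul_le_mul_of_nonneg_left hc ha.le]
  obtain rfl : a = 2 := by omega
  by_cases hc3 : 3 ≤ c
  · nlinarith
  obtain rfl : c = 2 := by omega
  obtain ⟨h1, h3⟩ := abs_le.1 hb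
  interval_cases b <;> simp at hg <;> omega

/-- **The dominant conjugate.** -/
theorem exists_dominant {D : ℤ} (hD : D < 0) (h4 : D % 4 = 0 ∨ D % 4 = 1) :
    ∃ Z ∈ values D, Real.exp (π * √(-(D : ℝ))) - 5000 ≤ ‖Z‖ ∧
      ∀ w ∈ values D, w ≠ Z → ‖w‖ < ‖Z‖ := by
  obtain ⟨b, c, hp⟩ := FA.SpecialPoints.exists_principal h4 hD
  obtain ⟨τ, hτ⟩ := exists_isRoot (t := (1, b, c)) one_pos (hp.1.trans_lt hD)
  obtain ⟨hz1, -⟩ := abs_le.1 (norm_value hp hτ)
  push_cast at hz1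
  rw [div_one] at hz1
  refine ⟨jfun τ, ⟨_, hp, τ, hτ, rfl⟩, by linarith, ?_⟩
  rintro w ⟨⟨a, b', c'⟩, hf, τ', hτ', rfl⟩ hne
  have ha : 0 < a := hf.2.2.1
  have h2 : 2 ≤ a := by
    by_contra hlt
    obtain rfl : a = 1 := by omega
    obtain ⟨rfl, rfl⟩ : b = b' ∧ c = c' := by
      simpa using FA.SpecialPoints.eq_of_first_one hp hf
    exact hne (by rw [root_unique one_ne_zero hτ hτ'])
  have h15 : (15 : ℝ) ≤ -(D : ℝ) := by exact_mod_cast fifteen_le hf h2
  obtain ⟨-, hw2⟩ := abs_le.1 (norm_value hf hτ')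
  set x := π * √(-(D : ℝ))
  have hx : (12 : ℝ) ≤ x := by
    have hs : (3.86 : ℝ) ≤ √(-(D : ℝ)) := Real.le_sqrt_of_sq_le (by norm_num; linarith)
    nlinarith [Real.pi_gt_d2]
  have hxa : x / (a : ℝ) ≤ x / 2 :=
    div_le_div_of_nonneg_left (by linarith) two_pos (by exact_mod_cast h2)
  have h6 : (387 : ℝ) ≤ Real.exp (x / 2) := by
    refine le_trans ?_ (Real.exp_le_exp.2 (show (6 : ℝ) ≤ x / 2 by linarith))
    have h1 : (2.718 : ℝ) ^ 6 ≤ Real.exp 1 ^ 6 :=
      pow_le_pow_left₀ (by norm_num) (by linarith [Real.exp_one_gt_d9]) 6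
    rw [← Real.exp_nat_mul] at h1
    norm_num at h1 ⊢
    linarith
  have hsq : Real.exp x = Real.exp (x / 2) * Real.exp (x / 2) := by
    rw [← Real.exp_add]; ring_nf
  have := Real.exp_le_exp.2 hxa
  simp only at hw2
  nlinarith

/-- Automorphisms permute the singular moduli of a discriminant. -/
theorem aut_mem {D : ℤ} (hD : D < 0) {z : ℂ} (hz : z ∈ values D) (σ : ℂ ≃+* ℂ) :
    σ z ∈ values D :=
  root_mem_values hD hz (by
    rw [show σ z = (σ : ℂ →+* ℂ).toIntAlgHom z from rfl, Polynomial.aeval_algHom_apply,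
      minpoly.aeval, map_zero])

/-- **Powers separate conjugates.** -/
theorem pow_injOn {D : ℤ} (hD : D < 0) {n : ℕ} (hn : n ≠ 0) :
    Set.InjOn (fun z : ℂ => z ^ n) (values D) := by
  intro z hz w hw h
  by_contra hne
  obtain ⟨Z, hZ, -, hdom⟩ :=
    exists_dominant hD (FA.SpecialPoints.disc_mod_four_of_mem hz)
  obtain ⟨σ, hσ⟩ := FA.SpecialPoints.exists_aut hD hz hZ
  have hne' : σ w ≠ Z := fun e => hne (σ.injective (hσ.trans e.symm))
  have hlt := pow_lt_pow_left₀ (hdom _ (aut_mem hD hw σ) hne') (norm_nonneg _) hn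
  have he := congrArg (fun u : ℂ => ‖σ u‖) h
  simp only [map_pow, norm_pow, hσ] at he
  linarith

/-- **The degree of a power is the class number.** -/
theorem natDegree_pow {D : ℤ} (hD : D < 0) {z : ℂ} (hz : z ∈ values D) {n : ℕ} (hn : n ≠ 0) :
    (minpoly ℚ (z ^ n)).natDegree = (Red D).ncard ∧ ℚ⟮z ^ n⟯ = ℚ⟮z⟯ := by
  classical
  have hi : IsIntegral ℚ z := (isIntegral_values hD hz).tower_top
  have hin : IsIntegral ℚ (z ^ n) := hi.pow n
  haveI : FiniteDimensional ℚ ℚ⟮z⟯ := IntermediateField.adjoin.finiteDimensional hi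
  have hle : ℚ⟮z ^ n⟯ ≤ ℚ⟮z⟯ := IntermediateField.adjoin_simple_le_iff.2
    (pow_mem (IntermediateField.mem_adjoin_simple_self ℚ z) n)
  have hge : (Red D).ncard ≤ (minpoly ℚ (z ^ n)).natDegree := by
    rw [← values_ncard hD, ← (pow_injOn hD hn).ncard_image]
    have hsub : (fun w : ℂ => w ^ n) '' values D ⊆
        ↑((minpoly ℚ (z ^ n)).aroots ℂ).toFinset := by
      rintro _ ⟨w, hw, rfl⟩
      rw [Finset.mem_coe, Multiset.mem_toFinset, Polynomial.mem_aroots]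
      refine ⟨minpoly.ne_zero hin, ?_⟩
      obtain ⟨σ, hσ⟩ := FA.SpecialPoints.exists_aut hD hz hw
      show Polynomial.aeval (w ^ n) (minpoly ℚ (z ^ n)) = 0
      rw [show w ^ n = (σ : ℂ →+* ℂ).toRatAlgHom (z ^ n) from by
        rw [RingHom.toRatAlgHom_apply, RingEquiv.coe_toRingHom, map_pow, hσ],
        Polynomial.aeval_algHom_apply, minpoly.aeval, map_zero]
    refine (Set.ncard_le_ncard hsub (Finset.finite_toSet _)).trans ?_
    rw [Set.ncard_coe_finset]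
    exact (Multiset.toFinset_card_le _).trans
      ((Polynomial.card_roots' _).trans_eq (Polynomial.natDegree_map _))
  have hdz := natDegree_minpoly hD hz
  rw [← IntermediateField.adjoin.finrank hin] at hge ⊢
  rw [← IntermediateField.adjoin.finrank hi] at hdz
  have he : ℚ⟮z ^ n⟯ = ℚ⟮z⟯ :=
    IntermediateField.eq_of_le_of_finrank_le hle (hdz.trans_le hge)
  exact ⟨(congrArg (fun E : IntermediateField ℚ ℂ => Module.finrank ℚ E) he).trans hdz, he⟩

/-- **Bounded conjugates bound the discriminant.** -/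
theorem disc_le_of_house {D : ℤ} (hD : D < 0) {z : ℂ} (hz : z ∈ values D) {B : ℝ}
    (hB : ∀ w : ℂ, Polynomial.aeval w (minpoly ℚ z) = 0 → ‖w‖ ≤ B) :
    -(D : ℝ) ≤ B + 5000 := by
  obtain ⟨Z, hZ, hlow, -⟩ := exists_dominant hD (FA.SpecialPoints.disc_mod_four_of_mem hz)
  obtain ⟨σ, hσ⟩ := FA.SpecialPoints.exists_aut hD hz hZ
  have hZB := hB Z (by
    rw [← hσ, show σ z = (σ : ℂ →+* ℂ).toRatAlgHom z from rfl, Polynomial.aeval_algHom_apply,
      minpoly.aeval, map_zero])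
  have hN : (0 : ℝ) ≤ -(D : ℝ) := by
    have : (D : ℝ) < 0 := Int.cast_lt_zero.2 hD
    linarith
  have h1 := Real.quadratic_le_exp_of_nonneg
    (show 0 ≤ π * √(-(D : ℝ)) from mul_nonneg Real.pi_pos.le (Real.sqrt_nonneg _))
  rw [mul_pow, Real.sq_sqrt hN] at h1
  nlinarith [mul_nonneg Real.pi_pos.le (Real.sqrt_nonneg (-(D : ℝ))),
    mul_le_mul_of_nonneg_right (show (4 : ℝ) ≤ π ^ 2 by nlinarith [Real.pi_gt_three]) hN]

end FA.Dominant

end
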