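import Fermat.Agent.Tau.EisensteinPrime
import Fermat.Agent.Ribet.EigenvalueBound

/-!
# Eisenstein congruences bound the degree of `a₂`

If `a₂ ≡ 3` modulo a prime over `l`, then `l` divides the value at `3` of the minimal polynomial
of `a₂`, a non-zero integer below `6 ^ d` as the conjugates are below `3`.
-/

set_option autoImplicit false

noncomputable section

open CongruenceSubgroup Polynomial

namespace FA.EigenDegree

local notation "ZB" => integralClosure ℤ ℂ

/-- If all roots are below `r = |b|`, then `0 ≠ |P(b)| < (2 r) ^ deg P`. -/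
theorem eval_minpoly_lt {a : ℂ} (ha : IsIntegral ℤ a) {b : ℤ} {r : ℝ} (hb : (b.natAbs : ℝ) = r)
    (hroots : ∀ z : ℂ, aeval z (minpoly ℚ a) = 0 → ‖z‖ < r) :
    (minpoly ℤ a).eval b ≠ 0 ∧
      |(((minpoly ℤ a).eval b : ℤ) : ℝ)| < (2 * r) ^ (minpoly ℚ a).natDegree := by
  set Q := (minpoly ℚ a).map (algebraMap ℚ ℂ) with hQ
  have hmon : (minpoly ℚ a).Monic := minpoly.monic ha.tower_top
  have hQZ : Q = (minpoly ℤ a).map (Int.castRingHom ℂ) := by
    rw [hQ, minpoly.isIntegrallyClosed_eq_field_fractions' ℚ ha, map_map]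
    congr 1
  have hsplit : Q.Splits := IsAlgClosed.splits Q
  have hQm : Q.Monic := hmon.map _
  have hev : (((minpoly ℤ a).eval b : ℤ) : ℂ) = (Q.roots.map fun z => (b : ℂ) - z).prod := by
    rw [← Splits.eval_eq_prod_roots_of_monic hsplit hQm (b : ℂ), hQZ, eval_intCast_map]
    rfl
  have hmem : ∀ z ∈ Q.roots, ‖z‖ < r := fun z hz => hroots z (by
    rw [← aeval_map_algebraMap ℂ, ← hQ, coe_aeval_eq_eval]
    exact (mem_roots hQm.ne_zero).1 hz)
  have hne : ∀ z ∈ Q.roots, (b : ℂ) - z ≠ 0 := fun z hz e => by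
    have h := hmem z hz
    rw [← sub_eq_zero.1 e, Complex.norm_intCast, ← Int.cast_abs, ← Int.natCast_natAbs,
      Int.cast_natCast, hb] at h
    exact lt_irrefl _ h
  refine ⟨fun e => ?_, ?_⟩
  · rw [e, Int.cast_zero, eq_comm, Multiset.prod_eq_zero_iff, Multiset.mem_map] at hev
    obtain ⟨z, hz, hz0⟩ := hev
    exact hne z hz hz0
  · have hdeg : (minpoly ℚ a).natDegree = Multiset.card Q.roots := by
      rw [← natDegree_map (algebraMap ℚ ℂ), ← hQ, hsplit.natDegree_eq_card_roots]
    rw [← Complex.norm_intCast, hev, hdeg]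
    have hpos : 0 < Multiset.card Q.roots := hdeg ▸ minpoly.natDegree_pos ha.tower_top
    obtain ⟨z₀, hz₀⟩ := Multiset.card_pos_iff_exists_mem.1 hpos
    have key : ∀ s : Multiset ℂ, (∀ z ∈ s, ‖z‖ < r) → s ≠ 0 →
        ‖(s.map fun z => (b : ℂ) - z).prod‖ < (2 * r) ^ Multiset.card s := by
      intro s
      induction s using Multiset.induction_on with
      | empty => exact fun _ h => absurd rfl h
      | cons z t ih =>
        intro hs _
        have hz := hs z (Multiset.mem_cons_self z t)
        have h1 : ‖(b : ℂ) - z‖ < 2 * r := by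
          refine (norm_sub_le _ _).trans_lt ?_
          rw [Complex.norm_intCast, ← Int.cast_abs, ← Int.natCast_natAbs, Int.cast_natCast, hb]
          linarith
        rw [Multiset.map_cons, Multiset.prod_cons, norm_mul, Multiset.card_cons, pow_succ']
        have h2 : ‖(t.map fun z => (b : ℂ) - z).prod‖ ≤ (2 * r) ^ Multiset.card t := by
          rcases eq_or_ne t 0 with rfl | ht
          · simp
          · exact (ih (fun y hy => hs y (Multiset.mem_cons_of_mem hy)) ht).le
        exact mul_lt_mul h1 h2 (by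
          rw [norm_pos_iff]
          exact Multiset.prod_ne_zero fun h0 => by
            obtain ⟨y, hy, hy0⟩ := Multiset.mem_map.1 h0
            have h := hs y (Multiset.mem_cons_of_mem hy)
            rw [← sub_eq_zero.1 hy0, Complex.norm_intCast, ← Int.cast_abs, ← Int.natCast_natAbs,
              Int.cast_natCast, hb] at h
            exact lt_irrefl _ h) (le_of_lt ((norm_nonneg _).trans_lt h1))
    exact key Q.roots hmem fun e => by simp [e] at hz₀

/-- **A congruence of `a₂` with `3` modulo a prime over `l` forces `l < 6 ^ deg a₂`.** -/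
theorem lt_six_pow {p : ℕ} [Fact p.Prime] (hp2 : p ≠ 2) {l : ℕ} [Fact l.Prime]
    {g : CuspForm (Gamma0 p) 2} (hg : g.IsNormalizedEigenform) {m : Ideal ZB} (hm : m.IsMaximal)
    (hl : (l : ZB) ∈ m) {c : ZB} (hc : (c : ℂ) = ModularFormClass.qCoeff g 2)
    (hcm : c - 3 ∈ m) :
    l < 6 ^ (minpoly ℚ (ModularFormClass.qCoeff g 2)).natDegree := by
  set a := ModularFormClass.qCoeff g 2
  have ha : IsIntegral ℤ a := hc ▸ c.2
  have h2 : ¬2 ∣ p := fun h =>
    hp2 ((Nat.prime_dvd_prime_iff_eq Nat.prime_two Fact.out).1 h).symm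
  obtain ⟨-, hroots⟩ := FA.Ribet.conjugates_eigenvalue Nat.prime_two h2 hg
  obtain ⟨hne, hlt⟩ := eval_minpoly_lt (b := 3) (r := 3) ha (by norm_num) fun z hz => by
    have := (hroots z hz).2
    norm_num at this
    exact this
  set N := (minpoly ℤ a).eval 3
  -- `N ∈ m`
  have hN : (N : ZB) ∈ m := by
    have h0 : (minpoly ℤ a).eval₂ (Int.castRingHom ZB) c = 0 := by
      apply Subtype.val_injective
      have e := hom_eval₂ (minpoly ℤ a) (Int.castRingHom ZB) (ZB).val.toRingHom c
      refine (e.trans ?_).trans rfl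
      rw [show (ZB).val.toRingHom.comp (Int.castRingHom ZB) = algebraMap ℤ ℂ from
        RingHom.ext_int _ _]
      show eval₂ (algebraMap ℤ ℂ) (c : ℂ) (minpoly ℤ a) = 0
      rw [hc]
      exact minpoly.aeval ℤ a
    have e : Ideal.Quotient.mk m c = Ideal.Quotient.mk m ((3 : ℤ) : ZB) :=
      Ideal.Quotient.eq.2 (by push_cast; exact hcm)
    have h1 := congrArg (Ideal.Quotient.mk m) h0
    rw [hom_eval₂, e, map_zero, map_intCast] at h1
    rw [← Ideal.Quotient.eq_zero_iff_mem, map_intCast, ← h1,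
      show (Ideal.Quotient.mk m).comp (Int.castRingHom ZB) = Int.castRingHom (ZB ⧸ m) from
        RingHom.ext_int _ _, eval₂_at_intCast]
    rfl
  -- `l ∣ N`
  have hdvd : (l : ℤ) ∣ N := by
    by_contra h
    obtain ⟨u, v, huv⟩ :=
      ((Nat.prime_iff_prime_int.1 (Fact.out : l.Prime)).coprime_iff_not_dvd).2 h
    refine hm.ne_top ((Ideal.eq_top_iff_one m).2 ?_)
    have e := congrArg (fun z : ℤ => (z : ZB)) huv
    push_cast at e
    rw [← e]
    exact m.add_mem (m.mul_mem_left _ hl) (m.mul_mem_left _ hN)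
  have hle := Int.le_of_dvd (abs_pos.2 hne) ((dvd_abs _ _).2 hdvd)
  have : ((l : ℤ) : ℝ) ≤ |(N : ℝ)| := by exact_mod_cast hle
  have h3 := this.trans_lt hlt
  norm_num at h3
  exact_mod_cast h3

end FA.EigenDegree

end
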