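import Fermat.Agent.ModField.ModFuns
import Fermat.Agent.Tau.JInjective
import Mathlib.Analysis.Complex.Liouville
import Mathlib.Analysis.Complex.OpenMapping
import Mathlib.Analysis.Calculus.InverseFunctionTheorem.Deriv
import Mathlib.Analysis.Complex.Polynomial.Basic
import Mathlib.NumberTheory.ModularForms.ProperlyDiscontinuous
import Mathlib.Topology.Covering.Quotient
import Mathlib.Topology.Homotopy.Lifting
import Mathlib.RingTheory.RootsOfUnity.Complex

/-!
# Picard's little theorem by the modular function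

`j` is a covering of `ℂ ∖ {0, 1728}`, so an entire function avoiding `0` and `1728` lifts to the
upper half plane and is constant by Liouville.
-/

set_option autoImplicit false
set_option linter.style.haveILetI false

noncomputable section

namespace FA.Picard

open UpperHalfPlane hiding I
open Filter ModularForm FA.ModField FA.JInj Topology
open Complex (I)
open scoped MatrixGroups

/-- A fixed point of a transformation acting non-trivially is elliptic. -/
theorem smul_eq_self {z : ℍ} (h4 : E₄ z ≠ 0) (h6 : E₆ z ≠ 0) {g : SL(2, ℤ)} (hg : g • z = z)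
    (w : ℍ) : g • w = w := by
  have e4 := E4_smul g z
  have e6 := FA.LevelOneRing.E6_smul g z
  rw [hg] at e4 e6
  have d4 : denom g z ^ (4 : ℤ) = 1 := mul_right_cancel₀ h4 (by rw [one_mul]; exact e4.symm)
  have d6 : denom g z ^ (6 : ℤ) = 1 := mul_right_cancel₀ h6 (by rw [one_mul]; exact e6.symm)
  have d2 : denom g z ^ (2 : ℤ) = 1 := by
    rw [show (6 : ℤ) = 4 + 2 by norm_num, zpow_add₀ (denom_ne_zero _ _), d4, one_mul] at d6
    exact d6
  have hden : denom g z = (g 1 0 : ℂ) * z + g 1 1 := by simp [denom]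
  rw [hden] at d2
  have hre : ((g 1 0 : ℂ) * z + g 1 1).im = 0 := by
    have : ((g 1 0 : ℂ) * z + g 1 1) = 1 ∨ ((g 1 0 : ℂ) * z + g 1 1) = -1 := by
      rwa [zpow_two, ← pow_two, sq_eq_one_iff] at d2
    rcases this with h | h <;> simp [h]
  have hc : g 1 0 = 0 := by
    simp [z.im_pos.ne'] at hre
    exact hre
  have hd : g 1 1 * g 1 1 = 1 := by
    rw [hc, Int.cast_zero, zero_mul, zero_add, zpow_two] at d2
    exact_mod_cast d2
  have hdet : g 0 0 * g 1 1 - g 0 1 * g 1 0 = 1 := by
    have := g.det_coe; rwa [Matrix.det_fin_two] at this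
  have ha : g 0 0 = g 1 1 := by
    rw [hc, mul_zero, sub_zero] at hdet
    linear_combination g 1 1 * hdet - g 0 0 * hd
  have hw : ∀ u : ℍ, ((g • u : ℍ) : ℂ) = (g 0 0 * u + g 0 1) / g 1 1 := fun u => by
    rw [coe_smul_int, hc, Int.cast_zero, zero_mul, zero_add]
  have hd0 : (g 1 1 : ℂ) ≠ 0 := by
    intro h
    have : g 1 1 = 0 := by exact_mod_cast h
    simp [this] at hd
  have hb : (g 0 1 : ℂ) = 0 := by
    have := hw z
    rw [hg, eq_div_iff hd0, ha] at this
    linear_combination -this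
  refine UpperHalfPlane.ext ?_
  rw [hw, hb, add_zero, ha]
  field_simp

/-- The transformations of the upper half plane given by `SL(2, ℤ)`. -/
def modGroup : Subgroup (Equiv.Perm ℍ) := (MulAction.toPermHom SL(2, ℤ) ℍ).range

theorem modGroup_smul (g : modGroup) : ∃ γ : SL(2, ℤ), ∀ z : ℍ, g • z = γ • z := by
  obtain ⟨g, γ, rfl⟩ := g
  exact ⟨γ, fun z => rfl⟩

instance : ContinuousConstSMul modGroup ℍ where
  continuous_const_smul g := by
    obtain ⟨γ, hγ⟩ := modGroup_smul g
    simp only [hγ]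
    exact continuous_const_smul (γ : GL (Fin 2) ℝ)

instance : ProperlyDiscontinuousSMul modGroup ℍ where
  finite_disjoint_inter_image {K L} hK hL := by
    refine Set.Finite.of_finite_image (f := Subtype.val) ?_ Subtype.val_injective.injOn
    refine ((finite_disjoint_inter_image (Γ := 𝒮ℒ) hK hL).image
      fun x : 𝒮ℒ => (MulAction.toPerm (x : GL (Fin 2) ℝ) : Equiv.Perm ℍ)).subset ?_
    rintro _ ⟨⟨_, γ, rfl⟩, hγ, rfl⟩
    exact ⟨⟨_, γ, rfl⟩, hγ, Equiv.ext fun z => rfl⟩

theorem jfun_fibre {z w : ℍ} : jfun z = jfun w ↔ z ∈ MulAction.orbit modGroup w := by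
  rw [eq_comm, jfun_eq_iff]
  constructor
  · rintro ⟨g, rfl⟩
    exact ⟨⟨_, g, rfl⟩, rfl⟩
  · rintro ⟨g, rfl⟩
    obtain ⟨γ, hγ⟩ := modGroup_smul g
    exact ⟨γ, (hγ w).symm⟩

theorem analyticOnNhd_jfun : AnalyticOnNhd ℂ (jfun ∘ ofComplex) {z | 0 < z.im} :=
  (UpperHalfPlane.mdifferentiable_iff.1 mdiff_jfun).analyticOnNhd isOpen_upperHalfPlaneSet

theorem isQuotientMap_jfun : IsQuotientMap jfun := by
  have hopen : IsOpenMap jfun := by
    intro V hV
    rcases analyticOnNhd_jfun.is_constant_or_isOpen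
      (convex_halfSpace_im_gt 0).isPreconnected with ⟨w, hw⟩ | h
    · have h1 := hw UpperHalfPlane.I UpperHalfPlane.I.im_pos
      have h2 := hw rho rho.im_pos
      simp only [Function.comp_apply, ofComplex_apply, jfun_I, jfun_rho] at h1 h2
      rw [← h2] at h1
      norm_num at h1
    · have e : jfun '' V = (jfun ∘ ofComplex) '' (UpperHalfPlane.coe '' V) := by
        rw [Set.image_image]
        simp [ofComplex_apply]
      rw [e]
      exact h _ (by rintro _ ⟨v, -, rfl⟩; exact v.im_pos) (isOpenEmbedding_coe.isOpenMap V hV)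
  exact hopen.isQuotientMap mdiff_jfun.continuous fun a => exists_jfun_eq a

/-- **`j` is a covering of `ℂ ∖ {0, 1728}`.** -/
theorem isCoveringMapOn_jfun : IsCoveringMapOn jfun {a | a ≠ 0 ∧ a ≠ 1728} := by
  refine (isQuotientMap_jfun.isCoveringMapOn_of_properlyDiscontinuousSMul
    (G := modGroup) jfun_fibre).mono ?_
  rintro a ⟨h0, h1⟩
  obtain ⟨z, rfl⟩ := exists_jfun_eq a
  refine ⟨z, (Subgroup.eq_bot_iff_forall _).2 fun g hg => ?_, rfl⟩
  obtain ⟨γ, hγ⟩ := modGroup_smul g
  refine Subtype.ext (Equiv.ext fun w => ?_)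
  show g • w = w
  rw [hγ]
  exact smul_eq_self (E4_ne_zero_of h0) (E6_ne_zero_of h1) ((hγ z).symm.trans hg) w

theorem deriv_jfun_ne_zero {z : ℍ} (h0 : jfun z ≠ 0) (h1 : jfun z ≠ 1728) :
    deriv (jfun ∘ ofComplex) (z : ℂ) ≠ 0 := fun h => by
  have hD := D_jfun z
  rw [Derivative.normalizedDerivOfComplex, h, mul_zero, eq_comm, neg_div, neg_eq_zero,
    div_eq_zero_iff] at hD
  simp [E4_ne_zero_of h0, E6_ne_zero_of h1, ModularForm.discriminant_ne_zero] at hD

/-- An entire function avoiding `0` and `1728` is constant. -/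
theorem const_of_avoids {h : ℂ → ℂ} (hd : Differentiable ℂ h) (h0 : ∀ z, h z ≠ 0)
    (h1 : ∀ z, h z ≠ 1728) (z w : ℂ) : h z = h w := by
  obtain ⟨e₀, he₀⟩ := exists_jfun_eq (h 0)
  obtain ⟨F, ⟨-, hF⟩, -⟩ := isCoveringMapOn_jfun.existsUnique_continuousMap_lifts
    ⟨h, hd.continuous⟩ (a₀ := 0) he₀ fun a => ⟨h0 a, h1 a⟩
  have hFz : ∀ a, jfun (F a) = h a := fun a => congrFun hF a
  have hFd : Differentiable ℂ fun a => (F a : ℂ) := fun a => by
    have hs : HasStrictDerivAt (jfun ∘ ofComplex) (deriv (jfun ∘ ofComplex) (F a : ℂ)) (F a : ℂ) :=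
      (analyticOnNhd_jfun _ (F a).im_pos).hasStrictDerivAt
    have hne := deriv_jfun_ne_zero (by rw [hFz]; exact h0 a) (by rw [hFz]; exact h1 a)
    have hev := ((UpperHalfPlane.continuous_coe.comp F.continuous).tendsto a).eventually
      (hs.eventually_left_inverse hne)
    have hloc := (hs.to_localInverse hne).hasDerivAt.differentiableAt
    simp only [Function.comp_apply, ofComplex_apply, hFz] at hloc hev
    exact (hloc.comp a (hd a)).congr_of_eventuallyEq (hev.mono fun b hb => hb.symm)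
  have hne : ∀ a, (F a : ℂ) + I ≠ 0 := fun a e => by
    have := congrArg Complex.im e
    simp at this
    linarith [(F a).im_pos]
  have hb : Bornology.IsBounded (Set.range fun a => ((F a : ℂ) - I) / ((F a : ℂ) + I)) := by
    refine isBounded_iff_forall_norm_le.2 ⟨1, ?_⟩
    rintro _ ⟨a, rfl⟩
    simp only [norm_div]
    refine div_le_one_of_le₀ ?_ (norm_nonneg _)
    rw [Complex.norm_def, Complex.norm_def]
    refine Real.sqrt_le_sqrt ?_
    simp [Complex.normSq_apply]
    nlinarith [(F a).im_pos]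
  have hG : Differentiable ℂ fun a => ((F a : ℂ) - I) / ((F a : ℂ) + I) :=
    (hFd.sub_const I).div (hFd.add_const I) hne
  have heq := hG.apply_eq_apply_of_bounded hb z w
  rw [div_eq_div_iff (hne z) (hne w)] at heq
  have : (F z : ℂ) = F w := mul_left_cancel₀ (a := 2 * I) (by simp) (by linear_combination heq)
  rw [← hFz, ← hFz, UpperHalfPlane.ext this]

/-- **Picard's little theorem.** -/
theorem picard {f : ℂ → ℂ} (hf : Differentiable ℂ f) {a b : ℂ} (hab : a ≠ b)
    (ha : ∀ z, f z ≠ a) (hb : ∀ z, f z ≠ b) (z w : ℂ) : f z = f w := by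
  have hba : b - a ≠ 0 := sub_ne_zero.2 hab.symm
  have := const_of_avoids (h := fun z => (f z - a) * (1728 / (b - a)))
    ((hf.sub_const a).mul_const _) (fun u => mul_ne_zero (sub_ne_zero.2 (ha u))
      (div_ne_zero (by norm_num) hba))
    (fun u e => hb u (by field_simp at e; linear_combination e)) z w
  simpa [sub_left_inj, hba] using this

theorem const_of_pow_const {g : ℂ → ℂ} (hg : Differentiable ℂ g) {n : ℕ} (hn : n ≠ 0) {K : ℂ}
    (h : ∀ z, g z ^ n = K) (z w : ℂ) : g z = g w := by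
  have key : ∀ r : ℝ, ‖K‖ < r → 1 ≤ r → ∀ u, g u ≠ (r : ℂ) := fun r h1 h2 u e => by
    have h3 := congrArg norm (h u)
    rw [e, norm_pow, Complex.norm_real, Real.norm_of_nonneg (by linarith)] at h3
    linarith [le_self_pow₀ h2 hn]
  exact picard hg (a := ((‖K‖ + 2 : ℝ) : ℂ)) (b := ((‖K‖ + 3 : ℝ) : ℂ))
    (fun e => by rw [Complex.ofReal_inj] at e; linarith)
    (key _ (by linarith) (by linarith [norm_nonneg K]))
    (key _ (by linarith) (by linarith [norm_nonneg K])) z w

/-- **Fermat's equation in entire functions.** -/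
theorem fermat_entire {n : ℕ} (hn : 3 ≤ n) {f g : ℂ → ℂ} (hf : Differentiable ℂ f)
    (hg : Differentiable ℂ g) (h : ∀ z, f z ^ n + g z ^ n = 1) :
    (∀ z w, f z = f w) ∧ ∀ z w, g z = g w := by
  obtain ⟨e, he⟩ := IsAlgClosed.exists_pow_nat_eq (-1 : ℂ) (show 0 < n by omega)
  have he0 : e ≠ 0 := fun e0 => by rw [e0, zero_pow (by omega)] at he; norm_num at he
  have hω := Complex.isPrimitiveRoot_exp n (by omega)
  set ω := Complex.exp (2 * Real.pi * I / n)
  let c : ℕ → ℂ := fun k => e * ω ^ k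
  have hc : ∀ k z, f z - c k * g z ≠ 0 := fun k z e' => by
    have := h z
    rw [sub_eq_zero.1 e', mul_pow, mul_pow, ← pow_mul, mul_comm k n, pow_mul, hω.pow_eq_one,
      he, one_pow] at this
    simp at this
  have hinj : ∀ i j, i < 3 → j < 3 → c i = c j → i = j := fun i j hi hj e' =>
    hω.pow_inj (by omega) (by omega) (mul_left_cancel₀ he0 e')
  have h20 : c 2 - c 0 ≠ 0 := sub_ne_zero.2 fun e' => by
    simpa using hinj 2 0 (by omega) (by omega) e'
  have h21 : c 2 - c 1 ≠ 0 := sub_ne_zero.2 fun e' => by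
    simpa using hinj 2 1 (by omega) (by omega) e'
  have h01 : c 0 - c 1 ≠ 0 := sub_ne_zero.2 fun e' => by
    simpa using hinj 0 1 (by omega) (by omega) e'
  set u : ℂ → ℂ := fun z => (f z - c 0 * g z) / (f z - c 1 * g z) with hu
  have hconst := picard (f := u) ((hf.sub (hg.const_mul _)).div (hf.sub (hg.const_mul _)) (hc 1))
    (a := 0) (b := (c 2 - c 0) / (c 2 - c 1)) (div_ne_zero h20 h21).symm
    (fun z => div_ne_zero (hc 0 z) (hc 1 z)) (fun z e' => by
      rw [hu, div_eq_div_iff (hc 1 z) h21] at e'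
      refine mul_ne_zero (hc 2 z) h01 ?_
      linear_combination e')
  set m := u 0 with hm
  have key : ∀ z, (1 - m) * f z = (c 0 - m * c 1) * g z := fun z => by
    have h1 : (f z - c 0 * g z) / (f z - c 1 * g z) = m := hconst z 0
    rw [div_eq_iff (hc 1 z)] at h1
    linear_combination h1
  have hn0 : n ≠ 0 := by omega
  by_cases hm1 : 1 - m = 0
  · have hg0 : ∀ z, g z = 0 := fun z => by
      have h1 := key z
      rw [hm1, zero_mul, eq_comm, show m = 1 from (sub_eq_zero.1 hm1).symm, one_mul,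
        mul_eq_zero] at h1
      exact h1.resolve_left h01
    refine ⟨fun z w => const_of_pow_const hf hn0 (K := 1) (fun v => ?_) z w,
      fun z w => by rw [hg0, hg0]⟩
    simpa [hg0, zero_pow hn0] using h v
  · set s := (c 0 - m * c 1) / (1 - m) with hs
    have hfs : ∀ z, f z = s * g z := fun z => by
      rw [hs, div_mul_eq_mul_div, eq_div_iff hm1, mul_comm, key]
    have hK : ∀ z, (s ^ n + 1) * g z ^ n = 1 := fun z => by
      have h1 := h z
      rw [hfs, mul_pow] at h1
      linear_combination h1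
    have hg' := const_of_pow_const hg hn0 (K := 1 / (s ^ n + 1)) fun v => by
      rw [eq_div_iff (left_ne_zero_of_mul_eq_one (hK v)), mul_comm, hK]
    exact ⟨fun z w => by rw [hfs, hfs, hg' z w], hg'⟩

end FA.Picard

end
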