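import Fermat.Agent.Tau.RealModuli
import Fermat.Agent.Tau.Picard
import Mathlib.NumberTheory.ZetaValues
import Mathlib.Analysis.Complex.UpperHalfPlane.Exp

/-!
# Eisenstein series on the arc `|τ| = 1`

On the arc `τ = exp (i θ)`, `π/2 ≤ θ ≤ 2 π/3`, the function `exp (i k θ / 2) E_k(τ)` is real and
differs from `2 cos (k θ / 2)` by less than `2`, so it changes sign between the points `2 m π / k`.
-/

set_option autoImplicit false

noncomputable section

namespace FA.EisArc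

open UpperHalfPlane hiding I
open Complex (I)
open Filter EisensteinSeries FA.ModField
open scoped MatrixGroups Topology Real ComplexConjugate

/-- `exp (i θ)` in the upper half plane. -/
def arcPt (θ : ℝ) : ℍ := ofComplex (Complex.exp (θ * I))

/-- The summand of a pair in `exp (i k θ / 2) E_k`. -/
def term (k : ℕ) (θ : ℝ) (v : Fin 2 → ℤ) : ℂ :=
  ((v 0 : ℂ) * Complex.exp ((θ / 2 : ℝ) * I) +
    (v 1 : ℂ) * Complex.exp (-((θ / 2 : ℝ) * I))) ^ (-(k : ℤ))

/-- `exp (i k θ / 2) E_k (exp (i θ))`. -/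
def arcFun {k : ℕ} (hk : 3 ≤ k) (θ : ℝ) : ℂ :=
  Complex.exp ((θ / 2 : ℝ) * I) ^ (k : ℤ) * ModularForm.E hk (arcPt θ)

/-- The weight used to bound the tail. -/
def wt (n : ℤ) : ℝ := 1 / ((n : ℝ) ^ 2 + 1)

theorem coe_arcPt {θ : ℝ} (h0 : 0 < θ) (h1 : θ < π) :
    (arcPt θ : ℂ) = Complex.exp (θ * I) :=
  congrArg UpperHalfPlane.coe (ofComplex_apply_of_im_pos
    (by rw [Complex.exp_ofReal_mul_I_im]; exact Real.sin_pos_of_pos_of_lt_pi h0 h1))

theorem E_apply {k : ℕ} (hk : 3 ≤ k) (z : ℍ) :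
    ModularForm.E hk z = 1 / 2 * ∑' v : gammaSet 1 1 0, eisSummand k v z := rfl

theorem exp_mul_eisSummand {k : ℕ} {θ : ℝ} (h0 : 0 < θ) (h1 : θ < π) (v : Fin 2 → ℤ) :
    Complex.exp ((θ / 2 : ℝ) * I) ^ (k : ℤ) * eisSummand k v (arcPt θ) = term k θ v := by
  set u := Complex.exp ((θ / 2 : ℝ) * I) with hu
  have hu0 : u ≠ 0 := Complex.exp_ne_zero _
  have hinv : Complex.exp (-((θ / 2 : ℝ) * I)) = u⁻¹ := Complex.exp_neg _
  have hsq : Complex.exp (θ * I) = u * u := by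
    rw [hu, ← Complex.exp_add]
    congr 1
    push_cast
    ring
  rw [eisSummand, coe_arcPt h0 h1, term, hinv, hsq, ← hu]
  have : (v 0 : ℂ) * (u * u) + v 1 = u * ((v 0 : ℂ) * u + v 1 * u⁻¹) := by field_simp
  rw [this, mul_zpow, ← mul_assoc, ← zpow_add₀ hu0, add_neg_cancel, zpow_zero, one_mul]

theorem summable_term {k : ℕ} (hk : 3 ≤ k) {θ : ℝ} (h0 : 0 < θ) (h1 : θ < π) :
    Summable (term k θ) := by
  refine Summable.congr ?_ fun v => exp_mul_eisSummand h0 h1 v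
  exact (summable_norm_eisSummand (Int.ofNat_le.2 hk) _).of_norm.mul_left _

theorem arcFun_eq {k : ℕ} (hk : 3 ≤ k) {θ : ℝ} (h0 : 0 < θ) (h1 : θ < π) :
    arcFun hk θ = 1 / 2 * ∑' v, (gammaSet 1 1 0).indicator (term k θ) v := by
  rw [arcFun, E_apply, mul_left_comm, ← tsum_mul_left, ← tsum_subtype]
  simp only [exp_mul_eisSummand h0 h1]

theorem conj_term (k : ℕ) (θ : ℝ) (v : Fin 2 → ℤ) :
    conj (term k θ v) = term k θ ![v 1, v 0] := by
  simp only [term, map_zpow₀, map_add, map_mul, map_intCast, ← Complex.exp_conj, map_neg,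
    Complex.conj_ofReal, Complex.conj_I, Matrix.cons_val_zero, Matrix.cons_val_one,
    Matrix.cons_val_fin_one, mul_neg, neg_neg]
  rw [add_comm]

theorem arcFun_real {k : ℕ} (hk : 3 ≤ k) {θ : ℝ} (h0 : 0 < θ) (h1 : θ < π) :
    conj (arcFun hk θ) = arcFun hk θ := by
  rw [arcFun_eq hk h0 h1, map_mul, Complex.conj_tsum]
  simp only [one_div, map_inv₀, map_ofNat]
  congr 1
  let e : (Fin 2 → ℤ) ≃ (Fin 2 → ℤ) :=
    ⟨fun v => ![v 1, v 0], fun v => ![v 1, v 0], fun v => by ext i; fin_cases i <;> simp,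
      fun v => by ext i; fin_cases i <;> simp⟩
  rw [← e.tsum_eq]
  refine tsum_congr fun v => ?_
  have hiff : e v ∈ gammaSet 1 1 0 ↔ v ∈ gammaSet 1 1 0 := by
    rw [mem_gammaSet_one, mem_gammaSet_one]
    exact isCoprime_comm
  have he : (![(e v) 1, (e v) 0] : Fin 2 → ℤ) = v := by ext i; fin_cases i <;> simp [e]
  by_cases hv : v ∈ gammaSet 1 1 0
  · rw [Set.indicator_of_mem (hiff.2 hv), Set.indicator_of_mem hv, conj_term, he]
  · rw [Set.indicator_of_notMem fun h => hv (hiff.1 h), Set.indicator_of_notMem hv, map_zero]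

theorem norm_term (m : ℕ) (θ : ℝ) (v : Fin 2 → ℤ) :
    ‖term (2 * m) θ v‖ =
      (((v 0 : ℝ) ^ 2 + (v 1 : ℝ) ^ 2 + 2 * v 0 * v 1 * Real.cos θ)⁻¹) ^ m := by
  rw [term, zpow_neg, zpow_natCast, norm_inv, norm_pow, pow_mul, ← inv_pow,
    ← Complex.normSq_eq_norm_sq]
  congr 2
  rw [← neg_mul, ← Complex.ofReal_neg, Complex.normSq_apply]
  simp only [Complex.add_re, Complex.add_im, Complex.mul_re, Complex.mul_im, Complex.intCast_re,
    Complex.intCast_im, Complex.exp_ofReal_mul_I_re, Complex.exp_ofReal_mul_I_im, Real.cos_neg,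
    Real.sin_neg]
  rw [show Real.cos θ = Real.cos (θ / 2) ^ 2 - Real.sin (θ / 2) ^ 2 by
    rw [← Real.cos_two_mul', mul_div_cancel₀ _ two_ne_zero]]
  linear_combination ((v 0 : ℝ) ^ 2 + (v 1 : ℝ) ^ 2) * Real.sin_sq_add_cos_sq (θ / 2)

theorem wt_nonneg (n : ℤ) : 0 ≤ wt n := by unfold wt; positivity

theorem summable_wt : Summable wt ∧ ∑' n, wt n ≤ 13 / 3 := by
  have hb : ∀ n : ℕ, (1 : ℝ) / (((n : ℝ) + 1) ^ 2 + 1) ≤ 1 / ((n : ℝ) + 1) ^ 2 := fun n =>
    one_div_le_one_div_of_le (by positivity) (by linarith)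
  have hz := (hasSum_nat_add_iff' 1).2 hasSum_zeta_two
  simp only [Finset.sum_range_one, Nat.cast_zero, ne_eq, OfNat.ofNat_ne_zero, not_false_eq_true,
    zero_pow, div_zero, sub_zero, Nat.cast_add, Nat.cast_one] at hz
  have hs : Summable fun n : ℕ => (1 : ℝ) / (((n : ℝ) + 1) ^ 2 + 1) :=
    Summable.of_nonneg_of_le (fun n => by positivity) hb hz.summable
  have hle := (hs.tsum_le_tsum hb hz.summable).trans_eq hz.tsum_eq
  have hneg : (fun n : ℕ => wt (-((n : ℤ) + 1))) = fun n : ℕ => 1 / (((n : ℝ) + 1) ^ 2 + 1) :=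
    funext fun n => by simp [wt]; ring
  have hnat : Summable fun n : ℕ => wt n := by
    refine (summable_nat_add_iff 1).1 (hs.congr fun n => ?_)
    simp [wt]
  refine ⟨.of_nat_of_neg_add_one hnat (hneg ▸ hs), ?_⟩
  rw [tsum_of_nat_of_neg_add_one hnat (hneg ▸ hs), hneg, hnat.tsum_eq_zero_add]
  have : ∑' n : ℕ, wt ((n + 1 : ℕ) : ℤ) = ∑' n : ℕ, 1 / (((n : ℝ) + 1) ^ 2 + 1) :=
    tsum_congr fun n => by simp [wt]
  rw [this]
  simp [wt] at hle ⊢
  nlinarith [Real.pi_pos, Real.pi_lt_d2]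

theorem tail_le {c d : ℤ} (h : 5 ≤ c ^ 2 + d ^ 2) {x : ℝ} (hx : |x| ≤ 1 / 2) {m : ℕ} (hm : 6 ≤ m) :
    (((c : ℝ) ^ 2 + (d : ℝ) ^ 2 + 2 * c * d * x)⁻¹) ^ m ≤ 256 / 5000 * (wt c * wt d) := by
  have hN : (5 : ℝ) ≤ (c : ℝ) ^ 2 + (d : ℝ) ^ 2 := by exact_mod_cast h
  set N := (c : ℝ) ^ 2 + (d : ℝ) ^ 2
  have hQ : N / 2 ≤ N + 2 * c * d * x := by
    have h1 : |2 * (c : ℝ) * d * x| ≤ N * (1 / 2) := by
      rw [abs_mul]
      exact mul_le_mul (abs_le.2 ⟨by nlinarith [sq_nonneg ((c : ℝ) + d)],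
        by nlinarith [sq_nonneg ((c : ℝ) - d)]⟩) hx (abs_nonneg _) (by linarith)
    linarith [(abs_le.1 h1).1]
  have hinv : (N + 2 * c * d * x)⁻¹ ≤ 2 / N := by
    rw [← inv_div]
    exact inv_anti₀ (by linarith) hQ
  refine (pow_le_pow_left₀ (inv_nonneg.2 (by linarith)) hinv m).trans ?_
  obtain ⟨r, rfl⟩ := Nat.exists_eq_add_of_le hm
  have h25 : 2 / N ≤ 2 / 5 := div_le_div_of_nonneg_left (by norm_num) (by norm_num) hN
  have h0 : 0 ≤ 2 / N := by positivity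
  have h4 : (2 / N) ^ (6 + r) ≤ (2 / 5) ^ 4 * (2 / N) ^ 2 := by
    rw [show 6 + r = r + 4 + 2 by omega, pow_add, pow_add]
    refine mul_le_mul_of_nonneg_right ((mul_le_mul (pow_le_one₀ h0 (by linarith))
      (pow_le_pow_left₀ h0 h25 4) (by positivity) zero_le_one).trans_eq (one_mul _)) (by positivity)
  refine h4.trans ?_
  have hw : 1 / N ^ 2 ≤ 49 / 100 * (wt c * wt d) := by
    have hcd : ((c : ℝ) ^ 2 + 1) * ((d : ℝ) ^ 2 + 1) ≤ 49 / 100 * N ^ 2 := by
      nlinarith [sq_nonneg ((c : ℝ) ^ 2 - (d : ℝ) ^ 2)]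
    rw [wt, wt, one_div_mul_one_div, mul_one_div,
      div_le_div_iff₀ (by positivity) (by positivity)]
    linarith
  rw [div_pow, div_pow, show (2 : ℝ) ^ 2 / N ^ 2 = 4 * (1 / N ^ 2) by ring]
  nlinarith [mul_nonneg (wt_nonneg c) (wt_nonneg d)]

/-- The pairs with `c² + d² ≤ 2`. -/
def small : Finset (Fin 2 → ℤ) :=
  {![1, 0], ![-1, 0], ![0, 1], ![0, -1], ![1, 1], ![-1, -1], ![1, -1], ![-1, 1]}

theorem five_le_of_not_small {v : Fin 2 → ℤ} (hv : v ∈ gammaSet 1 1 0) (hs : v ∉ small) :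
    5 ≤ (v 0) ^ 2 + (v 1) ^ 2 := by
  rw [mem_gammaSet_one] at hv
  by_contra h
  have h0 : |v 0| ≤ 2 := abs_le.2 ⟨by nlinarith, by nlinarith⟩
  have h1 : |v 1| ≤ 2 := abs_le.2 ⟨by nlinarith, by nlinarith⟩
  have e : v = ![v 0, v 1] := by ext i; fin_cases i <;> simp
  rw [e] at hs
  obtain ⟨a, b⟩ := abs_le.1 h0
  obtain ⟨a', b'⟩ := abs_le.1 h1
  rw [Int.isCoprime_iff_gcd_eq_one] at hv
  interval_cases hc : v 0 <;> interval_cases hd : v 1 <;>
    first
      | omega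
      | exact absurd hv (by decide)
      | exact hs (by decide)

/-- **The approximation on the arc.** -/
theorem norm_arcFun_sub {m : ℕ} (hm : 6 ≤ m) (hk : 3 ≤ 2 * m) {θ : ℝ}
    (hθ : θ ∈ Set.Icc (π / 2) (2 * π / 3)) :
    ‖arcFun hk θ - 2 * (Real.cos ((2 * m : ℕ) * θ / 2) : ℂ)‖ < 2 := by
  have h0 : 0 < θ := by linarith [hθ.1, Real.pi_pos]
  have h1 : θ < π := by linarith [hθ.2, Real.pi_pos]
  have hx : |Real.cos θ| ≤ 1 / 2 := by
    have hn : Real.cos θ ≤ 0 := Real.cos_nonpos_of_pi_div_two_le_of_le hθ.1 (by linarith)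
    have : Real.cos (2 * π / 3) ≤ Real.cos θ :=
      Real.cos_le_cos_of_nonneg_of_le_pi h0.le (by linarith [Real.pi_pos]) hθ.2
    rw [show 2 * π / 3 = π - π / 3 by ring, Real.cos_pi_sub, Real.cos_pi_div_three] at this
    exact abs_le.2 ⟨by linarith, by linarith⟩
  set g := (gammaSet 1 1 0).indicator (term (2 * m) θ)
  have hg : Summable g := (summable_term hk h0 h1).indicator _
  have hW := summable_wt
  have hprod : Summable fun v : Fin 2 → ℤ => 256 / 5000 * (wt (v 0) * wt (v 1)) := by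
    refine ((finTwoArrowEquiv ℤ).symm.summable_iff.1 ?_).mul_left _
    exact (hW.1.mul_of_nonneg hW.1 wt_nonneg wt_nonneg).congr fun p => by simp
  have htail : ‖∑' v : ((small : Set (Fin 2 → ℤ))ᶜ : Set (Fin 2 → ℤ)), g v‖ ≤
      256 / 5000 * (169 / 9) := by
    have hle : ∀ v : ((small : Set (Fin 2 → ℤ))ᶜ : Set (Fin 2 → ℤ)),
        ‖g v‖ ≤ 256 / 5000 * (wt (v.1 0) * wt (v.1 1)) := fun v => by
      by_cases hv : v.1 ∈ gammaSet 1 1 0
      · rw [show g v = term (2 * m) θ v.1 from Set.indicator_of_mem hv _, norm_term]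
        exact tail_le (five_le_of_not_small hv v.2) hx hm
      · rw [show g v = 0 from Set.indicator_of_notMem hv _, norm_zero]
        have := wt_nonneg (v.1 0)
        have := wt_nonneg (v.1 1)
        positivity
    refine (tsum_of_norm_bounded (hprod.subtype _).hasSum hle).trans ?_
    refine (Summable.tsum_subtype_le _ _ (fun v => by
      have := wt_nonneg (v 0); have := wt_nonneg (v 1); positivity) hprod).trans ?_
    rw [tsum_mul_left, ← (finTwoArrowEquiv ℤ).symm.tsum_eq]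
    refine mul_le_mul_of_nonneg_left ?_ (by norm_num)
    simp only [finTwoArrowEquiv_symm_apply, Matrix.cons_val_zero, Matrix.cons_val_one,
      Matrix.cons_val_fin_one]
    rw [← hW.1.tsum_mul_tsum hW.1 (hW.1.mul_of_nonneg hW.1 wt_nonneg wt_nonneg)]
    have : (0 : ℝ) ≤ ∑' n, wt n := tsum_nonneg wt_nonneg
    nlinarith [hW.2]
  have hsmall : ∀ v ∈ small, g v = term (2 * m) θ v := fun v hv => Set.indicator_of_mem (by
    rw [mem_gammaSet_one, Int.isCoprime_iff_gcd_eq_one]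
    revert v
    decide) _
  rw [arcFun_eq hk h0 h1, ← hg.sum_add_tsum_compl (s := small), Finset.sum_congr rfl hsmall]
  set T := ∑' v : ((small : Set (Fin 2 → ℤ))ᶜ : Set (Fin 2 → ℤ)), g v
  have hone : ∀ v : Fin 2 → ℤ, ∀ b : ℝ, 0 < b →
      b ≤ (v 0 : ℝ) ^ 2 + (v 1 : ℝ) ^ 2 + 2 * v 0 * v 1 * Real.cos θ →
        ‖term (2 * m) θ v‖ ≤ b⁻¹ ^ m := fun v b hb hle => by
    rw [norm_term]
    exact pow_le_pow_left₀ (inv_nonneg.2 (hb.le.trans hle)) (inv_anti₀ hb hle) m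
  have hc := (abs_le.1 hx).1
  have hn : Real.cos θ ≤ 0 := Real.cos_nonpos_of_pi_div_two_le_of_le hθ.1 (by linarith)
  have p1 := hone ![1, 1] 1 one_pos (by simp; linarith)
  have p2 := hone ![-1, -1] 1 one_pos (by simp; linarith)
  have p3 := hone ![1, -1] 2 two_pos (by simp; linarith)
  have p4 := hone ![-1, 1] 2 two_pos (by simp; linarith)
  rw [inv_one, one_pow] at p1 p2
  have h64 : (2 : ℝ)⁻¹ ^ m ≤ 1 / 64 :=
    (pow_le_pow_of_le_one (by norm_num) (by norm_num) hm).trans_eq (by norm_num)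
  have main : term (2 * m) θ ![1, 0] + term (2 * m) θ ![-1, 0] + term (2 * m) θ ![0, 1] +
      term (2 * m) θ ![0, -1] = 4 * (Real.cos ((2 * m : ℕ) * θ / 2) : ℂ) := by
    simp only [term, Matrix.cons_val_zero, Matrix.cons_val_one, Matrix.cons_val_fin_one,
      Int.cast_one, Int.cast_zero, Int.cast_neg, one_mul, zero_mul, add_zero, zero_add, neg_mul,
      Even.neg_zpow (show Even (-((2 * m : ℕ) : ℤ)) by simp)]
    rw [← Complex.exp_int_mul, ← Complex.exp_int_mul, Complex.ofReal_cos, Complex.cos]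
    push_cast
    ring_nf
  rw [small, Finset.sum_insert (by decide), Finset.sum_insert (by decide),
    Finset.sum_insert (by decide), Finset.sum_insert (by decide), Finset.sum_insert (by decide),
    Finset.sum_insert (by decide), Finset.sum_insert (by decide), Finset.sum_singleton]
  set A := term (2 * m) θ ![1, 1]
  set B := term (2 * m) θ ![-1, -1]
  set C := term (2 * m) θ ![1, -1]
  set D := term (2 * m) θ ![-1, 1]
  have e : 1 / 2 * (term (2 * m) θ ![1, 0] + (term (2 * m) θ ![-1, 0] +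
      (term (2 * m) θ ![0, 1] + (term (2 * m) θ ![0, -1] + (A + (B + (C + D)))))) + T) -
      2 * (Real.cos ((2 * m : ℕ) * θ / 2) : ℂ) = 1 / 2 * (A + B + C + D + T) := by
    linear_combination (1 / 2 : ℂ) * main
  rw [e, norm_mul]
  have := norm_add_le (A + B + C + D) T
  have := norm_add_le (A + B + C) D
  have := norm_add_le (A + B) C
  have := norm_add_le A B
  norm_num
  linarith

theorem continuousOn_arcFun {k : ℕ} (hk : 3 ≤ k) : ContinuousOn (arcFun hk) (Set.Ioo 0 π) := by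
  refine ((by fun_prop : Continuous fun θ : ℝ => Complex.exp ((θ / 2 : ℝ) * I)).continuousOn.zpow₀
    _ fun θ _ => Or.inl (Complex.exp_ne_zero _)).mul ?_
  refine fun θ hθ => (ContinuousAt.comp (f := fun x : ℝ => Complex.exp (x * I))
    (g := ModularForm.E hk ∘ ofComplex) ?_ (by fun_prop)).continuousWithinAt
  have him : 0 < (Complex.exp (θ * I)).im := by
    rw [Complex.exp_ofReal_mul_I_im]
    exact Real.sin_pos_of_pos_of_lt_pi hθ.1 hθ.2
  exact ((UpperHalfPlane.mdifferentiable_iff.1 (ModularForm.E hk).holo').differentiableAt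
    (isOpen_upperHalfPlaneSet.mem_nhds him)).continuousAt

/-- The arguments `2 n π / k` in `[π/2, 2 π/3]`. -/
theorem node_mem {k n : ℕ} (hk : 0 < k) (h1 : k ≤ 4 * n) (h2 : 3 * n ≤ k) :
    2 * n * π / k ∈ Set.Icc (π / 2) (2 * π / 3) := by
  have hk' : (0 : ℝ) < k := Nat.cast_pos.2 hk
  have e1 : (k : ℝ) ≤ 4 * n := by exact_mod_cast h1
  have e2 : 3 * (n : ℝ) ≤ k := by exact_mod_cast h2
  constructor
  · rw [div_le_div_iff₀ (by norm_num) hk']
    nlinarith [Real.pi_pos]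
  · rw [div_le_div_iff₀ hk' (by norm_num)]
    nlinarith [Real.pi_pos]

/-- The sign at a node. -/
theorem re_arcFun_node {m n : ℕ} (hm : 6 ≤ m) (hk : 3 ≤ 2 * m) (h1 : 2 * m ≤ 4 * n)
    (h2 : 3 * n ≤ 2 * m) :
    0 < (-1 : ℝ) ^ n * (arcFun hk (2 * n * π / (2 * m : ℕ))).re := by
  have h := norm_arcFun_sub hm hk (node_mem (by omega) h1 h2)
  rw [show ((2 * m : ℕ) : ℝ) * (2 * n * π / (2 * m : ℕ)) / 2 = n * π by
    have : ((2 * m : ℕ) : ℝ) ≠ 0 := by
      rw [Nat.cast_ne_zero]; omega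
    field_simp, Real.cos_nat_mul_pi] at h
  have h3 := (Complex.abs_re_le_norm _).trans_lt h
  rw [abs_lt] at h3
  simp only [Complex.sub_re, Complex.mul_re, Complex.re_ofNat, Complex.im_ofNat,
    Complex.ofReal_re, zero_mul, sub_zero] at h3
  rcases neg_one_pow_eq_or ℝ n with e | e <;> rw [e] at h3 ⊢ <;> linarith

/-- A zero between consecutive nodes. -/
theorem exists_zero {m n : ℕ} (hm : 6 ≤ m) (hk : 3 ≤ 2 * m) (h1 : 2 * m ≤ 4 * n)
    (h2 : 3 * (n + 1) ≤ 2 * m) :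
    ∃ θ ∈ Set.Ioo (2 * n * π / (2 * m : ℕ)) (2 * (n + 1 : ℕ) * π / (2 * m : ℕ)),
      ModularForm.E hk (arcPt θ) = 0 := by
  set a := 2 * n * π / ((2 * m : ℕ) : ℝ)
  set b := 2 * ((n + 1 : ℕ) : ℝ) * π / ((2 * m : ℕ) : ℝ)
  have ha := node_mem (k := 2 * m) (n := n) (by omega) h1 (by omega)
  have hb := node_mem (k := 2 * m) (n := n + 1) (by omega) (by omega) h2
  have hab : a ≤ b := div_le_div_of_nonneg_right
    (by push_cast; nlinarith [Real.pi_pos]) (Nat.cast_nonneg _)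
  have hsub : Set.Icc a b ⊆ Set.Ioo 0 π := fun x hx =>
    ⟨by linarith [hx.1, ha.1, Real.pi_pos], by linarith [hx.2, hb.2, Real.pi_pos]⟩
  have hc : ContinuousOn (fun x => (arcFun hk x).re) (Set.Icc a b) :=
    Complex.continuous_re.comp_continuousOn ((continuousOn_arcFun hk).mono hsub)
  have sa := re_arcFun_node hm hk h1 (by omega : 3 * n ≤ 2 * m)
  have sb := re_arcFun_node hm hk (by omega : 2 * m ≤ 4 * (n + 1)) h2
  rw [pow_succ] at sb
  obtain ⟨x, hx, hx0⟩ : (0 : ℝ) ∈ (fun x => (arcFun hk x).re) '' Set.Ioo a b := by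
    rcases neg_one_pow_eq_or ℝ n with e | e <;> rw [e] at sa sb
    · exact intermediate_value_Ioo' hab hc ⟨by linarith, by linarith⟩
    · exact intermediate_value_Ioo hab hc ⟨by linarith, by linarith⟩
  have hx' := hsub (Set.Ioo_subset_Icc_self hx)
  have h : arcFun hk x = 0 :=
    Complex.ext hx0 (Complex.conj_eq_iff_im.1 (arcFun_real hk hx'.1 hx'.2))
  exact ⟨x, hx, (mul_eq_zero.1 h).resolve_left (zpow_ne_zero _ (Complex.exp_ne_zero _))⟩

end FA.EisArc

end
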