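import Fermat.Agent.Tau.EisensteinArc
import Fermat.Agent.Tau.JPolynomial
import Fermat.Agent.Tau.DiagonalMultiplicity

/-!
# The theorem of Rankin and Swinnerton-Dyer

`E_k ^ 12 / Δ ^ k = P(j)` with `deg P ≤ k`, and a zero of `E_k` gives a root of `P` of multiplicity
at least `12` unless its invariant is `0` or `1728`; the zeros on the arc leave room for no other.
-/

set_option autoImplicit false

noncomputable section

namespace FA.EisArc

open UpperHalfPlane hiding I
open Complex (I)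
open Filter EisensteinSeries ModularGroup FA.ModField
open scoped MatrixGroups Topology Real ComplexConjugate Modular Manifold

/-- The arc from `ρ` to `i`. -/
def OnArc (z : ℍ) : Prop := ‖(z : ℂ)‖ = 1 ∧ -(1 / 2) ≤ z.re ∧ z.re ≤ 0

theorem OnArc.mem_fd {z : ℍ} (h : OnArc z) : z ∈ 𝒟 :=
  ⟨by rw [Complex.normSq_eq_norm_sq, h.1]; norm_num,
    abs_le.2 ⟨h.2.1, by linarith [h.2.2]⟩⟩

theorem onArc_I : OnArc UpperHalfPlane.I := by
  refine ⟨by simp, ?_, ?_⟩ <;> rw [show UpperHalfPlane.I.re = 0 from Complex.I_re] <;> norm_num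

theorem onArc_rho : OnArc rho := by
  refine ⟨?_, ?_, ?_⟩
  · rw [Complex.norm_def, Complex.normSq_apply, Real.sqrt_eq_one]
    simp [rho]
    nlinarith [Real.mul_self_sqrt (show (0 : ℝ) ≤ 3 by norm_num)]
  · simp [rho]; norm_num
  · simp [rho]; norm_num

theorem re_S_smul {z : ℍ} (h : ‖(z : ℂ)‖ = 1) : (S • z).re = -z.re := by
  rw [modular_S_smul]
  show ((-(z : ℂ))⁻¹).re = -(z : ℂ).re
  rw [Complex.inv_re, Complex.normSq_eq_norm_sq, norm_neg, h]
  simp

/-- `j` is injective at the inner points of the arc. -/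
theorem arc_unique {z w : ℍ} (hz : OnArc z) (h1 : -(1 / 2) < z.re) (h2 : z.re < 0) (hw : OnArc w)
    (h : jfun z = jfun w) : z = w := by
  obtain ⟨g, hg⟩ := (FA.JInj.jfun_eq_iff z w).1 h
  have hρ : z ≠ UpperHalfPlane.ρ := fun e => by
    rw [e] at h1; simp [UpperHalfPlane.ρ] at h1; linarith
  have hρ' : z ≠ (1 : ℝ) +ᵥ UpperHalfPlane.ρ := fun e => by
    rw [e] at h2; simp [UpperHalfPlane.ρ] at h2; linarith
  rcases cases_of_mem_fd_smul_mem_fd hz.mem_fd (hg ▸ hw.mem_fd) with
    h' | h' | h' | ⟨h', hn⟩ | h' | h' | h' | h' | h' | h'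
  · rcases h' with rfl | rfl <;> simpa using hg
  · linarith [h'.2]
  · linarith [h'.2]
  · have : (g • z).re = -z.re := by
      rcases h' with rfl | rfl
      · exact re_S_smul hn
      · rw [ModularGroup.SL_neg_smul]; exact re_S_smul hn
    rw [hg] at this
    linarith [hw.2.2]
  all_goals first | exact absurd h'.2 hρ | exact absurd h'.2 hρ'

/-- A point of the closed fundamental domain equivalent to one of the arc has norm `1`. -/
theorem norm_eq_one_of_equiv {τ w : ℍ} (hτ : τ ∈ 𝒟) (hw : OnArc w) {g : SL(2, ℤ)}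
    (hg : g • τ = w) : ‖(τ : ℂ)‖ = 1 := by
  have hρ : ∀ z : ℍ, (z = UpperHalfPlane.ρ ∨ z = (1 : ℝ) +ᵥ UpperHalfPlane.ρ) →
      ‖(z : ℂ)‖ = 1 := by
    rintro z (rfl | rfl) <;> rw [Complex.norm_def, Complex.normSq_apply, Real.sqrt_eq_one] <;>
      simp [UpperHalfPlane.ρ] <;>
      nlinarith [Real.mul_self_sqrt (show (0 : ℝ) ≤ 3 by norm_num)]
  have hT : ∀ {z : ℍ}, |τ.re| = |z.re| → z.im = τ.im → z = w → ‖(τ : ℂ)‖ = 1 := by
    intro z h1 h2 h3
    rw [← hw.1, ← h3, Complex.norm_def, Complex.norm_def, Complex.normSq_apply,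
      Complex.normSq_apply]
    simp only [UpperHalfPlane.coe_re, UpperHalfPlane.coe_im, h2, ← abs_mul_abs_self τ.re, h1,
      abs_mul_abs_self]
  rcases cases_of_mem_fd_smul_mem_fd hτ (hg ▸ hw.mem_fd) with
    h' | ⟨h', hre⟩ | ⟨h', hre⟩ | h' | h' | h' | h' | h' | h' | h'
  · rcases h' with rfl | rfl <;> simp at hg <;> rw [hg] <;> exact hw.1
  · have e : T • τ = w := by rcases h' with rfl | rfl <;> simpa using hg
    refine hT ?_ (im_T_smul (z := τ)) e
    rw [re_T_smul, hre]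
    norm_num
  · have e : T⁻¹ • τ = w := by rcases h' with rfl | rfl <;> simpa using hg
    refine hT ?_ (by simpa using im_T_zpow_smul τ (-1)) e
    rw [re_T_inv_smul, hre]
    norm_num
  · exact h'.2
  all_goals first | exact hρ τ (Or.inl h'.2) | exact hρ τ (Or.inr h'.2)

theorem onArc_arcPt {θ : ℝ} (hθ : θ ∈ Set.Icc (π / 2) (2 * π / 3)) :
    OnArc (arcPt θ) ∧ (arcPt θ).re = Real.cos θ := by
  have h0 : 0 < θ := by linarith [hθ.1, Real.pi_pos]
  have h1 : θ < π := by linarith [hθ.2, Real.pi_pos]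
  have hre : (arcPt θ).re = Real.cos θ := by
    rw [← UpperHalfPlane.coe_re, coe_arcPt h0 h1, Complex.exp_ofReal_mul_I_re]
  refine ⟨⟨by rw [coe_arcPt h0 h1, Complex.norm_exp_ofReal_mul_I], ?_, ?_⟩, hre⟩
  · rw [hre]
    have : Real.cos (2 * π / 3) ≤ Real.cos θ :=
      Real.cos_le_cos_of_nonneg_of_le_pi h0.le (by linarith [Real.pi_pos]) hθ.2
    rw [show 2 * π / 3 = π - π / 3 by ring, Real.cos_pi_sub, Real.cos_pi_div_three] at this
    linarith
  · rw [hre]
    exact Real.cos_nonpos_of_pi_div_two_le_of_le hθ.1 (by linarith)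

theorem re_arcPt_mem {θ : ℝ} (hθ : θ ∈ Set.Ioo (π / 2) (2 * π / 3)) :
    (arcPt θ).re ∈ Set.Ioo (-(1 / 2) : ℝ) 0 := by
  rw [(onArc_arcPt (Set.Ioo_subset_Icc_self hθ)).2]
  refine ⟨?_, Real.cos_neg_of_pi_div_two_lt_of_lt hθ.1 (by linarith [hθ.2, Real.pi_pos])⟩
  have : Real.cos (2 * π / 3) < Real.cos θ :=
    Real.cos_lt_cos_of_nonneg_of_le_pi (by linarith [hθ.1, Real.pi_pos])
      (by linarith [Real.pi_pos]) hθ.2
  rw [show 2 * π / 3 = π - π / 3 by ring, Real.cos_pi_sub, Real.cos_pi_div_three] at this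
  linarith

theorem jfun_inner_ne {z : ℍ} (hz : OnArc z) (h1 : -(1 / 2) < z.re) (h2 : z.re < 0) :
    jfun z ≠ 0 ∧ jfun z ≠ 1728 := by
  constructor <;> intro h
  · have := arc_unique hz h1 h2 onArc_rho (h.trans jfun_rho.symm)
    rw [this] at h1
    simp [rho] at h1
    linarith
  · have := arc_unique hz h1 h2 onArc_I (h.trans jfun_I.symm)
    rw [this, show UpperHalfPlane.I.re = 0 from Complex.I_re] at h2
    linarith

/-- `j` is real on the arc, between `0` and `1728`. -/
theorem jfun_arc {z : ℍ} (hz : OnArc z) :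
    (jfun z).im = 0 ∧ (jfun z).re ∈ Set.Icc (0 : ℝ) 1728 := by
  have hreal : ∀ w : ℍ, OnArc w → (jfun w).im = 0 := fun w hw => by
    have hm : FA.RealModuli.mirror w = S • w := by
      rw [modular_S_smul]
      refine UpperHalfPlane.ext ?_
      rw [FA.RealModuli.coe_mirror]
      show -conj (w : ℂ) = (-(w : ℂ))⁻¹
      rw [inv_neg, Complex.inv_def, Complex.normSq_eq_norm_sq, hw.1]
      simp
    have := FA.RealModuli.jfun_mirror w
    rw [hm, jfun_smul] at this
    exact Complex.conj_eq_iff_im.1 this.symm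
  refine ⟨hreal z hz, ?_⟩
  set θ₀ := Real.arccos z.re with hθ₀
  have hθ : θ₀ ∈ Set.Icc (π / 2) (2 * π / 3) := by
    constructor
    · rw [hθ₀, ← Real.arccos_zero]
      exact Real.arccos_le_arccos hz.2.2
    · rw [hθ₀, show 2 * π / 3 = Real.arccos (-(1 / 2)) by
        rw [Real.arccos_neg, ← Real.cos_pi_div_three,
          Real.arccos_cos (by positivity) (by linarith [Real.pi_pos])]
        ring]
      exact Real.arccos_le_arccos hz.2.1
  obtain ⟨ha, hre⟩ := onArc_arcPt hθ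
  have hz' : arcPt θ₀ = z := by
    rw [Real.cos_arccos (by linarith [hz.2.1]) (by linarith [hz.2.2])] at hre
    refine UpperHalfPlane.ext (Complex.ext hre ?_)
    have e := congrArg (· ^ 2) ha.1
    have e' := congrArg (· ^ 2) hz.1
    simp only [← Complex.normSq_eq_norm_sq, Complex.normSq_apply, UpperHalfPlane.coe_re,
      UpperHalfPlane.coe_im, hre] at e e' ⊢
    nlinarith [(arcPt θ₀).im_pos, z.im_pos]
  set J : ℝ → ℝ := fun θ => (jfun (arcPt θ)).re with hJ
  have hc : ContinuousOn J (Set.Icc (π / 2) (2 * π / 3)) := by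
    refine Complex.continuous_re.comp_continuousOn fun θ hθ => ?_
    refine (ContinuousAt.comp (f := fun x : ℝ => Complex.exp (x * I)) (g := jfun ∘ ofComplex) ?_
      (by fun_prop)).continuousWithinAt
    have him : 0 < (Complex.exp (θ * I)).im := by
      rw [Complex.exp_ofReal_mul_I_im]
      exact Real.sin_pos_of_pos_of_lt_pi (by linarith [hθ.1, Real.pi_pos])
        (by linarith [hθ.2, Real.pi_pos])
    exact (FA.Picard.analyticOnNhd_jfun _ him).continuousAt
  have hend1 : J (π / 2) = 1728 := by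
    simp only [hJ, arcPt]
    push_cast
    rw [Complex.exp_pi_div_two_mul_I, ← UpperHalfPlane.coe_I, ofComplex_apply, jfun_I]
    norm_num
  have hend2 : J (2 * π / 3) = 0 := by
    have : arcPt (2 * π / 3) = rho := by
      refine UpperHalfPlane.ext ?_
      rw [coe_arcPt (by positivity) (by linarith [Real.pi_pos]),
        show 2 * π / 3 = π - π / 3 by ring]
      refine Complex.ext ?_ ?_
      · rw [Complex.exp_ofReal_mul_I_re, Real.cos_pi_sub, Real.cos_pi_div_three]
        simp [rho]; norm_num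
      · rw [Complex.exp_ofReal_mul_I_im, Real.sin_pi_sub, Real.sin_pi_div_three]
        simp [rho]
    rw [hJ]
    simp [this, jfun_rho]
  have hnot : ∀ θ ∈ Set.Ioo (π / 2) (2 * π / 3), J θ ≠ 0 ∧ J θ ≠ 1728 := fun θ hθ => by
    obtain ⟨ha, -⟩ := onArc_arcPt (Set.Ioo_subset_Icc_self hθ)
    obtain ⟨h1, h2⟩ := re_arcPt_mem hθ
    obtain ⟨n1, n2⟩ := jfun_inner_ne ha h1 h2
    exact ⟨fun e => n1 (Complex.ext (by simpa [hJ] using e) (by simpa using hreal _ ha)),
      fun e => n2 (Complex.ext (by simpa [hJ] using e) (by simpa using hreal _ ha))⟩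
  have key : J θ₀ ∈ Set.Icc (0 : ℝ) 1728 := by
    by_contra hno
    rcases hθ.1.lt_or_eq with h3 | h3
    swap; · exact hno (by rw [← h3, hend1]; norm_num)
    rcases hθ.2.lt_or_eq with h4 | h4
    swap; · exact hno (by rw [h4, hend2]; norm_num)
    rw [Set.mem_Icc, not_and_or, not_le, not_le] at hno
    rcases hno with h5 | h5
    · obtain ⟨x, hx, hx0⟩ := intermediate_value_Ioo' h3.le
        (hc.mono (Set.Icc_subset_Icc le_rfl h4.le))
        (show (0 : ℝ) ∈ Set.Ioo (J θ₀) (J (π / 2)) from ⟨h5, by rw [hend1]; norm_num⟩)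
      exact (hnot x ⟨hx.1, hx.2.trans h4⟩).1 hx0
    · obtain ⟨x, hx, hx0⟩ := intermediate_value_Ioo' h4.le
        (hc.mono (Set.Icc_subset_Icc h3.le le_rfl))
        (show (1728 : ℝ) ∈ Set.Ioo (J (2 * π / 3)) (J θ₀) from ⟨by rw [hend2]; norm_num, h5⟩)
      exact (hnot x ⟨h3.trans hx.1, hx.2⟩).2 hx0
  simpa only [hJ, hz'] using key

theorem E_smul {k : ℕ} (hk : 3 ≤ k) (g : SL(2, ℤ)) (z : ℍ) :
    ModularForm.E hk (g • z) = denom g z ^ (k : ℤ) * ModularForm.E hk z :=
  (slash_eq_iff_smul g).1 ((ModularForm.E hk).slash_action_eq' _ ⟨g, rfl⟩) z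

/-- A weight `2 mod 4` form vanishes at `i`. -/
theorem E_I {k : ℕ} (hk : 3 ≤ k) (h4 : k % 4 = 2) : ModularForm.E hk UpperHalfPlane.I = 0 := by
  have hS : S • UpperHalfPlane.I = UpperHalfPlane.I := by
    rw [modular_S_smul]
    refine UpperHalfPlane.ext ?_
    show (-(UpperHalfPlane.I : ℂ))⁻¹ = UpperHalfPlane.I
    simp
  have h := E_smul hk S UpperHalfPlane.I
  rw [hS, show denom (S : SL(2, ℤ)) UpperHalfPlane.I = I by simp [denom, ModularGroup.S],
    zpow_natCast, Complex.I_pow_eq_pow_mod, h4, Complex.I_sq, neg_one_mul, eq_neg_iff_add_eq_zero,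
    ← two_mul] at h
  simpa using h

/-- `E_k ^ 12 / Δ ^ k` as a polynomial in `j`. -/
theorem exists_poly {k : ℕ} (hk : 3 ≤ k) (hev : Even k) :
    ∃ P : Polynomial ℂ, P ≠ 0 ∧ P.natDegree ≤ k ∧
      ∀ z, ModularForm.E hk z ^ 12 = P.eval (jfun z) * ModularForm.discriminant z ^ k := by
  set f := ModularForm.E hk
  set g : ℍ → ℂ := fun z => f z ^ 12 * (ModularForm.discriminant z)⁻¹ ^ k with hg
  have hlimf : Tendsto f atImInfty (𝓝 1) := by
    have hper := SlashInvariantFormClass.periodic_comp_ofComplex f one_mem_strictPeriods_SL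
    have han := ModularFormClass.analyticAt_cuspFunction_zero f one_pos one_mem_strictPeriods_SL
    have h1 : cuspFunction 1 f 0 = 1 := by
      rw [cuspFunction_apply_zero one_pos han hper, ← qExpansion_coeff_zero one_pos han hper,
        E_qExpansion_coeff_zero hk hev]
    rw [← h1]
    exact (han.continuousAt.tendsto.comp (qParam_tendsto_atImInfty one_pos)).congr fun τ =>
      SlashInvariantFormClass.eq_cuspFunction f τ one_mem_strictPeriods_SL one_ne_zero
  have hlimD : Tendsto ModularForm.discriminant atImInfty (𝓝 0) :=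
    CuspFormClass.zero_at_infty CuspForm.discriminant
  have hlimE : Tendsto ModularForm.E₄ atImInfty (𝓝 1) := by
    have hE := tendsto_of_hasExp hasExp_E4 fun i hi => ModularCurve.ofPowerSeries_coeff_of_neg _ hi
    rwa [E4_series_zero] at hE
  have hmg : MDiff g := by
    rw [UpperHalfPlane.mdifferentiable_iff]
    exact ((UpperHalfPlane.mdifferentiable_iff.1 f.holo').pow 12).mul
      ((UpperHalfPlane.mdifferentiable_iff.1 mdiff_inv_discriminant).pow k)
  have hinv : ∀ γ : SL(2, ℤ), ∀ z, g (γ • z) = g z := fun γ z => by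
    simp only [hg, f, E_smul, discriminant_smul]
    have hd := denom_ne_zero (γ : GL (Fin 2) ℝ) z
    have hD := ModularForm.discriminant_ne_zero z
    rw [show (12 : ℤ) = ((12 : ℕ) : ℤ) from rfl, zpow_natCast, zpow_natCast]
    rw [mul_inv, mul_pow, mul_pow, inv_pow, ← pow_mul, ← pow_mul, mul_comm k 12]
    field_simp
  have hpole : FA.JPoly.PoleLe g k := by
    have h1 : (fun z : ℍ => (ModularForm.discriminant z)⁻¹) =O[atImInfty]
        fun z => (Real.exp (-2 * π * z.im))⁻¹ :=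
      ModularForm.exp_isBigO_discriminant.inv_rev
        (Eventually.of_forall fun z hz => absurd hz (Real.exp_pos _).ne')
    refine (((hlimf.isBigO_one ℝ).pow 12).mul (h1.pow k)).trans ?_
    refine .of_bound 1 (Eventually.of_forall fun z => ?_)
    rw [one_pow, one_mul, one_mul, ← Real.exp_neg, ← Real.exp_nat_mul,
      show (k : ℝ) * -(-2 * π * z.im) = 2 * π * k * z.im by ring]
  obtain ⟨P, hP⟩ := FA.JPoly.exists_eval_eq hmg hinv hpole
  have hP' : ∀ z, f z ^ 12 = P.eval (jfun z) * ModularForm.discriminant z ^ k := fun z => by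
    rw [← hP]
    simp only [hg, inv_pow]
    rw [inv_mul_cancel_right₀ (pow_ne_zero _ (ModularForm.discriminant_ne_zero z))]
  have hP0 : P ≠ 0 := fun h => by
    have : Tendsto (fun z => f z ^ 12) atImInfty (𝓝 0) :=
      tendsto_const_nhds.congr fun z => by rw [hP', h, Polynomial.eval_zero, zero_mul]
    simpa using tendsto_nhds_unique this (hlimf.pow 12)
  refine ⟨P, hP0, ?_, hP'⟩
  by_contra hd
  rw [not_le] at hd
  have h1 : Tendsto (fun z => P.eval (jfun z) * ModularForm.discriminant z ^ P.natDegree)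
      atImInfty (𝓝 0) := by
    have := (hlimf.pow 12).mul (hlimD.pow (P.natDegree - k))
    rw [zero_pow (Nat.sub_ne_zero_of_lt hd), mul_zero] at this
    refine this.congr fun z => ?_
    rw [hP', mul_assoc, ← pow_add, Nat.add_sub_cancel' hd.le]
  have h2 : Tendsto (fun z => P.eval (jfun z) * ModularForm.discriminant z ^ P.natDegree)
      atImInfty (𝓝 (∑ i ∈ Finset.range (P.natDegree + 1),
        P.coeff i * ((1 : ℂ) ^ 3) ^ i * (0 : ℂ) ^ (P.natDegree - i))) := by
    refine (tendsto_finsetSum _ fun i _ => ((((hlimE.pow 3).pow i).const_mul (P.coeff i)).mul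
      (hlimD.pow (P.natDegree - i)))).congr fun z => ?_
    rw [Polynomial.eval_eq_sum_range, Finset.sum_mul]
    refine Finset.sum_congr rfl fun i hi => ?_
    obtain ⟨r, hr⟩ := Nat.exists_eq_add_of_le (Finset.mem_range_succ_iff.1 hi)
    have hD := ModularForm.discriminant_ne_zero z
    rw [hr, Nat.add_sub_cancel_left, jfun, div_pow, pow_add]
    field_simp
  have := tendsto_nhds_unique h1 h2
  rw [Finset.sum_range_succ, Finset.sum_eq_zero fun i hi => by
    rw [zero_pow (Nat.sub_ne_zero_of_lt (Finset.mem_range.1 hi)), mul_zero]] at this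
  simp at this
  exact hP0 (Polynomial.leadingCoeff_eq_zero.1 this.symm)

/-- A zero gives a root of high multiplicity. -/
theorem mult_ge {k : ℕ} (hk : 3 ≤ k) {P : Polynomial ℂ} (hP0 : P ≠ 0)
    (hP : ∀ z, ModularForm.E hk z ^ 12 = P.eval (jfun z) * ModularForm.discriminant z ^ k)
    {τ : ℍ} (hτ : ModularForm.E hk τ = 0) :
    4 ≤ P.rootMultiplicity (jfun τ) ∧
      (jfun τ ≠ 0 → jfun τ ≠ 1728 → 12 ≤ P.rootMultiplicity (jfun τ)) := by
  obtain ⟨e, he, hord⟩ := FA.ClassRelation.exists_jOrder τ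
  obtain ⟨R, hR, hR0⟩ := P.exists_eq_pow_rootMultiplicity_mul_and_not_dvd hP0 (jfun τ)
  rw [Polynomial.dvd_iff_isRoot] at hR0
  set m := P.rootMultiplicity (jfun τ)
  set F : ℂ → ℂ := ModularForm.E hk ∘ ofComplex
  set D : ℂ → ℂ := ModularForm.discriminant ∘ ofComplex
  have hFa : AnalyticAt ℂ F τ := FA.ClassRelation.analyticAt_ext (ModularForm.E hk).holo' τ
  have hDa : AnalyticAt ℂ D τ :=
    FA.ClassRelation.analyticAt_ext CuspForm.discriminant.holo' τ
  have hja : AnalyticAt ℂ (fun z => FA.ClassRelation.jExt z - jfun τ) (τ : ℂ) :=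
    (FA.ClassRelation.analyticAt_jExt τ).fun_sub analyticAt_const
  have hRa : AnalyticAt ℂ (fun z => R.eval (FA.ClassRelation.jExt z)) (τ : ℂ) :=
    ((R.differentiable).analyticAt _).fun_comp (FA.ClassRelation.analyticAt_jExt τ)
  have h1 : analyticOrderAt (F ^ 12) (τ : ℂ) = analyticOrderAt
      ((((fun z => FA.ClassRelation.jExt z - jfun τ) ^ m) *
        fun z => R.eval (FA.ClassRelation.jExt z)) * D ^ k) (τ : ℂ) := by
    refine analyticOrderAt_congr ?_
    filter_upwards [isOpen_upperHalfPlaneSet.mem_nhds τ.im_pos] with z hz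
    have h := hP ⟨z, hz⟩
    rw [hR] at h
    simpa [F, D, FA.ClassRelation.jExt, ofComplex_apply_of_im_pos hz] using h
  rw [analyticOrderAt_pow hFa, analyticOrderAt_mul ((hja.pow m).mul hRa) (hDa.pow k),
    analyticOrderAt_mul (hja.pow m) hRa, analyticOrderAt_pow hja, analyticOrderAt_pow hDa, hord,
    hRa.analyticOrderAt_eq_zero.2
      (by simpa [FA.ClassRelation.jExt, Polynomial.IsRoot] using hR0),
    hDa.analyticOrderAt_eq_zero.2 (by simp [D, ModularForm.discriminant_ne_zero]),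
    smul_zero, add_zero, add_zero] at h1
  have hF1 : 1 ≤ analyticOrderAt F (τ : ℂ) :=
    Order.one_le_iff_ne_zero.2 (hFa.analyticOrderAt_ne_zero.2 (by simp [F, hτ]))
  have h12 : 12 ≤ m * e := by
    have : (12 : ℕ∞) ≤ 12 • analyticOrderAt F (τ : ℂ) := by
      rw [nsmul_eq_mul]
      exact le_mul_of_one_le_right zero_le hF1
    rw [h1, nsmul_eq_mul] at this
    exact_mod_cast this
  refine ⟨?_, fun n0 n1 => ?_⟩
  · rcases he with rfl | ⟨-, rfl⟩ | ⟨-, rfl⟩ <;> omega
  · have h := (FA.ClassRelation.analyticAt_jExt τ).analyticOrderAt_sub_eq_one_of_deriv_ne_zero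
      (FA.Picard.deriv_jfun_ne_zero n0 n1)
    simp only [FA.ClassRelation.jExt, Function.comp_apply, ofComplex_apply] at h hord
    rw [hord] at h
    rw [show e = 1 by exact_mod_cast h, mul_one] at h12
    exact h12

/-- The zeros on the arc. -/
theorem exists_arc_zeros {k : ℕ} (hk : 3 ≤ k) (hev : Even k) :
    ∃ s : Finset ℍ, s.card = k / 3 - (k + 3) / 4 ∧ Set.InjOn jfun s ∧
      ∀ τ ∈ s, ModularForm.E hk τ = 0 ∧ ‖(τ : ℂ)‖ = 1 ∧ -(1 / 2) < τ.re ∧ τ.re < 0 := by
  classical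
  obtain ⟨m, rfl⟩ := even_iff_two_dvd.1 hev
  by_cases hL : 2 * m / 3 ≤ (2 * m + 3) / 4
  · exact ⟨∅, by simp; omega, by simp, by simp⟩
  have hm : 6 ≤ m := by omega
  set I := Finset.Ico ((2 * m + 3) / 4) (2 * m / 3) with hI
  have hn : ∀ n ∈ I, 2 * m ≤ 4 * n ∧ 3 * (n + 1) ≤ 2 * m := fun n hn => by
    rw [hI, Finset.mem_Ico] at hn; omega
  choose! θ hθ h0 using fun n (h : n ∈ I) => exists_zero hm hk (hn n h).1 (hn n h).2
  have hin : ∀ n ∈ I, θ n ∈ Set.Ioo (π / 2) (2 * π / 3) := fun n h => by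
    have h1 := node_mem (k := 2 * m) (n := n) (by omega) (hn n h).1 (by have := hn n h; omega)
    have h2 := node_mem (k := 2 * m) (n := n + 1) (by omega) (by have := hn n h; omega) (hn n h).2
    exact ⟨h1.1.trans_lt (hθ n h).1, (hθ n h).2.trans_le h2.2⟩
  have hmono : ∀ a ∈ I, ∀ b ∈ I, a < b → θ a < θ b := fun a ha b hb hab =>
    ((hθ a ha).2.trans_le (div_le_div_of_nonneg_right (mul_le_mul_of_nonneg_right
      (mul_le_mul_of_nonneg_left (by exact_mod_cast hab) two_pos.le) Real.pi_pos.le)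
      (Nat.cast_nonneg _))).trans (hθ b hb).1
  have hinj : Set.InjOn (fun n => jfun (arcPt (θ n))) I := fun a ha b hb hab => by
    obtain ⟨oa, rea⟩ := onArc_arcPt (Set.Ioo_subset_Icc_self (hin a ha))
    obtain ⟨ob, reb⟩ := onArc_arcPt (Set.Ioo_subset_Icc_self (hin b hb))
    obtain ⟨l1, l2⟩ := re_arcPt_mem (hin a ha)
    have e := arc_unique oa l1 l2 ob hab
    rw [e, reb] at rea
    have := Real.injOn_cos ⟨by linarith [(hin b hb).1, Real.pi_pos],
      by linarith [(hin b hb).2, Real.pi_pos]⟩ ⟨by linarith [(hin a ha).1, Real.pi_pos],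
      by linarith [(hin a ha).2, Real.pi_pos]⟩ rea
    rcases lt_trichotomy a b with h | h | h
    · exact absurd this.symm (hmono a ha b hb h).ne
    · exact h
    · exact absurd this (hmono b hb a ha h).ne
  refine ⟨I.image fun n => arcPt (θ n), ?_, ?_, ?_⟩
  · rw [Finset.card_image_of_injOn fun a ha b hb h => hinj ha hb (congrArg jfun h), hI,
      Nat.card_Ico]
  · simp only [Finset.coe_image]
    rintro x ⟨a, ha, rfl⟩ y ⟨b, hb, rfl⟩ h
    rw [hinj ha hb h]
  · intro τ hτ
    obtain ⟨a, ha, rfl⟩ := Finset.mem_image.1 hτ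
    exact ⟨h0 a ha, (onArc_arcPt (Set.Ioo_subset_Icc_self (hin a ha))).1.1,
      re_arcPt_mem (hin a ha)⟩

/-- **Every zero is equivalent to a point of the arc.** -/
theorem zero_on_arc {k : ℕ} (hk : 3 ≤ k) (hev : Even k) {τ : ℍ} (hτ : ModularForm.E hk τ = 0) :
    ∃ g : SL(2, ℤ), OnArc (g • τ) := by
  classical
  suffices H : ∃ w, OnArc w ∧ jfun τ = jfun w by
    obtain ⟨w, hw, h⟩ := H
    obtain ⟨g, hg⟩ := (FA.JInj.jfun_eq_iff τ w).1 h
    exact ⟨g, hg ▸ hw⟩
  by_contra H
  push Not at H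
  obtain ⟨P, hP0, hdeg, hP⟩ := exists_poly hk hev
  obtain ⟨s, hcard, hinj, hs⟩ := exists_arc_zeros hk hev
  have hone : ∀ σ ∈ s, OnArc σ := fun σ h =>
    ⟨(hs σ h).2.1, (hs σ h).2.2.1.le, (hs σ h).2.2.2.le⟩
  have hne : ∀ σ ∈ s, jfun σ ≠ 0 ∧ jfun σ ≠ 1728 := fun σ h =>
    jfun_inner_ne (hone σ h) (hs σ h).2.2.1 (hs σ h).2.2.2
  have h0 := H rho onArc_rho
  have h1 := H UpperHalfPlane.I onArc_I
  rw [jfun_rho] at h0
  rw [jfun_I] at h1
  set T : Finset ℂ := s.image jfun
  have hτT : jfun τ ∉ T := fun h => by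
    obtain ⟨σ, hσ, he⟩ := Finset.mem_image.1 h
    exact H σ (hone σ hσ) he.symm
  have h1T : (1728 : ℂ) ∉ insert (jfun τ) T := fun h => by
    rcases Finset.mem_insert.1 h with h | h
    · exact h1 h.symm
    · obtain ⟨σ, hσ, he⟩ := Finset.mem_image.1 h
      exact (hne σ hσ).2 he
  have hsum : ∑ a ∈ insert 1728 (insert (jfun τ) T), P.roots.count a ≤ k :=
    ((Finset.sum_le_sum_of_subset (f := fun a => P.roots.count a) Finset.subset_union_left).trans_eq
      (Multiset.sum_count_eq_card (s := _ ∪ P.roots.toFinset) fun a ha =>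
        Finset.mem_union_right _ (Multiset.mem_toFinset.2 ha))).trans
      ((Polynomial.card_roots' P).trans hdeg)
  rw [Finset.sum_insert h1T, Finset.sum_insert hτT] at hsum
  simp only [Polynomial.count_roots] at hsum
  have hT : 12 * (k / 3 - (k + 3) / 4) ≤ ∑ a ∈ T, P.rootMultiplicity a := by
    rw [← hcard, ← Finset.card_image_of_injOn hinj, mul_comm, ← smul_eq_mul]
    refine Finset.card_nsmul_le_sum _ _ _ fun a ha => ?_
    obtain ⟨σ, hσ, rfl⟩ := Finset.mem_image.1 ha
    exact (mult_ge hk hP0 hP (hs σ hσ).1).2 (hne σ hσ).1 (hne σ hσ).2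
  have hτ12 := (mult_ge hk hP0 hP hτ).2 h0 h1
  obtain ⟨m, rfl⟩ := hev
  by_cases h4 : (m + m) % 4 = 2
  · have h4' := (mult_ge hk hP0 hP (E_I hk h4)).1
    rw [jfun_I] at h4'
    omega
  · omega

end FA.EisArc

end
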