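import Fermat.Agent.Dim.Cosets
import Fermat.Agent.Tau.ModularDiagonal
import Fermat.Agent.Tau.SingularModuli

/-!
# Integral matrices of a given determinant fixing a point

For `p > 1` such a matrix, if primitive, gives a coset of `Γ₀(p)` at which `j(p γ z)` takes the
value `j(τ)`, and the coset determines the matrix up to the stabiliser of `τ`. Every matrix is a
positive multiple of a primitive one.
-/

set_option autoImplicit false
set_option linter.style.haveILetI false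

noncomputable section

namespace FA.ClassRelation

open UpperHalfPlane hiding I
open FA.ModField FA.ModPoly FA.JInj
open scoped MatrixGroups

/-- The integral matrices of size two. -/
abbrev Mat := Matrix (Fin 2) (Fin 2) ℤ

/-- The fractional linear transformation of a matrix. -/
def mob (M : Mat) (z : ℂ) : ℂ := ((M 0 0 : ℂ) * z + M 0 1) / ((M 1 0 : ℂ) * z + M 1 1)

theorem mob_den_ne_zero {M : Mat} (h : M.det ≠ 0) (z : ℍ) :
    (M 1 0 : ℂ) * (z : ℂ) + M 1 1 ≠ 0 := fun e => by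
  obtain ⟨h1, h2⟩ := eq_zero_of_add e
  rw [Matrix.det_fin_two, h1, h2] at h
  simp at h

theorem mob_im {M : Mat} (z : ℂ) :
    (mob M z).im = (M.det : ℝ) * z.im / Complex.normSq ((M 1 0 : ℂ) * z + M 1 1) := by
  rw [mob, Complex.div_im, Matrix.det_fin_two, ← sub_div]
  congr 1
  simp [Complex.mul_re, Complex.mul_im]
  ring

theorem mob_im_pos {M : Mat} (h : 0 < M.det) (z : ℍ) : 0 < (mob M z).im := by
  rw [mob_im]
  exact div_pos (mul_pos (by exact_mod_cast h) z.im_pos)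
    (Complex.normSq_pos.2 (mob_den_ne_zero h.ne' z))

/-- The point `M z`. -/
def mobH {M : Mat} (h : 0 < M.det) (z : ℍ) : ℍ := ⟨mob M z, mob_im_pos h z⟩

theorem mob_mul {A B : Mat} (hB : 0 < B.det) (z : ℍ) :
    mob (A * B) z = mob A (mob B z) := by
  have hd := mob_den_ne_zero hB.ne' z
  have hm : mob B z * ((B 1 0 : ℂ) * z + B 1 1) = (B 0 0 : ℂ) * z + B 0 1 := div_mul_cancel₀ _ hd
  rw [show mob A (mob B z) = (((A 0 0 : ℂ) * mob B z + A 0 1) * ((B 1 0 : ℂ) * z + B 1 1)) /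
    (((A 1 0 : ℂ) * mob B z + A 1 1) * ((B 1 0 : ℂ) * z + B 1 1)) from
      (mul_div_mul_right _ _ hd).symm]
  rw [mob]
  simp only [Matrix.mul_apply, Fin.sum_univ_two]
  push_cast
  congr 1
  · linear_combination -(A 0 0 : ℂ) * hm
  · linear_combination -(A 1 0 : ℂ) * hm

theorem mob_SL (g : SL(2, ℤ)) (z : ℍ) : mob g z = ((g • z : ℍ) : ℂ) := by
  rw [coe_smul_int]
  rfl

theorem mob_diag (p : ℕ) [NeZero p] (z : ℍ) :
    mob !![(p : ℤ), 0; 0, 1] z = (scaleH p z : ℂ) := by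
  simp [mob, coe_scaleH]

/-- The matrix `g diag(p, 1) γ`. -/
def prodMat (p : ℕ) (g γ : SL(2, ℤ)) : Mat := (g : Mat) * !![(p : ℤ), 0; 0, 1] * (γ : Mat)

theorem det_prodMat (p : ℕ) (g γ : SL(2, ℤ)) : (prodMat p g γ).det = p := by
  simp [prodMat, Matrix.det_fin_two_of]

theorem mob_prodMat (p : ℕ) [NeZero p] (g γ : SL(2, ℤ)) (z : ℍ) :
    mob (prodMat p g γ) z = ((g • scaleH p (γ • z) : ℍ) : ℂ) := by
  have hp : 0 < (!![(p : ℤ), 0; 0, 1] : Mat).det := by
    simp [Matrix.det_fin_two_of, Nat.pos_of_ne_zero (NeZero.ne p)]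
  rw [prodMat, Matrix.mul_assoc,
    mob_mul (by rw [Matrix.det_mul, γ.det_coe, mul_one]; exact hp),
    mob_mul (by rw [γ.det_coe]; exact one_pos), mob_SL, mob_diag, mob_SL]

theorem jfun_prodMat (p : ℕ) [NeZero p] (g γ : SL(2, ℤ)) (z : ℍ) :
    jfun (ofComplex (mob (prodMat p g γ) z)) = fN p (γ • z) := by
  rw [mob_prodMat, ofComplex_apply, jfun_smul]
  rfl

/-- The matrices of determinant `n` fixing `τ`. -/
def FixMat (τ : ℍ) (n : ℤ) : Set Mat := {M | M.det = n ∧ mob M τ = τ}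

theorem fixes_iff {M : Mat} (h : M.det ≠ 0) (τ : ℍ) : mob M τ = (τ : ℂ) ↔
    (M 1 0 : ℂ) * (τ : ℂ) ^ 2 + ((M 1 1 : ℂ) - M 0 0) * τ - M 0 1 = 0 := by
  rw [mob, div_eq_iff (mob_den_ne_zero h τ)]
  constructor <;> intro e <;> linear_combination -e

/-- A prime is squarefree. -/
instance fact_squarefree {p : ℕ} [h : Fact p.Prime] : Fact (Squarefree p) := ⟨h.out.squarefree⟩

/-- A squarefree `n > 1` is no square. -/
theorem not_isSquare_of_squarefree {n : ℕ} (h1 : 1 < n) (h : Squarefree n) :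
    ¬ IsSquare (n : ℤ) := fun hs => by
  obtain ⟨r, rfl⟩ := Int.isSquare_natCast_iff.1 hs
  rw [Nat.isUnit_iff.1 (h r dvd_rfl)] at h1
  omega

/-- The content of a matrix, the gcd of its entries. -/
def content (M : Mat) : ℕ :=
  Int.gcd (Int.gcd (M 0 0) (M 0 1)) (Int.gcd (M 1 0) (M 1 1))

theorem dvd_content_iff {M : Mat} {d : ℤ} : d ∣ (content M : ℤ) ↔ ∀ i j, d ∣ M i j := by
  simp only [content, Int.dvd_coe_gcd_iff, Fin.forall_fin_two]

theorem content_dvd (M : Mat) (i j : Fin 2) : (content M : ℤ) ∣ M i j :=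
  dvd_content_iff.1 dvd_rfl i j

theorem content_dvd_mul_left (A M : Mat) : content M ∣ content (A * M) :=
  Int.natCast_dvd_natCast.1 (dvd_content_iff.2 fun i j => by
    rw [Matrix.mul_apply]
    exact Finset.dvd_sum fun k _ => dvd_mul_of_dvd_right (content_dvd M k j) _)

theorem content_dvd_mul_right (M A : Mat) : content M ∣ content (M * A) :=
  Int.natCast_dvd_natCast.1 (dvd_content_iff.2 fun i j => by
    rw [Matrix.mul_apply]
    exact Finset.dvd_sum fun k _ => dvd_mul_of_dvd_left (content_dvd M i k) _)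

theorem content_SL_mul (g : SL(2, ℤ)) (M : Mat) : content ((g : Mat) * M) = content M :=
  Nat.dvd_antisymm (by
    conv_rhs => rw [← Matrix.one_mul M, ← Matrix.SpecialLinearGroup.coe_one, ← inv_mul_cancel g,
      Matrix.SpecialLinearGroup.coe_mul, Matrix.mul_assoc]
    exact content_dvd_mul_left _ _) (content_dvd_mul_left _ _)

theorem content_mul_SL (M : Mat) (g : SL(2, ℤ)) : content (M * (g : Mat)) = content M :=
  Nat.dvd_antisymm (by
    conv_rhs => rw [← Matrix.mul_one M, ← Matrix.SpecialLinearGroup.coe_one, ← mul_inv_cancel g,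
      Matrix.SpecialLinearGroup.coe_mul, ← Matrix.mul_assoc]
    exact content_dvd_mul_right _ _) (content_dvd_mul_right _ _)

theorem content_smul (f : ℕ) (M : Mat) : content ((f : ℤ) • M) = f * content M := by
  simp only [content, Matrix.smul_apply, smul_eq_mul, Int.gcd_mul_left, Int.natAbs_natCast,
    Nat.cast_mul]

theorem content_prodMat (p : ℕ) (g γ : SL(2, ℤ)) : content (prodMat p g γ) = 1 := by
  rw [prodMat, content_mul_SL, content_SL_mul]
  simp [content]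

theorem sq_content_dvd_det (M : Mat) : (content M : ℤ) ^ 2 ∣ M.det := by
  rw [Matrix.det_fin_two, pow_two]
  exact (mul_dvd_mul (content_dvd M 0 0) (content_dvd M 1 1)).sub
    (mul_dvd_mul (content_dvd M 0 1) (content_dvd M 1 0))

theorem content_eq_one_of_squarefree {p : ℕ} (hp : Squarefree p) {M : Mat} (hM : M.det = p) :
    content M = 1 := by
  have h := sq_content_dvd_det M
  rw [hM, pow_two, ← Nat.cast_mul] at h
  exact Nat.isUnit_iff.1 (hp _ (Int.natCast_dvd_natCast.1 h))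

/-- A matrix of positive determinant is unimodular times upper triangular. -/
theorem exists_tri {M : Mat} (hM : 0 < M.det) : ∃ (g : SL(2, ℤ)) (a : ℕ) (b d : ℤ),
    0 < a ∧ (a : ℤ) * d = M.det ∧ M = (g : Mat) * !![(a : ℤ), b; 0, d] := by
  have hM' := Matrix.det_fin_two M
  set a := Int.gcd (M 0 0) (M 1 0)
  obtain ⟨u, hu⟩ : (a : ℤ) ∣ M 0 0 := Int.gcd_dvd_left _ _
  obtain ⟨w, hw⟩ : (a : ℤ) ∣ M 1 0 := Int.gcd_dvd_right _ _
  have ha : a ≠ 0 := fun e => by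
    rw [e, Nat.cast_zero, zero_mul] at hu hw
    rw [hu, hw] at hM'
    simp [hM'] at hM
  set s := Int.gcdA (M 0 0) (M 1 0)
  set t := Int.gcdB (M 0 0) (M 1 0)
  have hst : u * s + w * t = 1 := mul_left_cancel₀ (show (a : ℤ) ≠ 0 by exact_mod_cast ha) (by
    linear_combination -(Int.gcd_eq_gcd_ab (M 0 0) (M 1 0)) - s * hu - t * hw)
  refine ⟨⟨!![u, -t; w, s], by rw [Matrix.det_fin_two_of]; linarith⟩, a,
    s * M 0 1 + t * M 1 1, u * M 1 1 - w * M 0 1, Nat.pos_of_ne_zero ha, ?_, ?_⟩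
  · linear_combination -hM' - M 1 1 * hu + M 0 1 * hw
  · ext i j
    fin_cases i <;> fin_cases j <;> simp [Matrix.mul_apply, Fin.sum_univ_two]
    · linear_combination hu
    · linear_combination -M 0 1 * hst
    · linear_combination hw
    · linear_combination -M 1 1 * hst

/-- A shift of `b` by a multiple of `d` prime to `a`. -/
theorem exists_coprime_shift {a : ℕ} {b d : ℤ}
    (h : ∀ q : ℕ, q.Prime → q ∣ a → (q : ℤ) ∣ b → ¬ (q : ℤ) ∣ d) (ha : a ≠ 0) :
    ∃ t : ℤ, IsCoprime (b + d * t) (a : ℤ) := by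
  classical
  set s := a.primeFactors.filter fun q : ℕ => ¬ (q : ℤ) ∣ b with hs
  refine ⟨∏ q ∈ s, (q : ℤ), Int.isCoprime_iff_gcd_eq_one.2
    (Nat.coprime_of_dvd fun q hq hq1 hq2 => ?_)⟩
  rw [Int.natAbs_natCast] at hq2
  have hq1' : (q : ℤ) ∣ b + d * ∏ r ∈ s, (r : ℤ) := Int.natCast_dvd.2 hq1
  have hqp : Prime (q : ℤ) := Nat.prime_iff_prime_int.1 hq
  by_cases hb : (q : ℤ) ∣ b
  · rcases hqp.dvd_or_dvd ((dvd_add_right hb).1 hq1') with hd | hP
    · exact h q hq hq2 hb hd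
    · obtain ⟨r, hr, hqr⟩ := (Prime.dvd_finsetProd_iff hqp _).1 hP
      obtain ⟨hr, hrb⟩ := Finset.mem_filter.1 hr
      rw [← (Nat.prime_dvd_prime_iff_eq hq (Nat.prime_of_mem_primeFactors hr)).1
        (Int.natCast_dvd_natCast.1 hqr)] at hrb
      exact hrb hb
  · refine hb ((dvd_add_left (dvd_mul_of_dvd_right (Finset.dvd_prod_of_mem _ ?_) d)).1 hq1')
    exact Finset.mem_filter.2 ⟨Nat.mem_primeFactors.2 ⟨hq, hq2, ha⟩, hb⟩

/-- A primitive matrix of determinant `p` is `g diag(p, 1) γ`. -/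
theorem exists_prodMat {p : ℕ} (hp : p ≠ 0) {M : Mat} (hM : M.det = p) (hprim : content M = 1) :
    ∃ g γ : SL(2, ℤ), M = prodMat p g γ := by
  have hp0 : (p : ℤ) ≠ 0 := by exact_mod_cast hp
  -- a primitive vector that `M` sends into `p ℤ²`
  obtain ⟨v, w, hvw, ⟨A, hA⟩, C, hC⟩ : ∃ v w : ℤ, IsCoprime v w ∧
      (p : ℤ) ∣ M 0 0 * v + M 0 1 * w ∧ (p : ℤ) ∣ M 1 0 * v + M 1 1 * w := by
    obtain ⟨g, a, b, d, ha, had, hMg⟩ := exists_tri (M := M) (by rw [hM]; positivity)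
    have hc : content !![(a : ℤ), b; 0, d] = 1 := by rw [← content_SL_mul g, ← hMg, hprim]
    obtain ⟨t, ht⟩ := exists_coprime_shift (a := a) (b := b) (d := d) (fun q hq h1 h2 h3 => by
      have h : (q : ℤ) ∣ (content !![(a : ℤ), b; 0, d] : ℤ) := dvd_content_iff.2 fun i j => by
        fin_cases i <;> fin_cases j <;> simp [h2, h3, Int.natCast_dvd_natCast.2 h1]
      rw [hc] at h
      exact hq.one_lt.ne' (Nat.dvd_one.1 (Int.natCast_dvd_natCast.1 h))) ha.ne'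
    rw [hM] at had
    refine ⟨-(b + d * t), a, ht.neg_left, ⟨-(g 0 0 * t) + g 0 1, ?_⟩,
      ⟨-(g 1 0 * t) + g 1 1, ?_⟩⟩
    all_goals
      rw [hMg, ← had]
      simp [Matrix.mul_apply, Fin.sum_univ_two]
      ring
  rw [Matrix.det_fin_two] at hM
  obtain ⟨δ, hδ0, hδ1⟩ := FA.Dim.exists_sl2_col hvw
  have hδd : δ 0 0 * δ 1 1 - δ 0 1 * δ 1 0 = 1 := by
    have := δ.det_coe; rwa [Matrix.det_fin_two] at this
  have e1 : (p : ℤ) * (A * (M 1 0 * δ 0 1 + M 1 1 * δ 1 1) -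
      (M 0 0 * δ 0 1 + M 0 1 * δ 1 1) * C) = (p : ℤ) * 1 := by
    rw [hδ0, hδ1] at hδd
    linear_combination (-(M 1 0 * δ 0 1 + M 1 1 * δ 1 1)) * hA +
      (M 0 0 * δ 0 1 + M 0 1 * δ 1 1) * hC + (M 0 0 * M 1 1 - M 0 1 * M 1 0) * hδd + hM
  refine ⟨⟨!![A, M 0 0 * δ 0 1 + M 0 1 * δ 1 1; C, M 1 0 * δ 0 1 + M 1 1 * δ 1 1], ?_⟩, δ⁻¹, ?_⟩
  · rw [Matrix.det_fin_two_of]
    exact mul_left_cancel₀ hp0 e1
  · have e : M * (δ : Mat) = (!![A, M 0 0 * δ 0 1 + M 0 1 * δ 1 1;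
        C, M 1 0 * δ 0 1 + M 1 1 * δ 1 1] : Mat) * !![(p : ℤ), 0; 0, 1] := by
      ext i j
      fin_cases i <;> fin_cases j <;>
        simp [Matrix.mul_apply, Fin.sum_univ_two, hδ0, hδ1, hA, hC, mul_comm (p : ℤ)]
    show M = _ * _ * ((δ⁻¹ : SL(2, ℤ)) : Mat)
    rw [← e, Matrix.mul_assoc,
      ← Matrix.SpecialLinearGroup.coe_mul, mul_inv_cancel, Matrix.SpecialLinearGroup.coe_one,
      Matrix.mul_one]

/-- The primitive matrices of determinant `n` fixing `τ`. -/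
def FixPrim (τ : ℍ) (n : ℤ) : Set Mat := {M | M ∈ FixMat τ n ∧ content M = 1}

/-- The coefficient `m₁₀` of a primitive matrix of determinant `> 1` fixing a point is not
zero. -/
theorem fix_lower_ne_zero {p : ℕ} (hp : 1 < p) {τ : ℍ} {M : Mat} (hM : M ∈ FixPrim τ p) :
    M 1 0 ≠ 0 := fun h0 => by
  obtain ⟨⟨hd, hf⟩, hprim⟩ := hM
  have hd0 : M.det ≠ 0 := by rw [hd]; exact_mod_cast (zero_lt_one.trans hp).ne'
  rw [fixes_iff hd0, h0] at hf
  obtain ⟨h1, h2⟩ := eq_zero_of_add (z := τ) (u := M 1 1 - M 0 0) (v := -(M 0 1)) (by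
    push_cast
    simpa [sub_eq_add_neg] using hf)
  have h1' : (M 0 0).natAbs = 1 := by
    refine Eq.trans ?_ hprim
    simp [content, h0, neg_eq_zero.1 h2, sub_eq_zero.1 h1, Int.natAbs_abs]
  rw [Matrix.det_fin_two, h0, mul_zero, sub_zero, sub_eq_zero.1 h1] at hd
  have := congrArg Int.natAbs hd
  rw [Int.natAbs_mul, h1', Int.natAbs_natCast] at this
  omega

/-- Conjugation carries the primitive fixing matrices of `τ` to those of `g τ`. -/
theorem exists_fixPrim_conj {n : ℤ} (hn : 0 < n) {τ : ℍ} {M : Mat} (hM : M ∈ FixPrim τ n)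
    (g : SL(2, ℤ)) : ∃ N ∈ FixPrim (g • τ) n, N.trace = M.trace := by
  obtain ⟨⟨hd, hf⟩, hprim⟩ := hM
  refine ⟨(g : Mat) * M * ((g⁻¹ : SL(2, ℤ)) : Mat), ⟨⟨?_, ?_⟩, ?_⟩, ?_⟩
  · rw [Matrix.det_mul, Matrix.det_mul, g.det_coe, (g⁻¹).det_coe, one_mul, mul_one, hd]
  · rw [mob_mul (by rw [(g⁻¹).det_coe]; exact one_pos), mob_SL, inv_smul_smul,
      mob_mul (by rw [hd]; exact hn), hf, mob_SL]
  · rw [content_mul_SL, content_SL_mul, hprim]
  · rw [Matrix.trace_mul_cycle, ← Matrix.SpecialLinearGroup.coe_mul, inv_mul_cancel,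
      Matrix.SpecialLinearGroup.coe_one, Matrix.one_mul]

theorem fixPrim_eq {p : ℕ} (hp : Squarefree p) (τ : ℍ) : FixPrim τ p = FixMat τ p :=
  Set.ext fun _ => ⟨And.left, fun h => ⟨h, content_eq_one_of_squarefree hp h.1⟩⟩

theorem mob_smul {f : ℕ} (hf : f ≠ 0) (M : Mat) (z : ℂ) : mob ((f : ℤ) • M) z = mob M z := by
  have hfC : (f : ℂ) ≠ 0 := Nat.cast_ne_zero.2 hf
  simp only [mob, Matrix.smul_apply, smul_eq_mul, Int.cast_mul, Int.cast_natCast, mul_assoc,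
    ← mul_add]
  exact mul_div_mul_left _ _ hfC

/-- The `f` with `f² ∣ n`. -/
def sqDiv (n : ℕ) : Finset ℕ := n.divisors.filter fun f => f * f ∣ n

theorem mem_sqDiv {n f : ℕ} (hn : n ≠ 0) : f ∈ sqDiv n ↔ f * f ∣ n := by
  simp only [sqDiv, Finset.mem_filter, Nat.mem_divisors]
  exact ⟨And.right, fun h => ⟨⟨(dvd_mul_right f f).trans h, hn⟩, h⟩⟩

/-- **The matrices of determinant `n` are the multiples of the primitive ones.** -/
theorem exists_fixMat_equiv {n : ℕ} (hn : n ≠ 0) (τ : ℍ) :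
    Nonempty ((Σ f : {f // f ∈ sqDiv n}, FixPrim τ ((n / (f.1 * f.1) : ℕ) : ℤ)) ≃ FixMat τ n) := by
  have hF : ∀ q : (Σ f : {f // f ∈ sqDiv n}, FixPrim τ ((n / (f.1 * f.1) : ℕ) : ℤ)),
      q.1.1 ≠ 0 ∧ ((q.1.1 : ℤ) • (q.2 : Mat)) ∈ FixMat τ n := fun q => by
    have hdvd := (mem_sqDiv hn).1 q.1.2
    have hf : q.1.1 ≠ 0 := fun e => hn (by rw [e] at hdvd; simpa using hdvd)
    refine ⟨hf, ?_, by rw [mob_smul hf]; exact q.2.2.1.2⟩
    rw [Matrix.det_smul, Fintype.card_fin, q.2.2.1.1, pow_two, ← Nat.cast_mul, ← Nat.cast_mul,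
      Nat.mul_div_cancel' hdvd]
  refine ⟨Equiv.ofBijective (fun q => ⟨(q.1.1 : ℤ) • (q.2 : Mat), (hF q).2⟩) ⟨?_, ?_⟩⟩
  · rintro ⟨⟨f, hf⟩, ⟨M, hM⟩⟩ ⟨⟨f', hf'⟩, ⟨M', hM'⟩⟩ h
    have e : (f : ℤ) • M = (f' : ℤ) • M' := congrArg Subtype.val h
    obtain rfl : f = f' := by
      have h2 := congrArg content e
      rwa [content_smul, content_smul, hM.2, hM'.2, mul_one, mul_one] at h2
    obtain rfl : M = M' := smul_right_injective Mat
      (Nat.cast_ne_zero.2 (hF ⟨⟨f, hf⟩, ⟨M, hM⟩⟩).1) e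
    rfl
  · rintro ⟨M, hMd, hMf⟩
    set c := content M with hc
    have hsq := sq_content_dvd_det M
    rw [hMd, pow_two, ← Nat.cast_mul, Int.natCast_dvd_natCast] at hsq
    have hc0 : c ≠ 0 := fun e => hn (by rw [← hc, e] at hsq; simpa using hsq)
    choose q hq using content_dvd M
    have hM : (c : ℤ) • (Matrix.of q : Mat) = M :=
      Matrix.ext fun i j => by simp [hc, ← hq i j]
    have hdet : (Matrix.of q : Mat).det = ((n / (c * c) : ℕ) : ℤ) := by
      have h := congrArg Matrix.det hM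
      rw [Matrix.det_smul, Fintype.card_fin, hMd] at h
      refine mul_left_cancel₀ (pow_ne_zero 2 (Nat.cast_ne_zero.2 hc0 : (c : ℤ) ≠ 0)) ?_
      rw [h, pow_two, ← Nat.cast_mul, ← Nat.cast_mul, Nat.mul_div_cancel' hsq]
    have hprim : content (Matrix.of q : Mat) = 1 := by
      have h := congrArg content hM
      rw [content_smul, ← hc] at h
      exact (Nat.mul_eq_left hc0).1 h
    refine ⟨⟨⟨c, (mem_sqDiv hn).2 hsq⟩, ⟨Matrix.of q, ⟨hdet, ?_⟩, hprim⟩⟩, Subtype.ext hM⟩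
    rw [← mob_smul hc0, hM, hMf]

variable (p : ℕ) [Fact (1 < p)] [Fintype (FA.Dim.Cos p)] (τ : ℍ)

/-- The cosets at which `j(p γ z)` takes the value `j(τ)`. -/
def fixCos : Set (FA.Dim.Cos p) :=
  haveI : NeZero p := ⟨(zero_lt_one.trans (Fact.out : 1 < p)).ne'⟩
  {i | cosVal p (fN p) i τ = jfun τ}

omit [Fintype (FA.Dim.Cos p)] in
/-- The matrix of a coset. -/
theorem exists_fixMat {i : FA.Dim.Cos p} (hi : i ∈ fixCos p τ) :
    ∃ g : SL(2, ℤ), prodMat p g (Quotient.out i)⁻¹ ∈ FixMat τ p := by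
  haveI : NeZero p := ⟨(zero_lt_one.trans (Fact.out : 1 < p)).ne'⟩
  obtain ⟨g, hg⟩ := (jfun_eq_iff _ _).mp (show
    jfun (scaleH p ((Quotient.out i)⁻¹ • τ)) = jfun τ from hi)
  exact ⟨g, det_prodMat p _ _, by rw [mob_prodMat, hg]⟩

/-- The matrix chosen for a coset. -/
def cosMat {i : FA.Dim.Cos p} (hi : i ∈ fixCos p τ) : Mat :=
  prodMat p (exists_fixMat p τ hi).choose (Quotient.out i)⁻¹

omit [Fintype (FA.Dim.Cos p)] in
theorem cosMat_mem {i : FA.Dim.Cos p} (hi : i ∈ fixCos p τ) : cosMat p τ hi ∈ FixMat τ p :=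
  (exists_fixMat p τ hi).choose_spec

omit [Fintype (FA.Dim.Cos p)] in
theorem cosMat_prim {i : FA.Dim.Cos p} (hi : i ∈ fixCos p τ) : cosMat p τ hi ∈ FixPrim τ p :=
  ⟨cosMat_mem p τ hi, content_prodMat p _ _⟩

omit [Fintype (FA.Dim.Cos p)] in
theorem jfun_cosMat [NeZero p] {i : FA.Dim.Cos p} (hi : i ∈ fixCos p τ) (z : ℍ) :
    jfun (ofComplex (mob (cosMat p τ hi) z)) = cosVal p (fN p) i z :=
  jfun_prodMat p _ _ z

omit [Fintype (FA.Dim.Cos p)] in
/-- **The fixing matrices are the cosets times the stabiliser.** -/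
theorem card_fixMat :
    Nat.card (fixCos p τ) * Nat.card (FixMat τ 1) = Nat.card (FixPrim τ p) := by
  haveI : NeZero p := ⟨(zero_lt_one.trans (Fact.out : 1 < p)).ne'⟩
  have hp : (0 : ℤ) < p := by exact_mod_cast (zero_lt_one.trans (Fact.out : 1 < p))
  rw [← Nat.card_prod]
  let F : fixCos p τ × FixMat τ 1 → FixPrim τ p := fun q =>
    ⟨(q.2 : Mat) * cosMat p τ q.1.2,
      ⟨by rw [Matrix.det_mul, q.2.2.1, (cosMat_mem p τ q.1.2).1, one_mul],
      by rw [mob_mul ((cosMat_mem p τ q.1.2).1 ▸ hp), (cosMat_mem p τ q.1.2).2, q.2.2.2]⟩,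
      by
        rw [show (q.2 : Mat) = ((⟨(q.2 : Mat), q.2.2.1⟩ : SL(2, ℤ)) : Mat) from rfl,
          content_SL_mul]
        exact content_prodMat p _ _⟩
  refine Nat.card_eq_of_bijective F ⟨?_, ?_⟩
  · rintro ⟨⟨i, hi⟩, ⟨u, hu⟩⟩ ⟨⟨k, hk⟩, ⟨u', hu'⟩⟩ h
    have e : u * cosMat p τ hi = u' * cosMat p τ hk := congrArg Subtype.val h
    have hsame : cosVal p (fN p) i = cosVal p (fN p) k := funext fun z => by
      have h1 : ∀ {v : Mat}, v.det = 1 → ∀ w : ℍ, jfun (ofComplex (mob v w)) = jfun w :=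
        fun {v} hv w => by
          let g : SL(2, ℤ) := ⟨v, hv⟩
          rw [show mob v w = ((g • w : ℍ) : ℂ) from mob_SL g w, ofComplex_apply, jfun_smul]
      have h2 : ∀ {j : FA.Dim.Cos p} (hj : j ∈ fixCos p τ) {v : Mat}, v.det = 1 →
          jfun (ofComplex (mob (v * cosMat p τ hj) z)) = cosVal p (fN p) j z := fun hj v hv => by
        have hd : 0 < (cosMat p τ hj).det := (cosMat_mem p τ hj).1 ▸ hp
        rw [mob_mul hd, show mob (cosMat p τ hj) z = (mobH hd z : ℂ) from rfl, h1 hv,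
          ← jfun_cosMat p τ hj, show mob (cosMat p τ hj) z = (mobH hd z : ℂ) from rfl,
          ofComplex_apply]
      rw [← h2 hi hu.1, e, h2 hk hu'.1]
    have hik : i = k := by
      refine ser_injective p ((hasExp_ser p i).unique (covers_qp p) ?_)
      rw [hsame]
      exact hasExp_ser p k
    subst hik
    have e2 := congrArg (· * (cosMat p τ hi).adjugate) e
    simp only [Matrix.mul_assoc, Matrix.mul_adjugate, Matrix.mul_smul, Matrix.mul_one] at e2
    obtain rfl : u = u' := smul_right_injective Mat (by rw [(cosMat_mem p τ hi).1]; exact hp.ne' :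
      (cosMat p τ hi).det ≠ 0) e2
    rfl
  · rintro ⟨M, ⟨hMd, hMf⟩, hMp⟩
    obtain ⟨g, γ, rfl⟩ := exists_prodMat (NeZero.ne p) hMd hMp
    set i : FA.Dim.Cos p := QuotientGroup.mk γ⁻¹
    obtain ⟨h, hh⟩ := QuotientGroup.mk_out_eq_mul (CongruenceSubgroup.Gamma0 p) γ⁻¹
    have hi : i ∈ fixCos p τ := by
      show cosVal p (fN p) i τ = jfun τ
      rw [cosVal_mk (fN_mem p), inv_inv, ← jfun_prodMat p g γ τ, hMf, ofComplex_apply]
    -- `γ = h (out i)⁻¹` and `diag(p, 1) h = h' diag(p, 1)`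
    obtain ⟨c, hc⟩ : (p : ℤ) ∣ (h : SL(2, ℤ)) 1 0 :=
      (ZMod.intCast_zmod_eq_zero_iff_dvd _ _).1 h.2
    have hd : (h : SL(2, ℤ)) 0 0 * (h : SL(2, ℤ)) 1 1 -
        (h : SL(2, ℤ)) 0 1 * (h : SL(2, ℤ)) 1 0 = 1 := by
      have := (h : SL(2, ℤ)).det_coe; rwa [Matrix.det_fin_two] at this
    let h' : SL(2, ℤ) := ⟨!![(h : SL(2, ℤ)) 0 0, p * (h : SL(2, ℤ)) 0 1; c,
      (h : SL(2, ℤ)) 1 1], by
        rw [Matrix.det_fin_two_of]; linear_combination hd + (h : SL(2, ℤ)) 0 1 * hc⟩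
    have hcomm : (!![(p : ℤ), 0; 0, 1] : Mat) * ((h : SL(2, ℤ)) : Mat) =
        (h' : Mat) * !![(p : ℤ), 0; 0, 1] := by
      ext a b
      fin_cases a <;> fin_cases b <;>
        simp [h', Matrix.mul_apply, Fin.sum_univ_two, hc, mul_comm (p : ℤ)]
    let G : SL(2, ℤ) := (exists_fixMat p τ hi).choose
    let u : SL(2, ℤ) := g * h' * G⁻¹
    have hmat : prodMat p g γ = (u : Mat) * cosMat p τ hi := by
      have e1 : (u : Mat) * (G : Mat) = (g : Mat) * (h' : Mat) := by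
        rw [← Matrix.SpecialLinearGroup.coe_mul, ← Matrix.SpecialLinearGroup.coe_mul]
        simp only [u, inv_mul_cancel_right]
      have e2 : γ = (h : SL(2, ℤ)) * (Quotient.out i)⁻¹ := by
        simp only [i, hh, mul_inv_rev, inv_inv, mul_inv_cancel_left]
      show _ = (u : Mat) * ((G : Mat) * !![(p : ℤ), 0; 0, 1] *
        (((Quotient.out i)⁻¹ : SL(2, ℤ)) : Mat))
      rw [← Matrix.mul_assoc, ← Matrix.mul_assoc, e1, Matrix.mul_assoc (g : Mat), ← hcomm, prodMat]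
      conv_lhs => rw [e2, Matrix.SpecialLinearGroup.coe_mul]
      simp only [Matrix.mul_assoc]
    refine ⟨⟨⟨i, hi⟩, ⟨u, u.det_coe, ?_⟩⟩, Subtype.ext hmat.symm⟩
    have := hMf
    rw [hmat, mob_mul ((cosMat_mem p τ hi).1 ▸ hp), (cosMat_mem p τ hi).2] at this
    exact this

end FA.ClassRelation

end
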