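import Fermat.Agent.Tau.GaloisModuli
import Fermat.Agent.Root.SummaryGenus

/-!
# Frobenius elements and the roots of the class polynomial

A Frobenius element at `p ∤ 2n` fixes `√-n` iff `-n` is a square modulo `p`; the roots of the class
polynomial modulo `p` are the roots it fixes; the reflections of the dihedral group that fix a
root fix `#{c | c² = 1}` of them each, and each root is fixed by exactly one of them.
-/

set_option autoImplicit false
set_option linter.style.haveILetI false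

noncomputable section

namespace FA.GaloisModuli

open UpperHalfPlane hiding I
open FA.ModField FA.RingClassJ FA.OrderTheta NumberField Polynomial FA.Density Module
open FA.Singular hiding IsRoot

local notation "Qb" => AlgebraicClosure ℚ

section Residues

variable {E : Type*} [Field E] [NumberField E] {q : ℕ} [Fact q.Prime]
  {P : Ideal (𝓞 E)} {g : E ≃ₐ[ℚ] E}

/-- A Frobenius element fixes `√-n` iff `-n` is a square. -/
theorem frob_fix_iff_isSquare (hmax : P.IsMaximal) (hqP : (q : 𝓞 E) ∈ P)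
    (hfrob : ∀ y : 𝓞 E, g • y - y ^ q ∈ P) {n : ℕ} (hqn : ¬ q ∣ 2 * n) {d : E}
    (hd : d ^ 2 = -(n : E)) : g d = d ↔ IsSquare (-(n : ZMod q)) := by
  have hq := (Fact.out : q.Prime)
  let := Ideal.Quotient.field P
  set π := Ideal.Quotient.mk P with hπ
  haveI : CharP (𝓞 E ⧸ P) q := (CharP.charP_iff_prime_eq_zero hq).mpr <| by
    rw [← map_natCast π, hπ, Ideal.Quotient.eq_zero_iff_mem]
    exact hqP
  set φ := ZMod.castHom (dvd_refl q) (𝓞 E ⧸ P) with hφ
  have hdi : IsIntegral ℤ d := IsIntegral.of_pow two_pos (by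
    rw [hd]; simpa using (isIntegral_algebraMap (R := ℤ) (A := E) (x := (n : ℤ))).neg)
  set d' : 𝓞 E := ⟨d, hdi⟩ with hd'
  have hd2 : d' ^ 2 = -(n : 𝓞 E) := RingOfIntegers.ext (by simpa [hd'] using hd)
  have hfr : π (g • d') = π d' ^ q := by rw [← map_pow]; exact Ideal.Quotient.eq.2 (hfrob d')
  have hsq : π d' ^ 2 = -(n : 𝓞 E ⧸ P) := by rw [← map_pow, hd2, map_neg, map_natCast]
  refine ⟨fun hgd => ?_, fun ⟨s, hs⟩ => ?_⟩
  · have h1 : π d' ^ q = π d' := by rw [← hfr, show g • d' = d' from RingOfIntegers.ext hgd]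
    have h2 := (Subfield.mem_bot_iff_pow_eq_self (𝓞 E ⧸ P) q).mpr h1
    rw [← ZMod.fieldRange_castHom_eq_bot q] at h2
    obtain ⟨s, hs⟩ := h2
    refine ⟨s, φ.injective ?_⟩
    rw [map_neg, map_natCast, map_mul, show φ s = π d' from hs, ← sq, hsq]
  · have e : π d' ^ q = π d' := by
      have h1 : π d' ^ 2 = φ s ^ 2 := by
        rw [hsq, sq (φ s), ← map_mul, ← hs, map_neg, map_natCast]
      rcases sq_eq_sq_iff_eq_or_eq_neg.1 h1 with e | e <;> rw [e]
      · rw [← map_pow, ZMod.pow_card]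
      · rw [← map_neg, ← map_pow, ZMod.pow_card]
    have hgd2 : g d = d ∨ g d = -d := sq_eq_sq_iff_eq_or_eq_neg.1 (by
      rw [← map_pow, hd, map_neg, map_natCast])
    refine hgd2.resolve_right fun hneg => hqn ?_
    rw [e, show g • d' = -d' from RingOfIntegers.ext hneg, map_neg,
      neg_eq_iff_add_eq_zero] at hfr
    have h3 : ((4 * n : ℕ) : 𝓞 E ⧸ P) = 0 := by
      push_cast
      linear_combination 4 * hsq - 2 * π d' * hfr
    rw [CharP.cast_eq_zero_iff (𝓞 E ⧸ P) q] at h3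
    rcases hq.dvd_mul.1 h3 with h4 | h4
    · exact (hq.dvd_of_dvd_pow (show q ∣ 2 ^ 2 from h4)).trans (dvd_mul_right 2 n)
    · exact h4.mul_left 2

/-- The roots modulo `q` correspond to the roots fixed by a Frobenius element. -/
theorem card_roots_zmod (hmax : P.IsMaximal) (hqP : (q : 𝓞 E) ∈ P)
    (hfrob : ∀ y : 𝓞 E, g • y - y ^ q ∈ P) {H : ℤ[X]} (hmon : H.Monic)
    (hsplits : (H.map (algebraMap ℤ E)).Splits)
    (hsep : (H.map (Int.castRingHom (ZMod q))).Separable) :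
    Nat.card {r : ZMod q // (H.map (Int.castRingHom (ZMod q))).IsRoot r} =
      Nat.card {z : E // aeval z H = 0 ∧ g z = z} := by
  have hq := (Fact.out : q.Prime)
  let := Ideal.Quotient.field P
  set π := Ideal.Quotient.mk P with hπ
  haveI : CharP (𝓞 E ⧸ P) q := (CharP.charP_iff_prime_eq_zero hq).mpr <| by
    rw [← map_natCast π, hπ, Ideal.Quotient.eq_zero_iff_mem]
    exact hqP
  set φ := ZMod.castHom (dvd_refl q) (𝓞 E ⧸ P) with hφ
  set ι := algebraMap (𝓞 E) E
  have hint : ∀ z : E, aeval z H = 0 → IsIntegral ℤ z := fun z hz =>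
    ⟨H, hmon, by rwa [← aeval_def]⟩
  have hzero : ∀ (y : E) (hy : aeval y H = 0), aeval (⟨y, hint y hy⟩ : 𝓞 E) H = 0 :=
    fun y hy => FaithfulSMul.algebraMap_injective (𝓞 E) E
      ((aeval_algHom_apply ι.toIntAlgHom _ H).symm.trans (hy.trans (map_zero _).symm))
  have hHk : (H.map (Int.castRingHom (ZMod q))).map φ = (H.map (algebraMap ℤ (𝓞 E))).map π := by
    rw [Polynomial.map_map, Polynomial.map_map, show φ.comp (Int.castRingHom (ZMod q)) =
      π.comp (algebraMap ℤ (𝓞 E)) from Subsingleton.elim _ _]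
  have hne : (H.map (algebraMap ℤ (𝓞 E))).map π ≠ 0 := ((hmon.map _).map _).ne_zero
  have hHO : (H.map (algebraMap ℤ (𝓞 E))).Splits := by
    refine Splits.of_splits_map_of_injective (i := ι)
      (FaithfulSMul.algebraMap_injective _ _) ?_ fun a ha => ?_
    · rw [Polynomial.map_map, show ι.comp (algebraMap ℤ (𝓞 E)) = algebraMap ℤ E from
        Subsingleton.elim _ _]
      exact hsplits
    · rw [Polynomial.map_map, show ι.comp (algebraMap ℤ (𝓞 E)) = algebraMap ℤ E from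
        Subsingleton.elim _ _] at ha
      exact ⟨⟨a, hint a (mem_aroots.1 ha).2⟩, rfl⟩
  -- the residue of a fixed root is rational
  have hfix : ∀ z : {z : E // aeval z H = 0 ∧ g z = z}, ∃ r : ZMod q,
      φ r = π ⟨z.1, hint z.1 z.2.1⟩ ∧ (H.map (Int.castRingHom (ZMod q))).IsRoot r := by
    rintro ⟨z, hz, hgz⟩
    set z' : 𝓞 E := ⟨z, hint z hz⟩
    have h1 : π z' ^ q = π z' := by
      rw [← map_pow]
      have h := Ideal.Quotient.eq.2 (hfrob z')
      rw [show g • z' = z' from RingOfIntegers.ext hgz] at h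
      exact h.symm
    have h2 := (Subfield.mem_bot_iff_pow_eq_self (𝓞 E ⧸ P) q).mpr h1
    rw [← ZMod.fieldRange_castHom_eq_bot q] at h2
    obtain ⟨r, hr⟩ := h2
    refine ⟨r, hr, ?_⟩
    have h3 : ((H.map (Int.castRingHom (ZMod q))).map φ).IsRoot (φ r) := by
      rw [IsRoot, hHk, show φ r = π z' from hr, eval_map, eval₂_at_apply, eval_map, ← aeval_def,
        show aeval z' H = 0 from hzero z hz, map_zero]
    exact h3.of_map φ.injective
  choose ρ hρ hρroot using hfix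
  refine (Nat.card_eq_of_bijective (fun z => ⟨ρ z, hρroot z⟩) ⟨fun z w e => ?_, ?_⟩).symm
  · have e' : ρ z = ρ w := congrArg Subtype.val e
    exact Subtype.ext (congrArg (fun t : 𝓞 E => (t : E)) (eq_of_residue_eq π φ hsep
      (hzero _ z.2.1) (hzero _ w.2.1) (by rw [← hρ, e', hρ])))
  · rintro ⟨r, hr⟩
    have hmem : φ r ∈ ((H.map (algebraMap ℤ (𝓞 E))).map π).roots :=
      (mem_roots hne).2 (hHk ▸ hr.map)
    rw [hHO.roots_map_of_ne_zero hne] at hmem
    obtain ⟨y, hy, hyr⟩ := Multiset.mem_map.1 hmem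
    have hy0 : aeval y H = 0 := (mem_aroots.1 hy).2
    have hyE : aeval (y : E) H = 0 := by
      rw [show (y : E) = ι.toIntAlgHom y from rfl, aeval_algHom_apply, hy0, map_zero]
    have hgy0 : aeval (g • y) H = 0 := FaithfulSMul.algebraMap_injective (𝓞 E) E
      (((aeval_algHom_apply ι.toIntAlgHom _ H).symm.trans
        (aeval_algHom_apply ((g.restrictScalars ℤ).toAlgHom) (y : E) H)).trans
          ((congrArg g hyE).trans ((map_zero g).trans (map_zero _).symm)))
    have hgy : g • y = y := eq_of_residue_eq π φ hsep hgy0 hy0 (by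
      rw [Ideal.Quotient.eq.2 (hfrob y), map_pow, hyr, ← map_pow, ZMod.pow_card])
    refine ⟨⟨y, hyE, congrArg (fun t : 𝓞 E => (t : E)) hgy⟩, Subtype.ext (φ.injective ?_)⟩
    rw [hρ, ← hyr]
    rfl

end Residues

/-! ### The reflections -/

/-- The number of classes killed by squaring is `2 ^ (μ - 1)`. -/
theorem card_sq_eq_two_pow (n : ℕ) [NeZero n] :
    Nat.card {c : Cl n // c * c = 1} = 2 ^ (genusMu n - 1) ∧ 1 ≤ genusMu n := by
  by_cases hn : 1 < n
  · exact ⟨(card_sq_eq_one hn).trans (splits_total hn), one_le_genusMu hn⟩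
  · obtain rfl : n = 1 := by have := NeZero.pos n; omega
    obtain ⟨hsub, -⟩ := Nat.card_eq_one_iff_unique.mp card_cl_examples.1
    haveI : Nonempty {c : Cl 1 // c * c = 1} := ⟨⟨1, one_mul _⟩⟩
    rw [Nat.card_unique]
    simp [genusMu]

/-- **The class field as a permutation group of the singular moduli.** -/
theorem exists_reflection_data (n : ℕ) [NeZero n] {τ : ℍ} (hτ : (τ : ℂ) ^ 2 = -(n : ℂ)) :
    ∃ (L : IntermediateField ℚ Qb) (_ : FiniteDimensional ℚ L) (_ : IsGalois ℚ L) (d : L),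
      d ^ 2 = -(n : L) ∧ (minpoly ℤ (jfun τ)).Monic ∧
      ((minpoly ℤ (jfun τ)).map (algebraMap ℤ L)).Splits ∧
      finrank ℚ L = 2 * Nat.card (Cl n) ∧
      (∀ s : L ≃ₐ[ℚ] L, s d ≠ d → s * s = 1) ∧
      (∀ s : L ≃ₐ[ℚ] L, s d ≠ d → ∀ z : L, aeval z (minpoly ℤ (jfun τ)) = 0 → s z = z →
        Nat.card {w : L // aeval w (minpoly ℤ (jfun τ)) = 0 ∧ s w = w} = 2 ^ (genusMu n - 1)) ∧
      Nat.card {g : L ≃ₐ[ℚ] L // ∃ z : L, aeval z (minpoly ℤ (jfun τ)) = 0 ∧ g z = z} *
        2 ^ (genusMu n - 1) = Nat.card (Cl n) + 2 ^ (genusMu n - 1) := by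
  classical
  obtain ⟨L, hfin, hgal, ι, d, y, hd, hy, hL, ⟨e⟩, hdeg, hinv, -, hall, htrans, -⟩ :=
    exists_galois_data n hτ
  set D : ℤ := -4 * (n : ℤ) with hDdef
  have hD : D < 0 := by have := NeZero.pos n; omega
  have hu : jfun τ ∈ values D := by
    have hdisc : disc (1, 0, (n : ℤ)) = D := by simp [disc, hDdef]
    rw [← hdisc]
    exact jfun_mem_values one_pos (by rw [hdisc]; exact hD) (by simp)
      (by simp [FA.Singular.IsRoot, hτ])
  have hi := isIntegral_values hD hu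
  set H := minpoly ℤ (jfun τ) with hH
  have hroot : ∀ z : L, aeval z H = 0 ↔ ι (z : Qb) ∈ values D := fun z => by
    have e : aeval (ι (z : Qb)) H = ι (L.val (aeval z H)) := by
      exact aeval_algHom_apply ((ι.comp L.val).restrictScalars ℤ) z H
    refine ⟨fun h => root_mem_values hD hu (by rw [← hH, e, h, map_zero, map_zero]), fun h => ?_⟩
    refine (ι.comp L.val).toRingHom.injective ?_
    rw [map_zero]
    show ι (L.val (aeval z H)) = 0
    rw [← e, hH, minpoly_eq_of_mem hD hu h]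
    exact minpoly.aeval ℤ _
  have hsplits : (H.map (algebraMap ℤ L)).Splits := by
    refine Splits.of_splits_map_of_injective (i := (ι.comp L.val).toRingHom)
      (ι.comp L.val).injective (IsAlgClosed.splits _) fun a ha => ?_
    rw [Polynomial.map_map, Subsingleton.elim (RingHom.comp _ _) (algebraMap ℤ ℂ)] at ha
    obtain ⟨z, hz⟩ := hall a (root_mem_values hD hu (mem_aroots.1 ha).2)
    exact ⟨z, hz⟩
  have hmap : ∀ (s : L ≃ₐ[ℚ] L) (z : L), aeval z H = 0 → aeval (s z) H = 0 := fun s z hz =>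
    ((aeval_algHom_apply ((s.restrictScalars ℤ).toAlgHom) z H).trans (congrArg s hz)).trans
      (map_zero s)
  have huniq : ∀ z w : L, aeval z H = 0 → aeval w H = 0 →
      ∃! σ : L ≃ₐ[ℚ] L, σ d = d ∧ σ z = w := fun z w hz hw =>
    htrans z w ((hroot z).1 hz) ((hroot w).1 hw)
  have hone : ∀ σ : L ≃ₐ[ℚ] L, σ d = d → ∀ z : L, aeval z H = 0 → σ z = z → σ = 1 :=
    fun σ hσ z hz hσz => (huniq z z hz hz).unique ⟨hσ, hσz⟩ ⟨rfl, rfl⟩
  have hneg : ∀ s : L ≃ₐ[ℚ] L, s d ≠ d → s d = -d := fun s hs =>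
    (sq_eq_sq_iff_eq_or_eq_neg.1 (by rw [← map_pow, hd, map_neg, map_natCast])).resolve_left hs
  have hd0 : d ≠ -d := fun h => by
    have h0 : d = 0 := by linear_combination h / 2
    rw [h0] at hd
    simp [NeZero.ne n] at hd
  -- the set of classes killed by squaring
  set m := 2 ^ (genusMu n - 1) with hm
  have hsq : Nat.card {a : L ≃ₐ[ℚ] L // a d = d ∧ a * a = 1} = m := by
    rw [hm, ← (card_sq_eq_two_pow n).1]
    refine Nat.card_eq_of_bijective (fun a => ⟨e ⟨a.1, a.2.1⟩, ?_⟩) ⟨fun a b h => ?_, fun c => ?_⟩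
    · rw [← map_mul, show (⟨a.1, a.2.1⟩ : MulAction.stabilizer (L ≃ₐ[ℚ] L) d) * ⟨a.1, a.2.1⟩ = 1
        from Subtype.ext a.2.2, map_one]
    · exact Subtype.ext (congrArg Subtype.val (e.injective (congrArg Subtype.val h)) :)
    · have h := congrArg e.symm c.2
      rw [map_mul, map_one] at h
      exact ⟨⟨(e.symm c.1).1, (e.symm c.1).2, congrArg Subtype.val h⟩,
        Subtype.ext (e.apply_symm_apply c.1)⟩
  -- each reflection with a fixed root
  have hfixcard : ∀ s : L ≃ₐ[ℚ] L, s d ≠ d → ∀ z : L, aeval z H = 0 → s z = z →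
      Nat.card {w : L // aeval w H = 0 ∧ s w = w} = m := by
    intro s hs z hz hsz
    rw [← hsq]
    have hin : ∀ a : {a : L ≃ₐ[ℚ] L // a d = d ∧ a * a = 1},
        aeval (a.1 z) H = 0 ∧ s (a.1 z) = a.1 z := by
      rintro ⟨a, had, haa⟩
      refine ⟨hmap _ _ hz, ?_⟩
      have h1 : (s * a) d ≠ d := by rw [AlgEquiv.mul_apply, had]; exact hs
      -- `s a` is an involution, so `s a = a s`
      have h2 : s * a = a * s := by
        have h3 := hinv _ h1
        have h4 := hinv _ hs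
        calc s * a = (s * a * (s * a)) * (a * s) := by
              rw [show s * a * (s * a) * (a * s) = s * a * s * (a * a) * s by group, haa, mul_one,
                mul_assoc (s * a), h4, mul_one]
          _ = a * s := by rw [h3, one_mul]
      calc s (a z) = (s * a) z := rfl
        _ = (a * s) z := by rw [h2]
        _ = a z := by rw [AlgEquiv.mul_apply, hsz]
    refine (Nat.card_eq_of_bijective (fun a => (⟨a.1 z, hin a⟩ :
      {w : L // aeval w H = 0 ∧ s w = w})) ⟨fun a b h => ?_, fun w => ?_⟩).symm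
    · exact Subtype.ext ((huniq z (a.1 z) hz (hmap _ _ hz)).unique ⟨a.2.1, rfl⟩
        ⟨b.2.1, (congrArg Subtype.val h).symm⟩)
    · obtain ⟨σ, ⟨hσd, hσz⟩, -⟩ := huniq z w.1 hz w.2.1
      refine ⟨⟨σ, hσd, ?_⟩, Subtype.ext hσz⟩
      have h1 : (s * σ) d ≠ d := by rw [AlgEquiv.mul_apply, hσd]; exact hs
      have h2 : (s * σ * s⁻¹ * σ⁻¹) w.1 = w.1 := by
        simp only [AlgEquiv.mul_apply]
        rw [show σ⁻¹ w.1 = z by rw [← hσz]; exact σ.symm_apply_apply z,
          show s⁻¹ z = z by conv_lhs => rw [← hsz]; exact s.symm_apply_apply z, hσz, w.2.2]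
      have h3 : (s * σ * s⁻¹ * σ⁻¹) d = d := by
        simp only [AlgEquiv.mul_apply]
        rw [show σ⁻¹ d = d by conv_lhs => rw [← hσd]; exact σ.symm_apply_apply d]
        have h5 : s⁻¹ d = -d := by
          rw [inv_eq_of_mul_eq_one_right (hinv _ hs), hneg _ hs]
        rw [h5, map_neg, hσd, map_neg, hneg _ hs, neg_neg]
      have h4 := hone _ h3 w.1 w.2.1 h2
      have h6 : s⁻¹ = s := inv_eq_of_mul_eq_one_right (hinv _ hs)
      have h7 : s * σ = σ * s := by
        calc s * σ = s * σ * s⁻¹ * σ⁻¹ * (σ * s) := by group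
          _ = σ * s := by rw [h4, one_mul]
      calc σ * σ = σ * (s * s) * σ := by rw [hinv _ hs, mul_one]
        _ = (σ * s) * (s * σ) := by group
        _ = (s * σ) * (s * σ) := by rw [h7]
        _ = 1 := hinv _ h1
  -- each root is fixed by exactly one reflection
  have hex : ∀ z : L, aeval z H = 0 → ∃! s : L ≃ₐ[ℚ] L, s d ≠ d ∧ s z = z := by
    intro z hz
    obtain ⟨s₀, hs₀⟩ : ∃ s : L ≃ₐ[ℚ] L, s d ≠ d := by
      by_contra hcon
      push Not at hcon
      have hc : Nat.card (L ≃ₐ[ℚ] L) = Nat.card (MulAction.stabilizer (L ≃ₐ[ℚ] L) d) :=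
        Nat.card_congr
          (Equiv.subtypeUnivEquiv fun σ => MulAction.mem_stabilizer_iff.2 (hcon σ)).symm
      rw [IsGalois.card_aut_eq_finrank, hdeg, Nat.card_congr e.toEquiv] at hc
      have := Nat.card_pos (α := Cl n)
      omega
    obtain ⟨t, ⟨htd, htz⟩, -⟩ := huniq (s₀ z) z (hmap _ _ hz) hz
    refine ⟨t * s₀, ⟨?_, htz⟩, fun s hs => ?_⟩
    · rw [AlgEquiv.mul_apply, hneg _ hs₀, map_neg, htd]
      exact hd0.symm
    · have h1 : (s * (t * s₀)) d = d := by
        simp only [AlgEquiv.mul_apply]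
        rw [hneg _ hs₀, map_neg, htd, map_neg, hneg _ hs.1, neg_neg]
      have h2 : (s * (t * s₀)) z = z := by simp only [AlgEquiv.mul_apply]; rw [htz, hs.2]
      have h3 := hone _ h1 z hz h2
      rw [← inv_eq_of_mul_eq_one_right h3, inv_eq_of_mul_eq_one_right (hinv _ hs.1)]
  refine ⟨L, hfin, hgal, d, hd, minpoly.monic hi, hsplits, hdeg, hinv, hfixcard, ?_⟩
  -- counting
  let Z := {z : L // aeval z H = 0}
  let C' := {s : L ≃ₐ[ℚ] L // s d ≠ d ∧ ∃ z : L, aeval z H = 0 ∧ s z = z}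
  obtain ⟨z₀, hz₀⟩ : ∃ z : L, aeval z H = 0 := ⟨y, (hroot y).2 (by rw [hy]; exact hu)⟩
  have hZ : Nat.card Z = Nat.card (Cl n) := by
    rw [← Nat.card_congr e.toEquiv]
    refine (Nat.card_eq_of_bijective (fun σ => ⟨σ.1 z₀, hmap _ _ hz₀⟩)
      ⟨fun a b h => ?_, fun w => ?_⟩).symm
    · exact Subtype.ext ((huniq z₀ (a.1 z₀) hz₀ (hmap _ _ hz₀)).unique ⟨a.2, rfl⟩
        ⟨b.2, (congrArg Subtype.val h).symm⟩)
    · obtain ⟨σ, ⟨hσd, hσz⟩, -⟩ := huniq z₀ w.1 hz₀ w.2
      exact ⟨⟨σ, hσd⟩, Subtype.ext hσz⟩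
  haveI : Finite Z := Nat.finite_of_card_ne_zero (by rw [hZ]; exact Nat.card_pos.ne')
  have hC' : Nat.card C' * m = Nat.card (Cl n) := by
    rw [← hZ]
    let f : Z → C' := fun z =>
      ⟨(hex z.1 z.2).exists.choose, (hex z.1 z.2).exists.choose_spec.1, z.1, z.2,
        (hex z.1 z.2).exists.choose_spec.2⟩
    cases nonempty_fintype C'
    rw [Nat.card_congr (Equiv.sigmaFiberEquiv f).symm, Nat.card_sigma,
      Finset.sum_const_nat (m := m) fun s _ => ?_, Finset.card_univ, Nat.card_eq_fintype_card]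
    obtain ⟨z, hz, hsz⟩ := s.2.2
    rw [← hfixcard s.1 s.2.1 z hz hsz]
    refine Nat.card_eq_of_bijective (fun w => ⟨w.1.1, w.1.2, ?_⟩) ⟨fun a b h => ?_, fun w => ?_⟩
    · exact (congrArg (fun t : C' => t.1 w.1.1) w.2).symm.trans
        (hex w.1.1 w.1.2).exists.choose_spec.2
    · exact Subtype.ext (Subtype.ext (congrArg Subtype.val h :))
    · refine ⟨⟨⟨w.1, w.2.1⟩, Subtype.ext ?_⟩, rfl⟩
      exact (hex w.1 w.2.1).unique (hex w.1 w.2.1).exists.choose_spec ⟨s.2.1, w.2.2⟩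
  have hsplit : Nat.card {g : L ≃ₐ[ℚ] L // ∃ z : L, aeval z H = 0 ∧ g z = z} =
      1 + Nat.card C' := by
    rw [← Nat.card_congr (Equiv.sumCompl fun g : {g : L ≃ₐ[ℚ] L //
      ∃ z : L, aeval z H = 0 ∧ g z = z} => g.1 d = d), Nat.card_sum]
    congr 1
    · refine Nat.card_eq_one_iff_unique.2 ⟨⟨fun a b => ?_⟩, ⟨⟨1, z₀, hz₀, rfl⟩, rfl⟩⟩
      obtain ⟨z, hz, haz⟩ := a.1.2
      obtain ⟨w, hw, hbw⟩ := b.1.2
      exact Subtype.ext (Subtype.ext ((hone _ a.2 z hz haz).trans (hone _ b.2 w hw hbw).symm))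
    · exact Nat.card_congr ⟨fun g => ⟨g.1.1, g.2, g.1.2⟩, fun g => ⟨⟨g.1, g.2.2⟩, g.2.1⟩,
        fun _ => rfl, fun _ => rfl⟩
  rw [hsplit, add_mul, one_mul, hC', add_comm]

end FA.GaloisModuli

end
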