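import Mathlib.Analysis.SpecialFunctions.Trigonometric.ArctanDeriv
import Mathlib.MeasureTheory.Integral.DominatedConvergence
import Mathlib.MeasureTheory.Integral.IntervalIntegral.FundThmCalculus
import Mathlib.MeasureTheory.Measure.Haar.NormedSpace
import Mathlib.MeasureTheory.Function.Floor
import Mathlib.Analysis.SpecialFunctions.Sqrt

/-!
# Lattice points in the fundamental domain of positive binary quadratic forms

The integer triples `(a, b, c)` with `2 |b| ≤ a ≤ c`, `a c - b² ≤ Y` and `a`, `c` multiples of `e`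
number `(2π/9e²) Y^(3/2)` asymptotically.
-/

set_option autoImplicit false

noncomputable section

namespace FA.GaussMertens

open MeasureTheory Filter Topology

/-- The integral of a step function is a sum. -/
theorem integral_step {f : ℤ → ℝ} {s : Finset ℤ} (h : ∀ k, k ∉ s → f k = 0) :
    ∫ x : ℝ, f ⌈x⌉ = ∑ k ∈ s, f k := by
  have e : (fun x : ℝ => f ⌈x⌉) =
      fun x => ∑ k ∈ s, (Set.Ioc ((k : ℝ) - 1) k).indicator (fun _ => f k) x := by
    funext x
    by_cases hx : ⌈x⌉ ∈ s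
    · rw [Finset.sum_eq_single_of_mem ⌈x⌉ hx]
      · exact (Set.indicator_of_mem (s := Set.Ioc (((⌈x⌉ : ℤ) : ℝ) - 1) ⌈x⌉)
          (Int.ceil_eq_iff.1 rfl) (fun _ : ℝ => f ⌈x⌉)).symm
      · exact fun k _ hk => Set.indicator_of_notMem (s := Set.Ioc ((k : ℝ) - 1) k)
          (fun hm => hk (Int.ceil_eq_iff.2 hm).symm) _
    · rw [h _ hx, Finset.sum_eq_zero]
      exact fun k hk => Set.indicator_of_notMem (s := Set.Ioc ((k : ℝ) - 1) k)
        (fun hm => hx ((Int.ceil_eq_iff.2 hm).symm ▸ hk)) _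
  rw [e, integral_finsetSum _ fun k _ => ?_]
  · refine Finset.sum_congr rfl fun k _ => ?_
    rw [integral_indicator_const _ measurableSet_Ioc, Real.volume_real_Ioc]
    simp
  · exact (integrable_indicator_iff measurableSet_Ioc).2 (integrableOn_const (by simp))

/-- `⌈c √Y⌉ / √Y → c`. -/
theorem tendsto_ceil_div_sqrt (c : ℝ) :
    Tendsto (fun Y : ℝ => (⌈c * √Y⌉ : ℝ) / √Y) atTop (𝓝 c) := by
  have h0 : Tendsto (fun Y : ℝ => c + (√Y)⁻¹) atTop (𝓝 c) := by
    simpa using (tendsto_inv_atTop_zero.comp Real.tendsto_sqrt_atTop).const_add c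
  refine tendsto_of_tendsto_of_tendsto_of_le_of_le' tendsto_const_nhds h0 ?_ ?_ <;>
    filter_upwards [eventually_gt_atTop 0] with Y hY
  · rw [le_div_iff₀ (Real.sqrt_pos.2 hY)]
    exact Int.le_ceil _
  · rw [div_le_iff₀ (Real.sqrt_pos.2 hY), add_mul, inv_mul_cancel₀ (Real.sqrt_pos.2 hY).ne']
    exact (Int.ceil_lt_add_one _).le

/-! ### The rows -/

variable (e : ℕ) (Y : ℝ)

/-- The bound for the third coefficient divided by `e`. -/
def top (a b : ℤ) : ℝ := (Y + (b : ℝ) ^ 2) / ((e : ℝ) ^ 2 * a)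

/-- The number of third coefficients. -/
def cnt (a b : ℤ) : ℝ :=
  if 0 < a ∧ 2 * |b| ≤ e * a then ((Finset.Icc a ⌊top e Y a b⌋).card : ℝ) else 0

/-- The number of forms with given first coefficient. -/
def row (a : ℤ) : ℝ := ∑ b ∈ Finset.Icc (-((e : ℤ) * a)) (e * a), cnt e Y a b

/-- The reduced triples up to `Y`. -/
def tri : Set (ℤ × ℤ × ℤ) :=
  {p | 0 < p.1 ∧ (e : ℤ) ∣ p.1 ∧ (e : ℤ) ∣ p.2.2 ∧ 2 * |p.2.1| ≤ p.1 ∧ p.1 ≤ p.2.2 ∧
    ((p.1 * p.2.2 - p.2.1 ^ 2 : ℤ) : ℝ) ≤ Y}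

variable {e Y}

theorem cnt_nonneg (a b : ℤ) : 0 ≤ cnt e Y a b := by
  rw [cnt]; split <;> simp

theorem row_nonneg (a : ℤ) : 0 ≤ row e Y a := Finset.sum_nonneg fun b _ => cnt_nonneg a b

theorem card_Icc_bounds (a : ℤ) (x : ℝ) :
    max 0 (x - a) ≤ ((Finset.Icc a ⌊x⌋).card : ℝ) ∧
      ((Finset.Icc a ⌊x⌋).card : ℝ) ≤ max 0 (x - a + 1) := by
  rw [Int.card_Icc]
  have h1 := Int.floor_le x
  have h2 := Int.lt_floor_add_one x
  rcases le_total (⌊x⌋ + 1 - a) 0 with h | h
  · rw [Int.toNat_of_nonpos h]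
    have h' : (⌊x⌋ : ℝ) + 1 - a ≤ 0 := by exact_mod_cast h
    exact ⟨by rw [Nat.cast_zero, max_le_iff]; exact ⟨le_rfl, by linarith⟩,
      by rw [Nat.cast_zero]; exact le_max_left _ _⟩
  · have h3 : (((⌊x⌋ + 1 - a).toNat : ℕ) : ℝ) = (⌊x⌋ : ℝ) + 1 - a := by
      exact_mod_cast congrArg (fun z : ℤ => (z : ℝ)) (Int.toNat_of_nonneg h)
    have h' : (0 : ℝ) ≤ (⌊x⌋ : ℝ) + 1 - a := by exact_mod_cast h
    rw [h3]
    exact ⟨max_le h' (by linarith), le_max_of_le_right (by linarith)⟩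

theorem le_top_iff (he : 0 < e) {a : ℤ} (ha : 0 < a) (b c : ℤ) :
    (c : ℝ) ≤ top e Y a b ↔ (((e : ℤ) * a * ((e : ℤ) * c) - b ^ 2 : ℤ) : ℝ) ≤ Y := by
  have h : (0 : ℝ) < (e : ℝ) ^ 2 * a := by
    have : (0 : ℝ) < a := by exact_mod_cast ha
    positivity
  rw [top, le_div_iff₀ h]
  push_cast
  constructor <;> intro h' <;> linarith

theorem sq_le_of_two_abs_le {a b : ℤ} (h : 2 * |b| ≤ e * a) :
    4 * (b : ℝ) ^ 2 ≤ ((e : ℝ) * a) ^ 2 := by
  have h1 : (2 * |(b : ℝ)|) ≤ (e : ℝ) * a := by exact_mod_cast h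
  nlinarith [sq_abs (b : ℝ), abs_nonneg (b : ℝ)]

theorem le_two_sqrt (he : 0 < e) {a b : ℤ} (ha : 0 < a) (hb : 2 * |b| ≤ e * a)
    (htop : (a : ℝ) ≤ top e Y a b) : (e : ℝ) * a ≤ 2 * √Y := by
  rw [le_top_iff he ha] at htop
  push_cast at htop
  have h4 := sq_le_of_two_abs_le hb
  have h0 : (0 : ℝ) ≤ (e : ℝ) * a / 2 := by
    have : (0 : ℝ) < a := by exact_mod_cast ha
    positivity
  have : (e : ℝ) * a / 2 ≤ √Y := (Real.le_sqrt' (by
    have : (0 : ℝ) < a := by exact_mod_cast ha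
    positivity)).2 (by nlinarith)
  linarith

theorem cnt_ne_zero {a b : ℤ} (h : cnt e Y a b ≠ 0) :
    0 < a ∧ 2 * |b| ≤ e * a ∧ (a : ℝ) ≤ top e Y a b := by
  rw [cnt] at h
  split at h
  case isFalse => exact absurd rfl h
  case isTrue hc =>
    refine ⟨hc.1, hc.2, ?_⟩
    by_contra hlt
    exact h (by rw [Finset.Icc_eq_empty_of_lt (Int.floor_lt.2 (not_le.1 hlt))]; simp)

theorem cnt_le (he : 0 < e) (hY : 0 ≤ Y) {a : ℤ} (ha : 0 < a) (b : ℤ) :
    cnt e Y a b ≤ 2 * Y / ((e : ℝ) ^ 2 * a) := by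
  have ha' : (1 : ℝ) ≤ a := by exact_mod_cast ha
  by_cases h : cnt e Y a b = 0
  · rw [h]; positivity
  obtain ⟨-, hb, htop⟩ := cnt_ne_zero h
  rw [cnt, if_pos ⟨ha, hb⟩]
  refine (card_Icc_bounds a _).2.trans (max_le (by positivity) ?_)
  have h1 : top e Y a b ≤ 2 * Y / ((e : ℝ) ^ 2 * a) := by
    have h2 := (le_top_iff he ha b a).1 htop
    push_cast at h2
    have h4 := sq_le_of_two_abs_le hb
    rw [top]
    gcongr
    nlinarith
  linarith

theorem row_eq_zero (he : 0 < e) {a : ℤ} (h : a ∉ Finset.Icc 1 ⌊2 * √Y⌋) : row e Y a = 0 := by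
  refine Finset.sum_eq_zero fun b _ => ?_
  by_contra hne
  obtain ⟨ha, hb, htop⟩ := cnt_ne_zero hne
  refine h (Finset.mem_Icc.2 ⟨ha, Int.le_floor.2 (le_trans ?_ (le_two_sqrt he ha hb htop))⟩)
  exact le_mul_of_one_le_left (by exact_mod_cast ha.le) (by exact_mod_cast he)

theorem row_le (he : 0 < e) (hY : 0 ≤ Y) (a : ℤ) : row e Y a ≤ 4 * Y / e := by
  have he' : (0 : ℝ) < e := by exact_mod_cast he
  rcases le_or_gt a 0 with ha | ha
  · rw [row_eq_zero he fun h => by have := (Finset.mem_Icc.1 h).1; omega]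
    positivity
  have ha' : (0 : ℝ) < a := by exact_mod_cast ha
  set z := (e : ℤ) * a / 2 with hz
  have hz2 : 2 * z ≤ e * a := by omega
  rw [row, ← Finset.sum_subset (Finset.Icc_subset_Icc (a₁ := -z) (a₂ := -((e : ℤ) * a))
    (b₁ := z) (b₂ := (e : ℤ) * a) (by nlinarith) (by nlinarith)) fun b _ hb => by
      rw [cnt, if_neg]
      rintro ⟨-, h⟩
      rw [Finset.mem_Icc] at hb
      rcases abs_cases b with hh | hh <;> omega]
  refine (Finset.sum_le_card_nsmul _ _ _ fun b _ => cnt_le he hY ha b).trans ?_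
  rw [nsmul_eq_mul, Int.card_Icc]
  have hcard : (((z + 1 - -z).toNat : ℕ) : ℝ) ≤ 2 * ((e : ℝ) * a) := by
    have : (((z + 1 - -z).toNat : ℕ) : ℤ) ≤ 2 * ((e : ℤ) * a) := by
      have : 0 < (e : ℤ) * a := by positivity
      omega
    exact_mod_cast this
  calc _ ≤ 2 * ((e : ℝ) * a) * (2 * Y / ((e : ℝ) ^ 2 * a)) :=
        mul_le_mul_of_nonneg_right hcard (by positivity)
    _ = 4 * Y / e := by field_simp; ring

/-- **The count as a sum of rows.** -/
theorem ncard_tri (he : 0 < e) :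
    (tri e Y).Finite ∧ ((tri e Y).ncard : ℝ) = ∑ a ∈ Finset.Icc 1 ⌊2 * √Y⌋, row e Y a := by
  classical
  set S := (Finset.Icc 1 ⌊2 * √Y⌋).sigma fun a =>
    ((Finset.Icc (-((e : ℤ) * a)) (e * a)).filter fun b => 2 * |b| ≤ e * a).sigma fun b =>
      Finset.Icc a ⌊top e Y a b⌋
  set φ : (Σ _ : ℤ, Σ _ : ℤ, ℤ) → ℤ × ℤ × ℤ := fun x => (e * x.1, x.2.1, e * x.2.2)
  have heZ : (e : ℤ) ≠ 0 := by omega
  have hφ : Function.Injective φ := by
    rintro ⟨a, b, c⟩ ⟨a', b', c'⟩ h
    simp only [φ, Prod.mk.injEq] at h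
    obtain ⟨h1, rfl, h3⟩ := h
    obtain rfl := mul_left_cancel₀ heZ h1
    obtain rfl := mul_left_cancel₀ heZ h3
    rfl
  have hS : tri e Y = ↑(S.image φ) := by
    ext ⟨A, b, C⟩
    simp only [tri, Set.mem_ofPred_eq, Finset.coe_image, Set.mem_image, Finset.mem_coe, S, φ,
      Finset.mem_sigma, Finset.mem_filter, Finset.mem_Icc, Sigma.exists, Prod.mk.injEq]
    constructor
    · rintro ⟨hA, ⟨a, rfl⟩, ⟨c, rfl⟩, hb, hac, hY⟩
      have ha : 0 < a := pos_of_mul_pos_right hA (by omega)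
      have hac' : a ≤ c := le_of_mul_le_mul_left hac (by omega)
      have hc := (le_top_iff he ha b c).2 hY
      have htop : (a : ℝ) ≤ top e Y a b := le_trans (by exact_mod_cast hac') hc
      refine ⟨a, b, c, ⟨⟨ha, Int.le_floor.2 (le_trans ?_ (le_two_sqrt he ha hb htop))⟩,
        ⟨⟨by rcases abs_cases b with hh | hh <;> omega, by
          rcases abs_cases b with hh | hh <;> omega⟩, hb⟩, hac', Int.le_floor.2 hc⟩, rfl, rfl, rfl⟩
      exact le_mul_of_one_le_left (by exact_mod_cast ha.le) (by exact_mod_cast he)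
    · rintro ⟨a, b', c, ⟨⟨ha, -⟩, ⟨-, hb⟩, hac, hc⟩, rfl, rfl, rfl⟩
      exact ⟨mul_pos (by omega) (by omega), dvd_mul_right _ _, dvd_mul_right _ _, hb,
        mul_le_mul_of_nonneg_left hac (by omega), (le_top_iff he (by omega) _ c).1
          (Int.le_floor.1 hc)⟩
  refine ⟨hS ▸ Finset.finite_toSet _, ?_⟩
  rw [hS, Set.ncard_coe_finset, Finset.card_image_of_injective _ hφ, Finset.card_sigma,
    Nat.cast_sum]
  refine Finset.sum_congr rfl fun a ha => ?_
  rw [Finset.card_sigma, Nat.cast_sum, row, Finset.sum_filter]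
  refine Finset.sum_congr rfl fun b _ => ?_
  simp only [cnt, show 0 < a from (Finset.mem_Icc.1 ha).1, true_and]

theorem ncard_tri_le (he : 0 < e) (hY : 0 ≤ Y) : ((tri e Y).ncard : ℝ) ≤ 8 * (Y * √Y) := by
  rw [(ncard_tri he).2]
  refine (Finset.sum_le_card_nsmul _ _ _ fun a _ => row_le he hY a).trans ?_
  rw [nsmul_eq_mul, Int.card_Icc, add_sub_cancel_right]
  have h0 : (0 : ℤ) ≤ ⌊2 * √Y⌋ := Int.floor_nonneg.2 (by positivity)
  have h1 : ((⌊2 * √Y⌋.toNat : ℕ) : ℝ) ≤ 2 * √Y := by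
    rw [show ((⌊2 * √Y⌋.toNat : ℕ) : ℝ) = (⌊2 * √Y⌋ : ℝ) by
      exact_mod_cast congrArg (fun z : ℤ => (z : ℝ)) (Int.toNat_of_nonneg h0)]
    exact Int.floor_le _
  calc _ ≤ 2 * √Y * (4 * Y) :=
        mul_le_mul h1 (div_le_self (by linarith) (by exact_mod_cast he)) (by positivity)
          (by positivity)
    _ = _ := by ring

/-! ### The two limits -/

/-- The height of the region over `(t, u)`. -/
def gam (t u : ℝ) : ℝ := (1 + u ^ 2) / t - t

/-- The height, cut off to the fundamental domain. -/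
def height (t u : ℝ) : ℝ := if 2 * |u| ≤ t then max 0 (gam t u) else 0

/-- The area of a slice. -/
def slice (t : ℝ) : ℝ := ∫ u, height t u

theorem tendsto_cnt (he : 0 < e) {t u : ℝ} (ht : 0 < t) (hu : 2 * |u| ≠ t) :
    Tendsto (fun Y : ℝ => cnt e Y ⌈t / e * √Y⌉ ⌈u * √Y⌉ / √Y) atTop
      (𝓝 (height t u / e)) := by
  have he' : (0 : ℝ) < e := by exact_mod_cast he
  have hA := tendsto_ceil_div_sqrt (t / e)
  have hB := tendsto_ceil_div_sqrt u
  have hD : Tendsto (fun Y : ℝ => (e : ℝ) * ((⌈t / e * √Y⌉ : ℝ) / √Y) -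
      2 * |(⌈u * √Y⌉ : ℝ) / √Y|) atTop (𝓝 (t - 2 * |u|)) := by
    have := (hA.const_mul (e : ℝ)).sub (hB.abs.const_mul 2)
    rwa [mul_div_cancel₀ _ he'.ne'] at this
  have hpos : ∀ Y : ℝ, 0 < Y → (0 : ℤ) < ⌈t / e * √Y⌉ := fun Y hY =>
    Int.ceil_pos.2 (by positivity)
  rcases lt_or_gt_of_ne hu with h | h
  · rw [height, if_pos h.le]
    have hlim : Tendsto (fun Y : ℝ => (1 + ((⌈u * √Y⌉ : ℝ) / √Y) ^ 2) /
        ((e : ℝ) ^ 2 * ((⌈t / e * √Y⌉ : ℝ) / √Y)) - (⌈t / e * √Y⌉ : ℝ) / √Y) atTop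
        (𝓝 (gam t u / e)) := by
      have := (((hB.pow 2).const_add 1).div (hA.const_mul ((e : ℝ) ^ 2)) (by positivity)).sub hA
      convert this using 2
      · rfl
      · unfold gam; field_simp
    have hmax : ∀ g : ℝ, max 0 g / e = max 0 (g / e) := fun g => by
      rw [← max_div_div_right he'.le, zero_div]
    rw [hmax]
    have hup : Tendsto (fun Y : ℝ => max 0 ((1 + ((⌈u * √Y⌉ : ℝ) / √Y) ^ 2) /
        ((e : ℝ) ^ 2 * ((⌈t / e * √Y⌉ : ℝ) / √Y)) - (⌈t / e * √Y⌉ : ℝ) / √Y + (√Y)⁻¹)) atTop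
        (𝓝 (max 0 (gam t u / e))) := by
      simpa using tendsto_const_nhds.max
        (hlim.add (tendsto_inv_atTop_zero.comp Real.tendsto_sqrt_atTop))
    refine tendsto_of_tendsto_of_tendsto_of_le_of_le' (tendsto_const_nhds.max hlim) hup ?_ ?_ <;>
      filter_upwards [hD.eventually (lt_mem_nhds (sub_pos.2 h)), eventually_gt_atTop 0]
        with Y hY1 hY
    all_goals
      have hs := Real.sqrt_pos.2 hY
      have hcond : 2 * |⌈u * √Y⌉| ≤ (e : ℤ) * ⌈t / e * √Y⌉ := by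
        rw [abs_div, abs_of_pos hs, ← mul_div_assoc, ← mul_div_assoc, ← sub_div,
          lt_div_iff₀ hs, zero_mul, sub_pos] at hY1
        exact_mod_cast hY1.le
      rw [cnt, if_pos ⟨hpos Y hY, hcond⟩]
      obtain ⟨hl, hr⟩ := card_Icc_bounds ⌈t / e * √Y⌉
        (top e Y ⌈t / e * √Y⌉ ⌈u * √Y⌉)
      have hx : top e Y ⌈t / e * √Y⌉ ⌈u * √Y⌉ / √Y = (1 + ((⌈u * √Y⌉ : ℝ) / √Y) ^ 2) /
          ((e : ℝ) ^ 2 * ((⌈t / e * √Y⌉ : ℝ) / √Y)) := by
        have ha : (0 : ℝ) < ⌈t / e * √Y⌉ := by exact_mod_cast hpos Y hY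
        rw [top]
        field_simp
        rw [Real.sq_sqrt hY.le]
    · refine le_trans ?_ (div_le_div_of_nonneg_right hl hs.le)
      rw [← max_div_div_right hs.le, zero_div, sub_div, hx]
    · refine le_trans (div_le_div_of_nonneg_right hr hs.le) ?_
      rw [← max_div_div_right hs.le, zero_div, add_div, sub_div, hx, one_div]
  · rw [height, if_neg (not_le.2 h), zero_div]
    refine tendsto_const_nhds.congr' ?_
    filter_upwards [hD.eventually (gt_mem_nhds (sub_neg.2 h)), eventually_gt_atTop 0]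
      with Y hY1 hY
    rw [cnt, if_neg, zero_div]
    rintro ⟨-, hc⟩
    have hc' : 2 * |(⌈u * √Y⌉ : ℝ)| ≤ (e : ℝ) * ⌈t / e * √Y⌉ := by exact_mod_cast hc
    rw [abs_div, abs_of_pos (Real.sqrt_pos.2 hY), ← mul_div_assoc, ← mul_div_assoc, ← sub_div,
      div_lt_iff₀ (Real.sqrt_pos.2 hY), zero_mul, sub_neg] at hY1
    linarith

theorem measurable_step (f : ℤ → ℝ) (c : ℝ) : Measurable fun x : ℝ => f ⌈x * c⌉ :=
  (measurable_of_countable f).comp (Measurable.ceil (measurable_id.mul_const c))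

theorem tendsto_row (he : 0 < e) {t : ℝ} (ht : 0 < t) :
    Tendsto (fun Y : ℝ => row e Y ⌈t / e * √Y⌉ / Y) atTop (𝓝 (slice t / e)) := by
  have he' : (0 : ℝ) < e := by exact_mod_cast he
  have h := tendsto_integral_filter_of_dominated_convergence (μ := volume) (l := atTop)
    (F := fun Y u => cnt e Y ⌈t / e * √Y⌉ ⌈u * √Y⌉ / √Y)
    (f := fun u => height t u / e)
    ((Set.Icc (-2 : ℝ) 2).indicator fun _ => 2 / ((e : ℝ) * t))
    (Eventually.of_forall fun Y =>
      ((measurable_step (fun b => cnt e Y ⌈t / e * √Y⌉ b) (√Y)).div_const _).aestronglyMeasurable)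
    ?_ ((integrable_indicator_iff measurableSet_Icc).2 (integrableOn_const (by simp))) ?_
  · rw [integral_div] at h
    refine h.congr' ?_
    filter_upwards [eventually_gt_atTop 0] with Y hY
    have hs := Real.sqrt_pos.2 hY
    have hsum : ∫ x : ℝ, cnt e Y ⌈t / e * √Y⌉ ⌈x⌉ = row e Y ⌈t / e * √Y⌉ :=
      integral_step fun b hb => by
        by_contra hne
        obtain ⟨-, h2, -⟩ := cnt_ne_zero hne
        rw [Finset.mem_Icc] at hb
        rcases abs_cases b with hh | hh <;> omega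
    rw [integral_div,
      Measure.integral_comp_mul_right (fun x => cnt e Y ⌈t / e * √Y⌉ ⌈x⌉) √Y, hsum,
      smul_eq_mul, abs_of_pos (inv_pos.2 hs)]
    field_simp
    rw [Real.sq_sqrt hY.le]
    ring
  · filter_upwards [eventually_ge_atTop 1] with Y hY
    refine Eventually.of_forall fun u => ?_
    have hs : 1 ≤ √Y := Real.one_le_sqrt.2 hY
    have hnn : 0 ≤ cnt e Y ⌈t / e * √Y⌉ ⌈u * √Y⌉ / √Y := div_nonneg (cnt_nonneg _ _) (by linarith)
    rw [Real.norm_eq_abs, abs_of_nonneg hnn]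
    by_cases hz : cnt e Y ⌈t / e * √Y⌉ ⌈u * √Y⌉ = 0
    · rw [hz, zero_div]
      exact Set.indicator_nonneg (fun _ _ => by positivity) _
    obtain ⟨ha, hb, htop⟩ := cnt_ne_zero hz
    have hea := le_two_sqrt he ha hb htop
    have hb' : 2 * |(⌈u * √Y⌉ : ℝ)| ≤ (e : ℝ) * ⌈t / e * √Y⌉ := by exact_mod_cast hb
    have h1 := Int.le_ceil (u * √Y)
    have h2 := Int.ceil_lt_add_one (u * √Y)
    have hu : u ∈ Set.Icc (-2 : ℝ) 2 := by
      obtain ⟨h3, h4⟩ := abs_le.1 (show |(⌈u * √Y⌉ : ℝ)| ≤ √Y by linarith)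
      constructor <;> nlinarith
    rw [Set.indicator_of_mem hu]
    refine (div_le_div_of_nonneg_right (cnt_le he (by linarith) ha _) (by linarith)).trans ?_
    have hA : t / e * √Y ≤ (⌈t / e * √Y⌉ : ℝ) := Int.le_ceil _
    have hA0 : 0 < t / e * √Y := by positivity
    calc 2 * Y / ((e : ℝ) ^ 2 * ⌈t / e * √Y⌉) / √Y
        ≤ 2 * Y / ((e : ℝ) ^ 2 * (t / e * √Y)) / √Y := by gcongr
      _ = 2 / (e * t) := by
          field_simp
          rw [Real.sq_sqrt (by linarith)]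
  · have : ∀ᵐ u : ℝ, 2 * |u| ≠ t := by
      have h0 : ({t / 2, -(t / 2)} : Set ℝ)ᶜ ∈ ae volume :=
        compl_mem_ae_iff.2 (Set.Finite.measure_zero (Set.toFinite _) _)
      filter_upwards [h0] with u hu h'
      rcases abs_cases u with ⟨hh, -⟩ | ⟨hh, -⟩
      · exact hu (Or.inl (by linarith))
      · exact hu (Or.inr (show u = -(t / 2) by linarith))
    filter_upwards [this] with u hu using tendsto_cnt he ht hu

theorem slice_of_nonpos {t : ℝ} (ht : t ≤ 0) : slice t = 0 := by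
  refine integral_eq_zero_of_ae ?_
  have h0 : ({0} : Set ℝ)ᶜ ∈ ae volume := compl_mem_ae_iff.2 (by simp)
  filter_upwards [h0] with u hu
  rw [height, if_neg fun h => hu ?_]
  · rfl
  · have := abs_nonneg u
    exact abs_eq_zero.1 (by linarith)

/-- **The asymptotic count, up to evaluating the volume.** -/
theorem tendsto_tri (he : 0 < e) :
    Tendsto (fun Y : ℝ => ((tri e Y).ncard : ℝ) / (Y * √Y)) atTop
      (𝓝 ((∫ t, slice t) / (e : ℝ) ^ 2)) := by
  have he' : (0 : ℝ) < e := by exact_mod_cast he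
  have h := tendsto_integral_filter_of_dominated_convergence (μ := volume) (l := atTop)
    (F := fun Y t => row e Y ⌈t * (√Y / e)⌉ / (e * Y)) (f := fun t => slice t / (e : ℝ) ^ 2)
    ((Set.Ioc (0 : ℝ) 3).indicator fun _ => 4 / (e : ℝ) ^ 2)
    (Eventually.of_forall fun Y =>
      ((measurable_step (row e Y) (√Y / e)).div_const _).aestronglyMeasurable)
    ?_ ((integrable_indicator_iff measurableSet_Ioc).2 (integrableOn_const (by simp))) ?_
  · rw [integral_div] at h
    refine h.congr' ?_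
    filter_upwards [eventually_gt_atTop 0] with Y hY
    have hs := Real.sqrt_pos.2 hY
    rw [integral_div, Measure.integral_comp_mul_right (fun x => row e Y ⌈x⌉) (√Y / e),
      integral_step fun a ha => row_eq_zero he ha, ← (ncard_tri he).2, smul_eq_mul,
      abs_of_pos (inv_pos.2 (by positivity))]
    field_simp
  · filter_upwards [eventually_ge_atTop 1] with Y hY
    refine Eventually.of_forall fun t => ?_
    rw [Real.norm_eq_abs, abs_of_nonneg (div_nonneg (row_nonneg _) (by positivity))]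
    by_cases hz : row e Y ⌈t * (√Y / e)⌉ = 0
    · rw [hz, zero_div]
      exact Set.indicator_nonneg (fun _ _ => by positivity) _
    obtain ⟨b, -, hb0⟩ := Finset.exists_ne_zero_of_sum_ne_zero hz
    obtain ⟨ha, hb, htop⟩ := cnt_ne_zero hb0
    have hea := le_two_sqrt he ha hb htop
    have hs : 1 ≤ √Y := Real.one_le_sqrt.2 hY
    have ht : t ∈ Set.Ioc (0 : ℝ) 3 := by
      refine ⟨?_, ?_⟩
      · by_contra ht
        have : t * (√Y / e) ≤ 0 := mul_nonpos_of_nonpos_of_nonneg (not_lt.1 ht) (by positivity)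
        exact absurd ha (not_lt.2 (Int.ceil_le.2 (by simpa using this)))
      · by_contra ht
        have h3 : 3 * (√Y / e) < t * (√Y / e) :=
          mul_lt_mul_of_pos_right (not_le.1 ht) (by positivity)
        have h4 := mul_le_mul_of_nonneg_left (h3.le.trans (Int.le_ceil _)) he'.le
        rw [show (e : ℝ) * (3 * (√Y / e)) = 3 * √Y by field_simp] at h4
        linarith
    rw [Set.indicator_of_mem ht]
    refine (div_le_div_of_nonneg_right (row_le he (by linarith) _) (by positivity)).trans ?_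
    apply le_of_eq
    field_simp
  · have h0 : ({0} : Set ℝ)ᶜ ∈ ae volume := compl_mem_ae_iff.2 (by simp)
    filter_upwards [h0] with t ht
    rcases lt_or_gt_of_ne (show t ≠ 0 from ht) with ht | ht
    · rw [slice_of_nonpos ht.le, zero_div]
      refine tendsto_const_nhds.congr' ?_
      filter_upwards [eventually_gt_atTop 0] with Y hY
      rw [row_eq_zero he fun hm => ?_, zero_div]
      have h1 := (Finset.mem_Icc.1 hm).1
      have : t * (√Y / e) ≤ 0 := mul_nonpos_of_nonpos_of_nonneg ht.le (by positivity)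
      have := Int.ceil_le.2 (show t * (√Y / e) ≤ ((0 : ℤ) : ℝ) by simpa using this)
      omega
    · have h := (tendsto_row he ht).div_const (e : ℝ)
      rw [div_div, ← pow_two] at h
      refine h.congr fun Y => ?_
      rw [div_div, mul_comm Y, mul_div_assoc', div_mul_eq_mul_div]

/-! ### The volume -/

theorem hasDerivAt_gam {t : ℝ} (u : ℝ) :
    HasDerivAt (fun u => (u + u ^ 3 / 3) / t - t * u) (gam t u) u := by
  have h : HasDerivAt (fun u => (u + u ^ 3 / 3) / t - t * u)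
      ((1 + (3 : ℕ) * u ^ (3 - 1) / 3) / t - t * 1) u :=
    (((hasDerivAt_id' u).add ((hasDerivAt_pow 3 u).div_const 3)).div_const t).sub
      ((hasDerivAt_id' u).const_mul t)
  refine h.congr_deriv ?_
  rw [gam]
  push_cast
  ring

theorem continuous_gam (t : ℝ) : Continuous (gam t) := by unfold gam; fun_prop

theorem integral_gam {t : ℝ} (a b : ℝ) :
    ∫ u in a..b, gam t u = ((b + b ^ 3 / 3) / t - t * b) - ((a + a ^ 3 / 3) / t - t * a) :=
  intervalIntegral.integral_eq_sub_of_hasDerivAt (fun u _ => hasDerivAt_gam u)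
    ((continuous_gam t).intervalIntegrable _ _)

theorem gam_nonneg {t u : ℝ} (ht : 0 < t) (h : t ^ 2 - 1 ≤ u ^ 2) : 0 ≤ gam t u := by
  rw [gam, sub_nonneg, le_div_iff₀ ht]
  nlinarith

theorem gam_nonpos {t u : ℝ} (ht : 0 < t) (h : u ^ 2 ≤ t ^ 2 - 1) : gam t u ≤ 0 := by
  rw [gam, sub_nonpos, div_le_iff₀ ht]
  nlinarith

theorem slice_eq_interval {t : ℝ} (ht : 0 < t) :
    slice t = ∫ u in (-(t / 2))..(t / 2), max 0 (gam t u) := by
  rw [slice, intervalIntegral.integral_of_le (by linarith), ← integral_Icc_eq_integral_Ioc,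
    ← integral_indicator measurableSet_Icc]
  congr 1
  funext u
  by_cases h : 2 * |u| ≤ t
  · rw [height, if_pos h, Set.indicator_of_mem]
    exact abs_le.1 (by linarith)
  · rw [height, if_neg h, Set.indicator_of_notMem]
    intro hm
    exact h (by have := abs_le.2 hm; linarith)

theorem slice_small {t : ℝ} (ht : 0 < t) (ht1 : t ≤ 1) : slice t = 1 - 11 / 12 * t ^ 2 := by
  rw [slice_eq_interval ht, intervalIntegral.integral_congr (g := gam t) (fun u _ =>
    max_eq_right (gam_nonneg ht (by nlinarith [sq_nonneg u]))), integral_gam]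
  field_simp
  ring

theorem slice_middle {t : ℝ} (ht1 : 1 ≤ t) (ht2 : 3 * t ^ 2 ≤ 4) :
    slice t = 1 - 11 / 12 * t ^ 2 + 4 / 3 * (√(t ^ 2 - 1) ^ 3 / t) := by
  have ht : 0 < t := by linarith
  set s := √(t ^ 2 - 1) with hs
  have hs0 : 0 ≤ s := Real.sqrt_nonneg _
  have hs2 : s ^ 2 = t ^ 2 - 1 := Real.sq_sqrt (by nlinarith)
  have hst : s ≤ t / 2 := by nlinarith
  have hint : ∀ a b, IntervalIntegrable (fun u => max 0 (gam t u)) volume a b := fun a b =>
    (continuous_const.max (continuous_gam t)).intervalIntegrable a b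
  rw [slice_eq_interval ht, ← intervalIntegral.integral_add_adjacent_intervals (b := s)
      (hint _ _) (hint _ _), ← intervalIntegral.integral_add_adjacent_intervals (b := -s)
      (hint _ _) (hint _ _)]
  rw [intervalIntegral.integral_congr (g := gam t) (a := -(t / 2)) (b := -s) (fun u hu =>
      max_eq_right (gam_nonneg ht (by
        rw [Set.uIcc_of_le (by linarith), Set.mem_Icc] at hu
        nlinarith))),
    intervalIntegral.integral_congr (g := fun _ => (0 : ℝ)) (a := -s) (b := s) (fun u hu =>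
      max_eq_left (gam_nonpos ht (by
        rw [Set.uIcc_of_le (by linarith), Set.mem_Icc] at hu
        nlinarith))),
    intervalIntegral.integral_congr (g := gam t) (a := s) (b := t / 2) (fun u hu =>
      max_eq_right (gam_nonneg ht (by
        rw [Set.uIcc_of_le hst, Set.mem_Icc] at hu
        nlinarith))),
    integral_gam, integral_gam, intervalIntegral.integral_zero]
  field_simp
  linear_combination (-576 * s) * hs2

theorem slice_large {t : ℝ} (ht : 0 < t) (ht2 : 4 ≤ 3 * t ^ 2) : slice t = 0 := by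
  rw [slice_eq_interval ht, intervalIntegral.integral_congr (g := fun _ => (0 : ℝ)) (fun u hu =>
    max_eq_left (gam_nonpos ht (by
      rw [Set.uIcc_of_le (by linarith), Set.mem_Icc] at hu
      nlinarith))), intervalIntegral.integral_zero]

/-- **The volume of the fundamental domain up to determinant one is `2π/9`.** -/
theorem integral_slice : ∫ t, slice t = 2 * Real.pi / 9 := by
  set r := √(3 : ℝ) with hr
  have hr2 : r ^ 2 = 3 := Real.sq_sqrt (by norm_num)
  have hr0 : 0 < r := Real.sqrt_pos.2 (by norm_num)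
  set β := 2 / r with hβ
  have hβ0 : 0 < β := by positivity
  have hβ2 : 3 * β ^ 2 = 4 := by rw [hβ, div_pow, hr2]; norm_num
  have hβ1 : 1 ≤ β := by nlinarith
  have hsupp : Function.support slice ⊆ Set.Ioc 0 β := fun t ht => by
    rcases le_or_gt t 0 with h | h
    · exact absurd (slice_of_nonpos h) ht
    · refine ⟨h, ?_⟩
      by_contra hlt
      exact ht (slice_large h (by nlinarith [not_le.1 hlt]))
  have hsmall : ∀ t ∈ Set.uIoc (0 : ℝ) 1, 1 - 11 / 12 * t ^ 2 = slice t := fun t ht => by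
    rw [Set.uIoc_of_le zero_le_one] at ht
    exact (slice_small ht.1 ht.2).symm
  have hmid : ∀ t ∈ Set.uIoc 1 β,
      1 - 11 / 12 * t ^ 2 + 4 / 3 * (√(t ^ 2 - 1) ^ 3 / t) = slice t := fun t ht => by
    rw [Set.uIoc_of_le hβ1] at ht
    exact (slice_middle ht.1.le (by nlinarith [ht.1, ht.2])).symm
  have hc1 : IntervalIntegrable (fun t : ℝ => 1 - 11 / 12 * t ^ 2) volume 0 1 :=
    (by fun_prop : Continuous fun t : ℝ => 1 - 11 / 12 * t ^ 2).intervalIntegrable _ _
  have hc2 : IntervalIntegrable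
      (fun t : ℝ => 1 - 11 / 12 * t ^ 2 + 4 / 3 * (√(t ^ 2 - 1) ^ 3 / t)) volume 1 β := by
    refine ContinuousOn.intervalIntegrable ?_
    rw [Set.uIcc_of_le hβ1]
    exact ContinuousOn.add (by fun_prop) (continuousOn_const.mul (ContinuousOn.div (by fun_prop)
      continuousOn_id fun x hx => ne_of_gt (lt_of_lt_of_le one_pos hx.1)))
  have hF : ∀ t ∈ Set.Ioo 1 β, HasDerivAt (fun t => t - 11 / 36 * t ^ 3 + 4 / 3 *
      (√(t ^ 2 - 1) ^ 3 / 3 - √(t ^ 2 - 1) + Real.arctan √(t ^ 2 - 1)))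
      (1 - 11 / 12 * t ^ 2 + 4 / 3 * (√(t ^ 2 - 1) ^ 3 / t)) t := fun t ht => by
    have hpos : 0 < t ^ 2 - 1 := by nlinarith [ht.1]
    have hS : HasDerivAt (fun t => √(t ^ 2 - 1)) (t / √(t ^ 2 - 1)) t :=
      (((hasDerivAt_pow 2 t).sub_const 1).sqrt hpos.ne').congr_deriv (by push_cast; field_simp)
    have hd : HasDerivAt (fun t => t - 11 / 36 * t ^ 3 + 4 / 3 *
        (√(t ^ 2 - 1) ^ 3 / 3 - √(t ^ 2 - 1) + Real.arctan √(t ^ 2 - 1)))
        (1 - 11 / 36 * ((3 : ℕ) * t ^ (3 - 1)) + 4 / 3 *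
          ((3 : ℕ) * √(t ^ 2 - 1) ^ (3 - 1) * (t / √(t ^ 2 - 1)) / 3 - t / √(t ^ 2 - 1) +
            1 / (1 + √(t ^ 2 - 1) ^ 2) * (t / √(t ^ 2 - 1)))) t :=
      ((hasDerivAt_id' t).sub ((hasDerivAt_pow 3 t).const_mul _)).add
        (((((hS.pow 3).div_const 3).sub hS).add hS.arctan).const_mul _)
    refine hd.congr_deriv ?_
    have hs := Real.sqrt_pos.2 hpos
    have h2 := Real.sq_sqrt hpos.le
    set s := √(t ^ 2 - 1)
    have h1 : 1 + s ^ 2 = t ^ 2 := by rw [h2]; ring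
    have ht0 : 0 < t := by linarith [ht.1]
    rw [h1]
    push_cast
    field_simp
    linear_combination (1728 * (1 - s ^ 2)) * h2
  have harc : Real.arctan r⁻¹ = Real.pi / 6 := by
    rw [show r⁻¹ = Real.tan (Real.pi / 6) by rw [Real.tan_pi_div_six, one_div]]
    exact Real.arctan_tan (by linarith [Real.pi_pos]) (by linarith [Real.pi_pos])
  rw [← intervalIntegral.integral_eq_integral_of_support_subset hsupp,
    ← intervalIntegral.integral_add_adjacent_intervals (hc1.congr hsmall) (hc2.congr hmid),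
    ← intervalIntegral.integral_congr_ae (ae_of_all _ hsmall),
    ← intervalIntegral.integral_congr_ae (ae_of_all _ hmid),
    intervalIntegral.integral_eq_sub_of_hasDerivAt_of_le hβ1 (by fun_prop) hF hc2,
    intervalIntegral.integral_eq_sub_of_hasDerivAt (f := fun t : ℝ => t - 11 / 36 * t ^ 3)
      (fun t _ => ((hasDerivAt_id' t).sub ((hasDerivAt_pow 3 t).const_mul _)).congr_deriv
        (by push_cast; ring)) hc1]
  have hsβ : √(β ^ 2 - 1) = r⁻¹ := by
    rw [Real.sqrt_eq_iff_mul_self_eq (by nlinarith) (by positivity), ← pow_two, inv_pow, hr2]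
    linarith
  rw [hsβ, harc, show √((1 : ℝ) ^ 2 - 1) = 0 by simp, Real.arctan_zero, hβ]
  field_simp
  rw [show r ^ 3 = 3 * r by rw [pow_succ, hr2], hr2]
  ring

/-- **The number of reduced triples.** -/
theorem tendsto_tri_volume (he : 0 < e) :
    Tendsto (fun Y : ℝ => ((tri e Y).ncard : ℝ) / (Y * √Y)) atTop
      (𝓝 (2 * Real.pi / 9 / (e : ℝ) ^ 2)) := integral_slice ▸ tendsto_tri he

end FA.GaussMertens

end
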