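import Fermat.Agent.Tau.GaussMertensCount
import Fermat.Agent.ThetaOne.OrderReduced
import Mathlib.NumberTheory.LSeries.Dirichlet
import Mathlib.NumberTheory.Harmonic.Bounds
import Mathlib.Analysis.SpecialFunctions.Pow.Asymptotics
import Mathlib.Analysis.Normed.Group.Tannery

/-!
# The theorem of Gauss and Mertens on the average class number

A Möbius sieve over odd `d` on the triples with `a`, `c` not both even gives the primitive ones;
the boundary of the fundamental domain is negligible.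
-/

set_option autoImplicit false
set_option linter.style.haveILetI false

noncomputable section

namespace FA.GaussMertens

open Filter Topology
open scoped ArithmeticFunction.Moebius ArithmeticFunction.zeta

/-- The triples with `a` and `c` not both even. -/
def oddTri (Y : ℝ) : Set (ℤ × ℤ × ℤ) := tri 1 Y \ tri 2 Y

/-- The content. -/
def cont (p : ℤ × ℤ × ℤ) : ℕ := Int.gcd (Int.gcd p.1 p.2.1) p.2.2

/-- The primitive triples. -/
def primTri (Y : ℝ) : Set (ℤ × ℤ × ℤ) := {p ∈ oddTri Y | cont p = 1}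

theorem tri_two_subset (Y : ℝ) : tri 2 Y ⊆ tri 1 Y := fun p ⟨h1, _, _, h4, h5, h6⟩ =>
  ⟨h1, by simp, by simp, h4, h5, h6⟩

theorem oddTri_finite (Y : ℝ) : (oddTri Y).Finite := (ncard_tri one_pos).1.sdiff

theorem mem_oddTri {Y : ℝ} {p : ℤ × ℤ × ℤ} :
    p ∈ oddTri Y ↔ 0 < p.1 ∧ 2 * |p.2.1| ≤ p.1 ∧ p.1 ≤ p.2.2 ∧
      ((p.1 * p.2.2 - p.2.1 ^ 2 : ℤ) : ℝ) ≤ Y ∧ ¬ ((2 : ℤ) ∣ p.1 ∧ (2 : ℤ) ∣ p.2.2) := by
  simp only [oddTri, tri, Set.mem_sdiff, Set.mem_ofPred_eq, Nat.cast_one, one_dvd, true_and,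
    Nat.cast_ofNat]
  tauto

theorem tendsto_oddTri :
    Tendsto (fun Y : ℝ => ((oddTri Y).ncard : ℝ) / (Y * √Y)) atTop (𝓝 (Real.pi / 6)) := by
  have h := (tendsto_tri_volume (e := 1) one_pos).sub (tendsto_tri_volume (e := 2) two_pos)
  refine (show Real.pi / 6 = 2 * Real.pi / 9 / ((1 : ℕ) : ℝ) ^ 2 -
    2 * Real.pi / 9 / ((2 : ℕ) : ℝ) ^ 2 by push_cast; ring) ▸ h.congr fun Y => ?_
  rw [oddTri, Set.ncard_sdiff (tri_two_subset Y) (ncard_tri two_pos).1,
    Nat.cast_sub (Set.ncard_le_ncard (tri_two_subset Y) (ncard_tri one_pos).1), sub_div]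

theorem oddTri_le {Y : ℝ} (hY : 0 ≤ Y) : ((oddTri Y).ncard : ℝ) ≤ 8 * (Y * √Y) :=
  le_trans (Nat.cast_le.2 (Set.ncard_le_ncard Set.sdiff_subset (ncard_tri one_pos).1))
    (ncard_tri_le one_pos hY)

theorem cont_dvd (p : ℤ × ℤ × ℤ) :
    (cont p : ℤ) ∣ p.1 ∧ (cont p : ℤ) ∣ p.2.1 ∧ (cont p : ℤ) ∣ p.2.2 :=
  ⟨(Int.gcd_dvd_left _ _).trans (Int.gcd_dvd_left _ _),
    (Int.gcd_dvd_left _ _).trans (Int.gcd_dvd_right _ _), Int.gcd_dvd_right _ _⟩

theorem dvd_cont_iff {d : ℕ} (p : ℤ × ℤ × ℤ) :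
    d ∣ cont p ↔ (d : ℤ) ∣ p.1 ∧ (d : ℤ) ∣ p.2.1 ∧ (d : ℤ) ∣ p.2.2 := by
  refine ⟨fun h => ?_, fun ⟨h1, h2, h3⟩ => ?_⟩
  · obtain ⟨h1, h2, h3⟩ := cont_dvd p
    have h' : (d : ℤ) ∣ (cont p : ℤ) := Int.natCast_dvd_natCast.2 h
    exact ⟨h'.trans h1, h'.trans h2, h'.trans h3⟩
  · exact Int.natCast_dvd_natCast.1 (Int.dvd_coe_gcd (Int.dvd_coe_gcd h1 h2) h3)

theorem cont_odd {Y : ℝ} {p : ℤ × ℤ × ℤ} (hp : p ∈ oddTri Y) : Odd (cont p) := by
  rw [← Nat.not_even_iff_odd, even_iff_two_dvd]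
  intro h
  obtain ⟨h1, -, h3⟩ := (dvd_cont_iff p).1 h
  exact (mem_oddTri.1 hp).2.2.2.2 ⟨h1, h3⟩

theorem cont_le {Y : ℝ} {p : ℤ × ℤ × ℤ} (hp : p ∈ oddTri Y) : cont p ≤ ⌊2 * √Y⌋₊ := by
  obtain ⟨h1, h2, h3, h4, -⟩ := mem_oddTri.1 hp
  have hle : (cont p : ℤ) ≤ p.1 := Int.le_of_dvd h1 (cont_dvd p).1
  have htop : ((p.1 : ℤ) : ℝ) ≤ top 1 Y p.1 p.2.1 := by
    rw [le_top_iff one_pos h1]
    refine le_trans ?_ h4
    exact_mod_cast (show (1 : ℤ) * p.1 * (1 * p.1) - p.2.1 ^ 2 ≤ p.1 * p.2.2 - p.2.1 ^ 2 by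
      nlinarith)
  have h5 := le_two_sqrt one_pos h1 (by rwa [Nat.cast_one, one_mul]) htop
  rw [Nat.cast_one, one_mul] at h5
  exact Nat.le_floor (le_trans (by exact_mod_cast hle) h5)

/-- The weights of the sieve. -/
def wt (d : ℕ) : ℝ := if Odd d then ((μ d : ℤ) : ℝ) else 0

theorem abs_wt_le (d : ℕ) : |wt d| ≤ 1 := by
  rw [wt]
  split
  · exact_mod_cast ArithmeticFunction.abs_moebius_le_one
  · simp

theorem sum_wt {g : ℕ} (hg : Odd g) :
    ∑ d ∈ g.divisors, wt d = if g = 1 then 1 else 0 := by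
  have h : ∀ d ∈ g.divisors, wt d = ((μ d : ℤ) : ℝ) := fun d hd =>
    if_pos (hg.of_dvd_nat (Nat.dvd_of_mem_divisors hd))
  have h2 : ∑ d ∈ g.divisors, μ d = if g = 1 then 1 else 0 := by
    rw [← ArithmeticFunction.coe_mul_zeta_apply, ArithmeticFunction.moebius_mul_coe_zeta,
      ArithmeticFunction.one_apply]
  rw [Finset.sum_congr rfl h, ← Int.cast_sum, h2]
  split <;> simp

theorem scaled_ncard {d : ℕ} (hd : Odd d) (Y : ℝ) :
    {p ∈ oddTri Y | d ∣ cont p}.ncard = (oddTri (Y / (d : ℝ) ^ 2)).ncard := by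
  have hd0 : (0 : ℤ) < d := by exact_mod_cast hd.pos
  have hd2 : ¬ (2 : ℤ) ∣ (d : ℤ) := fun h =>
    Nat.not_even_iff_odd.2 hd (even_iff_two_dvd.2 (Int.natCast_dvd_natCast.1 h))
  let φ : ℤ × ℤ × ℤ → ℤ × ℤ × ℤ := fun p => (d * p.1, d * p.2.1, d * p.2.2)
  have hφ : Function.Injective φ := fun p q h => by
    simp only [φ, Prod.mk.injEq] at h
    exact Prod.ext (mul_left_cancel₀ hd0.ne' h.1)
      (Prod.ext (mul_left_cancel₀ hd0.ne' h.2.1) (mul_left_cancel₀ hd0.ne' h.2.2))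
  have hiff : ∀ p, φ p ∈ oddTri Y ↔ p ∈ oddTri (Y / (d : ℝ) ^ 2) := fun ⟨a, b, c⟩ => by
    simp only [mem_oddTri, φ]
    have h2 : ∀ x : ℤ, (2 : ℤ) ∣ (d : ℤ) * x ↔ (2 : ℤ) ∣ x := fun x =>
      ⟨fun h => (Int.prime_two.dvd_mul.1 h).resolve_left hd2, fun h => h.mul_left _⟩
    rw [mul_pos_iff_of_pos_left hd0, abs_mul, abs_of_pos hd0, mul_left_comm,
      mul_le_mul_iff_of_pos_left hd0, mul_le_mul_iff_of_pos_left hd0, h2, h2,
      le_div_iff₀ (by have : (0 : ℝ) < d := by exact_mod_cast hd0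
                      positivity)]
    push_cast
    rw [show (d : ℝ) * a * (d * c) - ((d : ℝ) * b) ^ 2 = ((a : ℝ) * c - (b : ℝ) ^ 2) * (d : ℝ) ^ 2
      by ring]
  rw [← Set.ncard_image_of_injective (oddTri (Y / (d : ℝ) ^ 2)) hφ]
  congr 1
  ext p
  refine ⟨fun ⟨hp, hdp⟩ => ?_, ?_⟩
  · obtain ⟨⟨a, ha⟩, ⟨b, hb⟩, ⟨c, hc⟩⟩ := (dvd_cont_iff p).1 hdp
    have e : φ (a, b, c) = p := Prod.ext ha.symm (Prod.ext hb.symm hc.symm)
    exact ⟨(a, b, c), (hiff _).1 (e ▸ hp), e⟩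
  · rintro ⟨q, hq, rfl⟩
    exact ⟨(hiff q).2 hq,
      (dvd_cont_iff _).2 ⟨dvd_mul_right _ _, dvd_mul_right _ _, dvd_mul_right _ _⟩⟩

/-- **The sieve.** -/
theorem ncard_primTri (Y : ℝ) :
    ((primTri Y).ncard : ℝ) =
      ∑' d : ℕ, wt d * ((oddTri (Y / (d : ℝ) ^ 2)).ncard : ℝ) := by
  classical
  set S := (oddTri_finite Y).toFinset
  set D := Finset.range (⌊2 * √Y⌋₊ + 1)
  have hS : ∀ {p}, p ∈ S → p ∈ oddTri Y := fun h => (oddTri_finite Y).mem_toFinset.1 h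
  have hcount : ∀ d ∈ D, wt d * ((oddTri (Y / (d : ℝ) ^ 2)).ncard : ℝ) =
      ∑ p ∈ S, if d ∣ cont p then wt d else 0 := fun d _ => by
    by_cases hd : Odd d
    · rw [← scaled_ncard hd Y, ← Finset.sum_filter, Finset.sum_const, nsmul_eq_mul, mul_comm,
        ← Set.ncard_coe_finset]
      congr 3
      ext p
      simp [S]
    · simp [wt, hd]
  rw [tsum_eq_sum (s := D) fun d hd => ?_, Finset.sum_congr rfl hcount, Finset.sum_comm]
  · have hp1 : (primTri Y).ncard = (S.filter fun p => cont p = 1).card := by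
      rw [← Set.ncard_coe_finset]
      congr 1
      ext p
      simp [S, primTri]
    rw [hp1, Finset.card_filter, Nat.cast_sum]
    refine Finset.sum_congr rfl fun p hp => ?_
    rw [← Finset.sum_filter, show D.filter (· ∣ cont p) = (cont p).divisors from ?_,
      sum_wt (cont_odd (hS hp))]
    · split <;> simp
    · ext d
      simp only [D, Finset.mem_filter, Finset.mem_range, Nat.mem_divisors]
      refine ⟨fun h => ⟨h.2, (cont_odd (hS hp)).pos.ne'⟩, fun h => ⟨?_, h.1⟩⟩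
      have := Nat.le_of_dvd (cont_odd (hS hp)).pos h.1
      have := cont_le (hS hp)
      omega
  · by_cases hodd : Odd d
    · have : {p ∈ oddTri Y | d ∣ cont p} = ∅ := by
        refine Set.eq_empty_of_forall_notMem fun p ⟨hp, hdp⟩ => hd (Finset.mem_range.2 ?_)
        have := Nat.le_of_dvd (cont_odd hp).pos hdp
        have := cont_le hp
        omega
      rw [← scaled_ncard hodd Y, this]
      simp
    · simp [wt, hodd]

theorem tendsto_primTri :
    Tendsto (fun Y : ℝ => ((primTri Y).ncard : ℝ) / (Y * √Y)) atTop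
      (𝓝 (Real.pi / 6 * ∑' d : ℕ, wt d / (d : ℝ) ^ 3)) := by
  have h := tendsto_tsum_of_dominated_convergence (𝓕 := (atTop : Filter ℝ))
    (f := fun Y d => wt d * ((oddTri (Y / (d : ℝ) ^ 2)).ncard : ℝ) / (Y * √Y))
    (g := fun d => Real.pi / 6 * (wt d / (d : ℝ) ^ 3)) (bound := fun d => 8 * (1 / (d : ℝ) ^ 3))
    ((Real.summable_one_div_nat_pow.2 (by norm_num)).mul_left 8) (fun d => ?_) ?_
  · rw [tsum_mul_left] at h
    exact h.congr fun Y => by rw [ncard_primTri, tsum_div_const]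
  · rcases eq_or_ne d 0 with rfl | hd
    · simp [wt]
    have hd' : (0 : ℝ) < d := by positivity
    have hdiv : Tendsto (fun Y : ℝ => Y / (d : ℝ) ^ 2) atTop atTop :=
      tendsto_id.atTop_div_const (by positivity)
    have h := (tendsto_oddTri.comp hdiv).mul_const (wt d / (d : ℝ) ^ 3)
    refine h.congr' ?_
    filter_upwards [eventually_gt_atTop 0] with Y hY
    rw [Function.comp_apply, Real.sqrt_div hY.le, Real.sqrt_sq hd'.le]
    field_simp
  · filter_upwards [eventually_gt_atTop 0] with Y hY d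
    rcases eq_or_ne d 0 with rfl | hd
    · simp [wt]
    have hd' : (0 : ℝ) < d := by positivity
    rw [Real.norm_eq_abs, abs_div, abs_mul, Nat.abs_cast,
      abs_of_pos (show 0 < Y * √Y by positivity), div_le_iff₀ (by positivity)]
    refine (mul_le_of_le_one_left (Nat.cast_nonneg _) (abs_wt_le d)).trans
      ((oddTri_le (by positivity)).trans (le_of_eq ?_))
    rw [Real.sqrt_div hY.le, Real.sqrt_sq hd'.le]
    field_simp

/-- The odd part of `∑ μ(d)/d³` is `8/(7 ζ(3))`. -/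
theorem tsum_wt : ∑' d : ℕ, wt d / (d : ℝ) ^ 3 = 8 / (7 * (riemannZeta 3).re) := by
  set f : ℕ → ℝ := fun d => ((μ d : ℤ) : ℝ) / (d : ℝ) ^ 3 with hf
  have hbd : ∀ d, ‖f d‖ ≤ 1 / (d : ℝ) ^ 3 := fun d => by
    rw [hf, norm_div, norm_pow, Real.norm_natCast]
    gcongr
    rw [Real.norm_eq_abs]
    exact_mod_cast ArithmeticFunction.abs_moebius_le_one
  have hsum : Summable f :=
    Summable.of_norm_bounded (Real.summable_one_div_nat_pow.2 (by norm_num)) hbd
  have hodd : Summable fun k : ℕ => f (2 * k + 1) :=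
    hsum.comp_injective fun a b h => by simpa using h
  have heven : Summable fun k : ℕ => f (2 * k) :=
    hsum.comp_injective fun a b h => by simpa using h
  have he : ∀ k, f (2 * k) = -(1 / 8) * (wt k / (k : ℝ) ^ 3) := fun k => by
    simp only [hf, wt]
    by_cases hk : Odd k
    · rw [ArithmeticFunction.isMultiplicative_moebius.map_mul_of_coprime
        ((Nat.prime_two.coprime_iff_not_dvd).2 fun h => Nat.not_even_iff_odd.2 hk
          (even_iff_two_dvd.2 h)), ArithmeticFunction.moebius_apply_prime Nat.prime_two, if_pos hk]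
      push_cast
      ring
    · rw [if_neg hk, ArithmeticFunction.moebius_eq_zero_of_not_squarefree fun h => ?_]
      · simp
      · obtain ⟨l, rfl⟩ := even_iff_two_dvd.1 (Nat.not_odd_iff_even.1 hk)
        exact absurd (h 2 ⟨l, by ring⟩) (by norm_num)
  have hwt : ∑' d : ℕ, wt d / (d : ℝ) ^ 3 = ∑' k : ℕ, f (2 * k + 1) := by
    have h1 : ∀ k : ℕ, wt (2 * k + 1) / ((2 * k + 1 : ℕ) : ℝ) ^ 3 = f (2 * k + 1) := fun k => by
      rw [wt, if_pos (by simp)]
    have h0 : ∀ k : ℕ, wt (2 * k) / ((2 * k : ℕ) : ℝ) ^ 3 = 0 := fun k => by simp [wt]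
    rw [← tsum_even_add_odd (f := fun d : ℕ => wt d / (d : ℝ) ^ 3)
      ((summable_zero (α := ℝ) (β := ℕ)).congr fun k => (h0 k).symm)
      (hodd.congr fun k => (h1 k).symm), tsum_congr h0, tsum_zero, zero_add, tsum_congr h1]
  have htot : (∑' d : ℕ, f d) = 7 / 8 * ∑' d : ℕ, wt d / (d : ℝ) ^ 3 := by
    rw [← tsum_even_add_odd heven hodd, ← hwt, tsum_congr he, tsum_mul_left]
    ring
  have hs : (1 : ℝ) < (3 : ℂ).re := by norm_num
  have hC : ((∑' d : ℕ, f d : ℝ) : ℂ) = LSeries (fun n => ((μ n : ℤ) : ℂ)) 3 := by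
    rw [Complex.ofReal_tsum]
    refine tsum_congr fun d => ?_
    rcases eq_or_ne d 0 with rfl | hd
    · simp [hf]
    rw [LSeries.term_of_ne_zero hd, hf, show (3 : ℂ) = ((3 : ℕ) : ℂ) by norm_num,
      Complex.cpow_natCast]
    push_cast
    rfl
  have hprod := ArithmeticFunction.LSeries_zeta_mul_Lseries_moebius hs
  rw [ArithmeticFunction.LSeries_zeta_eq_riemannZeta hs, ← hC] at hprod
  have hre := congrArg Complex.re hprod
  rw [Complex.mul_re, Complex.ofReal_re, Complex.ofReal_im, mul_zero, sub_zero, Complex.one_re,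
    htot] at hre
  have hz : (riemannZeta 3).re ≠ 0 := fun h => by rw [h, zero_mul] at hre; exact zero_ne_one hre
  field_simp
  linarith

/-! ### Classes -/

/-- The reduced primitive triples. -/
def redTri (Y : ℝ) : Set (ℤ × ℤ × ℤ) :=
  {p ∈ primTri Y | (2 * |p.2.1| = p.1 ∨ p.1 = p.2.2) → 0 ≤ p.2.1}

theorem gcd_double_eq_one_iff {a b c : ℤ} :
    Int.gcd (Int.gcd a (2 * b)) c = 1 ↔
      Int.gcd (Int.gcd a b) c = 1 ∧ ¬ ((2 : ℤ) ∣ a ∧ (2 : ℤ) ∣ c) := by
  constructor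
  · intro h
    refine ⟨Nat.dvd_one.1 ?_, fun ⟨ha, hc⟩ => ?_⟩
    · rw [← h]
      refine Int.natCast_dvd_natCast.1 (Int.dvd_coe_gcd (Int.dvd_coe_gcd ?_ ?_) ?_)
      · exact (Int.gcd_dvd_left _ _).trans (Int.gcd_dvd_left _ _)
      · exact ((Int.gcd_dvd_left _ _).trans (Int.gcd_dvd_right _ _)).mul_left 2
      · exact Int.gcd_dvd_right _ _
    · have := Int.dvd_coe_gcd (Int.dvd_coe_gcd ha (dvd_mul_right 2 b)) hc
      rw [h] at this
      norm_num at this
  · rintro ⟨h, h2⟩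
    set g := Int.gcd (Int.gcd a (2 * b)) c
    have ga : (g : ℤ) ∣ a := (Int.gcd_dvd_left _ _).trans (Int.gcd_dvd_left _ _)
    have gb : (g : ℤ) ∣ 2 * b := (Int.gcd_dvd_left _ _).trans (Int.gcd_dvd_right _ _)
    have gc : (g : ℤ) ∣ c := Int.gcd_dvd_right _ _
    have hodd : IsCoprime (g : ℤ) 2 := (Int.prime_two.coprime_iff_not_dvd.2 fun hg =>
      h2 ⟨hg.trans ga, hg.trans gc⟩).symm
    have := Int.dvd_coe_gcd (Int.dvd_coe_gcd ga (hodd.dvd_of_dvd_mul_left gb)) gc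
    rw [h] at this
    exact Nat.dvd_one.1 (Int.natCast_dvd_natCast.1 this)

theorem det_pos {a b c : ℤ} (ha : 0 < a) (hb : 2 * |b| ≤ a) (hac : a ≤ c) :
    1 ≤ a * c - b ^ 2 := by
  nlinarith [sq_abs b, abs_nonneg b]

theorem ncard_redTri (X : ℕ) :
    ((redTri X).ncard : ℝ) =
      ∑ n ∈ Finset.range X, (Nat.card (FA.OrderTheta.Cl (n + 1)) : ℝ) := by
  classical
  have hfin : (redTri (X : ℝ)).Finite :=
    (oddTri_finite _).subset fun p hp => hp.1.1
  set S := hfin.toFinset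
  have hmap : ∀ p ∈ S, ((p.1 * p.2.2 - p.2.1 ^ 2).toNat - 1) ∈ Finset.range X := fun p hp => by
    obtain ⟨h1, h2, h3, h4, -⟩ := mem_oddTri.1 (hfin.mem_toFinset.1 hp).1.1
    have := det_pos h1 h2 h3
    have h5 : p.1 * p.2.2 - p.2.1 ^ 2 ≤ (X : ℤ) := by exact_mod_cast h4
    rw [Finset.mem_range]
    omega
  rw [Set.ncard_eq_toFinset_card _ hfin, Finset.card_eq_sum_card_fiberwise hmap, Nat.cast_sum]
  refine Finset.sum_congr rfl fun n hn => ?_
  rw [FA.OrderTheta.card_cl_eq_redSet (n := n + 1) (2 * (n + 1)) (by nlinarith)]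
  refine Nat.cast_inj.2 (Finset.card_nbij' (fun p => (p.1.toNat, p.2.1))
    (fun t => ((t.1 : ℤ), t.2, (t.2 ^ 2 + ((n + 1 : ℕ) : ℤ)) / (t.1 : ℤ))) ?_ ?_ ?_ ?_)
  · intro p hp
    obtain ⟨hpS, hpn⟩ := Finset.mem_filter.1 hp
    obtain ⟨⟨hodd, hcont⟩, htie⟩ := hfin.mem_toFinset.1 hpS
    obtain ⟨h1, h2, h3, h4, h5⟩ := mem_oddTri.1 hodd
    obtain ⟨a, b, c⟩ := p
    dsimp only at h1 h2 h3 h5 htie hpn hcont ⊢
    have hdet := det_pos h1 h2 h3
    have hn' : a * c = b ^ 2 + ((n + 1 : ℕ) : ℤ) := by omega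
    have ha : (a.toNat : ℤ) = a := Int.toNat_of_nonneg h1.le
    refine FA.OrderTheta.mem_redSet (by nlinarith) ?_
    refine ⟨by omega, ?_, ?_, by rw [ha]; exact h2, by rw [ha]; nlinarith, ?_⟩
    · rw [ha, ← hn']; exact dvd_mul_right a c
    · rw [ha, ← hn', Int.mul_ediv_cancel_left c h1.ne']
      exact gcd_double_eq_one_iff.2 ⟨hcont, h5⟩
    · rw [ha]
      rintro (h | h)
      · exact htie (Or.inl h)
      · exact htie (Or.inr (mul_left_cancel₀ h1.ne' (h.trans hn'.symm)))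
  · intro t ht
    obtain ⟨a, b⟩ := t
    obtain ⟨ha, hdvd, hgcd, hb, hac, htie⟩ := (Finset.mem_filter.1 ht).2
    dsimp only at ha hdvd hgcd hb hac htie ⊢
    set c := (b ^ 2 + ((n + 1 : ℕ) : ℤ)) / (a : ℤ)
    have hc : (a : ℤ) * c = b ^ 2 + ((n + 1 : ℕ) : ℤ) := Int.mul_ediv_cancel' hdvd
    obtain ⟨hg1, hg2⟩ := gcd_double_eq_one_iff.1 hgcd
    have haZ : (0 : ℤ) < a := by exact_mod_cast ha
    have hac' : (a : ℤ) ≤ c := le_of_mul_le_mul_left (hac.trans hc.ge) haZ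
    rw [Finset.mem_coe, Finset.mem_filter, Set.Finite.mem_toFinset]
    refine ⟨⟨⟨mem_oddTri.2 ⟨haZ, hb, hac', ?_, hg2⟩, hg1⟩, fun h => htie ?_⟩, ?_⟩
    · have h : ((a : ℤ) * c - b ^ 2) ≤ (X : ℤ) := by
        rw [Finset.mem_range] at hn
        omega
      exact_mod_cast h
    · rcases h with h | h
      · exact Or.inl h
      · exact Or.inr (by rw [← hc, ← (show (a : ℤ) = c from h)])
    · show ((a : ℤ) * c - b ^ 2).toNat - 1 = n
      omega
  · intro p hp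
    obtain ⟨hpS, hpn⟩ := Finset.mem_filter.1 hp
    obtain ⟨h1, h2, h3, h4, h5⟩ := mem_oddTri.1 (hfin.mem_toFinset.1 hpS).1.1
    obtain ⟨a, b, c⟩ := p
    dsimp only at h1 h2 h3 hpn ⊢
    have hdet := det_pos h1 h2 h3
    have hn' : a * c = b ^ 2 + ((n + 1 : ℕ) : ℤ) := by omega
    have ha : (a.toNat : ℤ) = a := Int.toNat_of_nonneg h1.le
    rw [ha, ← hn', Int.mul_ediv_cancel_left c h1.ne']
  · intro t _
    simp

/-- The boundary of the fundamental domain. -/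
theorem primTri_sub_redTri (X : ℕ) (hX : 1 ≤ X) :
    ((primTri X).ncard : ℝ) - (redTri X).ncard ≤ 30 * (X * √(√(X : ℝ))) := by
  classical
  set N := ⌊2 * √(X : ℝ)⌋₊ with hN
  clear_value N
  set A := (Finset.Icc (1 : ℕ) N) ×ˢ (Finset.Icc (-(N : ℤ)) N)
  set B := (Finset.Icc (1 : ℕ) N).sigma fun k => Finset.Icc (1 : ℕ) (X / k)
  have hsub : primTri (X : ℝ) \ redTri X ⊆
      ↑(A.image (fun t => ((t.1 : ℤ), t.2, (t.1 : ℤ))) ∪
        B.image (fun t => ((2 * t.1 : ℤ), -(t.1 : ℤ), (t.2 : ℤ)))) := by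
    rintro ⟨a, b, c⟩ ⟨hp, hnot⟩
    have htie : (2 * |b| = a ∨ a = c) ∧ b < 0 := by
      by_contra h
      exact hnot ⟨hp, fun h' => not_lt.1 fun hb => h ⟨h', hb⟩⟩
    obtain ⟨h1, h2, h3, h4, -⟩ := mem_oddTri.1 hp.1
    dsimp only at h1 h2 h3 h4
    have haN : a ≤ (N : ℤ) := by
      have htop : ((a : ℤ) : ℝ) ≤ top 1 X a b := by
        rw [le_top_iff one_pos h1]
        refine le_trans ?_ h4
        exact_mod_cast (show (1 : ℤ) * a * (1 * a) - b ^ 2 ≤ a * c - b ^ 2 by nlinarith)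
      have h5 := le_two_sqrt one_pos h1 (by rwa [Nat.cast_one, one_mul]) htop
      rw [Nat.cast_one, one_mul] at h5
      rw [hN]
      have h6 : ((a.toNat : ℕ) : ℝ) ≤ 2 * √(X : ℝ) := by
        rwa [show ((a.toNat : ℕ) : ℝ) = ((a : ℤ) : ℝ) by
          exact_mod_cast Int.toNat_of_nonneg h1.le]
      have := Nat.le_floor h6
      omega
    rw [Finset.coe_union, Set.mem_union, Finset.coe_image, Finset.coe_image]
    rcases htie with ⟨htie | rfl, hb⟩
    · right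
      have hb' : |b| = -b := abs_of_neg hb
      have hcX : (-b) * c ≤ X := by
        have h5 : a * c - b ^ 2 ≤ (X : ℤ) := by exact_mod_cast h4
        nlinarith
      refine ⟨⟨(-b).toNat, c.toNat⟩, ?_, ?_⟩
      · simp only [B, Finset.mem_coe, Finset.mem_sigma, Finset.mem_Icc]
        refine ⟨⟨by omega, by omega⟩, by omega, ?_⟩
        rw [Nat.le_div_iff_mul_le (by omega)]
        have e1 : (((-b).toNat : ℕ) : ℤ) = -b := Int.toNat_of_nonneg (by omega)
        have e2 : ((c.toNat : ℕ) : ℤ) = c := Int.toNat_of_nonneg (by omega)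
        exact_mod_cast (show ((c.toNat : ℕ) : ℤ) * (((-b).toNat : ℕ) : ℤ) ≤ X by
          rw [e1, e2]; linarith)
      · simp only [Prod.mk.injEq]
        omega
    · left
      refine ⟨(a.toNat, b), ?_, ?_⟩
      · simp only [A, Finset.mem_coe, Finset.mem_product, Finset.mem_Icc]
        rcases abs_cases b with hh | hh <;> omega
      · exact Prod.ext (Int.toNat_of_nonneg h1.le) (Prod.ext rfl (Int.toNat_of_nonneg h1.le))
  have hle : redTri (X : ℝ) ⊆ primTri X := fun p hp => hp.1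
  have hfinP : (primTri (X : ℝ)).Finite := (oddTri_finite _).subset fun p hp => hp.1
  have hcard := (Set.ncard_le_ncard hsub (Finset.finite_toSet _)).trans
    (Set.ncard_coe_finset _).le
  rw [Set.ncard_sdiff hle (hfinP.subset hle)] at hcard
  have hle' := Set.ncard_le_ncard hle hfinP
  rw [← Nat.cast_sub hle']
  refine (Nat.cast_le.2 ((hcard.trans (Finset.card_union_le _ _)).trans
    (add_le_add Finset.card_image_le Finset.card_image_le))).trans ?_
  rw [Nat.cast_add, Finset.card_product, Finset.card_sigma, Nat.cast_mul, Nat.cast_sum]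
  simp only [Nat.card_Icc, Int.card_Icc, add_tsub_cancel_right]
  have hX' : (1 : ℝ) ≤ X := by exact_mod_cast hX
  have hNle : (N : ℝ) ≤ 2 * √(X : ℝ) := by
    rw [hN]; exact Nat.floor_le (by positivity)
  set r := √(√(X : ℝ)) with hr
  have hr1 : 1 ≤ r := Real.one_le_sqrt.2 (Real.one_le_sqrt.2 hX')
  have hsx : √(X : ℝ) ^ 2 = X := Real.sq_sqrt (by positivity)
  have hN2 : (((N : ℤ) + 1 - -(N : ℤ)).toNat : ℝ) ≤ 5 * √(X : ℝ) := by
    rw [show (((N : ℤ) + 1 - -(N : ℤ)).toNat) = 2 * N + 1 by omega]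
    push_cast
    have : 1 ≤ √(X : ℝ) := Real.one_le_sqrt.2 hX'
    linarith
  have hsumB : ∑ k ∈ Finset.Icc 1 N, ((X / k : ℕ) : ℝ) ≤ X * (harmonic N : ℝ) := by
    rw [harmonic, Rat.cast_sum, Finset.mul_sum, Finset.range_eq_Ico,
      Finset.sum_Ico_add' (fun i : ℕ => (X : ℝ) * (((i : ℚ))⁻¹ : ℚ)) 0 N 1]
    rw [show Finset.Ico (0 + 1) (N + 1) = Finset.Icc 1 N from rfl]
    refine Finset.sum_le_sum fun k _ => ?_
    push_cast
    exact Nat.cast_div_le.trans (le_of_eq (div_eq_mul_inv _ _))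
  have hlog : Real.log (N : ℝ) ≤ 4 * r := by
    have h1 := Real.log_le_rpow_div (Nat.cast_nonneg N) (ε := 1 / 2) (by norm_num)
    rw [← Real.sqrt_eq_rpow] at h1
    have h2 : √(N : ℝ) ≤ 2 * r :=
      (Real.sqrt_le_sqrt hNle).trans (by
        rw [Real.sqrt_mul (by norm_num)]
        gcongr
        rw [Real.sqrt_le_left (by norm_num)]
        norm_num)
    linarith
  have hh := harmonic_le_one_add_log N
  calc (N : ℝ) * (((N : ℤ) + 1 - -(N : ℤ)).toNat : ℝ) + ∑ k ∈ Finset.Icc 1 N, ((X / k : ℕ) : ℝ)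
      ≤ 2 * √(X : ℝ) * (5 * √(X : ℝ)) + X * (1 + 4 * r) :=
        add_le_add (mul_le_mul hNle hN2 (Nat.cast_nonneg _) (by positivity))
          (hsumB.trans (mul_le_mul_of_nonneg_left (by linarith) (by positivity)))
    _ ≤ 30 * (X * r) := by nlinarith

/-- **Gauss and Mertens: the average class number.** -/
theorem tendsto_sum_classNumber :
    Tendsto (fun X : ℕ => (∑ n ∈ Finset.range X, (Nat.card (FA.OrderTheta.Cl (n + 1)) : ℝ)) /
      ((X : ℝ) * √X)) atTop (𝓝 (4 * Real.pi / (21 * (riemannZeta 3).re))) := by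
  have h := (tendsto_primTri.comp (tendsto_natCast_atTop_atTop (R := ℝ)))
  rw [tsum_wt, show Real.pi / 6 * (8 / (7 * (riemannZeta 3).re)) =
    4 * Real.pi / (21 * (riemannZeta 3).re) by ring] at h
  have hdiff : Tendsto (fun X : ℕ => (((primTri X).ncard : ℝ) - (redTri X).ncard) /
      ((X : ℝ) * √X)) atTop (𝓝 0) := by
    have hub : Tendsto (fun X : ℕ => 30 * (√(√(X : ℝ)))⁻¹) atTop (𝓝 0) := by
      simpa using (tendsto_inv_atTop_zero.comp (Real.tendsto_sqrt_atTop.comp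
        (Real.tendsto_sqrt_atTop.comp tendsto_natCast_atTop_atTop))).const_mul (30 : ℝ)
    refine tendsto_of_tendsto_of_tendsto_of_le_of_le' tendsto_const_nhds hub ?_ ?_
    · refine Eventually.of_forall fun X => div_nonneg (sub_nonneg.2 ?_) (by positivity)
      exact Nat.cast_le.2 (Set.ncard_le_ncard (fun p hp => hp.1)
        ((oddTri_finite _).subset fun p hp => hp.1))
    · filter_upwards [eventually_ge_atTop 1] with X hX
      have hX' : (0 : ℝ) < X := by exact_mod_cast hX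
      rw [div_le_iff₀ (by positivity)]
      refine (primTri_sub_redTri X hX).trans (le_of_eq ?_)
      have e : √(X : ℝ) = √(√(X : ℝ)) * √(√(X : ℝ)) :=
        (Real.mul_self_sqrt (Real.sqrt_nonneg _)).symm
      have hpos : 0 < √(√(X : ℝ)) := by positivity
      conv_rhs => rw [e]
      field_simp
      rw [Real.sqrt_sq hpos.le]
  refine (sub_zero (4 * Real.pi / (21 * (riemannZeta 3).re)) ▸ h.sub hdiff).congr fun X => ?_
  rw [Function.comp_apply, ← ncard_redTri, sub_div]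
  ring

end FA.GaussMertens

end
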