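import Fermat.Agent.ThetaOne.OrderExt
import Fermat.Agent.ThetaOne.OrderLattice
import Fermat.Agent.Root.SummaryAbelianInverseGalois
import Mathlib.NumberTheory.Zsqrtd.GaussianInt
import Mathlib.NumberTheory.LSeries.PrimesInAP
import Mathlib.Data.Nat.ChineseRemainder

/-!
# Every finite abelian group is a class group quotient of an order of `ℤ[i]`

For `f` a product of primes `q ≡ 1 (mod 4)` and `s² = -1` modulo `q`, sending an ideal of `ℤ[f i]`
prime to `f` to `α(s) / α(-s)` modulo `q`, `α` a generator of its extension to `ℤ[i]`, defines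
homomorphisms on the classes; the forms `(a² + 1, 2 f a, f²)` take all their values.
-/

set_option autoImplicit false
set_option linter.style.haveILetI false

noncomputable section

namespace FA.GaussianClass

open Ideal FA.OrderTheta

/-! ### Evaluation at the square roots of `-1` -/

variable {q : ℕ} [Fact q.Prime] {s : ZMod q} (hs : s * s = -1)

/-- Evaluation at `s`. -/
def evp : GaussianInt →+* ZMod q := Zsqrtd.lift ⟨s, by rw [hs]; simp⟩

/-- Evaluation at `-s`. -/
def evm : GaussianInt →+* ZMod q := Zsqrtd.lift ⟨-s, by rw [neg_mul_neg, hs]; simp⟩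

theorem evp_apply (x : GaussianInt) : evp hs x = (x.re : ZMod q) + x.im * s := rfl

theorem evm_apply (x : GaussianInt) : evm hs x = (x.re : ZMod q) + x.im * -s := rfl

/-- The quotient of the two evaluations. -/
def ratio (x : GaussianInt) : ZMod q := evp hs x / evm hs x

theorem ratio_mul (x y : GaussianInt) : ratio hs (x * y) = ratio hs x * ratio hs y := by
  simp only [ratio, map_mul, mul_div_mul_comm]

theorem ratio_unit {u : GaussianInt} (hu : IsUnit u) : ratio hs u = 1 ∨ ratio hs u = -1 := by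
  have hn : u.re * u.re + u.im * u.im = 1 := by
    have := (Zsqrtd.norm_eq_one_iff' (by norm_num) u).2 hu
    rw [Zsqrtd.norm_def] at this
    linarith
  have hs0 : s ≠ 0 := fun h => by simp [h] at hs
  have hre : u.re = 0 ∨ u.im = 0 := by
    by_contra h
    push Not at h
    nlinarith [mul_self_pos.2 h.1, mul_self_pos.2 h.2]
  rcases hre with h | h
  · right
    have him : (u.im : ZMod q) ≠ 0 := by
      rw [h] at hn
      rcases Int.eq_one_or_neg_one_of_mul_eq_one (u := u.im) (v := u.im) (by linarith) with e | e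
        <;>
        rw [e] <;> simp
    rw [ratio, evp_apply, evm_apply, h, Int.cast_zero, zero_add, zero_add, mul_neg, div_neg,
      div_self (mul_ne_zero him hs0)]
  · left
    have hre' : (u.re : ZMod q) ≠ 0 := by
      rw [h] at hn
      rcases Int.eq_one_or_neg_one_of_mul_eq_one (u := u.re) (v := u.re) (by linarith) with e | e
        <;>
        rw [e] <;> simp
    rw [ratio, evp_apply, evm_apply, h, Int.cast_zero, zero_mul, zero_mul, add_zero,
      div_self hre']

/-! ### The value of an ideal -/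

variable {f : ℕ} [NeZero f]

instance instNeZeroSq : NeZero (f ^ 2) := ⟨pow_ne_zero _ (NeZero.ne f)⟩

variable (f) in
/-- The inclusion `ℤ[f i] → ℤ[i]`. -/
def toGauss : OrderTheta.Ord (f ^ 2) →+* GaussianInt :=
  Zsqrtd.lift ⟨⟨0, f⟩, by ext <;> simp [pow_two]⟩

omit [NeZero f] in
theorem toGauss_apply (x : OrderTheta.Ord (f ^ 2)) : toGauss f x = ⟨x.re, x.im * f⟩ := by
  ext <;> simp [toGauss, Zsqrtd.lift_apply_apply]

/-- A generator of the extended ideal. -/
def gen (J : II (f ^ 2)) : GaussianInt :=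
  Submodule.IsPrincipal.generator ((J : Ideal (OrderTheta.Ord (f ^ 2))).map (toGauss f))

theorem span_gen (J : II (f ^ 2)) :
    span {gen J} = (J : Ideal (OrderTheta.Ord (f ^ 2))).map (toGauss f) :=
  Ideal.span_singleton_generator _

theorem associated_gen_mul (I J : II (f ^ 2)) : Associated (gen (I * J)) (gen I * gen J) := by
  rw [← Ideal.span_singleton_eq_span_singleton, span_gen, Submonoid.coe_mul, Ideal.map_mul,
    ← span_gen, ← span_gen, span_singleton_mul_span_singleton]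

theorem gen_dvd_nrm (J : II (f ^ 2)) : gen J ∣ (nrm J : GaussianInt) := by
  rw [← mem_span_singleton, span_gen, ← map_natCast (toGauss f)]
  exact Ideal.mem_map_of_mem _ (nrm_mem J)

theorem ev_gen_ne_zero {J : II (f ^ 2)} (hJ : ¬ q ∣ nrm J) :
    evp hs (gen J) ≠ 0 ∧ evm hs (gen J) ≠ 0 := by
  have h0 : (nrm J : ZMod q) ≠ 0 := fun e => hJ ((ZMod.natCast_eq_zero_iff _ _).1 e)
  refine ⟨fun e => ?_, fun e => ?_⟩
  · have h := map_dvd (evp hs) (gen_dvd_nrm J)
    rw [e, map_natCast, zero_dvd_iff] at h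
    exact h0 h
  · have h := map_dvd (evm hs) (gen_dvd_nrm J)
    rw [e, map_natCast, zero_dvd_iff] at h
    exact h0 h

variable {D : Type*} [CommGroup D] (h : (ZMod q)ˣ →* D)

/-- The value of an ideal. -/
def val (J : II (f ^ 2)) : D :=
  if hz : ratio hs (gen J) ≠ 0 then h (Units.mk0 _ hz) else 1

theorem ratio_gen_ne_zero {J : II (f ^ 2)} (hJ : ¬ q ∣ nrm J) : ratio hs (gen J) ≠ 0 :=
  div_ne_zero (ev_gen_ne_zero hs hJ).1 (ev_gen_ne_zero hs hJ).2

variable (hneg : h (-1) = 1)
include hneg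

theorem val_eq {J : II (f ^ 2)} (hJ : ¬ q ∣ nrm J) {x : GaussianInt}
    (hx : Associated x (gen J)) {r : (ZMod q)ˣ} (hr : ratio hs x = r) :
    val hs h J = h r := by
  have hz := ratio_gen_ne_zero hs hJ
  rw [val, dif_pos hz]
  obtain ⟨u, hu⟩ := hx
  have e : ratio hs (gen J) = r * ratio hs (u : GaussianInt) := by rw [← hu, ratio_mul, hr]
  rcases ratio_unit hs u.isUnit with h1 | h1
  · refine congrArg h (Units.ext ?_)
    rw [Units.val_mk0, e, h1, mul_one]
  · have e' : Units.mk0 _ hz = r * (-1) := Units.ext (by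
      rw [Units.val_mk0, e, h1, Units.val_mul, Units.val_neg, Units.val_one])
    rw [e', map_mul, hneg, mul_one]

theorem val_mul {I J : II (f ^ 2)} (hI : ¬ q ∣ nrm I) (hJ : ¬ q ∣ nrm J) :
    val hs h (I * J) = val hs h I * val hs h J := by
  have hIJ : ¬ q ∣ nrm (I * J) := by
    rw [map_mul]
    exact fun hd => ((Fact.out : q.Prime).dvd_mul.1 hd).elim hI hJ
  have e1 := val_eq hs h hneg hI (Associated.refl (gen I))
    (r := Units.mk0 _ (ratio_gen_ne_zero hs hI)) rfl
  have e2 := val_eq hs h hneg hJ (Associated.refl (gen J))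
    (r := Units.mk0 _ (ratio_gen_ne_zero hs hJ)) rfl
  rw [e1, e2, ← map_mul]
  exact val_eq hs h hneg hIJ (associated_gen_mul I J).symm (ratio_mul hs _ _)

theorem val_prin (hqf : q ∣ f) {x : OrderTheta.Ord (f ^ 2)} (hx : x ≠ 0)
    (hqx : ¬ q ∣ nrm (prin x hx)) : val hs h (prin x hx) = 1 := by
  have hass : Associated (toGauss f x) (gen (prin x hx)) := by
    rw [← Ideal.span_singleton_eq_span_singleton, span_gen, coe_prin, Ideal.map_span,
      Set.image_singleton]
  have hf : (f : ZMod q) = 0 := (ZMod.natCast_eq_zero_iff _ _).2 hqf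
  have hre : (x.re : ZMod q) ≠ 0 := fun e => hqx <| by
    rw [← ZMod.natCast_eq_zero_iff, ← Int.cast_natCast (R := ZMod q) (nrm _), nrm_prin x hx,
      norm_eq]
    push_cast
    rw [e, hf]
    ring
  have hr : ratio hs (toGauss f x) = ((1 : (ZMod q)ˣ) : ZMod q) := by
    rw [ratio, evp_apply, evm_apply, toGauss_apply, Units.val_one]
    simp [hf, div_self hre]
  rw [val_eq hs h hneg hqx hass hr, map_one]

theorem val_congr (hqf : q ∣ f) {I J : II (f ^ 2)} (hI : ¬ q ∣ nrm I) (hJ : ¬ q ∣ nrm J)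
    (hc : cls I = cls J) : val hs h I = val hs h J := by
  have hJ' : ¬ q ∣ nrm (conj J) := by rwa [nrm_conj]
  obtain ⟨x, hx, hp⟩ := exists_gen_of_cls (I := I * conj J)
    (by rw [map_mul, cls_conj, hc, mul_inv_cancel])
  have h1 : val hs h (I * conj J) = 1 := by
    rw [hp]
    refine val_prin hs h hneg hqf hx ?_
    rw [← hp, map_mul]
    exact fun hd => ((Fact.out : q.Prime).dvd_mul.1 hd).elim hI hJ'
  have h2 : val hs h (J * conj J) = 1 := by
    rw [← prin_natCast (natCast_ne_zero_of_pos (nrm_pos J)) J rfl]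
    refine val_prin hs h hneg hqf _ ?_
    rw [prin_natCast (natCast_ne_zero_of_pos (nrm_pos J)) J rfl, map_mul]
    exact fun hd => ((Fact.out : q.Prime).dvd_mul.1 hd).elim hJ hJ'
  rw [val_mul hs h hneg hI hJ'] at h1
  rw [val_mul hs h hneg hJ hJ'] at h2
  exact mul_right_cancel (h1.trans h2.symm)

/-- The value of a class. -/
theorem exists_valCls (hqf : q ∣ f) :
    ∃ χ : Cl (f ^ 2) →* D, ∀ J : II (f ^ 2), (nrm J).Coprime f → χ (cls J) = val hs h J := by
  have hq := (Fact.out : q.Prime)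
  have hcop : ∀ {J : II (f ^ 2)}, (nrm J).Coprime f → ¬ q ∣ nrm J := fun hJ hd =>
    hq.ne_one (Nat.eq_one_of_dvd_coprimes hJ hd hqf)
  have hrep := fun c : Cl (f ^ 2) => exists_coprime_rep c (NeZero.ne f)
  choose rep hrep1 hrep2 using hrep
  refine ⟨MonoidHom.mk' (fun c => val hs h (rep c)) fun a b => ?_, fun J hJ => ?_⟩
  · rw [← val_mul hs h hneg (hcop (hrep1 a)) (hcop (hrep1 b))]
    refine val_congr hs h hneg hqf (hcop (hrep1 _)) (hcop ?_) ?_
    · rw [map_mul]; exact Nat.Coprime.mul_left (hrep1 a) (hrep1 b)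
    · rw [map_mul, hrep2, hrep2, hrep2]
  · exact val_congr hs h hneg hqf (hcop (hrep1 _)) (hcop hJ) (hrep2 _)

omit hneg

/-! ### The forms `(a² + 1, 2 f a, f²)` -/

/-- The ideal of the form `(a² + 1, 2 f a, f²)`. -/
theorem exists_ideal_value (a : ℕ) (hcop : (a ^ 2 + 1).Coprime f) :
    ∃ J : II (f ^ 2), nrm J = a ^ 2 + 1 ∧ Associated (⟨(a : ℤ), 1⟩ : GaussianInt) (gen J) := by
  obtain ⟨u, v, huv⟩ : ∃ u v : ℤ, u * ((a ^ 2 + 1 : ℕ) : ℤ) + v * ((f : ℤ) ^ 2) = 1 := by
    have := (Nat.isCoprime_iff_coprime.mpr (hcop.pow_right 2))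
    obtain ⟨u, v, e⟩ := this
    exact ⟨u, v, by exact_mod_cast e⟩
  have hdet : ((a ^ 2 + 1 : ℕ) : ℤ) * (f : ℤ) ^ 2 - ((f : ℤ) * a) ^ 2 = ((f ^ 2 : ℕ) : ℤ) := by
    push_cast; ring
  have hp : ∃ u v w : ℤ, u * ((a ^ 2 + 1 : ℕ) : ℤ) + v * (f : ℤ) ^ 2 + w * (2 * ((f : ℤ) * a))
      = 1 := ⟨u, v, 0, by linear_combination huv⟩
  set J := rootII (N := f ^ 2) (a ^ 2 + 1) ((f : ℤ) * a) ((f : ℤ) ^ 2) (by positivity) hdet hp
  refine ⟨J, nrm_rootII _ _ _, ?_⟩
  set α : GaussianInt := ⟨(a : ℤ), 1⟩ with hα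
  rw [← Ideal.span_singleton_eq_span_singleton, span_gen]
  refine le_antisymm ?_ (Ideal.map_le_iff_le_comap.2 fun x hx => ?_)
  · rw [span_singleton_le_iff_mem]
    have h1 : toGauss f ((a ^ 2 + 1 : ℕ) : OrderTheta.Ord (f ^ 2)) ∈
        (J : Ideal (OrderTheta.Ord (f ^ 2))).map (toGauss f) :=
      Ideal.mem_map_of_mem _
        ((mem_rootII _ _ _).2 (by simp [-Nat.cast_add, -Nat.cast_pow]))
    have h2 : toGauss f ⟨(f : ℤ) * a, 1⟩ ∈ (J : Ideal (OrderTheta.Ord (f ^ 2))).map (toGauss f) :=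
      Ideal.mem_map_of_mem _ ((mem_rootII _ _ _).2 (by simp))
    have e : α = ((u : GaussianInt) * α) * toGauss f ((a ^ 2 + 1 : ℕ) : OrderTheta.Ord (f ^ 2)) +
        ((v * f : ℤ) : GaussianInt) * toGauss f ⟨(f : ℤ) * a, 1⟩ := by
      rw [map_natCast, toGauss_apply]
      push_cast at huv ⊢
      ext
      · simp [hα, pow_two]; linear_combination -(a : ℤ) * huv
      · simp [hα, pow_two]; linear_combination -huv
    rw [e]
    exact add_mem (Ideal.mul_mem_left _ _ h1) (Ideal.mul_mem_left _ _ h2)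
  · obtain ⟨k, hk⟩ := (mem_rootII _ _ _).1 hx
    rw [Ideal.mem_comap, mem_span_singleton, toGauss_apply]
    push_cast at hk
    refine ⟨⟨k * a + x.im * f, -k⟩, ?_⟩
    ext <;> simp [hα] <;> linarith

end FA.GaussianClass

namespace FA.GaussianClass

open FA.OrderTheta

/-- Primes `≡ 1` modulo prescribed moduli, all different. -/
theorem exists_injective_primes {r : ℕ} (m : Fin r → ℕ) (hm : ∀ i, 0 < m i) :
    ∃ q : Fin r → ℕ, Function.Injective q ∧ ∀ i, (q i).Prime ∧ 4 * m i ∣ q i - 1 := by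
  induction r with
  | zero => exact ⟨fun i => i.elim0, fun i => i.elim0, fun i => i.elim0⟩
  | succ r ih =>
    obtain ⟨q, hq, hqp⟩ := ih (fun i => m i.castSucc) fun i => hm _
    obtain ⟨p, hpgt, hp, hpm⟩ := Nat.forall_exists_prime_gt_and_modEq (Finset.univ.sup q)
      (q := 4 * m (Fin.last r)) (a := 1) (by have := hm (Fin.last r); omega)
      (Nat.coprime_one_left _)
    have hpq : ∀ i, q i ≠ p := fun i e => by
      have := Finset.le_sup (f := q) (Finset.mem_univ i)
      omega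
    refine ⟨Fin.snoc q p, Fin.snoc_injective_of_injective hq (by rintro ⟨i, hi⟩; exact hpq i hi),
      fun i => ?_⟩
    refine Fin.lastCases ?_ (fun i => ?_) i
    · rw [Fin.snoc_last]
      exact ⟨hp, (Nat.modEq_iff_dvd' hp.one_lt.le).1 hpm.symm⟩
    · rw [Fin.snoc_castSucc]
      exact hqp i

/-- A character of `(ℤ/q)ˣ` onto `ℤ/m`, trivial at `-1`, when `4 m ∣ q - 1`. -/
theorem exists_char {q m : ℕ} (hq : q.Prime) (hm : 4 * m ∣ q - 1) :
    ∃ h : (ZMod q)ˣ →* Multiplicative (ZMod m), Function.Surjective h ∧ h (-1) = 1 := by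
  obtain ⟨g, hg⟩ := FA.AbelianInverseGalois.exists_units_surjective (n := 2 * m) hq
    ((Dvd.intro 2 (by ring)).trans hm)
  have hm0 : m ≠ 0 := fun e => by
    rw [e, mul_zero, zero_dvd_iff] at hm
    have := hq.two_le
    omega
  haveI : NeZero (2 * m) := ⟨mul_ne_zero two_ne_zero hm0⟩
  set c := ZMod.castHom (dvd_mul_left m 2) (ZMod m)
  refine ⟨(AddMonoidHom.toMultiplicative c.toAddMonoidHom).comp g,
    (ZMod.castHom_surjective (dvd_mul_left m 2)).comp hg, ?_⟩
  have h1 : g (-1) * g (-1) = 1 := by rw [← map_mul, neg_mul_neg, one_mul, map_one]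
  set x := Multiplicative.toAdd (g (-1)) with hx
  have h2 : x + x = 0 := congrArg Multiplicative.toAdd h1
  show Multiplicative.ofAdd (c x) = 1
  rw [← ofAdd_zero]
  congr 1
  rw [← ZMod.natCast_zmod_val x, map_natCast, ZMod.natCast_eq_zero_iff]
  rw [← ZMod.natCast_zmod_val x, ← Nat.cast_add, ZMod.natCast_eq_zero_iff, ← two_mul] at h2
  exact Nat.dvd_of_mul_dvd_mul_left two_pos h2

/-- **Every finite abelian group is a quotient of the class group of some `ℤ[f i]`.** -/
theorem exists_cl_surjection (A : Type*) [CommGroup A] [Finite A] :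
    ∃ (f : ℕ) (_ : NeZero f) (π : Cl (f ^ 2) →* A), Function.Surjective π := by
  classical
  obtain ⟨ι, hι, m, hm, ⟨e⟩⟩ := CommGroup.equiv_prod_multiplicative_zmod_of_finite A
  let ei := Fintype.equivFin ι
  obtain ⟨q', hq'inj, hq'⟩ := exists_injective_primes (fun i => m (ei.symm i))
    fun i => zero_lt_one.trans (hm _)
  let q : ι → ℕ := fun i => q' (ei i)
  have hqinj : Function.Injective q := hq'inj.comp ei.injective
  have hq : ∀ i, (q i).Prime ∧ 4 * m i ∣ q i - 1 := fun i => by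
    simpa using hq' (ei i)
  haveI : ∀ i, Fact (q i).Prime := fun i => ⟨(hq i).1⟩
  choose h hsurj hneg using fun i => exists_char (hq i).1 (hq i).2
  have hs : ∀ i, ∃ s : ZMod (q i), s * s = -1 := fun i => by
    have h4 : q i % 4 ≠ 3 := by
      have h1 := (dvd_mul_right 4 (m i)).trans (hq i).2
      have := (hq i).1.two_le
      omega
    obtain ⟨s, hs⟩ := ZMod.exists_sq_eq_neg_one_iff.2 h4
    exact ⟨s, hs.symm⟩
  choose s hs using hs
  set f := ∏ i, q i with hf
  haveI : NeZero f := ⟨Finset.prod_ne_zero_iff.2 fun i _ => (hq i).1.ne_zero⟩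
  have hqf : ∀ i, q i ∣ f := fun i => Finset.dvd_prod_of_mem q (Finset.mem_univ i)
  choose χ hχ using fun i => exists_valCls (f := f) (hs i) (h i) (hneg i) (hqf i)
  refine ⟨f, inferInstance, e.symm.toMonoidHom.comp (MonoidHom.pi χ), e.symm.surjective.comp ?_⟩
  intro d
  -- units different from one with the prescribed values
  have hu : ∀ i, ∃ u : (ZMod (q i))ˣ, u ≠ 1 ∧ h i u = d i := fun i => by
    obtain ⟨u, hu⟩ := hsurj i (d i)
    by_cases h1 : u = 1
    · refine ⟨-1, fun e => ?_, by rw [hneg, ← hu, h1, map_one]⟩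
      have h2 : (2 : ZMod (q i)) = 0 := by
        have e' := congrArg Units.val e
        rw [Units.val_neg, Units.val_one] at e'
        linear_combination -e'
      have h3 := (ZMod.natCast_eq_zero_iff 2 (q i)).1 (by exact_mod_cast h2)
      have h5 := Nat.le_of_dvd two_pos h3
      have h4 := (dvd_mul_right 4 (m i)).trans (hq i).2
      have := (hq i).1.two_le
      omega
    · exact ⟨u, h1, hu⟩
  choose u hu1 hu2 using hu
  have hu0 : ∀ i, (u i : ZMod (q i)) - 1 ≠ 0 := fun i e =>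
    hu1 i (Units.ext (sub_eq_zero.1 e))
  set c : ι → ℕ := fun i => (s i * ((u i : ZMod (q i)) + 1) / ((u i : ZMod (q i)) - 1)).val
  obtain ⟨a, ha⟩ := Nat.chineseRemainderOfFinset c q Finset.univ
    (fun i _ => (hq i).1.ne_zero) fun i _ j _ hij =>
      (Nat.coprime_primes (hq i).1 (hq j).1).2 (hqinj.ne hij)
  have hs0 : ∀ i, s i ≠ 0 := fun i e => by
    have := hs i
    simp [e] at this
  have h2 : ∀ i, (2 : ZMod (q i)) ≠ 0 := fun i e => by
    have h3 := (ZMod.natCast_eq_zero_iff 2 (q i)).1 (by exact_mod_cast e)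
    have h5 := Nat.le_of_dvd two_pos h3
    have h4 := (dvd_mul_right 4 (m i)).trans (hq i).2
    have := (hq i).1.two_le
    omega
  have hap : ∀ i, (a : ZMod (q i)) + s i = 2 * s i * u i / ((u i : ZMod (q i)) - 1) ∧
      (a : ZMod (q i)) - s i = 2 * s i / ((u i : ZMod (q i)) - 1) := fun i => by
    rw [(ZMod.natCast_eq_natCast_iff a (c i) (q i)).2 (ha i (Finset.mem_univ i)),
      ZMod.natCast_zmod_val]
    have := hu0 i
    constructor <;> field_simp <;> ring
  have hne : ∀ i, (a : ZMod (q i)) + s i ≠ 0 ∧ (a : ZMod (q i)) - s i ≠ 0 := fun i => by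
    rw [(hap i).1, (hap i).2]
    exact ⟨div_ne_zero (mul_ne_zero (mul_ne_zero (h2 i) (hs0 i)) (u i).ne_zero) (hu0 i),
      div_ne_zero (mul_ne_zero (h2 i) (hs0 i)) (hu0 i)⟩
  have hcop : (a ^ 2 + 1).Coprime f := Nat.Coprime.prod_right fun i _ => by
    rw [Nat.coprime_comm, (hq i).1.coprime_iff_not_dvd, ← ZMod.natCast_eq_zero_iff]
    push_cast
    rw [show (a : ZMod (q i)) ^ 2 + 1 = ((a : ZMod (q i)) + s i) * ((a : ZMod (q i)) - s i) by
      linear_combination (hs i)]
    exact mul_ne_zero (hne i).1 (hne i).2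
  obtain ⟨J, hJ, hass⟩ := exists_ideal_value a hcop
  refine ⟨cls J, funext fun i => ?_⟩
  have hcopJ : (nrm J).Coprime f := hJ ▸ hcop
  show χ i (cls J) = d i
  rw [hχ i J hcopJ, ← hu2 i]
  refine val_eq (hs i) (h i) (hneg i) (fun hd => (hq i).1.ne_one
    (Nat.eq_one_of_dvd_coprimes hcopJ hd (hqf i))) hass ?_
  rw [ratio, evp_apply, evm_apply]
  push_cast
  rw [one_mul, one_mul, ← sub_eq_add_neg, (hap i).1, (hap i).2,
    div_div_div_cancel_right₀ (hu0 i), mul_div_cancel_left₀ _ (mul_ne_zero (h2 i) (hs0 i))]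

end FA.GaussianClass

end
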