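import Mathlib.NumberTheory.LegendreSymbol.QuadraticReciprocity
import Mathlib.NumberTheory.LegendreSymbol.JacobiSymbol
import Mathlib.NumberTheory.LSeries.PrimesInAP
import Mathlib.Data.Nat.ChineseRemainder
import Fermat.Agent.Root.SummaryGenus

/-!
# The genus discriminants of determinant `n`

For an odd prime `q ∣ n` the signed prime `q* = ±q ≡ 1 (mod 4)`, then `-1` if `n ≡ 0, 1 (mod 4)`,
`2` if `n ≡ 0, 6 (mod 8)` and `-2` if `n ≡ 2 (mod 8)`: there are `μ` of them, all squares modulo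
an odd prime `x² + n y²`, and any pattern of their symbols is realised by infinitely many primes.
-/

set_option autoImplicit false
set_option linter.style.haveILetI false

noncomputable section

namespace FA.GenusField

open FA.OrderTheta

/-- The signed prime `±q ≡ 1 (mod 4)`. -/
def qstar (q : ℕ) : ℤ := (-1) ^ (q / 2) * q

/-- The genus discriminants of determinant `n`. -/
def IsGenusDisc (n : ℕ) (D : ℤ) : Prop :=
  (∃ q : ℕ, q.Prime ∧ q ≠ 2 ∧ q ∣ n ∧ D = qstar q) ∨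
    (D = -1 ∧ (n % 4 = 0 ∨ n % 4 = 1)) ∨ (D = 2 ∧ (n % 8 = 0 ∨ n % 8 = 6)) ∨
    (D = -2 ∧ n % 8 = 2)

theorem natAbs_qstar (q : ℕ) : (qstar q).natAbs = q := by
  simp [qstar, Int.natAbs_mul, Int.natAbs_pow]

theorem qstar_ne {q : ℕ} (hq : q.Prime) (hq2 : q ≠ 2) :
    qstar q ≠ -1 ∧ qstar q ≠ 2 ∧ qstar q ≠ -2 := by
  refine ⟨fun h => ?_, fun h => ?_, fun h => ?_⟩ <;>
    have := (natAbs_qstar q).symm.trans (congrArg Int.natAbs h) <;> simp at this
  · exact hq.ne_one this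
  · exact hq2 this
  · exact hq2 this

/-- The genus discriminants as a finite set. -/
def genusDiscs (n : ℕ) : Finset ℤ :=
  (n.primeFactors.erase 2).image qstar ∪
    ((if n % 4 = 0 ∨ n % 4 = 1 then {-1} else ∅) ∪
      (if n % 8 = 0 ∨ n % 8 = 6 then {2} else ∅) ∪ (if n % 8 = 2 then {-2} else ∅))

theorem mem_genusDiscs {n : ℕ} (hn : n ≠ 0) (D : ℤ) :
    D ∈ genusDiscs n ↔ IsGenusDisc n D := by
  unfold genusDiscs IsGenusDisc
  simp only [Finset.mem_union, Finset.mem_image, Finset.mem_erase, Nat.mem_primeFactors]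
  constructor
  · rintro (⟨q, ⟨hq2, hq, hd, -⟩, rfl⟩ | (h | h) | h)
    · exact Or.inl ⟨q, hq, hq2, hd, rfl⟩
    all_goals split_ifs at h with h' <;> simp at h
    · exact Or.inr (Or.inl ⟨h, h'⟩)
    · exact Or.inr (Or.inr (Or.inl ⟨h, h'⟩))
    · exact Or.inr (Or.inr (Or.inr ⟨h, h'⟩))
  · rintro (⟨q, hq, hq2, hd, rfl⟩ | ⟨rfl, h⟩ | ⟨rfl, h⟩ | ⟨rfl, h⟩)
    · exact Or.inl ⟨q, ⟨hq2, hq, hd, hn⟩, rfl⟩
    · exact Or.inr (Or.inl (Or.inl (by simp [h])))
    · exact Or.inr (Or.inl (Or.inr (by simp [h])))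
    · exact Or.inr (Or.inr (by simp [h]))

theorem card_genusDiscs (n : ℕ) : (genusDiscs n).card = genusMu n := by
  have hinj : Function.Injective qstar := fun a b h => by
    rw [← natAbs_qstar a, h, natAbs_qstar]
  unfold genusDiscs
  rw [Finset.card_union_of_disjoint, Finset.card_image_of_injective _ hinj]
  · unfold genusMu
    rcases (show n % 4 = 3 ∨ n % 4 = 1 ∨ n % 8 = 0 ∨ n % 8 = 4 ∨ n % 8 = 2 ∨ n % 8 = 6 by omega)
      with h | h | h | h | h | h <;> split_ifs <;> first | omega | simp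
  · rw [Finset.disjoint_left]
    intro D hD hD'
    obtain ⟨q, hq, rfl⟩ := Finset.mem_image.1 hD
    obtain ⟨hq2, hq⟩ := Finset.mem_erase.1 hq
    obtain ⟨h1, h2, h3⟩ := qstar_ne (Nat.prime_of_mem_primeFactors hq) hq2
    simp only [Finset.mem_union] at hD'
    rcases hD' with (h | h) | h <;> split_ifs at h <;> simp [h1, h2, h3] at h

theorem ne_zero_of_isGenusDisc {n : ℕ} {D : ℤ} (h : IsGenusDisc n D) : D ≠ 0 := by
  rcases h with ⟨q, hq, -, -, rfl⟩ | ⟨rfl, -⟩ | ⟨rfl, -⟩ | ⟨rfl, -⟩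
  · exact fun e => hq.ne_zero (by rw [← natAbs_qstar q, e]; rfl)
  all_goals norm_num

/-- The odd primes dividing a genus discriminant divide `n`. -/
theorem not_dvd_two_mul {n : ℕ} {D : ℤ} (h : IsGenusDisc n D) {p : ℕ} (hp : p.Prime)
    (hp2 : p ≠ 2) (hpn : ¬ p ∣ n) : ¬ (p : ℤ) ∣ 2 * D := by
  intro hd
  rw [Int.natCast_dvd, Int.natAbs_mul] at hd
  have h2 : ¬ p ∣ 2 := fun e => hp2 ((Nat.prime_dvd_prime_iff_eq hp Nat.prime_two).1 e)
  rcases hp.dvd_mul.1 hd with h' | h'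
  · exact h2 (by simpa using h')
  rcases h with ⟨q, hq, -, hqn, rfl⟩ | ⟨rfl, -⟩ | ⟨rfl, -⟩ | ⟨rfl, -⟩
  · rw [natAbs_qstar, Nat.prime_dvd_prime_iff_eq hp hq] at h'
    exact hpn (h' ▸ hqn)
  · exact hp.one_lt.ne' (Nat.eq_one_of_dvd_one (by simpa using h'))
  all_goals exact h2 (by simpa using h')

/-- Quadratic reciprocity for a signed prime. -/
theorem isSquare_qstar_iff {p q : ℕ} [Fact p.Prime] [Fact q.Prime] (hp : p ≠ 2) (hq : q ≠ 2)
    (hpq : p ≠ q) : IsSquare ((qstar q : ℤ) : ZMod p) ↔ IsSquare (p : ZMod q) := by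
  have hq0 : ((qstar q : ℤ) : ZMod p) ≠ 0 := by
    rw [Ne, ZMod.intCast_zmod_eq_zero_iff_dvd, Int.natCast_dvd, natAbs_qstar,
      Nat.prime_dvd_prime_iff_eq Fact.out Fact.out]
    exact hpq
  have hp0 : (p : ZMod q) ≠ 0 := by
    rw [Ne, ZMod.natCast_eq_zero_iff, Nat.prime_dvd_prime_iff_eq Fact.out Fact.out]
    exact Ne.symm hpq
  rw [← legendreSym.eq_one_iff p hq0, ← legendreSym.eq_one_iff' q hp0,
    legendreSym.quadratic_reciprocity' hp hq]
  have hodd : p % 2 = 1 := (Nat.Prime.eq_two_or_odd Fact.out).resolve_left hp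
  have e : legendreSym p (qstar q) = (-1) ^ (p / 2 * (q / 2)) * legendreSym p q := by
    rw [qstar, legendreSym.mul]
    congr 1
    rw [jacobiSym.legendreSym.to_jacobiSym, jacobiSym.pow_left,
      jacobiSym.at_neg_one (Nat.odd_iff.2 hodd), ZMod.χ₄_eq_neg_one_pow hodd, ← pow_mul]
  rw [e]

/-- **The genus discriminants are squares modulo the primes `x² + n y²`.** -/
theorem isSquare_of_form {n : ℕ} {D : ℤ} (h : IsGenusDisc n D) {p : ℕ} [Fact p.Prime]
    (hp2 : p ≠ 2) (hpn : ¬ p ∣ n) {a b : ℤ} (hab : (p : ℤ) = a ^ 2 + n * b ^ 2) :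
    IsSquare (D : ZMod p) := by
  have h8 : ((p % 8 : ℕ) : ZMod 8) = (a : ZMod 8) ^ 2 + ((n % 8 : ℕ) : ZMod 8) * (b : ZMod 8) ^ 2 :=
    by
    rw [ZMod.natCast_mod, ZMod.natCast_mod, ← Int.cast_natCast p, hab]
    push_cast
    ring
  have hodd : p % 8 % 2 = 1 := by
    have := (Nat.Prime.eq_two_or_odd (Fact.out : p.Prime)).resolve_left hp2
    omega
  have key : ∀ (r : Fin 8) (s : Fin 8) (x y : ZMod 8), (r : ℕ) % 2 = 1 →
      ((r : ℕ) : ZMod 8) = x ^ 2 + ((s : ℕ) : ZMod 8) * y ^ 2 →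
      (((s : ℕ) % 4 = 0 ∨ (s : ℕ) % 4 = 1) → (r : ℕ) % 4 ≠ 3) ∧
      (((s : ℕ) = 0 ∨ (s : ℕ) = 6) → (r : ℕ) = 1 ∨ (r : ℕ) = 7) ∧
      ((s : ℕ) = 2 → (r : ℕ) = 1 ∨ (r : ℕ) = 3) := by
    decide +kernel
  obtain ⟨k1, k2, k3⟩ := key ⟨p % 8, Nat.mod_lt _ (by norm_num)⟩ ⟨n % 8, Nat.mod_lt _ (by norm_num)⟩
    _ _ hodd h8
  simp only [] at k1 k2 k3
  rcases h with ⟨q, hq, hq2, hqn, rfl⟩ | ⟨rfl, hn⟩ | ⟨rfl, hn⟩ | ⟨rfl, hn⟩
  · haveI := Fact.mk hq
    rw [isSquare_qstar_iff hp2 hq2 fun e => hpn (e ▸ hqn)]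
    refine ⟨(a : ZMod q), ?_⟩
    rw [← Int.cast_natCast p, hab]
    push_cast
    rw [(ZMod.natCast_eq_zero_iff n q).2 hqn]
    ring
  · push_cast
    have := k1 (by omega)
    exact ZMod.exists_sq_eq_neg_one_iff.2 (by omega)
  · push_cast
    exact (ZMod.exists_sq_eq_two_iff hp2).2 (k2 hn)
  · push_cast
    exact (ZMod.exists_sq_eq_neg_two_iff hp2).2 (k3 hn)

/-- **Every pattern of symbols of genus discriminants is realised by large primes.** -/
theorem exists_prime_pattern {n : ℕ} (hn0 : n ≠ 0) (N : ℕ) (S : ℤ → Prop) :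
    ∃ p : ℕ, N < p ∧ p.Prime ∧ ∀ D, IsGenusDisc n D → (IsSquare (D : ZMod p) ↔ ¬ S D) := by
  classical
  -- the residue modulo 8
  set r : ℕ := if S (-1) ∧ (n % 4 = 0 ∨ n % 4 = 1) then (if S 2 ∧ n % 8 ≠ 2 then 3 else 7)
    else (if (S 2 ∧ n % 8 ≠ 2) ∨ (S (-2) ∧ n % 8 = 2) then 5 else 1) with hr
  -- the residues modulo the odd primes
  have hns : ∀ q : ℕ, q.Prime → q ≠ 2 → ∃ a : ℕ, a.Coprime q ∧ ¬ IsSquare (a : ZMod q) := by
    intro q hq hq2
    haveI := Fact.mk hq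
    obtain ⟨a, ha⟩ := FiniteField.exists_nonsquare (F := ZMod q)
      ((ZMod.ringChar_zmod_n q).trans_ne hq2)
    refine ⟨a.val, ((hq.coprime_iff_not_dvd).2 fun hd => ha ?_).symm, by
      rwa [ZMod.natCast_zmod_val]⟩
    rw [← ZMod.natCast_zmod_val a, (ZMod.natCast_eq_zero_iff _ q).2 hd]
    exact IsSquare.zero
  let t : Finset ℕ := insert 2 (n.primeFactors.erase 2)
  let s : ℕ → ℕ := fun i => if i = 2 then 8 else i
  let c : ℕ → ℕ := fun i => if i = 2 then r else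
    if h : i.Prime ∧ S (qstar i) ∧ i ≠ 2 then (hns i h.1 h.2.2).choose else 1
  have hmem : ∀ i ∈ t, i.Prime := fun i hi => by
    rcases Finset.mem_insert.1 hi with rfl | hi
    · exact Nat.prime_two
    · exact Nat.prime_of_mem_primeFactors (Finset.mem_erase.1 hi).2
  have hdvd : ∀ i ∈ t, s i ∣ i ^ 3 := fun i _ => by
    simp only [s]
    split_ifs with h
    · subst h; norm_num
    · exact dvd_pow_self i (by norm_num)
  have hs0 : ∀ i ∈ t, s i ≠ 0 := fun i hi => by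
    simp only [s]
    split_ifs with h
    · norm_num
    · exact (hmem i hi).ne_zero
  have hpp : Set.Pairwise (t : Set ℕ) (Function.onFun Nat.Coprime s) := fun i hi j hj hij =>
    (((Nat.coprime_primes (hmem i hi) (hmem j hj)).2 hij).pow 3 3).of_dvd (hdvd i hi) (hdvd j hj)
  obtain ⟨a, ha⟩ := Nat.chineseRemainderOfFinset c s t hs0 hpp
  have hrodd : r = 1 ∨ r = 3 ∨ r = 5 ∨ r = 7 := by rw [hr]; split_ifs <;> omega
  have hc : ∀ i ∈ t, (c i).Coprime (s i) := fun i hi => by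
    simp only [c, s]
    split_ifs with h h'
    · rcases hrodd with e | e | e | e <;> rw [e] <;> norm_num
    · exact (hns i h'.1 h'.2.2).choose_spec.1
    · exact Nat.coprime_one_left i
  have hcop : a.Coprime (∏ i ∈ t, s i) := Nat.Coprime.prod_right fun i hi => by
    have h := (ha i hi).gcd_eq
    rw [Nat.coprime_iff_gcd_eq_one, h]
    exact hc i hi
  obtain ⟨p, hpN, hp, hpa⟩ := Nat.forall_exists_prime_gt_and_modEq (N + n + 2)
    (Finset.prod_ne_zero_iff.2 hs0) hcop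
  refine ⟨p, by omega, hp, ?_⟩
  haveI := Fact.mk hp
  have hpi : ∀ i ∈ t, p ≡ c i [MOD s i] := fun i hi =>
    (hpa.of_dvd (Finset.dvd_prod_of_mem s hi)).trans (ha i hi)
  have hp8 : p % 8 = r := by
    have h := hpi 2 (Finset.mem_insert_self _ _)
    simp only [c, s, if_pos] at h
    rcases hrodd with e | e | e | e <;> rw [e] at h ⊢ <;> exact h
  rintro D (⟨q, hq, hq2, hqn, rfl⟩ | ⟨rfl, hn⟩ | ⟨rfl, hn⟩ | ⟨rfl, hn⟩)
  · haveI := Fact.mk hq
    rw [isSquare_qstar_iff (by omega) hq2 (fun e => by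
      have := Nat.le_of_dvd (Nat.pos_of_ne_zero hn0) (e ▸ hqn)
      omega)]
    have hqt : q ∈ t := Finset.mem_insert_of_mem
      (Finset.mem_erase.2 ⟨hq2, Nat.mem_primeFactors.2 ⟨hq, hqn, hn0⟩⟩)
    have hpq := hpi q hqt
    simp only [s, if_neg hq2] at hpq
    rw [(ZMod.natCast_eq_natCast_iff p (c q) q).2 hpq]
    simp only [c, if_neg hq2]
    split_ifs with h
    · exact iff_of_false (hns q h.1 h.2.2).choose_spec.2 (not_not_intro h.2.1)
    · exact iff_of_true (by simp) fun hS => h ⟨hq, hS, hq2⟩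
  · push_cast
    rw [ZMod.exists_sq_eq_neg_one_iff]
    by_cases h1 : S (-1)
    · rw [iff_false_intro (not_not_intro h1), iff_false]
      rw [hr, if_pos ⟨h1, hn⟩] at hp8
      split_ifs at hp8 <;> omega
    · rw [iff_true_intro h1, iff_true]
      rw [hr, if_neg (fun h => h1 h.1)] at hp8
      split_ifs at hp8 <;> omega
  · push_cast
    rw [ZMod.exists_sq_eq_two_iff (by omega)]
    have h2n : n % 8 ≠ 2 := by omega
    rw [hr] at hp8
    by_cases h1 : S 2
    · rw [iff_false_intro (not_not_intro h1), iff_false]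
      split_ifs at hp8 with ha1 ha2 <;> first | omega | (exfalso; tauto)
    · rw [iff_true_intro h1, iff_true]
      split_ifs at hp8 with ha1 ha2 <;> first | omega | (exfalso; tauto)
  · push_cast
    rw [ZMod.exists_sq_eq_neg_two_iff (by omega)]
    rw [hr] at hp8
    by_cases h1 : S (-2)
    · rw [iff_false_intro (not_not_intro h1), iff_false]
      split_ifs at hp8 with ha1 ha2 <;> first | omega | (exfalso; tauto)
    · rw [iff_true_intro h1, iff_true]
      split_ifs at hp8 with ha1 ha2 <;> first | omega | (exfalso; tauto)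

end FA.GenusField

end
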