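import Fermat.Agent.Tau.GaloisModuliInert
import Fermat.Agent.Tau.GenusDiscs

/-!
# The genus field inside `ℚ(√-n, j(√-n))`

The square roots of the genus discriminants lie in the ring class field, as they are squares modulo
the primes `x² + n y²`; the group fixing them is that of the squares of classes, so they generate
the largest subfield abelian over `ℚ`, of degree `2 ^ μ`.
-/

set_option autoImplicit false
set_option linter.style.haveILetI false

noncomputable section

namespace FA.GenusField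

open UpperHalfPlane hiding I
open FA.ModField FA.RingClassJ FA.OrderTheta NumberField Polynomial FA.Density Module
open FA.GaloisModuli
open FA.Singular hiding IsRoot

local notation "Qb" => AlgebraicClosure ℚ

/-- A Frobenius element fixes `√D` iff `D` is a square. -/
theorem frob_fix_sqrt {E : Type*} [Field E] [NumberField E] {q : ℕ} [Fact q.Prime]
    {P : Ideal (𝓞 E)} {g : E ≃ₐ[ℚ] E} (hmax : P.IsMaximal) (hqP : (q : 𝓞 E) ∈ P)
    (hfrob : ∀ y : 𝓞 E, g • y - y ^ q ∈ P) {D : ℤ} (hqD : ¬ (q : ℤ) ∣ 2 * D) {d : E}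
    (hd : d ^ 2 = (D : E)) : g d = d ↔ IsSquare (D : ZMod q) := by
  have hq := (Fact.out : q.Prime)
  let := Ideal.Quotient.field P
  set π := Ideal.Quotient.mk P with hπ
  haveI : CharP (𝓞 E ⧸ P) q := (CharP.charP_iff_prime_eq_zero hq).mpr <| by
    rw [← map_natCast π, hπ, Ideal.Quotient.eq_zero_iff_mem]
    exact hqP
  set φ := ZMod.castHom (dvd_refl q) (𝓞 E ⧸ P) with hφ
  have hdi : IsIntegral ℤ d := IsIntegral.of_pow two_pos (by
    rw [hd]; simpa using (isIntegral_algebraMap (R := ℤ) (A := E) (x := D)))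
  set d' : 𝓞 E := ⟨d, hdi⟩ with hd'
  have hd2 : d' ^ 2 = (D : 𝓞 E) := RingOfIntegers.ext (by simpa [hd'] using hd)
  have hfr : π (g • d') = π d' ^ q := by rw [← map_pow]; exact Ideal.Quotient.eq.2 (hfrob d')
  have hsq : π d' ^ 2 = (D : 𝓞 E ⧸ P) := by rw [← map_pow, hd2, map_intCast]
  refine ⟨fun hgd => ?_, fun ⟨s, hs⟩ => ?_⟩
  · have h1 : π d' ^ q = π d' := by rw [← hfr, show g • d' = d' from RingOfIntegers.ext hgd]
    have h2 := (Subfield.mem_bot_iff_pow_eq_self (𝓞 E ⧸ P) q).mpr h1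
    rw [← ZMod.fieldRange_castHom_eq_bot q] at h2
    obtain ⟨s, hs⟩ := h2
    refine ⟨s, φ.injective ?_⟩
    rw [map_intCast, map_mul, show φ s = π d' from hs, ← sq, hsq]
  · have e : π d' ^ q = π d' := by
      have h1 : π d' ^ 2 = φ s ^ 2 := by rw [hsq, sq (φ s), ← map_mul, ← hs, map_intCast]
      rcases sq_eq_sq_iff_eq_or_eq_neg.1 h1 with e | e <;> rw [e]
      · rw [← map_pow, ZMod.pow_card]
      · rw [← map_neg, ← map_pow, ZMod.pow_card]
    have hgd2 : g d = d ∨ g d = -d := sq_eq_sq_iff_eq_or_eq_neg.1 (by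
      rw [← map_pow, hd, map_intCast])
    refine hgd2.resolve_right fun hneg => hqD ?_
    rw [e, show g • d' = -d' from RingOfIntegers.ext hneg, map_neg,
      neg_eq_iff_add_eq_zero] at hfr
    have h3 : ((4 * D : ℤ) : 𝓞 E ⧸ P) = 0 := by
      push_cast
      linear_combination (-4) * hsq + 2 * π d' * hfr
    rw [CharP.intCast_eq_zero_iff (𝓞 E ⧸ P) q] at h3
    rcases (Nat.prime_iff_prime_int.1 hq).dvd_or_dvd h3 with h4 | h4
    · exact ((Nat.prime_iff_prime_int.1 hq).dvd_of_dvd_pow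
        (show (q : ℤ) ∣ 2 ^ 2 from h4)).mul_right D
    · exact h4.mul_left 2

/-- `√D` lies in a Galois field if `D` is a square modulo the primes splitting completely in it. -/
theorem mem_of_isSquare_of_split (L : IntermediateField ℚ Qb) [FiniteDimensional ℚ L]
    [IsGalois ℚ L] {D : ℤ} (hD : D ≠ 0) {x : Qb} (hx : x ^ 2 = (D : Qb)) (T : Finset ℕ)
    (h : ∀ q : ℕ, q.Prime → q ∉ T →
      ((Ideal.span {(q : ℤ)}).primesOver (𝓞 L)).ncard = finrank ℚ L → IsSquare (D : ZMod q)) :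
    x ∈ L := by
  classical
  set f : ℚ[X] := X ^ 2 - C (D : ℚ) with hf
  have hf0 : f ≠ 0 := (monic_X_pow_sub_C _ two_ne_zero).ne_zero
  set F : IntermediateField ℚ Qb := IntermediateField.adjoin ℚ (f.rootSet Qb) with hF
  haveI : f.IsSplittingField ℚ F :=
    IntermediateField.adjoin_rootSet_isSplittingField (IsAlgClosed.splits _)
  haveI : FiniteDimensional ℚ F := IsSplittingField.finiteDimensional F f
  haveI : Normal ℚ F := Normal.of_isSplittingField f
  haveI : IsGalois ℚ F := ⟨⟩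
  haveI : NumberField F := { }
  have hxF : x ∈ F := IntermediateField.subset_adjoin ℚ _ (mem_rootSet.2 ⟨hf0, by simp [hf, hx]⟩)
  suffices F ≤ L from this hxF
  obtain ⟨𝔉⟩ := FA.FrobeniusDensity.nonempty_frobSystem (F := F)
  rw [FA.Summary.bauer]
  refine (T ∪ 𝔉.excluded ∪ (2 * D.natAbs).divisors).finite_toSet.subset ?_
  rintro q ⟨⟨hq, hL⟩, hnot⟩
  rw [Finset.mem_coe]
  by_contra hqm
  simp only [Finset.mem_union, Nat.mem_divisors, not_or] at hqm
  obtain ⟨⟨hT, hE⟩, hqD⟩ := hqm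
  obtain ⟨P, hP⟩ := 𝔉.spec q hq hE
  refine hnot ⟨hq, (FA.FrobeniusDensity.split_iff_eq_one hP).2 ?_⟩
  haveI := Fact.mk hq
  have hqD' : ¬ (q : ℤ) ∣ 2 * D := fun hd => hqD ⟨by
    rw [Int.natCast_dvd, Int.natAbs_mul] at hd; exact hd,
    mul_ne_zero two_ne_zero (Int.natAbs_ne_zero.2 hD)⟩
  have hsq := h q hq hT hL
  have e : (𝔉.frob q).toAlgHom = AlgHom.id ℚ F := by
    refine IntermediateField.adjoin_algHom_ext ℚ fun z hz => ?_
    exact (frob_fix_sqrt hP.isMaximal hP.mem hP.frob hqD' (d := ⟨z,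
      IntermediateField.subset_adjoin ℚ _ hz⟩) (Subtype.ext (by
        have := (mem_rootSet.1 hz).2
        simp [hf, sub_eq_zero] at this
        push_cast
        exact this))).2 hsq
  exact AlgEquiv.ext fun z => DFunLike.congr_fun e z

/-- **The genus field.** -/
theorem genus_data (n : ℕ) [NeZero n] {τ : ℍ} (hτ : (τ : ℂ) ^ 2 = -(n : ℂ)) :
    IntermediateField.adjoin ℚ {x : ℂ | ∃ D, IsGenusDisc n D ∧ x ^ 2 = (D : ℂ)} ≤
        IntermediateField.adjoin ℚ {(τ : ℂ), jfun τ} ∧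
      finrank ℚ (IntermediateField.adjoin ℚ
        {x : ℂ | ∃ D, IsGenusDisc n D ∧ x ^ 2 = (D : ℂ)}) = 2 ^ genusMu n ∧
      finrank ℚ (IntermediateField.adjoin ℚ {(τ : ℂ), jfun τ}) = 2 * Nat.card (Cl n) ∧
      ∀ F : IntermediateField ℚ ℂ, F ≤ IntermediateField.adjoin ℚ {(τ : ℂ), jfun τ} →
        ∀ [IsGalois ℚ F], (∀ a b : F ≃ₐ[ℚ] F, a * b = b * a) →
        F ≤ IntermediateField.adjoin ℚ {x : ℂ | ∃ D, IsGenusDisc n D ∧ x ^ 2 = (D : ℂ)} := by
  classical
  obtain ⟨L, hfin, hgal, ι, d, y, hd, hy, hL, ⟨e⟩, hdeg, hinv, hsplit, -, -, -⟩ :=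
    exists_galois_data n hτ
  haveI : NumberField L := { }
  set f : L →ₐ[ℚ] ℂ := ι.comp L.val with hf
  set Lc : IntermediateField ℚ ℂ := IntermediateField.adjoin ℚ {(τ : ℂ), jfun τ} with hLc
  -- the field in `ℂ`
  have hιd : ι (d : Qb) = τ ∨ ι (d : Qb) = -τ := sq_eq_sq_iff_eq_or_eq_neg.1 (by
    rw [hτ, ← map_pow, show (d : Qb) ^ 2 = ((d ^ 2 : L) : Qb) from rfl, hd]
    simp)
  have hmapL : L.map ι = Lc := by
    conv_lhs => rw [hL]
    rw [IntermediateField.adjoin_map, Set.image_pair, hy, hLc]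
    refine le_antisymm (IntermediateField.adjoin_le_iff.2 ?_)
      (IntermediateField.adjoin_le_iff.2 ?_)
    · rintro z (rfl | rfl)
      · rcases hιd with h | h <;> rw [h]
        · exact IntermediateField.subset_adjoin ℚ _ (Or.inl rfl)
        · exact neg_mem (IntermediateField.subset_adjoin ℚ _ (Or.inl rfl))
      · exact IntermediateField.subset_adjoin ℚ _ (Or.inr rfl)
    · rintro z (rfl | rfl)
      · rcases hιd with h | h
        · exact h ▸ IntermediateField.subset_adjoin ℚ _ (Or.inl rfl)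
        · rw [← neg_neg (τ : ℂ), ← h]
          exact neg_mem (IntermediateField.subset_adjoin ℚ _ (Or.inl rfl))
      · exact IntermediateField.subset_adjoin ℚ _ (Or.inr rfl)
  have hrange : ∀ z : ℂ, z ∈ Lc ↔ ∃ w : L, f w = z := fun z => by
    rw [← hmapL]
    exact ⟨fun ⟨w, hw, e⟩ => ⟨⟨w, hw⟩, e⟩, fun ⟨w, e⟩ => ⟨w, w.2, e⟩⟩
  have hLcdeg : finrank ℚ Lc = 2 * Nat.card (Cl n) := by
    rw [← hdeg, ← hmapL]
    exact (L.equivMap ι).toLinearEquiv.finrank_eq.symm
  -- the square roots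
  have hmem : ∀ D ∈ genusDiscs n, ∃ z : L, z ^ 2 = (D : L) := fun D hD => by
    rw [mem_genusDiscs (NeZero.ne n)] at hD
    obtain ⟨x, hx⟩ := IsAlgClosed.exists_pow_nat_eq (D : Qb) two_pos
    refine ⟨⟨x, mem_of_isSquare_of_split L (ne_zero_of_isGenusDisc hD) hx
      (6 * n).divisors fun q hq hqT hs => ?_⟩, Subtype.ext (by push_cast; exact hx)⟩
    haveI := Fact.mk hq
    have hq6 : ¬ q ∣ 6 * n := fun h =>
      hqT (Nat.mem_divisors.mpr ⟨h, mul_ne_zero (by norm_num) (NeZero.ne n)⟩)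
    obtain ⟨a, b, hab⟩ := (hsplit q hq hq6).1 hs
    exact isSquare_of_form hD (fun e => hq6 (e ▸ dvd_mul_of_dvd_left (by norm_num) n))
      (fun h => hq6 (h.mul_left 6)) hab
  choose rt hrt using hmem
  let r : genusDiscs n → L := fun D => rt D.1 D.2
  have hr : ∀ D : genusDiscs n, r D ^ 2 = ((D.1 : ℤ) : L) := fun D => hrt D.1 D.2
  set GenL : IntermediateField ℚ L := IntermediateField.adjoin ℚ (Set.range r) with hGenL
  set Gen : IntermediateField ℚ ℂ :=
    IntermediateField.adjoin ℚ {x : ℂ | ∃ D, IsGenusDisc n D ∧ x ^ 2 = (D : ℂ)} with hGen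
  have hmapGen : GenL.map f = Gen := by
    rw [hGenL, IntermediateField.adjoin_map, hGen]
    refine le_antisymm (IntermediateField.adjoin_le_iff.2 ?_)
      (IntermediateField.adjoin_le_iff.2 ?_)
    · rintro z ⟨w, ⟨D, rfl⟩, rfl⟩
      exact IntermediateField.subset_adjoin ℚ _ ⟨D.1, (mem_genusDiscs (NeZero.ne n) _).1 D.2, by
        rw [← map_pow, hr, map_intCast]⟩
    · rintro z ⟨D, hD, hz⟩
      set D' : genusDiscs n := ⟨D, (mem_genusDiscs (NeZero.ne n) D).2 hD⟩
      have h : z = f (r D') ∨ z = -f (r D') := sq_eq_sq_iff_eq_or_eq_neg.1 (by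
        rw [hz, ← map_pow, hr, map_intCast])
      have hin : f (r D') ∈ IntermediateField.adjoin ℚ (f '' Set.range r) :=
        IntermediateField.subset_adjoin ℚ _ ⟨_, ⟨D', rfl⟩, rfl⟩
      rcases h with rfl | rfl
      exacts [hin, neg_mem hin]
  -- the group of squares
  have hm := card_sq_eq_two_pow n
  let sqh := powMonoidHom (α := Cl n) 2
  let emb : Cl n →* (L ≃ₐ[ℚ] L) :=
    (MulAction.stabilizer (L ≃ₐ[ℚ] L) d).subtype.comp e.symm.toMonoidHom
  set S : Subgroup (L ≃ₐ[ℚ] L) := sqh.range.map emb with hS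
  have hcardS : Nat.card S * 2 ^ (genusMu n - 1) = Nat.card (Cl n) := by
    rw [hS, Subgroup.card_map_of_injective (Subtype.val_injective.comp e.symm.injective),
      ← Subgroup.index_ker, ← hm.1, show Nat.card {c : Cl n // c * c = 1} = Nat.card sqh.ker from
        Nat.card_congr (Equiv.subtypeEquivRight fun c => by
          rw [MonoidHom.mem_ker, powMonoidHom_apply, pow_two])]
    rw [mul_comm, Subgroup.card_mul_index]
  have hcardG : Nat.card (L ≃ₐ[ℚ] L) = 2 * Nat.card (Cl n) := by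
    rw [IsGalois.card_aut_eq_finrank, hdeg]
  have hh : 0 < Nat.card (Cl n) := Nat.card_pos
  have hSindex : S.index = 2 ^ genusMu n := by
    have h1 := Subgroup.card_mul_index S
    rw [hcardG, ← hcardS, ← mul_assoc, mul_comm 2, mul_assoc] at h1
    rw [Nat.eq_of_mul_eq_mul_left Nat.card_pos h1, ← pow_succ', Nat.sub_add_cancel hm.2]
  set K : Subgroup (L ≃ₐ[ℚ] L) := GenL.fixingSubgroup with hK
  have hfixK : ∀ σ : L ≃ₐ[ℚ] L, (∀ D, σ (r D) = r D) → σ ∈ K := fun σ hσ => by
    have hle : GenL ≤ IntermediateField.fixedField (Subgroup.zpowers σ) := by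
      rw [hGenL, IntermediateField.adjoin_le_iff]
      rintro _ ⟨D, rfl⟩
      rw [SetLike.mem_coe, IntermediateField.mem_fixedField_iff]
      intro g hg
      exact (Subgroup.zpowers_le.mpr
        (MulAction.mem_stabilizer_iff.2 (hσ D) : σ ∈ MulAction.stabilizer (L ≃ₐ[ℚ] L) (r D))) hg
    exact (IntermediateField.le_iff_le (Subgroup.zpowers σ) GenL).1 hle
      (Subgroup.mem_zpowers σ)
  have hpm : ∀ (σ : L ≃ₐ[ℚ] L) D, σ (r D) = r D ∨ σ (r D) = -r D := fun σ D =>
    sq_eq_sq_iff_eq_or_eq_neg.1 (by rw [← map_pow, hr, map_intCast])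
  have hSK : S ≤ K := by
    rintro _ ⟨_, ⟨c, rfl⟩, rfl⟩
    refine hfixK _ fun D => ?_
    rw [show sqh c = c * c from pow_two c, map_mul, AlgEquiv.mul_apply]
    rcases hpm (emb c) D with h | h
    · rw [h, h]
    · rw [h, map_neg, h, neg_neg]
  -- every pattern of signs occurs
  have hindex : 2 ^ genusMu n ≤ K.index := by
    obtain ⟨𝔉⟩ := FA.FrobeniusDensity.nonempty_frobSystem (F := L)
    let Φ : (L ≃ₐ[ℚ] L) → genusDiscs n → Bool := fun σ D => decide (σ (r D) = r D)
    have hK' : ∀ σ σ' : L ≃ₐ[ℚ] L, σ⁻¹ * σ' ∈ K → Φ σ = Φ σ' := fun σ σ' h => funext fun D => by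
      have h1 := (IntermediateField.mem_fixingSubgroup_iff _ _).1 h (r D)
        (IntermediateField.subset_adjoin ℚ _ ⟨D, rfl⟩)
      rw [AlgEquiv.mul_apply] at h1
      have h2 := congrArg σ h1
      rw [show σ (σ⁻¹ (σ' (r D))) = σ' (r D) from σ.apply_symm_apply _] at h2
      simp only [Φ, h2]
    have hsurj : Function.Surjective Φ := fun b => by
      obtain ⟨p, hpN, hp, hpat⟩ := exists_prime_pattern (NeZero.ne n)
        (𝔉.excluded.sup id + 2 + n) (fun D => ∃ h : D ∈ genusDiscs n, b ⟨D, h⟩ = false)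
      haveI := Fact.mk hp
      obtain ⟨P, hP⟩ := 𝔉.spec p hp fun hm' => by
        have := Finset.le_sup (f := id) hm'
        simp only [id] at this
        omega
      refine ⟨𝔉.frob p, funext fun D => ?_⟩
      have hD := (mem_genusDiscs (NeZero.ne n) D.1).1 D.2
      have hpD : ¬ (p : ℤ) ∣ 2 * D.1 := not_dvd_two_mul hD hp (by omega) fun h => by
        have := Nat.le_of_dvd (NeZero.pos n) h
        omega
      have h := (frob_fix_sqrt hP.isMaximal hP.mem hP.frob hpD (hr D)).trans (hpat D.1 hD)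
      simp only [Φ]
      rcases hb : b D with _ | _
      · exact decide_eq_false fun hc => h.1 hc ⟨D.2, hb⟩
      · exact decide_eq_true (h.2 fun ⟨_, hc⟩ => by simp [hb] at hc)
    have hq : Function.Surjective (fun c : (L ≃ₐ[ℚ] L) ⧸ K => Φ c.out) := fun b => by
      obtain ⟨σ, rfl⟩ := hsurj b
      obtain ⟨k, hk⟩ := QuotientGroup.mk_out_eq_mul K σ
      refine ⟨(σ : (L ≃ₐ[ℚ] L) ⧸ K), (hK' σ _ ?_).symm⟩
      rw [hk, inv_mul_cancel_left]
      exact k.2
    have := Nat.card_le_card_of_surjective _ hq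
    rw [Nat.card_pi] at this
    simpa [Subgroup.index, Finset.prod_const, card_genusDiscs] using this
  have hKindex : K.index = 2 ^ genusMu n :=
    le_antisymm (hSindex ▸ Nat.le_of_dvd (Nat.pos_of_ne_zero Subgroup.index_ne_zero_of_finite)
      (Subgroup.index_dvd_of_le hSK)) hindex
  have hKS : S = K := by
    refine Subgroup.eq_of_le_of_card_ge hSK (le_of_eq ?_)
    have h1 := Subgroup.card_mul_index S
    rw [hSindex, ← Subgroup.card_mul_index K, hKindex] at h1
    exact (Nat.eq_of_mul_eq_mul_right (pow_pos two_pos _) h1).symm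
  refine ⟨?_, ?_, hLcdeg, fun F hF _ hcomm => ?_⟩
  · intro z hz
    rw [← hmapGen] at hz
    obtain ⟨w, -, rfl⟩ := hz
    exact (hrange _).2 ⟨w, rfl⟩
  · rw [← hmapGen, ← (GenL.equivMap f).toLinearEquiv.finrank_eq,
      IntermediateField.finrank_eq_fixingSubgroup_index, ← hK, hKindex]
  -- maximality
  set F' : IntermediateField ℚ L := F.comap f with hF'
  let eF : F' ≃ₐ[ℚ] F := AlgEquiv.ofBijective
    ((f.comp F'.val).codRestrict F.toSubalgebra fun z => z.2)
    ⟨fun a b h => Subtype.ext (f.injective (congrArg Subtype.val h)), fun z => by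
      obtain ⟨w, hw⟩ := (hrange _).1 (hF z.2)
      exact ⟨⟨w, show f w ∈ F from hw ▸ z.2⟩, Subtype.ext hw⟩⟩
  haveI : IsGalois ℚ F' := IsGalois.of_algEquiv eF.symm
  haveI : Normal ℚ F' := IsGalois.to_normal
  have hcomm' : ∀ a b : F' ≃ₐ[ℚ] F', a * b = b * a := fun a b => by
    apply eF.autCongr.injective
    rw [map_mul, map_mul, hcomm]
  let res := AlgEquiv.restrictNormalHom (F := ℚ) (K₁ := L) F'
  obtain ⟨t, ht⟩ : ∃ t : L ≃ₐ[ℚ] L, t d ≠ d := by
    by_contra hcon
    push Not at hcon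
    have hc : Nat.card (L ≃ₐ[ℚ] L) = Nat.card (MulAction.stabilizer (L ≃ₐ[ℚ] L) d) :=
      Nat.card_congr
        (Equiv.subtypeUnivEquiv fun σ => MulAction.mem_stabilizer_iff.2 (hcon σ)).symm
    rw [hcardG, Nat.card_congr e.toEquiv] at hc
    omega
  have hF'K : F' ≤ IntermediateField.fixedField K := by
    intro z hz
    rw [IntermediateField.mem_fixedField_iff]
    rintro _ hk
    rw [← hKS] at hk
    obtain ⟨_, ⟨c, rfl⟩, rfl⟩ := hk
    set s := emb c with hs
    have hsd : s d = d := MulAction.mem_stabilizer_iff.1 (e.symm c).2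
    have hts : (t * s) d ≠ d := by rw [AlgEquiv.mul_apply, hsd]; exact ht
    have hconj : t * s * t⁻¹ = s⁻¹ := by
      rw [inv_eq_of_mul_eq_one_right (hinv t ht), eq_inv_iff_mul_eq_one, mul_assoc (t * s)]
      exact hinv _ hts
    have h1 : res (s * s) = 1 := by
      have h2 := congrArg res hconj
      rw [map_mul, map_mul, map_inv, map_inv, hcomm' (res t), mul_inv_cancel_right] at h2
      rw [map_mul]
      nth_rw 2 [h2]
      rw [mul_inv_cancel]
    rw [show sqh c = c * c from pow_two c, map_mul]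
    have h3 := AlgEquiv.restrictNormal_commutes (s * s) F' ⟨z, hz⟩
    rw [show (s * s).restrictNormal F' = 1 from h1] at h3
    exact h3.symm
  rw [hK, IsGalois.fixedField_fixingSubgroup] at hF'K
  intro z hz
  obtain ⟨w, rfl⟩ := (hrange z).1 (hF hz)
  rw [← hmapGen]
  exact ⟨w, hF'K hz, rfl⟩

/-- The real elements of `ℚ(√-n, j(√-n))` lie in `ℚ(j(√-n))`. -/
theorem mem_adjoin_j (n : ℕ) [NeZero n] {τ : ℍ} (hτ : (τ : ℂ) ^ 2 = -(n : ℂ)) {x : ℂ}
    (hx : x ∈ IntermediateField.adjoin ℚ {(τ : ℂ), jfun τ}) (him : x.im = 0) :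
    x ∈ IntermediateField.adjoin ℚ {jfun τ} := by
  have hdeg := (genus_data n hτ).2.2.1
  set Lc : IntermediateField ℚ ℂ := IntermediateField.adjoin ℚ {(τ : ℂ), jfun τ} with hLc
  set Kj : IntermediateField ℚ ℂ := IntermediateField.adjoin ℚ {jfun τ} with hKj
  set RF : IntermediateField ℚ ℂ := (Complex.ofRealAm.restrictScalars ℚ).fieldRange with hRF
  have hRFmem : ∀ z : ℂ, z ∈ RF ↔ z.im = 0 := fun z =>
    ⟨fun ⟨r, hr⟩ => hr ▸ Complex.ofReal_im r, fun h => ⟨z.re, Complex.ext rfl h.symm⟩⟩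
  have hh : 0 < Nat.card (Cl n) := Nat.card_pos
  haveI : FiniteDimensional ℚ Lc := Module.finite_of_finrank_pos (by rw [hdeg]; omega)
  haveI : FiniteDimensional ℚ (Lc ⊓ RF : IntermediateField ℚ ℂ) :=
    Module.Finite.of_injective (IntermediateField.inclusion inf_le_left).toLinearMap
      (IntermediateField.inclusion (inf_le_left : Lc ⊓ RF ≤ Lc)).injective
  have hle : Kj ≤ Lc ⊓ RF := by
    rw [hKj, IntermediateField.adjoin_le_iff, Set.singleton_subset_iff, SetLike.mem_coe,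
      IntermediateField.mem_inf]
    refine ⟨IntermediateField.subset_adjoin ℚ _ (Or.inr rfl), (hRFmem _).2 ?_⟩
    refine Complex.conj_eq_iff_im.1 (conj_jfun ?_)
    have him' := congrArg Complex.im hτ
    simp [pow_two, Complex.mul_im] at him'
    nlinarith [τ.im_pos]
  have hKdeg : finrank ℚ Kj = Nat.card (Cl n) := by
    have hD : -4 * (n : ℤ) < 0 := by have := NeZero.pos n; omega
    have hu : jfun τ ∈ values (-4 * (n : ℤ)) := by
      have hdisc : disc (1, 0, (n : ℤ)) = -4 * (n : ℤ) := by simp [disc]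
      rw [← hdisc]
      exact jfun_mem_values one_pos (by rw [hdisc]; exact hD) (by simp)
        (by simp [FA.Singular.IsRoot, hτ])
    rw [hKj, IntermediateField.adjoin.finrank (isIntegral_values hD hu).tower_top,
      natDegree_minpoly hD hu, ncard_red_eq]
  have h1 := IntermediateField.finrank_dvd_of_le_right hle
  have h2 := IntermediateField.finrank_dvd_of_le_right (inf_le_left : Lc ⊓ RF ≤ Lc)
  rw [hKdeg] at h1
  rw [hdeg] at h2
  obtain ⟨k, hk⟩ := h1
  rw [hk, mul_comm 2] at h2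
  have hk2 : k ∣ 2 := Nat.dvd_of_mul_dvd_mul_left hh h2
  rcases (Nat.dvd_prime Nat.prime_two).1 hk2 with rfl | rfl
  · rw [IntermediateField.eq_of_le_of_finrank_eq hle (by rw [hk, hKdeg, mul_one])]
    exact IntermediateField.mem_inf.2 ⟨hx, (hRFmem _).2 him⟩
  · exfalso
    have heq := IntermediateField.eq_of_le_of_finrank_eq (inf_le_left : Lc ⊓ RF ≤ Lc)
      (by rw [hk, hdeg, mul_comm])
    have hτL : (τ : ℂ) ∈ Lc := IntermediateField.subset_adjoin ℚ _ (Or.inl rfl)
    rw [← heq] at hτL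
    exact τ.im_pos.ne' ((hRFmem _).1 (IntermediateField.mem_inf.1 hτL).2)

end FA.GenusField

end
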