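import Fermat.Agent.Tau.Schottky
import Mathlib.Analysis.Complex.RemovableSingularity
import Mathlib.Analysis.Complex.AbsMax
import Mathlib.Analysis.Complex.TaylorSeries
import Mathlib.Analysis.Meromorphic.Basic

/-!
# Picard's great theorem

A function holomorphic near a puncture that omits two values is bounded on a whole circle about the
puncture as soon as it is bounded at one point of it, by Schottky's theorem; so it has no essential
singularity.
-/

set_option autoImplicit false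

noncomputable section

namespace FA.GreatPicard

open Filter Metric Bornology
open Complex (I)
open scoped Topology Real

variable {f : ℂ → ℂ} {z₀ : ℂ}

/-- A bound at one point spreads to the whole circle through it. -/
theorem exists_circle_bound {a b : ℂ} (hab : a ≠ b) (B : ℝ) :
    ∃ M : ℝ, ∀ (g : ℂ → ℂ) (c : ℂ) (r : ℝ), (∀ z ∈ ball c r, z ≠ c → DifferentiableAt ℂ g z) →
      (∀ z ∈ ball c r, z ≠ c → g z ≠ a ∧ g z ≠ b) → ∀ z, z ≠ c →
      ‖z - c‖ * Real.exp (4 * π) < r → ‖g z‖ ≤ B → ∀ w, ‖w - c‖ = ‖z - c‖ → ‖g w‖ ≤ M := by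
  obtain ⟨M, hM⟩ := Schottky.schottky hab B (θ := 1 / 2) (by norm_num)
  refine ⟨M, fun g c r hd ho z hz hr hB w hw => ?_⟩
  set p : ℂ → ℂ := fun ζ => c + (z - c) * Complex.exp (4 * π * ζ) with hp
  have hmem : ∀ ζ ∈ ball (0 : ℂ) 1, p ζ ∈ ball c r ∧ p ζ ≠ c := fun ζ hζ => by
    refine ⟨?_, fun e => mul_ne_zero (sub_ne_zero.2 hz) (Complex.exp_ne_zero _)
      (add_eq_left.1 e)⟩
    rw [mem_ball, dist_eq_norm, hp]
    simp only [add_sub_cancel_left, norm_mul, Complex.norm_exp]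
    refine lt_of_le_of_lt (mul_le_mul_of_nonneg_left (Real.exp_le_exp.2 ?_) (norm_nonneg _)) hr
    rw [mem_ball, dist_zero_right] at hζ
    simp
    nlinarith [Real.pi_pos, (abs_le.1 (Complex.abs_re_le_norm ζ)).2]
  have h := hM (g ∘ p) (fun ζ hζ => ((hd _ (hmem ζ hζ).1 (hmem ζ hζ).2).comp ζ
      (by fun_prop)).differentiableWithinAt)
    (fun ζ hζ => ho _ (hmem ζ hζ).1 (hmem ζ hζ).2) (by simpa [p] using hB)
  set u : ℂ := (w - c) / (z - c) with hu
  have hu1 : ‖u‖ = 1 := by rw [hu, norm_div, hw, div_self (norm_ne_zero_iff.2 (sub_ne_zero.2 hz))]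
  have he : Complex.exp (4 * π * (u.arg * I / (4 * π))) = u := by
    have hπ : (4 * π : ℂ) ≠ 0 := by simp [Real.pi_ne_zero]
    rw [mul_div_cancel₀ _ hπ]
    simpa [hu1] using Complex.norm_mul_exp_arg_mul_I u
  have h2 := h (u.arg * I / (4 * π)) (by
    rw [norm_div, norm_mul, Complex.norm_I, mul_one, Complex.norm_real, Real.norm_eq_abs,
      norm_mul, Complex.norm_ofNat, Complex.norm_real, Real.norm_of_nonneg Real.pi_pos.le,
      div_le_iff₀ (by positivity)]
    linarith [Complex.abs_arg_le_pi u, Real.pi_pos])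
  simp only [Function.comp_apply, hp] at h2
  rwa [he, hu, mul_div_cancel₀ _ (sub_ne_zero.2 hz), add_sub_cancel] at h2

/-- Riemann's theorem. -/
theorem meromorphicAt_of_bounded (hd : ∀ᶠ z in 𝓝[≠] z₀, DifferentiableAt ℂ f z) {M : ℝ}
    (hb : ∀ᶠ z in 𝓝[≠] z₀, ‖f z‖ ≤ M) : MeromorphicAt f z₀ := by
  classical
  have hb' : IsBoundedUnder (· ≤ ·) (𝓝[≠] z₀) fun z => ‖f z - f z₀‖ :=
    ⟨M + ‖f z₀‖, eventually_map.2 (hb.mono fun z hz => norm_sub_le_of_le hz le_rfl)⟩
  have ht := Complex.tendsto_limUnder_of_differentiable_on_punctured_nhds_of_bounded_under hd hb'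
  set g := Function.update f z₀ (limUnder (𝓝[≠] z₀) f) with hg
  have hev : ∀ᶠ z in 𝓝[≠] z₀, g z = f z :=
    eventually_mem_nhdsWithin.mono fun z hz => Function.update_of_ne hz _ _
  have han : AnalyticAt ℂ g z₀ :=
    Complex.analyticAt_of_differentiable_on_punctured_nhds_of_continuousAt
      ((hd.and eventually_mem_nhdsWithin).mono fun z hz =>
        hz.1.congr_of_eventuallyEq (eventually_of_mem (isOpen_compl_singleton.mem_nhds hz.2)
          fun x hx => Function.update_of_ne hx _ _))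
      (continuousAt_update_same.2 ht)
  exact han.meromorphicAt.congr hev

/-- **Picard's great theorem.** -/
theorem great_picard {a b : ℂ} (hab : a ≠ b) (hd : ∀ᶠ z in 𝓝[≠] z₀, DifferentiableAt ℂ f z)
    (ha : ∀ᶠ z in 𝓝[≠] z₀, f z ≠ a) (hb : ∀ᶠ z in 𝓝[≠] z₀, f z ≠ b) :
    MeromorphicAt f z₀ := by
  by_cases hT : ∀ B : ℝ, ∀ᶠ z in 𝓝[≠] z₀, B < ‖f z‖
  · have h1 : ∀ᶠ z in 𝓝[≠] z₀, ‖(f z - a)⁻¹‖ ≤ 1 := by
      filter_upwards [hT (‖a‖ + 1)] with z hz
      rw [norm_inv]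
      exact inv_le_one_of_one_le₀ (by linarith [norm_le_norm_sub_add (f z) a])
    have h2 := (meromorphicAt_of_bounded (f := fun z => (f z - a)⁻¹)
      ((hd.and ha).mono fun z hz => (hz.1.sub_const a).inv (sub_ne_zero.2 hz.2)) h1).inv.add
        (MeromorphicAt.const a z₀)
    exact h2.congr (Eventually.of_forall fun z => by simp)
  push Not at hT
  obtain ⟨B, hB⟩ := hT
  obtain ⟨r, hr, hsub⟩ := (nhdsWithin_hasBasis nhds_basis_ball _).mem_iff.1
    (hd.and (ha.and hb))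
  obtain ⟨M, hM⟩ := exists_circle_bound hab B
  set δ := r / Real.exp (4 * π) with hδ
  have hδ0 : 0 < δ := div_pos hr (Real.exp_pos _)
  have hδr : δ ≤ r := div_le_self hr.le (Real.one_le_exp (by positivity))
  have pick : ∀ ρ > 0, ∃ z, z ≠ z₀ ∧ ‖z - z₀‖ < ρ ∧ ‖f z‖ ≤ B := fun ρ hρ => by
    obtain ⟨z, h1, h2, h3⟩ := (hB.and_eventually (eventually_mem_nhdsWithin.and
      (mem_nhdsWithin_of_mem_nhds (ball_mem_nhds z₀ hρ)))).exists
    exact ⟨z, h2, mem_ball_iff_norm.1 h3, h1⟩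
  have circle : ∀ z, z ≠ z₀ → ‖z - z₀‖ < δ → ‖f z‖ ≤ B →
      ∀ w, ‖w - z₀‖ = ‖z - z₀‖ → ‖f w‖ ≤ M := fun z hz hzδ hzB =>
    hM f z₀ r (fun u hu hu0 => (hsub ⟨hu, hu0⟩).1) (fun u hu hu0 => (hsub ⟨hu, hu0⟩).2) z hz
      ((lt_div_iff₀ (Real.exp_pos _)).1 hzδ) hzB
  obtain ⟨z₁, hz₁, hz₁δ, hz₁B⟩ := pick δ hδ0
  have hρ : 0 < ‖z₁ - z₀‖ := norm_pos_iff.2 (sub_ne_zero.2 hz₁)
  refine meromorphicAt_of_bounded hd (M := M) (eventually_nhdsWithin_iff.2 ?_)
  filter_upwards [ball_mem_nhds z₀ hρ] with z hz hz0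
  rw [mem_ball_iff_norm] at hz
  obtain ⟨z₂, hz₂, hz₂ρ, hz₂B⟩ := pick ‖z - z₀‖ (norm_pos_iff.2 (sub_ne_zero.2 hz0))
  set U := ball z₀ ‖z₁ - z₀‖ \ closedBall z₀ ‖z₂ - z₀‖ with hU
  have hUcl : closure U ⊆ closedBall z₀ ‖z₁ - z₀‖ \ ball z₀ ‖z₂ - z₀‖ :=
    closure_minimal (Set.sdiff_subset_sdiff ball_subset_closedBall ball_subset_closedBall)
      (isClosed_closedBall.sdiff isOpen_ball)
  have hdiff : DifferentiableOn ℂ f (closure U) := fun u hu => by
    obtain ⟨h1, h2⟩ := hUcl hu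
    rw [mem_closedBall_iff_norm] at h1
    rw [mem_ball_iff_norm, not_lt] at h2
    refine (hsub ⟨mem_ball_iff_norm.2 (by linarith), fun e : u = z₀ => ?_⟩).1.differentiableWithinAt
    rw [e, sub_self, norm_zero] at h2
    exact hz₂ (sub_eq_zero.1 (norm_le_zero_iff.1 h2))
  refine Complex.norm_le_of_forall_mem_frontier_norm_le (U := U)
    (isBounded_ball.subset Set.sdiff_subset) hdiff.diffContOnCl (fun u hu => ?_)
    (subset_closure ⟨mem_ball_iff_norm.2 hz, fun h => (mem_closedBall_iff_norm.1 h).not_gt hz₂ρ⟩)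
  rw [frontier, (isOpen_ball.sdiff isClosed_closedBall).interior_eq] at hu
  obtain ⟨h1, h2⟩ := hUcl hu.1
  rw [mem_closedBall_iff_norm] at h1
  rw [mem_ball_iff_norm, not_lt] at h2
  rcases h1.lt_or_eq with h3 | h3
  · refine circle z₂ hz₂ (by linarith) hz₂B u (le_antisymm (le_of_not_gt fun h4 => hu.2 ?_) h2)
    exact ⟨mem_ball_iff_norm.2 h3, fun h => (mem_closedBall_iff_norm.1 h).not_gt h4⟩
  · exact circle z₁ hz₁ hz₁δ hz₁B u h3

/-- The values taken only finitely often near an essential singularity are at most one. -/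
theorem essential_values (hd : ∀ᶠ z in 𝓝[≠] z₀, DifferentiableAt ℂ f z)
    (hf : ¬MeromorphicAt f z₀) :
    {b | ∃ U ∈ 𝓝 z₀, {z | z ∈ U ∧ f z = b}.Finite}.Subsingleton := by
  intro a ⟨U, hU, hUf⟩ b ⟨V, hV, hVf⟩
  by_contra hab
  have key : ∀ {c : ℂ} {W : Set ℂ}, W ∈ 𝓝 z₀ → {z | z ∈ W ∧ f z = c}.Finite →
      ∀ᶠ z in 𝓝[≠] z₀, f z ≠ c := fun {c W} hW hfin => by
    have := (hfin.subset (Set.sdiff_subset (t := {z₀}))).isClosed.compl_mem_nhds
      (fun h => h.2 rfl)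
    filter_upwards [mem_nhdsWithin_of_mem_nhds hW, mem_nhdsWithin_of_mem_nhds this,
      self_mem_nhdsWithin] with z h1 h2 h3 h4
    exact h2 ⟨⟨h1, h4⟩, h3⟩
  exact hf (great_picard hab hd (key hU hUf) (key hV hVf))

/-- An entire function of polynomial growth is a polynomial. -/
theorem exists_polynomial (hf : Differentiable ℂ f) {n : ℕ} {C R : ℝ}
    (h : ∀ z, R < ‖z‖ → ‖f z‖ ≤ C * ‖z‖ ^ n) : ∃ P : Polynomial ℂ, ∀ z, f z = P.eval z := by
  have hzero : ∀ m, n < m → iteratedDeriv m f 0 = 0 := fun m hm => by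
    have hlim : Tendsto (fun x : ℝ => m.factorial * C / x ^ (m - n)) atTop (𝓝 0) :=
      tendsto_const_nhds.div_atTop (tendsto_pow_atTop (by omega))
    refine norm_le_zero_iff.1 (ge_of_tendsto hlim ?_)
    filter_upwards [eventually_gt_atTop R, eventually_gt_atTop 0] with x hxR hx
    refine (Complex.norm_iteratedDeriv_le_of_forall_mem_sphere_norm_le m hx hf.diffContOnCl
      (C := C * x ^ n) fun z hz => ?_).trans_eq ?_
    · rw [mem_sphere_zero_iff_norm] at hz
      rw [← hz]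
      exact h z (hz ▸ hxR)
    · obtain ⟨k, rfl⟩ := Nat.exists_eq_add_of_le hm.le
      rw [Nat.add_sub_cancel_left, pow_add]
      field_simp
  refine ⟨∑ i ∈ Finset.range (n + 1),
    Polynomial.monomial i ((i.factorial : ℂ)⁻¹ * iteratedDeriv i f 0), fun z => ?_⟩
  rw [← Complex.taylorSeries_eq_of_entire' (c := 0) (z := z) hf, Polynomial.eval_finsetSum,
    tsum_eq_sum (s := Finset.range (n + 1))
      fun i hi => by rw [hzero i (by simp at hi; omega)]; simp]
  simp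

/-- An entire function that is not a polynomial takes all values but one infinitely often. -/
theorem entire_values (hf : Differentiable ℂ f) (hP : ¬∃ P : Polynomial ℂ, ∀ z, f z = P.eval z) :
    {b | (f ⁻¹' {b}).Finite}.Subsingleton := by
  intro a ha b hb
  by_contra hab
  have key : ∀ {c : ℂ}, (f ⁻¹' {c}).Finite → ∀ᶠ z in 𝓝[≠] (0 : ℂ), f z⁻¹ ≠ c := fun {c} hc => by
    have h : ∀ᶠ w in cobounded ℂ, f w ≠ c :=
      mem_of_superset (isBounded_def.1 hc.isBounded) fun w hw => hw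
    exact tendsto_inv₀_nhdsNE_zero.eventually h
  obtain ⟨n, hn⟩ := great_picard (f := fun z => f z⁻¹) hab
    (eventually_mem_nhdsWithin.mono fun z hz => (hf _).comp z (differentiableAt_inv hz))
    (key ha) (key hb)
  simp only [sub_zero, smul_eq_mul] at hn
  obtain ⟨C, hC⟩ : ∃ C, ∀ᶠ z in 𝓝 (0 : ℂ), ‖z ^ n * f z⁻¹‖ ≤ C :=
    ⟨_, hn.continuousAt.norm.eventually_le_const (lt_add_one _)⟩
  obtain ⟨s, hs, hs'⟩ := eventually_nhds_iff_ball.1 hC
  refine hP (exists_polynomial hf (n := n) (C := C) (R := s⁻¹) fun w hw => ?_)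
  have hw0 : 0 < ‖w‖ := (inv_pos.2 hs).trans hw
  have := hs' w⁻¹ (by rw [mem_ball_zero_iff, norm_inv]; exact inv_lt_of_inv_lt₀ hs hw)
  rwa [inv_inv, norm_mul, norm_pow, norm_inv, inv_pow, ← div_eq_inv_mul,
    div_le_iff₀ (by positivity)] at this

/-- A holomorphic function with meromorphic power is meromorphic. -/
theorem meromorphicAt_of_pow {g h : ℂ → ℂ} {n : ℕ} (hn : n ≠ 0)
    (hd : ∀ᶠ z in 𝓝[≠] z₀, DifferentiableAt ℂ g z) (hh : MeromorphicAt h z₀)
    (he : ∀ᶠ z in 𝓝[≠] z₀, g z ^ n = h z) : MeromorphicAt g z₀ := by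
  obtain ⟨k, hk⟩ := hh
  have hC := hk.continuousAt.norm.eventually_le_const (lt_add_one _)
  set C := ‖(z₀ - z₀) ^ k • h z₀‖ + 1
  have hm : MeromorphicAt (fun z => (z - z₀) ^ k * g z) z₀ := by
    refine meromorphicAt_of_bounded (M := max 1 C)
      (hd.mono fun z hz => by fun_prop) ?_
    filter_upwards [he, mem_nhdsWithin_of_mem_nhds hC,
      mem_nhdsWithin_of_mem_nhds (closedBall_mem_nhds z₀ one_pos)] with z h1 h2 h3
    rw [mem_closedBall_iff_norm] at h3
    by_contra hlt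
    rw [not_le, max_lt_iff] at hlt
    rw [norm_smul, norm_pow, ← h1, norm_pow] at h2
    rw [norm_mul, norm_pow] at hlt
    refine (h2.trans_lt hlt.2).not_ge ((le_self_pow₀ hlt.1.le hn).trans ?_)
    rw [mul_pow]
    refine mul_le_mul_of_nonneg_right ?_ (by positivity)
    exact pow_le_of_le_one (by positivity) (pow_le_one₀ (norm_nonneg _) h3) hn
  refine (hm.div (((MeromorphicAt.id z₀).sub (.const z₀ z₀)).pow k)).congr ?_
  filter_upwards [self_mem_nhdsWithin] with z hz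
  simp [mul_div_cancel_left₀ _ (pow_ne_zero k (sub_ne_zero.2 hz))]

/-- Fermat's equation near a puncture. -/
theorem fermat_puncture {n : ℕ} (hn : 3 ≤ n) {g : ℂ → ℂ}
    (hf : ∀ᶠ z in 𝓝[≠] z₀, DifferentiableAt ℂ f z) (hg : ∀ᶠ z in 𝓝[≠] z₀, DifferentiableAt ℂ g z)
    (h : ∀ᶠ z in 𝓝[≠] z₀, f z ^ n + g z ^ n = 1) :
    MeromorphicAt f z₀ ∧ MeromorphicAt g z₀ := by
  have hn0 : n ≠ 0 := by omega
  obtain ⟨e, he⟩ := IsAlgClosed.exists_pow_nat_eq (-1 : ℂ) (Nat.pos_of_ne_zero hn0)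
  have he0 : e ≠ 0 := fun e0 => by rw [e0, zero_pow hn0] at he; norm_num at he
  have hω := Complex.isPrimitiveRoot_exp n hn0
  set ω := Complex.exp (2 * π * I / n)
  let c : ℕ → ℂ := fun k => e * ω ^ k
  have hc : ∀ k, ∀ᶠ z in 𝓝[≠] z₀, f z - c k * g z ≠ 0 := fun k => h.mono fun z hz e' => by
    rw [sub_eq_zero.1 e', mul_pow, mul_pow, ← pow_mul, mul_comm k n, pow_mul, hω.pow_eq_one,
      he, one_pow] at hz
    simp at hz
  have hne : ∀ i j, i < 3 → j < 3 → i ≠ j → c i - c j ≠ 0 := fun i j hi hj hij =>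
    sub_ne_zero.2 fun e' => hij (hω.pow_inj (by omega) (by omega) (mul_left_cancel₀ he0 e'))
  have h20 := hne 2 0 (by omega) (by omega) (by omega)
  have h21 := hne 2 1 (by omega) (by omega) (by omega)
  have h01 := hne 0 1 (by omega) (by omega) (by omega)
  set u : ℂ → ℂ := fun z => (f z - c 0 * g z) / (f z - c 1 * g z) with hu
  have hmu : MeromorphicAt u z₀ := by
    refine great_picard (a := 0) (b := (c 2 - c 0) / (c 2 - c 1)) (div_ne_zero h20 h21).symm
      ?_ ?_ ?_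
    · filter_upwards [hf, hg, hc 1] with z h1 h2 h3
      fun_prop (disch := assumption)
    · filter_upwards [hc 0, hc 1] with z h1 h2 using div_ne_zero h1 h2
    · filter_upwards [hc 1, hc 2] with z h1 h2 e'
      rw [hu, div_eq_div_iff h1 h21] at e'
      refine mul_ne_zero h2 h01 ?_
      linear_combination e'
  have hpow : MeromorphicAt (fun z => (1 - u z) ^ n / ((c 0 - u z * c 1) ^ n + (1 - u z) ^ n))
      z₀ := by fun_prop
  have hgm : MeromorphicAt g z₀ := meromorphicAt_of_pow hn0 hg hpow <| by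
    filter_upwards [h, hc 1] with z h1 h2
    have key : (1 - u z) * f z = (c 0 - u z * c 1) * g z := by
      have : u z * (f z - c 1 * g z) = f z - c 0 * g z := div_mul_cancel₀ _ h2
      linear_combination -this
    have key' : (1 - u z) ^ n = ((c 0 - u z * c 1) ^ n + (1 - u z) ^ n) * g z ^ n := by
      rw [add_mul, ← mul_pow, ← key, mul_pow]
      linear_combination (1 - u z) ^ n * h1.symm
    have hD : (c 0 - u z * c 1) ^ n + (1 - u z) ^ n ≠ 0 := fun hD => by
      have h0 : 1 - u z = 0 := pow_eq_zero_iff hn0 |>.1 (by rw [key', hD, zero_mul])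
      rw [h0, zero_pow hn0, add_zero, ← sub_eq_zero.1 h0, one_mul] at hD
      exact h01 ((pow_eq_zero_iff hn0).1 hD)
    rw [eq_div_iff hD, mul_comm, ← key']
  refine ⟨meromorphicAt_of_pow hn0 hf ((MeromorphicAt.const (1 : ℂ) z₀).sub (hgm.pow n))
    (h.mono fun z hz => ?_), hgm⟩
  simp [← hz]

end FA.GreatPicard

end
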