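import Fermat.Agent.Tau.ContractionModP

/-!
# Hecke operators on forms modulo `p`

In weight `k` the operator `T_l` reads `a(n l) + l^(k - 1) a(n / l)`; modulo `p` the power is
`l^(k + p - 2)`, which depends on `k` modulo `p - 1` only.
-/

set_option autoImplicit false

noncomputable section

open PowerSeries (coeff)
open CongruenceSubgroup UpperHalfPlane
open scoped MatrixGroups

namespace FA.SwinnertonDyer

variable {p : ℕ}

variable (p) in
/-- The Hecke operator `T_l` in weight `k`, modulo `p`. -/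
def tOp (k l : ℕ) : PowerSeries (ZMod p) →ₗ[ZMod p] PowerSeries (ZMod p) where
  toFun f := PowerSeries.mk fun m =>
    coeff (m * l) f + if l ∣ m then (l : ZMod p) ^ (k + (p - 2)) * coeff (m / l) f else 0
  map_add' f g := by
    ext m
    simp only [PowerSeries.coeff_mk, map_add]
    split_ifs <;> ring
  map_smul' c f := by
    ext m
    simp only [PowerSeries.coeff_mk, map_smul, smul_eq_mul, RingHom.id_apply]
    split_ifs <;> ring

theorem coeff_tOp (k l m : ℕ) (f : PowerSeries (ZMod p)) : coeff m (tOp p k l f) =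
    coeff (m * l) f + if l ∣ m then (l : ZMod p) ^ (k + (p - 2)) * coeff (m / l) f else 0 := by
  simp [tOp]

variable [Fact p.Prime]

theorem natCast_prime_ne {l : ℕ} (hl : l.Prime) (hlp : l ≠ p) : (l : ZMod p) ≠ 0 := fun e =>
  hlp ((Nat.prime_dvd_prime_iff_eq Fact.out hl).1 ((ZMod.natCast_eq_zero_iff l p).1 e)).symm

theorem tOp_congr {k k' l : ℕ} (hl : l.Prime) (hlp : l ≠ p) (h : k ≡ k' [MOD p - 1])
    (f : PowerSeries (ZMod p)) : tOp p k l f = tOp p k' l f := by
  ext m
  rw [coeff_tOp, coeff_tOp, pow_eq_pow_of_modEq (h.add_right (p - 2))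
    (ZMod.pow_card_sub_one_eq_one (natCast_prime_ne hl hlp))]

/-- `T_l` commutes with `T_m`. -/
theorem tOp_comm (k : ℕ) {l m : ℕ} (hl : l.Prime) (hm : m.Prime) (f : PowerSeries (ZMod p)) :
    tOp p k l (tOp p k m f) = tOp p k m (tOp p k l f) := by
  rcases eq_or_ne l m with rfl | hne
  · rfl
  have hco : l.Coprime m := (Nat.coprime_primes hl hm).2 hne
  ext n
  simp only [coeff_tOp]
  have h1 : m ∣ n * l ↔ m ∣ n := hco.symm.dvd_mul_right
  have h2 : l ∣ n * m ↔ l ∣ n := hco.dvd_mul_right
  by_cases hln : l ∣ n <;> by_cases hmn : m ∣ n <;> simp only [hln, hmn, h1, h2, if_true, if_false]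
  · obtain ⟨i, rfl⟩ := (hco.mul_dvd_of_dvd_of_dvd hln hmn)
    have e1 : l * m * i / m = l * i := by
      rw [show l * m * i = m * (l * i) by ring, Nat.mul_div_cancel_left _ hm.pos]
    have e2 : l * m * i / l = m * i := by
      rw [show l * m * i = l * (m * i) by ring, Nat.mul_div_cancel_left _ hl.pos]
    have e3 : l * m * i * l / m = l * i * l := by
      rw [show l * m * i * l = m * (l * i * l) by ring, Nat.mul_div_cancel_left _ hm.pos]
    have e4 : l * m * i * m / l = m * i * m := by
      rw [show l * m * i * m = l * (m * i * m) by ring, Nat.mul_div_cancel_left _ hl.pos]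
    rw [e1, e2, e3, e4, if_pos (dvd_mul_right m i), if_pos (dvd_mul_right l i),
      Nat.mul_div_cancel_left _ hm.pos, Nat.mul_div_cancel_left _ hl.pos,
      show l * m * i * l * m = l * m * i * m * l by ring]
    ring
  · obtain ⟨i, rfl⟩ := hln
    have hi : ¬m ∣ i := fun h => hmn (h.mul_left l)
    rw [Nat.mul_div_cancel_left _ hl.pos, if_neg hi,
      show l * i * m / l = i * m by rw [mul_assoc, Nat.mul_div_cancel_left _ hl.pos],
      show l * i * l * m = l * i * m * l by ring]
    ring
  · obtain ⟨i, rfl⟩ := hmn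
    have hi : ¬l ∣ i := fun h => hln (h.mul_left m)
    rw [Nat.mul_div_cancel_left _ hm.pos, if_neg hi,
      show m * i * l / m = i * l by rw [mul_assoc, Nat.mul_div_cancel_left _ hm.pos],
      show m * i * m * l = m * i * l * m by ring]
    ring
  · rw [mul_right_comm n l m]

/-- `T_l` commutes with `U`. -/
theorem tOp_uOp (k : ℕ) {l : ℕ} (hl : l.Prime) (hlp : l ≠ p) (f : PowerSeries (ZMod p)) :
    tOp p k l (uOp p f) = uOp p (tOp p k l f) := by
  have hco : l.Coprime p := (Nat.coprime_primes hl Fact.out).2 hlp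
  ext n
  simp only [coeff_tOp, uOp, PowerSeries.coeff_mk]
  rw [mul_right_comm n l p]
  congr 1
  by_cases hln : l ∣ n
  · obtain ⟨i, rfl⟩ := hln
    rw [if_pos (dvd_mul_right l i), if_pos (Dvd.intro (i * p) (mul_assoc l i p).symm),
      Nat.mul_div_cancel_left _ hl.pos, mul_assoc l i p, Nat.mul_div_cancel_left _ hl.pos]
  · rw [if_neg hln, if_neg fun h => hln (hco.dvd_mul_right.1 h)]

/-- `θ` twists `T_l` by `l`. -/
theorem tOp_thetaP {k l : ℕ} (hl : l.Prime) (f : PowerSeries (ZMod p)) :
    tOp p (k + p + 1) l (thetaP p f) = (l : ZMod p) • thetaP p (tOp p k l f) := by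
  have hc : ∀ (g : PowerSeries (ZMod p)) (m : ℕ), coeff m (thetaP p g) =
      (m : ZMod p) * coeff m g := fun g m => FA.Partition.coeff_thetaMod g m
  ext n
  rw [map_smul, smul_eq_mul, hc, coeff_tOp, coeff_tOp, hc, hc]
  by_cases hln : l ∣ n
  · obtain ⟨i, rfl⟩ := hln
    rw [if_pos (dvd_mul_right l i), if_pos (dvd_mul_right l i), Nat.mul_div_cancel_left _ hl.pos,
      show k + p + 1 + (p - 2) = k + (p - 2) + p + 1 by omega, pow_succ, pow_add, ZMod.pow_card]
    push_cast
    ring
  · rw [if_neg hln, if_neg hln]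
    push_cast
    ring

/-- `T_l` preserves the forms of weight `k`. -/
theorem IsFormModP.tOp (h5 : 5 ≤ p) {k l : ℕ} (hl : l.Prime) (hlp : l ≠ p)
    {f : PowerSeries (ZMod p)} (h : IsFormModP p k f) : IsFormModP p k (tOp p k l f) := by
  rcases lt_or_ge k 2 with hk | hk
  · obtain ⟨F, hF, rfl⟩ := h.exists_isob h5
    rcases (show k = 0 ∨ k = 1 by omega) with rfl | rfl
    · set e := MvPolynomial.eval (fun _ => (1 : ZMod p)) F
      rw [isob_zero_eq_C hF, show phi p (MvPolynomial.C e) = PowerSeries.C e by simp [phi]]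
      have h1 : SwinnertonDyer.tOp p 0 l (PowerSeries.C e) =
          phi p (MvPolynomial.C ((1 + (l : ZMod p) ^ (p - 2)) * e)) := by
        rw [show phi p (MvPolynomial.C ((1 + (l : ZMod p) ^ (p - 2)) * e)) =
          PowerSeries.C ((1 + (l : ZMod p) ^ (p - 2)) * e) by simp [phi]]
        ext n
        rw [coeff_tOp, PowerSeries.coeff_C, PowerSeries.coeff_C, PowerSeries.coeff_C, zero_add]
        rcases eq_or_ne n 0 with rfl | hn
        · simp only [zero_mul, dvd_zero, if_true, Nat.zero_div]
          ring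
        · rw [if_neg (Nat.mul_ne_zero hn hl.ne_zero), if_neg hn]
          split_ifs with h1 h2 <;> simp
          exact absurd ((Nat.div_eq_zero_iff).1 h2) (by
            rintro (h | h)
            · exact hl.ne_zero h
            · exact absurd (Nat.le_of_dvd (Nat.pos_of_ne_zero hn) h1) (by omega))
      rw [h1]
      exact isFormModP_phi (MvPolynomial.isWeightedHomogeneous_C _ _)
    · have : F = 0 := MvPolynomial.ext _ _ fun d => by
        rw [MvPolynomial.coeff_zero, hF.coeff_eq_zero d (by rw [weight_eq]; omega)]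
      rw [this, map_zero, map_zero]
      exact ⟨0, 0, by simp [qExpansion_zero], by simp⟩
  obtain ⟨G, T, hG, hT⟩ := h
  set G₁ : ModularForm (Gamma0 1) (k : ℤ) := ModularForm.mcast rfl G FA.EisCong.gamma0_one_coe
  set g := ModularForm.heckeTLin (k : ℤ) hl hl.not_dvd_one G₁ with hg
  refine ⟨ModularForm.mcast rfl g FA.EisCong.gamma0_one_coe.symm, PowerSeries.mk fun m =>
    coeff (m * l) T + if l ∣ m then (l : ℤ) ^ (k - 1) * coeff (m / l) T else 0, ?_, ?_⟩
  · have hq : ∀ m, ModularFormClass.qCoeff G₁ m = ((coeff m T : ℤ) : ℂ) := fun m => by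
      show (qExpansion 1 ⇑G).coeff m = _
      rw [hG, PowerSeries.coeff_map, eq_intCast]
    ext m
    show ModularFormClass.qCoeff (ModularForm.heckeT (k : ℤ) l ⇑G₁) m = _
    rw [ModularFormClass.qCoeff_heckeT G₁ (one_mem_strictPeriods_Gamma0 1) hl.ne_zero,
      ModularForm.coeffHeckeT_apply, hq, hq, PowerSeries.coeff_map, PowerSeries.coeff_mk,
      eq_intCast, show ((l : ℂ) ^ ((k : ℤ) - 1)) = (l : ℂ) ^ (k - 1) by
        rw [← zpow_natCast, Nat.cast_sub (by omega), Nat.cast_one]]
    split_ifs <;> push_cast <;> ring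
  · ext m
    rw [PowerSeries.coeff_map, PowerSeries.coeff_mk, coeff_tOp, ← hT, PowerSeries.coeff_map,
      PowerSeries.coeff_map, map_add, show k + (p - 2) = k - 1 + (p - 1) by omega, pow_add,
      ZMod.pow_card_sub_one_eq_one (natCast_prime_ne hl hlp), mul_one]
    split_ifs
    · rw [map_mul, map_pow, map_natCast]
    · rw [map_zero]

end FA.SwinnertonDyer

end
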