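import Fermat.Agent.Tau.DeltaBasis
import Fermat.Agent.Tau.HatadaTop
import Fermat.Agent.Tau.HeckeModP
import Mathlib.Algebra.CharP.Invertible

/-!
# Hatada's theorem

Modulo `2` and `3` the forms of level one are the polynomials in `Δ`, and `T_l - (1 + l)` lowers
the degree: the top coefficient of `T_l (Δ^i)` is read at a lattice of good supersingular reduction.
So it is nilpotent, and every eigenvalue of `T_l` is `1 + l`.
-/

set_option autoImplicit false

noncomputable section

namespace FA.Hatada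

open PowerSeries (coeff)
open UpperHalfPlane hiding I
open FA.Tau FA.Eis
open scoped MatrixGroups Manifold ModularForm

variable {p : ℕ} (hp : p = 2 ∨ p = 3)

section Top

variable {Γ : Type*} [LinearOrderedCommGroupWithZero Γ] {v : Valuation ℂ Γ}

theorem map_pow_sub_pow_lt_one {a b : ℂ} (ha : v a ≤ 1) (hb : v b ≤ 1) (h : v (a - b) < 1)
    (n : ℕ) : v (a ^ n - b ^ n) < 1 := by
  induction n with
  | zero => simp
  | succ n ih =>
    rw [show a ^ (n + 1) - b ^ (n + 1) = a * (a ^ n - b ^ n) + (a - b) * b ^ n by ring]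
    refine v.map_add_lt ?_ ?_
    · rw [map_mul, mul_comm]
      exact mul_lt_one_of_lt_of_le ih ha
    · rw [map_mul, map_pow]
      exact mul_lt_one_of_lt_of_le h (pow_le_one' hb n)

include hp in
/-- A base lattice exists. -/
theorem exists_base : ∃ (O : ValuationSubring ℂ) (L : PeriodPair), IsBase O.valuation p L := by
  rcases hp with rfl | rfl
  · obtain ⟨O, hO⟩ := exists_valuation Nat.prime_two
    obtain ⟨L, h2, h3⟩ := FA.JInj.exists_g₂_g₃ (a := 0) (b := -1) (by norm_num)
    exact ⟨O, L, isBase_two hO h2 h3⟩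
  · obtain ⟨O, hO⟩ := exists_valuation Nat.prime_three
    obtain ⟨L, h2, h3⟩ := FA.JInj.exists_g₂_g₃ (a := 4) (b := 0) (by norm_num)
    exact ⟨O, L, isBase_three hO h2 h3⟩

/-- The integral series of `T_l (Δ^i)` in weight `12 i`. -/
def heckeDelta (l i : ℕ) : PowerSeries ℤ :=
  PowerSeries.mk fun m => coeff (m * l) (deltaInt ^ i) +
    if l ∣ m then (l : ℤ) ^ (12 * i - 1) * coeff (m / l) (deltaInt ^ i) else 0

include hp in
/-- **The top coefficient of `T_l (Δ^i)`** is `1 + l` modulo `p`. -/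
theorem exists_hecke_delta {l : ℕ} (hl : l.Prime) (hlp : l ≠ p) {i : ℕ} (hi : 1 ≤ i) :
    ∃ b : ℕ → ℤ, (p : ℤ) ∣ b i - ((l : ℤ) + 1) ∧ heckeDelta l i =
      ∑ j ∈ Finset.range (i + 1), PowerSeries.C (b j) * basisInt i j := by
  have hpp : p.Prime := by rcases hp with rfl | rfl <;> norm_num
  have hinvD : ∀ γ : SL(2, ℤ), (ModularForm.discriminant ^ i : ℍ → ℂ) ∣[((12 * i : ℕ) : ℤ)] γ =
      ModularForm.discriminant ^ i := fun γ => by
    simpa using slash_eFour_pow_mul_delta (le_refl i) γ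
  have hqD : HasQ 1 (ModularForm.discriminant ^ i)
      ((deltaInt ^ i).map (Int.castRingHom ℂ)) := by
    rw [map_pow]
    exact hasQ_discriminant.pow one_pos i
  set G := FA.ModField.levelOneForm _ hinvD (hqD.mdiff one_pos) (hqD.bdd one_pos)
  set G₁ : ModularForm (CongruenceSubgroup.Gamma0 1) ((12 * i : ℕ) : ℤ) :=
    ModularForm.mcast rfl G FA.EisCong.gamma0_one_coe
  set g := ModularForm.heckeTLin ((12 * i : ℕ) : ℤ) hl hl.not_dvd_one G₁
  set H := ModularForm.mcast rfl g FA.EisCong.gamma0_one_coe.symm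
  have hH : HasQ 1 ⇑H ((heckeDelta l i).map (Int.castRingHom ℂ)) := by
    have hc : ∀ m, ModularFormClass.qCoeff G₁ m = ((coeff m (deltaInt ^ i) : ℤ) : ℂ) := fun m => by
      show (qExpansion 1 (ModularForm.discriminant ^ i : ℍ → ℂ)).coeff m = _
      rw [hqD.qExpansion_eq one_pos, PowerSeries.coeff_map, eq_intCast]
    rw [show (heckeDelta l i).map (Int.castRingHom ℂ) = qExpansion 1 ⇑H from PowerSeries.ext
      fun m => by
        show _ = ModularFormClass.qCoeff (ModularForm.heckeT ((12 * i : ℕ) : ℤ) l ⇑G₁) m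
        rw [ModularFormClass.qCoeff_heckeT G₁ (CongruenceSubgroup.one_mem_strictPeriods_Gamma0 1)
            hl.ne_zero,
          ModularForm.coeffHeckeT_apply, hc, hc, PowerSeries.coeff_map, heckeDelta,
          PowerSeries.coeff_mk, eq_intCast,
          show ((12 * i : ℕ) : ℤ) - 1 = ((12 * i - 1 : ℕ) : ℤ) by omega, zpow_natCast]
        split_ifs <;> push_cast <;> ring]
    exact hasQ_form H
  obtain ⟨b, hb, hbS⟩ := exists_delta_expansion (ι := Int.castRingHom ℂ) Int.cast_injective i ⇑H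
    (heckeDelta l i) (fun γ => H.slash_action_eq' _ ⟨γ, rfl⟩) hH
  refine ⟨b, ?_, hbS.trans (Finset.sum_congr rfl fun j _ => ?_)⟩
  swap
  · congr 1
  -- evaluation at the base lattice
  obtain ⟨O, L, hL⟩ := exists_base hp
  set v := O.valuation
  obtain ⟨τ, K, M, w, hsup, hK4, hKd, hKT⟩ := exists_hecke_eval L hl
  have hv := hL.lt_one
  have hd : v (discr L) ≤ 1 := by
    rw [show discr L = (discr L - 1) + 1 by ring]
    exact v.map_add_le hL.discr_unit.le v.map_one.le
  have hpl : (p : ℤ) ∣ 1728 := by rcases hp with rfl | rfl <;> norm_num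
  have hlow : v (∑ j ∈ Finset.range i,
      (b j : ℂ) * ((1728 * L.g₂ ^ 3) ^ (i - j) * discr L ^ j)) < 1 := by
    refine v.map_sum_lt one_ne_zero fun j hj => ?_
    rw [Finset.mem_range] at hj
    refine lt_of_le_of_lt (map_intCast_mul_le v _ _) ?_
    rw [map_mul, map_pow, map_pow]
    refine mul_lt_one_of_lt_of_le (pow_lt_one' ?_ (by omega)) (pow_le_one' hd j)
    exact map_sum_mul_lt_one hv hpl (by rw [map_pow]; exact pow_le_one' hL.g₂_int 3)
  have hval : (l : ℂ)⁻¹ * ∑ j ∈ Finset.range (l + 1), discr (M j) ^ i =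
      (∑ j ∈ Finset.range i, (b j : ℂ) * ((1728 * L.g₂ ^ 3) ^ (i - j) * discr L ^ j)) +
        (b i : ℂ) * discr L ^ i := by
    rw [← hKT i hi, show ModularForm.heckeT ((12 * i : ℕ) : ℤ) l (ModularForm.discriminant ^ i) τ =
      H τ from rfl, hb, Finset.sum_apply, Finset.mul_sum, Finset.sum_range_succ]
    refine congrArg₂ _ (Finset.sum_congr rfl fun j hj => ?_) ?_
    · obtain ⟨e, rfl⟩ := Nat.exists_eq_add_of_le (Finset.mem_range.1 hj).le
      simp only [Pi.smul_apply, Pi.mul_apply, Pi.pow_apply, smul_eq_mul, eq_intCast,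
        Nat.add_sub_cancel_left]
      rw [← hK4, ← hKd]
      ring
    · simp only [Pi.smul_apply, Pi.mul_apply, Pi.pow_apply, smul_eq_mul, eq_intCast, Nat.sub_self]
      rw [← hKd]
      ring
  have hl0 : (l : ℂ) ≠ 0 := Nat.cast_ne_zero.2 hl.ne_zero
  rw [inv_mul_eq_iff_eq_mul₀ hl0] at hval
  have hkey : v (((l : ℤ) * b i - ((l : ℤ) + 1) * (l : ℤ) ^ i : ℤ) : ℂ) < 1 := by
    have e1 : v (∑ j ∈ Finset.range (l + 1), (discr (M j) ^ i - (l : ℂ) ^ i)) < 1 :=
      v.map_sum_lt one_ne_zero fun j hj => by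
        have h := hL.super _ _ l (hsup j (Nat.lt_succ_iff.1 (Finset.mem_range.1 hj))) hlp
        refine map_pow_sub_pow_lt_one ?_ (map_natCast_le_one v l) h i
        rw [show discr (M j) = (discr (M j) - (l : ℂ)) + (l : ℂ) by ring]
        exact v.map_add_le h.le (map_natCast_le_one v l)
    have e2 : v ((((l : ℤ) * b i : ℤ) : ℂ) * (1 - discr L ^ i)) < 1 := by
      refine lt_of_le_of_lt (map_intCast_mul_le v _ _) ?_
      rw [v.map_sub_swap]
      simpa using map_pow_sub_pow_lt_one hd v.map_one.le hL.discr_unit i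
    have e3 : v ((((-l : ℤ)) : ℂ) * ∑ j ∈ Finset.range i,
        (b j : ℂ) * ((1728 * L.g₂ ^ 3) ^ (i - j) * discr L ^ j)) < 1 :=
      lt_of_le_of_lt (map_intCast_mul_le v _ _) hlow
    have hsum := v.map_add_lt e1 (v.map_add_lt e2 e3)
    rw [Finset.sum_sub_distrib, hval, Finset.sum_const, Finset.card_range, nsmul_eq_mul] at hsum
    convert hsum using 2
    push_cast
    ring
  have hdvd := dvd_of_map_intCast_lt_one hpp hv hkey
  obtain ⟨e, rfl⟩ := Nat.exists_eq_add_of_le hi
  rw [← ZMod.intCast_zmod_eq_zero_iff_dvd] at hdvd ⊢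
  push_cast at hdvd ⊢
  have hl' : (l : ZMod p) ≠ 0 := fun h =>
    hlp ((Nat.prime_dvd_prime_iff_eq hpp hl).1 ((ZMod.natCast_eq_zero_iff l p).1 h)).symm
  have key : ∀ x : ZMod p, x ≠ 0 → x + 1 = 0 ∨ x = 1 := by
    rcases hp with rfl | rfl <;> decide
  have h := sub_eq_zero.1 hdvd
  rw [sub_eq_zero]
  have := Fact.mk hpp
  refine mul_left_cancel₀ hl' ?_
  rw [h]
  rcases key _ hl' with e' | e'
  · rw [e', zero_mul, mul_zero]
  · rw [e']; simp

end Top

/-! ### Series modulo `p` -/

variable {K : Type*}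

variable (K) in
/-- `Δ` over a ring. -/
def delK [CommRing K] : PowerSeries K := deltaInt.map (Int.castRingHom K)

variable (K) in
/-- The span of the powers `Δ^j`, `j < m`. -/
def degLT [CommRing K] (m : ℕ) : Submodule K (PowerSeries K) :=
  Submodule.span K ((fun j => delK K ^ j) '' Set.Iio m)

variable (K) in
/-- `T_l` modulo `2` and `3`, in every even weight. -/
def hOp [CommRing K] (l : ℕ) : PowerSeries K →ₗ[K] PowerSeries K where
  toFun f := PowerSeries.mk fun m =>
    coeff (m * l) f + if l ∣ m then (l : K) * coeff (m / l) f else 0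
  map_add' f g := by
    ext m
    simp only [PowerSeries.coeff_mk, map_add]
    split_ifs <;> ring
  map_smul' c f := by
    ext m
    simp only [PowerSeries.coeff_mk, PowerSeries.coeff_smul, RingHom.id_apply, smul_eq_mul]
    split_ifs <;> ring

theorem coeff_hOp [CommRing K] (l m : ℕ) (f : PowerSeries K) :
    coeff m (hOp K l f) = coeff (m * l) f + if l ∣ m then (l : K) * coeff (m / l) f else 0 := by
  simp [hOp]

variable [CommRing K] [CharP K p]

include hp in
theorem natCast_sq {l : ℕ} (hl : l.Prime) (hlp : l ≠ p) : (l : K) ^ 2 = 1 := by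
  have hpp : p.Prime := by rcases hp with rfl | rfl <;> norm_num
  have h : (p : ℤ) ∣ (l : ℤ) ^ 2 - 1 := by
    rw [← ZMod.intCast_zmod_eq_zero_iff_dvd]
    push_cast
    have hl' : (l : ZMod p) ≠ 0 := fun h =>
      hlp ((Nat.prime_dvd_prime_iff_eq hpp hl).1 ((ZMod.natCast_eq_zero_iff l p).1 h)).symm
    revert hl'
    generalize (l : ZMod p) = x
    revert x
    rcases hp with rfl | rfl <;> decide
  rw [← sub_eq_zero]
  simpa using (CharP.intCast_eq_zero_iff K p _).2 h

include hp in
theorem natCast_pow_odd {l : ℕ} (hl : l.Prime) (hlp : l ≠ p) {n : ℕ} (hn : Odd n) :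
    (l : K) ^ n = l := by
  obtain ⟨j, rfl⟩ := hn
  rw [pow_succ, pow_mul, natCast_sq hp hl hlp, one_pow, one_mul]

include hp in
theorem map_eFour_eq_one : eFourInt.map (Int.castRingHom K) = 1 := by
  ext n
  rw [PowerSeries.coeff_map, eFourInt, PowerSeries.coeff_mk, PowerSeries.coeff_one]
  split_ifs with h
  · simp
  · rw [eq_intCast, CharP.intCast_eq_zero_iff K p]
    rcases hp with rfl | rfl <;> exact Dvd.dvd.mul_right (by norm_num) _

include hp in
theorem map_eSix_eq_one : eSixInt.map (Int.castRingHom K) = 1 := by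
  ext n
  rw [PowerSeries.coeff_map, eSixInt, PowerSeries.coeff_mk, PowerSeries.coeff_one]
  split_ifs with h
  · simp
  · rw [eq_intCast, CharP.intCast_eq_zero_iff K p]
    rcases hp with rfl | rfl <;> exact Dvd.dvd.mul_right (by norm_num) _

include hp in
theorem map_basisInt (m i : ℕ) : (basisInt m i).map (Int.castRingHom K) = delK K ^ i := by
  rw [basisInt, map_mul, map_pow, map_pow, map_eFour_eq_one hp, one_pow, one_mul, delK]

include hp in
/-- **`T_l - (1 + l)` lowers the degree in `Δ`.** -/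
theorem hOp_delK {l : ℕ} (hl : l.Prime) (hlp : l ≠ p) (i : ℕ) :
    hOp K l (delK K ^ i) - ((l : K) + 1) • delK K ^ i ∈ degLT K i := by
  rcases Nat.eq_zero_or_pos i with rfl | hi
  · have : hOp K l (delK K ^ 0) - ((l : K) + 1) • delK K ^ 0 = 0 := PowerSeries.ext fun m => by
      rw [map_sub, coeff_hOp, PowerSeries.coeff_smul, pow_zero, PowerSeries.coeff_one,
        PowerSeries.coeff_one, PowerSeries.coeff_one, map_zero]
      rcases eq_or_ne m 0 with rfl | hm
      · simp [add_comm]
      · rw [if_neg (Nat.mul_ne_zero hm hl.ne_zero), if_neg hm]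
        split_ifs with h h'
        · obtain ⟨t, rfl⟩ := h
          rw [Nat.mul_div_cancel_left _ hl.pos] at h'
          simp [h'] at hm
        all_goals simp
    rw [this]
    exact zero_mem _
  obtain ⟨b, hb, hs⟩ := exists_hecke_delta hp hl hlp hi
  have hT : (heckeDelta l i).map (Int.castRingHom K) = hOp K l (delK K ^ i) := by
    ext m
    rw [coeff_hOp, PowerSeries.coeff_map, heckeDelta, PowerSeries.coeff_mk, delK, ← map_pow,
      PowerSeries.coeff_map, PowerSeries.coeff_map, map_add]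
    split_ifs
    · rw [eq_intCast, eq_intCast, eq_intCast, Int.cast_mul, Int.cast_pow, Int.cast_natCast,
        natCast_pow_odd hp hl hlp ⟨6 * i - 1, by omega⟩]
    · rw [map_zero]
  have hbi : ((b i : ℤ) : K) = (l : K) + 1 := by
    rw [← sub_eq_zero]
    simpa using (CharP.intCast_eq_zero_iff K p _).2 hb
  rw [← hT, hs, map_sum, Finset.sum_range_succ]
  simp only [map_mul, PowerSeries.map_C, map_basisInt hp]
  rw [eq_intCast (Int.castRingHom K) (b i), hbi, PowerSeries.smul_eq_C_mul, add_sub_cancel_right]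
  refine Submodule.sum_mem _ fun j hj => ?_
  rw [← PowerSeries.smul_eq_C_mul]
  exact Submodule.smul_mem _ _ (Submodule.subset_span ⟨j, Finset.mem_range.1 hj, rfl⟩)

theorem degLT_mono {m n : ℕ} (h : m ≤ n) : degLT K m ≤ degLT K n :=
  Submodule.span_mono (Set.image_mono fun _ (hj : _ < m) => lt_of_lt_of_le hj h)

include hp in
/-- `T_l - (1 + l)` maps degree `≤ m` to degree `< m`. -/
theorem hOp_sub_mem {l : ℕ} (hl : l.Prime) (hlp : l ≠ p) {m : ℕ} {f : PowerSeries K}
    (hf : f ∈ degLT K (m + 1)) : hOp K l f - ((l : K) + 1) • f ∈ degLT K m := by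
  refine (Submodule.span_le.2 ?_ : degLT K (m + 1) ≤
    (degLT K m).comap (hOp K l - ((l : K) + 1) • LinearMap.id)) hf
  rintro _ ⟨j, hj, rfl⟩
  exact degLT_mono (Nat.lt_succ_iff.1 hj) (hOp_delK hp hl hlp j)

include hp in
/-- **`T_l - (1 + l)` is nilpotent.** -/
theorem hOp_nilpotent {l : ℕ} (hl : l.Prime) (hlp : l ≠ p) : ∀ (m : ℕ) {f : PowerSeries K},
    f ∈ degLT K m → (((hOp K l - ((l : K) + 1) • LinearMap.id) ^ m :
      Module.End K (PowerSeries K))) f = 0 := by
  intro m
  induction m with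
  | zero => intro f hf; simpa [degLT] using hf
  | succ m ih =>
    intro f hf
    rw [pow_succ, Module.End.mul_apply]
    exact ih (hOp_sub_mem hp hl hlp hf)

/-- **A form reduces to a polynomial in `Δ`.** -/
theorem map_mem_degLT (hp : p = 2 ∨ p = 3) {R : Type*} [CommRing R] {ι : R →+* ℂ}
    (hι : Function.Injective ι) (ψ : R →+* K) {k : ℕ} (f : ℍ → ℂ) (S : PowerSeries R)
    (hinv : ∀ γ : SL(2, ℤ), f ∣[(k : ℤ)] γ = f) (hS : HasQ 1 f (S.map ι)) :
    S.map ψ ∈ degLT K (k / 2 + 1) := by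
  rcases Nat.even_or_odd' k with ⟨h, rfl | rfl⟩
  swap
  · set F := FA.ModField.levelOneForm f hinv (hS.mdiff one_pos) (hS.bdd one_pos)
    have hspan := FA.LevelOneRing.mem_span (2 * h + 1 + 1) _ (by push_cast; omega) F
    have : IsEmpty {q : ℕ × ℕ // 4 * (q.1 : ℤ) + 6 * q.2 = ((2 * h + 1 : ℕ) : ℤ)} :=
      ⟨fun q => by have := q.2; push_cast at this; omega⟩
    rw [Set.range_eq_empty, Submodule.span_empty, Submodule.mem_bot] at hspan
    have h0 : S.map ι = 0 := ((show f = 0 from hspan) ▸ hS).eq_zero_of_fun one_pos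
    rw [show S = 0 from PowerSeries.map_injective ι hι (by rw [h0, map_zero]), map_zero]
    exact zero_mem _
  set e : PowerSeries ℤ := (eFourInt * eSixInt) ^ h
  have hq : HasQ 1 (f * (⇑ModularForm.E₄ * ⇑ModularForm.E₆) ^ h)
      ((S * e.map (Int.castRingHom R)).map ι) := by
    rw [map_mul, map_map_intCast, map_pow, map_mul]
    exact hS.mul one_pos ((hasQ_eFour.mul one_pos hasQ_eSix).pow one_pos h)
  obtain ⟨b, -, hb⟩ := exists_delta_expansion hι h _ (S * e.map (Int.castRingHom R)) (fun γ => by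
    refine (FA.ModField.slash_eq_iff_smul γ).2 fun z => ?_
    simp only [Pi.mul_apply, Pi.pow_apply]
    rw [(FA.ModField.slash_eq_iff_smul γ).1 (hinv γ) z, FA.ModField.E4_smul,
      FA.LevelOneRing.E6_smul, zpow_natCast, zpow_natCast, zpow_ofNat, zpow_ofNat]
    ring) hq
  have hmap : ∀ T : PowerSeries ℤ, (T.map (Int.castRingHom R)).map ψ =
      T.map (Int.castRingHom K) := fun T => PowerSeries.ext fun n => by simp
  have h2 := congrArg (PowerSeries.map ψ) hb
  rw [map_mul, hmap, map_sum] at h2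
  simp only [e, map_pow, map_mul, hmap, map_eFour_eq_one hp, map_eSix_eq_one hp,
    one_pow, mul_one, PowerSeries.map_C, map_basisInt hp] at h2
  rw [h2]
  refine Submodule.sum_mem _ fun j hj => ?_
  rw [← PowerSeries.smul_eq_C_mul]
  exact Submodule.smul_mem _ _ (Submodule.subset_span ⟨j, by
    simp only [Set.mem_Iio, Finset.mem_range] at hj ⊢
    omega, rfl⟩)

include hp in
/-- **Every eigenvalue of `T_l` is `1 + l`.** -/
theorem eigen_eq [IsDomain K] {l : ℕ} (hl : l.Prime) (hlp : l ≠ p) {m : ℕ} {f : PowerSeries K}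
    (hf : f ∈ degLT K m) (hf0 : f ≠ 0) {a : K} (ha : hOp K l f = a • f) : a = (l : K) + 1 := by
  have h := hOp_nilpotent hp hl hlp m hf
  have hN : ∀ j, (((hOp K l - ((l : K) + 1) • LinearMap.id) ^ j :
      Module.End K (PowerSeries K))) f = (a - ((l : K) + 1)) ^ j • f := fun j => by
    induction j with
    | zero => simp
    | succ j ih =>
      rw [pow_succ', Module.End.mul_apply, ih, map_smul, LinearMap.sub_apply,
        LinearMap.smul_apply, LinearMap.id_apply, ha, ← sub_smul, smul_smul, pow_succ]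
  rw [hN, PowerSeries.smul_eq_C_mul, mul_eq_zero, map_eq_zero_iff _ PowerSeries.C_injective] at h
  exact sub_eq_zero.1 (eq_zero_of_pow_eq_zero (h.resolve_right hf0))

end FA.Hatada

end
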