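import Fermat.Agent.Root.SummaryTauAlmostAll
import Fermat.Agent.Tau.ModFiveSeven

/-!
# High powers of the exceptional primes divide `τ(n)` for almost every `n`

A prime `p ≡ -1 (mod 24 · 5 · 7 · 23 · 691)` has `12 · 5 · 7 · 23 · 691 ∣ τ(p)`, and almost every
integer is exactly divisible by a prime from each of any finite number of residue classes.
-/

set_option autoImplicit false
set_option linter.style.haveILetI false

noncomputable section

open Filter Topology

namespace FA.Tau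

/-- A prime `≡ -1` to the product of the moduli of the congruences. -/
theorem exceptional_dvd_coeff_prime {p : ℕ} (hp : p.Prime)
    (h : ((24 * 5 * 7 * 23 * 691 : ℕ) : ℤ) ∣ (p : ℤ) + 1) :
    ((12 * 5 * 7 * 23 * 691 : ℕ) : ℤ) ∣ PowerSeries.coeff p deltaInt := by
  have hneg : ∀ d : ℕ, d ∣ 24 * 5 * 7 * 23 * 691 → (p : ZMod d) = -1 := fun d hd => by
    refine eq_neg_of_add_eq_zero_left ?_
    have := (ZMod.intCast_zmod_eq_zero_iff_dvd _ d).mpr
      ((Int.natCast_dvd_natCast.mpr hd).trans h)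
    push_cast at this
    exact this
  have hx : ∀ d : ℕ, ((PowerSeries.coeff p deltaInt : ℤ) : ZMod d) = 0 →
      (d : ℤ) ∣ PowerSeries.coeff p deltaInt := fun d => (ZMod.intCast_zmod_eq_zero_iff_dvd _ d).mp
  have h12 : (12 : ℤ) ∣ PowerSeries.coeff p deltaInt := by
    have h24 : (24 : ℤ) ∣ (p : ℤ) + 1 :=
      (Int.natCast_dvd_natCast.mpr (show 24 ∣ 24 * 5 * 7 * 23 * 691 by norm_num)).trans h
    have e : (24 : ℤ) ∣ 2 * PowerSeries.coeff p deltaInt := by
      obtain ⟨a, ha⟩ := h24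
      obtain ⟨b, hb⟩ := coeff_deltaInt_twentyFour p
      exact ⟨a * PowerSeries.coeff p deltaInt - b,
        by linear_combination (PowerSeries.coeff p deltaInt) * ha - hb⟩
    omega
  have h5 := hx 5 (by rw [(coeff_deltaInt_prime hp).1, hneg 5 (by norm_num)]; decide)
  have h7 := hx 7 (by rw [(coeff_deltaInt_prime hp).2, hneg 7 (by norm_num)]; decide)
  have h23 := hx 23 (coeff_of_not_isSquare hp.pos (by rw [hneg 23 (by norm_num)]; decide))
  have h691 := dvd_coeff_of_neg_one hp (hneg 691 (by norm_num))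
  have hco : ∀ a b : ℕ, a.Coprime b → IsCoprime (a : ℤ) b := fun a b h => h.isCoprime
  rw [show ((12 * 5 * 7 * 23 * 691 : ℕ) : ℤ) = 12 * 5 * 7 * 23 * 691 by norm_num]
  exact (hco (12 * 5 * 7 * 23) 691 (by norm_num)).mul_dvd
    ((hco (12 * 5 * 7) 23 (by norm_num)).mul_dvd
      ((hco (12 * 5) 7 (by norm_num)).mul_dvd ((hco 12 5 (by norm_num)).mul_dvd h12 h5) h7) h23)
    h691

/-- Distinct primes exactly dividing `n` multiply their common divisor of `τ`. -/
theorem pow_card_dvd_coeff {c : ℤ} (s : Finset ℕ) : ∀ {n : ℕ},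
    (∀ p ∈ s, p.Prime ∧ c ∣ PowerSeries.coeff p deltaInt ∧ p ∣ n ∧ ¬ p ^ 2 ∣ n) →
      c ^ s.card ∣ PowerSeries.coeff n deltaInt := by
  induction s using Finset.induction with
  | empty => simp
  | insert p s hps ih =>
    intro n h
    obtain ⟨hp, hc, hd, hd2⟩ := h p (Finset.mem_insert_self p s)
    obtain ⟨k, rfl⟩ := hd
    have hcop : p.Coprime k := hp.coprime_iff_not_dvd.mpr fun h' =>
      hd2 (by rw [pow_two]; exact mul_dvd_mul_left p h')
    rw [Finset.card_insert_of_notMem hps, pow_succ', coeff_deltaInt_mul hcop]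
    refine mul_dvd_mul hc (ih fun q hq => ?_)
    obtain ⟨hq', hqc, hqd, hqd2⟩ := h q (Finset.mem_insert_of_mem hq)
    have hne : q ≠ p := fun e => hps (e ▸ hq)
    exact ⟨hq', hqc, ((Nat.coprime_primes hq' hp).mpr hne).dvd_of_dvd_mul_left hqd,
      fun h' => hqd2 (h'.mul_left p)⟩

/-- Almost every integer is exactly divisible by a prime from each of finitely many divergent
sets. -/
theorem tendsto_zero_of_avoid_finset {ι : Type*} (s : Finset ι) (P : ι → Set ℕ)
    (hP : ∀ i ∈ s, ∀ p ∈ P i, p.Prime)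
    (hdiv : ∀ i ∈ s, ¬ Summable ((P i).indicator fun n : ℕ => (1 : ℝ) / n)) :
    Tendsto (fun N : ℕ => (Nat.card {n : ℕ // n < N ∧
      ∃ i ∈ s, ∀ p ∈ P i, p ∣ n → p ^ 2 ∣ n} : ℝ) / N) atTop (𝓝 0) := by
  classical
  induction s using Finset.induction with
  | empty => simp
  | insert i s his ih =>
    refine tendsto_zero_or
      (tendsto_zero_of_avoid (hP i (Finset.mem_insert_self i s))
        (hdiv i (Finset.mem_insert_self i s))
        (B := fun n => ∀ p ∈ P i, p ∣ n → p ^ 2 ∣ n) fun p hp n hd hd2 hn => hd2 (hn p hp hd))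
      (ih (fun j hj => hP j (Finset.mem_insert_of_mem hj))
        fun j hj => hdiv j (Finset.mem_insert_of_mem hj))
      fun n hn => ?_
    obtain ⟨j, hj, h⟩ := hn
    rcases Finset.mem_insert.mp hj with rfl | hj'
    · exact Or.inl h
    · exact Or.inr ⟨j, hj', h⟩

/-- For every `k`, almost every integer is exactly divisible by `k` primes `≡ -1 (mod M)`. -/
theorem tendsto_zero_few_neg_one {M : ℕ} (hM : 1 < M) (k : ℕ) {B : ℕ → Prop}
    (hB : ∀ n, ∀ s : Finset ℕ, s.card = k →
      (∀ p ∈ s, p.Prime ∧ (M : ℤ) ∣ (p : ℤ) + 1 ∧ p ∣ n ∧ ¬ p ^ 2 ∣ n) → ¬ B n) :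
    Tendsto (fun N : ℕ => (Nat.card {n : ℕ // n < N ∧ B n} : ℝ) / N) atTop (𝓝 0) := by
  classical
  set m := M ^ (k + 1) with hm
  haveI : NeZero m := ⟨pow_ne_zero _ (by omega)⟩
  haveI : Fact (1 < m) := ⟨Nat.one_lt_pow (by omega) hM⟩
  have hu : ∀ i : ℕ, IsUnit ((M * i : ℕ) - 1 : ZMod m) := fun i => by
    refine IsNilpotent.isUnit_sub_one ⟨k + 1, ?_⟩
    rw [← Nat.cast_pow, mul_pow, ZMod.natCast_eq_zero_iff]
    exact dvd_mul_right _ _
  set P : ℕ → Set ℕ := fun i => {p | p.Prime ∧ (p : ZMod m) = (hu i).unit}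
  have hzero := tendsto_zero_of_avoid_finset (Finset.range k) P (fun i _ p hp => hp.1)
    fun i _ => not_summable_residueClass m (hu i).unit
  refine tendsto_zero_or hzero hzero fun n hn => Or.inl ?_
  by_contra hc
  push Not at hc
  choose f hf hd hd2 using hc
  have hinj : ∀ i (hi : i ∈ Finset.range k) j (hj : j ∈ Finset.range k), f i hi = f j hj → i = j := by
    intro i hi j hj e
    have e' : ((M * i : ℕ) : ZMod m) = ((M * j : ℕ) : ZMod m) := by
      have := ((hf i hi).2.symm.trans (congrArg (Nat.cast : ℕ → ZMod m) e)).trans (hf j hj).2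
      rw [IsUnit.unit_spec, IsUnit.unit_spec] at this
      exact sub_left_inj.mp this
    have hlt : ∀ l ∈ Finset.range k, M * l < m := fun l hl => by
      rw [hm, pow_succ']
      exact Nat.mul_lt_mul_of_pos_left
        ((Finset.mem_range.mp hl).trans (Nat.lt_pow_self hM)) (by omega)
    rw [ZMod.natCast_eq_natCast_iff', Nat.mod_eq_of_lt (hlt i hi),
      Nat.mod_eq_of_lt (hlt j hj)] at e'
    exact Nat.eq_of_mul_eq_mul_left (by omega) e'
  refine hB n ((Finset.range k).attach.image fun i => f i.1 i.2) ?_ (fun p hp => ?_) hn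
  · rw [Finset.card_image_of_injective, Finset.card_attach, Finset.card_range]
    exact fun i j e => Subtype.ext (hinj i.1 i.2 j.1 j.2 e)
  · obtain ⟨i, -, rfl⟩ := Finset.mem_image.mp hp
    refine ⟨(hf i.1 i.2).1, ?_, hd i.1 i.2, hd2 i.1 i.2⟩
    have e := congrArg (ZMod.castHom (show M ∣ m from dvd_pow_self M (by omega)) (ZMod M))
      (hf i.1 i.2).2
    rw [IsUnit.unit_spec, map_natCast, map_sub, map_natCast, map_one] at e
    refine (ZMod.intCast_zmod_eq_zero_iff_dvd _ _).mp ?_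
    push_cast
    rw [e]
    simp

end FA.Tau

end
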