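import Fermat.Agent.Tau.HurwitzRelation

/-!
# The Kronecker–Hurwitz relation for every `n`

The product of the diagonals `Φ_N(X, X)` over `N = n / f²`, `N > 1`, has at `j(τ)` the multiplicity
given by all the matrices of determinant `n` fixing `τ`, as each is a multiple of a primitive one;
for a square `n` those from `N = 1` are left out. Its degree is the sum of `max (a, n / a)` over the
divisors of `n`, less one for a square. The forms proportional to `x² + y²` and `x² + x y + y²`
account for the difference.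
-/

set_option autoImplicit false
set_option linter.style.haveILetI false

noncomputable section

namespace FA.ClassRelation

open UpperHalfPlane hiding I
open Polynomial
open FA.ModField FA.ModPoly FA.JInj FA.Singular
open scoped Classical MatrixGroups

attribute [local irreducible] redForms

/-- `Φ_N(X, X)`, and `1` for `N ≤ 1`. -/
def diagOf (N : ℕ) : ℂ[X] :=
  if h : 1 < N then
    haveI : Fact (1 < N) := ⟨h⟩
    haveI : NeZero N := ⟨(zero_lt_one.trans h).ne'⟩
    letI := Fintype.ofFinite (FA.Dim.Cos N)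
    diagC N
  else 1

theorem diagOf_eq (N : ℕ) [h : Fact (1 < N)] [Fintype (FA.Dim.Cos N)] : diagOf N = diagC N := by
  rw [diagOf, dif_pos h.out]
  congr!

theorem diagOf_one : diagOf 1 = 1 := dif_neg (lt_irrefl 1)

theorem diagOf_ne_zero (N : ℕ) : diagOf N ≠ 0 := by
  by_cases h : 1 < N
  · haveI : Fact (1 < N) := ⟨h⟩
    haveI : NeZero N := ⟨(zero_lt_one.trans h).ne'⟩
    let _ := Fintype.ofFinite (FA.Dim.Cos N)
    rw [diagOf_eq]
    exact diagC_ne_zero N
  · rw [diagOf, dif_neg h]
    exact one_ne_zero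

/-- The product of the diagonals over `n / f²`. -/
def diagAll (n : ℕ) : ℂ[X] := ∏ f ∈ sqDiv n, diagOf (n / (f * f))

theorem diagAll_ne_zero (n : ℕ) : diagAll n ≠ 0 :=
  Finset.prod_ne_zero_iff.2 fun _ _ => diagOf_ne_zero _

variable {n : ℕ} (hn0 : n ≠ 0)

include hn0 in
theorem cofactor_facts {f : ℕ} (hf : f ∈ sqDiv n) :
    f * f * (n / (f * f)) = n ∧ (n / (f * f) = 1 ∨ 1 < n / (f * f)) := by
  have h := Nat.mul_div_cancel' ((mem_sqDiv hn0).1 hf)
  refine ⟨h, ?_⟩
  have : n / (f * f) ≠ 0 := fun e => hn0 (by rw [← h, e, mul_zero])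
  generalize n / (f * f) = N at this ⊢
  omega

include hn0 in
/-- The cofactor is `1` once for a square and never otherwise. -/
theorem sum_unit_cofactor :
    ∑ f ∈ sqDiv n, (if n / (f * f) = 1 then 1 else 0) = sqInd n := by
  rw [sqInd]
  split_ifs with hs
  · obtain ⟨m, rfl⟩ := hs
    rw [Finset.sum_eq_single_of_mem m ((mem_sqDiv hn0).2 dvd_rfl)
        fun f hf hfm => if_neg fun h => ?_,
      if_pos (Nat.div_self (Nat.pos_of_ne_zero hn0))]
    have e := (cofactor_facts hn0 hf).1
    rw [h, mul_one] at e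
    exact hfm (Nat.mul_self_inj.1 e)
  · refine Finset.sum_eq_zero fun f hf => if_neg fun h => hs ⟨f, ?_⟩
    have e := (cofactor_facts hn0 hf).1
    rw [h, mul_one] at e
    exact e.symm

include hn0 in
/-- A root is the invariant of a reduced primitive form. -/
theorem exists_red_of_root_all {x : ℂ} (hx : x ∈ (diagAll n).roots.toFinset) :
    ∃ g τ, g ∈ Red (disc g) ∧ IsRoot g τ ∧ jfun τ = x := by
  rw [Multiset.mem_toFinset, mem_roots (diagAll_ne_zero n), IsRoot.def, diagAll, eval_prod,
    Finset.prod_eq_zero_iff] at hx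
  obtain ⟨f, hf, h0⟩ := hx
  rcases (cofactor_facts hn0 hf).2 with h1 | h1
  · rw [h1, diagOf_one, eval_one] at h0
    exact absurd h0 one_ne_zero
  haveI : Fact (1 < n / (f * f)) := ⟨h1⟩
  haveI : NeZero (n / (f * f)) := ⟨(zero_lt_one.trans h1).ne'⟩
  let _ := Fintype.ofFinite (FA.Dim.Cos (n / (f * f)))
  rw [diagOf_eq] at h0
  exact exists_red_of_root _ (Multiset.mem_toFinset.2 ((mem_roots (diagC_ne_zero _)).2 h0))

include hn0 in
/-- **The multiplicity**: all the matrices of determinant `n` fixing the point, over the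
stabiliser, less one for a square. -/
theorem rootMultiplicity_mul_all {a b c : ℤ} (ha : 0 < a)
    (hprim : Int.gcd (Int.gcd a b) c = 1) {τ : ℍ} (hr : FA.Singular.IsRoot (a, b, c) τ) :
    ((diagAll n).rootMultiplicity (jfun τ) + sqInd n) * Nat.card (FixMat τ 1) =
      Nat.card (FixMat τ n) := by
  obtain ⟨e⟩ := exists_fixMat_equiv hn0 τ
  haveI : Finite (FixMat τ n) :=
    Finite.of_equiv _ (exists_fixPairs_equiv ha hprim hr hn0).some.symm
  haveI := Finite.of_equiv _ e.symm
  haveI : ∀ f : {f // f ∈ sqDiv n}, Finite (FixPrim τ ((n / (f.1 * f.1) : ℕ) : ℤ)) := fun f =>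
    Finite.of_injective
      (Sigma.mk (β := fun g : {g // g ∈ sqDiv n} => FixPrim τ ((n / (g.1 * g.1) : ℕ) : ℤ)) f)
      sigma_mk_injective
  rw [← Nat.card_congr e, Nat.card_sigma, diagAll, ← count_roots,
    roots_prod _ _ (Finset.prod_ne_zero_iff.2 fun _ _ => diagOf_ne_zero _),
    Multiset.count_bind, ← Finset.sum_eq_multiset_sum, ← sum_unit_cofactor hn0,
    ← Finset.sum_add_distrib, Finset.sum_mul, ← Finset.sum_coe_sort (sqDiv n)]
  refine Finset.sum_congr rfl fun f _ => ?_
  rcases (cofactor_facts hn0 f.2).2 with h1 | h1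
  · rw [h1, diagOf_one, roots_one, Multiset.empty_eq_zero, Multiset.count_zero, if_pos rfl,
      zero_add, one_mul, fixPrim_eq squarefree_one, Nat.cast_one]
  haveI : Fact (1 < n / (f.1 * f.1)) := ⟨h1⟩
  haveI : NeZero (n / (f.1 * f.1)) := ⟨(zero_lt_one.trans h1).ne'⟩
  let _ := Fintype.ofFinite (FA.Dim.Cos (n / (f.1 * f.1)))
  rw [if_neg h1.ne', add_zero, diagOf_eq, count_roots, rootMultiplicity_diag, card_fixMat]

include hn0 in
/-- **The degree.** -/
theorem natDegree_diagAll :
    (diagAll n).natDegree + sqInd n = ∑ a ∈ n.divisors, max a (n / a) := by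
  refine Nat.eq_of_mul_eq_mul_left (Nat.pos_of_ne_zero hn0) ?_
  rw [diagAll, natDegree_prod _ _ (fun f _ => diagOf_ne_zero _), ← sum_unit_cofactor hn0,
    ← Finset.sum_add_distrib, Finset.mul_sum, ← sum_triSet_max hn0,
    ← sum_primTri hn0 (fun a => max n (a * a))]
  refine Finset.sum_congr rfl fun f hf => ?_
  obtain ⟨hN, h1 | h1⟩ := cofactor_facts hn0 hf
  · rw [h1, mul_one] at hN
    rw [h1, diagOf_one, natDegree_one, if_pos rfl, zero_add, mul_one,
      primTri_eq_of_squarefree squarefree_one, show triSet 1 = {(1, 0)} by decide,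
      Finset.sum_singleton, mul_one, hN, max_self]
  haveI : Fact (1 < n / (f * f)) := ⟨h1⟩
  haveI : NeZero (n / (f * f)) := ⟨(zero_lt_one.trans h1).ne'⟩
  let _ := Fintype.ofFinite (FA.Dim.Cos (n / (f * f)))
  rw [if_neg h1.ne', add_zero, show n * (diagOf (n / (f * f))).natDegree =
    f * f * (n / (f * f) * (diagOf (n / (f * f))).natDegree) by rw [← mul_assoc, hN], diagOf_eq,
    natDegree_diag_mul, Finset.mul_sum]
  refine Finset.sum_congr rfl fun q _ => ?_
  rw [mul_max, hN]
  ring_nf

theorem weight_pos (f : ℤ × ℤ × ℤ) : 0 < weight f := by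
  unfold weight
  split_ifs <;> norm_num

/-- What a reduced primitive form lacks of the weight `1`. -/
def defect (x : ℂ) : ℚ := (if x = 1728 then 1 / 2 else 0) + (if x = 0 then 2 / 3 else 0)

theorem red_I : ((1, 0, 1) : ℤ × ℤ × ℤ) ∈ Red (disc (1, 0, 1)) ∧
    FA.Singular.IsRoot (1, 0, 1) UpperHalfPlane.I := by
  refine ⟨⟨rfl, by decide, one_pos, by decide, le_rfl, fun _ => le_rfl⟩, ?_⟩
  simp [FA.Singular.IsRoot, Complex.I_sq]

theorem red_rho : ((1, 1, 1) : ℤ × ℤ × ℤ) ∈ Red (disc (1, 1, 1)) ∧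
    FA.Singular.IsRoot (1, 1, 1) rho := by
  refine ⟨⟨rfl, by decide, one_pos, by decide, le_rfl, fun _ => zero_le_one⟩, ?_⟩
  simp only [FA.Singular.IsRoot]
  push_cast
  linear_combination rho_sq

/-- The forms of weight less than `1` belong to `1728` and to `0`. -/
theorem one_sub_weight {a b c : ℤ} {τ : ℍ} (hf : (a, b, c) ∈ Red (disc (a, b, c)))
    (hr : FA.Singular.IsRoot (a, b, c) τ) : 1 - weight (a, b, c) = defect (jfun τ) := by
  by_cases h1 : jfun τ = 1728
  · rw [red_eq_of_root hf red_I.1 hr red_I.2 (h1.trans jfun_I.symm), defect, h1]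
    norm_num [weight]
  by_cases h0 : jfun τ = 0
  · rw [red_eq_of_root hf red_rho.1 hr red_rho.2 (h0.trans jfun_rho.symm), defect, h0]
    norm_num [weight]
  obtain ⟨-, hprim, ha, -⟩ := id hf
  have hone : a ∣ b → a ∣ c → a = 1 := fun e1 e2 => by
    have h := Int.dvd_coe_gcd (Int.dvd_coe_gcd dvd_rfl e1) e2
    simp only at hprim
    rw [hprim, Nat.cast_one] at h
    exact Int.eq_one_of_dvd_one (le_of_lt ha) h
  rw [defect, if_neg h1, if_neg h0, add_zero, weight]
  split_ifs with hA hB
  · obtain ⟨e1, e2⟩ := hA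
    simp only at e1 e2
    subst e1 e2
    obtain rfl : a = 1 := hone (dvd_zero a) dvd_rfl
    rw [root_unique one_ne_zero hr red_I.2, jfun_I] at h1
    exact absurd rfl h1
  · obtain ⟨e1, e2⟩ := hB
    simp only at e1 e2
    subst e1 e2
    obtain rfl : a = 1 := hone dvd_rfl dvd_rfl
    rw [root_unique one_ne_zero hr red_rho.2, jfun_rho] at h0
    exact absurd rfl h0
  · norm_num

include hn0 in
/-- **The forms over one invariant.** -/
theorem sum_fibre_all {a b c : ℤ} {τ : ℍ} (hf : (a, b, c) ∈ Red (disc (a, b, c)))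
    (hr : FA.Singular.IsRoot (a, b, c) τ) :
    ∑ q ∈ (traceForms n).filter (fun q => jfun (rootOf q.2) = jfun τ), weight q.2 =
      ((diagAll n).rootMultiplicity (jfun τ) : ℚ) + (sqInd n : ℚ) * defect (jfun τ) := by
  rw [sum_fibre_eq n hf hr, ← one_sub_weight hf hr]
  obtain ⟨-, hprim, ha, -⟩ := id hf
  have hD := disc_neg_of_isRoot (f := (a, b, c)) ha.ne' hr
  have hm := rootMultiplicity_mul_all hn0 ha hprim hr
  rw [card_fixMat_eq ha hprim hr hn0, show (FixMat τ 1) = FixMat τ ((1 : ℕ) : ℤ) by simp,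
    card_fixMat_eq ha hprim hr one_ne_zero, card_fixPairs_all n hD hn0] at hm
  have h3 := weight_mul_card (τ := τ) hf hr
  set K := ((fixPairs (disc (a, b, c)) n).filter fun q => 0 < q.2).card
  set m := (diagAll n).rootMultiplicity (jfun τ)
  have h1' : ((m : ℚ) + (sqInd n : ℕ)) * (fixPairs (disc (a, b, c)) 1).card =
      2 * K + 2 * (sqInd n : ℕ) := by exact_mod_cast hm
  linear_combination (-(1 / 2 : ℚ)) * weight (a, b, c) * h1' +
    ((1 / 2 : ℚ) * ((m : ℚ) + (sqInd n : ℕ))) * h3

include hn0 in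
/-- **The class number relation of Kronecker and Hurwitz**, for every `n ≠ 0`. -/
theorem class_number_relation_all :
    ∑ t ∈ traces n, classNumberH (4 * (n : ℤ) - t ^ 2).toNat =
      ((∑ a ∈ n.divisors, max a (n / a) : ℕ) : ℚ) + (sqInd n : ℚ) / 6 := by
  have hrw : ∑ t ∈ traces n, classNumberH (4 * (n : ℤ) - t ^ 2).toNat =
      ∑ q ∈ traceForms n, weight q.2 := by
    rw [traceForms, Finset.sum_sigma]
    rfl
  set S : Finset ℂ := (diagAll n).roots.toFinset ∪ (if IsSquare n then {1728, 0} else ∅) with hS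
  have hred : ∀ x ∈ S, ∃ g τ, g ∈ Red (disc g) ∧ FA.Singular.IsRoot g τ ∧ jfun τ = x := by
    intro x hx
    rcases Finset.mem_union.1 hx with h | h
    · exact exists_red_of_root_all hn0 h
    · split_ifs at h
      · rcases Finset.mem_insert.1 h with rfl | h
        · exact ⟨_, _, red_I.1, red_I.2, jfun_I⟩
        · exact ⟨_, _, red_rho.1, red_rho.2, (Finset.mem_singleton.1 h) ▸ jfun_rho⟩
      · simp at h
  have hmult : ∀ x ∉ S,
      (diagAll n).rootMultiplicity x = 0 ∧ (sqInd n : ℚ) * defect x = 0 := fun x hx => by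
    rw [hS, Finset.mem_union, not_or, Multiset.mem_toFinset] at hx
    refine ⟨by rw [← count_roots]; exact Multiset.count_eq_zero.2 hx.1, ?_⟩
    rw [sqInd]
    split_ifs with hs
    · rw [if_pos hs, Finset.mem_insert, Finset.mem_singleton, not_or] at hx
      simp [defect, hx.2.1, hx.2.2]
    · simp
  have hmaps : ∀ q ∈ traceForms n, jfun (rootOf q.2) ∈ S := fun q hq => by
    by_contra hx
    obtain ⟨k, ⟨a, b, c⟩, -, -, hf, hr⟩ := exists_red_of_traceForm n q hq
    have h := sum_fibre_all hn0 hf hr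
    obtain ⟨h1, h2⟩ := hmult _ hx
    rw [h1, h2, Nat.cast_zero, add_zero] at h
    set P : Finset (Σ _ : ℤ, ℤ × ℤ × ℤ) :=
      (traceForms n).filter fun r => jfun (rootOf r.2) = jfun (rootOf q.2) with hP
    have hmem : q ∈ P := by
      rw [hP]
      exact Finset.mem_filter.2 ⟨hq, rfl⟩
    have hle : weight q.2 ≤ ∑ r ∈ P, weight r.2 :=
      Finset.single_le_sum (f := fun r : Σ _ : ℤ, ℤ × ℤ × ℤ => weight r.2)
        (fun i _ => (weight_pos i.2).le) hmem
    rw [h] at hle
    exact (weight_pos q.2).not_ge hle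
  have hfib : ∀ x ∈ S,
      ∑ q ∈ (traceForms n).filter (fun q => jfun (rootOf q.2) = x), weight q.2 =
        ((diagAll n).rootMultiplicity x : ℚ) + (sqInd n : ℚ) * defect x := fun x hx => by
    obtain ⟨⟨a, b, c⟩, τ, hf, hr, rfl⟩ := hred x hx
    exact sum_fibre_all hn0 hf hr
  have hdef : ∑ x ∈ S, (sqInd n : ℚ) * defect x = (sqInd n : ℚ) * (7 / 6) := by
    rw [← Finset.mul_sum, sqInd]
    split_ifs with hs
    · have h1 : (1728 : ℂ) ∈ S := by simp [hS, hs]
      have h0 : (0 : ℂ) ∈ S := by simp [hS, hs]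
      simp only [defect, Finset.sum_add_distrib, Finset.sum_ite_eq', if_pos h1, if_pos h0]
      norm_num
    · simp
  have hdeg : ∑ x ∈ S, (diagAll n).rootMultiplicity x = (diagAll n).natDegree := by
    rw [← Finset.sum_subset Finset.subset_union_left fun x _ hx => by
      rw [← count_roots]; exact Multiset.count_eq_zero.2 (by simpa using hx),
      ← IsAlgClosed.card_roots_eq_natDegree]
    simp_rw [← count_roots]
    rw [Multiset.toFinset_sum_count_eq]
  rw [hrw, ← Finset.sum_fiberwise_of_maps_to hmaps (fun q => weight q.2),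
    Finset.sum_congr rfl hfib, Finset.sum_add_distrib, hdef, ← Nat.cast_sum, hdeg,
    ← natDegree_diagAll hn0]
  push_cast
  ring

/-- The relation for `n` no square. -/
theorem class_number_relation_sum {m : ℕ} (hm : ¬ IsSquare m) :
    ∑ t ∈ traces m, classNumberH (4 * (m : ℤ) - t ^ 2).toNat =
      ((∑ a ∈ m.divisors, max a (m / a) : ℕ) : ℚ) := by
  rw [class_number_relation_all (n := m) (by rintro rfl; exact hm ⟨0, rfl⟩), sqInd, if_neg hm,
    Nat.cast_zero, zero_div, add_zero]

/-- The divisors and their cofactors. -/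
theorem sum_max_add_min (m : ℕ) :
    (∑ a ∈ m.divisors, max a (m / a)) + ∑ a ∈ m.divisors, min a (m / a) =
      2 * ∑ a ∈ m.divisors, a := by
  have h := Nat.sum_div_divisors m id
  simp only [id] at h
  rw [← Finset.sum_add_distrib, Finset.sum_congr rfl fun a _ => max_add_min a (m / a),
    Finset.sum_add_distrib, h, two_mul]

/-- The relation for a prime. -/
theorem class_number_relation (p : ℕ) [hp : Fact p.Prime] :
    ∑ t ∈ traces p, classNumberH (4 * (p : ℤ) - t ^ 2).toNat = 2 * p := by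
  rw [class_number_relation_sum (Fact.out : ¬ IsSquare p), hp.out.divisors,
    Finset.sum_pair hp.out.one_lt.ne, Nat.div_one, Nat.div_self hp.out.pos,
    max_eq_right hp.out.one_lt.le, max_eq_left hp.out.one_lt.le]
  push_cast
  ring

end FA.ClassRelation

end
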