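import Mathlib.RingTheory.MvPolynomial.WeightedHomogeneous
import Mathlib.RingTheory.Polynomial.Eisenstein.Criterion
import Mathlib.RingTheory.Polynomial.UniqueFactorization
import Mathlib.Algebra.Polynomial.Reverse
import Mathlib.Tactic.LinearCombination

/-!
# Isobaric polynomials in two variables

With weights `4` and `6`: an isobaric polynomial with value `0` at `(1, 1)` is a multiple of
`X³ - Y²`, a factor of an isobaric polynomial is isobaric, and if an isobaric `A` of positive
weight has a simple prime factor then `A - 1` is irreducible, as `A - Tⁿ` is Eisenstein.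
-/

set_option autoImplicit false

noncomputable section

namespace FA.SwinnertonDyer

open MvPolynomial

variable {k : Type*} [Field k]

/-- The weights of `E₄` and `E₆`. -/
def wts : Fin 2 → ℕ := ![4, 6]

/-- Isobaric of weight `n`. -/
abbrev Isob {R : Type*} [CommRing R] (F : MvPolynomial (Fin 2) R) (n : ℕ) : Prop :=
  IsWeightedHomogeneous wts F n

/-- The grading as a substitution. -/
def sigma : MvPolynomial (Fin 2) k →ₐ[k] Polynomial (MvPolynomial (Fin 2) k) :=
  aeval fun i => Polynomial.C (X i) * Polynomial.X ^ wts i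

theorem weight_eq (d : Fin 2 →₀ ℕ) : Finsupp.weight wts d = 4 * d 0 + 6 * d 1 := by
  rw [Finsupp.weight_apply, Finsupp.sum_fintype _ _ fun _ => by simp, Fin.sum_univ_two]
  simp [wts, mul_comm]

theorem monomial_eq_mul {R : Type*} [CommRing R] (d : Fin 2 →₀ ℕ) (c : R) :
    monomial d c = C c * (X 0 ^ d 0 * X 1 ^ d 1) := by
  rw [monomial_eq, Finsupp.prod_fintype _ _ fun _ => pow_zero _, Fin.prod_univ_two]

theorem sigma_monomial (d : Fin 2 →₀ ℕ) (c : k) :
    sigma (monomial d c) =
      Polynomial.C (monomial d c) * Polynomial.X ^ Finsupp.weight wts d := by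
  rw [monomial_eq_mul, weight_eq, map_mul (sigma : MvPolynomial (Fin 2) k →ₐ[k] _), map_mul,
    map_pow, map_pow]
  simp only [sigma, aeval_X, aeval_C, wts, Matrix.cons_val_zero, Matrix.cons_val_one,
    Matrix.cons_val_fin_one, map_mul, map_pow, Polynomial.algebraMap_apply, algebraMap_eq]
  ring

theorem coeff_sigma (F : MvPolynomial (Fin 2) k) (j : ℕ) :
    (sigma F).coeff j = weightedHomogeneousComponent wts j F := by
  induction F using MvPolynomial.induction_on' with
  | monomial d c =>
    rw [sigma_monomial, Polynomial.coeff_C_mul_X_pow]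
    split_ifs with h
    · exact ((isWeightedHomogeneous_monomial wts d c h.symm).weightedHomogeneousComponent_same).symm
    · exact ((isWeightedHomogeneous_monomial wts d c rfl).weightedHomogeneousComponent_ne j
        h).symm
  | add p q hp hq => rw [map_add, Polynomial.coeff_add, hp, hq, map_add]

theorem eval_sigma (F : MvPolynomial (Fin 2) k) : (sigma F).eval 1 = F := by
  induction F using MvPolynomial.induction_on' with
  | monomial d c => rw [sigma_monomial]; simp
  | add p q hp hq => rw [map_add, Polynomial.eval_add, hp, hq]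

theorem sigma_ne_zero {F : MvPolynomial (Fin 2) k} (h : F ≠ 0) : sigma F ≠ 0 := fun e =>
  h (by rw [← eval_sigma F, e, Polynomial.eval_zero])

theorem sigma_isob {F : MvPolynomial (Fin 2) k} {n : ℕ} (h : Isob F n) :
    sigma F = Polynomial.C F * Polynomial.X ^ n := by
  refine Polynomial.ext fun j => ?_
  rw [coeff_sigma, Polynomial.coeff_C_mul_X_pow]
  split_ifs with hj
  · rw [hj, h.weightedHomogeneousComponent_same]
  · exact h.weightedHomogeneousComponent_ne j hj

/-- A factor of an isobaric polynomial is isobaric. -/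
theorem isob_of_dvd {F G : MvPolynomial (Fin 2) k} {n : ℕ} (hF : F ≠ 0) (h : Isob F n)
    (hG : G ∣ F) : ∃ m, m ≤ n ∧ Isob G m := by
  obtain ⟨H, rfl⟩ := hG
  obtain ⟨hG0, hH0⟩ := mul_ne_zero_iff.1 hF
  have hs := sigma_isob h
  rw [map_mul] at hs
  have hd := congrArg Polynomial.natDegree hs
  have ht := congrArg Polynomial.natTrailingDegree hs
  rw [Polynomial.natDegree_mul (sigma_ne_zero hG0) (sigma_ne_zero hH0),
    Polynomial.natDegree_C_mul_X_pow n _ hF] at hd
  rw [Polynomial.natTrailingDegree_mul (sigma_ne_zero hG0) (sigma_ne_zero hH0),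
    Polynomial.natTrailingDegree_mul_X_pow (by simpa using hF), Polynomial.natTrailingDegree_C,
    zero_add] at ht
  have h1 := Polynomial.natTrailingDegree_le_natDegree (sigma G)
  have h2 := Polynomial.natTrailingDegree_le_natDegree (sigma H)
  refine ⟨(sigma G).natDegree, by omega, ?_⟩
  have hmono : sigma G = Polynomial.C ((sigma G).coeff (sigma G).natDegree) *
      Polynomial.X ^ (sigma G).natDegree := by
    refine Polynomial.ext fun j => ?_
    rw [Polynomial.coeff_C_mul_X_pow]
    split_ifs with hj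
    · rw [hj]
    · rcases lt_or_gt_of_ne hj with hj | hj
      · exact Polynomial.coeff_eq_zero_of_lt_natTrailingDegree (by omega)
      · exact Polynomial.coeff_eq_zero_of_natDegree_lt hj
  have e := eval_sigma G
  rw [hmono, Polynomial.eval_mul, Polynomial.eval_C, Polynomial.eval_pow, Polynomial.eval_X,
    one_pow, mul_one, coeff_sigma] at e
  have := weightedHomogeneousComponent_isWeightedHomogeneous (w := wts) (sigma G).natDegree G
  rwa [e] at this

/-- An isobaric polynomial vanishing at `(1, 1)` is a multiple of `X³ - Y²`. -/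
theorem exists_eq_mul {F : MvPolynomial (Fin 2) k} {n : ℕ} (h : Isob F n)
    (h1 : eval (fun _ => 1) F = 0) :
    F = 0 ∨ ∃ G, 12 ≤ n ∧ Isob G (n - 12) ∧ F = (X 0 ^ 3 - X 1 ^ 2) * G := by
  set b₀ := n / 2 % 2
  set a₀ := (n - 6 * b₀) / 4
  have key : ∃ G, F = C (eval (fun _ => 1) F) * (X 0 ^ a₀ * X 1 ^ b₀) +
      (X 0 ^ 3 - X 1 ^ 2) * G := by
    clear h1
    induction h using IsWeightedHomogeneous.induction_on with
    | zero => exact ⟨0, by simp⟩
    | add p q _ _ hp hq =>
      obtain ⟨G, hp⟩ := hp
      obtain ⟨H, hq⟩ := hq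
      refine ⟨G + H, ?_⟩
      rw [map_add, map_add]
      linear_combination hp + hq
    | monomial d r hd =>
      rw [weight_eq] at hd
      obtain ⟨t, ht, ha⟩ : ∃ t, d 1 = b₀ + 2 * t ∧ a₀ = d 0 + 3 * t := ⟨d 1 / 2, by omega⟩
      obtain ⟨Q, hQ⟩ := sub_dvd_pow_sub_pow (X 0 ^ 3 : MvPolynomial (Fin 2) k) (X 1 ^ 2) t
      refine ⟨-(C r * (X 0 ^ d 0 * X 1 ^ b₀) * Q), ?_⟩
      rw [monomial_eq_mul, ha, ht]
      simp only [map_mul, eval_C, map_pow, eval_X, one_pow, mul_one, pow_add, pow_mul]
      linear_combination (-(C r * (X 0 ^ d 0 * X 1 ^ b₀))) * hQ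
  obtain ⟨G, hG⟩ := key
  rw [h1, map_zero, zero_mul, zero_add] at hG
  rcases eq_or_ne F 0 with h0 | h0
  · exact Or.inl h0
  obtain ⟨m, -, hm⟩ := isob_of_dvd h0 h (Dvd.intro_left _ hG.symm)
  have hD : Isob (X 0 ^ 3 - X 1 ^ 2 : MvPolynomial (Fin 2) k) 12 :=
    ((isWeightedHomogeneous_X k wts 0).pow 3).sub ((isWeightedHomogeneous_X k wts 1).pow 2)
  have hn := h.inj_right h0 (hG ▸ hD.mul hm)
  exact Or.inr ⟨G, by omega, by rwa [show n - 12 = m by omega], hG⟩

/-- `A - 1` is irreducible if the isobaric `A` has a simple prime factor. -/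
theorem irreducible_sub_one {A π : MvPolynomial (Fin 2) k} {n : ℕ} (hn : 0 < n) (hA : Isob A n)
    (hπ : Prime π) (h1 : π ∣ A) (h2 : ¬π ^ 2 ∣ A) : Irreducible (A - 1) := by
  have hA0 : A ≠ 0 := fun e => h2 (e ▸ dvd_zero _)
  set f : Polynomial (MvPolynomial (Fin 2) k) := Polynomial.X ^ n - Polynomial.C A with hf
  have hmon : f.Monic := Polynomial.monic_X_pow_sub_C A hn.ne'
  have hdeg : f.degree = n := Polynomial.degree_X_pow_sub_C hn A
  have hirr : Irreducible f := by
    refine Polynomial.irreducible_of_eisenstein_criterion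
      ((Ideal.span_singleton_prime hπ.ne_zero).2 hπ) ?_ (fun j hj => ?_)
      (by rw [hdeg]; exact_mod_cast hn) ?_ hmon.isPrimitive
    · rw [hmon.leadingCoeff, Ideal.mem_span_singleton]
      exact fun h => hπ.not_isUnit (isUnit_of_dvd_one h)
    · rw [hdeg, Nat.cast_lt] at hj
      rw [hf, Polynomial.coeff_sub, Polynomial.coeff_X_pow, if_neg hj.ne, Polynomial.coeff_C,
        Ideal.mem_span_singleton]
      split_ifs <;> simp [h1]
    · rw [hf, Polynomial.coeff_sub, Polynomial.coeff_X_pow, if_neg hn.ne, Polynomial.coeff_C,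
        if_pos rfl, zero_sub, Ideal.neg_mem_iff, Ideal.span_singleton_pow,
        Ideal.mem_span_singleton]
      exact h2
  have hs : sigma (A - 1) = Polynomial.C (-1) + Polynomial.C A * Polynomial.X ^ n := by
    rw [map_sub, map_one, sigma_isob hA, map_neg, map_one]
    ring
  have hrev : (sigma (A - 1)).reverse = -f := by
    rw [hs, Polynomial.reverse_C_add, Polynomial.natDegree_C_mul_X_pow n A hA0,
      Polynomial.reverse_mul_X_pow, Polynomial.reverse_C, hf, map_neg, map_one]
    ring
  have key : ∀ B : MvPolynomial (Fin 2) k, (sigma B).coeff 0 ≠ 0 →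
      IsUnit (sigma B).reverse → IsUnit B := fun B h0 hu => by
    obtain ⟨u, hu', e⟩ := Polynomial.isUnit_iff.1 hu
    have hd : (sigma B).natDegree = 0 := by
      by_contra hd
      have h3 := congrArg (fun q => Polynomial.coeff q (sigma B).natDegree) e
      simp only [Polynomial.coeff_C, if_neg hd, Polynomial.coeff_reverse,
        Polynomial.revAt_le le_rfl, Nat.sub_self] at h3
      exact h0 h3.symm
    have e' : sigma B = Polynomial.C ((sigma B).coeff 0) := Polynomial.eq_C_of_natDegree_eq_zero hd
    rw [e', Polynomial.reverse_C, Polynomial.C_inj] at e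
    have := eval_sigma B
    rw [e', Polynomial.eval_C, ← e] at this
    exact this ▸ hu'
  have hcoeff : ∀ B C' : MvPolynomial (Fin 2) k, A - 1 = B * C' →
      (sigma B).coeff 0 * (sigma C').coeff 0 = -1 := fun B C' h => by
    rw [← Polynomial.mul_coeff_zero, ← map_mul, ← h, hs]
    simp [Polynomial.coeff_X_pow, hn.ne]
  refine ⟨fun hu => hirr.not_isUnit ?_, fun B C' h => ?_⟩
  · obtain ⟨c, hc, e⟩ := Polynomial.isUnit_iff.1 (hu.map sigma)
    have h3 := congrArg (fun q => Polynomial.coeff q n) e
    simp [hs, Polynomial.coeff_C, Polynomial.coeff_one, hn.ne'] at h3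
    exact absurd h3.symm hA0
  · have hmul : (sigma B).reverse * (sigma C').reverse = -f := by
      rw [← hrev, h, map_mul, Polynomial.reverse_mul_of_domain]
    have hB : (sigma B).coeff 0 ≠ 0 := fun e => by simpa [e] using hcoeff B C' h
    have hC : (sigma C').coeff 0 ≠ 0 := fun e => by simpa [e] using hcoeff B C' h
    exact (((Associated.refl f).neg_right.irreducible hirr).isUnit_or_isUnit hmul.symm).imp
      (key B hB) (key C' hC)

end FA.SwinnertonDyer

end
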