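import Fermat.Agent.Tau.FieldClassBound
import Mathlib.NumberTheory.Zsqrtd.Basic
import Mathlib.NumberTheory.NumberField.ClassNumber
import Mathlib.Algebra.Polynomial.Roots

/-!
# `x² + d = y ^ n` and the class number of `ℚ(√-d)`

For `d ≡ 1, 2 (mod 4)` squarefree the integers of `K = ℚ(√-d)` are `ℤ[√-d]` and the conjugates
`x ± √-d` of a solution are coprime. So `(x + √-d)` is the `n`-th power of an ideal, principal when
`n` is prime to `h_K`, and the units are `n`-th powers for odd `n`: `x + √-d` is an `n`-th power.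
-/

set_option autoImplicit false
set_option linter.style.haveILetI false

noncomputable section

namespace FA.LebesgueNagell

open NumberField Module
open scoped nonZeroDivisors

variable {K : Type*} [Field K] [NumberField K] {d : ℕ} {s : K}

omit [NumberField K] in
/-- The root as an integer. -/
theorem exists_intRoot (hs : s ^ 2 = -(d : K)) :
    ∃ S : 𝓞 K, (S : K) = s ∧ S * S = ((-(d : ℤ) : ℤ) : 𝓞 K) := by
  refine ⟨⟨s, Polynomial.X ^ 2 + Polynomial.C (d : ℤ), by monicity!, ?_⟩, rfl,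
    RingOfIntegers.ext ?_⟩
  · simp [hs]
  · push_cast
    simpa [pow_two] using hs

/-- The integers are `ℤ[√-d]`. -/
theorem lift_bijective (hK : finrank ℚ K = 2) (hd : Squarefree d) (hd4 : d % 4 = 1 ∨ d % 4 = 2)
    {S : 𝓞 K} (hs : s ^ 2 = -(d : K)) (hS : (S : K) = s)
    (hSS : S * S = ((-(d : ℤ) : ℤ) : 𝓞 K)) :
    Function.Bijective (Zsqrtd.lift ⟨S, hSS⟩ : ℤ√(-(d : ℤ)) →+* 𝓞 K) := by
  refine ⟨Zsqrtd.lift_injective _ fun n hn => ?_, fun r => ?_⟩
  · have : (0 : ℤ) < d := by omega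
    nlinarith [mul_self_nonneg n]
  have hdz : Squarefree (-(d : ℤ)) := Int.squarefree_natAbs.1 (by simpa using hd)
  obtain ⟨A, B, N, h1, hN⟩ := FA.FieldClassBound.exists_double_coord hK hdz (by omega)
    (s := s) (by push_cast; exact hs) r
  obtain ⟨⟨k, rfl⟩, ⟨l, rfl⟩⟩ : 2 ∣ A ∧ 2 ∣ B := by
    have e4 := congrArg (Int.cast : ℤ → ZMod 4) hN
    push_cast at e4
    rw [show (4 : ZMod 4) = 0 by decide, zero_mul] at e4
    have key : ∀ x y : ZMod 4, (x ^ 2 + 1 * y ^ 2 = 0 ∨ x ^ 2 + 2 * y ^ 2 = 0) →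
        (x = 0 ∨ x = 2) ∧ (y = 0 ∨ y = 2) := by decide
    have hd' : (d : ZMod 4) = 1 ∨ (d : ZMod 4) = 2 := by
      rcases hd4 with h | h
      · exact Or.inl (by rw [← ZMod.natCast_mod, h]; rfl)
      · exact Or.inr (by rw [← ZMod.natCast_mod, h]; rfl)
    have hk := key A B (hd'.imp (fun h => by rw [h] at e4; linear_combination e4)
      fun h => by rw [h] at e4; linear_combination e4)
    have hev : ∀ z : ℤ, ((z : ZMod 4) = 0 ∨ (z : ZMod 4) = 2) → 2 ∣ z := fun z hz => by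
      have : z % 4 = 0 % 4 ∨ z % 4 = 2 % 4 := hz.imp
        (fun h => (ZMod.intCast_eq_intCast_iff' z 0 4).1 (by simpa using h))
        (fun h => (ZMod.intCast_eq_intCast_iff' z 2 4).1 (by simpa using h))
      omega
    exact ⟨hev A hk.1, hev B hk.2⟩
  refine ⟨⟨k, l⟩, RingOfIntegers.ext ?_⟩
  rw [Zsqrtd.lift_apply_apply]
  simp [hS]
  push_cast at h1
  linear_combination -h1 / 2

/-- In `ℤ[√-d]`, `d ≥ 1`, the units are fourth roots of unity. -/
theorem unit_pow_four (hd : 0 < d) {w : ℤ√(-(d : ℤ))} (hw : IsUnit w) : w ^ 4 = 1 := by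
  have h1 : w.re * w.re + d * (w.im * w.im) = 1 := by
    have hn := (Zsqrtd.norm_eq_one_iff' (neg_nonpos.2 (Int.natCast_nonneg d)) w).2 hw
    rw [Zsqrtd.norm_def] at hn
    linarith
  by_cases hb : w.im = 0
  · have ha : w.re * w.re = 1 := by rw [hb] at h1; linarith
    have hsq : w * w = 1 := Zsqrtd.ext (by simp [hb, ha]) (by simp [hb])
    rw [show w ^ 4 = (w * w) * (w * w) by ring, hsq, one_mul]
  · have h2 : 1 ≤ w.im * w.im := by have := mul_self_pos.2 hb; omega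
    have h3 : (1 : ℤ) ≤ d := by exact_mod_cast hd
    have h4 : w.re * w.re = 0 := le_antisymm (by nlinarith) (mul_self_nonneg _)
    have h5 : (d : ℤ) = 1 ∧ w.im * w.im = 1 := ⟨by nlinarith, by nlinarith⟩
    have hsq : w * w = -1 := Zsqrtd.ext
      (by simp [mul_self_eq_zero.1 h4, h5.1, h5.2]) (by simp [mul_self_eq_zero.1 h4])
    rw [show w ^ 4 = (w * w) * (w * w) by ring, hsq, neg_one_mul, neg_neg]

/-- The parity and the common factors. -/
theorem coprime_of_eq (hd : Squarefree d) (hd4 : d % 4 = 1 ∨ d % 4 = 2) {n : ℕ} (hn : 2 ≤ n)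
    {x y : ℤ} (h : x ^ 2 + d = y ^ n) : IsCoprime (y ^ n) (2 * (d : ℤ)) := by
  have hy : ¬ (2 : ℤ) ∣ y := fun h2 => by
    have h4 : (2 : ℤ) ^ 2 ∣ y ^ n := (pow_dvd_pow_of_dvd h2 2).trans (pow_dvd_pow y hn)
    rw [← h] at h4
    obtain ⟨j, hj⟩ := h4
    rcases Int.even_or_odd' x with ⟨k, rfl | rfl⟩ <;> ring_nf at hj <;> omega
  refine IsCoprime.mul_right ((Int.prime_two.coprime_iff_not_dvd.2 hy).symm.pow_left) ?_
  rw [Int.isCoprime_iff_gcd_eq_one]
  by_contra hne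
  obtain ⟨p, hp, hpd⟩ := Nat.exists_prime_and_dvd hne
  have hpy : (p : ℤ) ∣ y ^ n := (Int.natCast_dvd_natCast.2 hpd).trans (Int.gcd_dvd_left _ _)
  have hpd' : (p : ℤ) ∣ d := (Int.natCast_dvd_natCast.2 hpd).trans (Int.gcd_dvd_right _ _)
  have hpx : (p : ℤ) ∣ x ^ 2 := (dvd_add_left hpd').1 (h ▸ hpy)
  have hp' := Nat.prime_iff_prime_int.1 hp
  have h2 : (p : ℤ) ^ 2 ∣ (d : ℤ) := (dvd_add_right (pow_dvd_pow_of_dvd
    (hp'.dvd_of_dvd_pow hpx) 2)).1 (h ▸ (pow_dvd_pow_of_dvd (hp'.dvd_of_dvd_pow hpy) 2).trans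
      (pow_dvd_pow y hn))
  rw [pow_two] at h2
  exact hp.ne_one (Nat.isUnit_iff.1 (hd p (Int.natCast_dvd_natCast.1 (by exact_mod_cast h2))))

/-- If `α ᾱ = y ^ n` with coprime factors then `(y, α) ^ n = (α)`. -/
theorem span_pow_eq {R : Type*} [CommRing R] {α β y : R} {n : ℕ} (hn : 0 < n)
    (hprod : α * β = y ^ n) (hcop : IsCoprime α β) :
    (Ideal.span {y} ⊔ Ideal.span {α}) ^ n = Ideal.span {α} := by
  have hsup : ∀ (A B : Ideal R) (m : ℕ), (A ⊔ B) ^ m ≤ A ^ m ⊔ B := by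
    intro A B m
    induction m with
    | zero => simp
    | succ k ih =>
      rw [pow_succ, pow_succ]
      refine (Ideal.mul_mono_left ih).trans ?_
      rw [Ideal.sup_mul, Ideal.mul_sup, Ideal.mul_sup]
      exact sup_le (sup_le le_sup_left (le_sup_of_le_right (Ideal.mul_le_inf.trans inf_le_right)))
        (sup_le (le_sup_of_le_right (Ideal.mul_le_inf.trans inf_le_left))
          (le_sup_of_le_right (Ideal.mul_le_inf.trans inf_le_left)))
  refine le_antisymm ((hsup _ _ n).trans (sup_le ?_ le_rfl)) ?_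
  · rw [Ideal.span_singleton_pow, Ideal.span_singleton_le_span_singleton]
    exact ⟨β, hprod.symm⟩
  · obtain ⟨k, rfl⟩ : ∃ k, n = k + 1 := ⟨n - 1, by omega⟩
    obtain ⟨u, v, huv⟩ := hcop.pow_left (m := k)
    have hmem : α = u * α ^ (k + 1) + v * y ^ (k + 1) := by
      rw [← hprod, pow_succ α]
      linear_combination -α * huv
    rw [Ideal.span_singleton_le_iff_mem]
    have hin : u * α ^ (k + 1) + v * y ^ (k + 1) ∈
        (Ideal.span {y} ⊔ Ideal.span {α}) ^ (k + 1) := add_mem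
      (Ideal.mul_mem_left _ _ (Ideal.pow_mem_pow
        (Ideal.mem_sup_right (Ideal.mem_span_singleton_self α)) _))
      (Ideal.mul_mem_left _ _ (Ideal.pow_mem_pow
        (Ideal.mem_sup_left (Ideal.mem_span_singleton_self y)) _))
    rwa [← hmem] at hin

/-- `b` divides the second coordinate of a power of `a + b √-d`. -/
theorem im_dvd_pow (w : ℤ√(-(d : ℤ))) (n : ℕ) : w.im ∣ (w ^ n).im := by
  induction n with
  | zero => simp
  | succ k ih =>
    rw [pow_succ, Zsqrtd.im_mul]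
    exact dvd_add (dvd_mul_left _ _) (dvd_mul_of_dvd_left ih _)

/-- The norm of a power. -/
theorem norm_pow (w : ℤ√(-(d : ℤ))) (n : ℕ) :
    (w.re ^ 2 + d * w.im ^ 2) ^ n = (w ^ n).re ^ 2 + d * (w ^ n).im ^ 2 := by
  have h : ∀ v : ℤ√(-(d : ℤ)), Zsqrtd.norm v = v.re ^ 2 + d * v.im ^ 2 := fun v => by
    rw [Zsqrtd.norm_def]; ring
  rw [← h, ← h]
  exact (map_pow Zsqrtd.normMonoidHom w n).symm

/-- **The solutions of `x² + d = y ^ n`.** -/
theorem eq_iff (hK : finrank ℚ K = 2) (hd : Squarefree d) (hd4 : d % 4 = 1 ∨ d % 4 = 2)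
    (hs : s ^ 2 = -(d : K)) {n : ℕ} (hn : Odd n) (hn3 : 3 ≤ n)
    (hcl : Nat.Coprime n (classNumber K)) (x y : ℤ) :
    x ^ 2 + d = y ^ n ↔ ∃ a : ℤ, y = a ^ 2 + d ∧ ((⟨a, 1⟩ : ℤ√(-(d : ℤ))) ^ n).re = x ∧
      ((⟨a, 1⟩ : ℤ√(-(d : ℤ))) ^ n).im ^ 2 = 1 := by
  constructor
  swap
  · rintro ⟨a, rfl, hre, him⟩
    have h := norm_pow (d := d) ⟨a, 1⟩ n
    rw [hre, him] at h
    simpa using h.symm
  intro h
  have hd0 : 0 < d := by omega
  obtain ⟨S, hS, hSS⟩ := exists_intRoot hs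
  set ψ : ℤ√(-(d : ℤ)) →+* 𝓞 K := Zsqrtd.lift ⟨S, hSS⟩ with hψ
  have hbij : Function.Bijective ψ := lift_bijective hK hd hd4 hs hS hSS
  set v : ℤ√(-(d : ℤ)) := ⟨x, 1⟩ with hv
  set α : 𝓞 K := ψ v with hα
  set β : 𝓞 K := ψ (star v) with hβ
  have hprod : α * β = (y : 𝓞 K) ^ n := by
    rw [hα, hβ, ← map_mul, show v * star v = ((y ^ n : ℤ) : ℤ√(-(d : ℤ))) from by
      rw [← h]
      refine Zsqrtd.ext ?_ ?_ <;>
        rw [hv] <;> simp only [Zsqrtd.re_intCast, Zsqrtd.im_intCast, Zsqrtd.re_mul, Zsqrtd.im_mul,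
          Zsqrtd.re_star, Zsqrtd.im_star] <;> ring, map_intCast]
    push_cast; rfl
  have hcop : IsCoprime α β := by
    obtain ⟨p, q, hpq⟩ := coprime_of_eq hd hd4 (by omega) h
    have e : (p : 𝓞 K) * (y : 𝓞 K) ^ n + (q : 𝓞 K) * (2 * (d : 𝓞 K)) = 1 := by
      exact_mod_cast congrArg (Int.cast : ℤ → 𝓞 K) hpq
    have hαS : α = (x : 𝓞 K) + S := by simp [hα, hψ, hv, Zsqrtd.lift_apply_apply]
    have hβS : β = (x : 𝓞 K) - S := by
      simp [hβ, hψ, hv, Zsqrtd.lift_apply_apply, sub_eq_add_neg]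
    push_cast at hSS
    refine ⟨(p : 𝓞 K) * β - q * S, q * S, ?_⟩
    rw [hαS, hβS] at hprod ⊢
    linear_combination (p : 𝓞 K) * hprod + e - 2 * (q : 𝓞 K) * hSS
  have hy0 : (y : 𝓞 K) ≠ 0 := by
    intro h0
    rw [Int.cast_eq_zero] at h0
    rw [h0, zero_pow (by omega)] at h
    nlinarith [sq_nonneg x]
  set J : Ideal (𝓞 K) := Ideal.span {(y : 𝓞 K)} ⊔ Ideal.span {α} with hJ
  have hJn : J ^ n = Ideal.span {α} := span_pow_eq (by omega) hprod hcop
  have hJ0 : J ∈ (Ideal (𝓞 K))⁰ := mem_nonZeroDivisors_iff_ne_zero.2 fun h0 => by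
    have h2 : (y : 𝓞 K) ∈ J := Ideal.mem_sup_left (Ideal.mem_span_singleton_self _)
    rw [h0, Ideal.zero_eq_bot, Ideal.mem_bot] at h2
    exact hy0 h2
  have hcls : ClassGroup.mk0 ⟨J, hJ0⟩ ^ n = 1 := by
    rw [← map_pow, ← Subtype.coe_eta (⟨J, hJ0⟩ ^ n : (Ideal (𝓞 K))⁰) (SetLike.coe_mem _),
      ClassGroup.mk0_eq_one_iff]
    exact ⟨⟨α, by rw [SubmonoidClass.coe_pow]; exact hJn⟩⟩
  have hone : ClassGroup.mk0 ⟨J, hJ0⟩ = 1 := orderOf_eq_one_iff.1 (Nat.eq_one_of_dvd_coprimes hcl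
    (orderOf_dvd_of_pow_eq_one hcls) orderOf_dvd_card)
  rw [ClassGroup.mk0_eq_one_iff] at hone
  obtain ⟨γ, hγ⟩ := hone.principal
  rw [Ideal.submodule_span_eq] at hγ
  rw [hγ, Ideal.span_singleton_pow] at hJn
  obtain ⟨u, hu⟩ := Ideal.span_singleton_eq_span_singleton.1 hJn
  obtain ⟨z, hz⟩ := hbij.2 γ
  obtain ⟨e, he⟩ := hbij.2 (u : 𝓞 K)
  have heu : IsUnit e := by
    obtain ⟨e', he'⟩ := hbij.2 ((u⁻¹ : (𝓞 K)ˣ) : 𝓞 K)
    exact IsUnit.of_mul_eq_one e' (hbij.1 (by rw [map_mul, he, he', ← Units.val_mul,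
      mul_inv_cancel, Units.val_one, map_one]))
  obtain ⟨j, rfl⟩ := hn
  have hen : (e ^ (2 * j + 1)) ^ (2 * j + 1) = e := by
    rw [← pow_mul, show (2 * j + 1) * (2 * j + 1) = 4 * (j * j + j) + 1 by ring, pow_succ,
      pow_mul, unit_pow_four hd0 heu, one_pow, one_mul]
  set w := z * e ^ (2 * j + 1) with hw
  have hwv : w ^ (2 * j + 1) = v := hbij.1 (by
    rw [hw, mul_pow, hen, map_mul, map_pow, hz, he]; exact hu)
  have hb : w.im = 1 ∨ w.im = -1 := Int.isUnit_iff.1 (isUnit_of_dvd_one (by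
    have := im_dvd_pow w (2 * j + 1)
    rw [hwv] at this
    exact this))
  have hy : y = w.re ^ 2 + d := by
    have hnorm := norm_pow w (2 * j + 1)
    rw [hwv, hv] at hnorm
    have hb2 : w.im ^ 2 = 1 := by rcases hb with e | e <;> rw [e] <;> norm_num
    rw [hb2, mul_one] at hnorm
    simp only [one_pow, mul_one] at hnorm
    exact (Odd.strictMono_pow ⟨j, rfl⟩).injective (show y ^ (2 * j + 1) =
      (w.re ^ 2 + d) ^ (2 * j + 1) by rw [hnorm, h])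
  refine ⟨w.re, hy, ?_⟩
  rcases hb with hb | hb
  · rw [show (⟨w.re, 1⟩ : ℤ√(-(d : ℤ))) = w from Zsqrtd.ext rfl hb.symm, hwv]
    exact ⟨rfl, by simp [hv]⟩
  · rw [show (⟨w.re, 1⟩ : ℤ√(-(d : ℤ))) = star w from Zsqrtd.ext rfl (by simp [hb]),
      ← star_pow, hwv]
    exact ⟨rfl, by simp [hv]⟩

/-- Only finitely many `a` give a power with second coordinate `± 1`. -/
theorem finite_param (hd4 : d % 4 = 1 ∨ d % 4 = 2)
    (hs : s ^ 2 = -(d : K)) {n : ℕ} (hn : 2 ≤ n) :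
    {a : ℤ | ((⟨a, 1⟩ : ℤ√(-(d : ℤ))) ^ n).im ^ 2 = 1}.Finite := by
  obtain ⟨S, hS, hSS⟩ := exists_intRoot hs
  set ψ : ℤ√(-(d : ℤ)) →+* 𝓞 K := Zsqrtd.lift ⟨S, hSS⟩ with hψ
  have hS0 : S ≠ 0 := fun h0 => by
    rw [h0, mul_zero, eq_comm, Int.cast_eq_zero] at hSS
    omega
  have hfin : ∀ ε : ℤ, {a : ℤ | ((⟨a, 1⟩ : ℤ√(-(d : ℤ))) ^ n).im = ε}.Finite := by
    intro ε
    set P : Polynomial (𝓞 K) := (Polynomial.X + Polynomial.C S) ^ n -
      (Polynomial.X + Polynomial.C (-S)) ^ n - Polynomial.C (2 * (ε : 𝓞 K) * S) with hP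
    have hP0 : P ≠ 0 := fun h0 => by
      have h1 := congrArg (fun q : Polynomial (𝓞 K) => q.coeff (n - 1)) h0
      simp only [hP, Polynomial.coeff_sub, Polynomial.coeff_X_add_C_pow, Polynomial.coeff_C,
        Polynomial.coeff_zero, if_neg (show n - 1 ≠ 0 by omega),
        show n - (n - 1) = 1 by omega, pow_one, sub_zero, neg_mul, sub_neg_eq_add] at h1
      rw [← two_mul, mul_eq_zero, mul_eq_zero, Nat.cast_eq_zero] at h1
      rcases h1 with h1 | h1 | h1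
      · norm_num at h1
      · exact hS0 h1
      · exact Nat.choose_ne_zero (Nat.sub_le n 1) h1
    refine ((Polynomial.finite_setOfPred_isRoot hP0).preimage
      (f := fun a : ℤ => (a : 𝓞 K)) Int.cast_injective.injOn).subset fun a ha => ?_
    simp only [Set.mem_ofPred_eq, Set.mem_preimage] at ha ⊢
    have e1 : ∀ w : ℤ√(-(d : ℤ)), ψ w - ψ (star w) = 2 * (w.im : 𝓞 K) * S := fun w => by
      simp [hψ, Zsqrtd.lift_apply_apply]; ring
    have e2 := e1 ((⟨a, 1⟩ : ℤ√(-(d : ℤ))) ^ n)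
    rw [ha, star_pow, map_pow, map_pow] at e2
    simp [hψ, Zsqrtd.lift_apply_apply] at e2
    simp [hP, Polynomial.IsRoot, e2]
  refine ((hfin 1).union (hfin (-1))).subset fun a ha => ?_
  exact sq_eq_one_iff.1 ha

/-- The cube of `a + √-d`. -/
theorem cube_coords (a : ℤ) :
    ((⟨a, 1⟩ : ℤ√(-(d : ℤ))) ^ 3).re = a * (a ^ 2 - 3 * d) ∧
      ((⟨a, 1⟩ : ℤ√(-(d : ℤ))) ^ 3).im = 3 * a ^ 2 - d := by
  simp [pow_succ, pow_zero]
  constructor <;> ring

end FA.LebesgueNagell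

end
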