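import Fermat.Agent.Tau.ModularFormsModP
import Fermat.Agent.Tau.JPolynomial

/-!
# Forms with integral expansions modulo `p`

Such a form of weight `n` reduces to the value of an isobaric polynomial of weight `n`: remove the
constant term and divide by `Δ`. Hence congruent forms have congruent weights modulo `p - 1`.
-/

set_option autoImplicit false

noncomputable section

namespace FA.SwinnertonDyer

open MvPolynomial FA.Tau FA.Eis UpperHalfPlane
open scoped MatrixGroups Manifold ModularForm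

variable {p : ℕ} [Fact p.Prime]

theorem exists_isob (h5 : 5 ≤ p) : ∀ (n : ℕ) (f : ℍ → ℂ) (S : PowerSeries ℤ),
    (∀ γ : SL(2, ℤ), f ∣[(n : ℤ)] γ = f) → HasQ 1 f (S.map (Int.castRingHom ℂ)) →
    ∃ G : MvPolynomial (Fin 2) (ZMod p), Isob G n ∧
      phi p G = S.map (Int.castRingHom (ZMod p)) := by
  intro n
  induction n using Nat.strong_induction_on with
  | _ n ih =>
    intro f S hinv hS
    by_cases hex : ∃ a b, 4 * a + 6 * b = n
    swap
    · set F := FA.ModField.levelOneForm f hinv (hS.mdiff one_pos) (hS.bdd one_pos)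
      have hspan := FA.LevelOneRing.mem_span (n + 1) _ (by push_cast; omega) F
      have : IsEmpty {q : ℕ × ℕ // 4 * (q.1 : ℤ) + 6 * q.2 = (n : ℤ)} :=
        ⟨fun q => hex ⟨q.1.1, q.1.2, by have := q.2; omega⟩⟩
      rw [Set.range_eq_empty, Submodule.span_empty, Submodule.mem_bot] at hspan
      have hf : f = 0 := hspan
      subst hf
      have hS0 := hS.eq_zero_of_fun one_pos
      refine ⟨0, isWeightedHomogeneous_zero _ _ _, ?_⟩
      have : S = 0 := PowerSeries.ext fun i => Int.cast_injective (α := ℂ) (by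
        simpa using congrArg (PowerSeries.coeff i) hS0)
      simp [this]
    obtain ⟨a, b, hab⟩ := hex
    set s₀ := PowerSeries.coeff 0 S
    set g : ℍ → ℂ := ⇑ModularForm.E₄ ^ a * ⇑ModularForm.E₆ ^ b
    set g' : PowerSeries ℤ := eFourInt ^ a * eSixInt ^ b
    have hg : HasQ 1 g (g'.map (Int.castRingHom ℂ)) := by
      rw [map_mul, map_pow, map_pow]
      exact (hasQ_eFour.pow one_pos a).mul one_pos (hasQ_eSix.pow one_pos b)
    set T := S - PowerSeries.C s₀ * g'
    have hT : HasQ 1 (f - (s₀ : ℂ) • g) (T.map (Int.castRingHom ℂ)) := by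
      rw [map_sub, map_mul, PowerSeries.map_C, ← PowerSeries.smul_eq_C_mul]
      exact hS.sub (hg.smul _)
    have hTinv : ∀ γ : SL(2, ℤ), (f - (s₀ : ℂ) • g) ∣[(n : ℤ)] γ = f - (s₀ : ℂ) • g := fun γ => by
      rw [sub_eq_add_neg, SlashAction.add_slash, SlashAction.neg_slash, ModularForm.SL_smul_slash,
        hinv γ]
      congr 3
      refine (FA.ModField.slash_eq_iff_smul γ).2 fun z => ?_
      simp only [g, Pi.mul_apply, Pi.pow_apply]
      rw [FA.ModField.E4_smul, FA.LevelOneRing.E6_smul, mul_pow, mul_pow, ← hab]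
      push_cast
      rw [zpow_add₀ (denom_ne_zero _ _), zpow_mul, zpow_mul, zpow_natCast, zpow_natCast]
      ring
    have hg0 : PowerSeries.coeff 0 g' = 1 := by
      have h4 : PowerSeries.constantCoeff eFourInt = 1 := by
        rw [← PowerSeries.coeff_zero_eq_constantCoeff_apply]; simp [eFourInt]
      have h6 : PowerSeries.constantCoeff eSixInt = 1 := by
        rw [← PowerSeries.coeff_zero_eq_constantCoeff_apply]; simp [eSixInt]
      simp [g', PowerSeries.coeff_zero_eq_constantCoeff_apply, h4, h6]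
    have hT0 : PowerSeries.coeff 0 T = 0 := by
      rw [map_sub, PowerSeries.coeff_C_mul, hg0, mul_one, sub_self]
    have hGX : Isob (C (s₀ : ZMod p) * (X 0 ^ a * X 1 ^ b)) n := by
      refine IsWeightedHomogeneous.C_mul ?_ _
      have h := ((isWeightedHomogeneous_X (ZMod p) wts 0).pow a).mul
        ((isWeightedHomogeneous_X (ZMod p) wts 1).pow b)
      rw [show a • wts 0 + b • wts 1 = n by simp [wts]; omega] at h
      exact h
    have hphi : phi p (C (s₀ : ZMod p) * (X 0 ^ a * X 1 ^ b)) =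
        (PowerSeries.C s₀ * g').map (Int.castRingHom (ZMod p)) := by
      simp only [g', map_mul, map_pow, PowerSeries.map_C]
      simp [phi, e4, e6]
    by_cases hn : n < 12
    · have hz := series_eq_zero hn hTinv hT
        (by rw [PowerSeries.coeff_map, hT0, map_zero])
      refine ⟨_, hGX, ?_⟩
      have hT' : T = 0 := PowerSeries.ext fun i => Int.cast_injective (α := ℂ) (by
        simpa using congrArg (PowerSeries.coeff i) hz)
      rw [hphi, ← sub_eq_zero.1 hT']
    set F := FA.ModField.levelOneForm (f - (s₀ : ℂ) • g) hTinv (hT.mdiff one_pos) (hT.bdd one_pos)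
    have hFc : (qExpansion 1 ⇑F).coeff 0 = 0 := by
      rw [show qExpansion 1 ⇑F = T.map (Int.castRingHom ℂ) from hT.qExpansion_eq one_pos,
        PowerSeries.coeff_map, hT0, map_zero]
    set F₁ := CuspForm.discriminantEquiv (ModularForm.toCuspForm F hFc)
    obtain ⟨W, hW⟩ : PowerSeries.X ∣ T := PowerSeries.X_dvd_iff.2
      (by rwa [← PowerSeries.coeff_zero_eq_constantCoeff_apply])
    set u := ModularCurve.dedekindEtaUnit
    set S₁ := W * u.invOfUnit 1
    have hTS : T = deltaInt * S₁ := by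
      have := PowerSeries.mul_invOfUnit u 1
        (by rw [ModularCurve.constantCoeff_dedekindEtaUnit]; rfl)
      rw [show deltaInt = PowerSeries.X * u from rfl, hW,
        show PowerSeries.X * u * S₁ = PowerSeries.X * W * (u * u.invOfUnit 1) by ring, this,
        mul_one]
    have hS1 : HasQ 1 ⇑F₁ (S₁.map (Int.castRingHom ℂ)) := by
      have h1 := FA.Tau.hasQ_discriminant.mul one_pos (hasQ_form F₁)
      rw [show ModularForm.discriminant * ⇑F₁ = f - (s₀ : ℂ) • g from funext fun z =>
        ModularForm.discriminant_mul_discriminantEquiv_apply (ModularForm.toCuspForm F hFc) z] at h1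
      have h2 := HasQ.unique one_pos h1 hT
      rw [hTS, map_mul] at h2
      rw [← mul_left_cancel₀ (fun e => by
        have := congrArg (PowerSeries.coeff 1) e
        simp [PowerSeries.coeff_map, coeff_deltaInt_one] at this) h2]
      exact hasQ_form F₁
    obtain ⟨G₁, hG₁, hphi₁⟩ := ih (n - 12) (by omega) ⇑F₁ S₁ (fun γ => by
      rw [show ((n - 12 : ℕ) : ℤ) = (n : ℤ) - 12 by omega]
      exact F₁.slash_action_eq' _ ⟨γ, rfl⟩) hS1
    refine ⟨C (s₀ : ZMod p) * (X 0 ^ a * X 1 ^ b) +
      C ((1728 : ZMod p)⁻¹) * ((X 0 ^ 3 - X 1 ^ 2) * G₁), hGX.add ?_, ?_⟩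
    · refine IsWeightedHomogeneous.C_mul ?_ _
      have hD : Isob (X 0 ^ 3 - X 1 ^ 2 : MvPolynomial (Fin 2) (ZMod p)) 12 :=
        ((isWeightedHomogeneous_X (ZMod p) wts 0).pow 3).sub
          ((isWeightedHomogeneous_X (ZMod p) wts 1).pow 2)
      convert hD.mul hG₁ using 1
      omega
    · rw [map_add (phi p), hphi, show S = PowerSeries.C s₀ * g' + T from (add_sub_cancel _ _).symm,
        map_add (PowerSeries.map _), hTS, map_mul (phi p), map_mul (phi p), hphi₁,
        show phi p (X 0 ^ 3 - X 1 ^ 2) = e4 p ^ 3 - e6 p ^ 2 by simp [phi], ← delta_p,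
        show phi p (C ((1728 : ZMod p)⁻¹)) = PowerSeries.C ((1728 : ZMod p)⁻¹) by
          simp [phi, PowerSeries.algebraMap_eq],
        show (1728 : PowerSeries (ZMod p)) = PowerSeries.C 1728 from (map_ofNat _ 1728).symm,
        mul_assoc (PowerSeries.C (1728 : ZMod p)), ← mul_assoc (PowerSeries.C (1728 : ZMod p)⁻¹),
        show PowerSeries.C (1728 : ZMod p)⁻¹ * PowerSeries.C 1728 = 1 by
          rw [← map_mul, inv_mul_cancel₀ (c1728_ne h5), map_one], one_mul, map_mul _ deltaInt]

/-- **Congruent forms have congruent weights.** -/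
theorem congruent_weights (h5 : 5 ≤ p) {k k' : ℕ} (F : ModularForm 𝒮ℒ (k : ℤ))
    (G : ModularForm 𝒮ℒ (k' : ℤ)) {S S' : PowerSeries ℤ}
    (hS : qExpansion 1 ⇑F = S.map (Int.castRingHom ℂ))
    (hS' : qExpansion 1 ⇑G = S'.map (Int.castRingHom ℂ))
    (hcongr : S.map (Int.castRingHom (ZMod p)) = S'.map (Int.castRingHom (ZMod p)))
    (h0 : S.map (Int.castRingHom (ZMod p)) ≠ 0) : k ≡ k' [MOD p - 1] := by
  obtain ⟨A, hA, hA'⟩ := exists_isob h5 k ⇑F S (fun γ => F.slash_action_eq' _ ⟨γ, rfl⟩)
    (hS ▸ hasQ_form F)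
  obtain ⟨B, hB, hB'⟩ := exists_isob h5 k' ⇑G S' (fun γ => G.slash_action_eq' _ ⟨γ, rfl⟩)
    (hS' ▸ hasQ_form G)
  exact weight_congr h5 hA hB (by rw [hA', hB', hcongr]) (by rwa [hA'])

end FA.SwinnertonDyer

end
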