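import Fermat.Agent.Tau.Differential
import Fermat.Agent.ModField.JFunction
import Mathlib.NumberTheory.ModularForms.EisensteinSeries.E2.Transform
import Mathlib.NumberTheory.ModularForms.CuspFormSubmodule
import Mathlib.RingTheory.AlgebraicIndependent.Basic
import Mathlib.Algebra.MvPolynomial.Funext
import Mathlib.RingTheory.MvPolynomial.Basic

/-!
# The ring of level one forms

`E₂`, `E₄` and `E₆` are algebraically independent functions, and the monomials `E₄ᵃ E₆ᵇ` of weight
`k` span the modular forms of weight `k`.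
-/

set_option autoImplicit false

noncomputable section

open UpperHalfPlane hiding I
open ModularForm EisensteinSeries FA.Eis FA.Tau
open Complex (I)
open scoped MatrixGroups Real

namespace FA.LevelOneRing

theorem eval_aeval (f : Fin 3 → Polynomial ℂ) (P : MvPolynomial (Fin 3) ℂ) (j : ℂ) :
    (MvPolynomial.aeval f P).eval j = MvPolynomial.eval (fun i => (f i).eval j) P := by
  induction P using MvPolynomial.induction_on with
  | C a => simp
  | add p q hp hq => simp [hp, hq]
  | mul_X p i hp => simp [hp]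

/-- The ratio `E₄³/E₆²` takes infinitely many finite non-zero values. -/
theorem infinite_ratio :
    {u : ℂ | ∃ z : ℍ, E₄ z ≠ 0 ∧ E₆ z ≠ 0 ∧ E₄ z ^ 3 = u * E₆ z ^ 2}.Infinite := by
  intro hfin
  set A := eFourInt.map (Int.castRingHom ℂ)
  set B := eSixInt.map (Int.castRingHom ℂ)
  have hmul : ∀ S : Finset ℂ, HasQ 1 ((⇑E₄ * ⇑E₆) * ∏ u ∈ S, (⇑E₄ ^ 3 - u • ⇑E₆ ^ 2))
      ((A * B) * ∏ u ∈ S, (A ^ 3 - u • B ^ 2)) := fun S => by
    induction S using Finset.induction_on with
    | empty =>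
      rw [Finset.prod_empty, Finset.prod_empty, mul_one, mul_one]
      exact hasQ_eFour.mul one_pos hasQ_eSix
    | insert u S hu ih =>
      rw [Finset.prod_insert hu, Finset.prod_insert hu, mul_left_comm (⇑E₄ * ⇑E₆),
        mul_left_comm (A * B)]
      exact ((hasQ_eFour.pow one_pos 3).sub ((hasQ_eSix.pow one_pos 2).smul u)).mul one_pos ih
  have hzero : (⇑E₄ * ⇑E₆) * ∏ u ∈ hfin.toFinset, (⇑E₄ ^ 3 - u • ⇑E₆ ^ 2) = 0 := by
    funext z
    simp only [Pi.mul_apply, Finset.prod_apply, Pi.sub_apply, Pi.pow_apply, Pi.smul_apply,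
      smul_eq_mul, Pi.zero_apply]
    by_cases h4 : E₄ z = 0
    · simp [h4]
    by_cases h6 : E₆ z = 0
    · simp [h6]
    refine mul_eq_zero_of_right _ (Finset.prod_eq_zero
      (i := E₄ z ^ 3 / E₆ z ^ 2) (hfin.mem_toFinset.mpr ⟨z, h4, h6, ?_⟩) ?_)
    · field_simp
    · field_simp
      ring
  have h := hmul hfin.toFinset
  rw [hzero] at h
  have h0 := h.eq_zero_of_fun one_pos
  have hA : PowerSeries.constantCoeff A = 1 := by
    rw [← PowerSeries.coeff_zero_eq_constantCoeff, PowerSeries.coeff_map, eFourInt,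
      PowerSeries.coeff_mk]
    simp
  have hB : PowerSeries.constantCoeff B = 1 := by
    rw [← PowerSeries.coeff_zero_eq_constantCoeff, PowerSeries.coeff_map, eSixInt,
      PowerSeries.coeff_mk]
    simp
  rcases mul_eq_zero.mp h0 with hh | hh
  · rcases mul_eq_zero.mp hh with hh | hh
    · simp [hh] at hA
    · simp [hh] at hB
  · obtain ⟨u, -, hu⟩ := Finset.prod_eq_zero_iff.mp hh
    have hu1 : u = 1 := by
      have hc := congrArg PowerSeries.constantCoeff hu
      rw [PowerSeries.smul_eq_C_mul, map_sub, map_pow, map_mul, map_pow, hA, hB,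
        PowerSeries.constantCoeff_C, map_zero] at hc
      linear_combination -hc
    subst hu1
    rw [one_smul] at hu
    have hQ := (hasQ_eFour.pow one_pos 3).sub (hasQ_eSix.pow one_pos 2)
    rw [show eFourInt.map (Int.castRingHom ℂ) ^ 3 - eSixInt.map (Int.castRingHom ℂ) ^ 2 =
      A ^ 3 - B ^ 2 from rfl, hu] at hQ
    have e := (hQ UpperHalfPlane.I).unique (show HasSum _ (0 : ℂ) by simp [hasSum_zero])
    refine discriminant_ne_zero UpperHalfPlane.I ?_
    rw [discriminant_eq_E₄_cube_sub_E₆_sq]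
    simp only [Pi.sub_apply, Pi.pow_apply] at e
    rw [e, zero_div]

/-- The transformation of `E₂`, pointwise. -/
theorem E2_smul (g : SL(2, ℤ)) (z : ℍ) :
    E2 (g • z) = denom g z ^ 2 * E2 z -
      1 / (2 * riemannZeta 2) * (2 * π * I * (g 1 0 : ℂ)) * denom g z := by
  have h := congrFun (E2_slash_action g) z
  rw [ModularForm.SL_slash_apply, zpow_neg] at h
  have hd : denom (g : GL (Fin 2) ℝ) z ≠ 0 := denom_ne_zero _ _
  simp only [Pi.sub_apply, Pi.smul_apply, smul_eq_mul, D2] at h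
  field_simp at h ⊢
  norm_cast at h ⊢

theorem E6_smul (g : SL(2, ℤ)) (z : ℍ) :
    E₆ (g • z) = denom g z ^ (6 : ℤ) * E₆ z :=
  (FA.ModField.slash_eq_iff_smul g).mp (E₆.slash_action_eq' _ ⟨g, rfl⟩) z

/-- **`E₂`, `E₄` and `E₆` are algebraically independent.** -/
theorem eval_eq_zero {P : MvPolynomial (Fin 3) ℂ}
    (hP : ∀ z : ℍ, MvPolynomial.eval ![E2 z, E₄ z, E₆ z] P = 0) : P = 0 := by
  set l : ℂ := -(1 / (2 * riemannZeta 2) * (2 * π * I)) with hl
  have hl0 : l ≠ 0 := by
    have hpi : (π : ℂ) ≠ 0 := Complex.ofReal_ne_zero.mpr Real.pi_ne_zero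
    rw [hl, riemannZeta_two]
    simp [hpi, Complex.I_ne_zero]
  -- the weights separate
  have h1 : ∀ (z : ℍ) (c : ℤ), c ≠ 0 → ∀ j : ℂ, MvPolynomial.eval
      ![j ^ 2 * E2 z + l * c * j, j ^ 4 * E₄ z, j ^ 6 * E₆ z] P = 0 := fun z c hc j => by
    set f : Fin 3 → Polynomial ℂ := ![Polynomial.C (E2 z) * Polynomial.X ^ 2 +
      Polynomial.C (l * c) * Polynomial.X, Polynomial.C (E₄ z) * Polynomial.X ^ 4,
      Polynomial.C (E₆ z) * Polynomial.X ^ 6]
    have hf : ∀ j : ℂ, (fun i => (f i).eval j) =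
        ![j ^ 2 * E2 z + l * c * j, j ^ 4 * E₄ z, j ^ 6 * E₆ z] := fun j => by
      funext i
      fin_cases i <;> simp [f] <;> ring
    suffices hz : MvPolynomial.aeval f P = 0 by
      rw [← hf j, ← eval_aeval, hz, Polynomial.eval_zero]
    refine Polynomial.eq_zero_of_infinite_isRoot _ (Set.Infinite.mono ?_
      (Set.infinite_range_of_injective (f := fun t : ℤ => (c : ℂ) * (z : ℂ) + ((c * t + 1 : ℤ) : ℂ))
        fun a b h => by
          have := Int.cast_injective (add_left_cancel h)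
          exact mul_left_cancel₀ hc (by linarith)))
    rintro _ ⟨t, rfl⟩
    let g : SL(2, ℤ) := ⟨!![1, t; c, c * t + 1], by rw [Matrix.det_fin_two_of]; ring⟩
    have hden : denom g z = (c : ℂ) * (z : ℂ) + ((c * t + 1 : ℤ) : ℂ) := by
      show (((((!![1, t; c, c * t + 1] : Matrix (Fin 2) (Fin 2) ℤ) 1 0 : ℤ) : ℝ) : ℂ)) * (z : ℂ) +
        (((((!![1, t; c, c * t + 1] : Matrix (Fin 2) (Fin 2) ℤ) 1 1 : ℤ) : ℝ) : ℂ)) = _
      simp
    have := hP (g • z)
    rw [E2_smul, FA.ModField.E4_smul, E6_smul, hden] at this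
    show (MvPolynomial.aeval f P).eval _ = 0
    rw [eval_aeval, hf]
    convert this using 3
    funext i
    fin_cases i
    · simp [g, hl]; ring
    · simp
    · simp
  have h2 : ∀ (z : ℍ) (j : ℂ), j ≠ 0 → ∀ t : ℂ,
      MvPolynomial.eval ![t, j ^ 4 * E₄ z, j ^ 6 * E₆ z] P = 0 := fun z j hj t => by
    set f : Fin 3 → Polynomial ℂ :=
      ![Polynomial.X, Polynomial.C (j ^ 4 * E₄ z), Polynomial.C (j ^ 6 * E₆ z)]
    have hf : ∀ t : ℂ, (fun i => (f i).eval t) = ![t, j ^ 4 * E₄ z, j ^ 6 * E₆ z] := fun t => by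
      funext i
      fin_cases i <;> simp [f]
    suffices hz : MvPolynomial.aeval f P = 0 by
      rw [← hf t, ← eval_aeval, hz, Polynomial.eval_zero]
    refine Polynomial.eq_zero_of_infinite_isRoot _ (Set.Infinite.mono ?_
      (Set.infinite_range_of_injective
        (f := fun m : ℕ => j ^ 2 * E2 z + l * (((m : ℤ) + 1 : ℤ) : ℂ) * j) fun a b h => by
          have := Int.cast_injective
            (mul_left_cancel₀ hl0 (mul_right_cancel₀ hj (add_left_cancel h)))
          omega))
    rintro _ ⟨m, rfl⟩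
    show (MvPolynomial.aeval f P).eval _ = 0
    rw [eval_aeval, hf]
    exact h1 z _ (by omega) j
  -- the curves fill up the plane
  have h3 : ∀ t x y : ℂ, y ≠ 0 → MvPolynomial.eval ![t, x, y] P = 0 := fun t x y hy => by
    set f : Fin 3 → Polynomial ℂ := ![Polynomial.C t, Polynomial.X, Polynomial.C y]
    have hf : ∀ x : ℂ, (fun i => (f i).eval x) = ![t, x, y] := fun x => by
      funext i
      fin_cases i <;> simp [f]
    suffices hz : MvPolynomial.aeval f P = 0 by
      rw [← hf x, ← eval_aeval, hz, Polynomial.eval_zero]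
    refine Polynomial.eq_zero_of_infinite_isRoot _ fun hfin => infinite_ratio
      ((hfin.image fun x => x ^ 3 / y ^ 2).subset ?_)
    rintro u ⟨z, h4, h6, hu⟩
    obtain ⟨x, hx⟩ := IsAlgClosed.exists_pow_nat_eq (u * y ^ 2) (n := 3) (by norm_num)
    refine ⟨x, ?_, by show x ^ 3 / y ^ 2 = u; rw [hx]; field_simp⟩
    show (MvPolynomial.aeval f P).eval _ = 0
    rw [eval_aeval, hf]
    have hu0 : u ≠ 0 := fun h => h4 (pow_eq_zero_iff three_ne_zero |>.mp (by rw [hu, h, zero_mul]))
    have hx0 : x ≠ 0 := fun h => by simp [h, hu0, hy] at hx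
    set a := x / E₄ z with ha
    set b := y / E₆ z with hb
    have hab : a ^ 3 = b ^ 2 := by
      rw [ha, hb, div_pow, div_pow, hx, hu]
      field_simp
    have ha0 : a ≠ 0 := div_ne_zero hx0 h4
    obtain ⟨j, hj⟩ := IsAlgClosed.exists_pow_nat_eq (b / a) (n := 2) (by norm_num)
    have hj0 : j ≠ 0 := fun h => by
      rw [h, zero_pow two_ne_zero] at hj
      exact div_ne_zero (div_ne_zero hy h6) ha0 hj.symm
    have e4 : j ^ 4 = a := by
      rw [show j ^ 4 = (j ^ 2) ^ 2 by ring, hj, div_pow, ← hab]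
      field_simp
    have e6 : j ^ 6 = b := by
      rw [show j ^ 6 = (j ^ 2) ^ 3 by ring, hj, div_pow, hab]
      field_simp
    have := h2 z j hj0 t
    rwa [e4, e6, ha, hb, div_mul_cancel₀ _ h4, div_mul_cancel₀ _ h6] at this
  refine MvPolynomial.funext fun v => ?_
  rw [map_zero, show v = ![v 0, v 1, v 2] by funext i; fin_cases i <;> rfl]
  set f : Fin 3 → Polynomial ℂ := ![Polynomial.C (v 0), Polynomial.C (v 1), Polynomial.X]
  have hf : ∀ y : ℂ, (fun i => (f i).eval y) = ![v 0, v 1, y] := fun y => by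
    funext i
    fin_cases i <;> simp [f]
  suffices hz : MvPolynomial.aeval f P = 0 by
    rw [← hf (v 2), ← eval_aeval, hz, Polynomial.eval_zero]
  refine Polynomial.eq_zero_of_infinite_isRoot _
    ((Set.finite_singleton (0 : ℂ)).infinite_compl.mono fun y hy => ?_)
  show (MvPolynomial.aeval f P).eval _ = 0
  rw [eval_aeval, hf]
  exact h3 _ _ y hy

theorem algebraicIndependent_E :
    AlgebraicIndependent ℂ (![E2, ⇑E₄, ⇑E₆] : Fin 3 → ℍ → ℂ) := by
  rw [algebraicIndependent_iff]
  intro P hP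
  refine eval_eq_zero fun z => ?_
  have h := congrArg (Pi.evalAlgHom ℂ (fun _ : ℍ => ℂ) z) hP
  rw [map_zero, ← AlgHom.comp_apply, MvPolynomial.comp_aeval] at h
  rw [← MvPolynomial.aeval_eq_eval]
  refine Eq.trans ?_ h
  congr 2
  funext i
  fin_cases i <;> rfl

/-- The monomials of weight `k`. -/
def monomials (k : ℤ) (ab : {p : ℕ × ℕ // 4 * (p.1 : ℤ) + 6 * p.2 = k}) : ℍ → ℂ :=
  ⇑E₄ ^ ab.1.1 * ⇑E₆ ^ ab.1.2

theorem linearIndependent_monomials (k : ℤ) : LinearIndependent ℂ (monomials k) := by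
  set e : {p : ℕ × ℕ // 4 * (p.1 : ℤ) + 6 * p.2 = k} → (Fin 3 →₀ ℕ) :=
    fun ab => Finsupp.equivFunOnFinite.symm ![0, ab.1.1, ab.1.2]
  have he : Function.Injective e := fun a b h => by
    have h' := Finsupp.equivFunOnFinite.symm.injective h
    exact Subtype.ext (Prod.ext (congrFun h' 1) (congrFun h' 2))
  have h := ((MvPolynomial.basisMonomials (Fin 3) ℂ).linearIndependent.comp e he).map'
    (MvPolynomial.aeval (![E2, ⇑E₄, ⇑E₆] : Fin 3 → ℍ → ℂ)).toLinearMap
    (LinearMap.ker_eq_bot.mpr algebraicIndependent_E)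
  refine (?_ : monomials k = _) ▸ h
  funext ab
  simp only [Function.comp_apply, MvPolynomial.coe_basisMonomials, AlgHom.toLinearMap_apply,
    MvPolynomial.aeval_monomial, map_one, one_mul]
  rw [Finsupp.prod_fintype _ _ fun i => pow_zero _, Fin.prod_univ_three]
  simp [e, monomials]

theorem mem_span (n : ℕ) : ∀ w : ℤ, w < n → ∀ f : ModularForm 𝒮ℒ w,
    ⇑f ∈ Submodule.span ℂ (Set.range (monomials w)) := by
  induction n with
  | zero =>
    intro w hw f
    rw [ModularFormClass.levelOne_neg_weight_eq_zero (by simpa using hw) f]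
    exact zero_mem _
  | succ n ih =>
    intro w hw f
    push_cast at hw
    rcases lt_or_ge w 0 with hneg | hnn
    · rw [ModularFormClass.levelOne_neg_weight_eq_zero hneg f]; exact zero_mem _
    lift w to ℕ using hnn
    rcases Nat.even_or_odd w with hev | hodd
    swap
    · rw [show ⇑f = 0 from congrArg DFunLike.coe
        (ModularForm.levelOne_odd_weight_eq_zero (by exact_mod_cast hodd) f)]
      exact zero_mem _
    by_cases hw2 : w = 2
    · subst hw2
      rw [show ⇑f = 0 from congrArg DFunLike.coe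
        (rank_zero_iff_forall_zero.mp levelOne_weight_two_rank_zero f)]
      exact zero_mem _
    obtain ⟨a, b, hab⟩ : ∃ a b : ℕ, 4 * a + 6 * b = w := by
      obtain ⟨m, rfl⟩ := hev
      rcases Nat.even_or_odd m with ⟨a, rfl⟩ | ⟨a, rfl⟩
      · exact ⟨a, 0, by ring⟩
      · exact ⟨a - 1, 1, by omega⟩
    let M : ModularForm 𝒮ℒ (w : ℤ) :=
      ModularForm.mcast (by rw [← hab]; push_cast; ring) ((E₄.pow a).mul (E₆.pow b))
    have hM : ⇑M = ⇑E₄ ^ a * ⇑E₆ ^ b := by simp only [M, coe_mcast, coe_mul, coe_pow]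
    have hM0 : (qExpansion 1 ⇑M).coeff 0 = 1 := by
      rw [hM, ((hasQ_eFour.pow one_pos a).mul one_pos (hasQ_eSix.pow one_pos b)).qExpansion_eq
        one_pos, ← map_pow, ← map_pow, ← map_mul, PowerSeries.coeff_map,
        PowerSeries.coeff_zero_eq_constantCoeff, map_mul, map_pow, map_pow]
      simp [eFourInt, eSixInt, ← PowerSeries.coeff_zero_eq_constantCoeff_apply]
    set c := (qExpansion 1 ⇑f).coeff 0 with hc
    have hg0 : (qExpansion 1 ⇑(f - c • M)).coeff 0 = 0 := by
      have hQ : HasQ 1 ⇑(f - c • M) (qExpansion 1 ⇑f - c • qExpansion 1 ⇑M) := by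
        rw [FunLike.coe_sub, FunLike.coe_smul]
        exact (hasQ_form f).sub ((hasQ_form M).smul c)
      rw [hQ.qExpansion_eq one_pos, map_sub, PowerSeries.coeff_smul, hM0]
      simp [hc]
    set g := CuspForm.discriminantEquiv (ModularForm.toCuspForm (f - c • M) hg0)
    have hg : ⇑(f - c • M) = ModularForm.discriminant * ⇑g :=
      (discriminant_mul_discriminantEquiv (ModularForm.toCuspForm (f - c • M) hg0)).symm
    have hmul : ∀ h ∈ Submodule.span ℂ (Set.range (monomials ((w : ℤ) - 12))),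
        ModularForm.discriminant * h ∈ Submodule.span ℂ (Set.range (monomials (w : ℤ))) := by
      intro h hh
      induction hh using Submodule.span_induction with
      | mem x hx =>
        obtain ⟨⟨⟨p, q⟩, hpq⟩, rfl⟩ := hx
        have e : ModularForm.discriminant * monomials ((w : ℤ) - 12) ⟨(p, q), hpq⟩ =
            (1728 : ℂ)⁻¹ • monomials (w : ℤ) ⟨(p + 3, q), by push_cast; linarith⟩ -
              (1728 : ℂ)⁻¹ • monomials (w : ℤ) ⟨(p, q + 2), by push_cast; linarith⟩ := by
          funext z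
          simp only [monomials, Pi.mul_apply, Pi.pow_apply, Pi.sub_apply, Pi.smul_apply,
            smul_eq_mul, discriminant_eq_E₄_cube_sub_E₆_sq]
          ring
        rw [e]
        exact sub_mem (Submodule.smul_mem _ _ (Submodule.subset_span ⟨_, rfl⟩))
          (Submodule.smul_mem _ _ (Submodule.subset_span ⟨_, rfl⟩))
      | zero => rw [mul_zero]; exact zero_mem _
      | add x y _ _ hx hy => rw [mul_add]; exact add_mem hx hy
      | smul r x _ hx => rw [mul_smul_comm]; exact Submodule.smul_mem _ _ hx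
    have hf : ⇑f = ⇑(f - c • M) + c • ⇑M := by
      rw [FunLike.coe_sub, FunLike.coe_smul, sub_add_cancel]
    rw [hf, hg]
    refine add_mem (hmul _ (ih _ (by omega) g)) (Submodule.smul_mem _ _ ?_)
    rw [hM]
    exact Submodule.subset_span ⟨⟨(a, b), by exact_mod_cast hab⟩, rfl⟩

end FA.LevelOneRing

end
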