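import Fermat.Agent.Tau.LevelPModP
import Fermat.Agent.Root.SummaryWeightSuccClassNumber

/-!
# The eigenspaces of `U` on weight two cusp forms of prime level

`U` is an involution of `S₂(Γ₀(p))`. Its trace on the integral forms is congruent modulo `p` to that
on the cusp forms of weight `p + 1` modulo `p`, and both spaces have dimension less than `p / 2`, so
the eigenspaces have the same dimensions.
-/

set_option autoImplicit false
set_option linter.style.haveILetI false
set_option synthInstance.maxHeartbeats 400000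
set_option maxHeartbeats 1000000

noncomputable section

open UpperHalfPlane hiding I
open PowerSeries CongruenceSubgroup CuspForm FA.Eis FA.SwinnertonDyer FA.SupersingularPoints
open scoped MatrixGroups Classical

namespace FA.LevelPTrace

open ModularCurve FA.Deform FA.LevelPModP

variable {p : ℕ} [Fact p.Prime]

/-- An involution has trace twice the fixed dimension less the dimension. -/
theorem involution_trace {K M : Type*} [Field K] [AddCommGroup M] [Module K M]
    [FiniteDimensional K M] (two : (2 : K) ≠ 0) (U : M →ₗ[K] M) (h2 : ∀ v, U (U v) = v) :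
    LinearMap.trace K M U + (Module.finrank K M : K) =
      2 * (Module.finrank K (LinearMap.ker (U - LinearMap.id)) : K) := by
  set e : M →ₗ[K] M := (2 : K)⁻¹ • (U + LinearMap.id) with he
  have hproj : LinearMap.IsProj (LinearMap.ker (U - LinearMap.id)) e := by
    refine ⟨fun v => ?_, fun v hv => ?_⟩
    · simp only [he, LinearMap.mem_ker, LinearMap.sub_apply, LinearMap.smul_apply,
        LinearMap.add_apply, LinearMap.id_apply, map_smul, map_add, h2]
      rw [show v - U v + (U v - v) = 0 by abel, smul_zero]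
    · rw [LinearMap.mem_ker, LinearMap.sub_apply, sub_eq_zero, LinearMap.id_apply] at hv
      rw [he, LinearMap.smul_apply, LinearMap.add_apply, LinearMap.id_apply, hv, ← two_smul K,
        smul_smul, inv_mul_cancel₀ two, one_smul]
  have ht := hproj.trace
  rw [he, map_smul, map_add, LinearMap.trace_id, smul_eq_mul, inv_mul_eq_iff_eq_mul₀ two] at ht
  exact ht

/-- **`U` is an involution in weight two and prime level.** -/
theorem heckeULin_involutive (F : CuspForm (Gamma0 p) 2) :
    heckeULin 2 (dvd_refl p) (heckeULin 2 (dvd_refl p) F) = F := by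
  have hp : p.Prime := Fact.out
  refine qLin_injective (funext fun n => ?_)
  rw [qLin_heckeU hp, qLin_heckeU hp]
  have hf := isLv_of_cuspForm F
  have h1 := hasQ_W_weight_two (hf.W even_two) (hasQ_W_weight_two hf hf.hasQ)
  rw [W_W p even_two] at h1
  have h2 := (h1.qExpansion_eq one_pos).symm.trans ((hf.hasQ.smul _).qExpansion_eq one_pos)
  have h3 := congrArg (coeff n) h2
  simp only [map_neg, map_smul, coeff_Up, smul_eq_mul, zpow_neg] at h3
  have hp0 : (p : ℂ) ≠ 0 := NeZero.ne _
  rw [show ((p : ℂ) ^ (2 : ℤ))⁻¹ = (p : ℂ)⁻¹ * (p : ℂ)⁻¹ by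
    rw [zpow_two, mul_inv]] at h3
  have h4 : coeff (n * p * p) (qe ⇑F) = coeff n (qe ⇑F) :=
    mul_left_cancel₀ (mul_ne_zero (inv_ne_zero hp0) (inv_ne_zero hp0)) (by
      linear_combination h3)
  exact h4

/-- `p` as a prime. -/
def prim (p : ℕ) [Fact p.Prime] : Nat.Primes := ⟨p, Fact.out⟩

/-- `U` on the integral forms. -/
def uLat (p : ℕ) [Fact p.Prime] : Module.End ℤ ↥(intLattice p 2) :=
  FA.Mazur.intAct p (FA.Mazur.tGen p (prim p))

theorem redLattice_uLat (x : ↥(intLattice p 2)) :
    redLattice p (uLat p x) = Up p (redLattice p x) := by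
  ext n
  rw [coeff_redLattice, coeff_Up, coeff_redLattice, uLat, FA.Mazur.intAct_tGen, zCoeff_gen,
    if_pos (show ((prim p : Nat.Primes) : ℕ) = p from rfl), add_zero]
  rfl

variable (p) in
/-- Reductions of the cusp forms. -/
def cuspSpace : Submodule (ZMod p) (PowerSeries (ZMod p)) :=
  formSpace p ⊓ LinearMap.ker (PowerSeries.coeff 0)

theorem mem_cuspSpace (h5 : 5 ≤ p) {f : PowerSeries (ZMod p)} :
    f ∈ cuspSpace p ↔ IsFormModP p (p + 1) f ∧ coeff 0 f = 0 :=
  and_congr (mem_formSpace h5 f) Iff.rfl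

theorem up_mem_cuspSpace (h5 : 5 ≤ p) {f : PowerSeries (ZMod p)} (hf : f ∈ cuspSpace p) :
    Up p f ∈ cuspSpace p := by
  refine ⟨?_, ?_⟩
  · have e : Up p f = uOp p f := PowerSeries.ext fun n => by simp [uOp]
    rw [e]
    exact (uForms h5 ⟨f, hf.1⟩).2
  · show coeff 0 (Up p f) = 0
    rw [coeff_Up, zero_mul]
    exact hf.2

/-- **The fixed forms of `U`**: as many in weight two and level `p` as among the cusp forms of
weight `p + 1` modulo `p`. -/
theorem finrank_fixed (h5 : 5 ≤ p) {V : Submodule (ZMod p) (PowerSeries (ZMod p))}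
    (hV : (V : Set (PowerSeries (ZMod p))) = {f | (∃ (G : ModularForm 𝒮ℒ ((p + 1 : ℕ) : ℤ))
        (T : PowerSeries ℤ), qExpansion 1 ⇑G = T.map (Int.castRingHom ℂ) ∧
          T.map (Int.castRingHom (ZMod p)) = f) ∧
        ∀ n, PowerSeries.coeff (n * p) f = 1 * PowerSeries.coeff n f}) :
    Module.finrank ℂ (LinearMap.ker (heckeULin (N := p) 2 (dvd_refl p) - LinearMap.id)) =
      Module.finrank (ZMod p) (LinearMap.ker ((PowerSeries.coeff 0).domRestrict V)) := by
  haveI := intLattice.moduleFinite p
  haveI := intLattice.moduleFree p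
  haveI := FA.SupersingularMass.finite_of_weightSucc p h5
  haveI := FA.Deform.finite_of_hasIntegralBasis (N := p) (by
    refine top_unique ((FA.Period.hasIntegralStructure p 2).ge.trans (Submodule.span_le.2 ?_))
    intro g hg
    refine Submodule.span_le_restrictScalars ℤ ℂ (qIntegralSet p) ?_
    refine Submodule.span_mono (fun h hh => ?_) hg
    intro n
    obtain ⟨z, hz⟩ := hh n
    exact Subring.mem_bot.2 ⟨z, hz.symm⟩)
  haveI : FiniteDimensional (ZMod p) (cuspSpace p) :=
    Submodule.finiteDimensional_of_le (inf_le_left : cuspSpace p ≤ formSpace p)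
  set b := Module.Free.chooseBasis ℤ ↥(intLattice p 2)
  haveI := Fintype.ofFinite (Module.Free.ChooseBasisIndex ℤ ↥(intLattice p 2))
  obtain ⟨hon, hker⟩ := redLattice_spec (p := p) h5
  -- the reduced basis
  let v : Module.Free.ChooseBasisIndex ℤ ↥(intLattice p 2) → cuspSpace p := fun i =>
    ⟨redLattice p (b i), (mem_cuspSpace h5).2 ((hon _).1 ⟨_, rfl⟩)⟩
  have hred : ∀ c : Module.Free.ChooseBasisIndex ℤ ↥(intLattice p 2) → ℤ,
      redLattice p (∑ j, c j • b j) = ((∑ j, (c j : ZMod p) • v j : cuspSpace p) :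
        PowerSeries (ZMod p)) := fun c => by
    rw [map_sum, AddSubmonoidClass.coe_finsetSum]
    refine Finset.sum_congr rfl fun j _ => ?_
    rw [map_zsmul, Submodule.coe_smul, Int.cast_smul_eq_zsmul]
  have hli : LinearIndependent (ZMod p) v := by
    rw [Fintype.linearIndependent_iff]
    intro c hc i
    obtain ⟨G, hG⟩ := hker (∑ j, ((c j).val : ℤ) • b j) (by
      rw [hred]
      simp [hc])
    have hr := congrArg (fun v => b.repr v i) hG
    simp only [Module.Basis.repr_sum_self, map_zsmul, Finsupp.smul_apply, smul_eq_mul] at hr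
    rw [← ZMod.natCast_zmod_val (c i), ← Int.cast_natCast, hr, Int.cast_mul, Int.cast_natCast,
      ZMod.natCast_self, zero_mul]
  have hspan : ⊤ ≤ Submodule.span (ZMod p) (Set.range v) := fun f _ => by
    obtain ⟨x, hx⟩ := (hon f).2 ((mem_cuspSpace h5).1 f.2)
    rw [← b.sum_repr x, hred] at hx
    rw [← Subtype.ext hx]
    exact Submodule.sum_mem _ fun j _ =>
      Submodule.smul_mem _ _ (Submodule.subset_span (Set.mem_range_self j))
  set B := Module.Basis.mk hli hspan
  set UK := (Up p : PowerSeries (ZMod p) →ₗ[ZMod p] PowerSeries (ZMod p)).restrict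
    (fun f hf => up_mem_cuspSpace h5 hf : ∀ f ∈ cuspSpace p, Up p f ∈ cuspSpace p)
  have hU : ∀ i, UK (B i) = ∑ j, ((b.repr (uLat p (b i)) j : ℤ) : ZMod p) • v j := fun i => by
    refine Subtype.ext ?_
    rw [← hred, b.sum_repr, redLattice_uLat, Module.Basis.mk_apply]
    rfl
  have htrK : LinearMap.trace (ZMod p) (cuspSpace p) UK =
      ((LinearMap.trace ℤ ↥(intLattice p 2) (uLat p) : ℤ) : ZMod p) := by
    rw [LinearMap.trace_eq_matrix_trace (ZMod p) B, LinearMap.trace_eq_matrix_trace ℤ b]
    simp only [Matrix.trace, Matrix.diag, Int.cast_sum]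
    refine Finset.sum_congr rfl fun i _ => ?_
    rw [LinearMap.toMatrix_apply, LinearMap.toMatrix_apply, hU, map_sum]
    simp only [show ∀ j, v j = B j from fun j => (Module.Basis.mk_apply hli hspan j).symm,
      map_smul, Module.Basis.repr_self]
    simp [Finsupp.single_apply]
  -- the complex side
  have htrC := FA.Mazur.trace_forms p (FA.Mazur.tGen p (prim p))
  have eU : ((FA.Mazur.tGen p (prim p) : FA.Mazur.TAlg p) :
      Module.End ℂ (CuspForm (Gamma0 p) 2)) = heckeULin (N := p) 2 (dvd_refl p) := by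
    rw [FA.Mazur.tGen, heckeEvalForms_heckeGen_of_dvd (q := prim p) (dvd_refl p)]
    rfl
  rw [eU] at htrC
  have hone := FA.Mazur.trace_forms p 1
  rw [map_one, LinearMap.trace_one, show ((1 : FA.Mazur.TAlg p) :
    Module.End ℂ (CuspForm (Gamma0 p) 2)) = 1 from rfl, LinearMap.trace_one] at hone
  have hrank : Module.finrank (ZMod p) (cuspSpace p) =
      Module.finrank ℂ (CuspForm (Gamma0 p) 2) := by
    rw [Module.finrank_eq_card_basis B, ← Module.finrank_eq_card_basis b]
    push_cast at hone
    exact_mod_cast hone.symm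
  have hC := involution_trace (K := ℂ) two_ne_zero (heckeULin (N := p) 2 (dvd_refl p))
    heckeULin_involutive
  have hK := involution_trace (K := ZMod p)
    (Ring.two_ne_zero (by rw [ZMod.ringChar_zmod_n]; omega)) UK fun f => Subtype.ext (by
      show Up p (Up p (f : PowerSeries (ZMod p))) = f
      have h := uOp_uOp h5 ((mem_cuspSpace h5).1 f.2).1
      refine Eq.trans (PowerSeries.ext fun n => ?_) h
      simp [uOp])
  set t := LinearMap.trace ℤ ↥(intLattice p 2) (uLat p)
  set a := Module.finrank ℂ (LinearMap.ker (heckeULin (N := p) 2 (dvd_refl p) - LinearMap.id))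
  set a' := Module.finrank (ZMod p) (LinearMap.ker (UK - LinearMap.id))
  set g := Module.finrank ℂ (CuspForm (Gamma0 p) 2)
  rw [htrC, show LinearMap.trace ℤ ↥(intLattice p 2)
    (FA.Mazur.intAct p (FA.Mazur.tGen p (prim p))) = t from rfl] at hC
  have ht : t + g = 2 * a := by exact_mod_cast hC
  rw [htrK, hrank] at hK
  have ht' : ((2 * a : ℕ) : ZMod p) = ((2 * a' : ℕ) : ZMod p) := by
    have h := congrArg (fun z : ℤ => (z : ZMod p)) ht
    push_cast at h ⊢
    rw [← h, hK]
  have ha : a ≤ g := Submodule.finrank_le _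
  have ha' : a' ≤ g := hrank ▸ Submodule.finrank_le _
  have hlt := two_mul_ncard_lt (p := p) h5
  rw [ncard_eq h5] at hlt
  rw [ZMod.natCast_eq_natCast_iff] at ht'
  have hfin := ht'.eq_of_lt_of_lt (by omega) (by omega)
  rw [show a = a' by omega]
  -- the fixed part of `cuspSpace`
  show Module.finrank (ZMod p) (LinearMap.ker (UK - LinearMap.id)) = _
  rw [← Submodule.finrank_map_subtype_eq (cuspSpace p),
    ← Submodule.finrank_map_subtype_eq V]
  refine congrArg (fun S : Submodule (ZMod p) (PowerSeries (ZMod p)) =>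
    Module.finrank (ZMod p) S) ?_
  ext f
  simp only [Submodule.mem_map, Submodule.coe_subtype, LinearMap.mem_ker, LinearMap.sub_apply,
    sub_eq_zero, LinearMap.id_apply, LinearMap.domRestrict_apply]
  constructor
  · rintro ⟨⟨f, hf⟩, hfix, rfl⟩
    have hfV : f ∈ V := by
      rw [← SetLike.mem_coe, hV]
      refine ⟨((mem_cuspSpace h5).1 hf).1, fun n => ?_⟩
      have := congrArg (fun x : cuspSpace p => coeff n (x : PowerSeries (ZMod p))) hfix
      rw [one_mul, ← coeff_Up]
      exact this
    exact ⟨⟨f, hfV⟩, hf.2, rfl⟩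
  · rintro ⟨⟨f, hf⟩, h0, rfl⟩
    have hf' := hf
    rw [← SetLike.mem_coe, hV] at hf'
    refine ⟨⟨f, (mem_cuspSpace h5).2 ⟨hf'.1, h0⟩⟩, Subtype.ext (PowerSeries.ext fun n => ?_), rfl⟩
    show coeff n (Up p f) = coeff n f
    rw [coeff_Up, hf'.2 n, one_mul]

end FA.LevelPTrace

end
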