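import Fermat.Agent.ModField.JFunction
import Fermat.Agent.Eisenstein.QExp
import Mathlib.RingTheory.MvPowerSeries.Expand
import Mathlib.FieldTheory.Finite.Basic

/-!
# The coefficients of `Δ` modulo 11

Modulo `11` the series of `q ∏ (1 - qⁿ)²⁴` is that of `q ∏ (1 - qⁿ)² (1 - q¹¹ⁿ)²`.
-/

set_option autoImplicit false

noncomputable section

namespace FA.Tau

open UpperHalfPlane hiding I
open ModularCurve FA.ModField
open scoped Real

/-- The integral series of `Δ`. -/
def deltaInt : PowerSeries ℤ := PowerSeries.X * dedekindEtaUnit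

/-- The integral series of `η(z)² η(11z)²`. -/
def elevenInt : PowerSeries ℤ :=
  PowerSeries.X * (etaProd ^ 2 * PowerSeries.expand 11 (by decide) (etaProd ^ 2))

theorem map_expand_eleven (f : PowerSeries (ZMod 11)) :
    PowerSeries.expand 11 (by decide) f = f ^ 11 := by
  have : Fact (Nat.Prime 11) := ⟨by norm_num⟩
  have h := MvPowerSeries.map_frobenius_expand (σ := Unit) (R := ZMod 11) 11
    (by decide) (f := f)
  rw [ZMod.frobenius_zmod, MvPowerSeries.map_id] at h
  exact h

/-- The two series agree modulo `11`. -/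
theorem dvd_coeff_deltaInt_sub (n : ℕ) :
    (11 : ℤ) ∣ PowerSeries.coeff n deltaInt - PowerSeries.coeff n elevenInt := by
  have h : deltaInt.map (Int.castRingHom (ZMod 11)) = elevenInt.map (Int.castRingHom (ZMod 11)) := by
    rw [deltaInt, elevenInt, dedekindEtaUnit]
    simp only [map_mul, map_pow, PowerSeries.map_expand]
    rw [map_expand_eleven, ← pow_mul, ← pow_add]
  have h' := congrArg (PowerSeries.coeff n) h
  rw [PowerSeries.coeff_map, PowerSeries.coeff_map, eq_intCast, eq_intCast] at h'
  exact (ZMod.intCast_eq_intCast_iff_dvd_sub _ _ 11).1 h'.symm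

/-- The `q`-expansion of `Δ` has the coefficients of `q ∏ (1 - qⁿ)²⁴`. -/
theorem qExpansion_discriminant (n : ℕ) :
    (qExpansion 1 ModularForm.discriminant).coeff n = ((PowerSeries.coeff n deltaInt : ℤ) : ℂ) := by
  have hs : deltaq ℂ =
      HahnSeries.ofPowerSeries ℤ ℂ (deltaInt.map (Int.castRingHom ℂ)) := by
    rw [deltaq, deltaInt, map_mul (PowerSeries.map _), PowerSeries.map_X, map_mul,
      HahnSeries.ofPowerSeries_X]
  have hq : FA.Eis.HasQ 1 ModularForm.discriminant (deltaInt.map (Int.castRingHom ℂ)) := by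
    intro z
    have h := hasExp_discriminant z
    rw [hs] at h
    have h' := (Function.Injective.hasSum_iff (g := fun n : ℕ => (n : ℤ)) Nat.cast_injective
      fun m hm => by
        rw [ModularCurve.ofPowerSeries_coeff_of_neg _ (by
          by_contra hcon
          exact hm ⟨m.toNat, Int.toNat_of_nonneg (not_lt.1 hcon)⟩), zero_mul]).2 h
    have e : Function.Periodic.qParam (1 : ℝ) (z : ℂ) = qp 1 z := by simp [qp]
    simpa [Function.comp_def, ofPowerSeries_coeff_natCast, e] using h'
  rw [hq.qExpansion_eq one_pos, PowerSeries.coeff_map, eq_intCast]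

end FA.Tau

end
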