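import Fermat.Agent.Tau.IsobaricPoly
import Fermat.Agent.Tau.HasseEisenstein
import Fermat.Agent.Tau.QuasiModular
import Fermat.Agent.Tau.LevelOneRing
import Fermat.Agent.Tau.Mordell
import Mathlib.RingTheory.KrullDimension.Polynomial
import Mathlib.RingTheory.Jacobson.Ring

/-!
# Modular forms of level one modulo `p`

The reduced series of `E₄`, `E₆` make the Hasse invariant `A` equal to `1`. Ramanujan's identities
then give `∂²A = -X A`, so `A` has no repeated factor, `A - 1` is irreducible and generates the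
kernel of the reduction: the theorem of Swinnerton-Dyer.
-/

set_option autoImplicit false
set_option linter.style.haveILetI false

noncomputable section

namespace FA.SwinnertonDyer

open MvPolynomial FA.Tau FA.Eis
open scoped MatrixGroups ArithmeticFunction.sigma

local notation "Poly" p:max => MvPolynomial (Fin 2) (ZMod p)

variable (p : ℕ)

/-- `E₄` modulo `p`. -/
def e4 : PowerSeries (ZMod p) := eFourInt.map (Int.castRingHom (ZMod p))

/-- `E₆` modulo `p`. -/
def e6 : PowerSeries (ZMod p) := eSixInt.map (Int.castRingHom (ZMod p))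

/-- `E₂` modulo `p`. -/
def e2 : PowerSeries (ZMod p) := eTwoInt.map (Int.castRingHom (ZMod p))

/-- `q d/dq` modulo `p`. -/
def thetaP (F : PowerSeries (ZMod p)) : PowerSeries (ZMod p) :=
  PowerSeries.X * PowerSeries.derivative (ZMod p) F

/-- The reduction. -/
def phi : (Poly p) →ₐ[ZMod p] PowerSeries (ZMod p) := aeval ![e4 p, e6 p]

/-- Ramanujan's derivation. -/
def dOp : Derivation (ZMod p) (Poly p) (Poly p) := mkDerivation _ ![-4 * X 1, -6 * X 0 ^ 2]

/-- Euler's derivation. -/
def wOp : Derivation (ZMod p) (Poly p) (Poly p) := mkDerivation _ ![4 * X 0, 6 * X 1]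

variable {p}

theorem map_thetaInt (A : PowerSeries ℤ) :
    (thetaInt A).map (Int.castRingHom (ZMod p)) = thetaP p (A.map (Int.castRingHom (ZMod p))) := by
  ext n
  rw [thetaP, PowerSeries.coeff_map, thetaInt, PowerSeries.coeff_mk]
  rcases n with _ | n
  · simp
  · rw [PowerSeries.coeff_succ_X_mul, PowerSeries.coeff_derivative, PowerSeries.coeff_map]
    simp
    ring

theorem thetaP_e2 : 12 * thetaP p (e2 p) = e2 p ^ 2 - e4 p := by
  have h := congrArg (PowerSeries.map (Int.castRingHom (ZMod p))) theta_eTwo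
  simpa [map_thetaInt, map_ofNat, e2, e4] using h

theorem thetaP_e4 : 3 * thetaP p (e4 p) = e2 p * e4 p - e6 p := by
  have h := congrArg (PowerSeries.map (Int.castRingHom (ZMod p))) theta_eFour
  simpa [map_thetaInt, map_ofNat, e2, e4, e6] using h

theorem thetaP_e6 : 2 * thetaP p (e6 p) = e2 p * e6 p - e4 p ^ 2 := by
  have h := congrArg (PowerSeries.map (Int.castRingHom (ZMod p))) theta_eSix
  simpa [map_thetaInt, map_ofNat, e2, e4, e6] using h

theorem delta_p : 1728 * deltaInt.map (Int.castRingHom (ZMod p)) = e4 p ^ 3 - e6 p ^ 2 := by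
  have h := congrArg (PowerSeries.map (Int.castRingHom (ZMod p))) delta_eq
  simpa [map_ofNat, e4, e6] using h

theorem constantCoeff_e4 : PowerSeries.constantCoeff (e4 p) = 1 := by
  simp [e4, ← PowerSeries.coeff_zero_eq_constantCoeff_apply, eFourInt]

theorem constantCoeff_e6 : PowerSeries.constantCoeff (e6 p) = 1 := by
  simp [e6, ← PowerSeries.coeff_zero_eq_constantCoeff_apply, eSixInt]

theorem constantCoeff_phi (F : Poly p) :
    PowerSeries.constantCoeff (phi p F) = eval (fun _ => 1) F := by
  induction F using MvPolynomial.induction_on with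
  | C c => simp [phi, PowerSeries.algebraMap_eq]
  | add a b ha hb => simp [ha, hb]
  | mul_X a i ha =>
    rw [map_mul, map_mul, map_mul, ha, phi, aeval_X, eval_X]
    fin_cases i <;> simp [constantCoeff_e4, constantCoeff_e6]

theorem map_aeval_series (Q : MvPolynomial (Fin 2) ℤ) :
    (aeval ![eFourInt, eSixInt] Q).map (Int.castRingHom (ZMod p)) =
      phi p (MvPolynomial.map (Int.castRingHom (ZMod p)) Q) := by
  induction Q using MvPolynomial.induction_on with
  | C c => simp [phi]
  | add a b ha hb => simp [ha, hb]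
  | mul_X a i ha =>
    rw [map_mul (aeval _), map_mul (PowerSeries.map _), ha, map_mul (MvPolynomial.map _),
      map_mul (phi p), aeval_X, MvPolynomial.map_X, phi, aeval_X]
    fin_cases i <;> rfl

theorem hasQ_aeval (Q : MvPolynomial (Fin 2) ℤ) :
    HasQ 1 (fun τ => aeval ![ModularForm.E₄ τ, ModularForm.E₆ τ] Q)
      ((aeval ![eFourInt, eSixInt] Q).map (Int.castRingHom ℂ)) := by
  induction Q using MvPolynomial.induction_on with
  | C c => simpa using HasQ.const 1 (c : ℂ)
  | add a b ha hb => simpa [Pi.add_def] using ha.add hb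
  | mul_X a i ha =>
    simp only [map_mul, aeval_X]
    fin_cases i
    · exact ha.mul one_pos hasQ_eFour
    · exact ha.mul one_pos hasQ_eSix

theorem wOp_isob {F : Poly p} {n : ℕ} (h : Isob F n) : wOp p F = (n : Poly p) * F := by
  induction h using IsWeightedHomogeneous.induction_on with
  | zero => simp
  | add a b _ _ ha hb => rw [map_add, ha, hb, mul_add]
  | monomial d c hd =>
    rw [weight_eq] at hd
    have hpow : ∀ (i : Fin 2) (a : ℕ), wOp p (X i ^ a) = ((a * wts i : ℕ) : Poly p) * X i ^ a := by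
      intro i a
      rw [Derivation.leibniz_pow, wOp, mkDerivation_X, nsmul_eq_mul, smul_eq_mul]
      rcases a with _ | a
      · simp
      · fin_cases i <;> simp [wts] <;> ring
    rw [monomial_eq_mul, Derivation.leibniz, derivation_C, smul_zero, add_zero, smul_eq_mul,
      Derivation.leibniz, hpow, hpow, smul_eq_mul, smul_eq_mul, ← hd]
    simp [wts]
    ring

theorem dOp_isob {F : Poly p} {n : ℕ} (h : Isob F n) : Isob (dOp p F) (n + 2) := by
  induction h using IsWeightedHomogeneous.induction_on with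
  | zero => rw [map_zero]; exact isWeightedHomogeneous_zero _ _ _
  | add a b _ _ ha hb => rw [map_add]; exact ha.add hb
  | monomial d c hd =>
    rw [weight_eq] at hd
    have hX : ∀ a b : ℕ, Isob (X 0 ^ a * X 1 ^ b : Poly p) (4 * a + 6 * b) := fun a b => by
      have h := ((isWeightedHomogeneous_X (ZMod p) wts 0).pow a).mul
        ((isWeightedHomogeneous_X (ZMod p) wts 1).pow b)
      convert! h using 1
      simp [wts]
      ring
    have he : dOp p (monomial d c) = C (-4 * (d 0 : ZMod p) * c) *
        (X 0 ^ (d 0 - 1) * X 1 ^ (d 1 + 1)) + C (-6 * (d 1 : ZMod p) * c) *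
          (X 0 ^ (d 0 + 2) * X 1 ^ (d 1 - 1)) := by
      rw [monomial_eq_mul, Derivation.leibniz, derivation_C, smul_zero, add_zero,
        Derivation.leibniz, Derivation.leibniz_pow, Derivation.leibniz_pow, dOp, mkDerivation_X,
        mkDerivation_X]
      simp [smul_eq_mul, nsmul_eq_mul, map_ofNat]
      ring
    rw [he]
    refine IsWeightedHomogeneous.add ?_ ?_
    · by_cases h0 : d 0 = 0
      · simpa [h0] using isWeightedHomogeneous_zero (ZMod p) wts (n + 2)
      · refine IsWeightedHomogeneous.C_mul ?_ _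
        convert hX (d 0 - 1) (d 1 + 1) using 1
        omega
    · by_cases h1 : d 1 = 0
      · simpa [h1] using isWeightedHomogeneous_zero (ZMod p) wts (n + 2)
      · refine IsWeightedHomogeneous.C_mul ?_ _
        convert hX (d 0 + 2) (d 1 - 1) using 1
        omega

theorem phi_dOp (F : Poly p) :
    phi p (dOp p F) + e2 p * phi p (wOp p F) = 12 * thetaP p (phi p F) := by
  induction F using MvPolynomial.induction_on with
  | C c => simp [phi, thetaP, derivation_C, PowerSeries.algebraMap_eq]
  | add a b ha hb =>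
    simp only [map_add, thetaP, mul_add]
    rw [thetaP] at ha hb
    linear_combination ha + hb
  | mul_X a i ha =>
    have hX : phi p (dOp p (X i)) + e2 p * phi p (wOp p (X i)) =
        12 * thetaP p (phi p (X i)) := by
      fin_cases i
      · simp [phi, dOp, wOp, map_ofNat]
        linear_combination (-4) * thetaP_e4 (p := p)
      · simp [phi, dOp, wOp, map_ofNat]
        linear_combination (-6) * thetaP_e6 (p := p)
    simp only [thetaP] at ha hX ⊢
    simp only [Derivation.leibniz, smul_eq_mul, map_add, map_mul]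
    linear_combination phi p (X i) * ha + phi p a * hX

variable [Fact p.Prime]

theorem natCast_ne {d : ℕ} (h : ¬p ∣ d) : (d : ZMod p) ≠ 0 := fun e =>
  h ((ZMod.natCast_eq_zero_iff d p).1 e)

theorem ne_two_three (h5 : 5 ≤ p) : (2 : ZMod p) ≠ 0 ∧ (3 : ZMod p) ≠ 0 :=
  ⟨by exact_mod_cast natCast_ne (d := 2) fun h => absurd (Nat.le_of_dvd (by norm_num) h) (by omega),
    by
      exact_mod_cast natCast_ne (d := 3) fun h => absurd (Nat.le_of_dvd (by norm_num) h) (by omega)⟩

theorem c1728_ne (h5 : 5 ≤ p) : (1728 : ZMod p) ≠ 0 := by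
  rw [show (1728 : ZMod p) = 2 ^ 6 * 3 ^ 3 by norm_num]
  exact mul_ne_zero (pow_ne_zero _ (ne_two_three h5).1) (pow_ne_zero _ (ne_two_three h5).2)

/-- In one weight the reduction is injective. -/
theorem phi_injective (h5 : 5 ≤ p) : ∀ {n : ℕ} {F : Poly p}, Isob F n → phi p F = 0 → F = 0 := by
  intro n
  induction n using Nat.strong_induction_on with
  | _ n ih =>
    intro F hF h0
    rcases exists_eq_mul hF (by rw [← constantCoeff_phi, h0, map_zero]) with h | ⟨G, hn, hG, rfl⟩
    · exact h
    · have hD : phi p (X 0 ^ 3 - X 1 ^ 2) ≠ 0 := fun e => by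
        simp only [map_sub, map_pow, phi, aeval_X, Matrix.cons_val_zero, Matrix.cons_val_one,
          Matrix.cons_val_fin_one] at e
        rw [← delta_p, show (1728 : PowerSeries (ZMod p)) = PowerSeries.C 1728 from
          (map_ofNat _ 1728).symm] at e
        have := congrArg (PowerSeries.coeff 1) e
        rw [PowerSeries.coeff_C_mul, PowerSeries.coeff_map, coeff_deltaInt_one] at this
        exact c1728_ne h5 (by simpa using this)
      rw [map_mul, mul_eq_zero] at h0
      rw [ih (n - 12) (by omega) hG (h0.resolve_left hD), mul_zero]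

open FA.HasseEis in
/-- The Hasse invariant is isobaric of weight `p - 1`. -/
theorem isob_hassePoly (h5 : 5 ≤ p) : Isob (hassePoly p) (p - 1) := by
  set a : Poly p := -C ((48 : ZMod p)⁻¹) * X 0
  set b : Poly p := C ((864 : ZMod p)⁻¹) * X 1
  have ha : Isob a 4 := by
    simpa [a, Isob, wts] using ((isWeightedHomogeneous_C wts _).neg.mul
      (isWeightedHomogeneous_X (ZMod p) wts 0))
  have hb : Isob b 6 := by
    simpa [b, Isob, wts] using ((isWeightedHomogeneous_C wts ((864 : ZMod p)⁻¹)).mul
      (isWeightedHomogeneous_X (ZMod p) wts 1))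
  set f : Polynomial (Poly p) := Polynomial.X ^ 3 + Polynomial.C a * Polynomial.X + Polynomial.C b
  have key : ∀ m i : ℕ, (3 * m < i → (f ^ m).coeff i = 0) ∧
      (i ≤ 3 * m → Isob ((f ^ m).coeff i) (6 * m - 2 * i)) := by
    intro m
    induction m with
    | zero =>
      intro i
      rw [pow_zero, Polynomial.coeff_one]
      refine ⟨fun hi => if_neg (by omega), fun hi => ?_⟩
      rw [if_pos (by omega)]
      simpa using isWeightedHomogeneous_one (ZMod p) wts
    | succ m ih =>
      intro i
      have e : (f ^ (m + 1)).coeff i = (if 3 ≤ i then (f ^ m).coeff (i - 3) else 0) +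
          a * (if 1 ≤ i then (f ^ m).coeff (i - 1) else 0) + b * (f ^ m).coeff i := by
        rw [pow_succ, mul_add, mul_add, Polynomial.coeff_add, Polynomial.coeff_add,
          Polynomial.coeff_mul_X_pow', mul_left_comm, Polynomial.coeff_C_mul,
          mul_comm (f ^ m) (Polynomial.C b), Polynomial.coeff_C_mul, ← pow_one Polynomial.X,
          Polynomial.coeff_mul_X_pow']
      have hz := isWeightedHomogeneous_zero (ZMod p) wts (6 * (m + 1) - 2 * i)
      refine ⟨fun hi => ?_, fun hi => ?_⟩
      · rw [e, if_pos (by omega), if_pos (by omega), (ih _).1 (by omega), (ih _).1 (by omega),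
          (ih _).1 (by omega)]
        simp
      · rw [e]
        refine IsWeightedHomogeneous.add (IsWeightedHomogeneous.add ?_ ?_) ?_
        · split_ifs with h
          · convert (ih (i - 3)).2 (by omega) using 1
            omega
          · exact hz
        · split_ifs with h
          · by_cases h' : i - 1 ≤ 3 * m
            · convert ha.mul ((ih (i - 1)).2 h') using 1
              omega
            · rw [(ih _).1 (by omega), mul_zero]; exact hz
          · rw [mul_zero]; exact hz
        · by_cases h' : i ≤ 3 * m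
          · convert hb.mul ((ih i).2 h') using 1
            omega
          · rw [(ih _).1 (by omega), mul_zero]; exact hz
  obtain ⟨m, hm⟩ := (Fact.out : p.Prime).odd_of_ne_two (by omega)
  have h := (key (p / 2) (p - 1)).2 (by omega)
  rwa [show 6 * (p / 2) - 2 * (p - 1) = p - 1 by omega] at h

open FA.HasseEis in
/-- **`E_(p-1) ≡ 1`.** -/
theorem phi_hassePoly (h5 : 5 ≤ p) : phi p (hassePoly p) = 1 := by
  obtain ⟨N, Q, hN, hE, hQ⟩ := hasse_eisenstein h5 (show 3 ≤ p - 1 by omega)
  obtain ⟨B, D, hBD, hD, hB⟩ := exists_bernoulli (p := p) h5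
  set S := aeval ![eFourInt, eSixInt] Q
  have hev : Even (p - 1) := (Fact.out : p.Prime).even_sub_one (by omega)
  have hcoef : ∀ m, ((PowerSeries.coeff m S : ℤ) : ℂ) =
      (N : ℂ) * (if m = 0 then 1 else
        -(2 * ((p - 1 : ℕ) : ℂ) / bernoulli (p - 1)) * (σ (p - 1 - 1) m)) := fun m => by
    have h1 := (hasQ_form (ModularForm.E (k := p - 1) (show 3 ≤ p - 1 by omega))).smul (N : ℂ)
    have h2 : (N : ℂ) • ⇑(ModularForm.E (k := p - 1) (show 3 ≤ p - 1 by omega)) =
        fun τ => aeval ![ModularForm.E₄ τ, ModularForm.E₆ τ] Q := funext fun τ => hE τ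
    rw [h2] at h1
    have := congrArg (PowerSeries.coeff m) (HasQ.unique one_pos (hasQ_aeval Q) h1)
    rw [PowerSeries.coeff_map, PowerSeries.coeff_smul, EisensteinSeries.E_qExpansion_coeff _ hev]
      at this
    simpa using this
  have hB0 : B ≠ 0 := fun e => hD (by rw [e, Int.cast_zero] at hB; simpa using hB.symm)
  have hS : PowerSeries.map (Int.castRingHom (ZMod p)) S = PowerSeries.C (N : ZMod p) := by
    ext m
    rw [PowerSeries.coeff_map, PowerSeries.coeff_C]
    rcases m with _ | m
    · have := hcoef 0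
      rw [if_pos rfl, mul_one, Int.cast_inj] at this
      simp [this]
    · have h := hcoef (m + 1)
      have hb : (bernoulli (p - 1) : ℂ) ≠ 0 := by
        simp only [ne_eq, Rat.cast_eq_zero]
        intro e
        rw [e, mul_zero, zero_mul] at hBD
        exact hB0 (by exact_mod_cast hBD.symm)
      have hBC : (p : ℂ) * (bernoulli (p - 1) : ℂ) * D = B := by exact_mod_cast hBD
      have hint : B * PowerSeries.coeff (m + 1) S =
          (p : ℤ) * (-2 * ((p - 1 : ℕ) : ℤ) * D * N * σ (p - 1 - 1) (m + 1)) := by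
        apply Int.cast_injective (α := ℂ)
        rw [if_neg m.succ_ne_zero] at h
        push_cast
        rw [h, ← hBC]
        field_simp
      have h' := congrArg (Int.cast : ℤ → ZMod p) hint
      push_cast at h'
      rw [hB, ZMod.natCast_self, zero_mul, mul_eq_zero, neg_eq_zero] at h'
      simpa using h'.resolve_left hD
  have h := map_aeval_series (p := p) Q
  rw [hS, hQ, map_mul, show phi p (C (N : ZMod p)) = PowerSeries.C (N : ZMod p) by
    simp [phi]] at h
  have hN' : PowerSeries.C (N : ZMod p) ≠ 0 := by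
    rw [ne_eq, map_eq_zero_iff _ (fun x y hxy => by
      simpa using congrArg PowerSeries.constantCoeff hxy)]
    rwa [ZMod.intCast_zmod_eq_zero_iff_dvd]
  exact (mul_eq_left₀ hN').1 h.symm

theorem isob_zero_eq_C {F : Poly p} (h : Isob F 0) : F = C (eval (fun _ => 1) F) := by
  induction h using IsWeightedHomogeneous.induction_on with
  | zero => simp
  | add a b _ _ ha hb => rw [map_add, map_add, ← ha, ← hb]
  | monomial d c hd =>
    rw [weight_eq] at hd
    rw [monomial_eq_mul, show d 0 = 0 by omega, show d 1 = 0 by omega]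
    simp

open FA.HasseEis in
/-- `∂²A = -X A`. -/
theorem dOp_dOp_hassePoly (h5 : 5 ≤ p) :
    dOp p (dOp p (hassePoly p)) = -(X 0 * hassePoly p) := by
  have hA := isob_hassePoly h5
  have hp : ((p : ℕ) : Poly p) = 0 := CharP.cast_eq_zero _ p
  have h1 : phi p (dOp p (hassePoly p)) = e2 p := by
    have h := phi_dOp (hassePoly p)
    rw [wOp_isob hA, map_mul, phi_hassePoly h5, map_natCast, Nat.cast_sub (by omega : 1 ≤ p),
      show ((p : ℕ) : PowerSeries (ZMod p)) = 0 by rw [← map_natCast (phi p) p, hp, map_zero],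
      thetaP, show PowerSeries.derivative (ZMod p) (1 : PowerSeries (ZMod p)) = 0 from
        Derivation.map_one_eq_zero _] at h
    push_cast at h
    linear_combination h
  have h2 : phi p (dOp p (dOp p (hassePoly p))) = -e4 p := by
    have h := phi_dOp (dOp p (hassePoly p))
    rw [wOp_isob (dOp_isob hA), map_mul, map_natCast, h1,
      show p - 1 + 2 = p + 1 by omega, Nat.cast_add,
      show ((p : ℕ) : PowerSeries (ZMod p)) = 0 by rw [← map_natCast (phi p) p, hp, map_zero],
      thetaP_e2] at h
    push_cast at h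
    linear_combination h
  rw [eq_neg_iff_add_eq_zero]
  refine phi_injective h5 (n := p + 3) (IsWeightedHomogeneous.add ?_ ?_) ?_
  · convert dOp_isob (dOp_isob hA) using 1
    omega
  · have h := (isWeightedHomogeneous_X (ZMod p) wts 0).mul hA
    rwa [show wts 0 + (p - 1) = p + 3 by simp [wts]; omega] at h
  · rw [map_add, h2, map_mul, phi_hassePoly h5]
    simp [phi]

open FA.HasseEis in
/-- A prime factor of the Hasse invariant does not divide its derivative. -/
theorem not_dvd_dOp_self (h5 : 5 ≤ p) {π : Poly p} (hπ : Prime π) (hπA : π ∣ hassePoly p) :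
    ¬π ∣ dOp p π := by
  intro hdπ
  set A := hassePoly p with hAdef
  have hA := isob_hassePoly (p := p) h5
  have hA1 : eval (fun _ => 1) A = (1 : ZMod p) := by
    rw [← constantCoeff_phi, phi_hassePoly h5, map_one]
  have hA0 : A ≠ 0 := fun e => by rw [e, map_zero] at hA1; exact zero_ne_one hA1
  obtain ⟨mw, hmw, hπw⟩ := isob_of_dvd hA0 hA hπA
  have hmw0 : mw ≠ 0 := fun e => by
    rw [e] at hπw
    rcases eq_or_ne (eval (fun _ => (1 : ZMod p)) π) 0 with h | h
    · exact hπ.ne_zero (by rw [isob_zero_eq_C hπw, h, map_zero])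
    · exact hπ.not_isUnit (isob_zero_eq_C hπw ▸ (Ne.isUnit h).map C)
  set dπ := dOp p π
  have hzero : dπ = 0 := by
    by_contra hne
    obtain ⟨G, hG⟩ := hdπ
    have hmw2 := dOp_isob hπw
    obtain ⟨j, -, hj⟩ := isob_of_dvd hne hmw2 (Dvd.intro_left π hG.symm)
    have hj2 := hmw2.inj_right hne (hG ▸ hπw.mul hj)
    have hG0 : G ≠ 0 := fun e => hne (by rw [hG, e, mul_zero])
    obtain ⟨d, hd⟩ := MvPolynomial.exists_coeff_ne_zero hG0
    have := hj hd
    rw [weight_eq] at this
    omega
  have hf := congrArg PowerSeries.constantCoeff (phi_dOp π)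
  rw [show dOp p π = 0 from hzero, map_zero, zero_add, wOp_isob hπw, map_mul (phi p), map_natCast,
    thetaP] at hf
  have he2 : PowerSeries.constantCoeff (e2 p) = 1 := by
    simp [e2, ← PowerSeries.coeff_zero_eq_constantCoeff_apply, eTwoInt]
  simp [he2, constantCoeff_phi] at hf
  rcases hf with hf | hf
  · exact natCast_ne (fun h' => absurd (Nat.le_of_dvd (Nat.pos_of_ne_zero hmw0) h') (by omega)) hf
  · obtain ⟨Y, hY⟩ := hπA
    rw [hY, map_mul, hf, zero_mul] at hA1
    exact zero_ne_one hA1

open FA.HasseEis in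
/-- The Hasse invariant has no repeated factor. -/
theorem not_sq_dvd_hasse (h5 : 5 ≤ p) {π : Poly p} (hπ : Prime π) (hπA : π ∣ hassePoly p) :
    ¬π ^ 2 ∣ hassePoly p := by
  intro h2
  set A := hassePoly p with hAdef
  have hA := isob_hassePoly (p := p) h5
  have hA1 : eval (fun _ => 1) A = (1 : ZMod p) := by
    rw [← constantCoeff_phi, phi_hassePoly h5, map_one]
  have hA0 : A ≠ 0 := fun e => by rw [e, map_zero] at hA1; exact zero_ne_one hA1
  obtain ⟨mw, hmw, hπw⟩ := isob_of_dvd hA0 hA hπA
  have hmw0 : mw ≠ 0 := fun e => by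
    rw [e] at hπw
    rcases eq_or_ne (eval (fun _ => (1 : ZMod p)) π) 0 with h | h
    · exact hπ.ne_zero (by rw [isob_zero_eq_C hπw, h, map_zero])
    · exact hπ.not_isUnit (isob_zero_eq_C hπw ▸ (Ne.isUnit h).map C)
  obtain ⟨B, hB, hBn⟩ :=
    (FiniteMultiplicity.of_prime_left hπ hA0).exists_eq_pow_mul_and_not_dvd
  set e := multiplicity π A
  obtain ⟨r, hr⟩ : ∃ r, e = r + 2 := ⟨e - 2, by
    have : 2 ≤ e := (FiniteMultiplicity.of_prime_left hπ hA0).le_multiplicity_of_pow_dvd h2
    omega⟩
  rw [hr] at hB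
  have hlt : r + 2 < p := by
    obtain ⟨m', hm', hpw⟩ := isob_of_dvd hA0 hA (Dvd.intro B hB.symm)
    have := hpw.inj_right (pow_ne_zero _ hπ.ne_zero) (hπw.pow (r + 2))
    rw [smul_eq_mul] at this
    have : r + 2 ≤ (r + 2) * mw := Nat.le_mul_of_pos_right _ (Nat.pos_of_ne_zero hmw0)
    omega
  set dπ := dOp p π
  obtain ⟨T, hT⟩ : ∃ T, dOp p (dOp p A) =
      π ^ r * (((r + 2 : ℕ) : Poly p) * ((r + 1 : ℕ) : Poly p) * dπ ^ 2 * B) + π ^ (r + 1) * T :=
    ⟨((r + 2 : ℕ) : Poly p) * dOp p dπ * B + 2 * ((r + 2 : ℕ) : Poly p) * dπ * dOp p B +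
      π * dOp p (dOp p B), by
      rw [hB]
      simp only [Derivation.leibniz, Derivation.leibniz_pow, smul_eq_mul, nsmul_eq_mul, map_add,
        Derivation.map_natCast, show r + 2 - 1 = r + 1 by omega, show r + 1 - 1 = r by omega]
      simp only [dπ]
      push_cast
      ring⟩
  have hdvd : π ∣ ((r + 2 : ℕ) : Poly p) * ((r + 1 : ℕ) : Poly p) * dπ ^ 2 * B := by
    have h3 : π ^ (r + 1) ∣ dOp p (dOp p A) := by
      rw [hAdef, dOp_dOp_hassePoly h5, dvd_neg, ← hAdef, hB]
      exact Dvd.dvd.mul_left ((pow_dvd_pow π (by omega)).mul_right B) _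
    rw [hT, dvd_add_left (dvd_mul_right _ _), pow_succ,
      mul_dvd_mul_iff_left (pow_ne_zero _ hπ.ne_zero)] at h3
    exact h3
  have hcast : ∀ j : ℕ, 0 < j → j < p → ¬π ∣ (j : Poly p) := fun j h0 hj h => by
    have hu : IsUnit (j : Poly p) := by
      rw [← map_natCast (C : ZMod p →+* Poly p)]
      exact (Ne.isUnit (natCast_ne fun h' => absurd (Nat.le_of_dvd h0 h') (by omega))).map C
    exact hπ.not_isUnit (isUnit_of_dvd_unit h hu)
  rcases hπ.dvd_or_dvd hdvd with h | h
  swap; · exact hBn h
  rcases hπ.dvd_or_dvd h with h | h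
  · rcases hπ.dvd_or_dvd h with h | h
    · exact hcast _ (by omega) hlt h
    · exact hcast _ (by omega) (by omega) h
  exact not_dvd_dOp_self h5 hπ hπA (hπ.dvd_of_dvd_pow h)

open FA.HasseEis in
/-- The Hasse invariant has a simple prime factor. -/
theorem exists_simple_factor (h5 : 5 ≤ p) :
    ∃ π, Prime π ∧ π ∣ hassePoly p ∧ ¬π ^ 2 ∣ hassePoly p := by
  set A := hassePoly p with hAdef
  have hA := isob_hassePoly (p := p) h5
  have hA1 : eval (fun _ => 1) A = (1 : ZMod p) := by
    rw [← constantCoeff_phi, phi_hassePoly h5, map_one]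
  have hA0 : A ≠ 0 := fun e => by rw [e, map_zero] at hA1; exact zero_ne_one hA1
  have hAu : ¬IsUnit A := fun hu => by
    obtain ⟨r, hr⟩ := (MvPolynomial.isUnit_iff_eq_C_of_isReduced).1 hu
    have := hA.inj_right hA0 (hr.2 ▸ isWeightedHomogeneous_C wts r)
    omega
  obtain ⟨π, hirr, hπA⟩ := WfDvdMonoid.exists_irreducible_factor hAu hA0
  have hπ : Prime π := irreducible_iff_prime.1 hirr
  exact ⟨π, hπ, hπA, not_sq_dvd_hasse h5 hπ hπA⟩

open FA.HasseEis in
theorem irreducible_hasse_sub_one (h5 : 5 ≤ p) : Irreducible (hassePoly p - 1) := by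
  obtain ⟨π, h1, h2, h3⟩ := exists_simple_factor (p := p) h5
  exact irreducible_sub_one (by omega) (isob_hassePoly h5) h1 h2 h3

theorem coeff_one_pow {R : Type*} [CommRing R] {s : PowerSeries R}
    (hs : PowerSeries.constantCoeff s = 1) (d : ℕ) :
    PowerSeries.coeff 1 (s ^ d) = d * PowerSeries.coeff 1 s := by
  induction d with
  | zero => simp
  | succ d ih =>
    rw [pow_succ, PowerSeries.coeff_mul, Finset.Nat.sum_antidiagonal_succ]
    simp [ih, hs, PowerSeries.coeff_zero_eq_constantCoeff_apply]
    ring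

open FA.HasseEis in
/-- **The theorem of Swinnerton-Dyer.** -/
theorem ker_phi (h5 : 5 ≤ p) :
    RingHom.ker (phi p) = Ideal.span {hassePoly p - 1} := by
  set π₀ := hassePoly p - 1
  have hirr := irreducible_hasse_sub_one (p := p) h5
  have hprime : (Ideal.span {π₀}).IsPrime :=
    (Ideal.span_singleton_prime hirr.ne_zero).2 (irreducible_iff_prime.1 hirr)
  set P := RingHom.ker (phi p)
  haveI hP : P.IsPrime := RingHom.ker_isPrime _
  have hle : Ideal.span {π₀} ≤ P := by
    rw [Ideal.span_le, Set.singleton_subset_iff]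
    show phi p π₀ = 0
    rw [map_sub, map_one, phi_hassePoly h5, sub_self]
  by_contra hne
  have hlt : Ideal.span {π₀} < P := lt_of_le_of_ne hle (Ne.symm hne)
  have hmax : P.IsMaximal := by
    obtain ⟨m, hm, hPm⟩ := P.exists_le_maximal hP.ne_top
    rcases hPm.eq_or_lt with e | hPm
    · exact e ▸ hm
    exfalso
    have hbot : (⊥ : Ideal (Poly p)) < Ideal.span {π₀} :=
      bot_lt_iff_ne_bot.2 (by rw [ne_eq, Ideal.span_singleton_eq_bot]; exact hirr.ne_zero)
    let l : LTSeries (PrimeSpectrum (Poly p)) :=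
      ((((RelSeries.singleton _ (⟨⊥, Ideal.isPrime_bot⟩ : PrimeSpectrum (Poly p))).snoc
        ⟨_, hprime⟩ hbot).snoc ⟨P, hP⟩ (by simp; exact hlt)).snoc ⟨m, hm.isPrime⟩
          (by simp; exact hPm))
    have h3 := Order.LTSeries.length_le_krullDim l
    have hdim : ringKrullDim (Poly p) = 2 := by
      rw [MvPolynomial.ringKrullDim_of_isNoetherianRing, ringKrullDim_eq_zero_of_field]
      simp
    rw [ringKrullDim] at hdim
    rw [hdim] at h3
    have hl : l.length = 3 := rfl
    rw [hl] at h3
    exact absurd h3 (by decide)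
  haveI := hmax
  letI : Field (Poly p ⧸ P) := Ideal.Quotient.field P
  haveI : Module.Finite (ZMod p) (Poly p ⧸ P) :=
    finite_of_finite_type_of_isJacobsonRing (ZMod p) (Poly p ⧸ P)
  haveI : Finite (Poly p ⧸ P) := Module.finite_of_finite (ZMod p)
  have hfin : (Set.range (phi p)).Finite := by
    refine (Set.finite_range fun x : Poly p ⧸ P =>
      Ideal.Quotient.lift P (phi p : (Poly p) →+* _) (fun a ha => RingHom.mem_ker.1 ha) x).subset ?_
    rintro _ ⟨a, rfl⟩
    exact ⟨Ideal.Quotient.mk P a, rfl⟩
  have key : ∀ i, PowerSeries.constantCoeff (phi p (X i)) = 1 →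
      PowerSeries.coeff 1 (phi p (X i)) = 0 := fun i hs => by
    set s := phi p (X i)
    obtain ⟨a, -, b, -, hab, he⟩ := Set.infinite_univ.exists_ne_map_eq_of_mapsTo
      (f := fun d : ℕ => s ^ d) (fun d _ => (⟨X i ^ d, map_pow _ _ _⟩ : s ^ d ∈ Set.range (phi p)))
        hfin
    have hs0 : s ≠ 0 := fun e => by rw [e, map_zero] at hs; exact zero_ne_one hs
    obtain ⟨d, hd, hd1⟩ : ∃ d, 0 < d ∧ s ^ d = 1 := by
      rcases lt_or_gt_of_ne hab with h | h
      · refine ⟨b - a, by omega, mul_left_cancel₀ (pow_ne_zero a hs0) ?_⟩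
        rw [← pow_add, Nat.add_sub_cancel' h.le, mul_one]
        exact he.symm
      · refine ⟨a - b, by omega, mul_left_cancel₀ (pow_ne_zero b hs0) ?_⟩
        rw [← pow_add, Nat.add_sub_cancel' h.le, mul_one]
        exact he
    haveI : CharP (PowerSeries (ZMod p)) p := charP_of_injective_ringHom (f := PowerSeries.C)
      (fun x y hxy => by simpa using congrArg PowerSeries.constantCoeff hxy) p
    induction d using Nat.strong_induction_on with
    | _ d ih =>
      by_cases hpd : p ∣ d
      · obtain ⟨d', rfl⟩ := hpd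
        rw [mul_comm, pow_mul] at hd1
        refine ih d' ?_ (Nat.pos_of_mul_pos_left hd) (frobenius_inj (PowerSeries (ZMod p)) p
          (by simpa [frobenius_def] using hd1))
        exact lt_mul_of_one_lt_left (Nat.pos_of_mul_pos_left hd) (Fact.out : p.Prime).one_lt
      · have := coeff_one_pow hs d
        rw [hd1, PowerSeries.coeff_one, if_neg one_ne_zero] at this
        exact (mul_eq_zero.1 this.symm).resolve_left (natCast_ne hpd)
  have h4 := key 0 (by simp [phi, constantCoeff_e4])
  have h6 := key 1 (by simp [phi, constantCoeff_e6])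
  simp [phi, e4, eFourInt] at h4
  simp [phi, e6, eSixInt] at h6
  have : (2 : ZMod p) ^ 3 * 3 = 0 := by linear_combination h6 - (2 : ZMod p) * h4
  exact mul_ne_zero (pow_ne_zero 3 (ne_two_three h5).1) (ne_two_three h5).2 this

theorem scale_isob (u : (ZMod p)ˣ) {F : Poly p} {n : ℕ} (h : Isob F n) :
    aeval (fun i => C ((u : ZMod p) ^ wts i) * X i) F = C ((u : ZMod p) ^ n) * F := by
  induction h using IsWeightedHomogeneous.induction_on with
  | zero => simp
  | add a b _ _ ha hb => rw [map_add, ha, hb, mul_add]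
  | monomial d c hd =>
    rw [weight_eq] at hd
    rw [monomial_eq_mul, ← hd]
    simp [wts, mul_pow, pow_add, pow_mul]
    ring

open FA.HasseEis in
/-- Weights of congruent isobaric polynomials. -/
theorem weight_congr (h5 : 5 ≤ p) {F G : Poly p} {n n' : ℕ} (hF : Isob F n) (hG : Isob G n')
    (he : phi p F = phi p G) (h0 : phi p F ≠ 0) : n ≡ n' [MOD p - 1] := by
  obtain ⟨g, hg⟩ := IsCyclic.exists_generator (α := (ZMod p)ˣ)
  set τ := aeval (R := ZMod p) (fun i => C ((g : ZMod p) ^ wts i) * X i)
  have hmem : F - G ∈ RingHom.ker (phi p) := by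
    show phi p (F - G) = 0
    rw [map_sub, he, sub_self]
  rw [ker_phi h5, Ideal.mem_span_singleton'] at hmem
  obtain ⟨H, hH⟩ := hmem
  have h2 := congrArg (fun x => phi p (τ x)) hH
  simp only [map_mul, map_sub, map_one, τ, scale_isob g hF, scale_isob g hG,
    scale_isob g (isob_hassePoly h5), ZMod.pow_card_sub_one_eq_one g.ne_zero, phi_hassePoly h5,
    one_mul, sub_self, mul_zero] at h2
  rw [← he, ← sub_mul, eq_comm, mul_eq_zero] at h2
  have h3 := h2.resolve_right h0
  rw [← map_sub, ← map_sub] at h3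
  have h4 := congrArg PowerSeries.constantCoeff h3
  rw [constantCoeff_phi, eval_C, map_zero, sub_eq_zero] at h4
  have h5' : g ^ n = g ^ n' := Units.ext (by simpa using h4)
  rw [pow_eq_pow_iff_modEq] at h5'
  rwa [orderOf_eq_card_of_forall_mem_zpowers hg, Nat.card_eq_fintype_card,
    ZMod.card_units] at h5'

end FA.SwinnertonDyer

end
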