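import Fermat.Agent.Tau.JPolynomial
import Fermat.Agent.Tau.ModularDiagonal
import Fermat.Agent.Tau.ModularSymmetry

/-!
# The functions on `Γ₀(N) \ ℍ`

A holomorphic `Γ₀(N)`-invariant function of moderate growth at the cusps is interpolated over the
cosets: times the derivative of the modular equation it is a polynomial in `j(z)` and `j(N z)`.
-/

set_option autoImplicit false
set_option linter.style.haveILetI false

noncomputable section

namespace FA.FuncField

open UpperHalfPlane hiding I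
open Filter Asymptotics FA.ModField FA.ModPoly FA.JPoly
open scoped MatrixGroups Polynomial Real Manifold Topology

theorem poleLe_mono {f : ℍ → ℂ} {M M' : ℕ} (h : PoleLe f M) (hM : M ≤ M') : PoleLe f M' := by
  refine IsBigO.trans h (.of_bound 1 (Eventually.of_forall fun z => ?_))
  rw [one_mul, Real.norm_of_nonneg (Real.exp_pos _).le, Real.norm_of_nonneg (Real.exp_pos _).le,
    Real.exp_le_exp]
  have : (M : ℝ) ≤ M' := by exact_mod_cast hM
  have := mul_le_mul_of_nonneg_right this (mul_nonneg Real.two_pi_pos.le z.im_pos.le)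
  nlinarith

/-- Holomorphic functions of moderate growth at infinity. -/
def growAlg : Subalgebra ℂ (ℍ → ℂ) where
  carrier := {f | MDiff f ∧ ∃ M, PoleLe f M}
  add_mem' := by
    rintro f g ⟨hf, M, hM⟩ ⟨hg, M', hM'⟩
    exact ⟨hf.add hg, max M M',
      (poleLe_mono hM (le_max_left _ _)).add (poleLe_mono hM' (le_max_right _ _))⟩
  mul_mem' := by
    rintro f g ⟨hf, M, hM⟩ ⟨hg, M', hM'⟩
    refine ⟨hf.mul hg, M + M', (hM.mul hM').congr_right fun z => ?_⟩
    rw [← Real.exp_add]
    push_cast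
    ring_nf
  algebraMap_mem' c := by
    refine ⟨mdifferentiable_const, 0, ?_⟩
    simp only [PoleLe, Nat.cast_zero, mul_zero, zero_mul, Real.exp_zero]
    exact isBigO_const_const c one_ne_zero _

/-- Evaluation at a point. -/
def ev (z : ℍ) : growAlg →+* ℂ :=
  (Pi.evalRingHom (fun _ : ℍ => ℂ) z).comp growAlg.val.toRingHom

/-- An invariant family of polynomials of moderate growth has coefficients in `ℂ[j]`. -/
theorem exists_family (u : growAlg[X])
    (hinv : ∀ (g : SL(2, ℤ)) (z : ℍ), u.map (ev (g • z)) = u.map (ev z)) :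
    ∃ P : ℂ[X][X], P.natDegree ≤ u.natDegree ∧
      (u.Monic → P.Monic ∧ P.natDegree = u.natDegree) ∧
      ∀ z, P.map (Polynomial.evalRingHom (jfun z)) = u.map (ev z) := by
  have hk : ∀ k, ∃ Q : ℂ[X], ∀ z, ev z (u.coeff k) = Q.eval (jfun z) := fun k => by
    obtain ⟨hm, M, hM⟩ := (u.coeff k).2
    refine exists_eval_eq hm (fun g z => ?_) hM
    have := congrArg (Polynomial.coeff · k) (hinv g z)
    simp only [Polynomial.coeff_map] at this
    exact this
  choose Q hQ using hk
  have hz : ∀ k, u.natDegree < k → Q k = 0 := fun k hk =>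
    eval_jfun_injective fun z => by
      rw [← hQ, Polynomial.coeff_eq_zero_of_natDegree_lt hk, map_zero, Polynomial.eval_zero]
  set P : ℂ[X][X] := ∑ k ∈ Finset.range (u.natDegree + 1), Polynomial.C (Q k) * Polynomial.X ^ k
  have hP : ∀ k, P.coeff k = Q k := fun k => by
    simp only [P, Polynomial.finsetSum_coeff, Polynomial.coeff_C_mul_X_pow, Finset.sum_ite_eq,
      Finset.mem_range]
    split_ifs with h
    · rfl
    · exact (hz k (by omega)).symm
  have hdeg : P.natDegree ≤ u.natDegree :=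
    Polynomial.natDegree_le_iff_coeff_eq_zero.2 fun k hk => (hP k).trans (hz k hk)
  refine ⟨P, hdeg, fun hmon => ?_, fun z => Polynomial.ext fun k => ?_⟩
  · have h1 : P.coeff u.natDegree = 1 := eval_jfun_injective fun z => by
      rw [hP, ← hQ, hmon.coeff_natDegree, map_one, Polynomial.eval_one]
    refine ⟨Polynomial.monic_of_natDegree_le_of_coeff_eq_one _ hdeg h1,
      le_antisymm hdeg (Polynomial.le_natDegree_of_ne_zero ?_)⟩
    rw [h1]
    exact one_ne_zero
  · rw [Polynomial.coeff_map, Polynomial.coeff_map, hP, hQ]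
    rfl

variable (N : ℕ) [NeZero N]

/-- The functions `j(N γ z)` grow moderately. -/
theorem fN_smul_mem (γ : SL(2, ℤ)) : (fun z => fN N (γ • z)) ∈ growAlg := by
  refine ⟨mdiff_comp_smul (mdiff_jfun_scale N) γ, N, ?_⟩
  obtain ⟨a, δ, b, ha, haδ, -, hw⟩ := exists_upper N γ
  choose w hwc hwj using hw
  have haN : (a : ℝ) ≤ N := by
    have h1 : a ∣ N := ⟨δ, haδ.symm⟩
    exact_mod_cast Nat.le_of_dvd (NeZero.pos N) h1
  have hδ : 1 ≤ δ := Nat.pos_of_ne_zero fun h => NeZero.ne N (by rw [← haδ, h, mul_zero])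
  have him : ∀ z, (w z).im = (a : ℝ) / δ * z.im := fun z => by
    show ((w z : ℂ)).im = _
    rw [hwc, Complex.div_natCast_im]
    simp [div_mul_eq_mul_div]
  have ht : Tendsto w atImInfty atImInfty := by
    simp only [atImInfty, tendsto_comap_iff, Function.comp_def, him]
    exact Tendsto.const_mul_atTop (div_pos (by exact_mod_cast ha) (by exact_mod_cast hδ))
      tendsto_comap
  refine ((jfun_isBigO.comp_tendsto ht).congr_left fun z => (hwj z).symm).trans ?_
  refine .of_bound 1 (Eventually.of_forall fun z => ?_)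
  rw [one_mul, Function.comp_apply, Real.norm_of_nonneg (Real.exp_pos _).le,
    Real.norm_of_nonneg (Real.exp_pos _).le, Real.exp_le_exp, him]
  have hδ' : (1 : ℝ) ≤ δ := by exact_mod_cast hδ
  have h2 : (a : ℝ) / δ ≤ N := (div_le_self (Nat.cast_nonneg a) hδ').trans haN
  have := mul_le_mul_of_nonneg_left (mul_le_mul_of_nonneg_right h2 z.im_pos.le) Real.two_pi_pos.le
  linarith

omit [NeZero N] in
/-- The conjugates of an invariant function are permuted. -/
theorem cos_smul {f : ℍ → ℂ} (hf : ∀ γ ∈ CongruenceSubgroup.Gamma0 N, ∀ z, f (γ • z) = f z)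
    (i : FA.Dim.Cos N) (g : SL(2, ℤ)) (z : ℍ) :
    cosVal N f i (g • z) = cosVal N f (g⁻¹ • i) z := by
  induction i using QuotientGroup.induction_on with
  | H a =>
  have key : ∀ (b : SL(2, ℤ)) (y : ℍ), cosVal N f (QuotientGroup.mk b) y = f (b⁻¹ • y) := by
    intro b y
    obtain ⟨h, hh⟩ := QuotientGroup.mk_out_eq_mul (CongruenceSubgroup.Gamma0 N) b
    rw [cosVal, hh, mul_inv_rev, mul_smul, hf _ (inv_mem h.2)]
  rw [MulAction.Quotient.smul_mk, key, key, smul_eq_mul, mul_inv_rev, inv_inv, mul_smul]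

variable [Fintype (FA.Dim.Cos N)] {f : ℍ → ℂ}

/-- **The function field.** -/
theorem exists_rational (hinv : ∀ γ ∈ CongruenceSubgroup.Gamma0 N, ∀ z, f (γ • z) = f z)
    (hgrow : ∀ γ : SL(2, ℤ), (fun z => f (γ • z)) ∈ growAlg) :
    ∃ P : ℂ[X][X], ∀ z,
      f z * (Polynomial.derivative (phi N)).eval₂
          (Polynomial.aeval (R := ℤ) (jfun z)).toRingHom (fN N z) =
        P.eval₂ (Polynomial.evalRingHom (jfun z)) (fN N z) := by
  classical
  have hr : ∀ γ ∈ CongruenceSubgroup.Gamma0 N, ∀ z, fN N (γ • z) = fN N z := (fN_mem N).2.1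
  let a : FA.Dim.Cos N → growAlg := fun i => ⟨cosVal N f i, hgrow _⟩
  let r : FA.Dim.Cos N → growAlg := fun i => ⟨cosVal N (fN N) i, fN_smul_mem N _⟩
  let u : growAlg[X] := ∑ i, Polynomial.C (a i) *
    ∏ k ∈ Finset.univ.erase i, (Polynomial.X - Polynomial.C (r k))
  have hu : ∀ z, u.map (ev z) = ∑ i, Polynomial.C (cosVal N f i z) *
      ∏ k ∈ Finset.univ.erase i, (Polynomial.X - Polynomial.C (cosVal N (fN N) k z)) := fun z => by
    simp [u, Polynomial.map_sum, Polynomial.map_prod, ev, a, r]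
  obtain ⟨P, -, -, hP⟩ := exists_family u fun g z => by
    rw [hu, hu]
    simp only [cos_smul N hinv, cos_smul N hr]
    refine Fintype.sum_equiv (MulAction.toPerm g⁻¹) _ _ fun i => ?_
    simp only [MulAction.toPerm_apply]
    rw [Finset.prod_equiv (t := Finset.univ.erase (g⁻¹ • i))
      (g := fun k => Polynomial.X - Polynomial.C (cosVal N (fN N) k z))
      (f := fun k => Polynomial.X - Polynomial.C (cosVal N (fN N) (g⁻¹ • k) z))
      (MulAction.toPerm g⁻¹) (by simp) fun k _ => rfl]
  refine ⟨P, fun z => ?_⟩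
  set i₀ : FA.Dim.Cos N := QuotientGroup.mk 1
  have hi0 : ∀ (F : ℍ → ℂ), (∀ γ ∈ CongruenceSubgroup.Gamma0 N, ∀ z, F (γ • z) = F z) →
      cosVal N F i₀ z = F z := fun F hF => by
    obtain ⟨h, hh⟩ := QuotientGroup.mk_out_eq_mul (CongruenceSubgroup.Gamma0 N) (1 : SL(2, ℤ))
    rw [cosVal, hh, one_mul, hF _ (inv_mem h.2)]
  rw [← Polynomial.eval_map, ← Polynomial.eval_map, hP, hu, ← Polynomial.derivative_map,
    FA.Diagonal.map_phi_at, Polynomial.derivative_prod_finset, Polynomial.eval_finsetSum,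
    Polynomial.eval_finsetSum, Finset.mul_sum]
  refine Finset.sum_congr rfl fun i _ => ?_
  simp only [Polynomial.derivative_sub, Polynomial.derivative_X, Polynomial.derivative_C,
    sub_zero, mul_one, Polynomial.eval_mul, Polynomial.eval_C]
  by_cases hi : i = i₀
  · rw [hi, hi0 f hinv]
  · rw [Polynomial.eval_prod,
      Finset.prod_eq_zero (Finset.mem_erase.2 ⟨Ne.symm hi, Finset.mem_univ i₀⟩) (by
        simp [hi0 (fN N) hr]), mul_zero, mul_zero]

/-- The derivative of the modular equation does not vanish identically. -/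
theorem exists_derivative_ne_zero : ∃ z, (Polynomial.derivative (phi N)).eval₂
    (Polynomial.aeval (R := ℤ) (jfun z)).toRingHom (fN N z) ≠ 0 := by
  by_contra hc
  push Not at hc
  have hn : 0 < Nat.card (FA.Dim.Cos N) := Nat.card_pos
  have h0 := eq_zero_of_vanish N
    ((Polynomial.natDegree_derivative_lt (by rw [phi_natDegree]; omega)).trans_eq
      (phi_natDegree N)) hc
  have h1 := Polynomial.eq_C_of_derivative_eq_zero h0
  have h2 := congrArg Polynomial.natDegree h1
  rw [phi_natDegree, Polynomial.natDegree_C] at h2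
  omega

omit [NeZero N] in
/-- Every such function is algebraic over `ℂ[j]`, of degree at most the index. -/
theorem exists_algebraic (hinv : ∀ γ ∈ CongruenceSubgroup.Gamma0 N, ∀ z, f (γ • z) = f z)
    (hgrow : ∀ γ : SL(2, ℤ), (fun z => f (γ • z)) ∈ growAlg) :
    ∃ R : ℂ[X][X], R.Monic ∧ R.natDegree = Nat.card (FA.Dim.Cos N) ∧
      ∀ z, R.eval₂ (Polynomial.evalRingHom (jfun z)) (f z) = 0 := by
  classical
  let u : growAlg[X] := ∏ i : FA.Dim.Cos N,
    (Polynomial.X - Polynomial.C (⟨cosVal N f i, hgrow _⟩ : growAlg))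
  have hu : ∀ z, u.map (ev z) = ∏ i, (Polynomial.X - Polynomial.C (cosVal N f i z)) := fun z => by
    simp [u, Polynomial.map_prod, ev]
  obtain ⟨R, -, hm, hR⟩ := exists_family u fun g z => by
    rw [hu, hu]
    simp only [cos_smul N hinv]
    exact Fintype.prod_equiv (MulAction.toPerm g⁻¹) _ _ fun i => rfl
  obtain ⟨hRm, hRd⟩ := hm (Polynomial.monic_prod_X_sub_C _ _)
  refine ⟨R, hRm, ?_, fun z => ?_⟩
  · rw [hRd, Polynomial.natDegree_finsetProd_X_sub_C_eq_card, Finset.card_univ,
      Nat.card_eq_fintype_card]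
  · rw [← Polynomial.eval_map, hR, hu, Polynomial.eval_prod]
    obtain ⟨h, hh⟩ := QuotientGroup.mk_out_eq_mul (CongruenceSubgroup.Gamma0 N) (1 : SL(2, ℤ))
    refine Finset.prod_eq_zero (Finset.mem_univ (QuotientGroup.mk 1 : FA.Dim.Cos N)) ?_
    rw [Polynomial.eval_sub, Polynomial.eval_X, Polynomial.eval_C, cosVal, hh, one_mul,
      hinv _ (inv_mem h.2), sub_self]

omit [NeZero N] [Fintype (FA.Dim.Cos N)] in
/-- Exponential growth is moderate. -/
theorem mem_growAlg {g : ℍ → ℂ} (hg : MDiff g) {c : ℝ}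
    (h : g =O[atImInfty] fun z => Real.exp (c * z.im)) : g ∈ growAlg := by
  refine ⟨hg, ⌈|c| / (2 * π)⌉₊, h.trans (.of_bound 1 (Eventually.of_forall fun z => ?_))⟩
  rw [one_mul, Real.norm_of_nonneg (Real.exp_pos _).le, Real.norm_of_nonneg (Real.exp_pos _).le,
    Real.exp_le_exp]
  have h1 := Nat.le_ceil (|c| / (2 * π))
  rw [div_le_iff₀ Real.two_pi_pos] at h1
  nlinarith [le_abs_self c, z.im_pos]

end FA.FuncField

end
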