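import Fermat.Agent.Tau.ModularPolynomial
import Mathlib.FieldTheory.RatFunc.AsPolynomial
import Mathlib.RingTheory.AdjoinRoot
import Mathlib.RingTheory.Polynomial.GaussLemma

/-!
# Absolute irreducibility of the modular polynomial

The conjugates of `j(N z)` are permuted transitively whatever the field of coefficients, so `Φ_N`
is irreducible over every field mapping to `ℂ`.
-/

set_option autoImplicit false
set_option linter.style.haveILetI false

noncomputable section

namespace FA.ModIrr

open UpperHalfPlane hiding I
open FA.ModField FA.ModPoly FA.SingularIntegral HahnSeries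
open scoped MatrixGroups Polynomial

variable (N : ℕ) [NeZero N]

/-- Evaluation of complex polynomials at the series of `j`. -/
def evC : ℂ[X] →+* LaurentSeries ℂ := Polynomial.eval₂RingHom HahnSeries.C (Jp N)

theorem evC_injective : Function.Injective (evC N) := by
  refine (injective_iff_map_eq_zero _).mpr fun D hD => ?_
  obtain ⟨h1, h2, -⟩ := Jp_low N
  have hm : -(N : ℤ) < 0 := by have := NeZero.pos N; omega
  have := (eval_top hm h1 h2 (le_refl D.natDegree)).2
  simp only [evC, Polynomial.coe_eval₂RingHom] at hD
  rw [hD, coeff_zero, Polynomial.coeff_natDegree, eq_comm, Polynomial.leadingCoeff_eq_zero] at this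
  exact this

variable [Fintype (FA.Dim.Cos N)]

/-- `Φ_N` over a field. -/
abbrev phiOver (k : Type*) [Field k] : k[X][X] :=
  (phi N).map (Polynomial.mapRingHom (Int.castRingHom k))

theorem phiOver_natDegree (k : Type*) [Field k] :
    (phiOver N k).natDegree = Nat.card (FA.Dim.Cos N) := by
  rw [(phi_monic N).natDegree_map, phi_natDegree]

theorem map_phiOver : (phiOver N ℂ).map (evC N) = prodSer N := by
  rw [Polynomial.map_map]
  exact map_phi N

/-- A monic polynomial over `ℂ[X]` vanishing at one conjugate has degree at least the index. -/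
theorem card_le_natDegree {G : ℂ[X][X]} (hG : G.Monic) {i : FA.Dim.Cos N}
    (hi : (G.map (evC N)).eval (ser N i) = 0) : Nat.card (FA.Dim.Cos N) ≤ G.natDegree := by
  classical
  have hexp : ∀ i, HasExp (qp N) (∑ k ∈ Finset.range (G.natDegree + 1),
      (fun z => (G.coeff k).eval (jfun z)) * cosVal N (fN N) i ^ k)
      ((G.map (evC N)).eval (ser N i)) := fun i => by
    rw [Polynomial.eval_map, Polynomial.eval₂_eq_sum_range]
    exact hasExp_sum _ fun k _ => (hasExp_eval N _).mul (qp_ne_zero N)
      ((hasExp_ser N i).pow (qp_ne_zero N) k)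
  have hall : ∀ i', (G.map (evC N)).eval (ser N i') = 0 := fun i' => by
    have h0 := hexp i
    rw [hi] at h0
    have hz := h0.fun_unique hasExp_zero
    induction i using QuotientGroup.induction_on with
    | H g =>
    induction i' using QuotientGroup.induction_on with
    | H g' =>
    refine hasExp_eq_zero (covers_qp N) ((hexp _).congr ?_)
    funext z
    have := congrFun hz (g • g'⁻¹ • z)
    simp only [Finset.sum_apply, Pi.mul_apply, Pi.pow_apply, Pi.zero_apply, jfun_smul,
      cosVal_mk (fN_mem N), inv_smul_smul] at this ⊢
    exact this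
  by_contra hlt
  have := Polynomial.eq_zero_of_natDegree_lt_card_of_eval_eq_zero (G.map (evC N))
    (ser_injective N) hall (by rw [← Nat.card_eq_fintype_card, hG.natDegree_map]; omega)
  exact (hG.map (evC N)).ne_zero this

theorem phiOver_complex_irreducible : Irreducible (phiOver N ℂ) := by
  have hn : 0 < Nat.card (FA.Dim.Cos N) := Nat.card_pos
  have hm : (phiOver N ℂ).Monic := (phi_monic N).map _
  rw [hm.irreducible_iff_natDegree]
  refine ⟨fun h => ?_, fun G H hG hH hGH => ?_⟩
  · have := phiOver_natDegree N ℂ
    rw [h, Polynomial.natDegree_one] at this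
    omega
  let i₀ : FA.Dim.Cos N := QuotientGroup.mk 1
  have h0 : (G.map (evC N)).eval (ser N i₀) * (H.map (evC N)).eval (ser N i₀) = 0 := by
    rw [← Polynomial.eval_mul, ← Polynomial.map_mul, hGH, map_phiOver, prodSer,
      Polynomial.eval_prod]
    exact Finset.prod_eq_zero (Finset.mem_univ i₀) (by simp)
  have hdeg : G.natDegree + H.natDegree = Nat.card (FA.Dim.Cos N) := by
    rw [← hG.natDegree_mul hH, hGH, phiOver_natDegree]
  rcases mul_eq_zero.mp h0 with h | h
  · have := card_le_natDegree N hG h; omega
  · have := card_le_natDegree N hH h; omega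

theorem phiOver_irreducible {k : Type*} [Field k] (σ : k →+* ℂ) : Irreducible (phiOver N k) := by
  refine ((phi_monic N).map _).irreducible_of_irreducible_map (Polynomial.mapRingHom σ) _ ?_
  rw [Polynomial.map_map, Polynomial.mapRingHom_comp, RingHom.eq_intCast' (σ.comp _)]
  exact phiOver_complex_irreducible N

theorem phiOver_ratFunc_irreducible {k : Type*} [Field k] (σ : k →+* ℂ) :
    Irreducible ((phiOver N k).map (algebraMap k[X] (RatFunc k))) :=
  ((phi_monic N).map _).irreducible_iff_irreducible_map_fraction_map.mp (phiOver_irreducible N σ)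

theorem finrank_adjoinRoot {k : Type*} [Field k] :
    Module.finrank (RatFunc k) (AdjoinRoot ((phiOver N k).map (algebraMap k[X] (RatFunc k)))) =
      Nat.card (FA.Dim.Cos N) := by
  have hm : ((phiOver N k).map (algebraMap k[X] (RatFunc k))).Monic :=
    ((phi_monic N).map _).map _
  rw [(AdjoinRoot.powerBasis hm.ne_zero).finrank, AdjoinRoot.powerBasis_dim,
    ((phi_monic N).map _).natDegree_map, phiOver_natDegree]

end FA.ModIrr

end
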