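import Fermat.Agent.Tau.DihedralPrimes
import Fermat.Agent.Tau.QuasiModular

/-!
# The octahedral condition on `τ`

If `τ(l)² / l¹¹` is `0, 1, 2` or `4` modulo `p` at `l = 2, 3, 5` then `p` is `2, 3, 5, 7` or `23`,
and there it is so at every prime, by the congruences of Ramanujan and of Wilton.
-/

set_option autoImplicit false

noncomputable section

namespace FA.SwinnertonDyer

open FA.Tau
open PowerSeries (coeff)
open scoped ArithmeticFunction.sigma

/-- The condition at `l`. -/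
def IsOctahedralAt (p l : ℕ) : Prop :=
  ∃ c ∈ ({0, 1, 2, 4} : Finset ℕ),
    ((coeff l deltaInt : ℤ) : ZMod p) ^ 2 = (c : ZMod p) * (l : ZMod p) ^ 11

theorem tau_five : coeff 5 deltaInt = 4830 := by
  rw [coeff_deltaInt_niebur]
  simp [Finset.sum_range_succ, ArithmeticFunction.sigma_apply,
    show (5 : ℕ).divisors = {1, 5} by decide, show (4 : ℕ).divisors = {1, 2, 4} by decide,
    show (3 : ℕ).divisors = {1, 3} by decide, show (2 : ℕ).divisors = {1, 2} by decide]

theorem dvd_of_octahedralAt {p l : ℕ} {t : ℤ} (ht : coeff l deltaInt = t)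
    (h : IsOctahedralAt p l) : (p : ℤ) ∣ t ^ 2 ∨ (p : ℤ) ∣ t ^ 2 - l ^ 11 ∨
      (p : ℤ) ∣ t ^ 2 - 2 * l ^ 11 ∨ (p : ℤ) ∣ t ^ 2 - 4 * l ^ 11 := by
  obtain ⟨c, hc, e⟩ := h
  rw [ht] at e
  simp only [← ZMod.intCast_zmod_eq_zero_iff_dvd]
  push_cast
  simp only [Finset.mem_insert, Finset.mem_singleton] at hc
  rcases hc with rfl | rfl | rfl | rfl <;> push_cast at e
  · exact Or.inl (by rw [e, zero_mul])
  · exact Or.inr (Or.inl (by rw [e, one_mul, sub_self]))
  · exact Or.inr (Or.inr (Or.inl (by rw [e, sub_self])))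
  · exact Or.inr (Or.inr (Or.inr (by rw [e, sub_self])))

/-- Only five primes. -/
theorem eq_of_octahedral {p : ℕ} (hp : p.Prime)
    (h : ∀ l, l.Prime → l ≠ p → IsOctahedralAt p l) :
    p = 2 ∨ p = 3 ∨ p = 5 ∨ p = 7 ∨ p = 23 := by
  rcases eq_or_ne p 2 with rfl | h2
  · exact Or.inl rfl
  have h2' := dvd_of_octahedralAt tau_two (h 2 Nat.prime_two h2.symm)
  norm_num at h2'
  have key : p ∣ 2 ^ 6 * 3 ^ 2 * 5 * 7 * 11 * 17 * 23 := by
    rcases h2' with e | e | e | e <;> have e' := Int.natCast_dvd.1 e <;>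
      norm_num at e' <;> refine e'.trans ?_ <;> norm_num
  have hmem : p ∈ [2, 3, 5, 7, 11, 17, 23] := by
    rw [hp.dvd_mul, hp.dvd_mul, hp.dvd_mul, hp.dvd_mul, hp.dvd_mul, hp.dvd_mul] at key
    have : ∀ q, q.Prime → p ∣ q → p = q := fun q hq hd =>
      (Nat.prime_dvd_prime_iff_eq hp hq).1 hd
    rcases key with (((((e | e) | e) | e) | e) | e) | e
    · simp [this 2 Nat.prime_two (hp.dvd_of_dvd_pow e)]
    · simp [this 3 Nat.prime_three (hp.dvd_of_dvd_pow e)]
    all_goals simp [this _ (by norm_num) e]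
  simp only [List.mem_cons, List.not_mem_nil, or_false] at hmem
  rcases hmem with rfl | rfl | rfl | rfl | rfl | rfl | rfl
  all_goals first | omega | skip
  · have h5 := dvd_of_octahedralAt tau_five (h 5 (by norm_num) (by norm_num))
    norm_num at h5
  · have h3 := dvd_of_octahedralAt tau_three (h 3 (by norm_num) (by norm_num))
    norm_num at h3

private theorem octahedral_three : ∀ t x : ZMod 3, x ≠ 0 → ∃ c ∈ ({0, 1, 2, 4} : Finset ℕ),
    t ^ 2 = (c : ZMod 3) * x ^ 11 := by decide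

private theorem octahedral_five : ∀ x : ZMod 5, x ≠ 0 → ∃ c ∈ ({0, 1, 2, 4} : Finset ℕ),
    (x * (1 + x)) ^ 2 = (c : ZMod 5) * x ^ 11 := by decide

private theorem octahedral_seven : ∀ x : ZMod 7, x ≠ 0 → ∃ c ∈ ({0, 1, 2, 4} : Finset ℕ),
    (x * (1 + x ^ 3)) ^ 2 = (c : ZMod 7) * x ^ 11 := by decide

private theorem pow_eleven : ∀ x : ZMod 23, x ≠ 0 → IsSquare x → x ^ 11 = 1 := by decide

private theorem zmod_two : ∀ t x : ZMod 2, x ≠ 0 → ∃ c ∈ ({0, 1, 2, 4} : Finset ℕ),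
    t ^ 2 = (c : ZMod 2) * x ^ 11 := by decide

/-- At these five primes the condition holds everywhere. -/
theorem octahedralAt_of_mem {p : ℕ} (hp : p = 2 ∨ p = 3 ∨ p = 5 ∨ p = 7 ∨ p = 23) {l : ℕ}
    (hl : l.Prime) (hlp : l ≠ p) : IsOctahedralAt p l := by
  have hp' : p.Prime := by rcases hp with rfl | rfl | rfl | rfl | rfl <;> norm_num
  have hne : (l : ZMod p) ≠ 0 := fun e =>
    hlp ((Nat.prime_dvd_prime_iff_eq hp' hl).1 ((ZMod.natCast_eq_zero_iff l p).1 e)).symm
  unfold IsOctahedralAt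
  rcases hp with rfl | rfl | rfl | rfl | rfl
  · exact zmod_two _ _ hne
  · exact octahedral_three _ _ hne
  · rw [(coeff_deltaInt_prime hl).1]; exact octahedral_five _ hne
  · rw [(coeff_deltaInt_prime hl).2]; exact octahedral_seven _ hne
  · by_cases hsq : IsSquare (l : ZMod 23)
    · rw [pow_eleven _ hne hsq]
      rcases exists_form_of_isSquare hl hlp hsq with ⟨u, v, h⟩ | ⟨s, t, h⟩
      · exact ⟨4, by simp, by rw [coeff_of_principal hl hlp h]; norm_num⟩
      · exact ⟨1, by simp, by rw [coeff_of_nonprincipal hl h]; simp⟩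
    · exact ⟨0, by simp, by rw [coeff_of_not_isSquare hl.pos hsq]; simp⟩

end FA.SwinnertonDyer

end
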