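import Fermat.Agent.Tau.SupersingularFunctions
import Fermat.Agent.Supersingular.OggBound
import Mathlib.LinearAlgebra.Trace

/-!
# Ogg's primes

The supersingular invariants are all in `𝔽_p` exactly for Ogg's primes: Landen's transformation
gives `p < 96` and a finite count does the rest. On forms of weight `p + 1` modulo `p` the two
eigenspaces of `U` have dimensions half the sum and half the difference of `#S` and `#S(𝔽_p)`.
-/

set_option autoImplicit false
set_option linter.style.haveILetI false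

noncomputable section

namespace FA.SupersingularPoints

open FA.SupersingularCount FA.SwinnertonDyer FA.HasseEis
open scoped Classical

variable {p : ℕ} [Fact p.Prime]

/-- A zero of `A` off the cusp is one over a supersingular invariant. -/
theorem aeval_eq_zero_iff (h5 : 5 ≤ p) {x : Fin 2 → Fbar p} (hab : x 0 ^ 3 ≠ x 1 ^ 2) :
    MvPolynomial.aeval x (hassePoly p) = 0 ↔
      1728 * x 0 ^ 3 / (x 0 ^ 3 - x 1 ^ 2) ∈ ssInvariants (Fbar p) p := by
  obtain ⟨u, hu, j, hj⟩ := exists_repPoint h5 hab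
  have hJ : 1728 * x 0 ^ 3 / (x 0 ^ 3 - x 1 ^ 2) = j := by
    conv_rhs => rw [← (invariant_repPoint h5 j).2, ← hj]
    simp only [Matrix.cons_val_zero, Matrix.cons_val_one, Matrix.cons_val_fin_one]
    rw [show 1728 * (u ^ 4 * x 0) ^ 3 = u ^ 12 * (1728 * x 0 ^ 3) by ring,
      show (u ^ 4 * x 0) ^ 3 - (u ^ 6 * x 1) ^ 2 = u ^ 12 * (x 0 ^ 3 - x 1 ^ 2) by ring,
      mul_div_mul_left _ _ (pow_ne_zero 12 hu)]
  rw [hJ, ← (zeroSet_eq h5).1, zeroSet, Set.mem_ofPred_eq, ← hj,
    aeval_scale (isob_hassePoly h5), mul_eq_zero, or_iff_right (pow_ne_zero _ hu)]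

/-- The coefficients of a curve with invariant `j`. -/
def curveCoeff (p j : ℕ) : ℕ × ℕ :=
  if j % p = 0 then (0, 1) else if j % p = 1728 % p then (1, 0)
  else (3 * (p - 1) * (j * (j + (1728 * p - 1728))), 2 * (j * (j + (1728 * p - 1728)) ^ 2))

/-- The character sum modulo `p` of that curve. -/
def ssSum (p j : ℕ) : ℕ :=
  (∑ x ∈ Finset.range p,
    ((x ^ 3 + (curveCoeff p j).1 * x + (curveCoeff p j).2) % p) ^ (p / 2) % p) % p

theorem ssSum_cast (h5 : 5 ≤ p) (j : ℕ) :
    (ssSum p j : ZMod p) =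
      -FA.ReducedGroups.hasseShort ((curveCoeff p j).1 : ZMod p) (curveCoeff p j).2 := by
  have hp : p.Prime := Fact.out
  set A : ZMod p := ((curveCoeff p j).1 : ZMod p)
  set B : ZMod p := ((curveCoeff p j).2 : ZMod p)
  rw [ssSum, ZMod.natCast_mod, Nat.cast_sum]
  obtain ⟨m, hm⟩ := hp.odd_of_ne_two (by omega)
  have hdeg : ((Polynomial.X ^ 3 + Polynomial.C A * Polynomial.X + Polynomial.C B :
      Polynomial (ZMod p)) ^ (p / 2)).natDegree < 2 * (Fintype.card (ZMod p) - 1) := by
    refine Polynomial.natDegree_pow_le.trans_lt ?_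
    have h3 : (Polynomial.X ^ 3 + Polynomial.C A * Polynomial.X + Polynomial.C B :
        Polynomial (ZMod p)).natDegree ≤ 3 := by compute_degree
    have := Nat.mul_le_mul_left (p / 2) h3
    rw [ZMod.card]
    omega
  have hs := FA.Carayol.sum_eval_eq_neg_coeff _ hdeg
  rw [ZMod.card] at hs
  rw [FA.ReducedGroups.hasseShort, ← hs]
  refine Finset.sum_bij' (fun x _ => (x : ZMod p)) (fun y _ => y.val)
    (fun x _ => Finset.mem_univ _) (fun y _ => Finset.mem_range.2 y.val_lt)
    (fun x hx => ZMod.val_natCast_of_lt (Finset.mem_range.1 hx))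
    (fun y _ => ZMod.natCast_zmod_val y) fun x _ => ?_
  simp [A, B, ZMod.natCast_mod]

/-- **The test.** -/
theorem natCast_mem_ssInvariants (h5 : 5 ≤ p) (j : ℕ) :
    (j : Fbar p) ∈ ssInvariants (Fbar p) p ↔ ssSum p j = 0 := by
  have hp : p.Prime := Fact.out
  set A : ZMod p := ((curveCoeff p j).1 : ZMod p) with hA
  set B : ZMod p := ((curveCoeff p j).2 : ZMod p) with hB
  have hlt : ssSum p j < p := Nat.mod_lt _ hp.pos
  have h1 : ssSum p j = 0 ↔ FA.ReducedGroups.hasseShort A B = 0 := by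
    constructor
    · intro e
      have := ssSum_cast h5 j
      rwa [e, Nat.cast_zero, eq_comm, neg_eq_zero] at this
    · intro e
      have := ssSum_cast h5 j
      rw [e, neg_zero, ZMod.natCast_eq_zero_iff] at this
      exact Nat.eq_zero_of_dvd_of_lt this hlt
  obtain ⟨h2, h3, -, -, h1728⟩ := small_ne_zero (k := Fbar p) (q := p) h5
  set f := algebraMap (ZMod p) (Fbar p) with hf
  set x : Fin 2 → Fbar p := f ∘ ![-48 * A, 864 * B] with hx
  have hinv : x 0 ^ 3 ≠ x 1 ^ 2 ∧
      1728 * x 0 ^ 3 / (x 0 ^ 3 - x 1 ^ 2) = (j : Fbar p) := by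
    have h48 : (48 : Fbar p) ≠ 0 := by
      rw [show (48 : Fbar p) = 2 ^ 4 * 3 by norm_num]
      exact mul_ne_zero (pow_ne_zero _ h2) h3
    have h864 : (864 : Fbar p) ≠ 0 := by
      rw [show (864 : Fbar p) = 2 ^ 5 * 3 ^ 3 by norm_num]
      exact mul_ne_zero (pow_ne_zero _ h2) (pow_ne_zero _ h3)
    have ex : x 0 = -48 * f A ∧ x 1 = 864 * f B := by
      constructor <;> simp [hx, map_ofNat]
    rw [ex.1, ex.2, hA, hB, hf, map_natCast, map_natCast, curveCoeff]
    split_ifs with e0 e1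
    · have hj : (j : Fbar p) = 0 :=
        (CharP.cast_eq_zero_iff (Fbar p) p j).2 (Nat.dvd_of_mod_eq_zero e0)
      simp [hj, h864, Ne.symm]
    · have hj : (j : Fbar p) = 1728 := by
        rw [show (1728 : Fbar p) = ((1728 : ℕ) : Fbar p) by norm_num,
          CharP.natCast_eq_natCast (Fbar p) p]
        exact e1
      simp [hj, h48]
    · have hj0 : (j : Fbar p) ≠ 0 := fun e => e0
        (Nat.mod_eq_zero_of_dvd ((CharP.cast_eq_zero_iff (Fbar p) p j).1 e))
      have hj1 : (j : Fbar p) ≠ 1728 := fun e => e1 (by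
        rw [show (1728 : Fbar p) = ((1728 : ℕ) : Fbar p) by norm_num,
          CharP.natCast_eq_natCast (Fbar p) p] at e
        exact e)
      have hp0 : ((p : ℕ) : Fbar p) = 0 := CharP.cast_eq_zero _ p
      push_cast [Nat.cast_sub (show 1 ≤ p by omega),
        Nat.cast_sub (show 1728 ≤ 1728 * p by omega), hp0]
      set J := (j : Fbar p)
      have hs : J - 1728 ≠ 0 := sub_ne_zero.2 hj1
      have hd : (-48 * (3 * (0 - 1) * (J * (J + (1728 * 0 - 1728))))) ^ 3 -
          (864 * (2 * (J * (J + (1728 * 0 - 1728)) ^ 2))) ^ 2 =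
            1728 ^ 3 * (J ^ 2 * (J - 1728) ^ 3) := by ring
      have hne : (1728 : Fbar p) ^ 3 * (J ^ 2 * (J - 1728) ^ 3) ≠ 0 :=
        mul_ne_zero (pow_ne_zero _ h1728) (mul_ne_zero (pow_ne_zero _ hj0) (pow_ne_zero _ hs))
      refine ⟨fun e => hne (by rw [← hd, e, sub_self]), ?_⟩
      rw [hd, div_eq_iff hne]
      ring
  rw [h1, ← hinv.2, ← aeval_eq_zero_iff h5 hinv.1, hx, ← FA.HasseEis.eval_hassePoly h5,
    MvPolynomial.aeval_algebraMap_apply, MvPolynomial.aeval_eq_eval, map_eq_zero]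

/-- The rational supersingular invariants. -/
theorem ncard_fixed (h5 : 5 ≤ p) :
    {j | j ∈ ssInvariants (Fbar p) p ∧ j ^ p = j}.ncard =
      ((Finset.range p).filter fun j => ssSum p j = 0).card := by
  rw [← Finset.card_image_of_injOn (f := fun j : ℕ => (j : Fbar p)) fun a ha b hb h => by
    simp only [Finset.coe_filter, Set.mem_ofPred_eq, Finset.mem_range] at ha hb
    rw [CharP.natCast_eq_natCast (Fbar p) p] at h
    exact Nat.ModEq.eq_of_lt_of_lt h ha.1 hb.1, ← Set.ncard_coe_finset]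
  congr 1
  ext z
  simp only [Set.mem_ofPred_eq, Finset.coe_image, Set.mem_image, Finset.coe_filter,
    Finset.mem_range]
  constructor
  · rintro ⟨hz, hzp⟩
    obtain ⟨a, rfl⟩ := SupersingularPrime.mem_range_of_pow_eq (algebraMap (ZMod p) (Fbar p)) hzp
    refine ⟨a.val, ⟨a.val_lt, ?_⟩, by rw [← map_natCast (algebraMap (ZMod p) (Fbar p)),
      ZMod.natCast_zmod_val]⟩
    rw [← natCast_mem_ssInvariants h5, ← map_natCast (algebraMap (ZMod p) (Fbar p)),
      ZMod.natCast_zmod_val]
    exact hz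
  · rintro ⟨a, ⟨-, ha⟩, rfl⟩
    refine ⟨(natCast_mem_ssInvariants h5 a).2 ha, ?_⟩
    rw [← frobenius_def, map_natCast]

theorem primes_below (q : ℕ) (hq : q.Prime) (h5 : 5 ≤ q) (h : q < 96) :
    q ∈ [5, 7, 11, 13, 17, 19, 23, 29, 31, 37, 41, 43, 47, 53, 59, 61, 67, 71, 73, 79, 83, 89] := by
  revert hq h5
  revert q
  decide +kernel

theorem ogg_count : ∀ q ∈ [5, 7, 11, 13, 17, 19, 23, 29, 31, 37, 41, 43, 47, 53, 59, 61, 67, 71,
      73, 79, 83, 89],
    (((Finset.range q).filter fun j => ssSum q j = 0).card =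
        q / 12 + (if q % 3 = 2 then 1 else 0) + (if q % 4 = 3 then 1 else 0) ↔
      q ∈ [5, 7, 11, 13, 17, 19, 23, 29, 31, 41, 47, 59, 71]) := by
  decide +kernel

theorem all_fixed_iff_ncard (h5 : 5 ≤ p) :
    (∀ j ∈ ssInvariants (Fbar p) p, j ^ p = j) ↔
      {j | j ∈ ssInvariants (Fbar p) p ∧ j ^ p = j}.ncard = (ssInvariants (Fbar p) p).ncard := by
  constructor
  · intro h
    congr 1
    ext j
    exact ⟨fun hj => hj.1, fun hj => ⟨hj, h j hj⟩⟩
  · intro h j hj
    have := Set.eq_of_subset_of_ncard_le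
      (s := {j | j ∈ ssInvariants (Fbar p) p ∧ j ^ p = j}) (fun j hj => hj.1) h.ge
      (count (k := Fbar p) h5).2.2.2
    rw [← this] at hj
    exact hj.2

/-- **Ogg**: the supersingular invariants are all in `𝔽_p` exactly for Ogg's primes. -/
theorem all_fixed_iff (h5 : 5 ≤ p) :
    (∀ j ∈ ssInvariants (Fbar p) p, j ^ p = j) ↔
      p ∈ [5, 7, 11, 13, 17, 19, 23, 29, 31, 41, 47, 59, 71] := by
  have key : ∀ hlt : p < 96, (∀ j ∈ ssInvariants (Fbar p) p, j ^ p = j) ↔
      p ∈ [5, 7, 11, 13, 17, 19, 23, 29, 31, 41, 47, 59, 71] := fun hlt => by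
    rw [all_fixed_iff_ncard h5, ncard_fixed h5, (count (k := Fbar p) h5).2.2.1,
      ogg_count p (primes_below p Fact.out h5 hlt)]
  refine ⟨fun h => (key (FA.OggBound.lt_of_all_rational _ h5 h)).1 h, fun h => (key ?_).2 h⟩
  simp only [List.mem_cons, List.not_mem_nil, or_false] at h
  omega

/-- In characteristic `2` and `3` only `j = 0` is supersingular. -/
theorem j_eq_zero_of_small {k : Type} [Field k] [IsAlgClosed k] [CharP k p] (hp : p = 2 ∨ p = 3)
    (W : WeierstrassCurve k) [W.IsElliptic]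
    (hss : ∀ P : W.toAffine.Point, p • P = 0 → P = 0) : W.j = 0 := by
  open Polynomial WeierstrassCurve in
  have key : ¬∃ x, (W.ΨSq p).eval x = 0 := by
    rintro ⟨x, hx⟩
    have hd : (X ^ 2 + C (W.a₁ * x + W.a₃) * X +
        C (-(x ^ 3 + W.a₂ * x ^ 2 + W.a₄ * x + W.a₆)) : k[X]).natDegree = 2 := by compute_degree!
    obtain ⟨y, hy⟩ := IsAlgClosed.exists_root _ (fun h0 => by
      rw [natDegree_eq_zero_iff_degree_le_zero.2 h0.le] at hd; omega : degree (X ^ 2 +
        C (W.a₁ * x + W.a₃) * X + C (-(x ^ 3 + W.a₂ * x ^ 2 + W.a₄ * x + W.a₆)) : k[X]) ≠ 0)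
    simp only [IsRoot, eval_add, eval_mul, eval_pow, eval_C, eval_X] at hy
    have hP : W.toAffine.Nonsingular x y := Affine.equation_iff_nonsingular.mp (by
      rw [Affine.equation_iff]; linear_combination hy)
    exact Affine.Point.some_ne_zero hP (hss _ ((FA.EC.nsmul_eq_zero_iff hP p).2 hx))
  open Polynomial WeierstrassCurve in
  suffices hc : W.c₄ = 0 by rw [j, hc, zero_pow three_ne_zero, mul_zero]
  open Polynomial WeierstrassCurve in
  rcases hp with rfl | rfl
  · have h2 : (2 : k) = 0 := by exact_mod_cast CharP.cast_eq_zero k 2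
    have h4 : (4 : k) = 0 := by linear_combination 2 * h2
    by_contra hne
    have hb : W.b₂ ≠ 0 := fun e => hne (by
      rw [c₄, e]; linear_combination -12 * W.b₄ * h2)
    refine key ?_
    have hd : (W.ΨSq 2).natDegree = 2 := by
      rw [ΨSq_two, Ψ₂Sq, h4, h2, C_0, zero_mul, zero_add, zero_mul, C_0, zero_mul, add_zero]
      compute_degree!
    exact IsAlgClosed.exists_root _ fun h0 => by
      rw [Nat.cast_ofNat] at h0; rw [natDegree_eq_zero_iff_degree_le_zero.2 h0.le] at hd; omega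
  · have h3 : (3 : k) = 0 := by exact_mod_cast CharP.cast_eq_zero k 3
    have h3' : (3 : k[X]) = 0 := by rw [← map_ofNat (C : k →+* k[X]), h3, C_0]
    by_contra hne
    have hb : W.b₂ ≠ 0 := fun e => hne (by rw [c₄, e]; linear_combination -8 * W.b₄ * h3)
    refine key ?_
    have hd : W.Ψ₃.natDegree = 3 := by
      rw [Ψ₃, h3']
      simp only [zero_mul, zero_add, add_zero]
      compute_degree!
    obtain ⟨x, hx⟩ := IsAlgClosed.exists_root W.Ψ₃ fun h0 => by
      rw [natDegree_eq_zero_iff_degree_le_zero.2 h0.le] at hd; omega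
    refine ⟨x, ?_⟩
    rw [Nat.cast_ofNat, ΨSq_three, eval_pow, hx, zero_pow two_ne_zero]

/-- The eigenspaces of an involution whose trace is a small natural number. -/
theorem involution_eigenspaces {M : Type*} [AddCommGroup M] [Module (ZMod p) M]
    [Module.Finite (ZMod p) M] (U : M →ₗ[ZMod p] M) (h2 : ∀ v, U (U v) = v) {n : ℕ}
    (htr : LinearMap.trace (ZMod p) M U = n) (hn : n ≤ Module.finrank (ZMod p) M)
    (hlt : 2 * Module.finrank (ZMod p) M < p) :
    2 * Module.finrank (ZMod p) (LinearMap.ker (U - LinearMap.id)) =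
        Module.finrank (ZMod p) M + n ∧
      2 * Module.finrank (ZMod p) (LinearMap.ker (U + LinearMap.id)) + n =
        Module.finrank (ZMod p) M := by
  have hp : p.Prime := Fact.out
  rcases Nat.eq_zero_or_pos (Module.finrank (ZMod p) M) with h0 | hpos
  · have := Submodule.finrank_le (LinearMap.ker (U - LinearMap.id))
    have := Submodule.finrank_le (LinearMap.ker (U + LinearMap.id))
    omega
  have two : (2 : ZMod p) ≠ 0 := Ring.two_ne_zero (by rw [ZMod.ringChar_zmod_n]; omega)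
  set e : M →ₗ[ZMod p] M := (2 : ZMod p)⁻¹ • (U + LinearMap.id) with he
  have hker : LinearMap.ker e = LinearMap.ker (U + LinearMap.id) :=
    LinearMap.ker_smul _ _ (inv_ne_zero two)
  have hrange : LinearMap.range e = LinearMap.ker (U - LinearMap.id) := by
    refine le_antisymm ?_ fun v hv => ⟨v, ?_⟩
    · rintro _ ⟨v, rfl⟩
      simp only [he, LinearMap.mem_ker, LinearMap.sub_apply, LinearMap.smul_apply,
        LinearMap.add_apply, LinearMap.id_apply, map_smul, map_add, h2]
      rw [show v - U v + (U v - v) = 0 by abel, smul_zero]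
    · rw [LinearMap.mem_ker, LinearMap.sub_apply, sub_eq_zero, LinearMap.id_apply] at hv
      rw [he, LinearMap.smul_apply, LinearMap.add_apply, LinearMap.id_apply, hv, ← two_smul
        (ZMod p), smul_smul, inv_mul_cancel₀ two, one_smul]
  have hproj : LinearMap.IsProj (LinearMap.ker (U - LinearMap.id)) e := by
    refine ⟨fun v => hrange ▸ LinearMap.mem_range_self e v, fun v hv => ?_⟩
    rw [LinearMap.mem_ker, LinearMap.sub_apply, sub_eq_zero, LinearMap.id_apply] at hv
    rw [he, LinearMap.smul_apply, LinearMap.add_apply, LinearMap.id_apply, hv, ← two_smul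
      (ZMod p), smul_smul, inv_mul_cancel₀ two, one_smul]
  have hsum := LinearMap.finrank_range_add_finrank_ker e
  rw [hker, hrange] at hsum
  have ht := hproj.trace
  rw [he, map_smul, map_add, htr, LinearMap.trace_id, smul_eq_mul,
    inv_mul_eq_iff_eq_mul₀ two] at ht
  set a := Module.finrank (ZMod p) (LinearMap.ker (U - LinearMap.id))
  set b := Module.finrank (ZMod p) (LinearMap.ker (U + LinearMap.id))
  have hcast : ((n + Module.finrank (ZMod p) M : ℕ) : ZMod p) = ((2 * a : ℕ) : ZMod p) := by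
    push_cast
    exact ht
  rw [ZMod.natCast_eq_natCast_iff] at hcast
  have := hcast.eq_of_lt_of_lt (by omega) (by omega)
  omega

/-- A space of forms of weight `p + 1` is finite. -/
theorem finite_of_forms (h5 : 5 ≤ p) {M : Submodule (ZMod p) (PowerSeries (ZMod p))}
    (h : ∀ f ∈ M, IsFormModP p (p + 1) f) : Module.Finite (ZMod p) M := by
  refine Submodule.finiteDimensional_of_le (S₂ :=
    LinearMap.range ((phi p).toLinearMap.comp (IsobSub p (p + 1)).subtype)) fun f hf => ?_
  obtain ⟨F, hF, rfl⟩ := (h f hf).exists_isob h5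
  exact ⟨⟨F, hF⟩, rfl⟩

/-- `2 #S < p`. -/
theorem two_mul_ncard_lt (h5 : 5 ≤ p) : 2 * (ssInvariants (Fbar p) p).ncard < p := by
  rw [(count (k := Fbar p) h5).2.2.1]
  split_ifs <;> omega

theorem ncard_fixed_le (h5 : 5 ≤ p) :
    {j | j ∈ ssInvariants (Fbar p) p ∧ j ^ p = j}.ncard ≤ (ssInvariants (Fbar p) p).ncard :=
  Set.ncard_le_ncard (fun _ hj => hj.1) (count (k := Fbar p) h5).2.2.2

end FA.SupersingularPoints

end
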