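import Fermat.Agent.Tau.DominantConjugate

/-!
# Polynomial functions of singular moduli

For singular moduli of discriminants `-N' ≥ -N` with `N` large the conjugate of the first at the
principal form exceeds every other by more than any given bound in absolute value, and a
polynomial `f` spreads such a gap. So `f(z) - f(w)` is large unless `z = w`.
-/

set_option autoImplicit false
set_option linter.style.haveILetI false

noncomputable section

namespace FA.PolyModuli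

open UpperHalfPlane hiding I
open FA.ModField FA.Singular FA.JInj
open scoped Real Polynomial IntermediateField

/-- **A polynomial spreads gaps.** -/
theorem exists_spread {f : ℂ[X]} (hf : 0 < f.natDegree) (B : ℝ) :
    ∃ R : ℝ, 1 ≤ R ∧ ∀ Z w : ℂ, R ≤ ‖Z‖ → ‖w‖ + R ≤ ‖Z‖ → B < ‖f.eval Z - f.eval w‖ := by
  set n := f.natDegree with hn
  set c := f.leadingCoeff
  set g := f.eraseLead
  have hgn : g.natDegree < n :=
    f.eraseLead_natDegree_le.trans_lt (by omega)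
  set G : ℝ := ∑ i ∈ Finset.range n, ‖g.coeff i‖
  have hG : ∀ x : ℂ, ∀ M : ℝ, 1 ≤ M → ‖x‖ ≤ M → ‖g.eval x‖ ≤ G * M ^ (n - 1) := by
    intro x M hM hx
    rw [Polynomial.eval_eq_sum_range' hgn, Finset.sum_mul]
    refine (norm_sum_le _ _).trans (Finset.sum_le_sum fun i hi => ?_)
    rw [norm_mul, norm_pow]
    have := Finset.mem_range.1 hi
    exact mul_le_mul_of_nonneg_left ((pow_le_pow_left₀ (norm_nonneg _) hx i).trans
      (pow_le_pow_right₀ hM (by omega))) (norm_nonneg _)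
  have hc : 0 < ‖c‖ := norm_pos_iff.2 (Polynomial.leadingCoeff_ne_zero.2
    (fun h => by simp [hn, h] at hf))
  have hG0 : 0 ≤ G := Finset.sum_nonneg fun i _ => norm_nonneg _
  refine ⟨max 1 ((|B| + 2 * G + 1) / ‖c‖), le_max_left _ _, fun Z w hZ hw => ?_⟩
  set R := max 1 ((|B| + 2 * G + 1) / ‖c‖)
  have hR : |B| + 2 * G + 1 ≤ ‖c‖ * R := by
    have := (div_le_iff₀ hc).1 (le_max_right (1 : ℝ) ((|B| + 2 * G + 1) / ‖c‖))
    linarith
  have hM : 1 ≤ ‖Z‖ := (le_max_left _ _).trans hZ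
  have hwZ : ‖w‖ ≤ ‖Z‖ := by linarith [le_max_left (1 : ℝ) ((|B| + 2 * G + 1) / ‖c‖)]
  have hpow : ‖Z‖ ^ (n - 1) * R ≤ ‖Z‖ ^ n - ‖w‖ ^ n := by
    obtain ⟨k, hk⟩ : ∃ k, n = k + 1 := ⟨n - 1, by omega⟩
    rw [hk, Nat.add_sub_cancel, pow_succ, pow_succ]
    nlinarith [pow_le_pow_left₀ (norm_nonneg w) hwZ k, norm_nonneg w,
      mul_le_mul_of_nonneg_left hw (pow_nonneg (norm_nonneg Z) k)]
  have he : ∀ x : ℂ, f.eval x = c * x ^ n + g.eval x := fun x => by
    conv_lhs => rw [← f.eraseLead_add_C_mul_X_pow]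
    simp only [Polynomial.eval_add, Polynomial.eval_mul, Polynomial.eval_C, Polynomial.eval_pow,
      Polynomial.eval_X]
    exact add_comm _ _
  have h1 : ‖f.eval Z - f.eval w‖ ≥ ‖c‖ * (‖Z‖ ^ n - ‖w‖ ^ n) - 2 * G * ‖Z‖ ^ (n - 1) := by
    rw [he, he, show c * Z ^ n + g.eval Z - (c * w ^ n + g.eval w) =
      c * (Z ^ n - w ^ n) - (g.eval w - g.eval Z) by ring]
    refine le_trans ?_ (norm_sub_norm_le _ _)
    have h2 : ‖g.eval w - g.eval Z‖ ≤ 2 * G * ‖Z‖ ^ (n - 1) := by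
      refine (norm_sub_le _ _).trans ?_
      linarith [hG w ‖Z‖ hM hwZ, hG Z ‖Z‖ hM le_rfl]
    have h3 : ‖Z‖ ^ n - ‖w‖ ^ n ≤ ‖Z ^ n - w ^ n‖ := by
      rw [← norm_pow, ← norm_pow]; exact norm_sub_norm_le _ _
    rw [norm_mul]
    linarith [mul_le_mul_of_nonneg_left h3 hc.le]
  have h4 : (|B| + 1) * ‖Z‖ ^ (n - 1) ≤
      ‖c‖ * (‖Z‖ ^ n - ‖w‖ ^ n) - 2 * G * ‖Z‖ ^ (n - 1) := by
    nlinarith [mul_le_mul_of_nonneg_left hpow hc.le,
      mul_le_mul_of_nonneg_right hR (pow_nonneg (norm_nonneg Z) (n - 1))]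
  have h5 : |B| + 1 ≤ (|B| + 1) * ‖Z‖ ^ (n - 1) :=
    le_mul_of_one_le_right (by positivity) (one_le_pow₀ hM)
  linarith [le_abs_self B]

/-- **The gap at the larger discriminant.** -/
theorem exists_gap_values (R : ℝ) : ∃ N₀ : ℕ, ∀ D D' : ℤ, D < 0 → D' < 0 → -D' ≤ -D →
    (N₀ : ℤ) ≤ -D → (D % 4 = 0 ∨ D % 4 = 1) →
      ∃ Z ∈ values D, R ≤ ‖Z‖ ∧ ∀ w ∈ values D', w ≠ Z → ‖w‖ + R ≤ ‖Z‖ := by
  obtain ⟨N₀, hN⟩ := FA.SpecialPoints.exists_gap (R + 10000)
  refine ⟨N₀, fun D D' hD hD' hle hge h4 => ?_⟩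
  obtain ⟨N, rfl⟩ : ∃ N : ℕ, D = -(N : ℤ) := ⟨D.natAbs, by omega⟩
  obtain ⟨hN1, hN2⟩ := hN N (by omega)
  obtain ⟨b, c, hp⟩ := FA.SpecialPoints.exists_principal h4 hD
  obtain ⟨τ, hτ⟩ := exists_isRoot (t := (1, b, c)) one_pos (hp.1.trans_lt hD)
  obtain ⟨hz1, -⟩ := abs_le.1 (FA.Dominant.norm_value hp hτ)
  push_cast at hz1
  rw [neg_neg, div_one] at hz1
  refine ⟨jfun τ, ⟨_, hp, τ, hτ, rfl⟩, by linarith [Real.exp_pos (π * √(N : ℝ) / 2)], ?_⟩
  rintro w ⟨⟨a', b', c'⟩, hf', τ', hτ', rfl⟩ hne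
  obtain ⟨-, hw1⟩ := abs_le.1 (FA.Dominant.norm_value hf' hτ')
  simp only at hw1
  have hle' : (-(D' : ℝ)) ≤ N := by
    have : -D' ≤ (N : ℤ) := by omega
    exact_mod_cast this
  have ha' : 1 ≤ a' := hf'.2.2.1
  rcases eq_or_lt_of_le ha' with h1 | h1
  · obtain rfl : a' = 1 := h1.symm
    rcases eq_or_ne D' (-(N : ℤ)) with hDD | hDD
    · subst hDD
      obtain ⟨rfl, rfl⟩ : b = b' ∧ c = c' := by
        simpa using FA.SpecialPoints.eq_of_first_one hp hf'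
      exact absurd (by rw [root_unique one_ne_zero hτ hτ']) hne
    · have h2 : π * √(-(D' : ℝ)) / ((1 : ℤ) : ℝ) ≤ π * √((N : ℝ) - 1) := by
        rw [Int.cast_one, div_one]
        refine mul_le_mul_of_nonneg_left (Real.sqrt_le_sqrt ?_) Real.pi_pos.le
        have : -D' ≤ (N : ℤ) - 1 := by omega
        exact_mod_cast this
      have := Real.exp_le_exp.2 h2
      push_cast at this hw1
      linarith
  · have h2 : π * √(-(D' : ℝ)) / (a' : ℝ) ≤ π * √(N : ℝ) / 2 := by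
      have h3 : (2 : ℝ) ≤ a' := by exact_mod_cast h1
      refine div_le_div₀ (by positivity) (mul_le_mul_of_nonneg_left (Real.sqrt_le_sqrt hle')
        Real.pi_pos.le) two_pos h3
    have := Real.exp_le_exp.2 h2
    linarith

/-- **Bounded conjugates of a difference bound the discriminant.** -/
theorem exists_disc_bound_poly {f : ℚ[X]} (hf : 0 < f.natDegree) (B : ℝ) :
    ∃ N₀ : ℕ, ∀ (D D' : ℤ) (z w : ℂ), D < 0 → D' < 0 → -D' ≤ -D → z ∈ values D →
      w ∈ values D' → z ≠ w →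
        (∀ σ : ℂ ≃+* ℂ, ‖σ (Polynomial.aeval z f - Polynomial.aeval w f)‖ ≤ B) →
          -D < (N₀ : ℤ) := by
  obtain ⟨R, -, hR⟩ := exists_spread (f := f.map (algebraMap ℚ ℂ))
    (by rw [Polynomial.natDegree_map]; exact hf) B
  obtain ⟨N₀, hN⟩ := exists_gap_values R
  refine ⟨N₀, fun D D' z w hD hD' hle hz hw hne hB => not_le.1 fun hge => ?_⟩
  obtain ⟨Z, hZ, hZR, hgap⟩ :=
    hN D D' hD hD' hle hge (FA.SpecialPoints.disc_mod_four_of_mem hz)
  obtain ⟨σ, hσ⟩ := FA.SpecialPoints.exists_aut hD hz hZ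
  have hne' : σ w ≠ Z := fun e => hne (σ.injective (hσ.trans e.symm))
  have h := hR Z (σ w) hZR (hgap _ (FA.Dominant.aut_mem hD' hw σ) hne')
  have hcomm : ∀ x : ℂ, σ (Polynomial.aeval x f) = (f.map (algebraMap ℚ ℂ)).eval (σ x) := by
    intro x
    rw [Polynomial.eval_map_algebraMap,
      show σ x = (σ : ℂ →+* ℂ).toRatAlgHom x from rfl, Polynomial.aeval_algHom_apply]
    rfl
  have h2 := hB σ
  rw [map_sub, hcomm, hcomm, hσ] at h2
  linarith

/-- **Finitely many pairs of distinct singular moduli on `f(x) - f(y) = A`.** -/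
theorem finite_fibre {f : ℚ[X]} (hf : 0 < f.natDegree) (A : ℂ) :
    {p : ℂ × ℂ | p.1 ∈ FA.SpecialPoints.special ∧ p.2 ∈ FA.SpecialPoints.special ∧ p.1 ≠ p.2 ∧
      Polynomial.aeval p.1 f - Polynomial.aeval p.2 f = A}.Finite := by
  set S := {p : ℂ × ℂ | p.1 ∈ FA.SpecialPoints.special ∧ p.2 ∈ FA.SpecialPoints.special ∧
    p.1 ≠ p.2 ∧ Polynomial.aeval p.1 f - Polynomial.aeval p.2 f = A}
  rcases S.eq_empty_or_nonempty with hS | ⟨⟨z₀, w₀⟩, ⟨D₁, hD₁, hz₀⟩, ⟨D₂, hD₂, hw₀⟩, -, hA⟩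
  · rw [hS]; exact Set.finite_empty
  have halg : ∀ {D : ℤ}, D < 0 → ∀ {x : ℂ}, x ∈ values D →
      IsAlgebraic ℚ (Polynomial.aeval x f) := fun {D} hD {x} hx => by
    have hi : IsIntegral ℚ x := (isIntegral_values hD hx).tower_top
    exact (IsIntegral.of_mem_of_fg _ hi.fg_adjoin_singleton _
      (Polynomial.aeval_mem_adjoin_singleton ℚ x)).isAlgebraic
  have hAi : IsIntegral ℚ A := hA ▸ ((halg hD₁ hz₀).sub (halg hD₂ hw₀)).isIntegral
  obtain ⟨B, hB⟩ := (((minpoly ℚ A).rootSet_finite ℂ).image norm).bddAbove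
  have hB' : ∀ σ : ℂ ≃+* ℂ, ‖σ A‖ ≤ B := fun σ => hB ⟨σ A, by
    rw [Polynomial.mem_rootSet]
    refine ⟨minpoly.ne_zero hAi, ?_⟩
    rw [show σ A = (σ : ℂ →+* ℂ).toRatAlgHom A from rfl, Polynomial.aeval_algHom_apply,
      minpoly.aeval, map_zero], rfl⟩
  obtain ⟨N₀, hN⟩ := exists_disc_bound_poly hf B
  have hV : (⋃ D ∈ Set.Ioo (-(N₀ : ℤ)) 0, values D).Finite :=
    (Set.finite_Ioo _ _).biUnion fun D _ => (values_finite_card D).1
  refine (hV.prod hV).subset ?_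
  rintro ⟨z, w⟩ ⟨⟨D, hD, hz⟩, ⟨D', hD', hw⟩, hne, h⟩
  simp only at hz hw hne h
  have hboth : -D < (N₀ : ℤ) ∧ -D' < (N₀ : ℤ) := by
    rcases le_total (-D') (-D) with hl | hl
    · have := hN D D' z w hD hD' hl hz hw hne fun σ => by rw [h]; exact hB' σ
      omega
    · have := hN D' D w z hD' hD hl hw hz hne.symm fun σ => by
        rw [← neg_sub, h, map_neg, norm_neg]; exact hB' σ
      omega
  exact ⟨Set.mem_biUnion ⟨by omega, hD⟩ hz, Set.mem_biUnion ⟨by omega, hD'⟩ hw⟩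

/-- **Injective on conjugates means generating.** -/
theorem natDegree_aeval_of_injOn {D : ℤ} (hD : D < 0) {z : ℂ} (hz : z ∈ values D) {f : ℚ[X]}
    (hinj : Set.InjOn (fun w : ℂ => Polynomial.aeval w f) (values D)) :
    (minpoly ℚ (Polynomial.aeval z f)).natDegree = (Red D).ncard ∧
      ℚ⟮Polynomial.aeval z f⟯ = ℚ⟮z⟯ := by
  classical
  have hi : IsIntegral ℚ z := (isIntegral_values hD hz).tower_top
  haveI : FiniteDimensional ℚ ℚ⟮z⟯ := IntermediateField.adjoin.finiteDimensional hi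
  have hmem : Polynomial.aeval z f ∈ ℚ⟮z⟯ :=
    IntermediateField.algebra_adjoin_le_adjoin ℚ _ (Polynomial.aeval_mem_adjoin_singleton ℚ z)
  have hin : IsIntegral ℚ (Polynomial.aeval z f) :=
    IsIntegral.of_mem_of_fg _ hi.fg_adjoin_singleton _
      (Polynomial.aeval_mem_adjoin_singleton ℚ z)
  have hle : ℚ⟮Polynomial.aeval z f⟯ ≤ ℚ⟮z⟯ := IntermediateField.adjoin_simple_le_iff.2 hmem
  have hge : (Red D).ncard ≤ (minpoly ℚ (Polynomial.aeval z f)).natDegree := by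
    rw [← values_ncard hD, ← hinj.ncard_image]
    have hsub : (fun w : ℂ => Polynomial.aeval w f) '' values D ⊆
        ↑((minpoly ℚ (Polynomial.aeval z f)).aroots ℂ).toFinset := by
      rintro _ ⟨w, hw, rfl⟩
      rw [Finset.mem_coe, Multiset.mem_toFinset, Polynomial.mem_aroots]
      refine ⟨minpoly.ne_zero hin, ?_⟩
      obtain ⟨σ, hσ⟩ := FA.SpecialPoints.exists_aut hD hz hw
      show Polynomial.aeval (Polynomial.aeval w f) (minpoly ℚ (Polynomial.aeval z f)) = 0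
      rw [← hσ, show σ z = (σ : ℂ →+* ℂ).toRatAlgHom z from rfl,
        Polynomial.aeval_algHom_apply _ z f,
        Polynomial.aeval_algHom_apply _ (Polynomial.aeval z f), minpoly.aeval, map_zero]
    refine (Set.ncard_le_ncard hsub (Finset.finite_toSet _)).trans ?_
    rw [Set.ncard_coe_finset]
    exact (Multiset.toFinset_card_le _).trans
      ((Polynomial.card_roots' _).trans_eq (Polynomial.natDegree_map _))
  have hdz := natDegree_minpoly hD hz
  rw [← IntermediateField.adjoin.finrank hin] at hge ⊢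
  rw [← IntermediateField.adjoin.finrank hi] at hdz
  have he : ℚ⟮Polynomial.aeval z f⟯ = ℚ⟮z⟯ :=
    IntermediateField.eq_of_le_of_finrank_le hle (hdz.trans_le hge)
  exact ⟨(congrArg (fun E : IntermediateField ℚ ℂ => Module.finrank ℚ E) he).trans hdz, he⟩

/-- **`f(z)` generates `ℚ(z)`** up to finitely many exceptions. -/
theorem finite_exceptions {f : ℚ[X]} (hf : 0 < f.natDegree) :
    {z : ℂ | z ∈ FA.SpecialPoints.special ∧ ℚ⟮Polynomial.aeval z f⟯ ≠ ℚ⟮z⟯}.Finite := by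
  obtain ⟨N₀, hN⟩ := exists_disc_bound_poly hf 0
  have hV : (⋃ D ∈ Set.Ioo (-(N₀ : ℤ)) 0, values D).Finite :=
    (Set.finite_Ioo _ _).biUnion fun D _ => (values_finite_card D).1
  refine hV.subset ?_
  rintro z ⟨⟨D, hD, hz⟩, hne⟩
  refine Set.mem_biUnion ⟨?_, hD⟩ hz
  by_contra hlt
  refine hne (natDegree_aeval_of_injOn hD hz fun u hu v hv huv => ?_).2
  by_contra hne'
  have := hN D D u v hD hD le_rfl hu hv hne' fun σ => by
    simp only at huv
    rw [huv, sub_self, map_zero, norm_zero]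
  omega

end FA.PolyModuli

end
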