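import Fermat.Agent.Petersson.Semisimple
import Fermat.Agent.Tau.LevelPTrace
import Fermat.Agent.JTorsion.Eigen
import Fermat.Agent.Ribet.EigenvalueBound
import Mathlib.LinearAlgebra.Eigenspace.Pi

/-!
# The eigenbasis of weight two cusp forms of prime level

A form with `a_n = 0` for `p ∤ n` is `G(p τ)` with `G` of level one, hence zero. So a common
eigenvector of the `T_q`, `q ≠ p`, is one for `U` too and is a multiple of a normalised eigenform;
these operators being symmetric, the normalised eigenforms form a basis.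
-/

set_option autoImplicit false

noncomputable section

open UpperHalfPlane hiding I
open CongruenceSubgroup CuspForm FA.Eis FA.Deform
open scoped MatrixGroups Classical ComplexConjugate ModularForm

namespace FA.PrimeLevelBasis

variable {p : ℕ} [Fact p.Prime]

/-- A form with coefficients supported on the multiples of `p` vanishes. -/
theorem eq_zero_of_support {w : CuspForm (Gamma0 p) 2}
    (h : ∀ n, ¬p ∣ n → qLin p w n = 0) : w = 0 := by
  set G : ℍ → ℂ := ⇑(heckeULin 2 (dvd_refl p) w)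
  have hG : IsLv p 2 G := isLv_of_cuspForm _
  have hw : HasQ 1 ⇑w (qe ⇑w) := (isLv_of_cuspForm w).hasQ
  have he : Vp p (qe G) = qe ⇑w := by
    ext n
    rw [coeff_Vp]
    show (if p ∣ n then qLin p (heckeULin 2 (dvd_refl p) w) (n / p) else 0) = qLin p w n
    split_ifs with hn
    · rw [qLin_heckeU (Fact.out : p.Prime), Nat.div_mul_cancel hn]
    · exact (h n hn).symm
  have heq : ⇑w = dil p G := funext fun τ => by
    rw [hw.eq_seriesFun, (hG.hasQ.dil p).eq_seriesFun, he]
  have hsl : ((1 : ℤ) * 1 - 0 * (p : ℤ)) = 1 := by ring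
  obtain ⟨B, h00, h01, h10, h11, hB⟩ :=
    dil_slash (p := p) G 2 (sl2 1 0 (p : ℤ) 1 hsl) (c' := 1) (by simp)
  have hinv : dil p G ∣[(2 : ℤ)] sl2 1 0 (p : ℤ) 1 hsl = dil p G := by
    rw [← heq]
    exact (isLv_of_cuspForm w).inv _ (mem_Gamma0_iff_dvd.2 (by simp))
  have hGB : G ∣[(2 : ℤ)] B = G := funext fun τ => by
    have e := congrFun (hB.symm.trans hinv) (fdivPt p 0 τ)
    simpa [dil, scalePt_fdivPt_zero] using e
  have hT : G ∣[(2 : ℤ)] ModularGroup.T = G := hG.slash_T
  have hTi : G ∣[(2 : ℤ)] (ModularGroup.T⁻¹ : SL(2, ℤ)) = G :=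
    hG.inv _ (inv_mem (T_mem_Gamma0 p))
  have hS : G ∣[(2 : ℤ)] ModularGroup.S = G := by
    have e : ModularGroup.S = ModularGroup.T⁻¹ * B * ModularGroup.T⁻¹ := by
      rw [show B = sl2 1 0 1 1 (by norm_num) by
        ext i j; fin_cases i <;> fin_cases j <;> simp [h00, h01, h10, h11]]
      refine Subtype.ext ?_
      rw [Matrix.SpecialLinearGroup.coe_mul, Matrix.SpecialLinearGroup.coe_mul]
      simp [sl2, ModularGroup.coe_S]
    rw [e, SlashAction.slash_mul, SlashAction.slash_mul, hTi, hGB, hTi]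
  have h0 : G = 0 := by
    refine IsLv.levelOne_weight_two ⟨fun γ _ =>
      SlashInvariantForm.slash_action_generators_SL2Z hS hT γ, hG.hol, hG.bdd⟩
  refine DFunLike.coe_injective ?_
  rw [heq, h0]
  rfl

/-- A common eigenvector of the `T_q`, `q ∤ p`, with `a₁ = 0` vanishes. -/
theorem eq_zero_of_coeff_one {w : CuspForm (Gamma0 p) 2}
    (hw : ∀ (r : ℕ) (hr : r.Prime) (hrp : ¬r ∣ p), ∃ μ : ℂ, heckeTLin 2 hr hrp w = μ • w)
    (h1 : qLin p w 1 = 0) : w = 0 := by
  have hp : p.Prime := Fact.out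
  refine eq_zero_of_support fun n => ?_
  induction n using Nat.strong_induction_on with
  | _ n ih =>
    intro hn
    rcases eq_or_ne n 1 with rfl | hn1
    · exact h1
    obtain ⟨r, hr, k, rfl⟩ := Nat.exists_prime_and_dvd hn1
    have hk0 : k ≠ 0 := fun e => hn (by rw [e, mul_zero]; exact dvd_zero p)
    have hlt : k < r * k := lt_mul_of_one_lt_left (Nat.pos_of_ne_zero hk0) hr.one_lt
    have hkp : ¬p ∣ k := fun e => hn (e.mul_left r)
    have hrp : ¬r ∣ p := fun e => hn (by
      rw [(Nat.prime_dvd_prime_iff_eq hr hp).1 e]; exact dvd_mul_right p k)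
    obtain ⟨μ, hμ⟩ := hw r hr hrp
    have e := congrArg (fun v => qLin p v k) hμ
    simp only [map_smul, Pi.smul_apply, smul_eq_mul, qLin_heckeT hr hrp, ih k hlt hkp,
      mul_zero] at e
    rw [mul_comm r k]
    split_ifs at e with hd
    · rwa [ih _ ((Nat.div_le_self k r).trans_lt hlt)
        (fun h => hkp (h.trans (Nat.div_dvd_of_dvd hd))), mul_zero, add_zero] at e
    · rwa [add_zero] at e

/-- The Hecke recursion makes a normalised eigenform. -/
theorem isNormalizedEigenform_of_rec {N : ℕ} [NeZero N] {g : CuspForm (Gamma0 N) 2}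
    (h1 : qLin N g 1 = 1) {lam : ℕ → ℂ}
    (hrec : ∀ r : ℕ, r.Prime → ∀ n,
      qLin N g (n * r) + (if r ∣ n then cor N r * qLin N g (n / r) else 0) =
        lam r * qLin N g n) : g.IsNormalizedEigenform := by
  have hcp : ∀ r : ℕ, r.Prime → qLin N g r = lam r := by
    intro r hr
    have e := hrec r hr 1
    rwa [one_mul, if_neg (fun h => hr.ne_one (Nat.dvd_one.mp h)), add_zero, h1, mul_one] at e
  have hpow : ∀ r s : ℕ, r.Prime → qLin N g (r ^ (s + 2)) =
      qLin N g r * qLin N g (r ^ (s + 1)) - cor N r * qLin N g (r ^ s) := by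
    intro r s hr
    have e := hrec r hr (r ^ (s + 1))
    rw [if_pos (dvd_pow_self r (Nat.succ_ne_zero s)), pow_succ r s,
      Nat.mul_div_cancel _ hr.pos] at e
    rw [hcp r hr, show r ^ (s + 2) = r ^ s * r * r by ring, pow_succ r s]
    linear_combination e
  exact ⟨h1, mul_of_coprime_of_rec (qLin_zero_apply g) h1 hrec,
    fun r s hr hrN => by simpa [cor, hrN, qLin_apply] using hpow r s hr,
    fun r s hr hrN => by simpa [cor, hrN, qLin_apply] using hpow r s hr⟩

/-- `T_q` commutes with the operators of the Hecke algebra. -/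
theorem heckeTLin_comm {r : ℕ} (hr : r.Prime) (hrp : ¬r ∣ p)
    {A : Module.End ℂ (CuspForm (Gamma0 p) 2)} (hA : A ∈ heckeAlgebra p 2 ∅) :
    heckeTLin 2 hr hrp * A = A * heckeTLin 2 hr hrp :=
  congrArg Subtype.val (mul_comm
    (⟨_, heckeTLin_mem_heckeAlgebra hr hrp (Set.notMem_empty r)⟩ : heckeAlgebra p 2 ∅) ⟨A, hA⟩)

/-- A common eigenvector of the `T_q` is a multiple of a normalised eigenform. -/
theorem exists_eigenform_of_eigenvector {v : CuspForm (Gamma0 p) 2}
    (hv : ∀ (r : ℕ) (hr : r.Prime) (hrp : ¬r ∣ p), ∃ μ : ℂ, heckeTLin 2 hr hrp v = μ • v)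
    (hv0 : v ≠ 0) : ∃ g : CuspForm (Gamma0 p) 2, g.IsNormalizedEigenform ∧ v = qLin p v 1 • g := by
  have hp : p.Prime := Fact.out
  have hc1 : qLin p v 1 ≠ 0 := fun h => hv0 (eq_zero_of_coeff_one hv h)
  obtain ⟨g, hgdef⟩ : ∃ g, g = (qLin p v 1)⁻¹ • v := ⟨_, rfl⟩
  have hg : ∀ (r : ℕ) (hr : r.Prime) (hrp : ¬r ∣ p), ∃ μ : ℂ, heckeTLin 2 hr hrp g = μ • g :=
    fun r hr hrp => by
      obtain ⟨μ, hμ⟩ := hv r hr hrp
      exact ⟨μ, by rw [hgdef, map_smul, hμ, smul_comm]⟩
  have h1 : qLin p g 1 = 1 := by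
    rw [hgdef, map_smul, Pi.smul_apply, smul_eq_mul, inv_mul_cancel₀ hc1]
  -- `U g` is a multiple of `g`
  have hU0 : heckeULin 2 (dvd_refl p) g - qLin p g p • g = 0 := by
    refine eq_zero_of_coeff_one (fun r hr hrp => ?_) ?_
    · obtain ⟨μ, hμ⟩ := hg r hr hrp
      refine ⟨μ, ?_⟩
      have hc := LinearMap.congr_fun (heckeTLin_comm hr hrp
        (heckeULin_mem_heckeAlgebra hp (dvd_refl p) (Set.notMem_empty p))) g
      simp only [Module.End.mul_apply] at hc
      rw [map_sub, map_smul, hc, hμ, map_smul, smul_sub, smul_comm μ]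
    · rw [map_sub, map_smul, Pi.sub_apply, Pi.smul_apply, qLin_heckeU hp, one_mul,
        smul_eq_mul, h1, mul_one, sub_self]
  refine ⟨g, isNormalizedEigenform_of_rec h1 (lam := fun r => qLin p g r) fun r hr n => ?_, ?_⟩
  · by_cases hrp : r ∣ p
    · have e : r = p := (Nat.prime_dvd_prime_iff_eq hr hp).1 hrp
      subst e
      have := congrArg (fun w => qLin r w n) (sub_eq_zero.1 hU0)
      simp only [map_smul, Pi.smul_apply, smul_eq_mul, qLin_heckeU hr] at this
      rw [cor, if_pos (dvd_refl r), zero_mul, ite_self, add_zero, this]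
    · obtain ⟨μ, hμ⟩ := hg r hr hrp
      have e1 := congrArg (fun w => qLin p w n) hμ
      have e2 := congrArg (fun w => qLin p w 1) hμ
      simp only [map_smul, Pi.smul_apply, smul_eq_mul, qLin_heckeT hr hrp] at e1 e2
      rw [one_mul, if_neg (fun h => hr.ne_one (Nat.dvd_one.mp h)), add_zero, h1, mul_one] at e2
      rw [cor, if_neg hrp, e2]
      exact e1
  · rw [hgdef, smul_smul, mul_inv_cancel₀ hc1, one_smul]

/-- **Multiplicity one**: the eigenvalues off `p` determine a normalised eigenform. -/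
theorem eigenform_ext {g g' : CuspForm (Gamma0 p) 2} (hg : g.IsNormalizedEigenform)
    (hg' : g'.IsNormalizedEigenform)
    (h : ∀ r : ℕ, r.Prime → r ≠ p → qLin p g r = qLin p g' r) : g = g' := by
  refine sub_eq_zero.1 (eq_zero_of_coeff_one (fun r hr hrp => ⟨qLin p g r, ?_⟩) ?_)
  · have hne : r ≠ p := fun e => hrp (by rw [e])
    rw [map_sub, FA.JTorsion.heckeT_eigen hg hr hrp, FA.JTorsion.heckeT_eigen hg' hr hrp,
      ← h r hr hne, smul_sub]
  · rw [map_sub, Pi.sub_apply, qLin_apply, qLin_apply, hg.qCoeff_one, hg'.qCoeff_one, sub_self]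

/-- The primes off the level. -/
abbrev Idx (p : ℕ) : Type := {r : ℕ // r.Prime ∧ ¬r ∣ p}

/-- The family of the `T_q`. -/
def opT (i : Idx p) : Module.End ℂ (CuspForm (Gamma0 p) 2) := heckeTLin 2 i.2.1 i.2.2

theorem commute_opT (i j : Idx p) : Commute (opT i) (opT j) :=
  heckeTLin_comm i.2.1 i.2.2 (heckeTLin_mem_heckeAlgebra j.2.1 j.2.2 (Set.notMem_empty _))

theorem maxGen_le (i : Idx p) (μ : ℂ) :
    Module.End.maxGenEigenspace (opT i) μ ≤ Module.End.eigenspace (opT i) μ := by
  intro v hv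
  rw [Module.End.mem_maxGenEigenspace] at hv
  obtain ⟨k, hk⟩ := hv
  rw [Module.End.mem_eigenspace_iff, ← sub_eq_zero]
  by_cases hv0 : v = 0
  · simp [hv0]
  have hA : FA.Petersson.IsSymm (opT i) := FA.Petersson.inner_heckeTLin i.2.1 i.2.2
  obtain ⟨w, hw0, hw⟩ : ∃ w, w ≠ 0 ∧ opT i w = μ • w := by
    have hex : ∃ n, ((opT i - μ • (1 : Module.End ℂ (CuspForm (Gamma0 p) 2))) ^ n) v = 0 := ⟨k, hk⟩
    obtain ⟨m, hm⟩ : ∃ m, Nat.find hex = m + 1 := Nat.exists_eq_succ_of_ne_zero fun h0 => hv0 (by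
      simpa [h0] using Nat.find_spec hex)
    refine ⟨((opT i - μ • (1 : Module.End ℂ (CuspForm (Gamma0 p) 2))) ^ m) v,
      Nat.find_min hex (by omega), sub_eq_zero.mp ?_⟩
    have := Nat.find_spec hex
    rw [hm, pow_succ', Module.End.mul_apply] at this
    simpa using this
  have hμ := hA.eigenvalue_real hw0 hw
  have hsymm : FA.Petersson.IsSymm
      (opT i - μ • (1 : Module.End ℂ (CuspForm (Gamma0 p) 2))) := fun f g => by
    simp only [LinearMap.sub_apply, LinearMap.smul_apply, Module.End.one_apply]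
    rw [sub_eq_add_neg, ← _root_.neg_smul, FA.Petersson.inner_add_left,
      FA.Petersson.inner_smul_left, hA, sub_eq_add_neg, ← _root_.neg_smul,
      FA.Petersson.inner_add_right, FA.Petersson.inner_smul_right,
      map_neg, hμ]
  simpa using hsymm.eq_zero_of_pow hk

/-- The normalised eigenforms. -/
abbrev Eigenforms (p : ℕ) : Type := {g : CuspForm (Gamma0 p) 2 // g.IsNormalizedEigenform}

/-- The system of a normalised eigenform. -/
def system (g : Eigenforms p) (i : Idx p) : ℂ := qLin p g.1 i.1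

theorem mem_iInf (g : Eigenforms p) :
    g.1 ∈ ⨅ i, Module.End.maxGenEigenspace (opT i) (system g i) :=
  (Submodule.mem_iInf _).2 fun i => Module.End.eigenspace_le_maxGenEigenspace
    (Module.End.mem_eigenspace_iff.2 (FA.JTorsion.heckeT_eigen g.2 i.2.1 i.2.2))

theorem linearIndependent_eigenforms :
    LinearIndependent ℂ (fun g : Eigenforms p => g.1) := by
  have h := Module.End.independent_iInf_maxGenEigenspace_of_forall_mapsTo (opT (p := p))
    fun i j φ => Module.End.mapsTo_maxGenEigenspace_of_comm (commute_opT j i) φ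
  refine (h.comp (f := system) fun g g' e => Subtype.ext (eigenform_ext g.2 g'.2
    fun r hr hne => congrFun e ⟨r, hr, fun hd => hne ((Nat.prime_dvd_prime_iff_eq hr
      Fact.out).1 hd)⟩)).linearIndependent _ mem_iInf fun g => g.2.ne_zero

theorem span_eigenforms :
    ⊤ ≤ Submodule.span ℂ (Set.range fun g : Eigenforms p => g.1) := by
  have hfin : Module.Finite ℂ (CuspForm (Gamma0 p) 2) := FA.Petersson.finite_cuspForm (N := p)
  have htop : ⨆ χ : Idx p → ℂ, ⨅ i, Module.End.maxGenEigenspace (opT i) (χ i) = ⊤ :=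
    Module.End.iSup_iInf_maxGenEigenspace_eq_top_of_iSup_maxGenEigenspace_eq_top_of_commute
      (opT (p := p)) (fun i j _ => commute_opT i j)
      fun i => Module.End.iSup_maxGenEigenspace_eq_top (K := ℂ)
        (V := CuspForm (Gamma0 p) 2) (opT i)
  refine htop.ge.trans (iSup_le fun χ v hv => ?_)
  rcases eq_or_ne v 0 with rfl | hv0
  · exact zero_mem _
  have hev : ∀ (r : ℕ) (hr : r.Prime) (hrp : ¬r ∣ p),
      ∃ μ : ℂ, heckeTLin 2 hr hrp v = μ • v := fun r hr hrp =>
    ⟨χ ⟨r, hr, hrp⟩, Module.End.mem_eigenspace_iff.1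
      (maxGen_le ⟨r, hr, hrp⟩ _ ((Submodule.mem_iInf _).1 hv ⟨r, hr, hrp⟩))⟩
  obtain ⟨g, hg, hvg⟩ := exists_eigenform_of_eigenvector hev hv0
  rw [hvg]
  exact Submodule.smul_mem _ _ (Submodule.subset_span ⟨⟨g, hg⟩, rfl⟩)

/-- **The normalised eigenforms are a basis.** -/
def eigenBasis : Module.Basis (Eigenforms p) ℂ (CuspForm (Gamma0 p) 2) :=
  Module.Basis.mk linearIndependent_eigenforms span_eigenforms

/-- The coefficient at `p` is `± 1`. -/
theorem qLin_level_eq {g : CuspForm (Gamma0 p) 2} (hg : g.IsNormalizedEigenform) :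
    qLin p g p = 1 ∨ qLin p g p = -1 := by
  have h := FA.LevelPTrace.heckeULin_involutive g
  rw [FA.JTorsion.heckeU_eigen hg (Fact.out : p.Prime) (dvd_refl p), map_smul,
    FA.JTorsion.heckeU_eigen hg (Fact.out : p.Prime) (dvd_refl p), smul_smul] at h
  exact mul_self_eq_one_iff.1 (smul_left_injective ℂ hg.ne_zero (h.trans (one_smul ℂ g).symm))

/-- **The coefficients are real.** -/
theorem conj_qLin {g : CuspForm (Gamma0 p) 2} (hg : g.IsNormalizedEigenform) (n : ℕ) :
    conj (qLin p g n) = qLin p g n := by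
  have hp : p.Prime := Fact.out
  induction n using Nat.strong_induction_on with
  | _ n ih =>
    rcases Nat.eq_zero_or_pos n with rfl | hn
    · rw [qLin_zero_apply, map_zero]
    rcases eq_or_ne n 1 with rfl | h1
    · rw [show qLin p g 1 = 1 from hg.qCoeff_one, map_one]
    obtain ⟨r, hr, k, rfl⟩ := Nat.exists_prime_and_dvd h1
    have hlt : k < r * k := lt_mul_of_one_lt_left (Nat.pos_of_mul_pos_left hn) hr.one_lt
    have hreal : conj (qLin p g r) = qLin p g r := by
      by_cases hrp : r ∣ p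
      · rw [(Nat.prime_dvd_prime_iff_eq hr hp).1 hrp]
        rcases qLin_level_eq hg with h | h <;> simp [h]
      · exact FA.Petersson.IsSymm.eigenvalue_real (FA.Petersson.inner_heckeTLin hr hrp) hg.ne_zero
          (FA.JTorsion.heckeT_eigen hg hr hrp)
    have e := eq_sub_of_add_eq (FA.JTorsion.qCoeff_rec hg hr k)
    rw [mul_comm r k, e, map_sub, map_mul, hreal, ih k hlt, cor]
    split_ifs with h2 h3 <;> simp [ih _ ((Nat.div_le_self k r).trans_lt hlt)]

end FA.PrimeLevelBasis

end
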