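import Fermat.Agent.Root.SummaryWeightTwoLevelP
import Fermat.Agent.Tau.EigenLiftModP
import Fermat.Agent.Root.SummaryModularityLevel
import Fermat.Agent.JTorsion.Eigen
import Fermat.Agent.Root.Integral.Main

/-!
# Eigen systems of prime level in level one

A non-zero form of weight `p + 1` modulo `p` is not killed by `θ`, so the first coefficient of an
eigenform is non-zero and the lemmas of Deligne and Serre apply at both levels.
-/

set_option autoImplicit false
set_option linter.style.haveILetI false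

noncomputable section

open UpperHalfPlane hiding I
open CongruenceSubgroup
open scoped MatrixGroups Classical

namespace FA.PrimeLevel

open FA.SwinnertonDyer FA.SupersingularPoints

local notation "ZB" => integralClosure ℤ ℂ

variable {p : ℕ} [Fact p.Prime]

/-- An eigenform of weight `p + 1` modulo `p` has non-zero first coefficient. -/
theorem coeff_one_ne_zero (h5 : 5 ≤ p) {a : ℕ → ZMod p} {f : PowerSeries (ZMod p)}
    (hf : IsEigen p (p + 1) a f) : PowerSeries.coeff 1 f ≠ 0 := by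
  obtain ⟨h0, hform, he⟩ := hf
  intro h1
  have hvan : ∀ n, ¬p ∣ n → PowerSeries.coeff n f = 0 := fun n => by
    induction n using Nat.strong_induction_on with
    | _ n ih =>
      intro hn
      rcases eq_or_ne n 1 with rfl | hn1
      · exact h1
      obtain ⟨l, hl, k, rfl⟩ := Nat.exists_prime_and_dvd hn1
      have hk0 : k ≠ 0 := fun e => hn (by rw [e, mul_zero]; exact dvd_zero p)
      have hlt : k < l * k := lt_mul_of_one_lt_left (Nat.pos_of_ne_zero hk0) hl.one_lt
      have hkp : ¬p ∣ k := fun e => hn (e.mul_left l)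
      have hlp : l ≠ p := fun e => hn (e ▸ dvd_mul_right l k)
      have h := congrArg (PowerSeries.coeff k) (he l hl hlp)
      rw [coeff_tOp, map_smul, smul_eq_mul, ih k hlt hkp, mul_zero, mul_comm k l] at h
      split_ifs at h with hd
      · rwa [ih _ ((Nat.div_le_self k l).trans_lt hlt) (fun e => hkp (e.trans
          (Nat.div_dvd_of_dvd hd))), mul_zero, add_zero] at h
      · rwa [add_zero] at h
  obtain ⟨F, hF, rfl⟩ := hform.exists_isob h5
  have hθ : thetaP p (phi p F) = 0 := by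
    ext n
    rw [map_zero, thetaP]
    rcases n with _ | n
    · simp
    rw [PowerSeries.coeff_succ_X_mul, PowerSeries.coeff_derivative]
    by_cases hn : p ∣ n + 1
    · rw [show ((n : ZMod p) + 1) = ((n + 1 : ℕ) : ZMod p) by push_cast; rfl,
        (ZMod.natCast_eq_zero_iff _ _).2 hn, mul_zero]
    · rw [hvan _ hn, zero_mul]
  obtain ⟨G, hG, hG', hval⟩ := exists_theta_iterate h5 hF (p - 1)
  have hit : ∀ j, (thetaP p)^[j + 1] (phi p F) = 0 := fun j => by
    induction j with
    | zero => exact hθ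
    | succ j ih =>
      rw [Function.iterate_succ_apply', ih]
      simp [thetaP]
  rw [show p - 1 = p - 2 + 1 by omega, hit] at hG'
  have hG0 : G = 0 := phi_injective h5 hG hG'
  refine h0 ?_
  rw [eq_zero_of_forall h5 hF fun x hx => ?_, map_zero]
  have hv := hval x hx
  rw [hG0, map_zero, ← map_natCast (algebraMap (ZMod p) _), ZMod.wilsons_lemma, map_neg, map_one,
    eq_comm, mul_eq_zero, mul_eq_zero, neg_eq_zero] at hv
  rcases hv with (h | h) | h
  · exact absurd h one_ne_zero
  · rw [h, zero_mul]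
  · have hb := eq_zero_of_pow_eq_zero h
    simp only [betaPoly, map_mul, MvPolynomial.aeval_C, mul_eq_zero, map_eq_zero, inv_eq_zero] at hb
    rcases hb with hb | hb
    · exact absurd hb (twelve_ne h5)
    · rw [hb, mul_zero]

/-- `l ^ (p + 1 + (p - 2)) = l` modulo `p`. -/
theorem pow_eq (h5 : 5 ≤ p) (l : ℕ) :
    (l : ZMod p) ^ (p + 1 + (p - 2)) = (l : ZMod p) := by
  rw [show p + 1 + (p - 2) = p - 1 + p by omega, pow_add, ZMod.pow_card]
  rcases eq_or_ne (l : ZMod p) 0 with h | h
  · rw [h, mul_zero]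
  · rw [ZMod.pow_card_sub_one_eq_one h, one_mul]

/-- **From level one to level `p`**: the system of a cusp form of weight `p + 1` modulo `p` is
that of a weight two eigenform on `Γ₀(p)`. -/
theorem exists_lift_two (h5 : 5 ≤ p) {a : ℕ → ZMod p} {f : PowerSeries (ZMod p)}
    (hf : IsEigen p (p + 1) a f) (h0 : PowerSeries.coeff 0 f = 0) :
    ∃ g : CuspForm (Gamma0 p) 2, g.IsNormalizedEigenform ∧ ∃ m : Ideal ZB, m.IsMaximal ∧
      (p : ZB) ∈ m ∧ ∀ l : ℕ, l.Prime → l ≠ p → ∃ c : ZB,
        (c : ℂ) = ModularFormClass.qCoeff g l ∧ c - ((a l).val : ZB) ∈ m := by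
  have hp : p.Prime := Fact.out
  obtain ⟨F, A, hA, hAf⟩ := ((FA.Summary.weight_two_levelP_cusp_forms p h5).1 f).2 ⟨hf.2.1, h0⟩
  have hq : ∀ n, FA.Deform.qLin p F n = ((PowerSeries.coeff n A : ℤ) : ℂ) := fun n => by
    rw [FA.Deform.qLin_apply]
    show PowerSeries.coeff n (qExpansion 1 ⇑F) = _
    rw [hA, PowerSeries.coeff_map, eq_intCast]
  have hmod : ∀ n, ((PowerSeries.coeff n A : ℤ) : ZMod p) = PowerSeries.coeff n f := fun n => by
    rw [← hAf, PowerSeries.coeff_map, eq_intCast]
  obtain ⟨g, hg, m, hm, hpm, hc⟩ := FA.Deform.exists_eigenform_congruent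
    (FA.LTInt.hasIntegralBasis p)
    hp (b := fun l => ((a l).val : ℤ)) F (Submodule.subset_span fun n => ⟨_, hq n⟩)
    (fun z hz hdvd => coeff_one_ne_zero h5 hf (by
      rw [hq, Int.cast_inj] at hz
      rw [← hmod, hz, ZMod.intCast_zmod_eq_zero_iff_dvd]
      exact hdvd))
    fun l hl hlN n => by
      have hlp : l ≠ p := fun e => hlN (e ▸ dvd_rfl)
      obtain ⟨w, hw⟩ := (ZMod.intCast_zmod_eq_zero_iff_dvd (PowerSeries.coeff (n * l) A +
        (if l ∣ n then (l : ℤ) * PowerSeries.coeff (n / l) A else 0) -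
          ((a l).val : ℤ) * PowerSeries.coeff n A) p).1 (by
          have h := congrArg (PowerSeries.coeff n) (hf.2.2 l hl hlp)
          rw [coeff_tOp, map_smul, smul_eq_mul, pow_eq h5] at h
          push_cast [apply_ite (Int.cast : ℤ → ZMod p), hmod, ZMod.natCast_zmod_val]
          rw [h, sub_self])
      refine ⟨w, ?_⟩
      rw [map_sub, map_smul, Pi.sub_apply, Pi.smul_apply, smul_eq_mul, FA.Deform.qLin_heckeT hl hlN,
        hq, hq, hq, ← hw]
      push_cast [apply_ite (Int.cast : ℤ → ℂ)]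
      ring
  refine ⟨g, hg, m, hm, hpm, fun l hl hlp => ?_⟩
  obtain ⟨c, hc, hcm⟩ := hc l hl fun h => hlp ((Nat.prime_dvd_prime_iff_eq hl hp).1 h)
  exact ⟨c, hc, by simpa using hcm⟩

/-- **From level `p` to level one**: integral weight two cusp forms on `Γ₀(p)` with normalised
eigen coefficients give an eigenform of weight `p + 1` modulo `p`. -/
theorem isEigen_of_eigenform (h5 : 5 ≤ p) {g : CuspForm (Gamma0 p) 2}
    (hg : g.IsNormalizedEigenform) {A : PowerSeries ℤ}
    (hA : qExpansion 1 ⇑g = A.map (Int.castRingHom ℂ)) :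
    IsEigen p (p + 1) (fun l => ((PowerSeries.coeff l A : ℤ) : ZMod p))
        (A.map (Int.castRingHom (ZMod p))) ∧
      PowerSeries.coeff 0 (A.map (Int.castRingHom (ZMod p))) = 0 := by
  have hp : p.Prime := Fact.out
  obtain ⟨hform, h0⟩ := ((FA.Summary.weight_two_levelP_cusp_forms p h5).1 _).1 ⟨g, A, hA, rfl⟩
  have hq : ∀ n, FA.Deform.qLin p g n = ((PowerSeries.coeff n A : ℤ) : ℂ) := fun n => by
    rw [FA.Deform.qLin_apply]
    show PowerSeries.coeff n (qExpansion 1 ⇑g) = _
    rw [hA, PowerSeries.coeff_map, eq_intCast]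
  refine ⟨⟨fun e => ?_, hform, fun l hl hlp => PowerSeries.ext fun n => ?_⟩, h0⟩
  · have h1 : PowerSeries.coeff 1 A = 1 := by
      have := hg.qCoeff_one
      rw [← FA.Deform.qLin_apply, hq] at this
      exact_mod_cast this
    have h2 := congrArg (PowerSeries.coeff 1) e
    rw [PowerSeries.coeff_map, h1, map_one, map_zero] at h2
    exact one_ne_zero h2
  · have h := FA.JTorsion.qCoeff_rec hg hl n
    rw [FA.Deform.cor, if_neg fun hd => hlp ((Nat.prime_dvd_prime_iff_eq hl hp).1 hd), hq, hq, hq,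
      hq] at h
    have h' : PowerSeries.coeff (n * l) A + (if l ∣ n then (l : ℤ) * PowerSeries.coeff (n / l) A
        else 0) = PowerSeries.coeff l A * PowerSeries.coeff n A := by
      apply Int.cast_injective (α := ℂ)
      push_cast [apply_ite (Int.cast : ℤ → ℂ)]
      exact h
    have h'' := congrArg (fun z : ℤ => (z : ZMod p)) h'
    push_cast [apply_ite (Int.cast : ℤ → ZMod p)] at h''
    rw [coeff_tOp, map_smul, smul_eq_mul, pow_eq h5]
    simp only [PowerSeries.coeff_map, eq_intCast]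
    exact h''

/-- **Deligne–Serre in level one**, with a cusp form. -/
theorem exists_lift_one (h5 : 5 ≤ p) {a : ℕ → ZMod p} {f : PowerSeries (ZMod p)}
    (hf : IsEigen p (p + 1) a f) (h0 : PowerSeries.coeff 0 f = 0) :
    ∃ (F : CuspForm 𝒮ℒ ((p + 1 : ℕ) : ℤ)) (m : Ideal ZB), m.IsMaximal ∧ (p : ZB) ∈ m ∧ F ≠ 0 ∧
      ∀ l : ℕ, l.Prime → ∃ c : ZB, (l ≠ p → c - ((a l).val : ZB) ∈ m) ∧
        ∀ n, (qExpansion 1 F).coeff (n * l) +
            (if l ∣ n then (l : ℂ) ^ p * (qExpansion 1 F).coeff (n / l) else 0) =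
          (c : ℂ) * (qExpansion 1 F).coeff n := by
  have hp : p.Prime := Fact.out
  obtain ⟨G, T, hG, hT⟩ := hf.2.1
  obtain ⟨P, e, he, hP⟩ := FA.EisCong.exists_monomial (p + 1)
    ((hp.odd_of_ne_two (by omega)).add_one) (by omega)
  set t := PowerSeries.coeff 0 T with ht
  have ht0 : ((t : ℤ) : ZMod p) = 0 := by
    rw [← hT, PowerSeries.coeff_map, eq_intCast] at h0
    exact h0
  let g : ModularForm 𝒮ℒ ((p + 1 : ℕ) : ℤ) := G - (t : ℂ) • P
  set z : ℕ → ℤ := fun n => PowerSeries.coeff n T - t * e n with hzdef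
  have hg : ∀ n, (qExpansion 1 g).coeff n = (z n : ℂ) := fun n => by
    simp only [g]
    rw [FunLike.coe_sub, ModularForm.qExpansion_sub one_pos one_mem_strictPeriods_SL,
      FunLike.coe_smul, ModularForm.qExpansion_smul one_pos one_mem_strictPeriods_SL, map_sub,
      PowerSeries.coeff_smul, hG, hP, PowerSeries.coeff_map, eq_intCast, smul_eq_mul, hzdef]
    push_cast
    ring
  have hzmod : ∀ n, ((z n : ℤ) : ZMod p) = PowerSeries.coeff n f := fun n => by
    simp only [hzdef]
    push_cast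
    rw [ht0, zero_mul, sub_zero, ← hT, PowerSeries.coeff_map, eq_intCast]
  have hg0 : (qExpansion 1 g).coeff 0 = 0 := by rw [hg]; simp [hzdef, he, ht]
  let f₀ : CuspForm (Gamma0 1) ((p + 1 : ℕ) : ℤ) :=
    CuspForm.mcast rfl (ModularForm.toCuspForm g hg0) FA.EisCong.gamma0_one_coe
  have hfg : ∀ n, FA.EisCong.qL ((p + 1 : ℕ) : ℤ) f₀ n = (z n : ℂ) := hg
  have hz : ∀ l : ℕ, (l : ℂ) ^ (((p + 1 : ℕ) : ℤ) - 1) = (l : ℂ) ^ p := fun l => by
    push_cast
    rw [add_sub_cancel_right, zpow_natCast]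
  obtain ⟨F, m, hm, hpm, hF0, hF⟩ := exists_cusp_eigen_lift (k := ((p + 1 : ℕ) : ℤ)) (by omega) hp
    (b := fun l => ((a l).val : ℤ)) f₀ (Submodule.subset_span fun n => ⟨_, hfg n⟩)
    (by
      by_contra! hall
      refine hf.1 (PowerSeries.ext fun n => ?_)
      rw [map_zero, ← hzmod n, ZMod.intCast_zmod_eq_zero_iff_dvd]
      exact hall n _ (hfg n))
    (fun l hl hlp n => by
      obtain ⟨w, hw⟩ := (ZMod.intCast_zmod_eq_zero_iff_dvd (z (n * l) +
        (if l ∣ n then (l : ℤ) ^ p * z (n / l) else 0) - ((a l).val : ℤ) * z n) p).1 (by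
        have h := congrArg (PowerSeries.coeff n) (hf.2.2 l hl hlp)
        rw [coeff_tOp, map_smul, smul_eq_mul, pow_eq h5] at h
        push_cast [apply_ite (Int.cast : ℤ → ZMod p), hzmod, ZMod.natCast_zmod_val, ZMod.pow_card]
        rw [h, sub_self])
      refine ⟨w, ?_⟩
      rw [map_sub, map_smul, Pi.sub_apply, Pi.smul_apply, smul_eq_mul, FA.EisCong.qL_heckeT hl, hz,
        hfg, hfg, hfg, ← hw]
      push_cast [apply_ite (Int.cast : ℤ → ℂ)]
      ring)
  refine ⟨(CuspForm.mcast rfl F FA.EisCong.gamma0_one_coe.symm), m, hm, hpm,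
    fun e' => hF0 (DFunLike.coe_injective (congrArg DFunLike.coe e' :)), fun l hl => ?_⟩
  obtain ⟨c, hc, hc'⟩ := hF l hl
  refine ⟨c, fun h => by simpa using hc h, fun n => ?_⟩
  have h := hc' n
  rw [hz] at h
  exact h

end FA.PrimeLevel

end
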