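import Fermat.Agent.Tau.PrimeLevelBasis
import Fermat.Agent.Tau.EisensteinPrime
import Mathlib.LinearAlgebra.LinearIndependent.Lemmas

/-!
# The Hecke algebra of prime level

Its complex characters are the eigenforms, `χ ↦ ∑ χ(t_n) qⁿ`; by Dedekind's independence and the
duality with the cusp forms there are as many as its rank, so it is reduced.
-/

set_option autoImplicit false
set_option linter.style.haveILetI false
set_option synthInstance.maxHeartbeats 400000
set_option maxHeartbeats 1000000

noncomputable section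

open CongruenceSubgroup CuspForm FA.Deform FA.Eis FA.Mazur
open scoped Classical ComplexConjugate

namespace FA.PrimeLevelHecke

variable {p : ℕ} [Fact p.Prime]

/-- A character is determined on the coefficient elements. -/
theorem char_ext {χ χ' : TAlg p →+* ℂ} (h : ∀ n, χ (hCoeff p n) = χ' (hCoeff p n)) : χ = χ' := by
  have e : χ.toAddMonoidHom.toIntLinearMap = χ'.toAddMonoidHom.toIntLinearMap :=
    LinearMap.ext_on (span_hCoeff p) (by rintro _ ⟨n, rfl⟩; exact h n)
  exact RingHom.ext fun t => LinearMap.congr_fun e t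

/-- The eigenform of a character. -/
theorem exists_eigenform (χ : TAlg p →+* ℂ) :
    ∃ g : PrimeLevelBasis.Eigenforms p, ∀ n, qLin p g.1 n = χ (hCoeff p n) := by
  have hp : p.Prime := Fact.out
  obtain ⟨f, hf⟩ := exists_form_of_character_complex p χ
  refine ⟨⟨f, PrimeLevelBasis.isNormalizedEigenform_of_rec (by rw [hf, hCoeff_one, map_one])
    (lam := fun r => qLin p f r) fun r hr n => ?_⟩, hf⟩
  obtain ⟨r, rfl⟩ : ∃ q : Nat.Primes, (q : ℕ) = r := ⟨⟨r, hr⟩, rfl⟩
  simp only [hf]
  rw [← map_mul, hCoeff_prime, tGen_mul_hCoeff, map_add]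
  congr 1
  by_cases h : (r : ℕ) = p
  · rw [if_pos h, map_zero, show cor p r = 0 from if_pos (by rw [h]), zero_mul, ite_self]
  · rw [if_neg h, show cor p r = ((r : ℕ) : ℂ) from
      if_neg fun hd => h ((Nat.prime_dvd_prime_iff_eq r.2 hp).1 hd)]
    by_cases h1 : (r : ℕ) ∣ n
    · rw [if_pos h1, if_pos h1, map_mul, map_natCast]
    · rw [if_neg h1, if_neg h1, map_zero]

/-- The eigenform of a character, chosen. -/
def toEigen (χ : TAlg p →+* ℂ) : PrimeLevelBasis.Eigenforms p := (exists_eigenform χ).choose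

theorem qLin_toEigen (χ : TAlg p →+* ℂ) (n : ℕ) : qLin p (toEigen χ).1 n = χ (hCoeff p n) :=
  (exists_eigenform χ).choose_spec n

theorem toEigen_bijective : Function.Bijective (toEigen (p := p)) := by
  refine ⟨fun χ χ' e => char_ext fun n => by rw [← qLin_toEigen, ← qLin_toEigen, e], fun g => ?_⟩
  obtain ⟨χ, hχ⟩ := FA.EisensteinPrime.exists_character g.2
  refine ⟨(algebraMap (integralClosure ℤ ℂ) ℂ).comp χ,
    Subtype.ext (PrimeLevelBasis.eigenform_ext (toEigen _).2 g.2 fun r hr _ => ?_)⟩
  rw [qLin_toEigen, show hCoeff p r = tGen p ⟨r, hr⟩ from hCoeff_prime p ⟨r, hr⟩]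
  exact hχ ⟨r, hr⟩

theorem natCard_char : Finite (TAlg p →+* ℂ) ∧
    Nat.card (TAlg p →+* ℂ) = Module.finrank ℂ (CuspForm (Gamma0 p) 2) := by
  have hfin : Module.Finite ℂ (CuspForm (Gamma0 p) 2) := FA.Petersson.finite_cuspForm (N := p)
  have hE : Finite (PrimeLevelBasis.Eigenforms p) :=
    Module.Finite.finite_basis (PrimeLevelBasis.eigenBasis (p := p))
  exact ⟨Finite.of_injective _ toEigen_bijective.1, (Nat.card_congr (Equiv.ofBijective _
    toEigen_bijective)).trans (Module.finrank_eq_nat_card_basis PrimeLevelBasis.eigenBasis).symm⟩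

variable {ι : Type*} [Fintype ι] (b : Module.Basis ι ℤ (TAlg p))

/-- The values of the characters on a basis are independent. -/
theorem linearIndependent_values :
    LinearIndependent ℂ (fun (χ : TAlg p →+* ℂ) (i : ι) => χ (b i)) := by
  have h := (linearIndependent_monoidHom (TAlg p) ℂ).comp
    (fun χ : TAlg p →+* ℂ => (χ : TAlg p →* ℂ))
    fun χ χ' e => RingHom.ext fun t => DFunLike.congr_fun e t
  rw [linearIndependent_iff'] at h ⊢
  intro s c hc χ hχ
  refine h s c (funext fun t => ?_) χ hχ
  rw [Pi.zero_apply, Finset.sum_apply]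
  show ∑ ψ ∈ s, c ψ * ψ t = 0
  conv_lhs => enter [2, ψ]; rw [← b.sum_repr t, map_sum, Finset.mul_sum]
  rw [Finset.sum_comm, Finset.sum_eq_zero]
  intro i _
  have e := congrFun hc i
  rw [Pi.zero_apply, Finset.sum_apply] at e
  simp only [Pi.smul_apply, smul_eq_mul] at e
  simp only [zsmul_eq_mul, map_mul, map_intCast, mul_left_comm (c _)]
  rw [← Finset.mul_sum, e, mul_zero]

include b in
/-- The rank is at most the dimension: functionals are cusp forms. -/
theorem card_le_finrank : Fintype.card ι ≤ Module.finrank ℂ (CuspForm (Gamma0 p) 2) := by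
  have hfin : Module.Finite ℂ (CuspForm (Gamma0 p) 2) := FA.Petersson.finite_cuspForm (N := p)
  obtain ⟨D, hD, hF⟩ := exists_form_of_functional p
  choose F hF using fun i => hF (b.coord i)
  have hD' : (D : ℂ) ≠ 0 := Int.cast_ne_zero.mpr hD
  let Φ : (ι → ℂ) →ₗ[ℂ] CuspForm (Gamma0 p) 2 :=
    Fintype.linearCombination ℂ fun i => (D : ℂ)⁻¹ • (F i : CuspForm (Gamma0 p) 2)
  have hΦ : ∀ v n, qLin p (Φ v) n = ∑ i, v i * (b.repr (hCoeff p n) i : ℂ) := by
    intro v n
    simp only [Φ, Fintype.linearCombination_apply, map_sum, map_smul, Finset.sum_apply,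
      Pi.smul_apply, smul_eq_mul, ← cast_zCoeff, ← pairT_hCoeff, hF, Module.Basis.coord_apply]
    refine Finset.sum_congr rfl fun i _ => ?_
    push_cast
    field_simp
  have hinj : Function.Injective Φ := by
    refine (injective_iff_map_eq_zero Φ).2 fun v hv => funext fun j => ?_
    let L : TAlg p →ₗ[ℤ] ℂ := b.constr ℤ v
    have hL : L = 0 := LinearMap.ext_on (span_hCoeff p) (by
      rintro _ ⟨n, rfl⟩
      rw [LinearMap.zero_apply, Module.Basis.constr_apply_fintype]
      have e := hΦ v n
      rw [hv, map_zero, Pi.zero_apply] at e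
      rw [e]
      exact Finset.sum_congr rfl fun i _ => by
        rw [Module.Basis.equivFun_apply, zsmul_eq_mul, mul_comm])
    have := LinearMap.congr_fun hL (b j)
    rwa [Module.Basis.constr_basis, LinearMap.zero_apply] at this
  have := LinearMap.finrank_le_finrank_of_injective hinj
  rwa [Module.finrank_fintype_fun_eq_card] at this

include b in
theorem finrank_le_card : Module.finrank ℂ (CuspForm (Gamma0 p) 2) ≤ Fintype.card ι := by
  obtain ⟨hfin, hcard⟩ := natCard_char (p := p)
  haveI := Fintype.ofFinite (TAlg p →+* ℂ)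
  have h := (linearIndependent_values b).fintype_card_le_finrank
  rwa [Module.finrank_fintype_fun_eq_card, ← Nat.card_eq_fintype_card, hcard] at h

include b in
/-- The characters separate the Hecke algebra. -/
theorem eq_zero_of_char {t : TAlg p} (ht : ∀ χ : TAlg p →+* ℂ, χ t = 0) : t = 0 := by
  obtain ⟨hfin, hcard⟩ := natCard_char (p := p)
  haveI := Fintype.ofFinite (TAlg p →+* ℂ)
  have htop := (linearIndependent_values b).span_eq_top_of_card_eq_finrank' (by
    rw [Module.finrank_fintype_fun_eq_card, ← Nat.card_eq_fintype_card, hcard]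
    exact le_antisymm (finrank_le_card b) (card_le_finrank b))
  let L : (ι → ℂ) →ₗ[ℂ] ℂ := Fintype.linearCombination ℂ fun i => (b.repr t i : ℂ)
  have hL : L = 0 := LinearMap.ext_on htop (by
    rintro _ ⟨χ, rfl⟩
    rw [LinearMap.zero_apply, ← ht χ]
    conv_rhs => rw [← b.sum_repr t, map_sum]
    rw [Fintype.linearCombination_apply]
    exact Finset.sum_congr rfl fun i _ => by
      rw [map_zsmul, zsmul_eq_mul, smul_eq_mul, mul_comm])
  refine b.repr.map_eq_zero_iff.1 (Finsupp.ext fun j => ?_)
  have e := LinearMap.congr_fun hL (Pi.single j 1)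
  rw [LinearMap.zero_apply, Fintype.linearCombination_apply_single, one_smul] at e
  exact Int.cast_injective (α := ℂ) (e.trans Int.cast_zero.symm)

/-- The characters are real. -/
theorem char_real (χ : TAlg p →+* ℂ) (t : TAlg p) : conj (χ t) = χ t := by
  have e : (starRingEnd ℂ).comp χ = χ := char_ext fun n => by
    rw [RingHom.comp_apply, ← qLin_toEigen]
    exact PrimeLevelBasis.conj_qLin (toEigen χ).2 n
  exact DFunLike.congr_fun e t

end FA.PrimeLevelHecke

end
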