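import Fermat.Agent.Root.SummaryPrimeLevelFields
import Mathlib.RingTheory.Ideal.MinimalPrime.Basic
import Mathlib.RingTheory.Localization.FractionRing

/-!
# Conjugate eigenforms and the minimal primes of the Hecke algebra

Two eigenforms of prime level are conjugate iff their characters have the same kernel; these kernels
are the minimal primes, and the quotient is a lattice in the coefficient field.
-/

set_option autoImplicit false
set_option linter.style.haveILetI false
set_option synthInstance.maxHeartbeats 400000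
set_option maxHeartbeats 1000000

noncomputable section

open CongruenceSubgroup CuspForm ModularFormClass FA.Mazur FA.Summary
open scoped Classical

namespace FA.PrimeLevelOrbits

variable {p : ℕ} [Fact p.Prime]

/-- The character of an eigenform. -/
def charOf (f : PrimeLevelBasis.Eigenforms p) : TAlg p →+* ℂ :=
  (Equiv.ofBijective _ PrimeLevelHecke.toEigen_bijective).symm f

theorem charOf_hCoeff (f : PrimeLevelBasis.Eigenforms p) (n : ℕ) :
    charOf f (hCoeff p n) = qCoeff f.1 n := by
  have h : PrimeLevelHecke.toEigen (charOf f) = f :=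
    (Equiv.ofBijective _ PrimeLevelHecke.toEigen_bijective).apply_symm_apply f
  rw [← PrimeLevelHecke.qLin_toEigen, h]
  rfl

theorem charOf_mem (f : PrimeLevelBasis.Eigenforms p) (t : TAlg p) :
    charOf f t ∈ coefficientField f.1 := by
  have ht : t ∈ Submodule.span ℤ (Set.range (hCoeff p)) := (span_hCoeff p).symm ▸ trivial
  induction ht using Submodule.span_induction with
  | mem x hx =>
    obtain ⟨n, rfl⟩ := hx
    rw [charOf_hCoeff]
    exact qCoeff_mem_coefficientField _ n
  | zero => rw [map_zero]; exact zero_mem _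
  | add x y _ _ hx hy => rw [map_add]; exact add_mem hx hy
  | smul c x _ hx => rw [map_zsmul]; exact zsmul_mem hx c

/-- `g` is conjugate to `f`. -/
def IsConjugateForm (f g : CuspForm (Gamma0 p) 2) : Prop :=
  ∃ σ : coefficientField f →+* ℂ,
    ∀ n, qCoeff g n = σ ⟨qCoeff f n, qCoeff_mem_coefficientField f n⟩

theorem ker_eq_of_conj {f g : PrimeLevelBasis.Eigenforms p} (h : IsConjugateForm f.1 g.1) :
    RingHom.ker (charOf g) = RingHom.ker (charOf f) := by
  obtain ⟨σ, hσ⟩ := h
  let χ : TAlg p →+* coefficientField f.1 :=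
    (charOf f).codRestrict (coefficientField f.1) (charOf_mem f)
  have e : charOf g = σ.comp χ := PrimeLevelHecke.char_ext fun n => by
    rw [charOf_hCoeff, hσ]
    exact congrArg σ (Subtype.ext (charOf_hCoeff f n).symm)
  ext t
  rw [RingHom.mem_ker, RingHom.mem_ker, e, RingHom.comp_apply, map_eq_zero,
    ← ZeroMemClass.coe_eq_zero]
  rfl

theorem conj_of_ker_eq {f g : PrimeLevelBasis.Eigenforms p}
    (h : RingHom.ker (charOf g) = RingHom.ker (charOf f)) : IsConjugateForm f.1 g.1 := by
  set P := RingHom.ker (charOf f)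
  haveI : P.IsPrime := RingHom.ker_isPrime _
  set cf : TAlg p ⧸ P →+* ℂ := Ideal.Quotient.lift P (charOf f) fun t ht => ht
  set cg : TAlg p ⧸ P →+* ℂ :=
    Ideal.Quotient.lift P (charOf g) fun t ht => RingHom.mem_ker.1 (h ▸ ht)
  have hf : Function.Injective cf :=
    RingHom.lift_injective_of_ker_le_ideal P _ le_rfl
  have hg : Function.Injective cg :=
    RingHom.lift_injective_of_ker_le_ideal P _ h.le
  set φf : FractionRing (TAlg p ⧸ P) →+* ℂ := IsFractionRing.lift hf
  set φg : FractionRing (TAlg p ⧸ P) →+* ℂ := IsFractionRing.lift hg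
  have hφ : ∀ n, φf (algebraMap _ _ (Ideal.Quotient.mk P (hCoeff p n))) = qCoeff f.1 n ∧
      φg (algebraMap _ _ (Ideal.Quotient.mk P (hCoeff p n))) = qCoeff g.1 n := fun n =>
    ⟨(IsFractionRing.lift_algebraMap hf _).trans (charOf_hCoeff f n),
      (IsFractionRing.lift_algebraMap hg _).trans (charOf_hCoeff g n)⟩
  haveI : CharZero (FractionRing (TAlg p ⧸ P)) := φf.charZero
  let φ' : FractionRing (TAlg p ⧸ P) →ₐ[ℚ] ℂ := φf.toRatAlgHom
  have hle : coefficientField f.1 ≤ φ'.fieldRange := by
    rw [coefficientField, IntermediateField.adjoin_le_iff]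
    rintro _ ⟨n, rfl⟩
    exact ⟨_, (hφ n).1⟩
  let e : FractionRing (TAlg p ⧸ P) ≃+* φ'.fieldRange :=
    (AlgEquiv.ofInjectiveField φ').toRingEquiv
  refine ⟨φg.comp (e.symm.toRingHom.comp (IntermediateField.inclusion hle).toRingHom), fun n => ?_⟩
  rw [← (hφ n).2]
  refine congrArg φg (e.injective (Subtype.ext ?_))
  simp only [RingHom.comp_apply, RingEquiv.toRingHom_eq_coe, RingEquiv.coe_toRingHom,
    RingEquiv.apply_symm_apply]
  exact (hφ n).1

theorem conj_iff_ker_eq {f g : PrimeLevelBasis.Eigenforms p} :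
    IsConjugateForm f.1 g.1 ↔ RingHom.ker (charOf g) = RingHom.ker (charOf f) :=
  ⟨ker_eq_of_conj, conj_of_ker_eq⟩

/-- The conjugates number `[K_f : ℚ]`. -/
theorem card_conjugates (f : PrimeLevelBasis.Eigenforms p) :
    Nat.card {g : PrimeLevelBasis.Eigenforms p // IsConjugateForm f.1 g.1} =
      Module.finrank ℚ (coefficientField f.1) := by
  obtain ⟨hNF, -⟩ := prime_level_coefficientField f.2
  have hex : ∀ σ : coefficientField f.1 →+* ℂ, ∃ g : PrimeLevelBasis.Eigenforms p,
      ∀ n, qCoeff g.1 n = σ ⟨qCoeff f.1 n, qCoeff_mem_coefficientField f.1 n⟩ := fun σ => by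
    obtain ⟨g, hg, h⟩ := prime_level_conjugate_eigenform f.2 (coefficientField f.1).toSubfield
      (qCoeff_mem_coefficientField f.1) σ
    exact ⟨⟨g, hg⟩, h⟩
  choose G hG using hex
  rw [← NumberField.Embeddings.card (coefficientField f.1) ℂ, ← Nat.card_eq_fintype_card]
  refine (Nat.card_congr (Equiv.ofBijective (fun σ => ⟨G σ, σ, hG σ⟩) ⟨fun σ τ e => ?_,
    fun g => ?_⟩)).symm
  · have e' : G σ = G τ := congrArg Subtype.val e
    have h : σ.toRatAlgHom = τ.toRatAlgHom := IntermediateField.adjoin_algHom_ext ℚ (by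
      rintro x ⟨n, rfl⟩
      exact (hG σ n).symm.trans (e' ▸ hG τ n))
    exact RingHom.ext fun x => DFunLike.congr_fun h x
  · obtain ⟨g, σ, hσ⟩ := g
    exact ⟨σ, Subtype.ext (Subtype.ext (FA.Deform.qLin_injective (funext fun n =>
      (hG σ n).trans (hσ n).symm)))⟩

/-- The kernel of a character is a minimal prime. -/
theorem ker_mem_minimalPrimes (f : PrimeLevelBasis.Eigenforms p) :
    RingHom.ker (charOf f) ∈ minimalPrimes (TAlg p) := by
  haveI : Module.Finite ℤ (TAlg p) := FA.Period.moduleFinite_heckeAlgebra p 2 ∅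
  haveI := RingHom.ker_isPrime (charOf f)
  refine ⟨⟨this, bot_le⟩, fun Q ⟨hQ, _⟩ hle t ht => ?_⟩
  haveI := hQ
  by_contra htQ
  haveI : Algebra.IsIntegral ℤ (TAlg p ⧸ Q) :=
    ⟨fun x => by
      obtain ⟨y, rfl⟩ := Ideal.Quotient.mk_surjective x
      exact (Algebra.IsIntegral.isIntegral (R := ℤ) y).map (Ideal.Quotient.mk Q).toIntAlgHom⟩
  have h0 : (RingHom.ker (charOf f)).map (Ideal.Quotient.mk Q) = ⊥ := by
    refine Ideal.eq_bot_of_comap_eq_bot (R := ℤ) (eq_bot_iff.2 fun z hz => ?_)
    rw [Ideal.mem_comap, eq_intCast, ← map_intCast (Ideal.Quotient.mk Q),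
      ← Ideal.mem_comap, Ideal.comap_map_of_surjective _ Ideal.Quotient.mk_surjective,
      ← RingHom.ker_eq_comap_bot, Ideal.mk_ker, sup_eq_left.2 hle, RingHom.mem_ker,
      map_intCast, Int.cast_eq_zero] at hz
    exact hz
  exact htQ (Ideal.Quotient.eq_zero_iff_mem.1 (Ideal.mem_bot.1
    (h0 ▸ Ideal.mem_map_of_mem (Ideal.Quotient.mk Q) ht)))

/-- Every minimal prime is the kernel of a character. -/
theorem exists_of_mem_minimalPrimes {P : Ideal (TAlg p)} (hP : P ∈ minimalPrimes (TAlg p)) :
    ∃ f : PrimeLevelBasis.Eigenforms p, RingHom.ker (charOf f) = P := by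
  haveI := hP.1.1
  haveI := (prime_level_eigenforms_basis (p := p)).2.2.1
  haveI := Fintype.ofFinite (PrimeLevelBasis.Eigenforms p)
  haveI : Module.Finite ℤ (TAlg p) := FA.Period.moduleFinite_heckeAlgebra p 2 ∅
  haveI : Module.Free ℤ (TAlg p) := Module.free_of_finite_type_torsion_free'
  have hbot : Finset.univ.inf (fun f : PrimeLevelBasis.Eigenforms p => RingHom.ker (charOf f)) ≤
      P := fun t ht => by
    have h0 : t = 0 := PrimeLevelHecke.eq_zero_of_char (Module.Free.chooseBasis ℤ (TAlg p))
      fun χ => by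
        rw [Submodule.mem_finsetInf] at ht
        have h := ht (PrimeLevelHecke.toEigen χ) (Finset.mem_univ _)
        rwa [RingHom.mem_ker, show charOf (PrimeLevelHecke.toEigen χ) = χ from
          (Equiv.ofBijective _ PrimeLevelHecke.toEigen_bijective).symm_apply_apply χ] at h
    rw [h0]
    exact zero_mem P
  obtain ⟨f, -, hf⟩ := (Ideal.IsPrime.inf_le' (hP.1.1)).1 hbot
  exact ⟨f, le_antisymm hf (hP.2 ⟨RingHom.ker_isPrime _, bot_le⟩ hf)⟩

/-- `T / P` has rank `[K_f : ℚ]`. -/
theorem finrank_quotient (f : PrimeLevelBasis.Eigenforms p) :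
    Module.finrank ℤ (TAlg p ⧸ RingHom.ker (charOf f)) =
      Module.finrank ℚ (coefficientField f.1) := by
  haveI : Module.Finite ℤ (TAlg p) := FA.Period.moduleFinite_heckeAlgebra p 2 ∅
  obtain ⟨hNF, -⟩ := prime_level_coefficientField f.2
  set P := RingHom.ker (charOf f)
  haveI : P.IsPrime := RingHom.ker_isPrime _
  let c : TAlg p ⧸ P →+* ℂ := Ideal.Quotient.lift P (charOf f) fun t ht => ht
  have hc : Function.Injective c := RingHom.lift_injective_of_ker_le_ideal P _ le_rfl
  haveI : Module.Finite ℤ (TAlg p ⧸ P) :=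
    Module.Finite.of_surjective (Ideal.Quotient.mkₐ ℤ P).toLinearMap
      (Ideal.Quotient.mkₐ_surjective ℤ P)
  haveI : IsAddTorsionFree (TAlg p ⧸ P) :=
    Function.Injective.isAddTorsionFree c.toAddMonoidHom hc
  haveI : Module.Free ℤ (TAlg p ⧸ P) := Module.free_of_finite_type_torsion_free'
  let b := Module.Free.chooseBasis ℤ (TAlg p ⧸ P)
  have hli : LinearIndependent ℚ fun i => c (b i) :=
    (LinearIndependent.iff_fractionRing ℤ ℚ).1
      (b.linearIndependent.map' c.toAddMonoidHom.toIntLinearMap (LinearMap.ker_eq_bot.2 hc))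
  have hspan : Submodule.span ℚ (Set.range fun i => c (b i)) =
      Subalgebra.toSubmodule (coefficientField f.1).toSubalgebra := by
    refine le_antisymm (Submodule.span_le.2 ?_) ?_
    · rintro _ ⟨i, rfl⟩
      obtain ⟨t, ht⟩ := Ideal.Quotient.mk_surjective (b i)
      show c (b i) ∈ coefficientField f.1
      rw [← ht]
      exact charOf_mem f t
    · have hall : ∀ x : TAlg p, charOf f x ∈ Submodule.span ℚ (Set.range fun i => c (b i)) :=
        fun x => by
        rw [show charOf f x = c (Ideal.Quotient.mk P x) from rfl,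
          ← b.sum_repr (Ideal.Quotient.mk P x), map_sum]
        exact Submodule.sum_mem _ fun i _ => by
          rw [map_zsmul, ← Int.cast_smul_eq_zsmul ℚ]
          exact Submodule.smul_mem _ _ (Submodule.subset_span ⟨i, rfl⟩)
      rw [coefficientField, IntermediateField.adjoin_toSubalgebra_of_isAlgebraic fun x hx => ?_,
        Algebra.adjoin_eq_span, Submodule.span_le]
      · intro x hx
        suffices h : x ∈ MonoidHom.mrange (charOf f).toMonoidHom by
          obtain ⟨t, rfl⟩ := h
          exact hall t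
        exact Submonoid.closure_le.2 (by rintro _ ⟨n, rfl⟩; exact ⟨_, charOf_hCoeff f n⟩) hx
      · obtain ⟨n, rfl⟩ := hx
        exact (((prime_level_coefficientField f.2).2.2.2 n).tower_top (A := ℚ)).isAlgebraic
  rw [Module.finrank_eq_card_basis b, ← finrank_span_eq_card hli, hspan]
  rfl

end FA.PrimeLevelOrbits

end
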