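import Fermat.Agent.Tau.FieldClassEquality

/-!
# Prime values of `n² + n + q`

If `n² + n + q` is prime for `n ≤ q - 2`, the only reduced primitive form of discriminant
`1 - 4q` is `(1, 1, q)`. Conversely, for `4q - 1` squarefree a composite value gives a prime `p < q` and a form
`(p, 2n + 1, ·)`, while `x² + x y + q y²` takes no prime value below `q`.
-/

set_option autoImplicit false

noncomputable section

namespace FA.Rabinowitsch

open UpperHalfPlane hiding I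
open FA.ModField
open FA.Singular hiding IsRoot
open scoped MatrixGroups

/-- `n² + n + q` is prime for all `n ≤ q - 2`. -/
def PrimeValues (q : ℕ) : Prop := ∀ n : ℕ, n + 2 ≤ q → (n ^ 2 + n + q).Prime

theorem principal_mem_red {q : ℕ} (hq : 2 ≤ q) : (1, 1, (q : ℤ)) ∈ Red (1 - 4 * q : ℤ) :=
  ⟨by simp, by simp, one_pos, by simp, show (1 : ℤ) ≤ q by omega, fun _ => zero_le_one⟩

/-- **Prime values leave one form.** -/
theorem red_eq_singleton {q : ℕ} (hq : 2 ≤ q) (h : PrimeValues q) :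
    Red (1 - 4 * q : ℤ) = {(1, 1, (q : ℤ))} := by
  refine Set.eq_singleton_iff_unique_mem.2 ⟨principal_mem_red hq, ?_⟩
  rintro ⟨a, b, c⟩ ⟨hd, -, ha, hb, hc, hbd⟩
  simp only at hd ha hb hc hbd
  have hb2 : b ^ 2 ≤ a ^ 2 := sq_le_sq.2 (by rwa [abs_of_pos ha])
  have hac := mul_le_mul_of_nonneg_left hc ha.le
  have hbodd : b % 2 = 1 := by
    rcases Int.even_or_odd' b with ⟨l, rfl | rfl⟩
    · ring_nf at hd; omega
    · omega
  by_cases ha1 : a = 1
  · subst ha1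
    obtain ⟨h1, h2⟩ := abs_le.1 hb
    rcases (show b = -1 ∨ b = 1 by omega) with rfl | rfl
    · have := hbd (Or.inl (by simp)); omega
    · simp only [Prod.mk.injEq, true_and]; omega
  exfalso
  obtain ⟨k, hk⟩ : ∃ k : ℕ, |b| = 2 * k + 1 := ⟨((|b| - 1) / 2).toNat, by
    have h1 : 1 ≤ |b| := Int.one_le_abs (by omega)
    have h2 : |b| % 2 = 1 := by rcases abs_choice b with e | e <;> rw [e] <;> omega
    omega⟩
  have hak : (2 * k + 1 : ℤ) ≤ a := hk ▸ hb
  have haq : a ≤ (q : ℤ) := by nlinarith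
  have hval : a * c = (k ^ 2 + k + q : ℕ) := by
    have hsq : b ^ 2 = (2 * (k : ℤ) + 1) ^ 2 := by rw [← sq_abs, hk]
    push_cast
    linarith
  have hprime := h k (by omega)
  have e : a.natAbs * c.natAbs = k ^ 2 + k + q := by
    rw [← Int.natAbs_mul, hval, Int.natAbs_natCast]
  rw [← e] at hprime
  exact Nat.not_prime_mul (by omega) (by omega) hprime

/-- With one reduced form all roots of primitive forms are equivalent to the principal one. -/
theorem exists_smul_principal {q : ℕ}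
    (h : Red (1 - 4 * q : ℤ) = {(1, 1, (q : ℤ))}) {τ₀ : ℍ}
    (h₀ : FA.Singular.IsRoot (1, 1, (q : ℤ)) τ₀) {a b c : ℤ} (ha : 0 < a) (hD : (1 - 4 * q : ℤ) < 0)
    (hd : b ^ 2 - 4 * a * c = 1 - 4 * q) (hg : Int.gcd (Int.gcd a b) c = 1) {τ : ℍ}
    (hτ : FA.Singular.IsRoot (a, b, c) τ) : ∃ g : SL(2, ℤ), g • τ₀ = τ := by
  have hv := jfun_mem_values (t := (a, b, c)) ha (hd.trans_lt hD) hg hτ
  rw [show disc (a, b, c) = 1 - 4 * (q : ℤ) from hd] at hv
  obtain ⟨f, hf, σ, hσ, hj⟩ := hv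
  rw [h, Set.mem_singleton_iff] at hf
  subst hf
  rw [root_unique one_ne_zero hσ h₀] at hj
  exact (FA.JInj.jfun_eq_iff τ₀ τ).1 hj

/-- **One form leaves prime values**, for squarefree `4q - 1`. -/
theorem primeValues_of_singleton {q : ℕ} (hq : 2 ≤ q) (hsq : Squarefree (1 - 4 * q : ℤ))
    (h : Red (1 - 4 * q : ℤ) = {(1, 1, (q : ℤ))}) : PrimeValues q := by
  intro n hn
  by_contra hnp
  set v := n ^ 2 + n + q with hv
  have hv2 : 2 ≤ v := by omega
  have hp : (v.minFac).Prime := Nat.minFac_prime (by omega)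
  set p := v.minFac
  obtain ⟨c, hc⟩ : p ∣ v := Nat.minFac_dvd v
  have hpsq : p * p ≤ v := by rw [← pow_two]; exact Nat.minFac_sq_le_self (by omega) hnp
  have hpq : p < q := by nlinarith
  have hD : (1 - 4 * q : ℤ) < 0 := by omega
  have hd : (2 * (n : ℤ) + 1) ^ 2 - 4 * p * c = 1 - 4 * q := by
    have : (p : ℤ) * c = n ^ 2 + n + q := by exact_mod_cast hc.symm.trans hv
    linear_combination (-4 : ℤ) * this
  have hg : Int.gcd (Int.gcd (p : ℤ) (2 * n + 1)) (c : ℤ) = 1 :=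
    FA.FieldClassBound.gcd_eq_one_of_disc hsq (by
      rw [hd, FA.FieldClassBound.discK, if_pos (by omega)])
  obtain ⟨τ₀, h₀⟩ := exists_isRoot (t := (1, 1, (q : ℤ))) one_pos (by simp [disc]; omega)
  obtain ⟨τ, hτ⟩ := exists_isRoot (t := ((p : ℤ), 2 * (n : ℤ) + 1, (c : ℤ)))
    (show (0 : ℤ) < p by exact_mod_cast hp.pos) (by simp only [disc]; omega)
  obtain ⟨g, hgτ⟩ := exists_smul_principal h h₀ (by exact_mod_cast hp.pos) hD hd hg hτ
  obtain ⟨hre, hns⟩ := root_re_normSq h₀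
  obtain ⟨hre', hns'⟩ := root_re_normSq hτ
  simp only [Complex.normSq_apply, UpperHalfPlane.coe_re,
    UpperHalfPlane.coe_im] at hre hns hre' hns'
  push_cast at hre hns hre' hns'
  have him := ModularGroup.im_smul_eq_div_normSq g τ₀
  rw [hgτ] at him
  set γ := g 1 0
  set δ := g 1 1
  have hdenom : Complex.normSq (UpperHalfPlane.denom g τ₀) =
      (γ : ℝ) ^ 2 * q - (γ : ℝ) * δ + (δ : ℝ) ^ 2 := by
    rw [ModularGroup.denom_apply, Complex.normSq_apply]
    simp [γ, δ]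
    linear_combination ((g 1 0 : ℝ) ^ 2) * hns + ((g 1 0 : ℝ) * (g 1 1 : ℝ)) * hre
  rw [hdenom] at him
  have hi0 := τ₀.im_pos
  have hpos : 0 < (γ : ℝ) ^ 2 * q - (γ : ℝ) * δ + (δ : ℝ) ^ 2 :=
    hdenom ▸ Complex.normSq_pos.2 (UpperHalfPlane.denom_ne_zero g τ₀)
  have e1 : (τ₀.im) ^ 2 = ((p : ℝ) * τ.im) ^ 2 := by
    have hdR : (2 * (n : ℝ) + 1) ^ 2 - 4 * p * c = 1 - 4 * q := by exact_mod_cast hd
    linear_combination hns - (p : ℝ) * hns' + ((p : ℝ) * τ.re / 2 - (2 * (n : ℝ) + 1) / 4) * hre' +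
      (1 / 4 - τ₀.re / 2) * hre + (1 / 4 : ℝ) * hdR
  have e2 : τ₀.im = p * τ.im :=
    (sq_eq_sq₀ hi0.le (mul_nonneg (Nat.cast_nonneg p) τ.im_pos.le)).1 e1
  rw [eq_div_iff hpos.ne', e2] at him
  have hp' : γ ^ 2 * (q : ℤ) - γ * δ + δ ^ 2 = p := by
    have h1 : (γ : ℝ) ^ 2 * q - (γ : ℝ) * δ + (δ : ℝ) ^ 2 = p :=
      mul_left_cancel₀ τ.im_pos.ne' (by linear_combination him)
    exact_mod_cast h1
  by_cases hγ : γ = 0
  · rw [hγ] at hp'
    have h2 : δ.natAbs * δ.natAbs = p := by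
      rw [← Int.natAbs_mul, show δ * δ = (p : ℤ) by linarith, Int.natAbs_natCast]
    rw [← h2] at hp
    rcases Nat.prime_mul_iff.1 hp with ⟨hpp, h1⟩ | ⟨hpp, h1⟩ <;> rw [h1] at hpp <;>
      exact Nat.not_prime_one hpp
  · have hγ2 : 1 ≤ γ ^ 2 := by
      have := pow_pos (abs_pos.2 hγ) 2
      rw [sq_abs] at this
      omega
    nlinarith [sq_nonneg (2 * δ - γ)]

end FA.Rabinowitsch

end
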