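import Fermat.Agent.Tau.SplittingLaw
import Fermat.Agent.Root.SummaryPrimesForms
import Fermat.Agent.Root.SummaryBauer

/-!
# The ring class field of `ℤ[√-n]` is generated by `j(√-n)`

The splitting field of `(X² + n) H`, `H` the class polynomial, has the same primes splitting
completely as the ring class field, so equals it by Bauer's theorem; `j(√-n)` is real of degree
`h(n)`, so with `√-n` it generates a field of the full degree `2 h(n)`.
-/

set_option autoImplicit false
set_option linter.style.haveILetI false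

noncomputable section

namespace FA.RingClassJ

open UpperHalfPlane hiding I
open FA.ModField NumberField Polynomial FA.Density Module
open FA.Singular hiding IsRoot

local notation "Qb" => AlgebraicClosure ℚ

/-- `j` is real on the imaginary axis. -/
theorem conj_jfun {z : ℍ} (h : z.re = 0) : starRingEnd ℂ (jfun z) = jfun z := by
  have hq : starRingEnd ℂ (qp 1 z) = qp 1 z := by
    rw [qp_eq, ← Complex.exp_conj]
    congr 1
    refine Complex.ext ?_ ?_ <;> simp [h]
  have h1 := (hasExp_jfun z).map (starRingEnd ℂ) Complex.continuous_conj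
  refine h1.unique ?_
  have e : (⇑(starRingEnd ℂ) ∘ fun n => (ModularCurve.jqModC ℂ).coeff n * qp 1 z ^ n) =
      fun n => (ModularCurve.jqModC ℂ).coeff n * qp 1 z ^ n := by
    funext n
    rw [Function.comp_apply, map_mul, map_zpow₀, hq,
      ← ModularCurve.coeffMap_jqModC (R := ℤ) (Int.castRingHom ℂ), ModularCurve.coeffMap_coeff]
    simp
  rw [e]
  exact hasExp_jfun z

/-- The triple of a pair `(a, b)`. -/
def toTriple (n : ℕ) (t : ℕ × ℤ) : ℤ × ℤ × ℤ :=
  ((t.1 : ℤ), 2 * t.2, (t.2 ^ 2 + (n : ℤ)) / t.1)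

theorem toTriple_injective (n : ℕ) : Function.Injective (toTriple n) := fun t s e => by
  simp only [toTriple, Prod.mk.injEq, Nat.cast_inj] at e
  exact Prod.ext e.1 (by linarith [e.2.1])

/-- The reduced forms of discriminant `-4n` are the reduced forms of determinant `n`. -/
theorem red_eq_image (n : ℕ) [NeZero n] :
    Red (-4 * (n : ℤ)) = toTriple n '' (FA.OrderTheta.redSet n (2 * n) : Set (ℕ × ℤ)) := by
  refine Set.Subset.antisymm ?_ ?_
  · rintro ⟨A, B, C⟩ ⟨hd, hg, hA, hB, hC, htie⟩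
    simp only [] at hd hg hA hB hC htie
    obtain ⟨b, hb⟩ : (2 : ℤ) ∣ B := by
      have : (2 : ℤ) ∣ B ^ 2 := ⟨2 * A * C - 2 * n, by linarith⟩
      exact Int.prime_two.dvd_of_dvd_pow this
    subst hb
    rw [abs_mul, abs_two] at hB htie
    have hAC : A * C = b ^ 2 + (n : ℤ) := by linarith
    have hA2 : A ≤ 2 * (n : ℤ) := by
      nlinarith [mul_le_mul hB hB (by positivity) hA.le, abs_mul_abs_self b,
        mul_le_mul_of_nonneg_left hC hA.le]
    lift A to ℕ using hA.le
    have hA' : 0 < A := by exact_mod_cast hA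
    have hdiv : (b ^ 2 + (n : ℤ)) / A = C := by
      rw [← hAC, Int.mul_ediv_cancel_left _ hA.ne']
    refine ⟨(A, b), ?_, ?_⟩
    · rw [Finset.mem_coe, FA.OrderTheta.redSet, Finset.mem_filter, Finset.mem_product,
        Finset.mem_range, Finset.mem_Icc, ← abs_le]
      simp only [FA.OrderTheta.IsRed]
      refine ⟨⟨by omega, ?_⟩, hA', ⟨C, hAC.symm⟩, by rw [hdiv]; exact hg, hB, ?_, fun h => ?_⟩
      · push_cast; linarith [abs_nonneg b]
      · rw [← hAC]; exact mul_le_mul_of_nonneg_left hC hA.le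
      · have := htie (h.imp id fun e => mul_left_cancel₀ hA.ne' (e.trans hAC.symm))
        linarith
    · simp only [toTriple, hdiv]
  · rintro _ ⟨t, ht, rfl⟩
    rw [Finset.mem_coe, FA.OrderTheta.redSet, Finset.mem_filter] at ht
    obtain ⟨-, h0, ⟨c, hc⟩, hg, hb, hac, htie⟩ := ht
    have ha : (0 : ℤ) < t.1 := by exact_mod_cast h0
    rw [toTriple, hc, Int.mul_ediv_cancel_left _ ha.ne']
    rw [hc, Int.mul_ediv_cancel_left _ ha.ne'] at hg
    rw [hc] at hac htie
    refine ⟨by simp only; linear_combination 4 * hc, hg, ha, ?_, ?_, fun h => ?_⟩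
    · simp only; rw [abs_mul, abs_two]; exact hb
    · exact le_of_mul_le_mul_left hac ha
    · simp only [abs_mul, abs_two] at h
      exact mul_nonneg zero_le_two (htie (h.imp id fun e => by rw [← e]))

/-- `h(D)` for `D = -4n` is the number of classes of `ℤ[√-n]`. -/
theorem ncard_red_eq (n : ℕ) [NeZero n] :
    (Red (-4 * (n : ℤ))).ncard = Nat.card (FA.OrderTheta.Cl n) := by
  rw [FA.OrderTheta.card_cl_eq_redSet (2 * n) (by nlinarith [NeZero.pos n]),
    ← Set.ncard_coe_finset, red_eq_image, Set.ncard_image_of_injective _ (toTriple_injective n)]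

/-! ### The primes splitting completely -/

variable {E : Type*} [Field E] [NumberField E] {q : ℕ} {P : Ideal (𝓞 E)}
  {g : E ≃ₐ[ℚ] E}

omit [NumberField E] in
/-- Roots of a monic polynomial separable modulo `q` have distinct residues. -/
theorem eq_of_residue_eq [Fact q.Prime] {k : Type*} [Field k] (π : 𝓞 E →+* k)
    (φ : ZMod q →+* k) {H : ℤ[X]} (hsep : (H.map (Int.castRingHom (ZMod q))).Separable)
    {y y' : 𝓞 E} (hy : aeval y H = 0) (hy' : aeval y' H = 0) (e : π y = π y') : y = y' := by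
  by_contra hne
  obtain ⟨Q, hQ⟩ : X - C y ∣ H.map (algebraMap ℤ (𝓞 E)) := by
    rw [dvd_iff_isRoot, IsRoot, eval_map, ← aeval_def, hy]
  have h1 := congrArg (Polynomial.eval y') hQ
  rw [eval_map, ← aeval_def, hy', eval_mul, eval_sub, eval_X, eval_C, eq_comm,
    mul_eq_zero, or_iff_right (sub_ne_zero.2 (Ne.symm hne))] at h1
  have h2 : IsRoot (Q.map π) (π y) := by
    rw [IsRoot, eval_map, e, eval₂_at_apply, h1, map_zero]
  obtain ⟨R, hR⟩ := dvd_iff_isRoot.2 h2
  have hmap : (H.map (Int.castRingHom (ZMod q))).map φ =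
      (X - C (π y)) * (X - C (π y)) * R := by
    rw [Polynomial.map_map, show φ.comp (Int.castRingHom (ZMod q)) =
      π.comp (algebraMap ℤ (𝓞 E)) from Subsingleton.elim _ _, ← Polynomial.map_map, hQ,
      Polynomial.map_mul, Polynomial.map_sub, map_X, map_C, hR, mul_assoc]
  exact (Polynomial.not_isUnit_X_sub_C (π y))
    ((hsep.map (f := φ)).squarefree _ ⟨R, hmap⟩)

/-- The Frobenius element of a field generated by the roots of `(X² + n) H`. -/
theorem frob_eq_one_iff (h : IsFrobPair q P g) {n : ℕ} (hqn : ¬ q ∣ 2 * n) {H : ℤ[X]}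
    (hmon : H.Monic)
    (hgen : ∀ s : E ≃ₐ[ℚ] E,
      (∀ y : E, y ^ 2 = -(n : E) ∨ aeval y H = 0 → s y = y) → s = 1)
    {d y₀ : E} (hd : d ^ 2 = -(n : E)) (hy₀ : aeval y₀ H = 0)
    (hsep : (H.map (Int.castRingHom (ZMod q))).Separable) :
    (g = 1 → IsSquare (-(n : ZMod q)) ∧
      ∃ r : ZMod q, (H.map (Int.castRingHom (ZMod q))).IsRoot r) ∧
    (IsSquare (-(n : ZMod q)) ∧ (H.map (Int.castRingHom (ZMod q))).Splits → g = 1) := by
  have := h.isMaximal
  haveI := Fact.mk h.prime
  let := Ideal.Quotient.field P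
  set π := Ideal.Quotient.mk P with hπ
  haveI : CharP (𝓞 E ⧸ P) q := (CharP.charP_iff_prime_eq_zero h.prime).mpr <| by
    rw [← map_natCast π, hπ, Ideal.Quotient.eq_zero_iff_mem]
    exact h.mem
  set φ := ZMod.castHom (dvd_refl q) (𝓞 E ⧸ P) with hφ
  set Hb := H.map (Int.castRingHom (ZMod q)) with hHb
  have hfrob : ∀ y : 𝓞 E, π (g • y) = π y ^ q := fun y => by
    rw [← map_pow]; exact (Ideal.Quotient.eq.2 (h.frob y))
  have hres : ∀ y : 𝓞 E, aeval y H = 0 → (Hb.map φ).IsRoot (π y) := fun y hy => by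
    rw [IsRoot, hHb, Polynomial.map_map, eval_map,
      show φ.comp (Int.castRingHom (ZMod q)) = π.comp (algebraMap ℤ (𝓞 E)) from
        Subsingleton.elim _ _, ← hom_eval₂, ← aeval_def, hy, map_zero]
  have hint : ∀ y : E, aeval y H = 0 → IsIntegral ℤ y := fun y hy =>
    ⟨H, hmon, by rwa [← aeval_def]⟩
  have hzero : ∀ (y : E) (hy : aeval y H = 0), aeval (⟨y, hint y hy⟩ : 𝓞 E) H = 0 :=
    fun y hy => FaithfulSMul.algebraMap_injective (𝓞 E) E
      ((aeval_algHom_apply (algebraMap (𝓞 E) E).toIntAlgHom _ H).symm.trans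
      (hy.trans (map_zero _).symm))
  have hdi : IsIntegral ℤ d := IsIntegral.of_pow two_pos (by
    rw [hd]; simpa using (isIntegral_algebraMap (R := ℤ) (A := E) (x := (n : ℤ))).neg)
  set d' : 𝓞 E := ⟨d, hdi⟩ with hd'
  have hd2 : d' ^ 2 = -(n : 𝓞 E) := RingOfIntegers.ext (by simpa [hd'] using hd)
  refine ⟨fun hg => ?_, ?_⟩
  · have hfix : ∀ y : 𝓞 E, ∃ z : ZMod q, φ z = π y := fun y => by
      have h1 : π y ^ q = π y := by
        have := hfrob y
        rw [hg, one_smul] at this
        exact this.symm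
      have h2 := (Subfield.mem_bot_iff_pow_eq_self (𝓞 E ⧸ P) q).mpr h1
      rw [← ZMod.fieldRange_castHom_eq_bot q] at h2
      exact h2
    obtain ⟨s, hs⟩ := hfix d'
    obtain ⟨r, hr⟩ := hfix ⟨y₀, hint y₀ hy₀⟩
    refine ⟨⟨s, φ.injective ?_⟩, r, ?_⟩
    · rw [map_neg, map_natCast, map_mul, hs, ← map_mul, ← sq, hd2, map_neg, map_natCast]
    · have h3 := hres _ (hzero y₀ hy₀)
      rw [← hr] at h3
      exact h3.of_map φ.injective
  · rintro ⟨⟨s, hs⟩, hsp⟩
    refine hgen g fun y hy => ?_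
    rcases hy with hy | hy
    · -- the square roots of `-n`
      have hyd : y = d ∨ y = -d := sq_eq_sq_iff_eq_or_eq_neg.1 (hy.trans hd.symm)
      have hgd : g d = d := by
        have e : π d' ^ q = π d' := by
          have h1 : π d' ^ 2 = φ s ^ 2 := by
            rw [← map_pow, hd2, map_neg, map_natCast, sq (φ s), ← map_mul, ← hs, map_neg,
              map_natCast]
          rcases sq_eq_sq_iff_eq_or_eq_neg.1 h1 with e | e <;> rw [e]
          · rw [← map_pow, ZMod.pow_card]
          · rw [← map_neg, ← map_pow, ZMod.pow_card]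
        have hgd2 : g d = d ∨ g d = -d := sq_eq_sq_iff_eq_or_eq_neg.1 (by
          rw [← map_pow, hd, map_neg, map_natCast])
        refine hgd2.resolve_right fun hneg => hqn ?_
        have h2 := hfrob d'
        rw [e, show g • d' = -d' from RingOfIntegers.ext hneg, map_neg,
          neg_eq_iff_add_eq_zero] at h2
        have h3 : ((4 * n : ℕ) : 𝓞 E ⧸ P) = 0 := by
          have h4 : π (d' ^ 2) = -(n : 𝓞 E ⧸ P) := by rw [hd2, map_neg, map_natCast]
          rw [map_pow] at h4
          push_cast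
          linear_combination 4 * h4 - 2 * π d' * h2
        rw [CharP.cast_eq_zero_iff (𝓞 E ⧸ P) q] at h3
        rcases h.prime.dvd_mul.1 h3 with h4 | h4
        · exact (h.prime.dvd_of_dvd_pow (show q ∣ 2 ^ 2 from h4)).trans (dvd_mul_right 2 n)
        · exact h4.mul_left 2
      rcases hyd with e | e <;> rw [e] <;> simp [hgd]
    · -- the roots of `H`
      set y' : 𝓞 E := ⟨y, hint y hy⟩ with hy'
      have hgy : aeval (g • y') H = 0 := FaithfulSMul.algebraMap_injective (𝓞 E) E
        (((aeval_algHom_apply (algebraMap (𝓞 E) E).toIntAlgHom _ H).symm.trans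
          (aeval_algHom_apply ((g.restrictScalars ℤ).toAlgHom) y H)).trans
            ((congrArg g hy).trans ((map_zero g).trans (map_zero _).symm)))
      have hmem : π y' ∈ (Hb.map φ).roots :=
        (mem_roots ((hmon.map _).map _).ne_zero).2 (hres y' (hzero y hy))
      rw [hsp.roots_map] at hmem
      obtain ⟨z, -, hz⟩ := Multiset.mem_map.1 hmem
      have e : π (g • y') = π y' := by
        rw [hfrob, ← hz, ← map_pow, ZMod.pow_card]
      exact congrArg (fun t : 𝓞 E => (t : E))
        (eq_of_residue_eq π φ hsep hgy (hzero y hy) e)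

/-! ### The field -/

/-- **The ring class field of `ℤ[√-n]` is `ℚ(√-n, j(√-n))`.** -/
theorem eq_adjoin (n : ℕ) [NeZero n] (L : IntermediateField ℚ Qb) [FiniteDimensional ℚ L]
    [IsGalois ℚ L] (d : L) (hd : d ^ 2 = -(n : L))
    (hdeg : finrank ℚ L = 2 * Nat.card (FA.OrderTheta.Cl n))
    (hsplit : ∀ p : ℕ, p.Prime → ¬ p ∣ 6 * n →
      (((Ideal.span {(p : ℤ)}).primesOver (𝓞 L)).ncard = finrank ℚ L ↔
        ∃ x y : ℤ, (p : ℤ) = x ^ 2 + n * y ^ 2))
    (ι : Qb →ₐ[ℚ] ℂ) (τ : ℍ) (hτ : (τ : ℂ) ^ 2 = -(n : ℂ)) :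
    ∃ y : L, ι (y : Qb) = jfun τ ∧ (minpoly ℚ y).natDegree = Nat.card (FA.OrderTheta.Cl n) ∧
      L = IntermediateField.adjoin ℚ {(d : Qb), (y : Qb)} ∧
      ∀ f : ℤ × ℤ × ℤ, f ∈ Red (-4 * (n : ℤ)) → ∀ σ : ℍ, FA.Singular.IsRoot f σ →
        ∃ z : L, ι (z : Qb) = jfun σ := by
  classical
  have hn : 0 < n := NeZero.pos n
  set D : ℤ := -4 * (n : ℤ) with hDdef
  have hD : D < 0 := by omega
  have hroot : FA.Singular.IsRoot (1, 0, (n : ℤ)) τ := by simp [FA.Singular.IsRoot, hτ]
  have hu : jfun τ ∈ values D := by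
    have hdisc : disc (1, 0, (n : ℤ)) = D := by simp [disc, hDdef]
    rw [← hdisc]
    exact jfun_mem_values one_pos (by rw [hdisc]; exact hD) (by simp) hroot
  have hi := isIntegral_values hD hu
  set H := minpoly ℤ (jfun τ) with hH
  have hmon : H.Monic := minpoly.monic hi
  obtain ⟨M, hM⟩ := exists_separable_bound hD hu
  -- the splitting field
  set G : ℚ[X] := (X ^ 2 + C (n : ℚ)) * H.map (algebraMap ℤ ℚ) with hG
  have hG0 : G ≠ 0 :=
    mul_ne_zero (monic_X_pow_add_C _ two_ne_zero).ne_zero (hmon.map _).ne_zero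
  set L' : IntermediateField ℚ Qb := IntermediateField.adjoin ℚ (G.rootSet Qb) with hL'
  haveI : G.IsSplittingField ℚ L' :=
    IntermediateField.adjoin_rootSet_isSplittingField (IsAlgClosed.splits _)
  haveI : FiniteDimensional ℚ L' := IsSplittingField.finiteDimensional L' G
  haveI : Normal ℚ L' := Normal.of_isSplittingField G
  haveI : IsGalois ℚ L' := ⟨⟩
  haveI : NumberField L := { }
  haveI : NumberField L' := { }
  have hmemG : ∀ z : Qb, z ^ 2 = -(n : Qb) ∨ aeval z H = 0 → z ∈ L' := fun z hz => by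
    refine IntermediateField.subset_adjoin ℚ _ ?_
    rw [mem_rootSet, hG, map_mul, aeval_map_algebraMap]
    refine ⟨hG0, ?_⟩
    rcases hz with hz | hz
    · simp [hz]
    · rw [hz, mul_zero]
  have hco : ∀ x : L', ((aeval x H : L') : Qb) = aeval (x : Qb) H := fun x =>
    (aeval_algHom_apply (L'.val.restrictScalars ℤ) x H).symm
  -- the value as an element of `Qb`
  have him := (IsAlgClosed.splits ((minpoly ℚ (jfun τ)).map (algebraMap ℚ Qb))).image_rootSet ι
  have hrange : ∀ x : ℂ, aeval x H = 0 → ∃ z : Qb, ι z = x ∧ aeval z H = 0 := fun x hx => by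
    have hx' : x ∈ (minpoly ℚ (jfun τ)).rootSet ℂ := mem_rootSet.2 ⟨minpoly.ne_zero hi.tower_top,
      by rw [minpoly.isIntegrallyClosed_eq_field_fractions' ℚ hi, aeval_map_algebraMap, ← hH, hx]⟩
    rw [← him] at hx'
    obtain ⟨z, hz, hzx⟩ := hx'
    refine ⟨z, hzx, ?_⟩
    have := (mem_rootSet.1 hz).2
    rwa [minpoly.isIntegrallyClosed_eq_field_fractions' ℚ hi, aeval_map_algebraMap] at this
  obtain ⟨y₁, hy₁, hy₁H⟩ := hrange _ (minpoly.aeval ℤ _)
  have hdQ : (d : Qb) ^ 2 = -(n : Qb) := by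
    have := congrArg (fun t : L => (t : Qb)) hd
    simpa using this
  -- the same primes split completely
  have key : ∀ p : ℕ, p.Prime → ¬ p ∣ 6 * n → M < p →
      (∃ g : L' ≃ₐ[ℚ] L', ∃ P : Ideal (𝓞 L'), IsFrobPair p P g) →
      (((Ideal.span {(p : ℤ)}).primesOver (𝓞 L')).ncard = finrank ℚ L' ↔
        ((Ideal.span {(p : ℤ)}).primesOver (𝓞 L)).ncard = finrank ℚ L) := by
    rintro p hp hp6 hMp ⟨g, P, hP⟩
    have hp2 : ¬ p ∣ 2 * n := fun h => hp6 (h.trans (mul_dvd_mul_right (by norm_num) n))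
    have hgen : ∀ s : L' ≃ₐ[ℚ] L',
        (∀ y : L', y ^ 2 = -(n : L') ∨ aeval y H = 0 → s y = y) → s = 1 := by
      intro s hs
      have h1 : s.toAlgHom = AlgHom.id ℚ L' := by
        refine IntermediateField.adjoin_algHom_ext ℚ fun z hz => hs _ ?_
        rw [mem_rootSet, hG, map_mul, mul_eq_zero, aeval_map_algebraMap] at hz
        rcases hz.2 with h | h
        · refine Or.inl (Subtype.ext ?_)
          simp only [map_add, map_pow, aeval_X, map_natCast] at h
          push_cast
          exact eq_neg_of_add_eq_zero_left h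
        · exact Or.inr (Subtype.ext ((hco _).trans h))
      exact AlgEquiv.ext fun x => DFunLike.congr_fun h1 x
    have hf := frob_eq_one_iff hP hp2 hmon hgen
      (d := ⟨d, hmemG _ (Or.inl hdQ)⟩) (y₀ := ⟨y₁, hmemG _ (Or.inr hy₁H)⟩)
      (Subtype.ext (by push_cast; exact hdQ))
      (Subtype.ext ((hco _).trans hy₁H)) (hM p hp hMp)
    rw [FA.FrobeniusDensity.split_iff_eq_one hP, hsplit p hp hp6]
    haveI := Fact.mk hp
    have hp22 : p ≠ 2 := fun e => hp2 (e ▸ dvd_mul_right 2 n)
    have hpD : ¬ (p : ℤ) ∣ D := fun h => by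
      rw [hDdef, neg_mul, dvd_neg] at h
      have h' : p ∣ 2 ^ 2 * n := by exact_mod_cast h
      rcases hp.dvd_mul.1 h' with h'' | h''
      · exact hp2 ((hp.dvd_of_dvd_pow h'').trans (dvd_mul_right 2 n))
      · exact hp2 (h''.mul_left 2)
    have htfae := principal_tfae hp hp22 hD hpD (B := 0) (C := (n : ℤ)) (by ring) hu (hM p hp hMp)
    simp only [zero_mul, add_zero] at htfae
    have hsq : IsSquare (D : ZMod p) ↔ IsSquare (-(n : ZMod p)) := by
      have h2 : (2 : ZMod p) ≠ 0 := fun h => hp22 ((Nat.prime_dvd_prime_iff_eq hp Nat.prime_two).1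
        ((ZMod.natCast_eq_zero_iff 2 p).1 (by exact_mod_cast h)))
      rw [hDdef]
      push_cast
      constructor
      · rintro ⟨s, hs⟩
        exact ⟨s / 2, by field_simp; linear_combination hs⟩
      · rintro ⟨s, hs⟩
        exact ⟨2 * s, by linear_combination 4 * hs⟩
    refine ⟨fun h1 => ?_, fun hxy => hf.2 ?_⟩
    · obtain ⟨hs, hr⟩ := hf.1 h1
      have h12 := htfae.out 0 1
      exact h12.2 ⟨hsq.2 hs, hr⟩
    · obtain ⟨hs, hr⟩ := (htfae.out 0 2).1 hxy
      exact ⟨hsq.1 hs, hr⟩
  have hLL : L = L' := by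
    rw [FA.Summary.eq_iff_split_completely L L']
    obtain ⟨𝔉⟩ := FA.FrobeniusDensity.nonempty_frobSystem (F := L')
    refine (((6 * n).divisors ∪ Finset.range (M + 1)) ∪ 𝔉.excluded).finite_toSet.subset ?_
    intro q hq
    rw [Finset.mem_coe]
    by_contra hc
    simp only [Finset.mem_union, not_or, Finset.mem_range, Nat.lt_succ_iff, not_le,
      Nat.mem_divisors] at hc
    obtain ⟨⟨hc1, hc2⟩, hc3⟩ := hc
    have hq' : q.Prime := by rcases hq with ⟨h, -⟩ | ⟨h, -⟩ <;> exact h.1
    have hiff := key q hq' (fun h => hc1 ⟨h, by positivity⟩) hc2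
      ⟨_, 𝔉.spec q hq' hc3⟩
    rcases hq with ⟨⟨-, h1⟩, h2⟩ | ⟨⟨-, h1⟩, h2⟩
    · exact h2 ⟨hq', hiff.2 h1⟩
    · exact h2 ⟨hq', hiff.1 h1⟩
  have hy₁L : y₁ ∈ L := hLL ▸ hmemG _ (Or.inr hy₁H)
  set y : L := ⟨y₁, hy₁L⟩ with hy
  have hdegy : (minpoly ℚ y).natDegree = Nat.card (FA.OrderTheta.Cl n) := by
    refine (congrArg natDegree
      (minpoly.algHom_eq (ι.comp L.val) (ι.comp L.val).injective y)).symm.trans ?_
    rw [show (ι.comp L.val) y = jfun τ from hy₁, natDegree_minpoly hD hu, ncard_red_eq]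
  refine ⟨y, hy₁, hdegy, ?_, fun f hf σ hσ => ?_⟩
  · symm
    set F := IntermediateField.adjoin ℚ {(d : Qb), (y : Qb)} with hF
    have hFL : F ≤ L := IntermediateField.adjoin_le_iff.2 (by
      rintro z (rfl | rfl)
      exacts [d.2, y.2])
    haveI : FiniteDimensional ℚ F :=
      Module.Finite.of_injective (IntermediateField.inclusion hFL).toLinearMap
        (IntermediateField.inclusion hFL).injective
    refine IntermediateField.eq_of_le_of_finrank_le hFL ?_
    set K := IntermediateField.adjoin ℚ {(y : Qb)} with hK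
    have hKF : K ≤ F :=
      IntermediateField.adjoin.mono ℚ _ _ (Set.singleton_subset_iff.2 (Or.inr rfl))
    haveI : FiniteDimensional ℚ K :=
      Module.Finite.of_injective (IntermediateField.inclusion hKF).toLinearMap
        (IntermediateField.inclusion hKF).injective
    have hyQ : IsIntegral ℚ (y : Qb) := Algebra.IsIntegral.isIntegral _
    have hKdeg : finrank ℚ K = Nat.card (FA.OrderTheta.Cl n) := by
      rw [hK, IntermediateField.adjoin.finrank hyQ, ← hdegy]
      exact congrArg natDegree (minpoly.algHom_eq L.val L.val.injective y)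
    have hreal : ∀ z ∈ K, starRingEnd ℂ (ι z) = ι z := by
      intro z hz
      induction hz using IntermediateField.adjoin_induction with
      | mem x hx =>
        rw [Set.mem_singleton_iff.1 hx, show (y : Qb) = y₁ from rfl, hy₁]
        refine conj_jfun ?_
        have hre := congrArg Complex.re hτ
        have him' := congrArg Complex.im hτ
        simp [pow_two, Complex.mul_re, Complex.mul_im] at hre him'
        have : τ.im ≠ 0 := τ.im_pos.ne'
        nlinarith [τ.im_pos]
      | algebraMap x => simp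
      | add x z _ _ hx hz => rw [map_add, map_add, hx, hz]
      | inv x _ hx => rw [map_inv₀, map_inv₀, hx]
      | mul x z _ _ hx hz => rw [map_mul, map_mul, hx, hz]
    have hlt : K < F := by
      refine lt_of_le_of_ne hKF fun e => ?_
      have hdK : (d : Qb) ∈ K := e ▸ IntermediateField.subset_adjoin ℚ _ (Or.inl rfl)
      have hc := Complex.conj_eq_iff_im.1 (hreal _ hdK)
      have h2 := congrArg Complex.re (congrArg ι hdQ)
      simp [pow_two, Complex.mul_re, hc] at h2
      have : (1 : ℝ) ≤ n := by exact_mod_cast hn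
      nlinarith [mul_self_nonneg (ι (d : Qb)).re]
    let _ : Algebra K F := (IntermediateField.inclusion hKF).toRingHom.toAlgebra
    haveI : IsScalarTower ℚ K F := IsScalarTower.of_algebraMap_eq fun _ => rfl
    have hmul := Module.finrank_mul_finrank ℚ K F
    have hne : finrank K F ≠ 1 := fun h1 => by
      rw [h1, mul_one] at hmul
      exact hlt.ne (IntermediateField.eq_of_le_of_finrank_le hKF hmul.ge)
    have hpos : 0 < finrank K F := Nat.pos_of_ne_zero fun h0 => by
      rw [h0, mul_zero] at hmul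
      exact (Module.finrank_pos (R := ℚ) (M := F)).ne hmul
    rw [hdeg, ← hmul, hKdeg, mul_comm]
    exact Nat.mul_le_mul_left _ (by omega)
  · have hv : aeval (jfun σ) H = 0 := by
      rw [hH, minpoly_eq_of_mem hD hu ⟨f, hf, σ, hσ, rfl⟩]
      exact minpoly.aeval ℤ _
    obtain ⟨z, hz, hzH⟩ := hrange _ hv
    exact ⟨⟨z, hLL ▸ hmemG _ (Or.inr hzH)⟩, hz⟩

end FA.RingClassJ

end
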