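import Fermat.Agent.Root.SummaryGenusField
import Fermat.Agent.Tau.RingClassJ
import Mathlib.NumberTheory.Cyclotomic.Gal
import Mathlib.RingTheory.Polynomial.Cyclotomic.Roots

/-!
# The tower of ring class fields of an imaginary quadratic field

With one embedding `ℚ̄ → ℂ` the fields `ℚ(f τ, j(f τ))`, `τ² = -n`, are compared by Bauer's theorem;
a finite subfield of their union lies in one of them, so an abelian one lies in a genus field.
-/

set_option autoImplicit false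
set_option linter.style.haveILetI false

noncomputable section

namespace FA.RingClassTower

open UpperHalfPlane hiding I
open FA.ModField FA.RingClassJ FA.OrderTheta NumberField Module

local notation "Qb" => AlgebraicClosure ℚ

/-- A fixed embedding. -/
def emb : Qb →ₐ[ℚ] ℂ := IsAlgClosed.lift

/-- The ring class field inside `ℂ`. -/
theorem exists_model (n : ℕ) [NeZero n] {τ : ℍ} (hτ : (τ : ℂ) ^ 2 = -(n : ℂ)) :
    ∃ (L : IntermediateField ℚ Qb) (_ : FiniteDimensional ℚ L) (_ : IsGalois ℚ L),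
      L.map emb = IntermediateField.adjoin ℚ {(τ : ℂ), jfun τ} ∧
      ∀ p : ℕ, p.Prime → ¬ p ∣ 6 * n →
        (((Ideal.span {(p : ℤ)}).primesOver (𝓞 L)).ncard = finrank ℚ L ↔
          ∃ x y : ℤ, (p : ℤ) = x ^ 2 + n * y ^ 2) := by
  obtain ⟨L, hfin, hgal, d, hd, hdeg, -, -, hsplit, -⟩ := FA.Summary.ringClassField_order n
  obtain ⟨y, hy, -, hL, -⟩ := eq_adjoin n L d hd hdeg hsplit emb τ hτ
  refine ⟨L, hfin, hgal, ?_, hsplit⟩
  have hιd : emb (d : Qb) = τ ∨ emb (d : Qb) = -τ := sq_eq_sq_iff_eq_or_eq_neg.1 (by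
    rw [hτ, ← map_pow, show (d : Qb) ^ 2 = ((d ^ 2 : L) : Qb) from rfl, hd]
    simp)
  conv_lhs => rw [hL]
  rw [IntermediateField.adjoin_map, Set.image_pair, hy]
  refine le_antisymm (IntermediateField.adjoin_le_iff.2 ?_)
    (IntermediateField.adjoin_le_iff.2 ?_)
  · rintro z (rfl | rfl)
    · rcases hιd with h | h <;> rw [h]
      · exact IntermediateField.subset_adjoin ℚ _ (Or.inl rfl)
      · exact neg_mem (IntermediateField.subset_adjoin ℚ _ (Or.inl rfl))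
    · exact IntermediateField.subset_adjoin ℚ _ (Or.inr rfl)
  · rintro z (rfl | rfl)
    · rcases hιd with h | h
      · exact h ▸ IntermediateField.subset_adjoin ℚ _ (Or.inl rfl)
      · rw [← neg_neg (τ : ℂ), ← h]
        exact neg_mem (IntermediateField.subset_adjoin ℚ _ (Or.inl rfl))
    · exact IntermediateField.subset_adjoin ℚ _ (Or.inr rfl)

/-- **The ring class field of `ℤ[√-n]` lies in that of `ℤ[k √-n]`.** -/
theorem field_le_mul (n k : ℕ) [NeZero n] [NeZero k] {τ σ : ℍ}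
    (hτ : (τ : ℂ) ^ 2 = -(n : ℂ)) (hσ : (σ : ℂ) = (k : ℂ) * τ) :
    IntermediateField.adjoin ℚ {(τ : ℂ), jfun τ} ≤
      IntermediateField.adjoin ℚ {(σ : ℂ), jfun σ} := by
  haveI : NeZero (n * k ^ 2) := ⟨mul_ne_zero (NeZero.ne n) (pow_ne_zero _ (NeZero.ne k))⟩
  have hσ2 : (σ : ℂ) ^ 2 = -((n * k ^ 2 : ℕ) : ℂ) := by
    rw [hσ, mul_pow, hτ]; push_cast; ring
  obtain ⟨L, hfin, hgal, hL, hsplit⟩ := exists_model n hτ
  obtain ⟨L', hfin', hgal', hL', hsplit'⟩ := exists_model (n * k ^ 2) hσ2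
  rw [← hL, ← hL']
  refine IntermediateField.map_mono emb ?_
  rw [FA.Summary.bauer]
  refine (6 * (n * k ^ 2)).divisors.finite_toSet.subset ?_
  rintro q ⟨⟨hq, hs⟩, hnot⟩
  rw [Finset.mem_coe, Nat.mem_divisors]
  refine ⟨?_, mul_ne_zero (by norm_num) (NeZero.ne _)⟩
  by_contra hq6
  obtain ⟨x, y, e⟩ := (hsplit' q hq hq6).1 hs
  refine hnot ⟨hq, (hsplit q hq fun h => hq6 ?_).2 ⟨x, k * y, ?_⟩⟩
  · exact h.trans (mul_dvd_mul_left 6 (dvd_mul_right n _))
  · rw [e]; push_cast; ring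

/-- The tower. -/
def tower (τ : ℍ) : IntermediateField ℚ ℂ :=
  IntermediateField.adjoin ℚ
    ({(τ : ℂ)} ∪ {z : ℂ | ∃ (f : ℕ) (σ : ℍ), (σ : ℂ) = (f : ℂ) * τ ∧ jfun σ = z})

/-- The point `f τ`. -/
def scale (f : ℕ) [NeZero f] (τ : ℍ) : ℍ :=
  ⟨(f : ℂ) * τ, by
    simpa [Complex.mul_im] using mul_pos (Nat.cast_pos.2 (NeZero.pos f) : (0 : ℝ) < f) τ.im_pos⟩

theorem coe_scale (f : ℕ) [NeZero f] (τ : ℍ) : ((scale f τ : ℍ) : ℂ) = (f : ℂ) * τ := rfl

/-- A step of the tower. -/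
def step (f : ℕ) [NeZero f] (τ : ℍ) : IntermediateField ℚ ℂ :=
  IntermediateField.adjoin ℚ {((scale f τ : ℍ) : ℂ), jfun (scale f τ)}

theorem step_le_tower (f : ℕ) [NeZero f] (τ : ℍ) : step f τ ≤ tower τ := by
  refine IntermediateField.adjoin_le_iff.2 ?_
  rintro z (rfl | rfl)
  · rw [SetLike.mem_coe, coe_scale]
    exact mul_mem (natCast_mem _ f) (IntermediateField.subset_adjoin ℚ _ (Or.inl rfl))
  · exact IntermediateField.subset_adjoin ℚ _ (Or.inr ⟨f, _, coe_scale f τ, rfl⟩)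

theorem step_le_step {n : ℕ} [NeZero n] {τ : ℍ} (hτ : (τ : ℂ) ^ 2 = -(n : ℂ)) {f g : ℕ}
    [NeZero f] [NeZero g] (h : g ∣ f) : step g τ ≤ step f τ := by
  obtain ⟨k, rfl⟩ := h
  haveI : NeZero k := ⟨(mul_ne_zero_iff.1 (NeZero.ne (g * k))).2⟩
  haveI : NeZero (n * g ^ 2) := ⟨mul_ne_zero (NeZero.ne n) (pow_ne_zero _ (NeZero.ne g))⟩
  refine field_le_mul (n * g ^ 2) k ?_ ?_
  · rw [coe_scale, mul_pow, hτ]; push_cast; ring
  · rw [coe_scale, coe_scale]; push_cast; ring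

/-- An element of the tower lies in a step. -/
theorem exists_step {n : ℕ} [NeZero n] {τ : ℍ} (hτ : (τ : ℂ) ^ 2 = -(n : ℂ)) {x : ℂ}
    (hx : x ∈ tower τ) : ∃ (f : ℕ) (_ : NeZero f), x ∈ step f τ := by
  have comb : ∀ (a b : ℂ), (∃ (f : ℕ) (_ : NeZero f), a ∈ step f τ) →
      (∃ (f : ℕ) (_ : NeZero f), b ∈ step f τ) →
      ∃ (f : ℕ) (_ : NeZero f), a ∈ step f τ ∧ b ∈ step f τ := by
    rintro a b ⟨f, hf, ha⟩ ⟨g, hg, hb⟩
    exact ⟨f * g, ⟨mul_ne_zero (NeZero.ne f) (NeZero.ne g)⟩,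
      @step_le_step n _ τ hτ (f * g) f ⟨mul_ne_zero (NeZero.ne f) (NeZero.ne g)⟩ hf
        (dvd_mul_right f g) a ha,
      @step_le_step n _ τ hτ (f * g) g ⟨mul_ne_zero (NeZero.ne f) (NeZero.ne g)⟩ hg
        (dvd_mul_left g f) b hb⟩
  induction hx using IntermediateField.adjoin_induction with
  | mem z hz =>
    rcases hz with hz | ⟨f, σ, hσ, rfl⟩
    · refine ⟨1, inferInstance, ?_⟩
      rw [Set.mem_singleton_iff.1 hz]
      have h : ((scale 1 τ : ℍ) : ℂ) ∈ step 1 τ :=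
        IntermediateField.subset_adjoin ℚ _ (Or.inl rfl)
      simpa [coe_scale] using h
    · haveI : NeZero f := ⟨fun h => by
        have := σ.im_pos
        rw [← UpperHalfPlane.coe_im, hσ, h] at this
        simp at this⟩
      refine ⟨f, inferInstance, ?_⟩
      rw [show σ = scale f τ from UpperHalfPlane.ext hσ]
      exact IntermediateField.subset_adjoin ℚ _ (Or.inr rfl)
  | algebraMap x => exact ⟨1, inferInstance, IntermediateField.algebraMap_mem _ x⟩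
  | add x z _ _ hx hz =>
    obtain ⟨f, hf, h1, h2⟩ := comb x z hx hz
    exact ⟨f, hf, add_mem h1 h2⟩
  | inv x _ hx =>
    obtain ⟨f, hf, h1⟩ := hx
    exact ⟨f, hf, inv_mem h1⟩
  | mul x z _ _ hx hz =>
    obtain ⟨f, hf, h1, h2⟩ := comb x z hx hz
    exact ⟨f, hf, mul_mem h1 h2⟩

/-- A finite subfield of the tower lies in a step. -/
theorem le_step {n : ℕ} [NeZero n] {τ : ℍ} (hτ : (τ : ℂ) ^ 2 = -(n : ℂ))
    (F : IntermediateField ℚ ℂ) [FiniteDimensional ℚ F] (hF : F ≤ tower τ) :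
    ∃ (f : ℕ) (_ : NeZero f), F ≤ step f τ := by
  classical
  set b := Module.finBasis ℚ F
  choose g hg hb using fun i => exists_step hτ (hF (b i).2)
  haveI : NeZero (∏ i, g i) := ⟨Finset.prod_ne_zero_iff.2 fun i _ => (hg i).out⟩
  refine ⟨∏ i, g i, inferInstance, fun x hx => ?_⟩
  rw [show x = ((∑ i, b.repr ⟨x, hx⟩ i • b i : F) : ℂ) by rw [b.sum_repr]]
  rw [show ((∑ i, b.repr ⟨x, hx⟩ i • b i : F) : ℂ) = ∑ i, (b.repr ⟨x, hx⟩ i) • ((b i : F) : ℂ) from
    map_sum F.val _ _ |>.trans (Finset.sum_congr rfl fun i _ => rfl)]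
  refine sum_mem fun i _ => IntermediateField.smul_mem _ ?_
  exact @step_le_step n _ τ hτ (∏ i, g i) (g i) inferInstance (hg i)
    (Finset.dvd_prod_of_mem g (Finset.mem_univ i)) _ (hb i)

/-- **An abelian subfield of the tower has exponent two.** -/
theorem sq_eq_one_of_le {n : ℕ} [NeZero n] {τ : ℍ} (hτ : (τ : ℂ) ^ 2 = -(n : ℂ))
    (F : IntermediateField ℚ ℂ) [FiniteDimensional ℚ F] [IsGalois ℚ F]
    (hF : F ≤ tower τ) (hcomm : ∀ a b : F ≃ₐ[ℚ] F, a * b = b * a) (s : F ≃ₐ[ℚ] F) :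
    s * s = 1 := by
  obtain ⟨f, hf, hle⟩ := le_step hτ F hF
  haveI : NeZero (n * f ^ 2) := ⟨mul_ne_zero (NeZero.ne n) (pow_ne_zero _ hf.out)⟩
  have hτ' : ((scale f τ : ℍ) : ℂ) ^ 2 = -((n * f ^ 2 : ℕ) : ℂ) := by
    rw [coe_scale, mul_pow, hτ]; push_cast; ring
  have hgen := (FA.GenusField.genus_data (n * f ^ 2) hτ').2.2.2 F hle hcomm
  obtain ⟨hG, -, -⟩ := FA.Summary.genusField_degree (n * f ^ 2)
  set G : IntermediateField ℚ ℂ := IntermediateField.adjoin ℚ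
    {x : ℂ | ∃ D, FA.GenusField.IsGenusDisc (n * f ^ 2) D ∧ x ^ 2 = (D : ℂ)}
  haveI : IsGalois ℚ G := hG
  haveI : Normal ℚ F := IsGalois.to_normal
  haveI : Normal ℚ G := IsGalois.to_normal
  letI : Algebra F G := (IntermediateField.inclusion hgen).toRingHom.toAlgebra
  haveI : IsScalarTower ℚ F G := IsScalarTower.of_algebraMap_eq fun _ => rfl
  obtain ⟨g, rfl⟩ := AlgEquiv.restrictNormalHom_surjective (F := ℚ) (K₁ := F) (E := G) s
  have e : (g * g).toAlgHom = AlgHom.id ℚ G := by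
    refine IntermediateField.adjoin_algHom_ext ℚ fun x hx => ?_
    obtain ⟨D, hD, hxD⟩ := hx
    set z : G := ⟨x, IntermediateField.subset_adjoin ℚ _ ⟨D, hD, hxD⟩⟩
    have hz : z ^ 2 = (D : G) := Subtype.ext (by push_cast; exact hxD)
    have hpm : g z = z ∨ g z = -z :=
      sq_eq_sq_iff_eq_or_eq_neg.1 (by rw [← map_pow, hz, map_intCast])
    show g (g z) = z
    rcases hpm with h | h <;> simp [h]
  rw [← map_mul, show g * g = 1 from AlgEquiv.ext fun z => DFunLike.congr_fun e z, map_one]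

/-- **Square roots of integers lie in the tower.** -/
theorem sqrt_mem {n : ℕ} [NeZero n] {τ : ℍ} (hτ : (τ : ℂ) ^ 2 = -(n : ℂ)) (D : ℤ) :
    ∀ x : ℂ, x ^ 2 = (D : ℂ) → x ∈ tower τ := by
  have key : ∀ (f : ℕ) [NeZero f] (E : ℤ), FA.GenusField.IsGenusDisc (n * f ^ 2) E →
      ∀ x : ℂ, x ^ 2 = (E : ℂ) → x ∈ tower τ := fun f _ E hE x hx => by
    haveI : NeZero (n * f ^ 2) := ⟨mul_ne_zero (NeZero.ne n) (pow_ne_zero _ (NeZero.ne f))⟩
    have hτ' : ((scale f τ : ℍ) : ℂ) ^ 2 = -((n * f ^ 2 : ℕ) : ℂ) := by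
      rw [coe_scale, mul_pow, hτ]; push_cast; ring
    exact step_le_tower f τ ((FA.GenusField.genus_data (n * f ^ 2) hτ').1
      (IntermediateField.subset_adjoin ℚ _ ⟨E, hE, hx⟩))
  have hmul : ∀ a b : ℤ, (∀ x : ℂ, x ^ 2 = (a : ℂ) → x ∈ tower τ) →
      (∀ x : ℂ, x ^ 2 = (b : ℂ) → x ∈ tower τ) →
      ∀ x : ℂ, x ^ 2 = ((a * b : ℤ) : ℂ) → x ∈ tower τ := fun a b ha hb x hx => by
    obtain ⟨u, hu⟩ := IsAlgClosed.exists_pow_nat_eq (a : ℂ) two_pos
    obtain ⟨v, hv⟩ := IsAlgClosed.exists_pow_nat_eq (b : ℂ) two_pos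
    rcases sq_eq_sq_iff_eq_or_eq_neg.1
      (show x ^ 2 = (u * v) ^ 2 by rw [hx, mul_pow, hu, hv]; push_cast; ring) with e | e <;> rw [e]
    exacts [mul_mem (ha u hu) (hb v hv), neg_mem (mul_mem (ha u hu) (hb v hv))]
  have hneg1 : ∀ x : ℂ, x ^ 2 = ((-1 : ℤ) : ℂ) → x ∈ tower τ :=
    key 2 (-1) (Or.inr (Or.inl ⟨rfl, Or.inl (by omega)⟩))
  have h2 : ∀ x : ℂ, x ^ 2 = ((2 : ℤ) : ℂ) → x ∈ tower τ :=
    key 4 2 (Or.inr (Or.inr (Or.inl ⟨rfl, Or.inl (by omega)⟩)))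
  have hnat : ∀ m : ℕ, ∀ x : ℂ, x ^ 2 = ((m : ℤ) : ℂ) → x ∈ tower τ := by
    refine induction_on_primes ?_ ?_ fun p a hp ha => ?_
    · intro x hx
      obtain rfl : x = 0 := by simpa using hx
      exact zero_mem _
    · intro x hx
      rcases (show x = 1 ∨ x = -1 by simpa using hx) with rfl | rfl
      exacts [one_mem _, neg_mem (one_mem _)]
    rw [Nat.cast_mul]
    refine hmul _ _ ?_ ha
    rcases eq_or_ne p 2 with rfl | hp2
    · simpa using h2
    haveI : NeZero p := ⟨hp.ne_zero⟩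
    have hq := key p (FA.GenusField.qstar p)
      (Or.inl ⟨p, hp, hp2, (dvd_pow_self p two_ne_zero).mul_left n, rfl⟩)
    rcases neg_one_pow_eq_or ℤ (p / 2) with e | e
    · rwa [FA.GenusField.qstar, e, one_mul] at hq
    · intro x hx
      refine hmul _ _ hneg1 hq x ?_
      rw [hx, FA.GenusField.qstar, e]
      push_cast
      ring
  rcases Int.natAbs_eq D with e | e <;> rw [e]
  · exact hnat _
  · intro x hx
    exact hmul _ _ hneg1 (hnat D.natAbs) x (by rw [hx]; push_cast; ring)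

/-- Units modulo `M` are involutions only for `M ∣ 24`. -/
theorem dvd_twentyFour {M : ℕ} [NeZero M] (h : ∀ u : (ZMod M)ˣ, u * u = 1) : M ∣ 24 := by
  obtain ⟨e, m, hm, rfl⟩ := Nat.exists_eq_pow_mul_and_not_dvd (NeZero.ne M) 2 (by norm_num)
  have hm1 : Nat.Coprime 2 m := (Nat.Prime.coprime_iff_not_dvd Nat.prime_two).2 hm
  have hcop : Nat.Coprime (2 ^ e) m := hm1.pow_left e
  obtain ⟨u, hu1, hu2⟩ := Nat.chineseRemainder hcop 3 2
  have hu : u.Coprime (2 ^ e * m) := by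
    refine Nat.Coprime.mul_right ?_ ?_
    · rw [Nat.coprime_iff_gcd_eq_one, hu1.gcd_eq]
      exact (show Nat.Coprime 3 2 by norm_num).pow_right e
    · rw [Nat.coprime_iff_gcd_eq_one, hu2.gcd_eq]
      exact hm1
  have h1 := congrArg Units.val (h (ZMod.unitOfCoprime u hu))
  rw [Units.val_mul, ZMod.coe_unitOfCoprime, Units.val_one, ← Nat.cast_mul, ← Nat.cast_one,
    ZMod.natCast_eq_natCast_iff] at h1
  have h8 : 2 ^ e ∣ 8 := by
    have := ((hu1.mul hu1).symm.trans (h1.of_dvd (dvd_mul_right _ m)))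
    exact (Nat.modEq_iff_dvd' (by norm_num)).1 this.symm
  have h3 : m ∣ 3 := by
    have := ((hu2.mul hu2).symm.trans (h1.of_dvd (dvd_mul_left m _)))
    exact (Nat.modEq_iff_dvd' (by norm_num)).1 this.symm
  exact mul_dvd_mul h8 h3

/-- **The roots of unity of the tower.** -/
theorem rootOfUnity_mem_iff {n : ℕ} [NeZero n] {τ : ℍ} (hτ : (τ : ℂ) ^ 2 = -(n : ℂ)) {M : ℕ}
    [NeZero M] {ζ : ℂ} (hζ : IsPrimitiveRoot ζ M) : ζ ∈ tower τ ↔ M ∣ 24 := by
  refine ⟨fun h => ?_, fun h => ?_⟩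
  · set F : IntermediateField ℚ ℂ := IntermediateField.adjoin ℚ {ζ}
    have halg : IsAlgebraic ℚ ζ := (hζ.isIntegral (NeZero.pos M)).tower_top.isAlgebraic
    haveI : IsCyclotomicExtension {M} ℚ F := by
      change IsCyclotomicExtension {M} ℚ F.toSubalgebra
      rw [IntermediateField.adjoin_simple_toSubalgebra_of_isAlgebraic halg]
      exact hζ.adjoin_isCyclotomicExtension ℚ
    haveI : FiniteDimensional ℚ F := IsCyclotomicExtension.finiteDimensional {M} ℚ F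
    haveI : IsGalois ℚ F := IsCyclotomicExtension.isGalois {M} ℚ F
    let e := IsCyclotomicExtension.autEquivPow F
      (Polynomial.cyclotomic.irreducible_rat (n := M) (NeZero.pos M))
    refine dvd_twentyFour fun u => ?_
    have h2 := sq_eq_one_of_le hτ F (IntermediateField.adjoin_simple_le_iff.2 h)
      (fun a b => e.injective (by rw [map_mul, map_mul, mul_comm])) (e.symm u)
    rw [← e.apply_symm_apply u, ← map_mul, h2, map_one]
  · have h24 : ζ ^ 24 = 1 := (hζ.pow_eq_one_iff_dvd 24).2 h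
    have hI : ∀ x : ℂ, x ^ 2 = -1 → x ∈ tower τ := fun x hx => sqrt_mem hτ (-1) x (by
      push_cast; exact hx)
    have h8 : ∀ x : ℂ, x ^ 8 = 1 → x ∈ tower τ := by
      intro x hx
      obtain ⟨r, hr⟩ := IsAlgClosed.exists_pow_nat_eq (2 : ℂ) two_pos
      have hr0 : r ≠ 0 := fun e => by simp [e] at hr
      have hrm : r ∈ tower τ := sqrt_mem hτ 2 r (by push_cast; exact hr)
      have h4 : x ^ 4 = 1 ∨ x ^ 4 = -1 := sq_eq_one_iff.1 (by rw [← pow_mul]; exact hx)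
      rcases h4 with h4 | h4
      · rcases sq_eq_one_iff.1 (show (x ^ 2) ^ 2 = 1 by rw [← pow_mul]; exact h4) with h2 | h2
        · rcases sq_eq_one_iff.1 h2 with e | e <;> rw [e]
          exacts [one_mem _, neg_mem (one_mem _)]
        · exact hI x h2
      · have hi : x ^ 2 ∈ tower τ := hI _ (by rw [← pow_mul]; exact h4)
        have hsq : (x * r) ^ 2 = (1 + x ^ 2) ^ 2 := by
          rw [mul_pow, hr]
          linear_combination (-1 : ℂ) * h4
        have hxr : x * r ∈ tower τ := by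
          rcases sq_eq_sq_iff_eq_or_eq_neg.1 hsq with e | e <;> rw [e]
          exacts [add_mem (one_mem _) hi, neg_mem (add_mem (one_mem _) hi)]
        rw [← mul_div_cancel_right₀ x hr0]
        exact div_mem hxr hrm
    have h3 : ∀ x : ℂ, x ^ 3 = 1 → x ∈ tower τ := by
      intro x hx
      rcases eq_or_ne x 1 with rfl | h1
      · exact one_mem _
      have hq : x ^ 2 + x + 1 = 0 := by
        have : (x - 1) * (x ^ 2 + x + 1) = 0 := by linear_combination hx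
        exact (mul_eq_zero.1 this).resolve_left (sub_ne_zero.2 h1)
      have hm := sqrt_mem hτ (-3) (2 * x + 1) (by push_cast; linear_combination 4 * hq)
      rw [show x = ((2 * x + 1) - 1) / 2 by ring]
      exact div_mem (sub_mem hm (one_mem _)) (ofNat_mem _ 2)
    rw [show ζ = ζ ^ 9 * ζ ^ 16 by rw [← pow_add, pow_succ, h24, one_mul]]
    exact mul_mem (h8 _ (by rw [← pow_mul, show 9 * 8 = 24 * 3 by rfl, pow_mul, h24, one_pow]))
      (h3 _ (by rw [← pow_mul, show 16 * 3 = 24 * 2 by rfl, pow_mul, h24, one_pow]))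

end FA.RingClassTower

end
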