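import Fermat.Agent.Tau.Picard
import Mathlib.Analysis.Complex.Schwarz
import Mathlib.Analysis.Convex.Contractible

/-!
# The theorems of Landau and Schottky

A function on a disc avoiding `0` and `1728` lifts through `j` to the upper half plane, where the
lemma of Schwarz bounds it by its value at the centre.
-/

set_option autoImplicit false
set_option linter.style.haveILetI false

noncomputable section

namespace FA.Schottky

open UpperHalfPlane hiding I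
open Filter Metric ModularForm FA.ModField FA.Picard
open scoped MatrixGroups Topology ComplexConjugate Modular

/-- Lifting through `j` from a disc. -/
theorem exists_lift {R : ℝ} (hR : 0 < R) {h : ℂ → ℂ} (hd : DifferentiableOn ℂ h (ball 0 R))
    (h0 : ∀ z ∈ ball (0 : ℂ) R, h z ≠ 0) (h1 : ∀ z ∈ ball (0 : ℂ) R, h z ≠ 1728) {e₀ : ℍ}
    (he₀ : jfun e₀ = h 0) :
    ∃ F : ℂ → ℂ, DifferentiableOn ℂ F (ball 0 R) ∧ F 0 = e₀ ∧
      ∀ z ∈ ball (0 : ℂ) R, 0 < (F z).im ∧ (jfun ∘ ofComplex) (F z) = h z := by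
  haveI : ContractibleSpace (ball (0 : ℂ) R) :=
    (convex_ball (0 : ℂ) R).contractibleSpace ⟨0, mem_ball_self hR⟩
  haveI : LocallyPathConnectedSpace (ball (0 : ℂ) R) := isOpen_ball.locallyPathConnectedSpace
  obtain ⟨L, ⟨hL0, hL⟩, -⟩ := isCoveringMapOn_jfun.existsUnique_continuousMap_lifts
    (⟨fun z => h z, hd.continuousOn.domRestrict⟩ : C(ball (0 : ℂ) R, ℂ))
    (a₀ := ⟨0, mem_ball_self hR⟩) he₀ fun a => ⟨h0 a a.2, h1 a a.2⟩
  classical
  let F : ℂ → ℂ := fun z => if hz : z ∈ ball (0 : ℂ) R then (L ⟨z, hz⟩ : ℂ) else (e₀ : ℂ)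
  have hF : ∀ z (hz : z ∈ ball (0 : ℂ) R), F z = (L ⟨z, hz⟩ : ℂ) := fun z hz => dif_pos hz
  have hLz : ∀ a, jfun (L a) = h a := fun a => congrFun hL a
  have hFc : ContinuousOn F (ball 0 R) := by
    rw [continuousOn_iff_continuous_domRestrict]
    have : (ball (0 : ℂ) R).domRestrict F = fun a => (L a : ℂ) := funext fun a => hF a.1 a.2
    rw [this]
    exact UpperHalfPlane.continuous_coe.comp L.continuous
  have hval : ∀ z ∈ ball (0 : ℂ) R, 0 < (F z).im ∧ (jfun ∘ ofComplex) (F z) = h z := fun z hz => by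
    rw [hF z hz]
    exact ⟨(L _).im_pos, by rw [Function.comp_apply, ofComplex_apply, hLz]⟩
  refine ⟨F, fun z hz => ?_, by rw [hF 0 (mem_ball_self hR)]; exact congrArg _ hL0, hval⟩
  set τ := L ⟨z, hz⟩
  have hs : HasStrictDerivAt (jfun ∘ ofComplex) (deriv (jfun ∘ ofComplex) (τ : ℂ)) (τ : ℂ) :=
    (analyticOnNhd_jfun _ τ.im_pos).hasStrictDerivAt
  have hne := deriv_jfun_ne_zero (z := τ) (by rw [hLz]; exact h0 z hz)
    (by rw [hLz]; exact h1 z hz)
  have ht : Tendsto F (𝓝 z) (𝓝 (τ : ℂ)) := by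
    have := (hFc.continuousAt (isOpen_ball.mem_nhds hz)).tendsto
    rwa [hF z hz] at this
  have hev := ht.eventually (hs.eventually_left_inverse hne)
  have hloc := (hs.to_localInverse hne).hasDerivAt.differentiableAt
  rw [Function.comp_apply, ofComplex_apply, hLz] at hloc
  refine ((hloc.comp z (hd.differentiableAt (isOpen_ball.mem_nhds hz))).congr_of_eventuallyEq
    ?_).differentiableWithinAt
  filter_upwards [hev, isOpen_ball.mem_nhds hz] with w hw hwb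
  rw [(hval w hwb).2] at hw
  exact hw.symm

/-- The lift in the coordinate of the disc centred at its first value. -/
def disc (e₀ : ℂ) (F : ℂ → ℂ) (z : ℂ) : ℂ := (F z - e₀) / (F z - conj e₀)

theorem disc_den_ne_zero {e₀ w : ℂ} (he : 0 < e₀.im) (hw : 0 < w.im) : w - conj e₀ ≠ 0 :=
  fun h => by
    have := congrArg Complex.im h
    simp at this
    linarith

theorem norm_disc_le {e₀ w : ℂ} (he : 0 < e₀.im) (hw : 0 < w.im) :
    ‖(w - e₀) / (w - conj e₀)‖ ≤ 1 := by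
  rw [norm_div]
  refine div_le_one_of_le₀ ?_ (norm_nonneg _)
  rw [Complex.norm_def, Complex.norm_def]
  refine Real.sqrt_le_sqrt ?_
  simp [Complex.normSq_apply]
  nlinarith

variable {R : ℝ} {F : ℂ → ℂ} {e₀ : ℂ}

theorem disc_maps (hR : 0 < R) (hF : DifferentiableOn ℂ F (ball 0 R)) (h0 : F 0 = e₀)
    (him : ∀ z ∈ ball (0 : ℂ) R, 0 < (F z).im) :
    DifferentiableOn ℂ (disc e₀ F) (ball 0 R) ∧
      Set.MapsTo (disc e₀ F) (ball 0 R) (closedBall (disc e₀ F 0) 1) := by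
  have he : 0 < e₀.im := h0 ▸ him 0 (mem_ball_self hR)
  refine ⟨(hF.sub_const _).div (hF.sub_const _) fun z hz => disc_den_ne_zero he (him z hz),
    fun z hz => ?_⟩
  rw [mem_closedBall, dist_eq_norm, show disc e₀ F 0 = 0 by simp [disc, h0], sub_zero]
  exact norm_disc_le he (him z hz)

/-- **Landau's bound.** -/
theorem deriv_lift_le (hR : 0 < R) (hF : DifferentiableOn ℂ F (ball 0 R)) (h0 : F 0 = e₀)
    (him : ∀ z ∈ ball (0 : ℂ) R, 0 < (F z).im) : R * ‖deriv F 0‖ ≤ 2 * e₀.im := by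
  obtain ⟨hd, hm⟩ := disc_maps hR hF h0 him
  have h := Complex.norm_deriv_le_div_of_mapsTo_ball hd hm hR
  have he : 0 < e₀.im := h0 ▸ him 0 (mem_ball_self hR)
  have hF0 : DifferentiableAt ℂ F 0 := hF.differentiableAt (isOpen_ball.mem_nhds (mem_ball_self hR))
  have hden := disc_den_ne_zero he he
  have hder : deriv (disc e₀ F) 0 = deriv F 0 / (e₀ - conj e₀) := by
    have := (hF0.hasDerivAt.sub_const e₀).fun_div (hF0.hasDerivAt.sub_const (conj e₀))
      (by rw [h0]; exact hden)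
    refine this.deriv.trans ?_
    rw [h0]
    field_simp
    ring
  have hnorm : ‖e₀ - conj e₀‖ = 2 * e₀.im := by
    rw [Complex.sub_conj, norm_mul, Complex.norm_I, mul_one, Complex.norm_real,
      Real.norm_of_nonneg (by linarith)]
  rw [hder, norm_div, hnorm, div_le_div_iff₀ (by linarith) hR, one_mul] at h
  linarith

/-- **Schwarz's bound.** -/
theorem norm_lift_le (hR : 0 < R) (hF : DifferentiableOn ℂ F (ball 0 R)) (h0 : F 0 = e₀)
    (him : ∀ z ∈ ball (0 : ℂ) R, 0 < (F z).im) {z : ℂ} (hz : z ∈ ball (0 : ℂ) R) :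
    ‖disc e₀ F z‖ ≤ ‖z‖ / R := by
  obtain ⟨hd, hm⟩ := disc_maps hR hF h0 him
  have h := Complex.dist_le_div_mul_dist_of_mapsTo_ball hd hm hz
  rwa [show disc e₀ F 0 = 0 by simp [disc, h0], dist_zero_right, dist_zero_right,
    one_div_mul_eq_div] at h

/-- `j` grows at the cusp. -/
theorem exists_im_bound (B : ℝ) : ∃ A : ℝ, ∀ τ : ℍ, ‖jfun τ‖ ≤ B → τ.im ≤ A := by
  have hE := tendsto_of_hasExp hasExp_E4 fun i hi => ModularCurve.ofPowerSeries_coeff_of_neg _ hi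
  rw [E4_series_zero] at hE
  have h0 : OrdGE 0 (deltaq ℂ) := fun i hi => (deltaq_coeff (R := ℂ)).1 i (by omega)
  have hD := tendsto_of_hasExp hasExp_discriminant h0
  rw [(deltaq_coeff (R := ℂ)).1 0 one_pos] at hD
  have h1 : ∀ᶠ τ in atImInfty, (1 : ℝ) / 2 < ‖E₄ τ ^ 3‖ :=
    ((hE.pow 3).norm).eventually (eventually_gt_nhds (by norm_num))
  have h2 : ∀ᶠ τ in atImInfty, ‖ModularForm.discriminant τ‖ < 1 / (2 * (|B| + 1)) :=
    hD.norm.eventually (eventually_lt_nhds (by rw [norm_zero]; positivity))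
  obtain ⟨A, hA⟩ := (atImInfty_mem _).1 (h1.and h2)
  refine ⟨A, fun τ hτ => le_of_not_gt fun hlt => ?_⟩
  obtain ⟨e1, e2⟩ := hA τ hlt.le
  rw [jfun, norm_div, div_le_iff₀ (norm_pos_iff.2 (ModularForm.discriminant_ne_zero τ))] at hτ
  rw [lt_div_iff₀ (by positivity)] at e2
  nlinarith [le_abs_self B, norm_nonneg (ModularForm.discriminant τ)]

/-- **Schottky's theorem**, for the values `0` and `1728`. -/
theorem schottky_aux (B : ℝ) {θ : ℝ} (hθ1 : θ < 1) :
    ∃ M : ℝ, ∀ h : ℂ → ℂ, DifferentiableOn ℂ h (ball 0 1) →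
      (∀ z ∈ ball (0 : ℂ) 1, h z ≠ 0 ∧ h z ≠ 1728) → ‖h 0‖ ≤ B →
        ∀ z : ℂ, ‖z‖ ≤ θ → ‖h z‖ ≤ M := by
  obtain ⟨A, hA⟩ := exists_im_bound B
  set K : Set ℂ := Set.Icc (-(1 / 2) : ℝ) (1 / 2) ×ℂ Set.Icc (1 / 2 : ℝ) A with hK
  let Ψ : ℂ × ℂ → ℂ := fun q =>
    (jfun ∘ ofComplex) ((q.1 - conj q.1 * q.2) / (1 - q.2))
  have hne : ∀ q ∈ K ×ˢ closedBall (0 : ℂ) θ, 1 - q.2 ≠ 0 ∧
      0 < ((q.1 - conj q.1 * q.2) / (1 - q.2)).im := by
    rintro ⟨e, w⟩ ⟨he, hw⟩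
    rw [mem_closedBall, dist_zero_right] at hw
    have he2 : (1 : ℝ) / 2 ≤ e.im := (Complex.mem_reProdIm.1 he).2.1
    have hw1 : 1 - w ≠ 0 := fun e' => by
      rw [← sub_eq_zero.1 e', norm_one] at hw
      linarith
    refine ⟨hw1, ?_⟩
    have hns : Complex.normSq w < 1 := by
      rw [Complex.normSq_eq_norm_sq]
      nlinarith [norm_nonneg w]
    rw [Complex.div_im, ← sub_div]
    refine div_pos ?_ (Complex.normSq_pos.2 hw1)
    simp only [Complex.normSq_apply] at hns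
    simp
    nlinarith
  have hcont : ContinuousOn Ψ (K ×ˢ closedBall (0 : ℂ) θ) := by
    refine analyticOnNhd_jfun.continuousOn.comp ?_ fun q hq => (hne q hq).2
    exact ((continuous_fst.sub ((Complex.continuous_conj.comp continuous_fst).mul
      continuous_snd)).continuousOn).div (continuous_const.sub continuous_snd).continuousOn
        fun q hq => (hne q hq).1
  obtain ⟨M, hM⟩ := ((isCompact_Icc.reProdIm isCompact_Icc).prod
    (isCompact_closedBall (0 : ℂ) θ)).exists_bound_of_continuousOn hcont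
  refine ⟨M, fun h hd hh h0 z hz => ?_⟩
  obtain ⟨τ₀, hτ₀⟩ := exists_jfun_eq (h 0)
  obtain ⟨g, hg⟩ := ModularGroup.exists_smul_mem_fd τ₀
  set τ := g • τ₀ with hτdef
  have hjτ : jfun τ = h 0 := by rw [hτdef, jfun_smul, hτ₀]
  obtain ⟨F, hFd, hF0, hF⟩ := exists_lift one_pos hd (fun z hz => (hh z hz).1)
    (fun z hz => (hh z hz).2) hjτ
  have hz1 : z ∈ ball (0 : ℂ) 1 := by rw [mem_ball, dist_zero_right]; linarith
  have hw := norm_lift_le one_pos hFd hF0 (fun u hu => (hF u hu).1) hz1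
  rw [div_one] at hw
  have hden := disc_den_ne_zero (e₀ := (τ : ℂ)) τ.im_pos (hF z hz1).1
  have hmem : ((τ : ℂ), disc τ F z) ∈ K ×ˢ closedBall (0 : ℂ) θ := by
    refine ⟨Complex.mem_reProdIm.2 ⟨abs_le.1 hg.2, ?_, hA τ (by rw [hjτ]; exact h0)⟩, ?_⟩
    · show (1 : ℝ) / 2 ≤ τ.im
      nlinarith [ModularGroup.three_le_four_mul_im_sq_of_mem_fd hg, τ.im_pos]
    · rw [mem_closedBall, dist_zero_right]
      exact hw.trans hz
  have heq : ((τ : ℂ) - conj (τ : ℂ) * disc τ F z) / (1 - disc τ F z) = F z := by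
    rw [div_eq_iff (hne _ hmem).1, disc]
    field_simp
    ring
  have := hM _ hmem
  simp only [Ψ, heq] at this
  rwa [(hF z hz1).2] at this

/-- **Landau's theorem**, for the values `0` and `1728`. -/
theorem landau_aux (a₀ : ℂ) :
    ∃ L : ℝ, ∀ (R : ℝ) (h : ℂ → ℂ), 0 < R → DifferentiableOn ℂ h (ball 0 R) →
      (∀ z ∈ ball (0 : ℂ) R, h z ≠ 0 ∧ h z ≠ 1728) → h 0 = a₀ → R * ‖deriv h 0‖ ≤ L := by
  obtain ⟨τ, hτ⟩ := exists_jfun_eq a₀
  refine ⟨‖deriv (jfun ∘ ofComplex) (τ : ℂ)‖ * (2 * τ.im), fun R h hR hd hh h0 => ?_⟩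
  obtain ⟨F, hFd, hF0, hF⟩ := exists_lift hR hd (fun z hz => (hh z hz).1)
    (fun z hz => (hh z hz).2) (hτ.trans h0.symm)
  have hmem := isOpen_ball.mem_nhds (mem_ball_self hR : (0 : ℂ) ∈ ball 0 R)
  have hj : DifferentiableAt ℂ (jfun ∘ ofComplex) (F 0) := by
    rw [hF0]; exact (analyticOnNhd_jfun _ τ.im_pos).differentiableAt
  have hc := hj.hasDerivAt.comp (0 : ℂ) (hFd.differentiableAt hmem).hasDerivAt
  have he : deriv h 0 = deriv (jfun ∘ ofComplex) (F 0) * deriv F 0 :=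
    (hc.congr_of_eventuallyEq (eventually_of_mem hmem fun z hz => (hF z hz).2.symm)).deriv
  have hl := deriv_lift_le hR hFd hF0 fun u hu => (hF u hu).1
  rw [UpperHalfPlane.coe_im] at hl
  rw [he, hF0, norm_mul, mul_left_comm]
  exact mul_le_mul_of_nonneg_left hl (norm_nonneg _)

/-- The affine change sending `a, b` to `0, 1728`. -/
theorem avoid_norm {a b : ℂ} (hab : a ≠ b) {u : ℂ} (ha : u ≠ a) (hb : u ≠ b) :
    (u - a) * (1728 / (b - a)) ≠ 0 ∧ (u - a) * (1728 / (b - a)) ≠ 1728 := by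
  have hba : b - a ≠ 0 := sub_ne_zero.2 hab.symm
  refine ⟨mul_ne_zero (sub_ne_zero.2 ha) (div_ne_zero (by norm_num) hba), fun e => hb ?_⟩
  field_simp at e
  linear_combination e

theorem schottky {a b : ℂ} (hab : a ≠ b) (B : ℝ) {θ : ℝ} (hθ : θ < 1) :
    ∃ M : ℝ, ∀ f : ℂ → ℂ, DifferentiableOn ℂ f (ball 0 1) →
      (∀ z ∈ ball (0 : ℂ) 1, f z ≠ a ∧ f z ≠ b) → ‖f 0‖ ≤ B →
        ∀ z : ℂ, ‖z‖ ≤ θ → ‖f z‖ ≤ M := by
  set c : ℂ := 1728 / (b - a) with hc
  have hc0 : c ≠ 0 := div_ne_zero (by norm_num) (sub_ne_zero.2 hab.symm)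
  obtain ⟨M, hM⟩ := schottky_aux ((B + ‖a‖) * ‖c‖) hθ
  refine ⟨M / ‖c‖ + ‖a‖, fun f hf h hB z hz => ?_⟩
  have := hM (fun u => (f u - a) * c) ((hf.sub_const a).mul_const _)
    (fun u hu => avoid_norm hab (h u hu).1 (h u hu).2)
    (by
      rw [norm_mul]
      exact mul_le_mul_of_nonneg_right ((norm_sub_le _ _).trans (by linarith)) (norm_nonneg _)) z hz
  rw [norm_mul, ← le_div_iff₀ (norm_pos_iff.2 hc0)] at this
  linarith [norm_le_norm_sub_add (f z) a]

theorem landau {a b : ℂ} (hab : a ≠ b) (a₀ : ℂ) :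
    ∃ L : ℝ, ∀ (R : ℝ) (f : ℂ → ℂ), 0 < R → DifferentiableOn ℂ f (ball 0 R) →
      (∀ z ∈ ball (0 : ℂ) R, f z ≠ a ∧ f z ≠ b) → f 0 = a₀ → R * ‖deriv f 0‖ ≤ L := by
  set c : ℂ := 1728 / (b - a) with hc
  have hc0 : c ≠ 0 := div_ne_zero (by norm_num) (sub_ne_zero.2 hab.symm)
  obtain ⟨L, hL⟩ := landau_aux ((a₀ - a) * c)
  refine ⟨L / ‖c‖, fun R f hR hf h h0 => ?_⟩
  have := hL R (fun u => (f u - a) * c) hR ((hf.sub_const a).mul_const _)
    (fun u hu => avoid_norm hab (h u hu).1 (h u hu).2) (by rw [h0])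
  have hd := ((hf.differentiableAt (isOpen_ball.mem_nhds (mem_ball_self hR))).hasDerivAt.sub_const
    a).mul_const c
  rw [hd.deriv, norm_mul] at this
  rw [le_div_iff₀ (norm_pos_iff.2 hc0)]
  linarith

end FA.Schottky

end
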