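import Fermat.Agent.Root.SummarySiegel
import Mathlib.Analysis.Complex.Liouville
import Mathlib.Analysis.Calculus.MeanValue

/-!
# L-functions near the line `re s = 1`

`|L(s, χ)| ≤ |s| (1/ε + 2) q^ε` for `re s ≥ 1 - ε`; with Cauchy's estimate and the mean value
inequality Siegel's theorem gives an interval free of real zeros.
-/

set_option autoImplicit false

noncomputable section

namespace FA.Siegel

open MeasureTheory Filter Topology Metric Complex DirichletCharacter

variable {q : ℕ}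

/-- **The bound near the line.** -/
theorem norm_LFunction_near_one [NeZero q] {χ : DirichletCharacter ℂ q} (hχ : χ ≠ 1) {ε : ℝ}
    (hε : 0 < ε) (hε2 : ε ≤ 1 / 2) {s : ℂ} (hs : 1 - ε ≤ s.re) :
    ‖LFunction χ s‖ ≤ ‖s‖ * ((1 / ε + 2) * (q : ℝ) ^ ε) := by
  have hq : (1 : ℝ) ≤ q := by exact_mod_cast NeZero.one_le
  have hq0 : (0 : ℝ) < q := by linarith
  have hsre : 0 < s.re := by linarith
  have hint := integrable_integrand hχ (s := s) hsre
  rw [lfunction_eq hχ hsre, norm_mul]
  refine mul_le_mul_of_nonneg_left ?_ (norm_nonneg _)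
  rw [tail, ← Set.Ioc_union_Ioi_eq_Ioi hq,
    setIntegral_union (Set.Ioc_disjoint_Ioi le_rfl) measurableSet_Ioi
      (hint.mono_set Set.Ioc_subset_Ioi_self) (hint.mono_set (Set.Ioi_subset_Ioi hq)), add_mul]
  refine (norm_add_le _ _).trans (add_le_add ?_ ?_)
  · have hi : IntervalIntegrable (fun t : ℝ => t ^ (ε - 1)) volume 1 q :=
      intervalIntegral.intervalIntegrable_rpow' (by linarith)
    refine (norm_integral_le_of_norm_le
      ((intervalIntegrable_iff_integrableOn_Ioc_of_le hq).1 hi) ?_).trans ?_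
    · filter_upwards [ae_restrict_mem measurableSet_Ioc] with t ht
      have ht0 : 0 < t := zero_lt_one.trans ht.1
      rw [norm_integrand ht0]
      refine (mul_le_mul_of_nonneg_right (norm_charSum_le_self ht0.le)
        (Real.rpow_nonneg ht0.le _)).trans ?_
      rw [show t * t ^ (-(s.re + 1)) = t ^ (1 + -(s.re + 1)) by
        rw [Real.rpow_add ht0, Real.rpow_one]]
      exact Real.rpow_le_rpow_of_exponent_le ht.1.le (by linarith)
    · rw [← intervalIntegral.integral_of_le hq, integral_rpow (Or.inl (by linarith)),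
        show ε - 1 + 1 = ε by ring, Real.one_rpow, one_div, inv_mul_eq_div]
      exact div_le_div_of_nonneg_right (by linarith) hε.le
  · refine (norm_integral_le_of_norm_le ((integrableOn_Ioi_rpow_of_lt (a := -(s.re + 1))
      (by linarith) hq0).const_mul (q : ℝ)) ?_).trans ?_
    · filter_upwards [ae_restrict_mem measurableSet_Ioi] with t ht
      exact norm_integrand_le hχ (hq0.trans (Set.mem_Ioi.1 ht))
    · rw [integral_const_mul, integral_Ioi_rpow_of_lt (by linarith) hq0,
        show -(s.re + 1) + 1 = -s.re by ring, neg_div_neg_eq, ← mul_div_assoc,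
        div_le_iff₀ hsre]
      calc (q : ℝ) * (q : ℝ) ^ (-s.re) = (q : ℝ) ^ (1 + -s.re) := by
            rw [Real.rpow_add hq0, Real.rpow_one]
        _ ≤ (q : ℝ) ^ ε := Real.rpow_le_rpow_of_exponent_le hq (by linarith)
        _ ≤ 2 * (q : ℝ) ^ ε * s.re := by
            nlinarith [Real.rpow_nonneg hq0.le ε]

/-- The derivative near `1`. -/
theorem norm_deriv_LFunction_le [NeZero q] {χ : DirichletCharacter ℂ q} (hχ : χ ≠ 1) {ε : ℝ}
    (hε : 0 < ε) (hε2 : ε ≤ 1 / 2) {z : ℂ} (hz : z ∈ closedBall (1 : ℂ) (ε / 2)) :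
    ‖deriv (LFunction χ) z‖ ≤ 4 * (1 / ε + 2) / ε * (q : ℝ) ^ ε := by
  rw [mem_closedBall, dist_eq_norm] at hz
  refine (Complex.norm_deriv_le_of_forall_mem_sphere_norm_le (R := ε / 2)
    (C := 2 * ((1 / ε + 2) * (q : ℝ) ^ ε)) (half_pos hε)
    ((differentiable_LFunction hχ).diffContOnCl) fun w hw => ?_).trans (le_of_eq (by
      field_simp; ring))
  rw [mem_sphere_iff_norm] at hw
  have h1 : ‖w - 1‖ ≤ ε := by
    calc ‖w - 1‖ = ‖(w - z) + (z - 1)‖ := by ring_nf
      _ ≤ ε := (norm_add_le _ _).trans (by linarith)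
  have hre := (abs_le.1 ((Complex.abs_re_le_norm (w - 1)).trans h1)).1
  simp at hre
  have hw2 : ‖w‖ ≤ 2 := by
    calc ‖w‖ = ‖(w - 1) + 1‖ := by ring_nf
      _ ≤ 2 := (norm_add_le _ _).trans (by rw [norm_one]; linarith)
  exact (norm_LFunction_near_one hχ hε hε2 (by linarith)).trans
    (mul_le_mul_of_nonneg_right hw2 (by positivity))

/-- **Siegel's zero-free interval** (ineffective). -/
theorem zero_free (ε : ℝ) (hε : 0 < ε) :
    ∃ c : ℝ, 0 < c ∧ ∀ (q : ℕ) [NeZero q] (χ : DirichletCharacter ℂ q), χ ≠ 1 → χ ^ 2 = 1 →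
      ∀ σ : ℝ, 1 - c * (q : ℝ) ^ (-ε) < σ → LFunction χ σ ≠ 0 := by
  set η := min (ε / 2) (1 / 2) with hη
  have hη0 : 0 < η := lt_min (half_pos hε) one_half_pos
  have hη2 : η ≤ 1 / 2 := min_le_right _ _
  have hηε : η ≤ ε / 2 := min_le_left _ _
  obtain ⟨C, hC, h⟩ := siegel η hη0
  set C' := 4 * (1 / η + 2) / η with hC'
  have hC'0 : 0 < C' := by positivity
  refine ⟨min (C / C') (η / 2), lt_min (div_pos hC hC'0) (half_pos hη0),
    fun q _ χ hχ hχ2 σ hσ h0 => ?_⟩
  have hq : (1 : ℝ) ≤ q := by exact_mod_cast NeZero.one_le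
  have hq0 : (0 : ℝ) < q := by linarith
  rcases le_or_gt 1 σ with h1 | h1
  · exact LFunction_ne_zero_of_one_le_re χ (Or.inl hχ) (by simpa using h1) h0
  have hpow : (q : ℝ) ^ (-ε) ≤ 1 := Real.rpow_le_one_of_one_le_of_nonpos hq (by linarith)
  have hball : (σ : ℂ) ∈ closedBall (1 : ℂ) (η / 2) := by
    rw [mem_closedBall, dist_eq_norm, ← Complex.ofReal_one, ← Complex.ofReal_sub,
      Complex.norm_real, Real.norm_eq_abs, abs_of_neg (by linarith)]
    have := mul_le_of_le_one_right (lt_min (div_pos hC hC'0) (half_pos hη0)).le hpow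
    linarith [min_le_right (C / C') (η / 2)]
  have hmv := (convex_closedBall (1 : ℂ) (η / 2)).norm_image_sub_le_of_norm_deriv_le
    (f := LFunction χ) (fun z _ => (differentiable_LFunction hχ) z)
    (fun z hz => norm_deriv_LFunction_le hχ hη0 hη2 hz) hball
    (mem_closedBall_self (half_pos hη0).le)
  rw [h0, sub_zero, ← Complex.ofReal_one, ← Complex.ofReal_sub, Complex.norm_real,
    Real.norm_of_nonneg (by linarith)] at hmv
  have hlo := (h q χ hχ hχ2).trans ((Complex.re_le_norm _).trans (by simpa using hmv))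
  have hd : 1 - σ < C / C' * (q : ℝ) ^ (-ε) := by
    have := mul_le_mul_of_nonneg_right (min_le_left (C / C') (η / 2)) (Real.rpow_nonneg hq0.le (-ε))
    linarith
  have h2 : C' * (q : ℝ) ^ η * (1 - σ) < C * ((q : ℝ) ^ η * (q : ℝ) ^ (-ε)) := by
    calc C' * (q : ℝ) ^ η * (1 - σ) < C' * (q : ℝ) ^ η * (C / C' * (q : ℝ) ^ (-ε)) :=
          mul_lt_mul_of_pos_left hd (mul_pos hC'0 (Real.rpow_pos_of_pos hq0 _))
      _ = C * ((q : ℝ) ^ η * (q : ℝ) ^ (-ε)) := by field_simp
  rw [← Real.rpow_add hq0] at h2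
  have h3 : C * (q : ℝ) ^ (η + -ε) ≤ C * (q : ℝ) ^ (-η) :=
    mul_le_mul_of_nonneg_left (Real.rpow_le_rpow_of_exponent_le hq (by linarith)) hC.le
  rw [← one_div, ← hC'] at hlo
  linarith

end FA.Siegel

end
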