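import Fermat.Agent.Tau.SmallPrimeSystems

/-!
# Systems with values in any field, modulo `5` and `7`

Modulo `5` and `7` the Hasse invariant is `E₄`, `E₆`, so the forms of weight `n` modulo `p` exceed
those of weight `n - (p - 1)` by at most one dimension. Hence over any field of characteristic `p`
the systems of eigenvalues have values in `𝔽_p`, and so do reductions of eigenforms with algebraic
integer coefficients.
-/

set_option autoImplicit false

noncomputable section

open MvPolynomial (monomial)
open PowerSeries (coeff)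
open UpperHalfPlane hiding I
open FA.Tau FA.Eis
open scoped MatrixGroups Manifold ModularForm

namespace FA.SwinnertonDyer

variable {p : ℕ} [Fact p.Prime] {K : Type*} [Field K] [Algebra (ZMod p) K]

local notation "ιK" => PowerSeries.map (algebraMap (ZMod p) K)

variable (p K) in
/-- The span over `K` of a space of series modulo `p`. -/
def spanK (S : Submodule (ZMod p) (PowerSeries (ZMod p))) : Submodule K (PowerSeries K) :=
  Submodule.span K (ιK '' (S : Set (PowerSeries (ZMod p))))

variable (p K) in
/-- The forms of weight `n` with coefficients in `K`. -/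
def specK (n : ℕ) : Submodule K (PowerSeries K) := spanK p K (formSpace p n)

variable (p K) in
/-- `T_l` over `K`. -/
def tOpK (k l : ℕ) : PowerSeries K →ₗ[K] PowerSeries K where
  toFun f := PowerSeries.mk fun m =>
    coeff (m * l) f + if l ∣ m then (l : K) ^ (k + (p - 2)) * coeff (m / l) f else 0
  map_add' f g := by
    ext m
    simp only [PowerSeries.coeff_mk, map_add]
    split_ifs <;> ring
  map_smul' c f := by
    ext m
    simp only [PowerSeries.coeff_mk, PowerSeries.coeff_smul, RingHom.id_apply, smul_eq_mul]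
    split_ifs <;> ring

theorem tOpK_map (k l : ℕ) (f : PowerSeries (ZMod p)) :
    tOpK p K k l (ιK f) = ιK (tOp p k l f) := by
  ext m
  simp only [tOpK, LinearMap.coe_mk, AddHom.coe_mk, PowerSeries.coeff_mk, PowerSeries.coeff_map,
    coeff_tOp, map_add, apply_ite (algebraMap (ZMod p) K), map_mul, map_pow, map_natCast, map_zero]

theorem tOpK_congr {k k' l : ℕ} (hl : l.Prime) (hlp : l ≠ p) (h : k ≡ k' [MOD p - 1]) :
    tOpK p K k l = tOpK p K k' l := by
  refine LinearMap.ext fun f => PowerSeries.ext fun m => ?_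
  simp only [tOpK, LinearMap.coe_mk, AddHom.coe_mk, PowerSeries.coeff_mk]
  rw [show (l : K) = algebraMap (ZMod p) K (l : ZMod p) from (map_natCast _ l).symm, ← map_pow,
    ← map_pow, pow_eq_pow_of_modEq (h.add_right (p - 2))
      (ZMod.pow_card_sub_one_eq_one (natCast_prime_ne hl hlp))]

theorem map_smul_series (c : ZMod p) (x : PowerSeries (ZMod p)) :
    ιK (c • x) = algebraMap (ZMod p) K c • ιK x := by
  ext m
  simp [Algebra.smul_def]

/-- A series modulo `p` in the span over `K` of a space lies in the space. -/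
theorem mem_of_map_mem_spanK {S : Submodule (ZMod p) (PowerSeries (ZMod p))}
    {x : PowerSeries (ZMod p)} (hx : ιK x ∈ spanK p K S) : x ∈ S := by
  obtain ⟨π, hπ⟩ := (Algebra.linearMap (ZMod p) K).exists_leftInverse_of_injective
    (LinearMap.ker_eq_bot.2 (algebraMap (ZMod p) K).injective)
  have hmul : ∀ c t, π (c * algebraMap (ZMod p) K t) = π c * t := fun c t => by
    rw [mul_comm, ← Algebra.smul_def, map_smul, smul_eq_mul, mul_comm]
  have key : ∀ y ∈ spanK p K S, ∀ c : K, (PowerSeries.mk fun m => π (c * coeff m y)) ∈ S := by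
    intro y hy
    induction hy using Submodule.span_induction with
    | mem y hy =>
      obtain ⟨v, hv, rfl⟩ := hy
      intro c
      convert S.smul_mem (π c) hv using 1
      ext m
      simp [hmul]
    | zero =>
      intro c
      convert S.zero_mem using 1
      ext m
      simp
    | add y z _ _ hy hz =>
      intro c
      convert S.add_mem (hy c) (hz c) using 1
      ext m
      simp [mul_add]
    | smul d y _ hy =>
      intro c
      convert hy (c * d) using 1
      ext m
      simp [mul_assoc]
  convert key _ hx 1 using 1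
  ext m
  rw [PowerSeries.coeff_mk, one_mul, PowerSeries.coeff_map]
  exact (LinearMap.congr_fun hπ (coeff m x)).symm

theorem phi_monomial (d : Fin 2 →₀ ℕ) (c : ZMod p) :
    phi p (monomial d c) = c • (e4 p ^ d 0 * e6 p ^ d 1) := by
  rw [monomial_eq_mul, PowerSeries.smul_eq_C_mul]
  simp [phi]

/-- Modulo `5` and `7` the weight `n` adds at most one dimension to the weight `n - (p - 1)`. -/
theorem exists_top (h5 : 5 ≤ p) (h7 : p ≤ 7) (n : ℕ) :
    ∃ x ∈ formSpace p n, formSpace p n ≤
      (if p - 1 ≤ n then formSpace p (n - (p - 1)) else ⊥) ⊔ Submodule.span (ZMod p) {x} := by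
  have hp : p.Prime := Fact.out
  obtain ⟨i, hi, hA⟩ : ∃ i : Fin 2, (![4, 6] i = p - 1) ∧ ![e4 p, e6 p] i = 1 := by
    rcases (show p = 5 ∨ p = 7 by interval_cases p <;> first | omega | norm_num at hp) with
      rfl | rfl
    · refine ⟨0, rfl, ?_⟩
      have h := phi_hassePoly (p := 5) h5
      rw [eq_C_mul_monomial (a := 1) (b := 0) h5 rfl (by norm_num)] at h
      simpa [phi] using h
    · refine ⟨1, rfl, ?_⟩
      have h := phi_hassePoly (p := 7) h5
      rw [eq_C_mul_monomial (a := 0) (b := 1) h5 rfl (by norm_num)] at h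
      simpa [phi] using h
  have hmem : ∀ (a b : ℕ), e4 p ^ a * e6 p ^ b ∈ formSpace p (4 * a + 6 * b) := fun a b => by
    rw [mem_formSpace h5]
    convert isFormModP_phi (isob_monomial (p := p) a b) using 1
    simp [phi]
  let top : PowerSeries (ZMod p) :=
    if i = 0 then (if 6 ∣ n then e6 p ^ (n / 6) else 0) else if 4 ∣ n then e4 p ^ (n / 4) else 0
  refine ⟨top, ?_, ?_⟩
  · simp only [top]
    split_ifs with h1 h2 h2
    · simpa [Nat.mul_div_cancel' h2] using hmem 0 (n / 6)
    · exact zero_mem _
    · simpa [Nat.mul_div_cancel' h2] using hmem (n / 4) 0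
    · exact zero_mem _
  intro f hf
  obtain ⟨F, hF, rfl⟩ := hf
  change phi p F ∈ _
  induction (show Isob F n from hF) using MvPolynomial.IsWeightedHomogeneous.induction_on with
  | zero => rw [map_zero]; exact zero_mem _
  | add a b ha hb iha ihb => rw [map_add]; exact add_mem (iha ha) (ihb hb)
  | monomial d c hd =>
    rw [weight_eq] at hd
    rw [phi_monomial]
    refine Submodule.smul_mem _ _ ?_
    fin_cases i
    · simp only [Fin.zero_eta, Matrix.cons_val_zero] at hi hA
      rcases Nat.eq_zero_or_pos (d 0) with h0 | h0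
      · refine Submodule.mem_sup_right (Submodule.mem_span_singleton.2 ⟨1, ?_⟩)
        simp [top, h0, show 6 ∣ n by omega, show n / 6 = d 1 by omega]
      · refine Submodule.mem_sup_left ?_
        rw [if_pos (by omega), hA, one_pow, one_mul]
        convert hmem (d 0 - 1) (d 1) using 2
        · omega
        · rw [hA, one_pow, one_mul]
    · simp only [Fin.mk_one, Matrix.cons_val_one, Matrix.cons_val_fin_one] at hi hA
      rcases Nat.eq_zero_or_pos (d 1) with h0 | h0
      · refine Submodule.mem_sup_right (Submodule.mem_span_singleton.2 ⟨1, ?_⟩)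
        simp [top, h0, show 4 ∣ n by omega, show n / 4 = d 0 by omega]
      · refine Submodule.mem_sup_left ?_
        rw [if_pos (by omega), hA, one_pow, mul_one]
        convert hmem (d 0) (d 1 - 1) using 2
        · omega
        · rw [hA, one_pow, mul_one]

/-- **Values in `𝔽_p`**: over any field of characteristic `p`, modulo `5` and `7`. -/
theorem exists_eigen_of_field (h5 : 5 ≤ p) (h7 : p ≤ 7) (n : ℕ) {a : ℕ → K}
    {f : PowerSeries K} (hf : f ∈ specK p K n) (hf0 : f ≠ 0)
    (he : ∀ l, l.Prime → l ≠ p → tOpK p K n l f = a l • f) :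
    ∃ k b g, IsEigen p k b g ∧ ∀ l, l.Prime → l ≠ p → a l = algebraMap (ZMod p) K (b l) := by
  induction n using Nat.strong_induction_on with
  | _ n ih =>
    obtain ⟨x, hxn, hle⟩ := exists_top (p := p) h5 h7 n
    set low := if p - 1 ≤ n then formSpace p (n - (p - 1)) else ⊥
    have hmod : p - 1 ≤ n → n - (p - 1) ≡ n [MOD p - 1] := fun h =>
      (Nat.modEq_iff_dvd' (by omega)).2 ⟨1, by omega⟩
    have hlowT : ∀ l, l.Prime → l ≠ p → ∀ z ∈ low, tOp p n l z ∈ low := fun l hl hlp z hz => by
      simp only [low] at hz ⊢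
      split_ifs at hz ⊢ with h
      · rw [mem_formSpace h5] at hz ⊢
        rw [← tOp_congr hl hlp (hmod h)]
        exact hz.tOp h5 hl hlp
      · rw [Submodule.mem_bot] at hz ⊢
        rw [hz, map_zero]
    have hdown : f ∈ spanK p K low →
        ∃ k b g, IsEigen p k b g ∧ ∀ l, l.Prime → l ≠ p → a l = algebraMap (ZMod p) K (b l) :=
      fun h => by
      simp only [low] at h
      split_ifs at h with hn
      · refine ih _ (by omega) h fun l hl hlp => ?_
        rw [tOpK_congr hl hlp (hmod hn), he l hl hlp]
      · simp [spanK] at h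
        exact absurd h hf0
    have hdec : ∃ y ∈ spanK p K low, ∃ c : K, f = y + c • ιK x := by
      have h : specK p K n ≤ spanK p K low ⊔ Submodule.span K {ιK x} := by
        refine Submodule.span_le.2 ?_
        rintro _ ⟨v, hv, rfl⟩
        obtain ⟨u, hu, w, hw, rfl⟩ := Submodule.mem_sup.1 (hle hv)
        obtain ⟨t, rfl⟩ := Submodule.mem_span_singleton.1 hw
        rw [map_add, map_smul_series]
        exact add_mem (Submodule.mem_sup_left (Submodule.subset_span ⟨u, hu, rfl⟩))
          (Submodule.mem_sup_right (Submodule.smul_mem _ _ (Submodule.mem_span_singleton_self _)))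
      obtain ⟨y, hy, w, hw, e⟩ := Submodule.mem_sup.1 (h hf)
      obtain ⟨c, rfl⟩ := Submodule.mem_span_singleton.1 hw
      exact ⟨y, hy, c, e.symm⟩
    obtain ⟨y, hy, c, rfl⟩ := hdec
    by_cases hxlow : x ∈ low
    · exact hdown (add_mem hy (Submodule.smul_mem _ _ (Submodule.subset_span ⟨x, hxlow, rfl⟩)))
    by_cases hc : c = 0
    · exact hdown (by simpa [hc] using hy)
    have hcoef : ∀ l, l.Prime → l ≠ p → ∃ t : ZMod p,
        tOp p n l x - t • x ∈ low ∧ a l = algebraMap (ZMod p) K t := fun l hl hlp => by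
      obtain ⟨u, hu, w, hw, e⟩ := Submodule.mem_sup.1
        (hle ((mem_formSpace h5).2 (((mem_formSpace h5).1 hxn).tOp h5 hl hlp)))
      obtain ⟨t, rfl⟩ := Submodule.mem_span_singleton.1 hw
      refine ⟨t, by rw [← e, add_sub_cancel_right]; exact hu, ?_⟩
      have hy' : tOpK p K n l y ∈ spanK p K low := by
        refine (Submodule.span_le.2 ?_ : spanK p K low ≤ (spanK p K low).comap (tOpK p K n l)) hy
        rintro _ ⟨v, hv, rfl⟩
        exact Submodule.mem_comap.2 (by
          rw [tOpK_map]; exact Submodule.subset_span ⟨_, hlowT l hl hlp v hv, rfl⟩)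
      have h := he l hl hlp
      rw [map_add, map_smul, tOpK_map, ← e, map_add, map_smul_series] at h
      by_contra hne
      have hmem : (c * (algebraMap (ZMod p) K t - a l)) • ιK x ∈ spanK p K low := by
        rw [show (c * (algebraMap (ZMod p) K t - a l)) • ιK x =
            a l • y - tOpK p K n l y - c • ιK u by
          linear_combination (norm := module) h]
        exact sub_mem (sub_mem (Submodule.smul_mem _ _ hy) hy')
          (Submodule.smul_mem _ _ (Submodule.subset_span ⟨u, hu, rfl⟩))
      exact hxlow (mem_of_map_mem_spanK ((Submodule.smul_mem_iff _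
        (mul_ne_zero hc (sub_ne_zero.2 fun e' => hne e'.symm))).1 hmem))
    choose! b hb hab using hcoef
    have := finite_formSpace (p := p) n
    let s : {l : ℕ // l.Prime ∧ l ≠ p} → PowerSeries (ZMod p) →ₗ[ZMod p] PowerSeries (ZMod p) :=
      fun l => tOp p n l.1 - b l.1 • LinearMap.id
    have hcomm : ∀ l m z, s l (s m z) = s m (s l z) := fun l m z => by
      simp only [s, LinearMap.sub_apply, LinearMap.smul_apply, LinearMap.id_apply, map_sub,
        map_smul, tOp_comm n l.2.1 m.2.1 z, smul_sub, smul_smul, mul_comm (b l.1)]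
      abel
    obtain ⟨g, hg, hg0, hgs⟩ := exists_common_kernel (V := formSpace p n) (N := low) s hcomm
      (fun l z hz => sub_mem ((mem_formSpace h5).2 (((mem_formSpace h5).1 hz).tOp h5 l.2.1 l.2.2))
        (Submodule.smul_mem _ _ hz))
      (fun l z hz _ => sub_mem (hlowT l.1 l.2.1 l.2.2 z hz) (Submodule.smul_mem _ _ hz))
      hxn hxlow (fun l => hb l.1 l.2.1 l.2.2)
    exact ⟨n, b, g, ⟨hg0, (mem_formSpace h5).1 hg, fun l hl hlp =>
      sub_eq_zero.1 (by simpa [s] using hgs ⟨l, hl, hlp⟩)⟩, hab⟩

/-- A form with coefficients in a subring of `ℂ` reduces by `ψ` into the forms over `K`. -/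
theorem map_mem_specK (h5 : 5 ≤ p) {O : Subalgebra ℤ ℂ} (ψ : O →+* K) :
    ∀ (n : ℕ) (f : ℍ → ℂ) (S : PowerSeries O),
      (∀ γ : SL(2, ℤ), f ∣[(n : ℤ)] γ = f) → HasQ 1 f (S.map O.val.toRingHom) →
      S.map ψ ∈ specK p K n := by
  intro n
  have hcomp : ∀ T : PowerSeries ℤ, (T.map (algebraMap ℤ O)).map ψ =
      ιK (T.map (Int.castRingHom (ZMod p))) ∧
        (T.map (algebraMap ℤ O)).map O.val.toRingHom = T.map (Int.castRingHom ℂ) := fun T => by
    constructor <;> ext m <;> simp
  induction n using Nat.strong_induction_on with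
  | _ n ih =>
    intro f S hinv hS
    have hzero : f = 0 → S.map ψ ∈ specK p K n := fun e => by
      have : S = 0 := by
        have h0 := (e ▸ hS : HasQ 1 0 (S.map O.val.toRingHom)).eq_zero_of_fun one_pos
        ext i
        simpa using congrArg (PowerSeries.coeff i) h0
      simp [this]
    by_cases hex : ∃ a b, 4 * a + 6 * b = n
    swap
    · set F := FA.ModField.levelOneForm f hinv (hS.mdiff one_pos) (hS.bdd one_pos)
      have hspan := FA.LevelOneRing.mem_span (n + 1) _ (by push_cast; omega) F
      have : IsEmpty {q : ℕ × ℕ // 4 * (q.1 : ℤ) + 6 * q.2 = (n : ℤ)} :=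
        ⟨fun q => hex ⟨q.1.1, q.1.2, by have := q.2; omega⟩⟩
      rw [Set.range_eq_empty, Submodule.span_empty, Submodule.mem_bot] at hspan
      have hf : f = 0 := hspan
      exact hzero hf
    obtain ⟨a, b, hab⟩ := hex
    set s₀ : O := PowerSeries.coeff 0 S
    set g : ℍ → ℂ := ⇑ModularForm.E₄ ^ a * ⇑ModularForm.E₆ ^ b
    set g' : PowerSeries O := (eFourInt ^ a * eSixInt ^ b).map (algebraMap ℤ O)
    have hg : HasQ 1 g (g'.map O.val.toRingHom) := by
      rw [(hcomp _).2, map_mul, map_pow, map_pow]
      exact (hasQ_eFour.pow one_pos a).mul one_pos (hasQ_eSix.pow one_pos b)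
    set T := S - PowerSeries.C s₀ * g'
    have hT : HasQ 1 (f - (s₀ : ℂ) • g) (T.map O.val.toRingHom) := by
      rw [map_sub, map_mul, PowerSeries.map_C, ← PowerSeries.smul_eq_C_mul]
      exact hS.sub (hg.smul _)
    have hTinv : ∀ γ : SL(2, ℤ), (f - (s₀ : ℂ) • g) ∣[(n : ℤ)] γ = f - (s₀ : ℂ) • g := fun γ => by
      rw [sub_eq_add_neg, SlashAction.add_slash, SlashAction.neg_slash, ModularForm.SL_smul_slash,
        hinv γ]
      congr 3
      refine (FA.ModField.slash_eq_iff_smul γ).2 fun z => ?_
      simp only [g, Pi.mul_apply, Pi.pow_apply]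
      rw [FA.ModField.E4_smul, FA.LevelOneRing.E6_smul, mul_pow, mul_pow, ← hab]
      push_cast
      rw [zpow_add₀ (denom_ne_zero _ _), zpow_mul, zpow_mul, zpow_natCast, zpow_natCast]
      ring
    have hg0 : PowerSeries.coeff 0 g' = 1 := by
      have h4 : PowerSeries.constantCoeff eFourInt = 1 := by
        rw [← PowerSeries.coeff_zero_eq_constantCoeff_apply]; simp [eFourInt]
      have h6 : PowerSeries.constantCoeff eSixInt = 1 := by
        rw [← PowerSeries.coeff_zero_eq_constantCoeff_apply]; simp [eSixInt]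
      rw [PowerSeries.coeff_map, PowerSeries.coeff_zero_eq_constantCoeff_apply, map_mul, map_pow,
        map_pow, h4, h6, one_pow, one_pow, one_mul, map_one]
    have hT0 : PowerSeries.coeff 0 T = 0 := by
      rw [map_sub, PowerSeries.coeff_C_mul, hg0, mul_one, sub_self]
    have hmain : (PowerSeries.C s₀ * g').map ψ ∈ specK p K n := by
      rw [map_mul, PowerSeries.map_C, (hcomp _).1, ← PowerSeries.smul_eq_C_mul]
      refine Submodule.smul_mem _ _ (Submodule.subset_span ⟨_, ?_, rfl⟩)
      rw [SetLike.mem_coe, mem_formSpace h5, ← hab]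
      convert isFormModP_phi (isob_monomial (p := p) a b) using 1
      simp [phi, e4, e6]
    rw [show S = PowerSeries.C s₀ * g' + T from (add_sub_cancel _ _).symm, map_add]
    refine add_mem hmain ?_
    by_cases hn : n < 12
    · have hz := series_eq_zero hn hTinv hT (by rw [PowerSeries.coeff_map, hT0, map_zero])
      have hT' : T = 0 := PowerSeries.ext fun i => by
        simpa using congrArg (PowerSeries.coeff i) hz
      simp [hT']
    set F := FA.ModField.levelOneForm (f - (s₀ : ℂ) • g) hTinv (hT.mdiff one_pos) (hT.bdd one_pos)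
    have hFc : (qExpansion 1 ⇑F).coeff 0 = 0 := by
      rw [show qExpansion 1 ⇑F = T.map O.val.toRingHom from hT.qExpansion_eq one_pos,
        PowerSeries.coeff_map, hT0, map_zero]
    set F₁ := CuspForm.discriminantEquiv (ModularForm.toCuspForm F hFc)
    obtain ⟨W, hW⟩ : PowerSeries.X ∣ T := PowerSeries.X_dvd_iff.2
      (by rwa [← PowerSeries.coeff_zero_eq_constantCoeff_apply])
    set u : PowerSeries O := ModularCurve.dedekindEtaUnit.map (algebraMap ℤ O)
    set S₁ := W * u.invOfUnit 1
    set D : PowerSeries O := deltaInt.map (algebraMap ℤ O)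
    have hTS : T = D * S₁ := by
      have := PowerSeries.mul_invOfUnit u 1
        (by rw [← PowerSeries.coeff_zero_eq_constantCoeff_apply, PowerSeries.coeff_map,
              PowerSeries.coeff_zero_eq_constantCoeff_apply,
              ModularCurve.constantCoeff_dedekindEtaUnit, map_one]; rfl)
      rw [show D = PowerSeries.X * u by simp [D, u, deltaInt], hW,
        show PowerSeries.X * u * S₁ = PowerSeries.X * W * (u * u.invOfUnit 1) by ring, this,
        mul_one]
    have hS1 : HasQ 1 ⇑F₁ (S₁.map O.val.toRingHom) := by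
      have h1 := FA.Tau.hasQ_discriminant.mul one_pos (hasQ_form F₁)
      rw [show ModularForm.discriminant * ⇑F₁ = f - (s₀ : ℂ) • g from funext fun z =>
        ModularForm.discriminant_mul_discriminantEquiv_apply (ModularForm.toCuspForm F hFc) z] at h1
      have h2 := HasQ.unique one_pos h1 hT
      rw [hTS, map_mul, (hcomp _).2] at h2
      rw [← mul_left_cancel₀ (fun e => by
        have := congrArg (PowerSeries.coeff 1) e
        simp [PowerSeries.coeff_map, coeff_deltaInt_one] at this) h2]
      exact hasQ_form F₁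
    have h := ih (n - 12) (by omega) ⇑F₁ S₁ (fun γ => by
      rw [show ((n - 12 : ℕ) : ℤ) = (n : ℤ) - 12 by omega]
      exact F₁.slash_action_eq' _ ⟨γ, rfl⟩) hS1
    rw [hTS, map_mul, (hcomp _).1]
    refine (Submodule.span_le.2 ?_ : specK p K (n - 12) ≤ (specK p K n).comap
      (LinearMap.mulLeft K (ιK (deltaInt.map (Int.castRingHom (ZMod p)))))) h
    rintro _ ⟨v, hv, rfl⟩
    obtain ⟨G, hG, rfl⟩ := hv
    refine Submodule.subset_span ⟨_, ?_, map_mul _ _ _⟩
    rw [SetLike.mem_coe, mem_formSpace h5,
      show deltaInt.map (Int.castRingHom (ZMod p)) * (phi p).toLinearMap G =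
        phi p (MvPolynomial.C ((1728 : ZMod p)⁻¹) *
          ((MvPolynomial.X 0 ^ 3 - MvPolynomial.X 1 ^ 2) * G)) by
      rw [map_mul (phi p), map_mul (phi p),
        show phi p (MvPolynomial.X 0 ^ 3 - MvPolynomial.X 1 ^ 2) = e4 p ^ 3 - e6 p ^ 2 by
          simp [phi], ← delta_p,
        show phi p (MvPolynomial.C ((1728 : ZMod p)⁻¹)) = PowerSeries.C ((1728 : ZMod p)⁻¹) by
          simp [phi, PowerSeries.algebraMap_eq],
        show (1728 : PowerSeries (ZMod p)) = PowerSeries.C 1728 from (map_ofNat _ 1728).symm,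
        ← mul_assoc, ← mul_assoc, ← map_mul, inv_mul_cancel₀ ?_, map_one, one_mul]
      · rfl
      · rw [show (1728 : ZMod p) = 2 ^ 6 * 3 ^ 3 by norm_num]
        exact mul_ne_zero (pow_ne_zero _ (ne_two_three h5).1) (pow_ne_zero _ (ne_two_three h5).2)]
    refine isFormModP_phi ?_
    have hD : Isob (MvPolynomial.X 0 ^ 3 - MvPolynomial.X 1 ^ 2 : MvPolynomial (Fin 2) (ZMod p))
        12 := ((MvPolynomial.isWeightedHomogeneous_X (ZMod p) wts 0).pow 3).sub
      ((MvPolynomial.isWeightedHomogeneous_X (ZMod p) wts 1).pow 2)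
    refine MvPolynomial.IsWeightedHomogeneous.C_mul ?_ _
    convert hD.mul hG using 1
    omega

end FA.SwinnertonDyer

end
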