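import Fermat.Agent.Tau.EigenSystems
import Fermat.Agent.Partition.FiltrationArgument

/-!
# The systems of eigenvalues modulo small primes

A level one eigenform modulo `p` with non-zero constant term has the system `1 + l^(k - 1)`;
those with constant term zero and weight at most `16` are multiples of `Δ` or `E₄ Δ`. As every
system is a twist of one of weight at most `p + 1`, or `16` for `p = 13`, this lists them all.
-/

set_option autoImplicit false

noncomputable section

open PowerSeries (coeff)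

namespace FA.SwinnertonDyer

variable {p : ℕ} [Fact p.Prime]

/-- A cusp form modulo `p` of weight at most `16` is a multiple of `Δ` or `E₄ Δ`. -/
theorem cusp_weight_le_sixteen (h5 : 5 ≤ p) {n : ℕ} (hn : n ≤ 16) {f : PowerSeries (ZMod p)}
    (hf : IsFormModP p n f) (hf0 : f ≠ 0) (h0 : PowerSeries.constantCoeff f = 0) :
    ∃ c : ZMod p, c ≠ 0 ∧
      (n = 12 ∧ f = PowerSeries.C c * FA.Tau.deltaInt.map (Int.castRingHom (ZMod p)) ∨
        n = 16 ∧ f = PowerSeries.C c *
          (FA.Tau.eFourInt * FA.Tau.deltaInt).map (Int.castRingHom (ZMod p))) := by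
  obtain ⟨F, hF, rfl⟩ := hf.exists_isob h5
  have hd : PowerSeries.X ^ 1 ∣ phi p F := by rw [pow_one]; exact PowerSeries.X_dvd_iff.2 h0
  rcases FA.Partition.eq_pow_mul h5 hF hd with rfl | ⟨G, hn12, hG, rfl⟩
  · simp at hf0
  have hG0 : G ≠ 0 := fun e => hf0 (by simp [e])
  have hcases : n = 12 ∨ n = 16 := by
    by_contra hne
    refine hG0 ?_
    ext d
    rw [hG.coeff_eq_zero d fun hd => ?_, MvPolynomial.coeff_zero]
    rw [weight_eq] at hd
    omega
  have hpre : phi p ((MvPolynomial.X 0 ^ 3 - MvPolynomial.X 1 ^ 2) ^ 1 * G) =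
      PowerSeries.C 1728 * FA.Tau.deltaInt.map (Int.castRingHom (ZMod p)) * phi p G := by
    rw [pow_one, map_mul, show phi p (MvPolynomial.X 0 ^ 3 - MvPolynomial.X 1 ^ 2) =
      e4 p ^ 3 - e6 p ^ 2 by simp [phi], ← delta_p,
      show (1728 : PowerSeries (ZMod p)) = PowerSeries.C 1728 from (map_ofNat _ 1728).symm]
  rcases hcases with rfl | rfl
  · obtain ⟨b, rfl⟩ : ∃ b, G = MvPolynomial.C b := ⟨_, isob_zero_eq_C (by simpa using hG)⟩
    have he : phi p (MvPolynomial.C b) = PowerSeries.C b := by simp [phi]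
    refine ⟨1728 * b, fun e => hf0 ?_, Or.inl ⟨rfl, ?_⟩⟩
    · rw [hpre, he, mul_right_comm, ← map_mul, e, map_zero, zero_mul]
    · rw [hpre, he, map_mul]; ring
  · obtain ⟨b, rfl⟩ : ∃ b, G = MvPolynomial.C b * MvPolynomial.X 0 := by
      refine ⟨G.coeff (Finsupp.single 0 1), ?_⟩
      ext d
      by_cases hd : d = Finsupp.single 0 1
      · subst hd
        simp [MvPolynomial.coeff_C_mul, MvPolynomial.coeff_X]
      · rw [MvPolynomial.coeff_C_mul, MvPolynomial.coeff_X, if_neg (Ne.symm hd), mul_zero,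
          hG.coeff_eq_zero d fun h => hd (Finsupp.ext fun i => ?_)]
        rw [weight_eq] at h
        fin_cases i <;> simp <;> omega
    have he : phi p (MvPolynomial.C b * MvPolynomial.X 0) = PowerSeries.C b * e4 p := by simp [phi]
    refine ⟨1728 * b, fun e => hf0 ?_, Or.inr ⟨rfl, ?_⟩⟩
    · rw [hpre, he, show PowerSeries.C (1728 : ZMod p) *
          FA.Tau.deltaInt.map (Int.castRingHom (ZMod p)) * (PowerSeries.C b * e4 p) =
          PowerSeries.C (1728 * b) * (FA.Tau.deltaInt.map (Int.castRingHom (ZMod p)) * e4 p) by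
        rw [map_mul]; ring, e, map_zero, zero_mul]
    · rw [hpre, he, map_mul, map_mul, e4]
      ring

/-- **The list.** Up to the twist, a system is Eisenstein, the one of `Δ`, or that of `E₄ Δ`. -/
theorem small_prime_systems (h5 : 5 ≤ p) (h13 : p ≤ 13) {k : ℕ} {a : ℕ → ZMod p}
    {f : PowerSeries (ZMod p)} (hf : IsEigen p k a f) :
    (∃ i j : ℕ, ∀ l, l.Prime → l ≠ p → a l = (l : ZMod p) ^ i + (l : ZMod p) ^ j) ∨
      (11 ≤ p ∧ ∃ i : ℕ, ∀ l, l.Prime → l ≠ p →
        a l = (l : ZMod p) ^ i * ((coeff l FA.Tau.deltaInt : ℤ) : ZMod p)) ∨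
      (p = 13 ∧ ∃ i : ℕ, ∀ l, l.Prime → l ≠ p →
        a l = (l : ZMod p) ^ i * ((coeff l (FA.Tau.eFourInt * FA.Tau.deltaInt) : ℤ) : ZMod p)) := by
  obtain ⟨i, n, b, g, hn, ⟨hg0, hgn, hge⟩, hab⟩ := exists_twist h5 hf
  have heq : ∀ l, l.Prime → l ≠ p → ∀ m, coeff (m * l) g + (if l ∣ m then
      (l : ZMod p) ^ (n + (p - 2)) * coeff (m / l) g else 0) = b l * coeff m g :=
    fun l hl hlp m => by
    have h := congrArg (coeff m) (hge l hl hlp)
    rwa [coeff_tOp, PowerSeries.coeff_smul, smul_eq_mul] at h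
  by_cases h0 : PowerSeries.constantCoeff g = 0
  swap
  · refine Or.inl ⟨i, i + (n + (p - 2)), fun l hl hlp => ?_⟩
    have h := heq l hl hlp 0
    rw [zero_mul, if_pos (dvd_zero l), Nat.zero_div,
      PowerSeries.coeff_zero_eq_constantCoeff_apply] at h
    have hb : b l = 1 + (l : ZMod p) ^ (n + (p - 2)) :=
      mul_right_cancel₀ h0 (by rw [← h]; ring)
    rw [hab l hl hlp, hb, pow_add]
    ring
  obtain ⟨c, hc, hcases⟩ := cusp_weight_le_sixteen h5 (by omega) hgn hg0 h0
  have hsys : ∀ S : PowerSeries ℤ, coeff 1 S = 1 →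
      g = PowerSeries.C c * S.map (Int.castRingHom (ZMod p)) →
      ∀ l, l.Prime → l ≠ p → a l = (l : ZMod p) ^ i * ((coeff l S : ℤ) : ZMod p) :=
    fun S hS hgS l hl hlp => by
    have h := heq l hl hlp 1
    rw [one_mul, if_neg hl.not_dvd_one, add_zero, hgS, PowerSeries.coeff_C_mul,
      PowerSeries.coeff_C_mul, PowerSeries.coeff_map, PowerSeries.coeff_map, hS, map_one, mul_one,
      eq_intCast, mul_comm (b l)] at h
    rw [hab l hl hlp, mul_left_cancel₀ hc h]
  rcases hcases with ⟨rfl, he⟩ | ⟨rfl, he⟩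
  · refine Or.inr (Or.inl ⟨?_, i, hsys _ ?_ he⟩)
    · have := (Fact.out : p.Prime)
      rcases Nat.lt_or_ge p 11 with h | h
      · interval_cases p <;> omega
      · exact h
    · exact FA.Tau.coeff_deltaInt_one
  · refine Or.inr (Or.inr ⟨?_, i, hsys _ ?_ he⟩)
    · have := (Fact.out : p.Prime)
      interval_cases p <;> omega
    · rw [PowerSeries.coeff_mul, Finset.Nat.antidiagonal_succ, Finset.sum_cons,
        Finset.Nat.antidiagonal_zero]
      simp [FA.Tau.coeff_deltaInt_one, FA.Tau.coeff_deltaInt_zero, FA.Tau.eFourInt]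

end FA.SwinnertonDyer

end
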