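import Fermat.Agent.Tau.SingularConjugate
import Fermat.Agent.Tau.JBound
import Fermat.Agent.Tau.Schottky
import Mathlib.NumberTheory.Modular

/-!
# Singular moduli on a line with root of unity slope

In the fundamental domain `|j(τ) - 1/q| ≤ K`. For singular moduli `z, w` of discriminants `-N`,
`-N'` with `N' ≤ N` a conjugation makes `|z|` about `exp (π √N)`; the conjugate of `w` is then about
`exp (π √N')` or at most `exp (π √N / 2) + K`, unless `w = z`. So `z + ζ w` is large for large `N`.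
-/

set_option autoImplicit false
set_option linter.style.haveILetI false

noncomputable section

namespace FA.SpecialPoints

open UpperHalfPlane hiding I
open FA.ModField
open FA.Singular hiding IsRoot
open scoped Real Modular

/-- `‖1/q‖ = exp (2π im τ)`. -/
theorem norm_qp_inv (τ : ℍ) : ‖(qp 1 τ)⁻¹‖ = Real.exp (2 * π * τ.im) := by
  rw [norm_inv, qp_eq, Complex.norm_exp, ← Real.exp_neg]
  congr 1
  simp

/-- **`j` is within a constant of `1/q`** in the fundamental domain. -/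
theorem exists_approx : ∃ K : ℝ, 0 ≤ K ∧ ∀ τ : ℍ, τ ∈ 𝒟 → ‖jfun τ - (qp 1 τ)⁻¹‖ ≤ K := by
  have hc : Continuous fun τ : ℍ => jfun τ - (qp 1 τ)⁻¹ := by
    refine Continuous.sub ?_ (Continuous.inv₀ ?_ (qp_ne_zero 1))
    · refine (FA.Picard.analyticOnNhd_jfun.continuousOn.comp_continuous
        UpperHalfPlane.continuous_coe fun τ => τ.im_pos).congr fun τ => ?_
      exact congrArg jfun (UpperHalfPlane.ofComplex_apply τ)
    · exact Continuous.congr
        (f := fun τ : ℍ => Complex.exp (2 * π * Complex.I * (τ : ℂ) / ((1 : ℕ) : ℂ)))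
        (by fun_prop) fun τ => (qp_eq 1 τ).symm
  obtain ⟨M, hM⟩ :=
    (ModularGroup.isCompact_truncatedFundamentalDomain 1).exists_bound_of_continuousOn
      hc.continuousOn
  set E₀ := Real.exp (2 * π) with hE₀
  set T := Real.exp (-(2 * π))
  set R := |984 * E₀ ^ 3 - E₀ ^ 4 - 196884 * E₀ ^ 2 - 21493760 * E₀|
  refine ⟨max M (R + 744 + 196884 + 21493760), le_max_of_le_right (by positivity),
    fun τ hτ => ?_⟩
  rcases le_or_gt τ.im 1 with h | h
  · exact (hM τ ⟨hτ, h⟩).trans (le_max_left _ _)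
  refine le_max_of_le_right ?_
  set t := ‖qp 1 τ‖
  have ht0 : 0 < t := norm_pos_iff.2 (qp_ne_zero 1 τ)
  have ht1 : t ≤ 1 := (norm_qp_lt_one 1 τ).le
  have hle : t ≤ Real.exp (-(2 * π)) := by
    rw [show t = (‖(qp 1 τ)⁻¹‖)⁻¹ by rw [norm_inv, inv_inv], norm_qp_inv, ← Real.exp_neg,
      Real.exp_le_exp]
    nlinarith [Real.pi_pos]
  have h3 := FA.JBound.norm_tail_le (z := τ) rfl ht0 hle hE₀
  have e : jfun τ - (qp 1 τ)⁻¹ =
      (jfun τ - ((qp 1 τ)⁻¹ + 744 + 196884 * qp 1 τ + 21493760 * qp 1 τ ^ 2)) +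
        744 + 196884 * qp 1 τ + 21493760 * qp 1 τ ^ 2 := by ring
  rw [e]
  refine (norm_add_le _ _).trans (add_le_add ((norm_add_le _ _).trans (add_le_add
    ((norm_add_le _ _).trans (add_le_add (h3.trans ?_) ?_)) ?_)) ?_)
  · exact (mul_le_mul_of_nonneg_left (le_abs_self _) (by positivity)).trans
      (mul_le_of_le_one_left (abs_nonneg _) (pow_le_one₀ ht0.le ht1))
  · simp
  · rw [norm_mul, Complex.norm_ofNat]
    exact mul_le_of_le_one_right (by norm_num) ht1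
  · rw [norm_mul, Complex.norm_ofNat, norm_pow]
    exact mul_le_of_le_one_right (by norm_num) (pow_le_one₀ ht0.le ht1)

theorem root_mem_fd {t : ℤ × ℤ × ℤ} {D : ℤ} (ht : t ∈ Red D) {τ : ℍ}
    (hr : FA.Singular.IsRoot t τ) :
    τ ∈ 𝒟 ∧ 2 * π * τ.im = π * √(-(D : ℝ)) / t.1 := by
  obtain ⟨a, b, c⟩ := t
  obtain ⟨hd, -, ha, hb, hc, -⟩ := ht
  simp only at hd ha hb hc ⊢
  obtain ⟨hre, hns⟩ := root_re_normSq hr
  simp only at hre hns
  have haR : (0 : ℝ) < a := Int.cast_pos.2 ha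
  have hbR : |(b : ℝ)| ≤ a := by exact_mod_cast hb
  have hcR : (a : ℝ) ≤ c := by exact_mod_cast hc
  refine ⟨⟨?_, ?_⟩, ?_⟩
  · nlinarith
  · obtain ⟨h1, h2⟩ := abs_le.1 hbR
    exact abs_le.2 ⟨by nlinarith, by nlinarith⟩
  · have hs : √(-(D : ℝ)) = 2 * a * τ.im := by
      rw [Complex.normSq_apply] at hns
      simp only [UpperHalfPlane.coe_re, UpperHalfPlane.coe_im] at hre hns
      rw [← hd, show -(((b ^ 2 - 4 * a * c : ℤ)) : ℝ) = (2 * a * τ.im) ^ 2 by
        push_cast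
        linear_combination (-4 * (a : ℝ)) * hns + (2 * (a : ℝ) * τ.re - b) * hre,
        Real.sqrt_sq (by have := τ.im_pos; positivity)]
    rw [hs]
    field_simp

/-- The form with first coefficient `1`. -/
theorem exists_principal {D : ℤ} (hD : D % 4 = 0 ∨ D % 4 = 1) (hD0 : D < 0) :
    ∃ b c : ℤ, (1, b, c) ∈ Red D := by
  rcases hD with h | h
  · refine ⟨0, -D / 4, show _ ^ 2 - _ = D by simp; omega, by simp, one_pos, by simp,
      show (1 : ℤ) ≤ -D / 4 by omega, fun _ => le_rfl⟩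
  · refine ⟨1, (1 - D) / 4, show _ ^ 2 - _ = D by simp; omega, by simp, one_pos, by simp,
      show (1 : ℤ) ≤ (1 - D) / 4 by omega, fun _ => zero_le_one⟩

theorem eq_of_first_one {D : ℤ} {b c b' c' : ℤ} (h : (1, b, c) ∈ Red D) (h' : (1, b', c') ∈ Red D) :
    (1, b, c) = ((1, b', c') : ℤ × ℤ × ℤ) := by
  obtain ⟨hd, -, -, hb, -, hbd⟩ := h
  obtain ⟨hd', -, -, hb', -, hbd'⟩ := h'
  simp only at hd hb hbd hd' hb' hbd'
  have e1 : 0 ≤ b := by
    by_contra hneg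
    have := hbd (Or.inl (by rw [abs_of_neg (not_le.1 hneg)]; have := abs_le.1 hb; omega))
    omega
  have e2 : 0 ≤ b' := by
    by_contra hneg
    have := hbd' (Or.inl (by rw [abs_of_neg (not_le.1 hneg)]; have := abs_le.1 hb'; omega))
    omega
  have := abs_le.1 hb
  have := abs_le.1 hb'
  obtain rfl | rfl : b = 0 ∨ b = 1 := by omega
  all_goals obtain rfl | rfl : b' = 0 ∨ b' = 1 := by omega
  all_goals simp only [Prod.mk.injEq, true_and]
  all_goals omega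

/-- The gap between `exp (π √N)` and the smaller values. -/
theorem exists_gap (K : ℝ) : ∃ N₀ : ℕ, ∀ N : ℕ, N₀ ≤ N →
    K < Real.exp (π * √(N : ℝ)) - Real.exp (π * √((N : ℝ) - 1)) ∧
      K < Real.exp (π * √(N : ℝ)) - Real.exp (π * √(N : ℝ) / 2) := by
  refine ⟨⌈(|K| + 2) ^ 2⌉₊ + 1, fun N hN => ?_⟩
  have hN1 : (1 : ℝ) ≤ N := by exact_mod_cast le_trans (Nat.le_add_left 1 _) hN
  have hNK : (|K| + 2) ^ 2 ≤ (N : ℝ) :=
    (Nat.le_ceil _).trans (by exact_mod_cast le_trans (Nat.le_add_right _ 1) hN)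
  set x := π * √(N : ℝ) with hx
  have hs : |K| + 2 ≤ √(N : ℝ) := Real.le_sqrt_of_sq_le hNK
  have hsq := Real.sq_sqrt (show (0 : ℝ) ≤ N by positivity)
  have hx2 : |K| + 2 ≤ x := by nlinarith [Real.pi_gt_three, abs_nonneg K]
  have hexp := Real.quadratic_le_exp_of_nonneg (show 0 ≤ x by positivity)
  refine ⟨?_, ?_⟩
  · set y := π * √((N : ℝ) - 1)
    have hy : x - y ≥ π / (2 * √(N : ℝ)) := by
      have hy2 := Real.sq_sqrt (show (0 : ℝ) ≤ (N : ℝ) - 1 by linarith)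
      have hle : √((N : ℝ) - 1) ≤ √(N : ℝ) := Real.sqrt_le_sqrt (by linarith)
      have h6 : 1 ≤ (√(N : ℝ) - √((N : ℝ) - 1)) * (2 * √(N : ℝ)) := by nlinarith
      have h7 := mul_le_mul_of_nonneg_left h6 Real.pi_pos.le
      rw [ge_iff_le, div_le_iff₀ (by positivity), hx, ← mul_sub]
      linarith
    have h1 : Real.exp x - Real.exp y ≥ Real.exp x * (x - y) / (1 + (x - y)) := by
      have hd : 0 ≤ x - y := le_trans (by positivity) hy
      have h2 := Real.add_one_le_exp (x - y)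
      have h3 : Real.exp x = Real.exp y * Real.exp (x - y) := by
        rw [← Real.exp_add]; ring_nf
      rw [ge_iff_le, div_le_iff₀ (by linarith), h3]
      nlinarith [Real.exp_pos y]
    refine lt_of_lt_of_le (b := √(N : ℝ)) ?_ (le_trans ?_ h1)
    · exact lt_of_le_of_lt (le_abs_self K) (show |K| < √(N : ℝ) by linarith)
    · rw [le_div_iff₀ (by linarith [show 0 ≤ x - y from le_trans (by positivity) hy])]
      have hden : 0 < 2 * √(N : ℝ) := by linarith [abs_nonneg K]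
      have h4 : π ≤ (x - y) * (2 * √(N : ℝ)) := (div_le_iff₀ hden).1 hy
      have hd : 0 ≤ x - y := le_trans (by positivity) hy
      have h5 : 4 * (N : ℝ) ≤ Real.exp x := by
        nlinarith [Real.pi_gt_three, abs_nonneg K,
          mul_self_le_mul_self (show (0 : ℝ) ≤ 3 by norm_num) Real.pi_gt_three.le]
      have h8 := mul_le_mul_of_nonneg_right h5 hd
      have hs1 : 1 ≤ √(N : ℝ) := by linarith [abs_nonneg K]
      have h9 : π * √(N : ℝ) ≤ 2 * (N : ℝ) * (x - y) := by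
        have := mul_le_mul_of_nonneg_right h4 (Real.sqrt_nonneg (N : ℝ))
        calc π * √(N : ℝ) ≤ (x - y) * (2 * √(N : ℝ)) * √(N : ℝ) := this
          _ = 2 * (√(N : ℝ) ^ 2) * (x - y) := by ring
          _ = 2 * (N : ℝ) * (x - y) := by rw [hsq]
      have h10 : √(N : ℝ) * (x - y) ≤ (N : ℝ) * (x - y) :=
        mul_le_mul_of_nonneg_right (by nlinarith) hd
      nlinarith [Real.pi_gt_three, mul_nonneg hd (show (0 : ℝ) ≤ (N : ℝ) by positivity)]
  · have h1 : Real.exp x = Real.exp (x / 2) * Real.exp (x / 2) := by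
      rw [← Real.exp_add]; ring_nf
    have h2 := Real.add_one_le_exp (x / 2)
    rw [h1]
    nlinarith [le_abs_self K, abs_nonneg K]

/-- The set of the singular moduli. -/
def special : Set ℂ := {z | ∃ D : ℤ, D < 0 ∧ z ∈ values D}

theorem exists_aut {D : ℤ} (hD : D < 0) {z u : ℂ} (hz : z ∈ values D) (hu : u ∈ values D) :
    ∃ σ : ℂ ≃+* ℂ, σ z = u := by
  have hi := isIntegral_values hD hz
  refine exists_aut_of_root hi.tower_top ?_
  rw [minpoly.isIntegrallyClosed_eq_field_fractions' ℚ hi, Polynomial.aeval_map_algebraMap,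
    minpoly_eq_of_mem hD hz hu]
  exact minpoly.aeval ℤ _

theorem disc_mod_four_of_mem {D : ℤ} {z : ℂ} (hz : z ∈ values D) : D % 4 = 0 ∨ D % 4 = 1 := by
  obtain ⟨⟨a, b, c⟩, ⟨hd, -⟩, -⟩ := hz
  simp only at hd
  rw [← hd]
  rcases Int.even_or_odd' b with ⟨k, rfl | rfl⟩
  · left; ring_nf; omega
  · right; ring_nf; omega

/-- **The larger discriminant is bounded.** -/
theorem exists_disc_bound (B : ℝ) : ∃ N₀ : ℕ, ∀ (D D' : ℤ) (z w ζ : ℂ) (m : ℕ),
    D < 0 → D' < 0 → -D' ≤ -D → z ∈ values D → w ∈ values D' → 0 < m → ζ ^ m = 1 → z ≠ w →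
      (∀ σ : ℂ ≃+* ℂ, ‖σ (z + ζ * w)‖ ≤ B) → -D < (N₀ : ℤ) := by
  obtain ⟨K, hK0, hK⟩ := exists_approx
  obtain ⟨N₀, hN⟩ := exists_gap (B + 2 * K)
  refine ⟨N₀, fun D D' z w ζ m hD hD' hle hz hw hm hζ hne hB => not_le.1 fun hge => ?_⟩
  obtain ⟨N, rfl⟩ : ∃ N : ℕ, D = -(N : ℤ) := ⟨D.natAbs, by omega⟩
  obtain ⟨hN1, hN2⟩ := hN N (by omega)
  obtain ⟨b, c, hp⟩ := exists_principal (disc_mod_four_of_mem hz) hD
  obtain ⟨τ, hτ⟩ := exists_isRoot (t := (1, b, c)) one_pos (hp.1.trans_lt hD)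
  obtain ⟨σ, hσ⟩ := exists_aut hD hz (show jfun τ ∈ values _ from ⟨_, hp, τ, hτ, rfl⟩)
  have hi := isIntegral_values hD' hw
  have hroot : Polynomial.aeval (σ w) (minpoly ℤ w) = 0 := by
    rw [show σ w = (σ : ℂ →+* ℂ).toIntAlgHom w from rfl, Polynomial.aeval_algHom_apply,
      minpoly.aeval, map_zero]
  obtain ⟨⟨a', b', c'⟩, hf', τ', hτ', hw'⟩ := root_mem_values hD' hw hroot
  obtain ⟨hfd, him⟩ := root_mem_fd hp hτ
  obtain ⟨hfd', him'⟩ := root_mem_fd hf' hτ'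
  have hz1 := (norm_sub_norm_le (qp 1 τ)⁻¹ (jfun τ)).trans
    ((norm_sub_rev _ _).le.trans (hK τ hfd))
  have hw1 := (norm_sub_norm_le (jfun τ') (qp 1 τ')⁻¹).trans (hK τ' hfd')
  have hsum := hB σ
  rw [map_add, map_mul, hσ, ← hw'] at hsum
  have hz2 := norm_sub_norm_le (jfun τ) (-(σ ζ * jfun τ'))
  rw [sub_neg_eq_add, norm_neg, norm_mul,
    Complex.norm_eq_one_of_pow_eq_one (ζ := σ ζ) (n := m) (by rw [← map_pow, hζ, map_one]) hm.ne',
    one_mul] at hz2
  rw [norm_qp_inv, him] at hz1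
  rw [norm_qp_inv, him'] at hw1
  push_cast at hz1 hw1
  rw [neg_neg, div_one] at hz1
  have hle' : (-(D' : ℝ)) ≤ N := by
    have : -D' ≤ (N : ℤ) := by omega
    exact_mod_cast this
  have ha' : 1 ≤ a' := hf'.2.2.1
  rcases eq_or_lt_of_le ha' with h1 | h1
  · obtain rfl : a' = 1 := h1.symm
    rcases eq_or_ne D' (-(N : ℤ)) with hDD | hDD
    · subst hDD
      obtain ⟨rfl, rfl⟩ : b = b' ∧ c = c' := by simpa using eq_of_first_one hp hf'
      rw [root_unique one_ne_zero hτ hτ', hw'] at hσ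
      exact hne (σ.injective hσ)
    · have h2 : π * √(-(D' : ℝ)) / ((1 : ℤ) : ℝ) ≤ π * √((N : ℝ) - 1) := by
        rw [Int.cast_one, div_one]
        refine mul_le_mul_of_nonneg_left (Real.sqrt_le_sqrt ?_) Real.pi_pos.le
        have : -D' ≤ (N : ℤ) - 1 := by omega
        exact_mod_cast this
      have := Real.exp_le_exp.2 h2
      push_cast at this
      linarith
  · have h2 : π * √(-(D' : ℝ)) / (a' : ℝ) ≤ π * √(N : ℝ) / 2 := by
      have h3 : (2 : ℝ) ≤ a' := by exact_mod_cast h1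
      refine div_le_div₀ (by positivity) (mul_le_mul_of_nonneg_left (Real.sqrt_le_sqrt hle')
        Real.pi_pos.le) two_pos h3
    have := Real.exp_le_exp.2 h2
    linarith

/-- **Finitely many special points on `z + ζ w = A`.** -/
theorem finite_line {ζ A : ℂ} {m : ℕ} (hm : 0 < m) (hζ : ζ ^ m = 1) (hne : ¬ (ζ = -1 ∧ A = 0)) :
    {p : ℂ × ℂ | p.1 ∈ special ∧ p.2 ∈ special ∧ p.1 + ζ * p.2 = A}.Finite := by
  set S := {p : ℂ × ℂ | p.1 ∈ special ∧ p.2 ∈ special ∧ p.1 + ζ * p.2 = A}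
  rcases S.eq_empty_or_nonempty with hS | ⟨⟨z₀, w₀⟩, ⟨D₁, hD₁, hz₀⟩, ⟨D₂, hD₂, hw₀⟩, hA⟩
  · rw [hS]; exact Set.finite_empty
  have hζ0 : ζ ≠ 0 := fun h => by simp [h, zero_pow hm.ne'] at hζ
  have hζi : IsIntegral ℚ ζ := IsIntegral.of_pow hm (by rw [hζ]; exact isIntegral_one)
  have hAi : IsIntegral ℚ A := hA ▸ (isIntegral_values hD₁ hz₀).tower_top.add
    (hζi.mul (isIntegral_values hD₂ hw₀).tower_top)
  have hbd : ∀ x : ℂ, IsIntegral ℚ x → ∃ B : ℝ, ∀ σ : ℂ ≃+* ℂ, ‖σ x‖ ≤ B := fun x hx => by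
    obtain ⟨B, hB⟩ := (((minpoly ℚ x).rootSet_finite ℂ).image norm).bddAbove
    refine ⟨B, fun σ => hB ⟨σ x, ?_, rfl⟩⟩
    rw [Polynomial.mem_rootSet]
    refine ⟨minpoly.ne_zero hx, ?_⟩
    rw [show σ x = (σ : ℂ →+* ℂ).toRatAlgHom x from rfl, Polynomial.aeval_algHom_apply,
      minpoly.aeval, map_zero]
  obtain ⟨B, hB⟩ := hbd A hAi
  obtain ⟨B', hB'⟩ := hbd (ζ⁻¹ * A) (hζi.inv.mul hAi)
  obtain ⟨N₀, hN⟩ := exists_disc_bound (max B B')
  have hdiag : {p : ℂ × ℂ | p ∈ S ∧ p.1 = p.2}.Finite := by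
    refine Set.Subsingleton.finite ?_
    rintro ⟨z, w⟩ ⟨⟨-, -, h1⟩, rfl : z = w⟩ ⟨z', w'⟩ ⟨⟨-, -, h2⟩, rfl : z' = w'⟩
    simp only at h1 h2
    have hz : z = z' := by
      by_contra hzz
      have h3 : (1 + ζ) * (z - z') = 0 := by linear_combination h1 - h2
      have h4 : ζ = -1 := by
        linear_combination (mul_eq_zero.1 h3).resolve_right (sub_ne_zero.2 hzz)
      exact hne ⟨h4, by rw [← h1, h4]; ring⟩
    rw [hz]
  have hV : (⋃ D ∈ Set.Ioo (-(N₀ : ℤ)) 0, values D).Finite :=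
    (Set.finite_Ioo _ _).biUnion fun D _ => (values_finite_card D).1
  refine (hdiag.union ((hV.image fun z => (z, ζ⁻¹ * (A - z))).union
    (hV.image fun w => (A - ζ * w, w)))).subset ?_
  rintro ⟨z, w⟩ ⟨⟨D, hD, hz⟩, ⟨D', hD', hw⟩, h⟩
  simp only at hz hw h
  rcases eq_or_ne z w with e | e
  · exact Or.inl ⟨⟨⟨D, hD, hz⟩, ⟨D', hD', hw⟩, h⟩, e⟩
  refine Or.inr ?_
  rcases le_total (-D') (-D) with hl | hl
  · have := hN D D' z w ζ m hD hD' hl hz hw hm hζ e fun σ => by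
      rw [h]; exact (hB σ).trans (le_max_left _ _)
    exact Or.inl ⟨z, Set.mem_biUnion ⟨by omega, hD⟩ hz, by
      rw [← h]; simp [hζ0]⟩
  · have := hN D' D w z ζ⁻¹ m hD' hD hl hw hz hm (by rw [inv_pow, hζ, inv_one]) e.symm fun σ => by
      rw [show w + ζ⁻¹ * z = ζ⁻¹ * A by rw [← h]; field_simp; ring]
      exact (hB' σ).trans (le_max_right _ _)
    exact Or.inr ⟨w, Set.mem_biUnion ⟨by omega, hD'⟩ hw, by rw [← h]; simp⟩

end FA.SpecialPoints

end
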