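import Fermat.Agent.Tau.SpecialPointsLine
import Mathlib.Analysis.Analytic.IsolatedZeros

/-!
# Singular moduli with a given `z ^ m w ^ n`

In the fundamental domain `j` vanishes only at `ρ` and `ρ + 1`, to a finite order `k`, and a root of
a reduced form of discriminant `-N` other than these is at distance at least `1 / (4 N)` from both.
So a non-zero singular modulus is at least `c N ^ (-k)`, while a conjugate of the one with the
larger discriminant is about `exp (π √N)`.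
-/

set_option autoImplicit false
set_option linter.style.haveILetI false

noncomputable section

namespace FA.SpecialPoints

open UpperHalfPlane hiding I
open Filter Topology Metric
open FA.ModField
open FA.Singular hiding IsRoot
open scoped Real Modular MatrixGroups

theorem continuous_jfun_uhp : Continuous fun τ : ℍ => jfun τ :=
  (FA.Picard.analyticOnNhd_jfun.continuousOn.comp_continuous
    UpperHalfPlane.continuous_coe fun τ => τ.im_pos).congr
      fun τ => congrArg jfun (UpperHalfPlane.ofComplex_apply τ)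

theorem coe_T_inv_smul (τ : ℍ) :
    (((ModularGroup.T⁻¹ : SL(2, ℤ)) • τ : ℍ) : ℂ) = (τ : ℂ) - 1 := by
  rw [← zpow_neg_one, UpperHalfPlane.modular_T_zpow_smul, UpperHalfPlane.coe_vadd]
  push_cast
  ring

/-- `j` vanishes to finite order at `ρ`. -/
theorem exists_local_lower : ∃ (k : ℕ) (r c : ℝ), 0 < r ∧ 0 < c ∧ ∀ τ : ℍ,
    ‖(τ : ℂ) - rho‖ < r → c * ‖(τ : ℂ) - rho‖ ^ k ≤ ‖jfun τ‖ := by
  have hU : IsPreconnected {z : ℂ | 0 < z.im} := (convex_halfSpace_im_gt 0).isPreconnected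
  have han := FA.Picard.analyticOnNhd_jfun (rho : ℂ) rho.im_pos
  have hne : ¬ ∀ᶠ z in 𝓝 (rho : ℂ), (jfun ∘ ofComplex) z = 0 := fun h => by
    have h1 := FA.Picard.analyticOnNhd_jfun.eqOn_zero_of_preconnected_of_eventuallyEq_zero hU
      rho.im_pos h (x := (UpperHalfPlane.I : ℂ)) UpperHalfPlane.I.im_pos
    rw [Function.comp_apply, UpperHalfPlane.ofComplex_apply, jfun_I] at h1
    norm_num at h1
  obtain ⟨k, g, hg, hg0, hev⟩ := han.exists_eventuallyEq_pow_smul_nonzero_iff.2 hne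
  have hgev : ∀ᶠ z in 𝓝 (rho : ℂ), ‖g (rho : ℂ)‖ / 2 < ‖g z‖ :=
    hg.continuousAt.norm.eventually (eventually_gt_nhds (half_lt_self (norm_pos_iff.2 hg0)))
  obtain ⟨r, hr, hball⟩ := Metric.eventually_nhds_iff.1 (hev.and hgev)
  refine ⟨k, r, ‖g (rho : ℂ)‖ / 2, hr, by positivity, fun τ hτ => ?_⟩
  obtain ⟨h1, h2⟩ := hball (show dist (τ : ℂ) (rho : ℂ) < r by rwa [dist_eq_norm])
  simp only [Function.comp_apply, UpperHalfPlane.ofComplex_apply, smul_eq_mul] at h1
  rw [h1, norm_mul, norm_pow, mul_comm]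
  exact mul_le_mul_of_nonneg_left h2.le (by positivity)

/-- The zeros of `j` in the fundamental domain. -/
theorem eq_corner_of_jfun_eq_zero {τ : ℍ} (hτ : τ ∈ 𝒟) (h : jfun τ = 0) :
    (τ : ℂ) = rho ∨ (τ : ℂ) = (rho : ℂ) + 1 := by
  obtain ⟨g, rfl⟩ := (FA.JInj.jfun_eq_iff rho τ).1 (jfun_rho.trans h.symm)
  have hroot : FA.Singular.IsRoot (1, 1, 1) rho := by
    simp only [FA.Singular.IsRoot]
    push_cast
    linear_combination rho_sq
  have hs : Stable (FA.Mazur.Wp.latPair (g • rho)) (rho : ℂ) :=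
    (stable_smul rho g _).2 (by simpa using (stable_of_form hroot).1)
  obtain ⟨⟨a, b, c⟩, ha, hr, hd⟩ := form_of_stable (t := -1) (n := 1) hs
    (by push_cast; linear_combination rho_sq) rho.im_pos.ne'
  simp only [disc] at hd ha
  obtain ⟨hre, hns⟩ := root_re_normSq hr
  simp only at hre hns
  obtain ⟨h1, h2⟩ := hτ
  have haR : (0 : ℝ) < a := Int.cast_pos.2 ha
  obtain ⟨h2a, h2b⟩ := abs_le.1 h2
  have hb1 : b ≤ a := by exact_mod_cast (show (b : ℝ) ≤ a by nlinarith)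
  have hb2 : -a ≤ b := by exact_mod_cast (show -(a : ℝ) ≤ b by nlinarith)
  have hc : a ≤ c := by exact_mod_cast (show (a : ℝ) ≤ c by nlinarith)
  have ha1 : a = 1 := by
    by_contra hne
    have hb3 : b ^ 2 ≤ a ^ 2 := sq_le_sq.2 (by rw [abs_of_pos ha]; exact abs_le.2 ⟨hb2, hb1⟩)
    have ha2 : 2 ≤ a := by omega
    nlinarith [mul_le_mul_of_nonneg_left hc ha.le]
  subst ha1
  obtain rfl | rfl : b = 1 ∨ b = -1 := by
    rcases (show b = -1 ∨ b = 0 ∨ b = 1 by omega) with e | e | e <;> subst e <;>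
      first | exact Or.inl rfl | exact Or.inr rfl | omega
  all_goals obtain rfl : c = 1 := by omega
  · exact Or.inl (congrArg UpperHalfPlane.coe (root_unique one_ne_zero hr hroot))
  · right
    have hr' : FA.Singular.IsRoot (1, 1, 1) ((ModularGroup.T⁻¹ : SL(2, ℤ)) • (g • rho)) := by
      simp only [FA.Singular.IsRoot, coe_T_inv_smul] at hr ⊢
      push_cast at hr ⊢
      linear_combination hr
    have e := congrArg UpperHalfPlane.coe (root_unique one_ne_zero hr' hroot)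
    rw [coe_T_inv_smul] at e
    linear_combination e

/-- A reduced root is not close to the corners. -/
theorem dist_corner {D : ℤ} {t : ℤ × ℤ × ℤ} (ht : t ∈ Red D) {τ : ℍ}
    (hr : FA.Singular.IsRoot t τ) (hj : jfun τ ≠ 0) :
    1 / (4 * (-(D : ℝ))) ≤ ‖(τ : ℂ) - rho‖ ∧
      1 / (4 * (-(D : ℝ))) ≤ ‖(τ : ℂ) - ((rho : ℂ) + 1)‖ := by
  obtain ⟨hfd, him⟩ := root_mem_fd ht hr
  obtain ⟨a, b, c⟩ := t
  obtain ⟨hd, -, ha, hb, hc, -⟩ := id ht
  obtain ⟨hre, -⟩ := root_re_normSq hr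
  simp only at hd ha hb hc hre him
  have haR : (0 : ℝ) < a := Int.cast_pos.2 ha
  set s := √(-(D : ℝ))
  have hτim : τ.im * (2 * a) = s := by
    have := congrArg (fun x => x * a / π) him
    field_simp at this
    linarith
  have hDneg : 3 * (a : ℝ) ^ 2 ≤ -(D : ℝ) := by
    have h1 : b ^ 2 ≤ a ^ 2 := sq_le_sq.2 (by rwa [abs_of_pos ha])
    have h2 := mul_le_mul_of_nonneg_left hc ha.le
    have h3 : 3 * a ^ 2 ≤ -D := by nlinarith
    exact_mod_cast h3
  have hN : (1 : ℝ) ≤ -(D : ℝ) := by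
    have : (1 : ℝ) ≤ a := by exact_mod_cast (show 1 ≤ a from ha)
    nlinarith
  have hs2 : s ^ 2 = -(D : ℝ) := Real.sq_sqrt (by linarith)
  have h3s : √3 * a ≤ s := by
    rw [← Real.sqrt_sq haR.le, ← Real.sqrt_mul (by norm_num)]
    exact Real.sqrt_le_sqrt hDneg
  have hsN : s ≤ -(D : ℝ) := by nlinarith [Real.sqrt_nonneg (-(D : ℝ))]
  have key : ∀ (x : ℂ) (e : ℤ), e ^ 2 = 1 → x.re = -(e : ℝ) / 2 → x.im = √3 / 2 →
      (τ : ℂ) ≠ x → 1 / (4 * (-(D : ℝ))) ≤ ‖(τ : ℂ) - x‖ := by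
    intro x e he hxr hxi hne
    by_cases hbe : b = e * a
    · refine le_trans ?_ (Complex.abs_im_le_norm _)
      rw [Complex.sub_im, hxi, UpperHalfPlane.coe_im]
      have hND : (1 : ℝ) ≤ -(D : ℝ) - 3 * (a : ℝ) ^ 2 := by
        have h4 : 3 * a ^ 2 ≠ -D := fun h4 => hne (by
          have h5 : s = √3 * a := by
            rw [← Real.sqrt_sq haR.le, ← Real.sqrt_mul (by norm_num)]
            show √(-(D : ℝ)) = _
            congr 1
            exact_mod_cast h4.symm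
          refine Complex.ext ?_ ?_
          · rw [hxr, UpperHalfPlane.coe_re]
            rw [hbe] at hre
            push_cast at hre
            apply mul_left_cancel₀ (show (2 : ℝ) * a ≠ 0 by positivity)
            linear_combination hre
          · rw [hxi, UpperHalfPlane.coe_im]
            rw [h5] at hτim
            apply mul_right_cancel₀ (show (2 : ℝ) * a ≠ 0 by positivity)
            linear_combination hτim)
        have h6 : 3 * (a : ℝ) ^ 2 ≤ -(D : ℝ) := hDneg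
        have h7 : 3 * a ^ 2 ≤ -D := by exact_mod_cast h6
        exact_mod_cast (show (1 : ℤ) ≤ -D - 3 * a ^ 2 by omega)
      have h3 : √3 ^ 2 = (3 : ℝ) := Real.sq_sqrt (by norm_num)
      have hdiff : 1 ≤ (s - √3 * a) * (2 * s) := by nlinarith
      have e1 : τ.im - √3 / 2 = (s - √3 * a) / (2 * a) := by
        rw [eq_div_iff (by positivity)]; linear_combination hτim
      rw [e1, abs_of_nonneg (div_nonneg (sub_nonneg.2 h3s) (by positivity)),
        div_le_div_iff₀ (by linarith) (by positivity)]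
      have has : s * a ≤ -(D : ℝ) := by
        have : (1 : ℝ) ≤ √3 := Real.one_le_sqrt.2 (by norm_num)
        nlinarith
      nlinarith [mul_le_mul_of_nonneg_left has (sub_nonneg.2 h3s)]
    · refine le_trans ?_ (Complex.abs_re_le_norm _)
      rw [Complex.sub_re, hxr, UpperHalfPlane.coe_re]
      have h1 : (1 : ℝ) ≤ |(e : ℝ) * a - b| := by
        have : (1 : ℤ) ≤ |e * a - b| := Int.one_le_abs (sub_ne_zero.2 (Ne.symm hbe))
        exact_mod_cast this
      have e1 : τ.re - -(e : ℝ) / 2 = ((e : ℝ) * a - b) / (2 * a) := by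
        rw [eq_div_iff (by positivity)]; linear_combination hre
      rw [e1, abs_div, abs_of_pos (show (0 : ℝ) < 2 * a by positivity),
        div_le_div_iff₀ (by linarith) (by positivity)]
      have : (a : ℝ) ≤ -(D : ℝ) := by nlinarith
      nlinarith
  refine ⟨key _ 1 rfl (by simp [rho]) (by simp [rho]) fun h => hj ?_,
    key _ (-1) rfl (by simp [rho]; norm_num) (by simp [rho]) fun h => hj ?_⟩
  · rw [show τ = rho from UpperHalfPlane.ext h, jfun_rho]
  · rw [show τ = ModularGroup.T • rho from UpperHalfPlane.ext (by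
      rw [h, UpperHalfPlane.modular_T_smul, UpperHalfPlane.coe_vadd]; push_cast; ring), jfun_smul,
      jfun_rho]

/-- **A non-zero singular modulus is not too small.** -/
theorem exists_lower : ∃ (k : ℕ) (c : ℝ), 0 < c ∧ ∀ (D : ℤ) (t : ℤ × ℤ × ℤ) (τ : ℍ),
    t ∈ Red D → FA.Singular.IsRoot t τ → jfun τ ≠ 0 → c ≤ ‖jfun τ‖ * (4 * (-(D : ℝ))) ^ k := by
  obtain ⟨k, r, c, hr, hc, hloc⟩ := exists_local_lower
  obtain ⟨K, hK0, hK⟩ := exists_approx
  set S := {τ : ℍ | τ ∈ ModularGroup.truncatedFundamentalDomain (max 1 (K + 1)) ∧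
    r ≤ ‖(τ : ℂ) - rho‖ ∧ r ≤ ‖(τ : ℂ) - ((rho : ℂ) + 1)‖}
  have hS : IsCompact S := by
    refine (ModularGroup.isCompact_truncatedFundamentalDomain _).inter_right ?_
    exact (isClosed_le continuous_const
      (UpperHalfPlane.continuous_coe.sub continuous_const).norm).inter
      (isClosed_le continuous_const (UpperHalfPlane.continuous_coe.sub continuous_const).norm)
  have hne : ∀ τ ∈ S, jfun τ ≠ 0 := fun τ hτ h0 => by
    rcases eq_corner_of_jfun_eq_zero hτ.1.1 h0 with e | e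
    · exact absurd hτ.2.1 (by rw [e, sub_self, norm_zero]; linarith)
    · exact absurd hτ.2.2 (by rw [e, sub_self, norm_zero]; linarith)
  obtain ⟨M, hM⟩ := hS.exists_bound_of_continuousOn (continuous_jfun_uhp.continuousOn.inv₀ hne)
  refine ⟨k, min (min c 1) (1 / (|M| + 1)), lt_min (lt_min hc one_pos) (by positivity),
    fun D t τ ht hroot hj => ?_⟩
  obtain ⟨hfd, him⟩ := root_mem_fd ht hroot
  obtain ⟨hd1, hd2⟩ := dist_corner ht hroot hj
  have h4 : 1 ≤ 4 * (-(D : ℝ)) := by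
    obtain ⟨hd, -, ha, hb, hc, -⟩ := ht
    have h1 : t.2.1 ^ 2 ≤ t.1 ^ 2 := sq_le_sq.2 (by rwa [abs_of_pos ha])
    have h3 : (1 : ℤ) ≤ 4 * -D := by
      have := mul_le_mul_of_nonneg_left hc ha.le
      nlinarith
    exact_mod_cast h3
  have hpow : (1 : ℝ) ≤ (4 * (-(D : ℝ))) ^ k := one_le_pow₀ h4
  have hsmall : ∀ {x : ℂ}, 1 / (4 * (-(D : ℝ))) ≤ ‖x‖ → c * ‖x‖ ^ k ≤ ‖jfun τ‖ →
      c ≤ ‖jfun τ‖ * (4 * (-(D : ℝ))) ^ k := fun {x} h1 h2 => by
    have h3 : 1 ≤ ‖x‖ * (4 * (-(D : ℝ))) := (div_le_iff₀ (by linarith)).1 h1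
    calc c ≤ c * (‖x‖ * (4 * (-(D : ℝ)))) ^ k := le_mul_of_one_le_right hc.le (one_le_pow₀ h3)
      _ = c * ‖x‖ ^ k * (4 * (-(D : ℝ))) ^ k := by ring
      _ ≤ _ := mul_le_mul_of_nonneg_right h2 (by linarith)
  rcases lt_or_ge ‖(τ : ℂ) - rho‖ r with h1 | h1
  · exact ((min_le_left _ _).trans (min_le_left _ _)).trans (hsmall hd1 (hloc τ h1))
  rcases lt_or_ge ‖(τ : ℂ) - ((rho : ℂ) + 1)‖ r with h2 | h2
  · have e : (((ModularGroup.T⁻¹ : SL(2, ℤ)) • τ : ℍ) : ℂ) - rho =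
        (τ : ℂ) - ((rho : ℂ) + 1) := by rw [coe_T_inv_smul]; ring
    have := hloc ((ModularGroup.T⁻¹ : SL(2, ℤ)) • τ) (by rwa [e])
    rw [e, jfun_smul] at this
    exact ((min_le_left _ _).trans (min_le_left _ _)).trans (hsmall hd2 this)
  refine le_trans ?_ (le_mul_of_one_le_right (norm_nonneg _) hpow)
  rcases le_or_gt τ.im (max 1 (K + 1)) with h3 | h3
  · have h5 := hM τ ⟨⟨hfd, h3⟩, h1, h2⟩
    rw [Pi.inv_apply, norm_inv] at h5
    refine (min_le_right _ _).trans ?_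
    rw [div_le_iff₀ (by positivity)]
    have h6 : 0 < ‖jfun τ‖ := norm_pos_iff.2 hj
    have h7 : 1 ≤ |M| * ‖jfun τ‖ := by
      rw [← inv_mul_cancel₀ h6.ne']
      exact mul_le_mul_of_nonneg_right (h5.trans (le_abs_self M)) h6.le
    linarith
  · have h5 := (norm_sub_norm_le (qp 1 τ)⁻¹ (jfun τ)).trans
      ((norm_sub_rev _ _).le.trans (hK τ hfd))
    rw [norm_qp_inv] at h5
    have h6 := Real.add_one_le_exp (2 * π * τ.im)
    have h7 : K + 1 ≤ 2 * π * τ.im := by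
      nlinarith [le_max_right 1 (K + 1), Real.pi_gt_three, le_max_left 1 (K + 1)]
    exact ((min_le_left _ _).trans (min_le_right _ _)).trans (by linarith)

/-- Exponential beats polynomial. -/
theorem exists_exp_bound (B : ℝ) (P : ℕ) :
    ∃ N₀ : ℕ, ∀ N : ℕ, N₀ ≤ N → B * (N : ℝ) ^ P < Real.exp (π * √(N : ℝ)) := by
  set j := 2 * P + 2
  refine ⟨⌈|B| * j.factorial⌉₊ + 1, fun N hN => ?_⟩
  have hN1 : (1 : ℝ) ≤ N := by exact_mod_cast le_trans (Nat.le_add_left 1 _) hN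
  have hNB : |B| * j.factorial + 1 ≤ (N : ℝ) := by
    refine le_trans (add_le_add (Nat.le_ceil _) le_rfl) ?_
    exact_mod_cast hN
  have h1 := Real.pow_div_factorial_le_exp _ (show (0 : ℝ) ≤ π * √(N : ℝ) by positivity) j
  have hsq : (√(N : ℝ)) ^ j = (N : ℝ) ^ (P + 1) := by
    rw [show j = 2 * (P + 1) by ring, pow_mul, Real.sq_sqrt (by linarith)]
  refine lt_of_lt_of_le ?_ h1
  rw [lt_div_iff₀ (by exact_mod_cast j.factorial_pos), mul_pow, hsq]
  calc B * (N : ℝ) ^ P * j.factorial ≤ |B| * j.factorial * (N : ℝ) ^ P := by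
        rw [mul_right_comm]
        gcongr
        exact le_abs_self B
    _ < N * (N : ℝ) ^ P := mul_lt_mul_of_pos_right (by linarith) (by positivity)
    _ ≤ π ^ j * (N : ℝ) ^ (P + 1) := by
        rw [← pow_succ']
        exact le_mul_of_one_le_left (by positivity) (one_le_pow₀ (by linarith [Real.pi_gt_three]))

/-- **The larger discriminant is bounded.** -/
theorem exists_disc_bound_product (B : ℝ) {m n : ℕ} (hm : 0 < m) :
    ∃ N₀ : ℕ, ∀ (D D' : ℤ) (z w : ℂ), D < 0 → D' < 0 → -D' ≤ -D → z ∈ values D →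
      w ∈ values D' → w ≠ 0 → (∀ σ : ℂ ≃+* ℂ, ‖σ (z ^ m * w ^ n)‖ ≤ B) → -D < (N₀ : ℤ) := by
  obtain ⟨K, hK0, hK⟩ := exists_approx
  obtain ⟨k, c, hc, hlow⟩ := exists_lower
  obtain ⟨N₀, hN⟩ := exists_exp_bound (max (2 * |B| / c ^ n * 4 ^ (k * n)) (2 * K + 2)) (k * n)
  refine ⟨N₀, fun D D' z w hD hD' hle hz hw hw0 hB => not_le.1 fun hge => ?_⟩
  obtain ⟨N, rfl⟩ : ∃ N : ℕ, D = -(N : ℤ) := ⟨D.natAbs, by omega⟩
  have hexp := hN N (by omega)
  obtain ⟨b, c', hp⟩ := exists_principal (disc_mod_four_of_mem hz) hD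
  obtain ⟨τ, hτ⟩ := exists_isRoot (t := (1, b, c')) one_pos (hp.1.trans_lt hD)
  obtain ⟨σ, hσ⟩ := exists_aut hD hz (show jfun τ ∈ values _ from ⟨_, hp, τ, hτ, rfl⟩)
  have hi := isIntegral_values hD' hw
  have hroot : Polynomial.aeval (σ w) (minpoly ℤ w) = 0 := by
    rw [show σ w = (σ : ℂ →+* ℂ).toIntAlgHom w from rfl, Polynomial.aeval_algHom_apply,
      minpoly.aeval, map_zero]
  obtain ⟨t, hf', τ', hτ', hw'⟩ := root_mem_values hD' hw hroot
  obtain ⟨hfd, him⟩ := root_mem_fd hp hτ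
  have hz1 := (norm_sub_norm_le (qp 1 τ)⁻¹ (jfun τ)).trans
    ((norm_sub_rev _ _).le.trans (hK τ hfd))
  rw [norm_qp_inv, him] at hz1
  push_cast at hz1
  rw [neg_neg, div_one] at hz1
  have hj : jfun τ' ≠ 0 := by rw [hw']; simpa using hw0
  have hl := hlow D' t τ' hf' hτ' hj
  have hsum := hB σ
  rw [map_mul, map_pow, map_pow, hσ, ← hw', norm_mul, norm_pow, norm_pow] at hsum
  set E := Real.exp (π * √(N : ℝ))
  set u := ‖jfun τ'‖
  have hN1 : (1 : ℝ) ≤ N := by exact_mod_cast (show 1 ≤ N by omega)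
  have hE : 2 * K + 2 < E := lt_of_le_of_lt
    ((le_max_right _ _).trans (le_mul_of_one_le_right
      (le_max_of_le_right (by linarith)) (one_le_pow₀ hN1))) hexp
  have hzbig : E / 2 ≤ ‖jfun τ‖ ^ m := by
    calc E / 2 ≤ ‖jfun τ‖ := by linarith
      _ ≤ ‖jfun τ‖ ^ m := le_self_pow₀ (by linarith) hm.ne'
  have hD'0 : (0 : ℝ) ≤ -(D' : ℝ) := by
    have : (D' : ℝ) < 0 := Int.cast_lt_zero.2 hD'
    linarith
  have hND : -(D' : ℝ) ≤ N := by
    have : -D' ≤ (N : ℤ) := by omega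
    exact_mod_cast this
  have hun : c ^ n ≤ u ^ n * (4 * (N : ℝ)) ^ (k * n) := by
    calc c ^ n ≤ (u * (4 * (-(D' : ℝ))) ^ k) ^ n := pow_le_pow_left₀ hc.le hl n
      _ = u ^ n * (4 * (-(D' : ℝ))) ^ (k * n) := by rw [mul_pow, ← pow_mul]
      _ ≤ _ := by gcongr
  have h1 : E / 2 * c ^ n ≤ |B| * (4 * (N : ℝ)) ^ (k * n) := by
    calc E / 2 * c ^ n ≤ ‖jfun τ‖ ^ m * (u ^ n * (4 * (N : ℝ)) ^ (k * n)) := by
          refine mul_le_mul hzbig hun (by positivity) ?_
          positivity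
      _ = ‖jfun τ‖ ^ m * u ^ n * (4 * (N : ℝ)) ^ (k * n) := by ring
      _ ≤ |B| * (4 * (N : ℝ)) ^ (k * n) := by
          gcongr
          exact hsum.trans (le_abs_self B)
  have h2 : 2 * |B| / c ^ n * 4 ^ (k * n) * (N : ℝ) ^ (k * n) < E :=
    lt_of_le_of_lt (mul_le_mul_of_nonneg_right (le_max_left _ _) (by positivity)) hexp
  have h3 : E ≤ 2 * |B| / c ^ n * 4 ^ (k * n) * (N : ℝ) ^ (k * n) := by
    rw [mul_pow] at h1
    rw [div_mul_eq_mul_div, div_mul_eq_mul_div, le_div_iff₀ (by positivity)]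
    linarith
  linarith

/-- **Finitely many special points on `z ^ m w ^ n = A`.** -/
theorem finite_product {A : ℂ} (hA : A ≠ 0) {m n : ℕ} (hm : 0 < m) (hn : 0 < n) :
    {p : ℂ × ℂ | p.1 ∈ special ∧ p.2 ∈ special ∧ p.1 ^ m * p.2 ^ n = A}.Finite := by
  set S := {p : ℂ × ℂ | p.1 ∈ special ∧ p.2 ∈ special ∧ p.1 ^ m * p.2 ^ n = A}
  rcases S.eq_empty_or_nonempty with hS | ⟨⟨z₀, w₀⟩, ⟨D₁, hD₁, hz₀⟩, ⟨D₂, hD₂, hw₀⟩, hA'⟩
  · rw [hS]; exact Set.finite_empty
  have hAi : IsIntegral ℚ A := hA' ▸ ((isIntegral_values hD₁ hz₀).tower_top.pow m).mul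
    ((isIntegral_values hD₂ hw₀).tower_top.pow n)
  obtain ⟨B, hB⟩ := (((minpoly ℚ A).rootSet_finite ℂ).image norm).bddAbove
  have hBσ : ∀ σ : ℂ ≃+* ℂ, ‖σ A‖ ≤ B := fun σ => hB ⟨σ A, by
    rw [Polynomial.mem_rootSet]
    refine ⟨minpoly.ne_zero hAi, ?_⟩
    rw [show σ A = (σ : ℂ →+* ℂ).toRatAlgHom A from rfl, Polynomial.aeval_algHom_apply,
      minpoly.aeval, map_zero], rfl⟩
  obtain ⟨N₁, hN₁⟩ := exists_disc_bound_product B (n := n) hm
  obtain ⟨N₂, hN₂⟩ := exists_disc_bound_product B (n := m) hn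
  set V := ⋃ D ∈ Set.Ioo (-((max N₁ N₂ : ℕ) : ℤ)) 0, values D
  have hV : V.Finite := (Set.finite_Ioo _ _).biUnion fun D _ => (values_finite_card D).1
  have hroots : ∀ (e : ℕ) (a : ℂ), 0 < e → {x : ℂ | x ^ e = a}.Finite := fun e a he => by
    refine ((Polynomial.X ^ e - Polynomial.C a).rootSet_finite ℂ).subset fun x hx => ?_
    rw [Polynomial.mem_rootSet]
    exact ⟨Polynomial.X_pow_sub_C_ne_zero he a, by simp [show x ^ e = a from hx]⟩
  refine ((hV.biUnion fun z _ => (hroots n (A / z ^ m) hn).image fun w => (z, w)).union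
    (hV.biUnion fun w _ => (hroots m (A / w ^ n) hm).image fun z => (z, w))).subset ?_
  rintro ⟨z, w⟩ ⟨⟨D, hD, hz⟩, ⟨D', hD', hw⟩, h⟩
  simp only at hz hw h
  have hz0 : z ≠ 0 := fun e => hA (by rw [← h, e, zero_pow hm.ne', zero_mul])
  have hw0 : w ≠ 0 := fun e => hA (by rw [← h, e, zero_pow hn.ne', mul_zero])
  rcases le_total (-D') (-D) with hl | hl
  · have := hN₁ D D' z w hD hD' hl hz hw hw0 fun σ => by rw [h]; exact hBσ σ
    refine Or.inl (Set.mem_biUnion (Set.mem_biUnion (show D ∈ Set.Ioo _ _ from ?_) hz) ?_)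
    · exact ⟨by omega, hD⟩
    · exact ⟨w, show w ^ n = A / z ^ m by rw [← h]; field_simp, rfl⟩
  · have := hN₂ D' D w z hD' hD hl hw hz hz0 fun σ => by rw [mul_comm, h]; exact hBσ σ
    refine Or.inr (Set.mem_biUnion (Set.mem_biUnion (show D' ∈ Set.Ioo _ _ from ?_) hw) ?_)
    · exact ⟨by omega, hD'⟩
    · exact ⟨z, show z ^ m = A / w ^ n by rw [← h]; field_simp, rfl⟩

end FA.SpecialPoints

end
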