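import Fermat.Agent.Tau.LevelOneModP

/-!
# Sturm's bound for level one, modulo anything

A form of weight `n` and level one with coefficients in a ring `R ⊆ ℂ` whose first `n / 12 + 1`
coefficients vanish under `φ : R → k` vanishes under `φ`: remove the constant term, divide by `Δ`.
-/

set_option autoImplicit false

noncomputable section

namespace FA.SturmModL

open FA.Tau FA.Eis FA.SwinnertonDyer UpperHalfPlane
open scoped MatrixGroups Manifold ModularForm

variable {R k : Type*} [CommRing R] [CommRing k]

/-- A series divisible by `Δ` whose first coefficients vanish. -/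
theorem quotient_coeff {φ : R →+* k} {T S₁ : PowerSeries R}
    (h : T = deltaInt.map (Int.castRingHom R) * S₁) {b : ℕ}
    (hT : ∀ j, j ≤ b + 1 → φ (PowerSeries.coeff j T) = 0) :
    ∀ i, i ≤ b → φ (PowerSeries.coeff i S₁) = 0 := by
  intro i
  induction i using Nat.strong_induction_on with
  | _ i ih =>
    intro hi
    have e := hT (i + 1) (by omega)
    rw [h, PowerSeries.coeff_mul, Finset.Nat.sum_antidiagonal_succ,
      Finset.Nat.sum_antidiagonal_eq_sum_range_succ_mk, map_add, map_sum,
      Finset.sum_range_succ'] at e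
    have h0 : PowerSeries.coeff 0 (deltaInt.map (Int.castRingHom R)) = 0 := by
      simp [deltaInt]
    have h1 : PowerSeries.coeff 1 (deltaInt.map (Int.castRingHom R)) = 1 := by
      rw [PowerSeries.coeff_map, coeff_deltaInt_one, map_one]
    rw [h0, zero_mul, map_zero, zero_add, Finset.sum_eq_zero fun j hj => ?_, zero_add] at e
    · simpa [h1] using e
    · rw [Finset.mem_range] at hj
      rw [map_mul, ih (i - (j + 1)) (by omega) (by omega), mul_zero]

/-- **Sturm's bound modulo anything**, in level one. -/
theorem levelOne_sturm {ι : R →+* ℂ} (hι : Function.Injective ι) (φ : R →+* k) :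
    ∀ (n : ℕ) (f : ℍ → ℂ) (S : PowerSeries R),
      (∀ γ : SL(2, ℤ), f ∣[(n : ℤ)] γ = f) → HasQ 1 f (S.map ι) →
      (∀ i, 12 * i ≤ n → φ (PowerSeries.coeff i S) = 0) →
      ∀ i, φ (PowerSeries.coeff i S) = 0 := by
  intro n
  induction n using Nat.strong_induction_on with
  | _ n ih =>
    intro f S hinv hS hlow
    have hinjS : ∀ {A : PowerSeries R}, A.map ι = 0 → A = 0 := fun {A} h =>
      PowerSeries.map_injective ι hι (h.trans (map_zero _).symm)
    by_cases hex : ∃ a b, 4 * a + 6 * b = n
    swap
    · set F := FA.ModField.levelOneForm f hinv (hS.mdiff one_pos) (hS.bdd one_pos)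
      have hspan := FA.LevelOneRing.mem_span (n + 1) _ (by push_cast; omega) F
      have : IsEmpty {q : ℕ × ℕ // 4 * (q.1 : ℤ) + 6 * q.2 = (n : ℤ)} :=
        ⟨fun q => hex ⟨q.1.1, q.1.2, by have := q.2; omega⟩⟩
      rw [Set.range_eq_empty, Submodule.span_empty, Submodule.mem_bot] at hspan
      have hf : f = 0 := hspan
      subst hf
      intro i
      rw [hinjS (hS.eq_zero_of_fun one_pos), map_zero, map_zero]
    obtain ⟨a, b, hab⟩ := hex
    set s₀ := PowerSeries.coeff 0 S
    have hs₀ : φ s₀ = 0 := hlow 0 (by omega)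
    set g : ℍ → ℂ := ⇑ModularForm.E₄ ^ a * ⇑ModularForm.E₆ ^ b
    set g₀ : PowerSeries ℤ := eFourInt ^ a * eSixInt ^ b
    have hg : HasQ 1 g ((g₀.map (Int.castRingHom R)).map ι) := by
      rw [← RingHom.comp_apply, ← PowerSeries.map_comp, RingHom.eq_intCast' (ι.comp _)]
      rw [map_mul, map_pow, map_pow]
      exact (hasQ_eFour.pow one_pos a).mul one_pos (hasQ_eSix.pow one_pos b)
    set T := S - PowerSeries.C s₀ * g₀.map (Int.castRingHom R)
    have hT : HasQ 1 (f - ι s₀ • g) (T.map ι) := by
      rw [map_sub, map_mul, PowerSeries.map_C, ← PowerSeries.smul_eq_C_mul]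
      exact hS.sub (hg.smul _)
    have hTφ : ∀ i, φ (PowerSeries.coeff i T) = φ (PowerSeries.coeff i S) := fun i => by
      rw [map_sub, PowerSeries.coeff_C_mul, map_sub, map_mul, hs₀, zero_mul, sub_zero]
    have hTinv : ∀ γ : SL(2, ℤ), (f - ι s₀ • g) ∣[(n : ℤ)] γ = f - ι s₀ • g := fun γ => by
      rw [sub_eq_add_neg, SlashAction.add_slash, SlashAction.neg_slash, ModularForm.SL_smul_slash,
        hinv γ]
      congr 3
      refine (FA.ModField.slash_eq_iff_smul γ).2 fun z => ?_
      simp only [g, Pi.mul_apply, Pi.pow_apply]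
      rw [FA.ModField.E4_smul, FA.LevelOneRing.E6_smul, mul_pow, mul_pow, ← hab]
      push_cast
      rw [zpow_add₀ (denom_ne_zero _ _), zpow_mul, zpow_mul, zpow_natCast, zpow_natCast]
      ring
    have hT0 : PowerSeries.coeff 0 T = 0 := by
      have h4 : PowerSeries.constantCoeff eFourInt = 1 := by
        rw [← PowerSeries.coeff_zero_eq_constantCoeff_apply]; simp [eFourInt]
      have h6 : PowerSeries.constantCoeff eSixInt = 1 := by
        rw [← PowerSeries.coeff_zero_eq_constantCoeff_apply]; simp [eSixInt]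
      rw [map_sub, PowerSeries.coeff_C_mul, PowerSeries.coeff_map,
        show PowerSeries.coeff 0 g₀ = 1 by
          simp [g₀, PowerSeries.coeff_zero_eq_constantCoeff_apply, h4, h6],
        map_one, mul_one, sub_self]
    intro i
    rw [← hTφ]
    by_cases hn : n < 12
    · rw [hinjS (series_eq_zero hn hTinv hT (by rw [PowerSeries.coeff_map, hT0, map_zero])),
        map_zero, map_zero]
    set F := FA.ModField.levelOneForm (f - ι s₀ • g) hTinv (hT.mdiff one_pos) (hT.bdd one_pos)
    have hFc : (qExpansion 1 ⇑F).coeff 0 = 0 := by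
      rw [show qExpansion 1 ⇑F = T.map ι from hT.qExpansion_eq one_pos,
        PowerSeries.coeff_map, hT0, map_zero]
    set F₁ := CuspForm.discriminantEquiv (ModularForm.toCuspForm F hFc)
    obtain ⟨W, hW⟩ : PowerSeries.X ∣ T := PowerSeries.X_dvd_iff.2
      (by rwa [← PowerSeries.coeff_zero_eq_constantCoeff_apply])
    set u := ModularCurve.dedekindEtaUnit.map (Int.castRingHom R)
    set S₁ := W * u.invOfUnit 1
    have hTS : T = deltaInt.map (Int.castRingHom R) * S₁ := by
      have := PowerSeries.mul_invOfUnit u 1 (by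
        rw [← PowerSeries.coeff_zero_eq_constantCoeff_apply, PowerSeries.coeff_map,
          PowerSeries.coeff_zero_eq_constantCoeff_apply,
          ModularCurve.constantCoeff_dedekindEtaUnit, map_one]
        rfl)
      rw [show deltaInt = PowerSeries.X * ModularCurve.dedekindEtaUnit from rfl, map_mul,
        PowerSeries.map_X, hW,
        show PowerSeries.X * u * S₁ = PowerSeries.X * W * (u * u.invOfUnit 1) by ring, this,
        mul_one]
    have hS1 : HasQ 1 ⇑F₁ (S₁.map ι) := by
      have h1 := FA.Tau.hasQ_discriminant.mul one_pos (hasQ_form F₁)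
      rw [show ModularForm.discriminant * ⇑F₁ = f - ι s₀ • g from funext fun z =>
        ModularForm.discriminant_mul_discriminantEquiv_apply (ModularForm.toCuspForm F hFc) z] at h1
      have h2 := HasQ.unique one_pos h1 hT
      rw [hTS, map_mul, ← RingHom.comp_apply (PowerSeries.map ι) _ deltaInt, ← PowerSeries.map_comp,
        RingHom.eq_intCast' (ι.comp _)] at h2
      rw [← mul_left_cancel₀ (fun e => by
        have := congrArg (PowerSeries.coeff 1) e
        simp [PowerSeries.coeff_map, coeff_deltaInt_one] at this) h2]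
      exact hasQ_form F₁
    have hlow₁ : ∀ i, 12 * i ≤ n - 12 → φ (PowerSeries.coeff i S₁) = 0 := fun i hi =>
      quotient_coeff hTS (b := (n - 12) / 12)
        (fun j hj => by rw [hTφ]; exact hlow j (by omega)) i (by omega)
    have hall := ih (n - 12) (by omega) ⇑F₁ S₁ (fun γ => by
      rw [show ((n - 12 : ℕ) : ℤ) = (n : ℤ) - 12 by omega]
      exact F₁.slash_action_eq' _ ⟨γ, rfl⟩) hS1 hlow₁
    rw [hTS, PowerSeries.coeff_mul, map_sum]
    exact Finset.sum_eq_zero fun j _ => by rw [map_mul, hall, mul_zero]

end FA.SturmModL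

end
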