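import Fermat.Agent.Tau.SturmModL
import Fermat.Agent.Eisenstein.LevelP
import Fermat.Agent.Dim.Cosets

/-!
# Sturm's bound modulo `l` in weight two and prime level

The product of the `f ∣ γ` over the cosets of `Γ₀(p)` is a form of weight `2 (p + 1)` of level one,
up to a scalar `f(τ) ∏_j g((τ + j) / p)` with `g` of expansion `U f`. Its coefficients are algebraic
integers, so Sturm's bound in level one modulo a prime over `l` gives the bound `(p + 1) / 6`.
-/

set_option autoImplicit false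
set_option linter.style.haveILetI false

noncomputable section

open UpperHalfPlane hiding I
open PowerSeries CongruenceSubgroup FA.Eis Complex
open scoped MatrixGroups Classical Real Manifold ModularForm

namespace FA.SturmPrimeLevel

local notation "ZB" => integralClosure ℤ ℂ

/-- The slash of a product of forms of weight two. -/
theorem prod_slash {α : Type*} (s : Finset α) (F : α → ℍ → ℂ) (A : SL(2, ℤ)) :
    (∏ i ∈ s, F i) ∣[((2 * s.card : ℕ) : ℤ)] A = ∏ i ∈ s, (F i ∣[(2 : ℤ)] A) := by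
  induction s using Finset.induction_on with
  | empty =>
    simp only [Finset.prod_empty, Finset.card_empty, mul_zero, Nat.cast_zero]
    exact ModularForm.is_invariant_one A
  | insert a s ha ih =>
    rw [Finset.prod_insert ha, Finset.prod_insert ha, Finset.card_insert_of_notMem ha,
      show ((2 * (s.card + 1) : ℕ) : ℤ) = 2 + ((2 * s.card : ℕ) : ℤ) by push_cast; ring,
      ModularForm.mul_slash_SL2, ih]

variable {p : ℕ} [Fact p.Prime] {f : ℍ → ℂ}

/-- The representative of a coset. -/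
def repCoset (x : Option (Fin p)) : SL(2, ℤ) :=
  x.elim 1 fun j => ModularGroup.S * ModularGroup.T ^ ((j : ℕ) : ℤ)

theorem card_cosets : Nat.card (FA.Dim.Cos p) = p + 1 := by
  have h := FA.Dim.dedekindPsi_prime_pow (Fact.out : p.Prime) 0
  rw [zero_add, pow_one, pow_zero] at h
  rw [FA.Dim.card_cos, h]

theorem repCoset_bijective :
    Function.Bijective fun x : Option (Fin p) =>
      (QuotientGroup.mk (repCoset x)⁻¹ : FA.Dim.Cos p) := by
  haveI : Finite (FA.Dim.Cos p) := Nat.finite_of_card_ne_zero (by rw [card_cosets]; omega)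
  haveI := Fintype.ofFinite (FA.Dim.Cos p)
  refine (Fintype.bijective_iff_surjective_and_card _).2 ⟨fun q => ?_, by
    rw [Fintype.card_option, Fintype.card_fin, ← Nat.card_eq_fintype_card, card_cosets]⟩
  obtain ⟨g, rfl⟩ := QuotientGroup.mk_surjective q
  by_cases hd : (p : ℤ) ∣ g⁻¹ 1 0
  · refine ⟨none, QuotientGroup.eq.2 ?_⟩
    have := inv_mem (mem_Gamma0_iff_dvd.2 hd : g⁻¹ ∈ Gamma0 p)
    simpa [repCoset] using this
  · obtain ⟨j, hj, h⟩ := exists_coset g⁻¹ hd
    exact ⟨some ⟨j, hj⟩, QuotientGroup.eq.2 (by simpa [repCoset] using inv_mem h)⟩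

/-- The product over the cosets is invariant. -/
theorem norm_invariant (hf : IsLv p 2 f) (A : SL(2, ℤ)) :
    (∏ x : Option (Fin p), f ∣[(2 : ℤ)] repCoset x) ∣[((2 * (p + 1) : ℕ) : ℤ)] A =
      ∏ x : Option (Fin p), f ∣[(2 : ℤ)] repCoset x := by
  set e := Equiv.ofBijective _ (repCoset_bijective (p := p))
  let σ : Option (Fin p) ≃ Option (Fin p) := (e.trans (MulAction.toPerm A⁻¹)).trans e.symm
  rw [show p + 1 = (Finset.univ : Finset (Option (Fin p))).card by simp, prod_slash]
  refine Fintype.prod_equiv σ _ _ fun x => ?_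
  rw [← SlashAction.slash_mul]
  refine slash_eq_of_coset hf.inv ?_
  have h : (QuotientGroup.mk (repCoset (σ x))⁻¹ : FA.Dim.Cos p) =
      QuotientGroup.mk (A⁻¹ * (repCoset x)⁻¹) :=
    e.apply_symm_apply _
  have := QuotientGroup.eq.1 h.symm
  simpa [mul_assoc] using this

theorem norm_split (f : ℍ → ℂ) :
    ∏ x : Option (Fin p), f ∣[(2 : ℤ)] repCoset x =
      f * ∏ j : Fin p, fun τ => W p 2 f (fdivPt p j τ) := by
  rw [Fintype.prod_option]
  congr 1
  · simp [repCoset]
  · refine Finset.prod_congr rfl fun j _ => funext fun τ => ?_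
    rw [show repCoset (some j) = ModularGroup.S * ModularGroup.T ^ ((j : ℕ) : ℤ) from rfl,
      SlashAction.slash_mul]
    exact slash_S_eq_W p 2 f j τ

/-- `U` is an involution on series of weight two and level `p`. -/
theorem up_up (hf : IsLv p 2 f) {A : PowerSeries ℂ} (hA : HasQ 1 f A) : Up p (Up p A) = A := by
  have hp : (p : ℂ) ≠ 0 := NeZero.ne _
  have h := hasQ_W_weight_two (hf.W even_two) (hasQ_W_weight_two hf hA)
  have h' : HasQ 1 (W p 2 (W p 2 f)) ((p : ℂ) ^ (-2 : ℤ) • A) := by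
    rw [W_W p even_two]
    exact hA.smul _
  have e := HasQ.unique one_pos h h'
  rw [map_neg, map_smul, smul_neg, neg_neg, smul_smul] at e
  refine smul_right_injective _ (zpow_ne_zero (-2 : ℤ) hp) (?_ : _ • _ = _ • _)
  rw [← e]
  congr 1
  rw [zpow_neg, zpow_two, mul_inv]

/-- A prime of the algebraic integers over `l`. -/
theorem exists_prime_over {l : ℕ} (hl : l.Prime) :
    ∃ m : Ideal ZB, m.IsMaximal ∧ ∀ z : ℤ, ((z : ZB) ∈ m ↔ (l : ℤ) ∣ z) := by
  obtain ⟨m, hm, hlm⟩ : ∃ m : Ideal ZB, m.IsMaximal ∧ (l : ZB) ∈ m := by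
    have hne : Ideal.span {(l : ZB)} ≠ ⊤ := by
      rw [Ne, Ideal.span_singleton_eq_top]
      rintro ⟨u, hu⟩
      have h1 : ((u⁻¹ : ZBˣ) : ZB).1 * (l : ℂ) = 1 := by
        have := congrArg Subtype.val u.inv_mul
        rwa [hu] at this
      have hint : IsIntegral ℤ ((l : ℚ)⁻¹) := by
        refine (isIntegral_algebraMap_iff (R := ℤ) (B := ℂ) (algebraMap ℚ ℂ).injective).1 ?_
        rw [map_inv₀, map_natCast, ← eq_inv_of_mul_eq_one_left h1]
        exact ((u⁻¹ : ZBˣ) : ZB).2
      obtain ⟨z, hz⟩ := IsIntegrallyClosed.isIntegral_iff.1 hint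
      have : (z * l : ℚ) = 1 := by
        rw [show (z : ℚ) = (l : ℚ)⁻¹ from hz, inv_mul_cancel₀ (Nat.cast_ne_zero.2 hl.ne_zero)]
      have : z * (l : ℤ) = 1 := by exact_mod_cast this
      have := Int.eq_one_of_mul_eq_one_left (by positivity) this
      exact hl.ne_one (by exact_mod_cast this)
    obtain ⟨m, hm, hle⟩ := Ideal.exists_le_maximal _ hne
    exact ⟨m, hm, hle (Ideal.subset_span rfl)⟩
  refine ⟨m, hm, fun z => ⟨fun hz => ?_, ?_⟩⟩
  · by_contra hd
    obtain ⟨u, v, huv⟩ := ((Nat.prime_iff_prime_int.1 hl).coprime_iff_not_dvd.2 hd)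
    refine hm.ne_top (m.eq_top_iff_one.2 ?_)
    have h : ((u * l + v * z : ℤ) : ZB) ∈ m := by
      push_cast
      exact m.add_mem (m.mul_mem_left _ hlm) (m.mul_mem_left _ hz)
    rwa [huv, Int.cast_one] at h
  · rintro ⟨c, rfl⟩
    push_cast
    exact m.mul_mem_right _ hlm

/-- The coefficient ring homomorphism of the algebraic integers. -/
def inclZB : ZB →+* ℂ := (integralClosure ℤ ℂ).val.toRingHom

/-- **Sturm's bound modulo `l`** in weight two and level `p`. -/
theorem dvd_of_dvd_low (hf : IsLv p 2 f) {A : PowerSeries ℤ}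
    (hA : HasQ 1 f (A.map (Int.castRingHom ℂ))) {l : ℕ} (hl : l.Prime)
    (hlow : ∀ n, 6 * n ≤ p + 1 → (l : ℤ) ∣ coeff n A) : ∀ n, (l : ℤ) ∣ coeff n A := by
  have hp : p.Prime := Fact.out
  have hpC : (p : ℂ) ≠ 0 := NeZero.ne _
  set ι := inclZB
  obtain ⟨m, hm, hml⟩ := exists_prime_over hl
  haveI := hm
  set φ := Ideal.Quotient.mk m
  haveI : IsDomain (ZB ⧸ m) := Ideal.Quotient.isDomain m
  -- the root of unity
  set ζ₀ := exp (2 * π * Complex.I / p)
  have hζp : ζ₀ ^ p = 1 := by
    rw [← Complex.exp_nat_mul, mul_div_cancel₀ _ hpC, Complex.exp_two_pi_mul_I]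
  let ζ : ZB := ⟨ζ₀, IsIntegral.of_pow hp.pos (hζp.symm ▸ isIntegral_one)⟩
  have hζ : ζ ^ p = 1 := Subtype.ext hζp
  -- the factors
  set AR : PowerSeries ZB := A.map (Int.castRingHom ZB)
  have hAR : AR.map ι = A.map (Int.castRingHom ℂ) := by
    rw [← RingHom.comp_apply, ← PowerSeries.map_comp, RingHom.eq_intCast' (ι.comp _)]
  set B : PowerSeries ZB := Up p AR
  set P : PowerSeries ZB := Vp p AR * ∏ j : Fin p, rescale (ζ ^ (j : ℕ)) B
  set g : ℍ → ℂ := (-(p : ℂ)) • W p 2 f
  have hg : HasQ 1 g (B.map ι) := by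
    have := (hasQ_W_weight_two hf hA).smul (-(p : ℂ))
    rwa [smul_neg, smul_smul, neg_mul, mul_inv_cancel₀ hpC, neg_one_smul, neg_neg, ← hAR,
      ← map_Up] at this
  set F : ℍ → ℂ := f * ∏ j : Fin p, fun τ => g (fdivPt p j τ)
  have hFP : HasQ (p : ℝ) F (P.map ι) := by
    rw [map_mul, map_prod, show (Vp p AR).map ι = Vp p (AR.map ι) from map_Vp _ p AR, hAR]
    refine (hA.changePeriod p).mul (Nat.cast_pos.2 hp.pos)
      (HasQ.prod (Nat.cast_pos.2 hp.pos) _ fun j _ => ?_)
    have h : (rescale (ζ ^ (j : ℕ)) B).map ι = rescale (ζ₀ ^ (j : ℕ)) (B.map ι) := by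
      ext n
      simp only [PowerSeries.coeff_map, coeff_rescale, map_mul, map_pow]
      rfl
    rw [h]
    exact hg.fdiv p j
  have hF : F = (-(p : ℂ)) ^ p • ∏ x : Option (Fin p), f ∣[(2 : ℤ)] repCoset x := by
    rw [norm_split]
    funext τ
    simp only [F, g, Pi.mul_apply, Finset.prod_apply, Pi.smul_apply, smul_eq_mul,
      Finset.prod_mul_distrib, Finset.prod_const, Finset.card_univ, Fintype.card_fin]
    ring
  have hinv : ∀ γ : SL(2, ℤ), F ∣[((2 * (p + 1) : ℕ) : ℤ)] γ = F := fun γ => by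
    rw [hF, ModularForm.SL_smul_slash, norm_invariant hf γ]
  have hpR : (0 : ℝ) < p := Nat.cast_pos.2 hp.pos
  have hper : Function.Periodic (F ∘ ofComplex) ((1 : ℝ) : ℂ) := by
    simpa using periodic_of_slash_T (hinv ModularGroup.T)
  have hE : HasQ 1 F (qe F) :=
    HasQ.of_periodic one_pos hper (hFP.mdiff hpR) (hFP.bdd hpR)
  have hPE : P.map ι = Vp p (qe F) := HasQ.unique hpR hFP (hE.changePeriod p)
  set S : PowerSeries ZB := Up p P
  have hS : S.map ι = qe F := by rw [map_Up, hPE, Up_mul_Vp]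
  have hPS : P = Vp p S := by
    refine PowerSeries.map_injective ι Subtype.val_injective ?_
    rw [show (Vp p S).map ι = Vp p (S.map ι) from map_Vp _ p S, hS, hPE]
  -- the first coefficients
  have hAφ : ∀ n, 6 * n ≤ p + 1 → φ (coeff n AR) = 0 := fun n hn => by
    rw [PowerSeries.coeff_map, eq_intCast]
    exact Ideal.Quotient.eq_zero_iff_mem.2 ((hml _).2 (hlow n hn))
  have hlow' : ∀ i, 12 * i ≤ 2 * (p + 1) → φ (coeff i S) = 0 := fun i hi => by
    rw [coeff_Up, PowerSeries.coeff_mul, map_sum]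
    refine Finset.sum_eq_zero fun x hx => ?_
    rw [map_mul, coeff_Vp]
    split_ifs with hd
    · rw [hAφ, zero_mul]
      have : x.1 ≤ i * p := by
        have := Finset.HasAntidiagonal.mem_antidiagonal.mp hx
        omega
      have : x.1 / p ≤ i := Nat.div_le_of_le_mul (by linarith)
      omega
    · rw [map_zero, zero_mul]
  have hall := FA.SturmModL.levelOne_sturm (ι := ι) Subtype.val_injective φ _ F S hinv
    (hS ▸ hE) hlow'
  have hS0 : S.map φ = 0 := PowerSeries.ext fun i => by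
    rw [PowerSeries.coeff_map, hall i, map_zero]
  have hzero : AR.map φ = 0 ∨ ∃ j : Fin p, (rescale (ζ ^ (j : ℕ)) B).map φ = 0 := by
    have e : (Vp p AR).map φ * ∏ j : Fin p, (rescale (ζ ^ (j : ℕ)) B).map φ = 0 := by
      rw [← map_prod, ← map_mul, show Vp p AR * ∏ j : Fin p, rescale (ζ ^ (j : ℕ)) B = Vp p S
        from hPS, show (Vp p S).map φ = Vp p (S.map φ) from map_Vp _ p S, hS0, map_zero]
    rcases mul_eq_zero.1 e with h | h
    · refine Or.inl ?_
      rw [show (Vp p AR).map φ = Vp p (AR.map φ) from map_Vp _ p AR] at h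
      rw [← Up_mul_Vp p (AR.map φ), h, map_zero]
    · obtain ⟨j, -, hj⟩ := Finset.prod_eq_zero_iff.1 h
      exact Or.inr ⟨j, hj⟩
  have hA0 : AR.map φ = 0 := by
    rcases hzero with h | ⟨j, hj⟩
    · exact h
    have hB : B.map φ = 0 := PowerSeries.ext fun n => by
      have e := congrArg (coeff n) hj
      rw [PowerSeries.coeff_map, coeff_rescale, map_mul, map_zero, mul_eq_zero] at e
      rw [PowerSeries.coeff_map, map_zero]
      refine e.resolve_left fun h => ?_
      have h1 : (1 : ZB ⧸ m) = 0 := by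
        have := congrArg (fun x => x ^ p) h
        simp only [← map_pow, zero_pow hp.ne_zero] at this
        rwa [← pow_mul, ← pow_mul, show (j : ℕ) * (n * p) = p * ((j : ℕ) * n) by ring, pow_mul, hζ,
          one_pow, map_one] at this
      exact one_ne_zero h1
    have hUU : Up p (Up p AR) = AR := by
      refine PowerSeries.map_injective ι Subtype.val_injective ?_
      rw [map_Up, map_Up, hAR]
      exact up_up hf hA
    rw [← hUU, map_Up, show Up p AR = B from rfl, hB, map_zero]
  intro n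
  have e := congrArg (coeff n) hA0
  rw [PowerSeries.coeff_map, PowerSeries.coeff_map, map_zero, eq_intCast] at e
  exact (hml _).1 (Ideal.Quotient.eq_zero_iff_mem.1 e)

end FA.SturmPrimeLevel

end
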