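import Fermat.Agent.Tau.WeightSucc
import Fermat.Agent.Supersingular.PrimeField
import Mathlib.LinearAlgebra.Trace
import Mathlib.LinearAlgebra.StdBasis

/-!
# Weight `p + 1` and functions on the supersingular invariants

`F ↦ F / β` at a representative rational in `j` sends the forms of weight `p + 1` to the functions
`g` with `g (j ^ p) = g (j) ^ p`. Their number forces the zeros of `A` to be all supersingular
invariants; `U` becomes composition with `j ↦ j ^ p`, with trace the number of its fixed points.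
-/

set_option autoImplicit false
set_option linter.style.haveILetI false

noncomputable section

namespace FA.SupersingularPoints

open FA.SupersingularCount FA.SwinnertonDyer FA.HasseEis
open scoped Classical

/-- An algebraic closure of the prime field. -/
abbrev Fbar (p : ℕ) [Fact p.Prime] := AlgebraicClosure (ZMod p)

variable {p : ℕ} [Fact p.Prime]

instance instFiniteIsobSucc : Module.Finite (ZMod p) (IsobSub p (p + 1)) :=
  haveI := finite_isob (p := p) (p + 1)
  Module.Finite.of_finite

/-- The point `(a, b)` chosen over `j`. -/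
def repPoint (j : Fbar p) : Fin 2 → Fbar p :=
  if j = 0 then ![0, 1] else if j = 1728 then ![1, 0] else ![j / (j - 1728), j / (j - 1728)]

theorem repPoint_pow (j : Fbar p) : repPoint (j ^ p) = fun i => repPoint j i ^ p := by
  have hp0 : p ≠ 0 := (Fact.out : p.Prime).ne_zero
  have h1 : (1728 : Fbar p) ^ p = 1728 := by rw [← frobenius_def]; exact map_ofNat _ 1728
  have e1 : j ^ p = 0 ↔ j = 0 := pow_eq_zero_iff hp0
  have e2 : j ^ p = 1728 ↔ j = 1728 := by
    conv_lhs => rw [← h1]
    exact (frobenius_inj (Fbar p) p).eq_iff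
  funext i
  unfold repPoint
  simp only [e1, e2]
  split_ifs <;> fin_cases i <;> simp [zero_pow hp0, div_pow, sub_pow_char, h1]

theorem invariant_repPoint (h5 : 5 ≤ p) (j : Fbar p) :
    repPoint j 0 ^ 3 ≠ repPoint j 1 ^ 2 ∧
      1728 * repPoint j 0 ^ 3 / (repPoint j 0 ^ 3 - repPoint j 1 ^ 2) = j := by
  obtain ⟨-, -, -, -, h1728⟩ := small_ne_zero (k := Fbar p) (q := p) h5
  unfold repPoint
  split_ifs with h0 h1
  · simp [h0]
  · simp [h1]
  · have hsub : j - 1728 ≠ 0 := sub_ne_zero.2 h1
    simp only [Matrix.cons_val_zero, Matrix.cons_val_one, Matrix.cons_val_fin_one]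
    set t := j / (j - 1728) with ht
    have ht0 : t ≠ 0 := div_ne_zero h0 hsub
    have ht1 : t - 1 ≠ 0 := by
      rw [ht, div_sub_one hsub, show j - (j - 1728) = 1728 by ring]
      exact div_ne_zero h1728 hsub
    have hne : t ^ 3 - t ^ 2 = t ^ 2 * (t - 1) := by ring
    refine ⟨fun e => mul_ne_zero (pow_ne_zero 2 ht0) ht1 (by rw [← hne, e, sub_self]), ?_⟩
    rw [hne, ht, div_sub_one hsub, show j - (j - 1728) = 1728 by ring]
    field_simp

/-- Every point off the cusp is equivalent to a chosen one. -/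
theorem exists_repPoint (h5 : 5 ≤ p) {x : Fin 2 → Fbar p} (hab : x 0 ^ 3 ≠ x 1 ^ 2) :
    ∃ u : Fbar p, u ≠ 0 ∧ ∃ j, ![u ^ 4 * x 0, u ^ 6 * x 1] = repPoint j := by
  obtain ⟨-, -, -, -, h1728⟩ := small_ne_zero (k := Fbar p) (q := p) h5
  rcases eq_or_ne (x 0) 0 with ha | ha
  · have hb : x 1 ≠ 0 := fun e => hab (by rw [ha, e]; ring)
    obtain ⟨u, hu⟩ := IsAlgClosed.exists_pow_nat_eq (x 1)⁻¹ (show 0 < 6 by norm_num)
    refine ⟨u, fun h => inv_ne_zero hb (by rw [← hu, h, zero_pow (by norm_num)]), 0, ?_⟩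
    simp [repPoint, ha, hu, hb]
  rcases eq_or_ne (x 1) 0 with hb | hb
  · obtain ⟨u, hu⟩ := IsAlgClosed.exists_pow_nat_eq (x 0)⁻¹ (show 0 < 4 by norm_num)
    refine ⟨u, fun h => inv_ne_zero ha (by rw [← hu, h, zero_pow (by norm_num)]), 1728, ?_⟩
    simp [repPoint, h1728, hb, hu, ha]
  obtain ⟨u, hu⟩ := IsAlgClosed.exists_pow_nat_eq (x 0 / x 1) (show 0 < 2 by norm_num)
  have hsub := sub_ne_zero.2 hab
  set J := 1728 * x 0 ^ 3 / (x 0 ^ 3 - x 1 ^ 2) with hJ
  refine ⟨u, fun h => div_ne_zero ha hb (by rw [← hu, h, zero_pow two_ne_zero]), J, ?_⟩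
  have hJ0 : J ≠ 0 := div_ne_zero (mul_ne_zero h1728 (pow_ne_zero _ ha)) hsub
  have hJ1 : J ≠ 1728 := by
    rw [hJ, Ne, div_eq_iff hsub]
    intro e
    exact mul_ne_zero h1728 (pow_ne_zero 2 hb) (by linear_combination e)
  have ht : x 0 ^ 3 / x 1 ^ 2 = J / (J - 1728) := by
    rw [hJ]
    field_simp
    ring
  rw [repPoint, if_neg hJ0, if_neg hJ1, ← ht, show u ^ 4 = (u ^ 2) ^ 2 by ring,
    show u ^ 6 = (u ^ 2) ^ 3 by ring, hu]
  congr 1
  · field_simp
  · congr 1
    field_simp

/-- At a zero of `A` on the cusp `∂A` vanishes too. -/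
theorem eq_zero_of_cusp (h5 : 5 ≤ p) {x : Fin 2 → Fbar p} (hab : x 0 ^ 3 = x 1 ^ 2)
    (hx : MvPolynomial.aeval x (hassePoly p) = 0) :
    MvPolynomial.aeval x (dOp p (hassePoly p)) = 0 := by
  have hd := dOp_isob (isob_hassePoly (p := p) h5)
  rcases eq_or_ne (x 0) 0 with ha | ha
  · have hb : x 1 = 0 := by
      rw [ha, zero_pow three_ne_zero] at hab
      exact eq_zero_of_pow_eq_zero hab.symm
    have h := aeval_scale hd (0 : Fbar p) x
    rw [zero_pow (show p - 1 + 2 ≠ 0 by omega), zero_mul] at h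
    have e : ![(0 : Fbar p) ^ 4 * x 0, 0 ^ 6 * x 1] = x := by
      funext i
      fin_cases i <;> simp [ha, hb]
    rwa [e] at h
  have hb : x 1 ≠ 0 := fun e => ha (by
    rw [e, zero_pow two_ne_zero] at hab
    exact eq_zero_of_pow_eq_zero hab)
  obtain ⟨u, hu⟩ := IsAlgClosed.exists_pow_nat_eq (x 1 / x 0) (show 0 < 2 by norm_num)
  have hu0 : u ≠ 0 := fun h => div_ne_zero hb ha (by rw [← hu, h, zero_pow two_ne_zero])
  have hxu : x = ![u ^ 4 * (fun _ => (1 : Fbar p)) (0 : Fin 2),
      u ^ 6 * (fun _ => (1 : Fbar p)) (1 : Fin 2)] := by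
    rw [show u ^ 4 = (u ^ 2) ^ 2 by ring, show u ^ 6 = (u ^ 2) ^ 3 by ring, hu]
    funext i
    fin_cases i
    · simp only [Fin.zero_eta, Matrix.cons_val_zero]
      field_simp
      linear_combination hab
    · simp only [Fin.mk_one, Matrix.cons_val_one, Matrix.cons_val_fin_one]
      field_simp
      linear_combination hab
  rw [hxu, aeval_scale (isob_hassePoly h5) u (fun _ => (1 : Fbar p)),
    show (fun _ => (1 : Fbar p)) = algebraMap (ZMod p) (Fbar p) ∘ fun _ : Fin 2 => (1 : ZMod p) by
      funext i; simp, MvPolynomial.aeval_algebraMap_apply, MvPolynomial.aeval_eq_eval,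
    show MvPolynomial.eval (fun _ => (1 : ZMod p)) (hassePoly p) = 1 by
      rw [← constantCoeff_phi, phi_hassePoly h5, map_one], map_one, mul_one] at hx
  exact absurd hx (pow_ne_zero _ hu0)

variable (p) in
/-- The invariants at whose chosen point `A` vanishes. -/
def zeroSet : Set (Fbar p) := {j | MvPolynomial.aeval (repPoint j) (hassePoly p) = 0}

theorem zeroSet_subset (h5 : 5 ≤ p) : zeroSet p ⊆ ssInvariants (Fbar p) p := fun j hj => by
  obtain ⟨hab, hJ⟩ := invariant_repPoint h5 j
  exact hJ ▸ mem_ssInvariants_of_zero h5 hab hj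

/-- `j ↦ j ^ p` on the zero set. -/
def frobSet (j : zeroSet p) : zeroSet p :=
  ⟨j.1 ^ p, by
    show MvPolynomial.aeval (repPoint (j.1 ^ p)) (hassePoly p) = 0
    have h := aeval_pow_char 1 (hassePoly p) (repPoint j.1)
    simp only [pow_one] at h
    rw [repPoint_pow, ← h, show MvPolynomial.aeval (repPoint j.1) (hassePoly p) = 0 from j.2,
      zero_pow (Fact.out : p.Prime).ne_zero]⟩

theorem frobSet_frobSet (h5 : 5 ≤ p) (j : zeroSet p) : frobSet (frobSet j) = j := by
  obtain ⟨W, _, hW, hss⟩ := zeroSet_subset h5 j.2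
  refine Subtype.ext ?_
  show (j.1 ^ p) ^ p = j.1
  rw [← pow_mul, ← pow_two, ← hW]
  exact SupersingularField.j_pow_sq h5 hss

/-- `F ↦ F / β` on the zero set. -/
def ratioMap (p : ℕ) [Fact p.Prime] : IsobSub p (p + 1) →ₗ[ZMod p] (zeroSet p → Fbar p) where
  toFun F j := MvPolynomial.aeval (repPoint j.1) F.1 /
    MvPolynomial.aeval (repPoint j.1) (betaPoly p)
  map_add' F G := by funext j; simp [add_div]
  map_smul' c F := by funext j; simp [Algebra.smul_def, mul_div_assoc]

theorem ratioMap_frobSet (F : IsobSub p (p + 1)) (j : zeroSet p) :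
    ratioMap p F (frobSet j) = ratioMap p F j ^ p := by
  have h := fun H : MvPolynomial (Fin 2) (ZMod p) => aeval_pow_char 1 H (repPoint j.1)
  simp only [pow_one] at h
  simp only [frobSet, repPoint_pow, ← h, ratioMap, LinearMap.coe_mk, AddHom.coe_mk, div_pow]

theorem ratioMap_injective (h5 : 5 ≤ p) : Function.Injective (ratioMap p) := by
  refine (injective_iff_map_eq_zero _).2 fun F hF => Subtype.ext ?_
  refine eq_zero_of_forall h5 F.2 fun x hx => ?_
  by_cases hab : x 0 ^ 3 = x 1 ^ 2
  · rw [eq_zero_of_cusp h5 hab hx, mul_zero]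
  obtain ⟨u, hu, j, hj⟩ := exists_repPoint h5 hab
  have hA : j ∈ zeroSet p := by
    show MvPolynomial.aeval (repPoint j) (hassePoly p) = 0
    rw [← hj, aeval_scale (isob_hassePoly h5), hx, mul_zero]
  have h := congrFun hF ⟨j, hA⟩
  simp only [ratioMap, LinearMap.coe_mk, AddHom.coe_mk, Pi.zero_apply, ← hj,
    aeval_scale F.2, aeval_scale (isob_betaPoly h5)] at h
  simp only [div_eq_zero_iff, mul_eq_zero, pow_ne_zero _ hu, false_or] at h
  rcases h with h | h
  · rw [h, zero_mul]
  · simp only [betaPoly, map_mul, MvPolynomial.aeval_C, mul_eq_zero, map_eq_zero, inv_eq_zero,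
      twelve_ne h5, false_or] at h
    rw [h, mul_zero]

/-- `U` is composition with `j ↦ j ^ p`. -/
theorem ratioMap_uOp (h5 : 5 ≤ p) {F H : IsobSub p (p + 1)}
    (he : phi p H.1 = uOp p (phi p F.1)) (j : zeroSet p) :
    ratioMap p H j = ratioMap p F (frobSet j) := by
  obtain ⟨H', hH', hHe, hval⟩ := exists_uOp h5 F.2
  obtain rfl : H.1 = H' := sub_eq_zero.1 (phi_injective h5 (MvPolynomial.IsWeightedHomogeneous.sub
    H.2 hH') (by rw [map_sub, he, hHe, sub_self]))
  have h := hval (repPoint j.1) j.2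
  rw [ratioMap_frobSet]
  simp only [ratioMap, LinearMap.coe_mk, AddHom.coe_mk]
  set a := MvPolynomial.aeval (repPoint j.1) F.1 with ha
  set B := MvPolynomial.aeval (repPoint j.1) (betaPoly p) with hB
  set c := MvPolynomial.aeval (repPoint j.1) H.1 with hc
  rcases eq_or_ne B 0 with hB0 | hB0
  · simp [hB0, zero_pow (Fact.out : p.Prime).ne_zero]
  -- `(c / B) ^ p = a / B`, and `c / B` is fixed by the square of Frobenius
  have h1 : (c / B) ^ p = a / B := by
    rw [div_pow, h, div_eq_div_iff (pow_ne_zero _ hB0) hB0, mul_assoc, ← pow_succ,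
      Nat.sub_add_cancel (Fact.out : p.Prime).one_le]
  have h2 : (c / B) ^ p ^ 2 = c / B := by
    rw [div_pow, div_eq_div_iff (pow_ne_zero _ hB0) hB0]
    exact pow_sq_mul_comm h5 H.2 (isob_betaPoly h5) j.2
  rw [← h1, ← pow_mul, ← pow_two, h2]

/-- **Artin**: twisted invariant vectors independent over `𝔽_p` are independent over `k`. -/
theorem linearIndependent_twisted {k T ι : Type} [Field k] [CharP k p] [Algebra (ZMod p) k]
    (σ : T → T) (hσ : Function.Surjective σ) {v : ι → T → k}
    (hv : ∀ i t, v i (σ t) = v i t ^ p) (hli : LinearIndependent (ZMod p) v) :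
    LinearIndependent k v := by
  rw [linearIndependent_iff']
  intro s
  induction s using Finset.induction_on with
  | empty => simp
  | insert a s ha ih =>
    intro g hg
    by_cases hga : g a = 0
    · rw [Finset.sum_insert ha, hga, zero_smul, zero_add] at hg
      intro i hi
      rcases Finset.mem_insert.1 hi with rfl | hi
      · exact hga
      · exact ih g hg i hi
    exfalso
    set h := fun i => (g a)⁻¹ * g i with hh
    have h1 : ∑ i ∈ insert a s, h i • v i = 0 := by
      simp only [hh, ← smul_smul, ← Finset.smul_sum, hg, smul_zero]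
    have h2 : ∑ i ∈ insert a s, h i ^ p • v i = 0 := by
      funext t
      obtain ⟨t, rfl⟩ := hσ t
      have := congrArg (frobenius k p) (congrFun h1 t)
      simpa [Finset.sum_apply, map_sum, frobenius_def, mul_pow, ← hv,
        zero_pow (Fact.out : p.Prime).ne_zero] using this
    have h3 : ∑ i ∈ s, (h i ^ p - h i) • v i = 0 := by
      have e : ∑ i ∈ insert a s, (h i ^ p - h i) • v i = 0 := by
        simp only [sub_smul, Finset.sum_sub_distrib, h1, h2, sub_zero]
      rwa [Finset.sum_insert ha, show h a ^ p - h a = 0 by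
        simp [hh, inv_mul_cancel₀ hga], zero_smul, zero_add] at e
    have hrat : ∀ i ∈ insert a s, ∃ c : ZMod p, algebraMap (ZMod p) k c = h i := fun i hi => by
      refine SupersingularPrime.mem_range_of_pow_eq _ ?_
      rcases Finset.mem_insert.1 hi with rfl | hi
      · simp [hh, inv_mul_cancel₀ hga]
      · exact sub_eq_zero.1 (ih _ h3 i hi)
    choose! c hc using hrat
    have h4 : ∑ i ∈ insert a s, c i • v i = 0 := by
      refine Eq.trans (Finset.sum_congr rfl fun i hi => ?_) h1
      rw [← hc i hi, algebraMap_smul]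
    have h5 := linearIndependent_iff'.1 hli _ c h4 a (Finset.mem_insert_self a s)
    have := hc a (Finset.mem_insert_self a s)
    rw [h5, map_zero] at this
    simp [hh, inv_mul_cancel₀ hga] at this

theorem dimWeight_succ (h5 : 5 ≤ p) :
    dimWeight (p + 1) = p / 12 + (if p % 3 = 2 then 1 else 0) + (if p % 4 = 3 then 1 else 0) := by
  have hp : p.Prime := Fact.out
  have h2 : p % 2 = 1 := Nat.odd_iff.1 (hp.odd_of_ne_two (by omega))
  have h3 : p % 3 ≠ 0 := fun e => by
    have := (Nat.prime_dvd_prime_iff_eq Nat.prime_three hp).1 (Nat.dvd_of_mod_eq_zero e)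
    omega
  unfold dimWeight
  split_ifs <;> omega

theorem finrank_isobSub (h5 : 5 ≤ p) :
    Module.finrank (ZMod p) (IsobSub p (p + 1)) = (ssInvariants (Fbar p) p).ncard := by
  haveI := finite_isob (p := p) (p + 1)
  have h := Module.natCard_eq_pow_finrank (K := ZMod p) (V := IsobSub p (p + 1))
  rw [card_isob (by
    obtain ⟨m, rfl⟩ := (Fact.out : p.Prime).odd_of_ne_two (by omega)
    exact ⟨m + 1, by omega⟩), Nat.card_zmod] at h
  rw [(count (k := Fbar p) h5).2.2.1, ← dimWeight_succ h5,
    Nat.pow_right_injective (Fact.out : p.Prime).two_le h]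

/-- The zeros of `A` are the supersingular invariants and the values at a basis a basis of the
functions. -/
theorem zeroSet_eq (h5 : 5 ≤ p) :
    zeroSet p = ssInvariants (Fbar p) p ∧
      LinearIndependent (Fbar p) (ratioMap p ∘ Module.finBasis (ZMod p) (IsobSub p (p + 1))) := by
  have hfin := (count (k := Fbar p) h5).2.2.2
  haveI : Fintype (zeroSet p) := (hfin.subset (zeroSet_subset h5)).fintype
  have hli : LinearIndependent (Fbar p)
      (ratioMap p ∘ Module.finBasis (ZMod p) (IsobSub p (p + 1))) :=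
    linearIndependent_twisted (p := p) frobSet
      (Function.Involutive.surjective (frobSet_frobSet h5))
      (fun i t => ratioMap_frobSet _ t)
      ((Module.finBasis _ _).linearIndependent.map' _
        (LinearMap.ker_eq_bot.2 (ratioMap_injective h5)))
  refine ⟨Set.eq_of_subset_of_ncard_le (zeroSet_subset h5) ?_ hfin, hli⟩
  have h := hli.fintype_card_le_finrank
  rw [Fintype.card_fin, Module.finrank_pi, finrank_isobSub h5] at h
  rwa [Set.ncard_eq_toFinset_card' (zeroSet p), Set.toFinset_card]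

/-- **The range**: the functions with `g (j ^ p) = g (j) ^ p`. -/
theorem exists_ratioMap_iff (h5 : 5 ≤ p) (g : zeroSet p → Fbar p) :
    (∃ F, ratioMap p F = g) ↔ ∀ j, g (frobSet j) = g j ^ p := by
  refine ⟨?_, fun hg => ?_⟩
  · rintro ⟨F, rfl⟩ j
    exact ratioMap_frobSet F j
  obtain ⟨hT, hli⟩ := zeroSet_eq h5
  haveI : Fintype (zeroSet p) :=
    ((count (k := Fbar p) h5).2.2.2.subset (zeroSet_subset h5)).fintype
  set b := Module.finBasis (ZMod p) (IsobSub p (p + 1))
  have hspan := hli.span_eq_top_of_card_eq_finrank' (by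
    rw [Fintype.card_fin, Module.finrank_pi, finrank_isobSub h5, ← hT,
      Set.ncard_eq_toFinset_card', Set.toFinset_card])
  obtain ⟨c, hc⟩ := (Submodule.mem_span_range_iff_exists_fun _).1
    (hspan ▸ Submodule.mem_top (x := g))
  have hfix : ∑ i, (c i ^ p - c i) • (ratioMap p (b i)) = 0 := by
    funext t
    obtain ⟨t, rfl⟩ := (Function.Involutive.surjective (frobSet_frobSet h5)) t
    have e1 : g (frobSet t) = ∑ i, c i * ratioMap p (b i) (frobSet t) := by
      simp [← hc, Finset.sum_apply]
    have e2 : g t ^ p = ∑ i, c i ^ p * ratioMap p (b i) (frobSet t) := by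
      rw [← hc, ← frobenius_def]
      simp [Finset.sum_apply, map_sum, frobenius_def, mul_pow, ratioMap_frobSet]
    rw [hg t, e2] at e1
    simp only [Finset.sum_apply, Pi.smul_apply, smul_eq_mul, sub_mul, Finset.sum_sub_distrib, e1,
      sub_self, Pi.zero_apply]
  have hrat : ∀ i, ∃ a : ZMod p, algebraMap (ZMod p) (Fbar p) a = c i := fun i =>
    SupersingularPrime.mem_range_of_pow_eq _
      (sub_eq_zero.1 (Fintype.linearIndependent_iff.1 hli _ hfix i))
  choose a ha using hrat
  refine ⟨∑ i, a i • b i, ?_⟩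
  rw [map_sum, ← hc]
  exact Finset.sum_congr rfl fun i _ => by
    rw [map_smul, ← ha i, algebraMap_smul]; rfl

/-- **The trace of `U`** is the number of supersingular invariants in the prime field. -/
theorem trace_uOp (h5 : 5 ≤ p) (U : IsobSub p (p + 1) →ₗ[ZMod p] IsobSub p (p + 1))
    (hU : ∀ F, phi p (U F).1 = uOp p (phi p F.1)) :
    LinearMap.trace (ZMod p) _ U =
      ({j | j ∈ ssInvariants (Fbar p) p ∧ j ^ p = j}.ncard : ZMod p) := by
  obtain ⟨hT, hli⟩ := zeroSet_eq h5
  haveI : Fintype (zeroSet p) :=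
    ((count (k := Fbar p) h5).2.2.2.subset (zeroSet_subset h5)).fintype
  set b := Module.finBasis (ZMod p) (IsobSub p (p + 1))
  have hcard : Fintype.card (Fin (Module.finrank (ZMod p) (IsobSub p (p + 1)))) =
      Module.finrank (Fbar p) (zeroSet p → Fbar p) := by
    rw [Fintype.card_fin, Module.finrank_pi, finrank_isobSub h5, ← hT,
      Set.ncard_eq_toFinset_card', Set.toFinset_card]
  set B := Module.Basis.mk hli (hli.span_eq_top_of_card_eq_finrank' hcard).ge with hB
  set P := LinearMap.funLeft (Fbar p) (Fbar p) (frobSet (p := p)) with hP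
  have hBi : ∀ i, B i = ratioMap p (b i) := fun i => by rw [hB, Module.Basis.mk_apply]; rfl
  have hPB : ∀ i, P (B i) = ∑ l, algebraMap (ZMod p) (Fbar p) (b.repr (U (b i)) l) • B l :=
    fun i => by
    have e : P (B i) = ratioMap p (U (b i)) := by
      funext t
      rw [hBi, hP, LinearMap.funLeft_apply, ratioMap_uOp h5 (hU (b i))]
    rw [e]
    conv_lhs => rw [← b.sum_repr (U (b i)), map_sum]
    exact Finset.sum_congr rfl fun l _ => by rw [map_smul, hBi, algebraMap_smul]
  have hmat : LinearMap.toMatrix B B P =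
      (LinearMap.toMatrix b b U).map (algebraMap (ZMod p) (Fbar p)) := by
    ext l i
    rw [LinearMap.toMatrix_apply, Matrix.map_apply, LinearMap.toMatrix_apply, hPB,
      B.repr_sum_self]
  refine (algebraMap (ZMod p) (Fbar p)).injective ?_
  rw [LinearMap.trace_eq_matrix_trace (ZMod p) b, Matrix.trace, map_sum, map_natCast]
  calc ∑ i, algebraMap (ZMod p) (Fbar p) ((LinearMap.toMatrix b b U).diag i)
      = LinearMap.trace (Fbar p) _ P := by
        rw [LinearMap.trace_eq_matrix_trace (Fbar p) B, hmat, Matrix.trace]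
        rfl
    _ = ∑ t, if frobSet t = t then 1 else 0 := by
        rw [LinearMap.trace_eq_matrix_trace (Fbar p) (Pi.basisFun (Fbar p) (zeroSet p)),
          Matrix.trace]
        refine Finset.sum_congr rfl fun t _ => ?_
        rw [Matrix.diag_apply, LinearMap.toMatrix_apply, Pi.basisFun_repr, Pi.basisFun_apply, hP,
          LinearMap.funLeft_apply, Pi.single_apply]
    _ = _ := by
        rw [Finset.sum_boole]
        congr 1
        rw [← hT, ← Set.ncard_coe_finset, ← Set.ncard_image_of_injective _ Subtype.val_injective]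
        congr 1
        ext j
        simp only [Finset.coe_filter, Finset.mem_univ, true_and, Set.mem_image, Set.mem_ofPred_eq]
        constructor
        · rintro ⟨t, ht, rfl⟩
          exact ⟨t.2, congrArg Subtype.val ht⟩
        · rintro ⟨hj, he⟩
          exact ⟨⟨j, hj⟩, Subtype.ext he, rfl⟩

/-- The map from isobaric polynomials to series. -/
def seriesMap (p : ℕ) [Fact p.Prime] : IsobSub p (p + 1) →ₗ[ZMod p] PowerSeries (ZMod p) :=
  (phi p).toLinearMap.comp (IsobSub p (p + 1)).subtype

/-- The forms modulo `p` of weight `p + 1`. -/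
def formSpace (p : ℕ) [Fact p.Prime] : Submodule (ZMod p) (PowerSeries (ZMod p)) :=
  LinearMap.range (seriesMap p)

theorem mem_formSpace (h5 : 5 ≤ p) (f : PowerSeries (ZMod p)) :
    f ∈ formSpace p ↔ IsFormModP p (p + 1) f := by
  constructor
  · rintro ⟨F, rfl⟩
    exact isFormModP_phi F.2
  · intro h
    obtain ⟨F, hF, rfl⟩ := h.exists_isob h5
    exact ⟨⟨F, hF⟩, rfl⟩

theorem seriesMap_injective (h5 : 5 ≤ p) : Function.Injective (seriesMap p) :=
  (injective_iff_map_eq_zero _).2 fun F hF => Subtype.ext (phi_injective h5 F.2 hF)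

/-- The polynomial of a form. -/
def formEquiv (h5 : 5 ≤ p) : formSpace p ≃ₗ[ZMod p] IsobSub p (p + 1) :=
  (LinearEquiv.ofInjective (seriesMap p) (seriesMap_injective h5)).symm

theorem phi_formEquiv (h5 : 5 ≤ p) (f : formSpace p) : phi p (formEquiv h5 f).1 = f.1 :=
  congrArg Subtype.val
    ((LinearEquiv.ofInjective (seriesMap p) (seriesMap_injective h5)).apply_symm_apply f)

/-- A form as a function on a set equal to the zero set. -/
def toFunctions (h5 : 5 ≤ p) {S : Set (Fbar p)} (hS : zeroSet p = S) :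
    formSpace p →ₗ[ZMod p] (S → Fbar p) :=
  (LinearMap.funLeft (ZMod p) (Fbar p) (Equiv.setCongr hS).symm).comp
    ((ratioMap p).comp (formEquiv h5).toLinearMap)

theorem toFunctions_apply (h5 : 5 ≤ p) {S : Set (Fbar p)} (hS : zeroSet p = S) (f : formSpace p)
    (j : S) : toFunctions h5 hS f j = ratioMap p (formEquiv h5 f) ((Equiv.setCongr hS).symm j) :=
  rfl

theorem toFunctions_spec (h5 : 5 ≤ p) {S : Set (Fbar p)} (hS : zeroSet p = S) :
    Function.Injective (toFunctions h5 hS) ∧
      ∀ g, (∃ f, toFunctions h5 hS f = g) ↔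
        ∀ j j' : S, j'.1 = j.1 ^ p → g j' = g j ^ p := by
  subst hS
  refine ⟨fun f f' h => (formEquiv h5).injective (ratioMap_injective h5 h), fun g => ⟨?_, ?_⟩⟩
  · rintro ⟨f, rfl⟩ j j' hj
    rw [show j' = frobSet j from Subtype.ext hj]
    exact ratioMap_frobSet _ j
  · intro hg
    obtain ⟨F, hF⟩ := (exists_ratioMap_iff h5 g).2 fun t => hg _ _ rfl
    refine ⟨(formEquiv h5).symm F, funext fun j => ?_⟩
    rw [toFunctions_apply, LinearEquiv.apply_symm_apply, hF]
    rfl

/-- `U` on the forms of weight `p + 1`. -/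
def uForms (h5 : 5 ≤ p) : formSpace p →ₗ[ZMod p] formSpace p :=
  ({ toFun := uOp p
     map_add' := fun f g => by ext n; simp [uOp]
     map_smul' := fun c f => by ext n; simp [uOp] } :
    PowerSeries (ZMod p) →ₗ[ZMod p] PowerSeries (ZMod p)).restrict fun f hf =>
    (mem_formSpace h5 _).2 (isFormModP_uOp_of_two_le (by omega) ((mem_formSpace h5 f).1 hf))

theorem toFunctions_uForms (h5 : 5 ≤ p) {S : Set (Fbar p)} (hS : zeroSet p = S) (f : formSpace p)
    (j j' : S) (hj : j'.1 = j.1 ^ p) :
    toFunctions h5 hS (uForms h5 f) j = toFunctions h5 hS f j' := by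
  rw [toFunctions_apply, toFunctions_apply,
    ratioMap_uOp h5 (F := formEquiv h5 f) (by rw [phi_formEquiv, phi_formEquiv]; rfl)]
  exact congrArg _ (Subtype.ext hj.symm)

theorem trace_uForms (h5 : 5 ≤ p) :
    LinearMap.trace (ZMod p) _ (uForms (p := p) h5) =
      ({j | j ∈ ssInvariants (Fbar p) p ∧ j ^ p = j}.ncard : ZMod p) := by
  have h := trace_uOp h5 ((formEquiv h5).conj (uForms h5)) fun F => by
    rw [LinearEquiv.conj_apply_apply, phi_formEquiv, ← congrArg Subtype.val
      ((formEquiv h5).apply_symm_apply F), phi_formEquiv]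
    rfl
  rwa [LinearMap.trace_conj'] at h

theorem finrank_formSpace (h5 : 5 ≤ p) :
    Module.finrank (ZMod p) (formSpace p) = (ssInvariants (Fbar p) p).ncard := by
  rw [(formEquiv h5).finrank_eq, finrank_isobSub h5]

end FA.SupersingularPoints

end
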