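import Fermat.Agent.Tau.SupersingularFunctions
import Fermat.Agent.Supersingular.OggBound
import Mathlib.LinearAlgebra.Lagrange

/-!
# The mass formula of a form of weight `p + 1`

Along the Legendre family `F` becomes a polynomial `Q` of degree at most `m + 1`, `A` becomes
`(-1) ^ m H` and `F / β` at a root `c` becomes `± Q(c) / (2 c (c - 1) H'(c))`. The sum of the
residues leaves the three cusps: over the roots the sum is `-6` times the constant term.
-/

set_option autoImplicit false
set_option linter.style.haveILetI false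

noncomputable section

namespace FA.SupersingularMass

open Polynomial FA.Carayol FA.SupersingularCount FA.SupersingularPoints FA.SwinnertonDyer
  FA.HasseEis
open scoped Classical

variable {p : ℕ} [Fact p.Prime]

/-- The first coordinate along the Legendre family. -/
def legX4 (p : ℕ) [Fact p.Prime] : (Fbar p)[X] := C 16 * (X ^ 2 - X + 1)

/-- The second coordinate along the Legendre family. -/
def legX6 (p : ℕ) [Fact p.Prime] : (Fbar p)[X] :=
  C (-32) * ((X + 1) * (X - C 2) * (C 2 * X - 1))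

/-- The point of the Legendre curve. -/
def legPoint (c : Fbar p) : Fin 2 → Fbar p :=
  ![16 * (c ^ 2 - c + 1), -32 * ((c + 1) * (c - 2) * (2 * c - 1))]

/-- An isobaric polynomial along the Legendre family. -/
def legPoly (F : MvPolynomial (Fin 2) (ZMod p)) : (Fbar p)[X] :=
  MvPolynomial.aeval ![legX4 p, legX6 p] F

theorem eval_legPoly (F : MvPolynomial (Fin 2) (ZMod p)) (c : Fbar p) :
    (legPoly F).eval c = MvPolynomial.aeval (legPoint c) F := by
  induction F using MvPolynomial.induction_on with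
  | C a => simp [legPoly, Polynomial.algebraMap_eq, IsScalarTower.algebraMap_apply (ZMod p)
      (Fbar p) ((Fbar p)[X])]
  | add a b ha hb => simp [legPoly] at ha hb ⊢; rw [ha, hb]
  | mul_X a i ha =>
    simp only [legPoly, map_mul, MvPolynomial.aeval_X, eval_mul] at ha ⊢
    rw [ha]
    congr 1
    fin_cases i <;> simp [legX4, legX6, legPoint]

/-- `legPoly` has degree at most half the weight; the three cusps have the values below. -/
theorem cusp_values {F : MvPolynomial (Fin 2) (ZMod p)} {n : ℕ} (hF : Isob F (2 * n)) :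
    (legPoly F).natDegree ≤ n ∧
    (legPoly F).coeff n =
      (-4 : Fbar p) ^ n * algebraMap (ZMod p) (Fbar p) (MvPolynomial.eval (fun _ => 1) F) ∧
    (legPoly F).eval 0 =
      (-4 : Fbar p) ^ n * algebraMap (ZMod p) (Fbar p) (MvPolynomial.eval (fun _ => 1) F) ∧
    (legPoly F).eval 1 =
      (4 : Fbar p) ^ n * algebraMap (ZMod p) (Fbar p) (MvPolynomial.eval (fun _ => 1) F) := by
  generalize hw : 2 * n = w at hF
  induction hF using MvPolynomial.IsWeightedHomogeneous.induction_on with
  | zero => simp [legPoly]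
  | add a b _ _ ha hb =>
    obtain ⟨a1, a2, a3, a4⟩ := ha
    obtain ⟨b1, b2, b3, b4⟩ := hb
    simp only [legPoly, map_add] at a1 a2 a3 a4 b1 b2 b3 b4 ⊢
    refine ⟨(natDegree_add_le _ _).trans (max_le a1 b1), ?_, ?_, ?_⟩
    · rw [coeff_add, a2, b2]; ring
    · rw [eval_add, a3, b3]; ring
    · rw [eval_add, a4, b4]; ring
  | monomial d a hd =>
    rw [weight_eq] at hd
    obtain rfl : n = 2 * d 0 + 3 * d 1 := by omega
    have h1 : (legX4 p).natDegree ≤ 2 := by unfold legX4; compute_degree
    have h2 : (legX6 p).natDegree ≤ 3 := by unfold legX6; compute_degree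
    have c1 : (legX4 p).coeff 2 = 16 := by unfold legX4; compute_degree!
    have c2 : (legX6 p).coeff 3 = -64 := by
      rw [show legX6 p = C (-64) * X ^ 3 + C 96 * X ^ 2 + C 96 * X + C (-64) by
        simp only [legX6, map_neg, map_ofNat]; ring]
      compute_degree!
    have hev : MvPolynomial.eval (fun _ => (1 : ZMod p)) (MvPolynomial.monomial d a) = a := by
      simp [MvPolynomial.eval_monomial]
    have e : legPoly (MvPolynomial.monomial d a) =
        C (algebraMap (ZMod p) (Fbar p) a) * (legX4 p ^ d 0 * legX6 p ^ d 1) := by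
      rw [legPoly, monomial_eq_mul]
      simp [IsScalarTower.algebraMap_apply (ZMod p) (Fbar p) ((Fbar p)[X]),
        Polynomial.algebraMap_eq]
    have d1 : (legX4 p ^ d 0).natDegree ≤ 2 * d 0 :=
      natDegree_pow_le.trans (by rw [mul_comm]; exact Nat.mul_le_mul_right _ h1)
    have d2 : (legX6 p ^ d 1).natDegree ≤ 3 * d 1 :=
      natDegree_pow_le.trans (by rw [mul_comm]; exact Nat.mul_le_mul_right _ h2)
    rw [e, hev]
    refine ⟨(natDegree_C_mul_le _ _).trans (natDegree_mul_le_of_le d1 d2), ?_, ?_, ?_⟩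
    · rw [coeff_C_mul, coeff_mul_add_eq_of_natDegree_le d1 d2, mul_comm 2 (d 0),
        mul_comm 3 (d 1), coeff_pow_of_natDegree_le h1, coeff_pow_of_natDegree_le h2, c1, c2,
        show (16 : Fbar p) = (-4) ^ 2 by norm_num, show (-64 : Fbar p) = (-4) ^ 3 by norm_num,
        ← pow_mul, ← pow_mul, pow_add, mul_comm (d 0), mul_comm (d 1)]
      ring
    · simp only [eval_mul, eval_C, eval_pow, legX4, legX6, eval_add, eval_sub, eval_X, eval_one]
      rw [pow_add, pow_mul, pow_mul]
      norm_num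
      ring
    · simp only [eval_mul, eval_C, eval_pow, legX4, legX6, eval_add, eval_sub, eval_X, eval_one]
      rw [pow_add, pow_mul, pow_mul]
      norm_num
      ring

/-- `∂` along the Legendre family. -/
theorem derivative_legPoly (F : MvPolynomial (Fin 2) (ZMod p)) :
    C 24 * X * (X - 1) * derivative (legPoly F) =
      legPoly (dOp p F) + C 4 * (C 2 * X - 1) * legPoly (wOp p F) := by
  induction F using MvPolynomial.induction_on with
  | C a => simp [legPoly, MvPolynomial.derivation_C, IsScalarTower.algebraMap_apply (ZMod p)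
      (Fbar p) ((Fbar p)[X]), Polynomial.algebraMap_eq]
  | add a b ha hb =>
    simp only [legPoly, map_add] at ha hb ⊢
    linear_combination ha + hb
  | mul_X a i ha =>
    have hX : C 24 * X * (X - 1) * derivative (legPoly (MvPolynomial.X i : MvPolynomial _ (ZMod p)))
        = legPoly (dOp p (MvPolynomial.X i)) +
          C 4 * (C 2 * X - 1) * legPoly (wOp p (MvPolynomial.X i)) := by
      fin_cases i <;>
        simp [legPoly, dOp, wOp, legX4, legX6, map_ofNat, derivative_mul] <;> ring
    simp only [legPoly, map_mul, Derivation.leibniz, smul_eq_mul, map_add, derivative_mul]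
      at ha hX ⊢
    linear_combination MvPolynomial.aeval ![legX4 p, legX6 p]
        (MvPolynomial.X i : MvPolynomial (Fin 2) (ZMod p)) * ha +
      MvPolynomial.aeval ![legX4 p, legX6 p] a * hX

theorem ne_zero_small (h5 : 5 ≤ p) : (2 : Fbar p) ≠ 0 ∧ (3 : Fbar p) ≠ 0 ∧ (4 : Fbar p) ≠ 0 ∧
    (12 : Fbar p) ≠ 0 ∧ (48 : Fbar p) ≠ 0 ∧ (864 : Fbar p) ≠ 0 := by
  obtain ⟨h2, h3, -, -, -⟩ := small_ne_zero (k := Fbar p) (q := p) h5
  have h4 : (4 : Fbar p) ≠ 0 := by
    rw [show (4 : Fbar p) = 2 ^ 2 by norm_num]; exact pow_ne_zero _ h2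
  refine ⟨h2, h3, h4, ?_, ?_, ?_⟩
  · rw [show (12 : Fbar p) = 4 * 3 by norm_num]; exact mul_ne_zero h4 h3
  · rw [show (48 : Fbar p) = 2 ^ 4 * 3 by norm_num]; exact mul_ne_zero (pow_ne_zero _ h2) h3
  · rw [show (864 : Fbar p) = 2 ^ 5 * 3 ^ 3 by norm_num]
    exact mul_ne_zero (pow_ne_zero _ h2) (pow_ne_zero _ h3)

/-- The Hasse invariant along the Legendre family. -/
theorem legPoly_hassePoly (h5 : 5 ≤ p) :
    legPoly (hassePoly p) = C ((-1) ^ ((p - 1) / 2)) * hPoly ((p - 1) / 2) (Fbar p) := by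
  obtain ⟨h2, h3, -, -, h48, h864⟩ := ne_zero_small (p := p) h5
  refine Polynomial.funext fun c => ?_
  rw [eval_legPoly, eval_mul, eval_C]
  set m := (p - 1) / 2
  have hm : p = 2 * m + 1 := odd_half (q := p) (by omega)
  set s := -((1 + c) / 3) with hs
  set g : (Fbar p)[X] := Polynomial.X ^ 3 + C (-(48 : Fbar p)⁻¹ * legPoint c 0) * Polynomial.X +
    C ((864 : Fbar p)⁻¹ * legPoint c 1) with hg
  have h := coeff_map (MvPolynomial.aeval (R := ZMod p) (legPoint c)).toRingHom (p - 1)
    (p := (Polynomial.X ^ 3 + Polynomial.C (-MvPolynomial.C ((48 : ZMod p)⁻¹) * MvPolynomial.X 0) *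
      Polynomial.X + Polynomial.C (MvPolynomial.C ((864 : ZMod p)⁻¹) * MvPolynomial.X 1) :
        Polynomial (MvPolynomial (Fin 2) (ZMod p))) ^ (p / 2))
  have h' : MvPolynomial.aeval (legPoint c) (hassePoly p) = (g ^ (p / 2)).coeff (p - 1) := by
    refine h.symm.trans ?_
    simp [hg, Polynomial.map_pow, map_inv₀, map_ofNat]
  have ht : taylor s g = X * ((X + C (-1)) * (X + C (-(c * 1)))) := by
    have e3 : (3 : Fbar p) * s = -(1 + c) := by rw [hs]; field_simp
    have eA : -(48 : Fbar p)⁻¹ * legPoint c 0 = c - 3 * s ^ 2 := by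
      refine mul_left_cancel₀ h48 ?_
      simp only [legPoint, Matrix.cons_val_zero]
      field_simp
      linear_combination (48 * s - 16 * (1 + c)) * e3
    have eB : (864 : Fbar p)⁻¹ * legPoint c 1 =
        -(s ^ 3 + (c - 3 * s ^ 2) * s) := by
      refine mul_left_cancel₀ h864 ?_
      simp only [legPoint, Matrix.cons_val_one, Matrix.cons_val_fin_one]
      field_simp
      rw [hs]
      field_simp
      ring
    rw [hg, eA, eB]
    have e1 : C (3 : Fbar p) * C s = -(1 + C c) := by rw [← map_mul, e3]; simp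
    simp only [map_ofNat] at e1
    simp only [taylor_apply, mul_comp, pow_comp, X_comp, C_comp, map_neg, map_sub,
      map_add, map_mul, map_pow, map_one, map_ofNat, sub_comp, ofNat_comp]
    linear_combination (X ^ 2) * e1
  rw [h', ← coeff_taylor s (by
      refine lt_of_le_of_lt natDegree_pow_le ?_
      have : g.natDegree ≤ 3 := by rw [hg]; compute_degree
      calc p / 2 * g.natDegree ≤ p / 2 * 3 := Nat.mul_le_mul_left _ this
        _ < 2 * p - 1 := by omega),
    taylor_pow, ht, show p / 2 = m by omega, mul_pow, show p - 1 = m + m by omega,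
    coeff_X_pow_mul, coeff_pow_quadratic]

theorem choose_pred_prime {i : ℕ} (hi : i ≤ p - 1) :
    (((p - 1).choose i : ℕ) : Fbar p) = (-1) ^ i := by
  induction i with
  | zero => simp
  | succ i ih =>
    have h := Nat.choose_succ_succ (p - 1) i
    rw [show (p - 1).succ = p by omega] at h
    have h0 : ((p.choose (i + 1) : ℕ) : Fbar p) = 0 :=
      (CharP.cast_eq_zero_iff _ p _).2 ((Fact.out : p.Prime).dvd_choose_self (by omega) (by omega))
    rw [show i.succ = i + 1 from rfl] at h
    rw [h, Nat.cast_add, ih (by omega)] at h0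
    rw [pow_succ]
    linear_combination h0

variable (p) in
/-- The roots of Deuring's polynomial. -/
def deuringRoots : Finset (Fbar p) := (hPoly ((p - 1) / 2) (Fbar p)).roots.toFinset

theorem mem_deuringRoots {c : Fbar p} :
    c ∈ deuringRoots p ↔ (hPoly ((p - 1) / 2) (Fbar p)).eval c = 0 := by
  rw [deuringRoots, Multiset.mem_toFinset, mem_roots hPoly_ne_zero', IsRoot]

theorem hPoly_eq_nodal (h5 : 5 ≤ p) :
    hPoly ((p - 1) / 2) (Fbar p) = Lagrange.nodal (deuringRoots p) id := by
  set m := (p - 1) / 2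
  have hm : p = 2 * m + 1 := odd_half (q := p) (by omega)
  have hd := hPoly_natDegree (k := Fbar p) hm
  rw [Lagrange.nodal_eq, deuringRoots, Finset.prod_eq_multiset_prod, Multiset.toFinset_val,
    Multiset.dedup_eq_self.2 (Multiset.nodup_iff_count_le_one.2 (hPoly_roots_simple hm))]
  refine (prod_multiset_X_sub_C_of_monic_of_roots_card_eq ?_ ?_).symm
  · rw [Monic, leadingCoeff, hd, coeff_hPoly, Nat.choose_self, Nat.cast_one, one_pow]
  · exact IsAlgClosed.card_roots_eq_natDegree

/-- **The residue theorem** for `Q / (X (X - 1) H)`. -/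
theorem residue_sum (h5 : 5 ≤ p) {Q : (Fbar p)[X]} (hQ : Q.natDegree ≤ (p - 1) / 2 + 1) :
    ∑ c ∈ deuringRoots p,
        Q.eval c / (c * (c - 1) * (derivative (hPoly ((p - 1) / 2) (Fbar p))).eval c) =
      Q.coeff ((p - 1) / 2 + 1) + Q.eval 0 - (-1) ^ ((p - 1) / 2) * Q.eval 1 := by
  set m := (p - 1) / 2 with hmdef
  have hm : p = 2 * m + 1 := odd_half (q := p) (by omega)
  set H := hPoly m (Fbar p) with hH
  set R := deuringRoots p
  have h0 : (0 : Fbar p) ∉ R := fun h => one_ne_zero (α := Fbar p)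
    (eval_zero_hPoly.symm.trans (mem_deuringRoots.1 h))
  have h1 : (1 : Fbar p) ∉ insert 0 R := by
    rw [Finset.mem_insert, not_or]
    exact ⟨one_ne_zero, fun h => eval_one_hPoly_ne_zero hm (mem_deuringRoots.1 h)⟩
  set s := insert (1 : Fbar p) (insert 0 R) with hs
  have hR : R.card = m := card_roots_hPoly hm
  have hcard : s.card = m + 2 := by
    rw [hs, Finset.card_insert_of_notMem h1, Finset.card_insert_of_notMem h0, hR]
  have hnod : Lagrange.nodal s id = (X - C 1) * ((X - C 0) * H) := by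
    rw [hs, Lagrange.nodal_insert_eq_nodal h1, Lagrange.nodal_insert_eq_nodal h0, hH,
      hPoly_eq_nodal h5]
    rfl
  have key := Lagrange.coeff_eq_sum (s := s) (v := id) (Set.injOn_id _) (P := Q)
    (lt_of_le_of_lt degree_le_natDegree (by rw [hcard]; exact_mod_cast (by omega)))
  have hden : ∀ i ∈ s, ∏ j ∈ s.erase i, (id i - id j) =
      (derivative ((X - C 1) * ((X - C 0) * H))).eval i := fun i hi => by
    have h := Lagrange.eval_nodal_derivative_eval_node_eq (v := id) hi
    simp only [id_eq] at h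
    rw [← hnod, h, Lagrange.eval_nodal]
    rfl
  rw [hcard, show m + 2 - 1 = m + 1 from rfl,
    Finset.sum_congr rfl fun i hi => by rw [hden i hi], hs, Finset.sum_insert h1,
    Finset.sum_insert h0] at key
  have hH0 : H.eval 0 = 1 := eval_zero_hPoly
  have hH1 : H.eval 1 = (-1) ^ m := by
    rw [hH, eval_hPoly, ← choose_pred_prime (p := p) (i := m) (by omega),
      show p - 1 = 2 * m by omega, ← Nat.sum_range_choose_sq m]
    push_cast
    simp
  have hder : ∀ i, (derivative ((X - C 1) * ((X - C 0) * H))).eval i =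
      i * H.eval i + (i - 1) * H.eval i + (i - 1) * i * (derivative H).eval i := fun i => by
    simp [derivative_mul]
    ring
  rw [key]
  simp only [id_eq, hder, hH0, hH1]
  have hsum : ∑ c ∈ R, Q.eval c /
      (c * H.eval c + (c - 1) * H.eval c + (c - 1) * c * (derivative H).eval c) =
      ∑ c ∈ R, Q.eval c / (c * (c - 1) * (derivative H).eval c) :=
    Finset.sum_congr rfl fun c hc => by
      rw [show H.eval c = 0 from mem_deuringRoots.1 hc, mul_zero, mul_zero, add_zero, zero_add,
        mul_comm (c - 1) c]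
  rw [hsum]
  rcases neg_one_pow_eq_or (Fbar p) m with e | e <;> rw [e] <;> ring

/-- A ratio does not depend on the point over `j`. -/
theorem ratio_legPoint (h5 : 5 ≤ p) {F : MvPolynomial (Fin 2) (ZMod p)} (hF : Isob F (p + 1))
    {c : Fbar p} (hc : c ∈ deuringRoots p) :
    MvPolynomial.aeval (repPoint (jLegendre c)) F /
        MvPolynomial.aeval (repPoint (jLegendre c)) (betaPoly p) =
      MvPolynomial.aeval (legPoint c) F / MvPolynomial.aeval (legPoint c) (betaPoly p) := by
  obtain ⟨h2, -, -, -, -, -⟩ := ne_zero_small (p := p) h5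
  obtain ⟨c0, c1, -⟩ := FA.OggBound.root_facts h5 (mem_deuringRoots.1 hc)
  have hs : c - 1 ≠ 0 := sub_ne_zero.2 c1
  have e : legPoint c 0 ^ 3 - legPoint c 1 ^ 2 = 27648 * (c ^ 2 * (c - 1) ^ 2) := by
    simp [legPoint]; ring
  obtain ⟨-, h3, -, -, -, -⟩ := ne_zero_small (p := p) h5
  have hne : (27648 : Fbar p) * (c ^ 2 * (c - 1) ^ 2) ≠ 0 := by
    rw [show (27648 : Fbar p) = 2 ^ 10 * 3 ^ 3 by norm_num]
    exact mul_ne_zero (mul_ne_zero (pow_ne_zero _ h2) (pow_ne_zero _ h3))
      (mul_ne_zero (pow_ne_zero _ c0) (pow_ne_zero _ hs))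
  have hab : legPoint c 0 ^ 3 ≠ legPoint c 1 ^ 2 := fun h => hne (by rw [← e, h, sub_self])
  obtain ⟨u, hu, j, hj⟩ := exists_repPoint h5 hab
  have hJ : jLegendre c = j := by
    conv_rhs => rw [← (invariant_repPoint h5 j).2, ← hj]
    simp only [Matrix.cons_val_zero, Matrix.cons_val_one, Matrix.cons_val_fin_one]
    rw [show 1728 * (u ^ 4 * legPoint c 0) ^ 3 = u ^ 12 * (1728 * legPoint c 0 ^ 3) by ring,
      show (u ^ 4 * legPoint c 0) ^ 3 - (u ^ 6 * legPoint c 1) ^ 2 =
        u ^ 12 * (legPoint c 0 ^ 3 - legPoint c 1 ^ 2) by ring,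
      mul_div_mul_left _ _ (pow_ne_zero 12 hu), e, jLegendre, div_eq_div_iff
        (mul_ne_zero (pow_ne_zero _ c0) (pow_ne_zero _ hs)) hne]
    simp [legPoint]
    ring
  rw [hJ, ← hj, aeval_scale hF, aeval_scale (isob_betaPoly h5),
    mul_div_mul_left _ _ (pow_ne_zero _ hu)]

/-- `β` at a root. -/
theorem beta_legPoint (h5 : 5 ≤ p) {c : Fbar p} (hc : c ∈ deuringRoots p) :
    MvPolynomial.aeval (legPoint c) (betaPoly p) = (-1) ^ ((p - 1) / 2) * 2 *
      (c * (c - 1) * (derivative (hPoly ((p - 1) / 2) (Fbar p))).eval c) ∧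
    (derivative (hPoly ((p - 1) / 2) (Fbar p))).eval c ≠ 0 := by
  obtain ⟨-, -, -, h12, -, -⟩ := ne_zero_small (p := p) h5
  have hroot := mem_deuringRoots.1 hc
  refine ⟨?_, ?_⟩
  · have h := congrArg (Polynomial.eval c) (derivative_legPoly (hassePoly p))
    rw [wOp_isob (isob_hassePoly h5), legPoly_hassePoly h5] at h
    simp only [eval_add, eval_mul, eval_sub, eval_C, eval_X, eval_one, derivative_mul,
      derivative_C, zero_mul, zero_add, eval_legPoly, map_mul, map_natCast] at h
    rw [show MvPolynomial.aeval (legPoint c) (hassePoly p) = 0 by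
      rw [← eval_legPoly, legPoly_hassePoly h5, eval_mul, hroot, mul_zero], mul_zero, mul_zero,
      add_zero] at h
    rw [betaPoly, map_mul, MvPolynomial.aeval_C, map_inv₀, map_ofNat, ← h,
      inv_mul_eq_iff_eq_mul₀ h12]
    ring
  · intro h0
    have h := hPoly_roots_simple (k := Fbar p) (odd_half (q := p) (by omega)) c
    have h2 : 1 < (hPoly ((p - 1) / 2) (Fbar p)).rootMultiplicity c :=
      (one_lt_rootMultiplicity_iff_isRoot hPoly_ne_zero').2 ⟨hroot, h0⟩
    rw [count_roots] at h
    omega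

/-- **The sum over Deuring's roots.** -/
theorem sum_ratio (h5 : 5 ≤ p) {F : MvPolynomial (Fin 2) (ZMod p)} (hF : Isob F (p + 1)) :
    ∑ c ∈ deuringRoots p, MvPolynomial.aeval (repPoint (jLegendre c)) F /
        MvPolynomial.aeval (repPoint (jLegendre c)) (betaPoly p) =
      -6 * algebraMap (ZMod p) (Fbar p) (MvPolynomial.eval (fun _ => 1) F) := by
  obtain ⟨h2, -, -, -, -, -⟩ := ne_zero_small (p := p) h5
  set m := (p - 1) / 2 with hmdef
  have hm : p = 2 * m + 1 := odd_half (q := p) (by omega)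
  obtain ⟨v1, v2, v3, v4⟩ := cusp_values (n := m + 1) (F := F) (by
    rwa [show 2 * (m + 1) = p + 1 by omega])
  have hsum := residue_sum h5 v1
  rw [← hmdef, v2, v3, v4] at hsum
  have h4 : (4 : Fbar p) ^ m = 1 := by
    have h22 : ((2 : ZMod p)) ^ (p - 1) = 1 :=
      ZMod.pow_card_sub_one_eq_one fun e => h2 (by
        rw [← map_ofNat (algebraMap (ZMod p) (Fbar p)), e, map_zero])
    have := congrArg (algebraMap (ZMod p) (Fbar p)) h22
    rwa [map_pow, map_ofNat, map_one, show p - 1 = 2 * m by omega, pow_mul,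
      show (2 : Fbar p) ^ 2 = 4 by norm_num] at this
  set a := algebraMap (ZMod p) (Fbar p) (MvPolynomial.eval (fun _ => 1) F)
  have hper : ∀ c ∈ deuringRoots p, MvPolynomial.aeval (repPoint (jLegendre c)) F /
      MvPolynomial.aeval (repPoint (jLegendre c)) (betaPoly p) =
        (legPoly F).eval c / (c * (c - 1) * (derivative (hPoly m (Fbar p))).eval c) *
          ((-1) ^ m / 2) := fun c hc => by
    rw [ratio_legPoint h5 hF hc, (beta_legPoint h5 hc).1, ← eval_legPoly, ← hmdef]
    rcases neg_one_pow_eq_or (Fbar p) m with e | e <;> rw [e] <;>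
      simp only [div_eq_mul_inv, mul_inv, inv_one, inv_neg] <;> ring
  rw [Finset.sum_congr rfl hper, ← Finset.sum_mul, hsum, neg_pow, pow_succ (4 : Fbar p), h4,
    pow_succ (-1 : Fbar p)]
  rcases neg_one_pow_eq_or (Fbar p) m with e | e <;> rw [e] <;> field_simp <;> ring

/-- The weight of an invariant. -/
def weight (j : Fbar p) : Fbar p :=
  if j = 0 then (3 : Fbar p)⁻¹ else if j = 1728 then (2 : Fbar p)⁻¹ else 1

/-- **Summed over the invariants**: the weighted sum of `F / β` is minus the constant term. -/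
theorem sum_weighted (h5 : 5 ≤ p) [Fintype (zeroSet p)] (F : IsobSub p (p + 1)) :
    ∑ j : zeroSet p, weight j.1 * ratioMap p F j =
      -algebraMap (ZMod p) (Fbar p) (MvPolynomial.eval (fun _ => 1) F.1) := by
  obtain ⟨h2, h3, -, -, -, -⟩ := ne_zero_small (p := p) h5
  have h6 : (6 : Fbar p) ≠ 0 := by
    rw [show (6 : Fbar p) = 2 * 3 by norm_num]; exact mul_ne_zero h2 h3
  obtain ⟨hT, -⟩ := zeroSet_eq (p := p) h5
  set G : Fbar p → Fbar p := fun j => MvPolynomial.aeval (repPoint j) F.1 /
    MvPolynomial.aeval (repPoint j) (betaPoly p)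
  refine mul_left_cancel₀ h6 ?_
  rw [mul_neg, ← neg_mul, ← sum_ratio h5 F.2]
  have hmaps : ∀ c ∈ deuringRoots p, jLegendre c ∈ (zeroSet p).toFinset := fun c hc => by
    rw [Set.mem_toFinset, hT]
    exact (FA.OggBound.root_facts h5 (mem_deuringRoots.1 hc)).2.2
  rw [← Finset.sum_fiberwise_of_maps_to hmaps, Finset.mul_sum,
    Finset.sum_subtype (p := (· ∈ zeroSet p)) _ fun x => Set.mem_toFinset]
  refine Finset.sum_congr rfl fun j _ => ?_
  change 6 * (weight j.1 * G j.1) = _
  obtain ⟨j, hj⟩ := j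
  have hfib : (deuringRoots p).filter (fun c => jLegendre c = j) = fibre j := by
    ext c
    rw [Finset.mem_filter, mem_deuringRoots, mem_fibre (q := p) h5]
    constructor
    · rintro ⟨hc, rfl⟩
      exact ⟨(FA.OggBound.root_facts h5 hc).1, (FA.OggBound.root_facts h5 hc).2.1, rfl⟩
    · rintro ⟨c0, c1, rfl⟩
      exact ⟨FA.OggBound.root_of_mem h5 c0 c1 (hT ▸ hj), rfl⟩
  rw [Finset.sum_congr rfl (g := fun _ => G j) fun c hc => by rw [(Finset.mem_filter.1 hc).2],
    Finset.sum_const, hfib, card_fibre (q := p) h5, nsmul_eq_mul, ← mul_assoc]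
  congr 1
  unfold weight
  split_ifs
  · rw [show (6 : Fbar p) = 2 * 3 by norm_num, mul_assoc, mul_inv_cancel₀ h3, mul_one]; norm_num
  · rw [show (6 : Fbar p) = 3 * 2 by norm_num, mul_assoc, mul_inv_cancel₀ h2, mul_one]; norm_num
  · norm_num

/-- `E₂` gives the constant function `12`. -/
theorem ratioMap_eTwo (h5 : 5 ≤ p) {F : IsobSub p (p + 1)} (he : phi p F.1 = e2 p)
    (j : zeroSet p) : ratioMap p F j = 12 := by
  obtain ⟨h2, -, -, h12, -, -⟩ := ne_zero_small (p := p) h5
  obtain ⟨hT, -⟩ := zeroSet_eq (p := p) h5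
  have hF : F.1 = dOp p (hassePoly p) := by
    refine sub_eq_zero.1 (phi_injective h5 (n := p + 1)
      (MvPolynomial.IsWeightedHomogeneous.sub F.2 ?_) (by
        rw [map_sub, he, phi_dOp_hassePoly h5, sub_self]))
    have h := dOp_isob (isob_hassePoly (p := p) h5)
    rwa [show p - 1 + 2 = p + 1 by omega] at h
  obtain ⟨c, hc⟩ := fibre_nonempty (k := Fbar p) (q := p) h5 j.1
  obtain ⟨c0, c1, hcj⟩ := (mem_fibre (q := p) h5).1 hc
  have hroot : c ∈ deuringRoots p := mem_deuringRoots.2
    (FA.OggBound.root_of_mem h5 c0 c1 (hcj ▸ hT ▸ j.2))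
  obtain ⟨hb, hd⟩ := beta_legPoint h5 hroot
  have hB : MvPolynomial.aeval (legPoint c) (betaPoly p) ≠ 0 := by
    rw [hb]
    exact mul_ne_zero (mul_ne_zero (pow_ne_zero _ (neg_ne_zero.2 one_ne_zero)) h2)
      (mul_ne_zero (mul_ne_zero c0 (sub_ne_zero.2 c1)) hd)
  simp only [ratioMap, LinearMap.coe_mk, AddHom.coe_mk, ← hcj, ratio_legPoint h5 F.2 hroot]
  rw [div_eq_iff hB, hF]
  simp only [betaPoly, map_mul, MvPolynomial.aeval_C, map_inv₀, map_ofNat]
  rw [mul_inv_cancel_left₀ h12]

variable (p) in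
/-- The forms of weight `p + 1` make up a finite space. -/
theorem finite_of_weightSucc (h5 : 5 ≤ p) : Module.Finite (ZMod p) (formSpace p) :=
  Module.Finite.equiv (formEquiv h5).symm

variable (p) in
theorem eTwo_mem (h5 : 5 ≤ p) : e2 p ∈ formSpace p := by
  rw [mem_formSpace h5, ← phi_dOp_hassePoly h5]
  have h := dOp_isob (isob_hassePoly (p := p) h5)
  rw [show p - 1 + 2 = p + 1 by omega] at h
  exact isFormModP_phi h

end FA.SupersingularMass

end
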