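import Fermat.Agent.Tau.SupersingularQuotient
import Fermat.Agent.Supersingular.DeuringCount
import Fermat.Agent.Supersingular.QuadraticField
import Mathlib.RingTheory.Nullstellensatz

/-!
# The zeros of the Hasse invariant

A zero `(a, b)` of `A(X, Y)` over `𝔽̄_p` has `a³ / b² ∈ 𝔽_(p²)`: translated and scaled, the cubic
becomes a Legendre cubic at a root of Deuring's polynomial, whose invariant lies in `𝔽_(p²)`. So it
is equivalent to a point fixed by `x ↦ x ^ p²`, and isobaric values of one weight are proportional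
there over `𝔽_(p²)`.
-/

set_option autoImplicit false
set_option linter.style.haveILetI false

noncomputable section

namespace FA.SupersingularPoints

open Polynomial FA.Carayol FA.SupersingularCount FA.SwinnertonDyer FA.HasseEis
open scoped Classical

variable {k : Type} [Field k] {p : ℕ} [Fact p.Prime] [CharP k p]

/-- Translation does not move the coefficient at `X ^ (p - 1)` in degree below `2p - 1`. -/
theorem coeff_taylor {f : k[X]} (r : k) (hf : f.natDegree < 2 * p - 1) :
    (taylor r f).coeff (p - 1) = f.coeff (p - 1) := by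
  have hp : p.Prime := Fact.out
  have e : hasseDeriv (p - 1) f = C (f.coeff (p - 1)) := by
    ext i
    rw [hasseDeriv_coeff, coeff_C]
    rcases eq_or_ne i 0 with rfl | hi
    · simp
    rw [if_neg hi]
    rcases lt_or_ge f.natDegree (i + (p - 1)) with h | h
    · rw [coeff_eq_zero_of_natDegree_lt h, mul_zero]
    · rw [(CharP.cast_eq_zero_iff k p _).2
        (hp.dvd_choose (by omega) (by omega) (by omega)), zero_mul]
  rw [taylor_coeff, e, eval_C]

/-- The middle coefficient of the power of a quadratic. -/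
theorem coeff_pow_quadratic (m : ℕ) (d c : k) :
    ((((X + C (-d)) * (X + C (-(c * d)))) ^ m : k[X])).coeff m =
      (-d) ^ m * (hPoly m k).eval c := by
  rw [mul_pow, coeff_mul, eval_hPoly, Finset.mul_sum,
    Finset.Nat.sum_antidiagonal_eq_sum_range_succ_mk]
  refine Finset.sum_congr rfl fun i hi => ?_
  have hi' : i ≤ m := Nat.lt_succ_iff.1 (Finset.mem_range.1 hi)
  rw [coeff_X_add_C_pow, coeff_X_add_C_pow, Nat.choose_symm hi', Nat.sub_sub_self hi',
    show -(c * d) = c * -d by ring, mul_pow]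
  conv_rhs => rw [← Nat.sub_add_cancel hi', pow_add, Nat.sub_add_cancel hi']
  ring

/-- **The cubic with vanishing Hasse invariant** has a supersingular invariant. -/
theorem mem_ssInvariants_of_hasse [IsAlgClosed k] (h5 : 5 ≤ p) {a b : k} (hab : a ^ 3 ≠ b ^ 2)
    (h : ((X ^ 3 + C (-(48 : k)⁻¹ * a) * X + C ((864 : k)⁻¹ * b)) ^ (p / 2)).coeff (p - 1) = 0) :
    1728 * a ^ 3 / (a ^ 3 - b ^ 2) ∈ ssInvariants k p := by
  have hp : p.Prime := Fact.out
  obtain ⟨h2, h3, h256, -, h1728⟩ := small_ne_zero (k := k) h5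
  have h48 : (48 : k) ≠ 0 := by
    rw [show (48 : k) = 2 ^ 4 * 3 by norm_num]; exact mul_ne_zero (pow_ne_zero _ h2) h3
  have h864 : (864 : k) ≠ 0 := by
    rw [show (864 : k) = 2 ^ 5 * 3 ^ 3 by norm_num]
    exact mul_ne_zero (pow_ne_zero _ h2) (pow_ne_zero _ h3)
  set A := -(48 : k)⁻¹ * a with hA
  set B := (864 : k)⁻¹ * b with hB
  have ha : a = -48 * A := by rw [hA]; field_simp
  have hb : b = 864 * B := by rw [hB]; field_simp
  -- a root `e`, then a root `d` of the cofactor, then `c d` the third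
  have hdeg : (X ^ 3 + C A * X + C B : k[X]).natDegree = 3 := by compute_degree!
  obtain ⟨e, he⟩ := IsAlgClosed.exists_root (X ^ 3 + C A * X + C B : k[X]) (fun h0 => by
    rw [natDegree_eq_zero_iff_degree_le_zero.2 h0.le] at hdeg; omega)
  simp only [IsRoot, eval_add, eval_mul, eval_pow, eval_C, eval_X] at he
  have hdeg2 : (X ^ 2 + C (3 * e) * X + C (3 * e ^ 2 + A) : k[X]).natDegree = 2 := by
    compute_degree!
  obtain ⟨d, hd⟩ := IsAlgClosed.exists_root (X ^ 2 + C (3 * e) * X + C (3 * e ^ 2 + A) : k[X])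
    (fun h0 => by rw [natDegree_eq_zero_iff_degree_le_zero.2 h0.le] at hdeg2; omega)
  simp only [IsRoot, eval_add, eval_mul, eval_pow, eval_C, eval_X] at hd
  have hd0 : d ≠ 0 := by
    rintro rfl
    have hA' : A = -3 * e ^ 2 := by linear_combination hd
    have hB' : B = 2 * e ^ 3 := by linear_combination he - e * hA'
    exact hab (by rw [ha, hb, hA', hB']; ring)
  set d' := -3 * e - d with hd'
  set c := d' / d with hc
  have hcd : c * d = d' := div_mul_cancel₀ d' hd0
  have hprod : d * d' = 3 * e ^ 2 + A := by linear_combination -hd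
  have hc0 : c ≠ 0 := by
    intro h0
    rw [h0, zero_mul] at hcd
    rw [← hcd, mul_zero] at hprod
    have hA' : A = -3 * e ^ 2 := by linear_combination -hprod
    have hB' : B = 2 * e ^ 3 := by linear_combination he - e * hA'
    exact hab (by rw [ha, hb, hA', hB']; ring)
  have hc1 : c ≠ 1 := by
    intro h0
    rw [h0, one_mul] at hcd
    have hde : 2 * d = -3 * e := by linear_combination hcd + hd'
    have hA4 : 4 * A = -3 * e ^ 2 := by
      linear_combination 4 * hd - (2 * d + 3 * e) * hde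
    have hB4 : 4 * B = -e ^ 3 := by linear_combination 4 * he - e * hA4
    refine hab ?_
    rw [ha, hb, show -48 * A = -12 * (4 * A) by ring, show 864 * B = 216 * (4 * B) by ring, hA4,
      hB4]
    ring
  -- Deuring's polynomial vanishes at `c`
  obtain ⟨m, hm⟩ := hp.odd_of_ne_two (by omega)
  have hg : taylor e (X ^ 3 + C A * X + C B) =
      X * ((X + C (-d)) * (X + C (-(c * d)))) := by
    have h1 : C B = -(C e ^ 3 + C A * C e) := by
      rw [← map_pow, ← map_mul, ← map_add, ← map_neg]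
      exact congrArg C (by linear_combination he)
    have h2 : C d * C d' = C 3 * C e ^ 2 + C A := by
      rw [← map_mul, ← map_pow, ← map_mul, ← map_add, hprod]
    have h3 : C d' = -(C 3 * C e) - C d := by
      rw [hd', map_sub, map_mul, map_neg, neg_mul]
    simp only [taylor_apply, add_comp, mul_comp, pow_comp, X_comp, C_comp, neg_comp, hcd, h1,
      map_neg]
    simp only [map_ofNat] at h2 h3
    linear_combination (-X) * h2 + X ^ 2 * h3
  have hH : (hPoly m k).eval c = 0 := by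
    have hmd : p / 2 = m := by omega
    rw [hmd, ← coeff_taylor e (by
      refine lt_of_le_of_lt natDegree_pow_le ?_
      rw [hdeg]; omega), taylor_pow, hg, mul_pow,
      show p - 1 = m + m by omega, coeff_X_pow_mul, coeff_pow_quadratic] at h
    exact (mul_eq_zero.1 h).resolve_left (pow_ne_zero _ (neg_ne_zero.2 hd0))
  have hm' : m = (p - 1) / 2 := by omega
  haveI := isElliptic_legendre h2 hc0 hc1
  refine ⟨legendre c, inferInstance, ?_,
    (legendre_supersingular_iff (q := p) (c := c) h5).2 (hm' ▸ hH)⟩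
  rw [j_legendre (q := p) h5]
  have hsub : c - 1 ≠ 0 := sub_ne_zero.2 hc1
  rw [jLegendre, div_eq_div_iff (mul_ne_zero (pow_ne_zero _ hc0) (pow_ne_zero _ hsub))
    (sub_ne_zero.2 hab)]
  refine mul_left_cancel₀ (pow_ne_zero 6 hd0) ?_
  have hs : d + d' = -3 * e := by rw [hd']; ring
  have n1 : d' ^ 2 - d' * d + d ^ 2 = -3 * A := by
    linear_combination (d + d' - 3 * e) * hs - 3 * hprod
  have n2 : d' ^ 2 * d ^ 2 * (d' - d) ^ 2 = -4 * A ^ 3 - 27 * B ^ 2 := by
    have e1 : (d' - d) ^ 2 = -3 * e ^ 2 - 4 * A := by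
      linear_combination (d + d' - 3 * e) * hs - 4 * hprod
    have e2 : B = -(e ^ 3 + A * e) := by linear_combination he
    rw [e1, e2, show d' ^ 2 * d ^ 2 = (d * d') ^ 2 by ring, hprod]
    ring
  calc d ^ 6 * (256 * (c ^ 2 - c + 1) ^ 3 * (a ^ 3 - b ^ 2))
      = 256 * ((c * d) ^ 2 - c * d * d + d ^ 2) ^ 3 * (a ^ 3 - b ^ 2) := by ring
    _ = 256 * (-3 * A) ^ 3 * ((-48 * A) ^ 3 - (864 * B) ^ 2) := by rw [hcd, n1, ha, hb]
    _ = 1728 * (-48 * A) ^ 3 * (-4 * A ^ 3 - 27 * B ^ 2) := by ring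
    _ = 1728 * a ^ 3 * ((c * d) ^ 2 * d ^ 2 * (c * d - d) ^ 2) := by rw [hcd, n2, ha]
    _ = d ^ 6 * (1728 * a ^ 3 * (c ^ 2 * (c - 1) ^ 2)) := by ring

variable [Algebra (ZMod p) k]

omit [CharP k p] in
/-- Isobaric polynomials are homogeneous. -/
theorem aeval_scale {F : MvPolynomial (Fin 2) (ZMod p)} {n : ℕ} (hF : Isob F n) (u : k)
    (x : Fin 2 → k) :
    MvPolynomial.aeval ![u ^ 4 * x 0, u ^ 6 * x 1] F = u ^ n * MvPolynomial.aeval x F := by
  induction hF using MvPolynomial.IsWeightedHomogeneous.induction_on with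
  | zero => simp
  | add a b _ _ ha hb => rw [map_add, map_add, ha, hb, mul_add]
  | monomial d c hd =>
    rw [weight_eq] at hd
    rw [monomial_eq_mul]
    simp only [map_mul, map_pow, MvPolynomial.aeval_C, MvPolynomial.aeval_X, Matrix.cons_val_zero,
      Matrix.cons_val_one, Matrix.cons_val_fin_one]
    rw [← hd]
    ring

/-- The invariant of a zero of `A` is supersingular. -/
theorem mem_ssInvariants_of_zero [IsAlgClosed k] (h5 : 5 ≤ p) {x : Fin 2 → k}
    (hab : x 0 ^ 3 ≠ x 1 ^ 2) (hx : MvPolynomial.aeval x (hassePoly p) = 0) :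
    1728 * x 0 ^ 3 / (x 0 ^ 3 - x 1 ^ 2) ∈ ssInvariants k p := by
  refine mem_ssInvariants_of_hasse h5 hab ?_
  have h := (coeff_map (MvPolynomial.aeval (R := ZMod p) x).toRingHom (p - 1)).trans hx
  simpa [Polynomial.map_pow, map_inv₀, map_ofNat] using h

/-- Values at the image under a power of Frobenius. -/
theorem aeval_pow_char (i : ℕ) (H : MvPolynomial (Fin 2) (ZMod p)) (x : Fin 2 → k) :
    MvPolynomial.aeval x H ^ p ^ i = MvPolynomial.aeval (fun l => x l ^ p ^ i) H := by
  induction H using MvPolynomial.induction_on with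
  | C c => rw [MvPolynomial.aeval_C, MvPolynomial.aeval_C, ← map_pow, ZMod.pow_card_pow]
  | add a b ha hb => rw [map_add, map_add, add_pow_char_pow, ha, hb]
  | mul_X a i ha => rw [map_mul, map_mul, mul_pow, ha, MvPolynomial.aeval_X, MvPolynomial.aeval_X]

/-- A zero of `A` is equivalent to one fixed by `x ↦ x ^ p²`. -/
theorem exists_scale [IsAlgClosed k] (h5 : 5 ≤ p) {x : Fin 2 → k}
    (hx : MvPolynomial.aeval x (hassePoly p) = 0) :
    ∃ u : k, u ≠ 0 ∧ (u ^ 4 * x 0) ^ p ^ 2 = u ^ 4 * x 0 ∧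
      (u ^ 6 * x 1) ^ p ^ 2 = u ^ 6 * x 1 := by
  have hp0 : p ^ 2 ≠ 0 := pow_ne_zero _ (Fact.out : p.Prime).ne_zero
  rcases eq_or_ne (x 0) 0 with ha | ha <;> rcases eq_or_ne (x 1) 0 with hb | hb
  · exact ⟨1, one_ne_zero, by rw [ha, mul_zero, zero_pow hp0], by rw [hb, mul_zero, zero_pow hp0]⟩
  · obtain ⟨u, hu⟩ := IsAlgClosed.exists_pow_nat_eq (x 1)⁻¹ (show 0 < 6 by norm_num)
    refine ⟨u, fun h => inv_ne_zero hb (by rw [← hu, h, zero_pow (by norm_num)]),
      by rw [ha, mul_zero, zero_pow hp0], by rw [hu, inv_mul_cancel₀ hb, one_pow]⟩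
  · obtain ⟨u, hu⟩ := IsAlgClosed.exists_pow_nat_eq (x 0)⁻¹ (show 0 < 4 by norm_num)
    refine ⟨u, fun h => inv_ne_zero ha (by rw [← hu, h, zero_pow (by norm_num)]),
      by rw [hu, inv_mul_cancel₀ ha, one_pow], by rw [hb, mul_zero, zero_pow hp0]⟩
  · obtain ⟨u, hu⟩ := IsAlgClosed.exists_pow_nat_eq (x 0 / x 1) (show 0 < 2 by norm_num)
    set t := x 0 ^ 3 / x 1 ^ 2 with ht
    have e4 : u ^ 4 * x 0 = t := by
      rw [show u ^ 4 = (u ^ 2) ^ 2 by ring, hu, ht]; field_simp
    have e6 : u ^ 6 * x 1 = t := by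
      rw [show u ^ 6 = (u ^ 2) ^ 3 by ring, hu, ht]; field_simp
    refine ⟨u, fun h => div_ne_zero ha hb (by rw [← hu, h, zero_pow two_ne_zero]), ?_⟩
    rw [e4, e6]
    suffices h : t ^ p ^ 2 = t from ⟨h, h⟩
    by_cases hab : x 0 ^ 3 = x 1 ^ 2
    · rw [ht, hab, div_self (pow_ne_zero _ hb), one_pow]
    obtain ⟨-, -, -, -, h1728⟩ := small_ne_zero (k := k) h5
    have hsub := sub_ne_zero.2 hab
    set J := 1728 * x 0 ^ 3 / (x 0 ^ 3 - x 1 ^ 2) with hJ
    have hJp : J ^ p ^ 2 = J := by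
      obtain ⟨W, _, hW, hss⟩ := mem_ssInvariants_of_zero h5 hab hx
      rw [hJ, ← hW]
      exact SupersingularField.j_pow_sq h5 hss
    have htJ : t = J / (J - 1728) := by
      rw [ht, hJ]
      field_simp
      ring
    have h1 : (1728 : k) ^ p ^ 2 = 1728 := by
      rw [← iterateFrobenius_def]; exact map_ofNat _ 1728
    rw [htJ, div_pow, sub_pow_char_pow, hJp, h1]

/-- **Isobaric values of one weight at a zero of `A` have ratios in `𝔽_(p²)`.** -/
theorem pow_sq_mul_comm [IsAlgClosed k] (h5 : 5 ≤ p) {F G : MvPolynomial (Fin 2) (ZMod p)}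
    {n : ℕ} (hF : Isob F n) (hG : Isob G n) {x : Fin 2 → k}
    (hx : MvPolynomial.aeval x (hassePoly p) = 0) :
    MvPolynomial.aeval x F ^ p ^ 2 * MvPolynomial.aeval x G =
      MvPolynomial.aeval x F * MvPolynomial.aeval x G ^ p ^ 2 := by
  obtain ⟨u, hu, h0, h1⟩ := exists_scale h5 hx
  have hfix : ∀ {H : MvPolynomial (Fin 2) (ZMod p)}, Isob H n →
      (u ^ n * MvPolynomial.aeval x H) ^ p ^ 2 = u ^ n * MvPolynomial.aeval x H := fun {H} hH => by
    rw [← aeval_scale hH, aeval_pow_char]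
    congr 2
    funext i
    fin_cases i
    · exact h0
    · exact h1
  refine mul_left_cancel₀ (pow_ne_zero (p ^ 2 + 1) (pow_ne_zero n hu)) ?_
  have hf := hfix hF
  have hg := hfix hG
  rw [mul_pow] at hf hg
  linear_combination (u ^ n * MvPolynomial.aeval x G) * hf -
    (u ^ n * MvPolynomial.aeval x F) * hg

/-- A polynomial vanishing at the zeros of `A` is divisible by it. -/
theorem hassePoly_dvd (h5 : 5 ≤ p) {G : MvPolynomial (Fin 2) (ZMod p)}
    (h : ∀ x : Fin 2 → AlgebraicClosure (ZMod p), MvPolynomial.aeval x (hassePoly p) = 0 →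
      MvPolynomial.aeval x G = 0) : hassePoly p ∣ G := by
  have hG : G ∈ (Ideal.span {hassePoly p}).radical := by
    rw [← MvPolynomial.vanishingIdeal_zeroLocus_eq_radical (K := AlgebraicClosure (ZMod p)),
      MvPolynomial.mem_vanishingIdeal_iff]
    exact fun x hx => h x (hx _ (Ideal.mem_span_singleton_self _))
  obtain ⟨i, hi⟩ := hG
  rw [Ideal.mem_span_singleton] at hi
  have hsq : Squarefree (hassePoly p) :=
    (squarefree_iff_irreducible_sq_not_dvd_of_ne_zero (hassePoly_ne_zero h5)).2 fun π hπ hd => by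
      rw [← pow_two] at hd
      exact not_sq_dvd_hasse h5 (irreducible_iff_prime.1 hπ)
        ((dvd_pow_self π two_ne_zero).trans hd) hd
  exact hsq.isRadical i G hi

/-- In weight `p + 1` only zero vanishes at the zeros of `A` prime to `∂A`. -/
theorem eq_zero_of_forall (h5 : 5 ≤ p) {F : MvPolynomial (Fin 2) (ZMod p)}
    (hF : Isob F (p + 1))
    (h : ∀ x : Fin 2 → AlgebraicClosure (ZMod p), MvPolynomial.aeval x (hassePoly p) = 0 →
      MvPolynomial.aeval x F * MvPolynomial.aeval x (dOp p (hassePoly p)) = 0) : F = 0 := by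
  obtain ⟨R, hR⟩ := dvd_of_dvd_mul_dOp h5 (hassePoly_dvd h5 fun x hx => by rw [map_mul, h x hx])
  by_contra h0
  obtain ⟨m, -, hm⟩ := isob_of_dvd h0 hF ⟨hassePoly p, by rw [hR, mul_comm]⟩
  have hadd := hF.inj_right h0 (hR ▸ (isob_hassePoly h5).mul hm)
  obtain rfl : m = 2 := by omega
  exact h0 (by rw [hR, isob_two hm, mul_zero])

end FA.SupersingularPoints

end
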