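import Fermat.Agent.Tau.SupersingularFunctions
import Fermat.Agent.Tau.LevelOneRing

/-!
# The supersingular polynomial

An isobaric `Q` of weight `p - 1 = 12 m + 4 δ + 6 ε` is `Δ ^ m E₄ ^ δ E₆ ^ ε G (j)`, with `G`
having integral coefficients if `Q` has. For Deligne's `Q ≡ N A` the reduction of `G` vanishes at
the supersingular invariants other than `0` and `1728`, which are as many as its degree.
-/

set_option autoImplicit false
set_option linter.style.haveILetI false

noncomputable section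

namespace FA.SupersingularPolynomial

open Polynomial FA.SwinnertonDyer FA.HasseEis UpperHalfPlane
open scoped MatrixGroups Classical

/-- The polynomial in `j` of an isobaric polynomial. -/
def jPoly (δ ε : ℕ) (Q : MvPolynomial (Fin 2) ℤ) : ℤ[X] :=
  ∑ d ∈ Q.support, C (Q.coeff d) * (X ^ ((d 0 - δ) / 3) * (X - C 1728) ^ ((d 1 - ε) / 2))

theorem exponents {δ ε m : ℕ} {d : Fin 2 →₀ ℕ} (hδ : δ ≤ 1) (hε : ε ≤ 1)
    (hd : 4 * d 0 + 6 * d 1 = 12 * m + 4 * δ + 6 * ε) :
    d 0 = δ + 3 * ((d 0 - δ) / 3) ∧ d 1 = ε + 2 * ((d 1 - ε) / 2) ∧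
      (d 0 - δ) / 3 + (d 1 - ε) / 2 = m := by
  omega

/-- An isobaric polynomial is `D ^ m x ^ δ y ^ ε` times its polynomial at `x ^ 3 / D`. -/
theorem aeval_eq {δ ε m : ℕ} (hδ : δ ≤ 1) (hε : ε ≤ 1) {Q : MvPolynomial (Fin 2) ℤ}
    (hQ : Isob Q (12 * m + 4 * δ + 6 * ε)) {K : Type*} [Field K] {x y D : K}
    (hD : D ≠ 0) (h : 1728 * D = x ^ 3 - y ^ 2) :
    MvPolynomial.aeval ![x, y] Q = D ^ m * x ^ δ * y ^ ε * aeval (x ^ 3 / D) (jPoly δ ε Q) := by
  conv_lhs => rw [Q.as_sum]
  rw [map_sum, jPoly, map_sum, Finset.mul_sum]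
  refine Finset.sum_congr rfl fun d hd => ?_
  obtain ⟨e0, e1, e2⟩ := exponents (m := m) hδ hε (by
    rw [← weight_eq]; exact hQ (MvPolynomial.mem_support_iff.1 hd))
  set i := (d 0 - δ) / 3
  set l := (d 1 - ε) / 2
  rw [monomial_eq_mul]
  simp only [map_mul, map_pow, MvPolynomial.aeval_C, MvPolynomial.aeval_X, Matrix.cons_val_zero,
    Matrix.cons_val_one, Matrix.cons_val_fin_one, map_sub, aeval_C, aeval_X]
  rw [show (algebraMap ℤ K) (1728 : ℤ) = 1728 by simp, e0, e1, ← e2,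
    show x ^ 3 / D - 1728 = y ^ 2 / D by rw [eq_div_iff hD, sub_mul, div_mul_cancel₀ _ hD, h]; ring,
    div_pow, div_pow, pow_add, pow_add, pow_add, pow_mul, pow_mul]
  field_simp

theorem natDegree_jPoly {δ ε m : ℕ} (hδ : δ ≤ 1) (hε : ε ≤ 1) {Q : MvPolynomial (Fin 2) ℤ}
    (hQ : Isob Q (12 * m + 4 * δ + 6 * ε)) :
    (jPoly δ ε Q).natDegree ≤ m ∧
      (jPoly δ ε Q).coeff m = MvPolynomial.eval (fun _ => 1) Q := by
  have key : ∀ d ∈ Q.support,
      ((X : ℤ[X]) ^ ((d 0 - δ) / 3) * (X - C 1728) ^ ((d 1 - ε) / 2)).Monic ∧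
      ((X : ℤ[X]) ^ ((d 0 - δ) / 3) * (X - C 1728) ^ ((d 1 - ε) / 2)).natDegree = m :=
    fun d hd => by
    obtain ⟨-, -, e2⟩ := exponents (m := m) hδ hε (by
      rw [← weight_eq]; exact hQ (MvPolynomial.mem_support_iff.1 hd))
    refine ⟨(monic_X_pow _).mul ((monic_X_sub_C _).pow _), ?_⟩
    rw [(monic_X_pow _).natDegree_mul ((monic_X_sub_C _).pow _), natDegree_X_pow,
      (monic_X_sub_C _).natDegree_pow, natDegree_X_sub_C, mul_one, e2]
  refine ⟨natDegree_sum_le_of_forall_le _ _ fun d hd =>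
    (natDegree_C_mul_le _ _).trans (key d hd).2.le, ?_⟩
  rw [jPoly, finsetSum_coeff, MvPolynomial.eval_eq]
  refine Finset.sum_congr rfl fun d hd => ?_
  rw [coeff_C_mul]
  conv_lhs => rw [show m = _ from (key d hd).2.symm]
  rw [(key d hd).1.coeff_natDegree]
  simp

/-- A polynomial giving a form of weight `k` is isobaric of weight `k`. -/
theorem isob_of_form {k : ℕ} (f : ModularForm 𝒮ℒ (k : ℤ)) {Q : MvPolynomial (Fin 2) ℤ}
    (h : ∀ τ, f τ = MvPolynomial.aeval ![ModularForm.E₄ τ, ModularForm.E₆ τ] Q) : Isob Q k := by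
  set φ : MvPolynomial (Fin 2) ℂ →ₐ[ℂ] (ℍ → ℂ) :=
    MvPolynomial.aeval ![⇑ModularForm.E₄, ⇑ModularForm.E₆] with hφ
  have hinj : Function.Injective φ := by
    have h := (FA.LevelOneRing.algebraicIndependent_E.comp ![1, 2] (by decide))
    have e : (![EisensteinSeries.E2, ⇑ModularForm.E₄, ⇑ModularForm.E₆] : Fin 3 → ℍ → ℂ) ∘ ![1, 2] =
        ![⇑ModularForm.E₄, ⇑ModularForm.E₆] := by
      funext i; fin_cases i <;> rfl
    rw [e] at h
    exact h
  have heval : ∀ (P : MvPolynomial (Fin 2) ℂ) τ,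
      φ P τ = MvPolynomial.aeval ![ModularForm.E₄ τ, ModularForm.E₆ τ] P := fun P τ => by
    induction P using MvPolynomial.induction_on with
    | C c => simp [hφ]
    | add a b ha hb => simp [ha, hb]
    | mul_X a i ha =>
      rw [map_mul, map_mul, Pi.mul_apply, ha, hφ, MvPolynomial.aeval_X, MvPolynomial.aeval_X]
      congr 1
      fin_cases i <;> rfl
  have hspan := FA.LevelOneRing.mem_span (k + 1) _ (by push_cast; omega) f
  suffices H : ∀ g ∈ Submodule.span ℂ (Set.range (FA.LevelOneRing.monomials (k : ℤ))),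
      ∃ R : MvPolynomial (Fin 2) ℂ, Isob R k ∧ φ R = g by
    obtain ⟨R, hR, hR'⟩ := H _ hspan
    have e : R = MvPolynomial.map (Int.castRingHom ℂ) Q := hinj (funext fun τ => by
      rw [hR', h, heval, show Int.castRingHom ℂ = algebraMap ℤ ℂ from rfl,
        MvPolynomial.aeval_map_algebraMap])
    intro d hd
    refine hR ?_
    rw [e, MvPolynomial.coeff_map, eq_intCast]
    exact Int.cast_ne_zero.2 hd
  intro g hg
  induction hg using Submodule.span_induction with
  | mem x hx =>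
    obtain ⟨⟨⟨a, b⟩, hab⟩, rfl⟩ := hx
    refine ⟨MvPolynomial.X 0 ^ a * MvPolynomial.X 1 ^ b, ?_, by simp [hφ]; rfl⟩
    have h := ((MvPolynomial.isWeightedHomogeneous_X ℂ wts 0).pow a).mul
      ((MvPolynomial.isWeightedHomogeneous_X ℂ wts 1).pow b)
    rwa [show a • wts 0 + b • wts 1 = k by simp [wts]; simp only at hab; omega] at h
  | zero => exact ⟨0, MvPolynomial.isWeightedHomogeneous_zero _ _ _, map_zero _⟩
  | add x y _ _ hx hy =>
    obtain ⟨A, hA, hA'⟩ := hx
    obtain ⟨B, hB, hB'⟩ := hy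
    exact ⟨A + B, hA.add hB, by rw [map_add, hA', hB']⟩
  | smul c x _ hx =>
    obtain ⟨A, hA, hA'⟩ := hx
    exact ⟨MvPolynomial.C c * A, hA.C_mul c, by
      rw [map_mul, hA', hφ, MvPolynomial.aeval_C]; rfl⟩

variable {p : ℕ} [Fact p.Prime]

/-- **The supersingular polynomial.** -/
theorem exists_polynomial (h5 : 5 ≤ p) :
    ∃ (N : ℤ) (G : ℤ[X]), ¬(p : ℤ) ∣ N ∧ G.natDegree ≤ p / 12 ∧ G.coeff (p / 12) = N ∧
      (∀ τ, (N : ℂ) * ModularForm.E (k := p - 1) (show 3 ≤ p - 1 by omega) τ =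
        ModularForm.discriminant τ ^ (p / 12) * ModularForm.E₄ τ ^ (if p % 3 = 2 then 1 else 0) *
          ModularForm.E₆ τ ^ (if p % 4 = 3 then 1 else 0) * aeval (FA.ModField.jfun τ) G) ∧
      G.map (Int.castRingHom (FA.SupersingularPoints.Fbar p)) =
        C (N : FA.SupersingularPoints.Fbar p) *
          ∏ᶠ j ∈ {j | j ∈ FA.SupersingularCount.ssInvariants (FA.SupersingularPoints.Fbar p) p ∧
            j ≠ 0 ∧ j ≠ 1728}, (X - C j) := by
  open FA.SupersingularPoints FA.SupersingularCount in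
  have hp : p.Prime := Fact.out
  obtain ⟨N, Q, hN, hE, hQ⟩ := hasse_eisenstein h5 (show 3 ≤ p - 1 by omega)
  set δ := if p % 3 = 2 then 1 else 0 with hδdef
  set ε := if p % 4 = 3 then 1 else 0 with hεdef
  have hδ : δ ≤ 1 := by rw [hδdef]; split_ifs <;> omega
  have hε : ε ≤ 1 := by rw [hεdef]; split_ifs <;> omega
  have hwt : p - 1 = 12 * (p / 12) + 4 * δ + 6 * ε := by
    have h2 : p % 2 = 1 := Nat.odd_iff.1 (hp.odd_of_ne_two (by omega))
    have h3 : p % 3 ≠ 0 := fun e => by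
      have := (Nat.prime_dvd_prime_iff_eq Nat.prime_three hp).1 (Nat.dvd_of_mod_eq_zero e)
      omega
    rw [hδdef, hεdef]
    split_ifs <;> omega
  have hev : Even (p - 1) := hp.even_sub_one (by omega)
  set f : ModularForm 𝒮ℒ ((p - 1 : ℕ) : ℤ) :=
    (N : ℂ) • ModularForm.E (k := p - 1) (show 3 ≤ p - 1 by omega) with hf
  have hiso : Isob Q (12 * (p / 12) + 4 * δ + 6 * ε) := hwt ▸ isob_of_form f fun τ => by
    rw [hf, ← hE τ]; rfl
  obtain ⟨hdeg, hcoef⟩ := natDegree_jPoly hδ hε hiso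
  have hone : MvPolynomial.eval (fun _ => 1) Q = N := by
    have h1 :=
      (FA.Tau.hasQ_form (ModularForm.E (k := p - 1) (show 3 ≤ p - 1 by omega))).smul (N : ℂ)
    have h2 : (N : ℂ) • ⇑(ModularForm.E (k := p - 1) (show 3 ≤ p - 1 by omega)) =
        fun τ => MvPolynomial.aeval ![ModularForm.E₄ τ, ModularForm.E₆ τ] Q := funext fun τ => hE τ
    rw [h2] at h1
    have h := congrArg (PowerSeries.coeff 0) (FA.Eis.HasQ.unique one_pos (hasQ_aeval Q) h1)
    rw [PowerSeries.coeff_map, PowerSeries.coeff_smul, EisensteinSeries.E_qExpansion_coeff _ hev,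
      if_pos rfl, smul_eq_mul, mul_one, eq_intCast, Int.cast_inj] at h
    rw [← h, PowerSeries.coeff_zero_eq_constantCoeff_apply]
    clear h h1 h2 hE hQ hiso hdeg hcoef hf f
    induction Q using MvPolynomial.induction_on with
    | C c => simp
    | add a b ha hb => simp [ha, hb]
    | mul_X a i ha =>
      have h4 : PowerSeries.constantCoeff FA.Tau.eFourInt = 1 := by
        rw [← PowerSeries.coeff_zero_eq_constantCoeff_apply]; simp [FA.Tau.eFourInt]
      have h6 : PowerSeries.constantCoeff FA.Tau.eSixInt = 1 := by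
        rw [← PowerSeries.coeff_zero_eq_constantCoeff_apply]; simp [FA.Tau.eSixInt]
      rw [map_mul, map_mul, map_mul, ha, MvPolynomial.eval_X, MvPolynomial.aeval_X]
      fin_cases i <;> simp [h4, h6]
  set G := jPoly δ ε Q
  refine ⟨N, G, hN, hdeg, hcoef.trans hone, fun τ => ?_, ?_⟩
  · rw [hE τ, aeval_eq hδ hε hiso (ModularForm.discriminant_ne_zero τ) (by
      rw [ModularForm.discriminant_eq_E₄_cube_sub_E₆_sq]; ring)]
    rfl
  set k := Fbar p
  obtain ⟨h0, h1728, hcard, hfin⟩ := count (k := k) (q := p) h5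
  obtain ⟨-, -, -, -, h1728'⟩ := small_ne_zero (k := k) (q := p) h5
  have hN' : (N : k) ≠ 0 := by
    rwa [Ne, CharP.intCast_eq_zero_iff k p]
  set T : Set k := {j | j ∈ ssInvariants k p ∧ j ≠ 0 ∧ j ≠ 1728} with hT
  have hTfin : T.Finite := hfin.subset fun j hj => hj.1
  set F := G.map (Int.castRingHom k) with hF
  have hFdeg : F.natDegree ≤ p / 12 := natDegree_map_le.trans hdeg
  have hFm : F.coeff (p / 12) = (N : k) := by
    rw [hF, coeff_map, hcoef.trans hone, eq_intCast]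
  have hF0 : F ≠ 0 := fun e => hN' (by rw [← hFm, e, coeff_zero])
  have hroot : ∀ j ∈ T, F.IsRoot j := by
    rintro j ⟨hj, hj0, hj1⟩
    have hsub : j - 1728 ≠ 0 := sub_ne_zero.2 hj1
    obtain ⟨hab, hJ⟩ := invariant_repPoint h5 j
    have hx : MvPolynomial.aeval (repPoint j) (hassePoly p) = 0 := by
      rw [← (zeroSet_eq h5).1] at hj; exact hj
    set a := repPoint j 0
    set b := repPoint j 1
    have ht : a ≠ 0 ∧ b ≠ 0 := by
      simp only [a, b, repPoint, if_neg hj0, if_neg hj1]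
      exact ⟨div_ne_zero hj0 hsub, div_ne_zero hj0 hsub⟩
    have hD : (a ^ 3 - b ^ 2) / 1728 ≠ 0 := div_ne_zero (sub_ne_zero.2 hab) h1728'
    have h := aeval_eq hδ hε hiso hD (x := a) (y := b) (by field_simp)
    have e2 : MvPolynomial.aeval ![a, b] Q = 0 := by
      have e : MvPolynomial.aeval (repPoint j) (MvPolynomial.map (Int.castRingHom (ZMod p)) Q) =
          0 := by
        rw [hQ, map_mul, hx, mul_zero]
      rw [← e, show Int.castRingHom (ZMod p) = algebraMap ℤ (ZMod p) from rfl,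
        MvPolynomial.aeval_map_algebraMap]
      congr 2
      funext i
      fin_cases i <;> rfl
    simp only [MvPolynomial.aeval_def, algebraMap_int_eq] at e2 h
    rw [show MvPolynomial.eval₂ (Int.castRingHom k) ![a, b] Q = 0 by
      rw [← e2]; congr 1, eq_comm, mul_eq_zero,
      or_iff_right (mul_ne_zero (mul_ne_zero (pow_ne_zero _ hD)
        (pow_ne_zero _ ht.1)) (pow_ne_zero _ ht.2))] at h
    rw [IsRoot, hF, eval_map]
    rw [show a ^ 3 / ((a ^ 3 - b ^ 2) / 1728) = j by rw [← hJ, div_div_eq_mul_div, mul_comm],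
      Polynomial.aeval_def] at h
    rw [← h]
    congr 1
  have hTcard : hTfin.toFinset.card = p / 12 := by
    rw [← Set.ncard_eq_toFinset_card _ hTfin]
    set A : Set k := (if p % 3 = 2 then {0} else ∅) ∪ (if p % 4 = 3 then {1728} else ∅) with hA
    have hAS : A ⊆ ssInvariants k p := by
      rw [hA, Set.union_subset_iff]
      constructor <;> split_ifs with h <;> simp [h0.2, h1728.2, h]
    have hTA : T = ssInvariants k p \ A := by
      ext j
      rw [hT, hA, Set.mem_sdiff, Set.mem_ofPred_eq, Set.mem_union, not_or]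
      constructor
      · rintro ⟨hj, a, b⟩
        exact ⟨hj, by split_ifs <;> simp [a], by split_ifs <;> simp [b]⟩
      · rintro ⟨hj, a, b⟩
        exact ⟨hj, fun e => by rw [if_pos (h0.1 (e ▸ hj))] at a; exact a (by simp [e]),
          fun e => by rw [if_pos (h1728.1 (e ▸ hj))] at b; exact b (by simp [e])⟩
    have hcA : A.ncard = δ + ε := by
      rw [hA, hδdef, hεdef]
      split_ifs <;> simp [Set.ncard_pair h1728']
    rw [hTA, Set.ncard_sdiff hAS (hfin.subset hAS), hcard, hcA]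
    omega
  have hroots : hTfin.toFinset.val = F.roots := by
    refine Multiset.eq_of_le_of_card_le ((Multiset.le_iff_subset hTfin.toFinset.nodup).2
      fun j hj => (mem_roots hF0).2 (hroot j (hTfin.mem_toFinset.1 hj))) ?_
    calc Multiset.card F.roots ≤ F.natDegree := card_roots' F
      _ ≤ p / 12 := hFdeg
      _ = _ := hTcard.symm
  have hnd : F.natDegree = p / 12 :=
    le_antisymm hFdeg (le_natDegree_of_ne_zero (hFm ▸ hN'))
  have hlead : F.leadingCoeff = (N : k) := by rw [leadingCoeff, hnd, hFm]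
  rw [← C_leadingCoeff_mul_prod_multiset_X_sub_C (p := F) (by
      rw [← hroots, Finset.card_val, hTcard, hnd]), hlead, ← hroots,
    finprod_mem_eq_finite_toFinset_prod _ hTfin, Finset.prod_eq_multiset_prod]

end FA.SupersingularPolynomial

end
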