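import Fermat.Agent.Tau.Superlattice
import Mathlib.RingTheory.Valuation.LocalSubring

/-!
# Torsion values of `℘` are integral at a place of good supersingular reduction

On `(g₂, g₃) = (0, -1)` doubling, on `(4, 0)` tripling strictly increases a valuation of `℘(x)`
above `1` when the place is over `2`, resp. `3`; a point of order prime to `p` returns to itself
after repeated multiplication by `p`, so its value of `℘` is integral there.
-/

set_option autoImplicit false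

noncomputable section

namespace FA.Hatada

variable {Γ : Type*} [LinearOrderedCommGroupWithZero Γ] (v : Valuation ℂ Γ)

theorem map_natCast_le_one (n : ℕ) : v (n : ℂ) ≤ 1 := by
  induction n with
  | zero => simp
  | succ n ih =>
    rw [Nat.cast_succ]
    exact v.map_add_le ih (le_of_eq v.map_one)

theorem map_intCast_le_one (n : ℤ) : v (n : ℂ) ≤ 1 := by
  obtain ⟨m, rfl | rfl⟩ := Int.eq_nat_or_neg n <;> simpa using map_natCast_le_one v m

theorem map_intCast_mul_le (n : ℤ) (z : ℂ) : v ((n : ℂ) * z) ≤ v z := by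
  rw [map_mul]
  exact mul_le_of_le_one_left' (map_intCast_le_one v n)

variable {v} {p : ℕ}

theorem map_intCast_lt_one (hv : v (p : ℂ) < 1) {n : ℤ} (h : (p : ℤ) ∣ n) : v (n : ℂ) < 1 := by
  obtain ⟨m, rfl⟩ := h
  push_cast
  rw [mul_comm]
  exact lt_of_le_of_lt (map_intCast_mul_le v m _) hv

theorem map_intCast_eq_one (hp : p.Prime) (hv : v (p : ℂ) < 1) {n : ℤ} (h : ¬(p : ℤ) ∣ n) :
    v (n : ℂ) = 1 := by
  obtain ⟨a, b, hab⟩ : IsCoprime (p : ℤ) n :=
    (Prime.coprime_iff_not_dvd (Nat.prime_iff_prime_int.1 hp)).2 h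
  refine le_antisymm (map_intCast_le_one v n) (le_of_not_gt fun hn => lt_irrefl (1 : Γ) ?_)
  calc (1 : Γ) = v ((a : ℂ) * p + (b : ℂ) * (n : ℂ)) := by
        rw [show (a : ℂ) * p + (b : ℂ) * n = 1 from by exact_mod_cast hab, map_one]
    _ < 1 := v.map_add_lt (lt_of_le_of_lt (map_intCast_mul_le v a _) hv)
        (lt_of_le_of_lt (map_intCast_mul_le v b _) hn)

theorem dvd_of_map_intCast_lt_one (hp : p.Prime) (hv : v (p : ℂ) < 1) {n : ℤ}
    (h : v (n : ℂ) < 1) : (p : ℤ) ∣ n :=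
  not_not.1 fun hn => h.ne (map_intCast_eq_one hp hv hn)

variable (L : PeriodPair)

/-- A value strictly growing under multiplication by `p` is integral on torsion prime to `p`. -/
theorem integral_of_growth (hp : p.Prime) {l : ℕ} (hl : l.Prime) (hlp : l ≠ p)
    (hgrow : ∀ x : ℂ, x ∉ L.lattice → (l : ℂ) * x ∈ L.lattice → 1 < v (L.weierstrassP x) →
      v (L.weierstrassP x) < v (L.weierstrassP ((p : ℂ) * x)))
    {w : ℂ} (hw : w ∉ L.lattice) (hlw : (l : ℂ) * w ∈ L.lattice) :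
    v (L.weierstrassP w) ≤ 1 := by
  by_contra hlt
  rw [not_le] at hlt
  have hco : ∀ m, ¬l ∣ p ^ m := fun m h => hlp ((Nat.prime_dvd_prime_iff_eq hl hp).1
    (hl.dvd_of_dvd_pow h))
  let u : ℕ → ℂ := fun m => ((p ^ m : ℕ) : ℂ) * w
  have hu : ∀ m, u m ∉ L.lattice ∧ (l : ℂ) * u m ∈ L.lattice := fun m => by
    constructor
    · intro hm
      obtain ⟨a, b, hab⟩ : IsCoprime (l : ℤ) ((p ^ m : ℕ) : ℤ) :=
        Nat.Coprime.isCoprime ((Nat.Prime.coprime_iff_not_dvd hl).2 (hco m))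
      have hab' : (a : ℂ) * l + b * ((p ^ m : ℕ) : ℂ) = 1 := by exact_mod_cast hab
      refine hw ?_
      rw [show w = a • ((l : ℂ) * w) + b • u m by
        rw [zsmul_eq_mul, zsmul_eq_mul]
        linear_combination (-w) * hab']
      exact add_mem (zsmul_mem hlw a) (zsmul_mem hm b)
    · rw [show (l : ℂ) * u m = (p ^ m : ℕ) • ((l : ℂ) * w) by rw [nsmul_eq_mul]; ring]
      exact nsmul_mem hlw _
  have hstep : ∀ m, v (L.weierstrassP w) < v (L.weierstrassP (u (m + 1))) := fun m => by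
    induction m with
    | zero => simpa [u] using hgrow w hw hlw hlt
    | succ m ih =>
      refine ih.trans ?_
      rw [show u (m + 1 + 1) = (p : ℂ) * u (m + 1) by simp [u, pow_succ]; ring]
      exact hgrow _ (hu _).1 (hu _).2 (hlt.trans ih)
  obtain ⟨t, ht⟩ : ∃ t : ℕ, p ^ (l - 1) = 1 + l * t := by
    have h : p ^ (l - 1) ≡ 1 [MOD l] := by
      have := Fact.mk hl
      rw [← ZMod.natCast_eq_natCast_iff, Nat.cast_pow, Nat.cast_one]
      refine ZMod.pow_card_sub_one_eq_one fun e => hco 1 ?_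
      rw [pow_one]
      exact (ZMod.natCast_eq_zero_iff p l).1 e
    obtain ⟨t, ht⟩ := (Nat.modEq_iff_dvd' (Nat.one_le_pow _ _ hp.pos)).1 h.symm
    exact ⟨t, by rw [← ht, Nat.add_sub_cancel' (Nat.one_le_pow _ _ hp.pos)]⟩
  have h := hstep (l - 1 - 1)
  rw [show l - 1 - 1 + 1 = l - 1 by have := hl.two_le; omega] at h
  refine h.ne ?_
  rw [show u (l - 1) = w + (t • (⟨_, hlw⟩ : L.lattice) : L.lattice) by
    simp only [u, ht]
    push_cast
    ring, L.weierstrassP_add_coe]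

variable {L}

theorem two_mul_notMem {l : ℕ} (hl : Odd l) {x : ℂ} (hx : x ∉ L.lattice)
    (hlx : (l : ℂ) * x ∈ L.lattice) : x + x ∉ L.lattice := fun h => by
  obtain ⟨k, rfl⟩ := hl
  refine hx ?_
  rw [show x = ((2 * k + 1 : ℕ) : ℂ) * x - k • (x + x) by push_cast; rw [nsmul_eq_mul]; ring]
  exact sub_mem hlx (nsmul_mem h k)

theorem growth_two (hv : v ((2 : ℕ) : ℂ) < 1) (h2 : L.g₂ = 0) (h3 : L.g₃ = -1) {l : ℕ}
    (hl : Odd l) {x : ℂ} (hx : x ∉ L.lattice) (hlx : (l : ℂ) * x ∈ L.lattice)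
    (h1 : 1 < v (L.weierstrassP x)) :
    v (L.weierstrassP x) < v (L.weierstrassP (((2 : ℕ) : ℂ) * x)) := by
  set X := L.weierstrassP x with hX
  have hq : L.derivWeierstrassP x ^ 2 = 4 * X ^ 3 + 1 := by
    rw [L.derivWeierstrassP_sq x hx, h2, h3]; ring
  have hq0 : L.derivWeierstrassP x ≠ 0 := fun h => two_mul_notMem hl hx hlx (by
    have := FA.Mazur.Weier.sub_mem_of_eq L hx (fun e => hx (by simpa using neg_mem e))
      (L.weierstrassP_neg x).symm (by rw [L.derivWeierstrassP_neg, h, neg_zero])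
    rw [show x + x = -(-x - x) by ring]
    exact neg_mem this)
  have hden : 4 * X ^ 3 + 1 ≠ 0 := by rw [← hq]; exact pow_ne_zero _ hq0
  have hd : L.weierstrassP (((2 : ℕ) : ℂ) * x) = (X ^ 4 - 2 * X) / (4 * X ^ 3 + 1) := by
    rw [show ((2 : ℕ) : ℂ) * x = x + x by push_cast; ring,
      FA.Mazur.Weier.weierstrassP_double L hx hq0, ← hX, h2, zero_div, sub_zero, div_pow, hq,
      div_div, div_sub' (mul_ne_zero hden (by norm_num : (4 : ℂ) ≠ 0)),
      div_eq_div_iff (mul_ne_zero hden (by norm_num : (4 : ℂ) ≠ 0)) hden]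
    ring
  have hnum : v (X ^ 4 - 2 * X) = v X ^ 4 := by
    rw [v.map_sub_eq_of_lt_left, map_pow]
    rw [map_pow]
    calc v ((2 : ℂ) * X) ≤ v X := by simpa using map_intCast_mul_le v 2 X
      _ < v X ^ 4 := lt_self_pow₀ h1 (by norm_num)
  have hlt : v (4 * X ^ 3 + 1) < v X ^ 3 := by
    refine v.map_add_lt ?_ (by rw [map_one]; exact one_lt_pow₀ h1 (by norm_num))
    have h4 : v (4 : ℂ) < 1 := by simpa using map_intCast_lt_one (n := 4) hv (by norm_num)
    rw [map_mul, map_pow]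
    exact mul_lt_of_lt_one_left (pow_pos (zero_lt_one.trans h1) 3) h4
  rw [hd, map_div₀, hnum, lt_div_iff₀ (zero_lt_iff.2 ((Valuation.ne_zero_iff v).2 hden)),
    show v X ^ 4 = v X * v X ^ 3 by rw [← pow_succ']]
  exact (mul_lt_mul_iff_right₀ (zero_lt_one.trans h1)).2 hlt

theorem growth_three (hv : v ((3 : ℕ) : ℂ) < 1) (h2 : L.g₂ = 4) (h3 : L.g₃ = 0) {l : ℕ}
    (hl : l.Prime) (hl3 : l ≠ 3) {x : ℂ} (hx : x ∉ L.lattice) (hlx : (l : ℂ) * x ∈ L.lattice)
    (h1 : 1 < v (L.weierstrassP x)) :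
    v (L.weierstrassP x) < v (L.weierstrassP (((3 : ℕ) : ℂ) * x)) := by
  set X := L.weierstrassP x with hX
  have hp3 : (3 : ℕ).Prime := Nat.prime_three
  have hone : ∀ n : ℤ, ¬(3 : ℤ) ∣ n → v (n : ℂ) = 1 := fun n hn =>
    map_intCast_eq_one hp3 hv (by exact_mod_cast hn)
  have hX0 : 0 < v X := zero_lt_one.trans h1
  have h12 : 1 < v X ^ 2 := one_lt_pow₀ h1 two_ne_zero
  have hcub : v (X ^ 3 - X) = v X ^ 3 := by
    rw [v.map_sub_eq_of_lt_left, map_pow]
    rw [map_pow]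
    exact lt_self_pow₀ h1 (by norm_num)
  have hcub0 : X ^ 3 - X ≠ 0 := (Valuation.ne_zero_iff v).1 (by
    rw [hcub]; exact pow_ne_zero _ hX0.ne')
  have hq : L.derivWeierstrassP x ^ 2 = 4 * (X ^ 3 - X) := by
    rw [L.derivWeierstrassP_sq x hx, h2, h3, ← hX]; ring
  have hq0 : L.derivWeierstrassP x ≠ 0 := fun h => hcub0 (by
    rw [h] at hq; simpa using hq.symm)
  have h2x : x + x ∉ L.lattice := FA.Mazur.Weier.not_double_mem L hq0
  set Y := L.weierstrassP (x + x) with hY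
  have hY' : Y = (X ^ 2 + 1) ^ 2 / (4 * (X ^ 3 - X)) := by
    have h4 : 4 * (X ^ 3 - X) ≠ 0 := mul_ne_zero (by norm_num : (4 : ℂ) ≠ 0) hcub0
    have h16 : 4 * (X ^ 3 - X) * 4 ≠ 0 := mul_ne_zero h4 (by norm_num : (4 : ℂ) ≠ 0)
    rw [hY, FA.Mazur.Weier.weierstrassP_double L hx hq0, ← hX, h2, div_pow, hq, div_div,
      div_sub' h16, div_eq_div_iff h16 h4]
    ring
  have hYv : v Y = v X := by
    rw [hY', map_div₀, map_mul, map_pow, show v (4 : ℂ) = 1 by simpa using hone 4 (by norm_num),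
      hcub, one_mul, show v (X ^ 2 + 1) = v X ^ 2 by
        rw [v.map_add_eq_of_lt_left, map_pow]
        rw [map_one, map_pow]
        exact h12, div_eq_iff (pow_ne_zero _ hX0.ne'), ← pow_mul, ← pow_succ']
  have hne : Y ≠ X := fun e => by
    rcases FA.Mazur.Weier.eq_or_eq_neg_of_eq L h2x hx e with h | h
    · exact hx (by
        rw [show x = -(x - (x + x)) by ring]
        exact neg_mem h)
    · obtain ⟨a, b, hab⟩ : IsCoprime (l : ℤ) (3 : ℤ) := Nat.Coprime.isCoprime (n := 3)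
        ((Nat.coprime_primes hl hp3).2 hl3)
      have hab' : (a : ℂ) * l + b * 3 = 1 := by exact_mod_cast hab
      refine hx ?_
      rw [show x = a • ((l : ℂ) * x) + b • (x + (x + x)) by
        rw [zsmul_eq_mul, zsmul_eq_mul]; linear_combination (-x) * hab']
      exact add_mem (zsmul_mem hlx a) (zsmul_mem h b)
  -- the difference is small
  have hd : v (Y - X) < v X := by
    have e : Y - X = (((-3 : ℤ) : ℂ) * X ^ 4 + (((6 : ℤ) : ℂ) * X ^ 2 + 1)) /
        (4 * (X ^ 3 - X)) := by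
      rw [hY', div_sub' (mul_ne_zero (by norm_num : (4 : ℂ) ≠ 0) hcub0)]
      congr 1
      push_cast
      ring
    rw [e, map_div₀, map_mul v (4 : ℂ), show v (4 : ℂ) = 1 by simpa using hone 4 (by norm_num),
      hcub, one_mul, div_lt_iff₀ (pow_pos hX0 3), ← pow_succ']
    refine v.map_add_lt ?_ (lt_of_le_of_lt (v.map_add_le (?_ : _ ≤ v X ^ 2) ?_) ?_)
    · rw [map_mul, map_pow]
      exact mul_lt_of_lt_one_left (pow_pos hX0 4) (map_intCast_lt_one hv (by norm_num))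
    · exact (map_intCast_mul_le v 6 _).trans (le_of_eq (map_pow v X 2))
    · rw [map_one]; exact h12.le
    · exact pow_lt_pow_right₀ h1 (by norm_num)
  have hd0 : 0 < v (Y - X) := zero_lt_iff.2 ((Valuation.ne_zero_iff v).2 (sub_ne_zero.2 hne))
  -- the numerator is not
  set N := L.derivWeierstrassP (x + x) ^ 2 + L.derivWeierstrassP x ^ 2 with hN
  have hNv : v N = v X ^ 3 := by
    have e : N = ((8 : ℤ) : ℂ) * X ^ 3 +
        (((4 : ℤ) : ℂ) * ((Y - X) * (Y ^ 2 + Y * X + X ^ 2)) + ((-4 : ℤ) : ℂ) * (Y + X)) := by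
      rw [hN, hq, L.derivWeierstrassP_sq _ h2x, h2, h3, ← hY]
      push_cast
      ring
    have h8 : v (((8 : ℤ) : ℂ) * X ^ 3) = v X ^ 3 := by
      rw [map_mul, hone 8 (by norm_num), one_mul, map_pow]
    rw [e, v.map_add_eq_of_lt_left, h8]
    rw [h8]
    refine v.map_add_lt (lt_of_le_of_lt (map_intCast_mul_le v 4 _) ?_)
      (lt_of_le_of_lt ((map_intCast_mul_le v (-4) _).trans (v.map_add_le hYv.le le_rfl))
        (lt_self_pow₀ h1 (by norm_num)))
    rw [map_mul, show v X ^ 3 = v X * v X ^ 2 by rw [← pow_succ']]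
    refine mul_lt_mul_of_lt_of_le_of_nonneg_of_pos hd (v.map_add_le (v.map_add_le ?_ ?_) ?_)
      zero_le (pow_pos hX0 2)
    · rw [map_pow, hYv]
    · rw [map_mul, hYv, sq]
    · rw [map_pow]
  -- the triple
  have hsum := FA.Mazur.Weier.weierstrassP_add_sub L h2x hx hq0 hne
  rw [show x + x - x = x by ring, ← hX, ← hY, ← hN] at hsum
  rw [show ((3 : ℕ) : ℂ) * x = x + x + x by push_cast; ring,
    show L.weierstrassP (x + x + x) =
      N / (((2 : ℤ) : ℂ) * (Y - X) ^ 2) - (((3 : ℤ) : ℂ) * X + ((2 : ℤ) : ℂ) * Y) by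
      push_cast
      linear_combination (norm := skip) hsum
      field_simp
      ring]
  have hbig : v X < v (N / (((2 : ℤ) : ℂ) * (Y - X) ^ 2)) := by
    rw [map_div₀, map_mul, hone 2 (by norm_num), one_mul, map_pow, hNv,
      lt_div_iff₀ (pow_pos hd0 2), show v X ^ 3 = v X * v X ^ 2 by rw [← pow_succ']]
    exact (mul_lt_mul_iff_right₀ hX0).2 (pow_lt_pow_left₀ hd zero_le two_ne_zero)
  rw [v.map_sub_eq_of_lt_left]
  · exact hbig
  · refine lt_of_le_of_lt (v.map_add_le (map_intCast_mul_le v 3 X) ?_) hbig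
    exact (map_intCast_mul_le v 2 Y).trans hYv.le

/-- **Integrality** over `2` on `y² + y = x³`. -/
theorem integral_two (hv : v ((2 : ℕ) : ℂ) < 1) (h2 : L.g₂ = 0) (h3 : L.g₃ = -1) {l : ℕ}
    (hl : l.Prime) (hl2 : l ≠ 2) {w : ℂ} (hw : w ∉ L.lattice)
    (hlw : (l : ℂ) * w ∈ L.lattice) : v (L.weierstrassP w) ≤ 1 :=
  integral_of_growth L Nat.prime_two hl hl2
    (fun _ hx hlx h1 => growth_two hv h2 h3 (hl.odd_of_ne_two hl2) hx hlx h1) hw hlw

/-- **Integrality** over `3` on `y² = x³ - x`. -/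
theorem integral_three (hv : v ((3 : ℕ) : ℂ) < 1) (h2 : L.g₂ = 4) (h3 : L.g₃ = 0) {l : ℕ}
    (hl : l.Prime) (hl3 : l ≠ 3) {w : ℂ} (hw : w ∉ L.lattice)
    (hlw : (l : ℂ) * w ∈ L.lattice) : v (L.weierstrassP w) ≤ 1 :=
  integral_of_growth L Nat.prime_three hl hl3
    (fun _ hx hlx h1 => growth_three hv h2 h3 hl hl3 hx hlx h1) hw hlw

/-- A valuation of `ℂ` over `p`. -/
theorem exists_valuation {p : ℕ} (hp : p.Prime) :
    ∃ O : ValuationSubring ℂ, O.valuation (p : ℂ) < 1 := by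
  let f : ℤ →+* ℂ := Int.castRingHom ℂ
  let e : ℤ ≃+* f.range := RingEquiv.ofBijective f.rangeRestrict
    ⟨fun a b h => Int.cast_injective (α := ℂ) (congrArg Subtype.val h), f.rangeRestrict_surjective⟩
  let I : Ideal f.range := (Ideal.span {(p : ℤ)}).map e
  have hI : I ≠ ⊤ := fun h => by
    have h' := congrArg (Ideal.comap e) h
    rw [Ideal.comap_top, Ideal.comap_map_of_bijective _ e.bijective, Ideal.span_singleton_eq_top,
      Int.isUnit_iff] at h'
    have := hp.two_le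
    omega
  obtain ⟨O, -, hO⟩ := Ideal.image_subset_nonunits_valuationSubring I hI
  exact ⟨O, O.mem_nonunits_iff.1
    (hO ⟨e (p : ℤ), Ideal.mem_map_of_mem _ (Ideal.mem_span_singleton_self _), by simp [e, f]⟩)⟩

end FA.Hatada

end
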