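import Mathlib.Algebra.Polynomial.Homogenize
import Mathlib.Algebra.CharP.Basic
import Mathlib.Algebra.CharP.Lemmas
import Mathlib.FieldTheory.Finite.Basic
import Mathlib.RingTheory.PowerSeries.Derivative

/-!
# The coefficients of `℘` given by its differential equation

For `u = z² ℘` and `v = z³ ℘'` one has `v² = 4 u³ - a u z⁴ - b z⁶`; the coefficient of `z ^ j` gives
`4 (j + 1) c_j` from the lower ones. In characteristic `p` at `j = p - 1` this is eight times the
Hasse invariant of `y² = 4 x³ - a x - b`.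
-/

set_option autoImplicit false

noncomputable section

namespace FA.HasseEis

open scoped PowerSeries

variable {R S : Type*} [CommRing R] [CommRing S]

/-- `z u' - 2 u`. -/
def vOf (U : R⟦X⟧) : R⟦X⟧ := PowerSeries.mk fun j => ((j : R) - 2) * PowerSeries.coeff j U

/-- `v² - 4 u³ + a u z⁴ + b z⁶`. -/
def rel (a b : R) (U : R⟦X⟧) : R⟦X⟧ :=
  vOf U ^ 2 - 4 * U ^ 3 + PowerSeries.C a * U * PowerSeries.X ^ 4 +
    PowerSeries.C b * PowerSeries.X ^ 6

/-- `1` followed by the first coefficients. -/
def uTrunc (n : ℕ) (c : ℕ → R) : R⟦X⟧ :=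
  PowerSeries.mk fun j => if j = 0 then 1 else if j < n then c j else 0

/-- The equations up to `N`. -/
def IsSol (a b : R) (c : ℕ → R) (N : ℕ) : Prop :=
  ∀ j, 1 ≤ j → j < N → PowerSeries.coeff j (rel a b (uTrunc j c)) = 4 * ((j : R) + 1) * c j

theorem coeff_vOf (U : R⟦X⟧) (j : ℕ) :
    PowerSeries.coeff j (vOf U) = ((j : R) - 2) * PowerSeries.coeff j U :=
  PowerSeries.coeff_mk _ _

theorem vOf_sub (U V : R⟦X⟧) : vOf (U - V) = vOf U - vOf V := by
  ext j
  simp [coeff_vOf, mul_sub]

theorem vOf_add (U V : R⟦X⟧) : vOf (U + V) = vOf U + vOf V := by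
  ext j
  simp [coeff_vOf, mul_add]

theorem vOf_C_mul_X_pow (c : R) (j : ℕ) :
    vOf (PowerSeries.C c * PowerSeries.X ^ j) =
      PowerSeries.C (((j : R) - 2) * c) * PowerSeries.X ^ j := by
  ext i
  rw [coeff_vOf, PowerSeries.coeff_C_mul_X_pow, PowerSeries.coeff_C_mul_X_pow]
  split_ifs with h
  · rw [h]
  · rw [mul_zero]

theorem vOf_eq (U : R⟦X⟧) : vOf U = PowerSeries.X * d⁄dX R U - 2 * U := by
  ext j
  rw [show (2 : R⟦X⟧) = PowerSeries.C (2 : R) from (map_ofNat _ 2).symm, coeff_vOf, map_sub,
    PowerSeries.coeff_C_mul]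
  rcases j with _ | j
  · rw [PowerSeries.coeff_zero_eq_constantCoeff_apply,
      PowerSeries.coeff_zero_eq_constantCoeff_apply, map_mul, PowerSeries.constantCoeff_X]
    simp
  · rw [PowerSeries.coeff_succ_X_mul, PowerSeries.coeff_derivative]
    push_cast
    ring

theorem map_rel (f : R →+* S) (a b : R) (U : R⟦X⟧) :
    PowerSeries.map f (rel a b U) = rel (f a) (f b) (PowerSeries.map f U) := by
  have hv : PowerSeries.map f (vOf U) = vOf (PowerSeries.map f U) := by
    ext j
    simp [coeff_vOf, map_ofNat]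
  simp [rel, hv, map_ofNat]

theorem map_uTrunc (f : R →+* S) (n : ℕ) (c : ℕ → R) :
    PowerSeries.map f (uTrunc n c) = uTrunc n (f ∘ c) := by
  ext j
  simp [uTrunc, apply_ite f]

theorem uTrunc_congr {n : ℕ} {c d : ℕ → R} (h : ∀ j, 1 ≤ j → j < n → c j = d j) :
    uTrunc n c = uTrunc n d := by
  ext j
  simp only [uTrunc, PowerSeries.coeff_mk]
  split_ifs with h1 h2
  · rfl
  · exact h j (Nat.pos_of_ne_zero h1) h2
  · rfl

/-- The coefficient of `z ^ j` sees `c_j` only linearly. -/
theorem coeff_rel {a b : R} {U : R⟦X⟧} (hU : PowerSeries.coeff 0 U = 1) {j : ℕ} (hj : 1 ≤ j) :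
    PowerSeries.coeff j (rel a b U) =
      PowerSeries.coeff j (rel a b (uTrunc j fun i => PowerSeries.coeff i U)) -
        4 * ((j : R) + 1) * PowerSeries.coeff j U := by
  set T := uTrunc j fun i => PowerSeries.coeff i U
  set c := PowerSeries.coeff j U
  set M := PowerSeries.C c * (PowerSeries.X : R⟦X⟧) ^ j with hM
  set D := U - (T + M) with hD
  have hdvd : PowerSeries.X ^ (j + 1) ∣ D := by
    rw [PowerSeries.X_pow_dvd_iff]
    intro i hi
    rw [hD, map_sub, map_add, hM, PowerSeries.coeff_C_mul_X_pow]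
    simp only [T, uTrunc, PowerSeries.coeff_mk]
    split_ifs <;> first | omega | (subst_vars; simp [hU, c])
  have hdvd' : PowerSeries.X ^ (j + 1) ∣ vOf D := by
    rw [PowerSeries.X_pow_dvd_iff] at hdvd ⊢
    intro i hi
    rw [coeff_vOf, hdvd i hi, mul_zero]
  have hsame : PowerSeries.coeff j (rel a b U) = PowerSeries.coeff j (rel a b (T + M)) := by
    have h : PowerSeries.X ^ (j + 1) ∣ rel a b U - rel a b (T + M) := by
      rw [show rel a b U - rel a b (T + M) =
        vOf D * (vOf U + vOf (T + M)) +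
          D * (PowerSeries.C a * PowerSeries.X ^ 4 -
            4 * (U ^ 2 + U * (T + M) + (T + M) ^ 2)) by
        rw [hD, vOf_sub, rel, rel]; ring]
      exact dvd_add (dvd_mul_of_dvd_left hdvd' _) (dvd_mul_of_dvd_left hdvd _)
    have := PowerSeries.X_pow_dvd_iff.1 h j j.lt_succ_self
    rwa [map_sub, sub_eq_zero] at this
  rw [hsame, show rel a b (T + M) = rel a b T + PowerSeries.X ^ j *
      (2 * vOf T * PowerSeries.C (((j : R) - 2) * c) +
        PowerSeries.C c * (PowerSeries.C a * PowerSeries.X ^ 4 - 12 * T ^ 2)) +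
      PowerSeries.X ^ (j + 1) * (PowerSeries.X ^ (j - 1) *
        (PowerSeries.C (((j : R) - 2) * c) ^ 2 -
          4 * (3 * T * PowerSeries.C c ^ 2 + PowerSeries.C c ^ 3 * PowerSeries.X ^ j))) by
    rw [← mul_assoc _ (PowerSeries.X ^ (j - 1)) _, ← pow_add,
      show j + 1 + (j - 1) = j + j by omega, rel, rel, vOf_add, hM, vOf_C_mul_X_pow]
    ring]
  rw [map_add, map_add, PowerSeries.coeff_X_pow_mul' (n := j + 1), if_neg (by omega), add_zero,
    PowerSeries.coeff_X_pow_mul', if_pos le_rfl, Nat.sub_self,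
    PowerSeries.coeff_zero_eq_constantCoeff_apply]
  have hT : PowerSeries.constantCoeff T = 1 := by
    simp [T, uTrunc, ← PowerSeries.coeff_zero_eq_constantCoeff_apply]
  have hvT : PowerSeries.constantCoeff (vOf T) = -2 := by
    rw [← PowerSeries.coeff_zero_eq_constantCoeff_apply, coeff_vOf,
      PowerSeries.coeff_zero_eq_constantCoeff_apply, hT]
    simp
  simp [hT, hvT, map_ofNat]
  ring

theorem coeff_rel_zero {a b : R} {U : R⟦X⟧} (hU : PowerSeries.coeff 0 U = 1) :
    PowerSeries.coeff 0 (rel a b U) = 0 := by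
  have hv : PowerSeries.constantCoeff (vOf U) = -2 := by
    rw [← PowerSeries.coeff_zero_eq_constantCoeff_apply, coeff_vOf, hU]
    simp
  rw [PowerSeries.coeff_zero_eq_constantCoeff_apply] at hU ⊢
  simp [rel, hU, hv, map_ofNat]
  norm_num

/-- Where the denominators are invertible there is a solution. -/
theorem exists_sol (a b : R) {N : ℕ} (h : ∀ j, 1 ≤ j → j < N → IsUnit (4 * ((j : R) + 1))) :
    ∃ c, IsSol a b c N := by
  induction N with
  | zero => exact ⟨0, fun j _ hj => absurd hj j.not_lt_zero⟩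
  | succ N ih =>
    obtain ⟨c, hc⟩ := ih fun j h1 h2 => h j h1 (h2.trans N.lt_succ_self)
    rcases N.eq_zero_or_pos with rfl | hN
    · exact ⟨0, fun j h1 h2 => by omega⟩
    obtain ⟨u, hu⟩ := h N hN N.lt_succ_self
    refine ⟨Function.update c N (↑u⁻¹ * PowerSeries.coeff N (rel a b (uTrunc N c))),
      fun j h1 h2 => ?_⟩
    have e : ∀ i, i < N → Function.update c N (↑u⁻¹ * PowerSeries.coeff N (rel a b (uTrunc N c))) i
        = c i := fun i hi => Function.update_of_ne hi.ne _ _
    rw [uTrunc_congr (d := c) fun i _ hi => e i (lt_of_lt_of_le hi (Nat.lt_succ_iff.1 h2))]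
    rcases (Nat.lt_succ_iff.1 h2).lt_or_eq with h3 | rfl
    · rw [e j h3, hc j h1 h3]
    · rw [Function.update_self, ← hu, Units.mul_inv_cancel_left]

/-- A solution is determined as long as the denominators are not zero divisors. -/
theorem sol_unique {a b : R} {N : ℕ} {c d : ℕ → R}
    (h : ∀ j, 1 ≤ j → j < N → IsLeftRegular (4 * ((j : R) + 1))) (hc : IsSol a b c N)
    (hd : IsSol a b d N) : ∀ j, 1 ≤ j → j < N → c j = d j := by
  intro j
  induction j using Nat.strong_induction_on with
  | _ j ih =>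
    intro h1 h2
    refine h j h1 h2 ?_
    show 4 * ((j : R) + 1) * c j = 4 * ((j : R) + 1) * d j
    rw [← hc j h1 h2, ← hd j h1 h2,
      uTrunc_congr (d := d) fun i hi hi' => ih i hi' hi (hi'.trans h2)]

theorem IsSol.map {a b : R} {c : ℕ → R} {N : ℕ} (h : IsSol a b c N) (f : R →+* S) :
    IsSol (f a) (f b) (f ∘ c) N := fun j h1 h2 => by
  rw [← map_uTrunc, ← map_rel, PowerSeries.coeff_map, h j h1 h2]
  simp [map_ofNat]

theorem map_coeff_rel (f : R →+* S) (a b : R) (n : ℕ) (c : ℕ → R) :
    f (PowerSeries.coeff n (rel a b (uTrunc n c))) =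
      PowerSeries.coeff n (rel (f a) (f b) (uTrunc n (f ∘ c))) := by
  rw [← PowerSeries.coeff_map, map_rel, map_uTrunc]

/-- The lower coefficients of the truncated relation vanish. -/
theorem X_pow_dvd_rel {a b : R} {c : ℕ → R} {n : ℕ} (h : IsSol a b c n) :
    PowerSeries.X ^ n ∣ rel a b (uTrunc n c) := by
  rw [PowerSeries.X_pow_dvd_iff]
  intro j hj
  have h0 : PowerSeries.coeff 0 (uTrunc n c) = 1 := by simp [uTrunc]
  rcases j.eq_zero_or_pos with rfl | hj1
  · exact coeff_rel_zero h0
  rw [coeff_rel h0 hj1, uTrunc_congr (d := c) fun i hi hi' => by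
    simp [uTrunc, show i ≠ 0 by omega, hi'.trans hj], h j hj1 hj]
  simp [uTrunc, show j ≠ 0 by omega, hj]

open Polynomial in
/-- The Hasse invariant of `y² = 4 x³ - a x - b`. -/
def hasse4 (p : ℕ) (a b : R) : R :=
  ((C 4 * X ^ 3 - C a * X - C b : R[X]) ^ ((p - 1) / 2)).coeff (p - 1)

/-- **In characteristic `p` the relation at `z ^ (p - 1)` is eight times the Hasse invariant.** -/
theorem coeff_rel_eq_hasse4 [IsDomain R] {p : ℕ} [Fact p.Prime] [CharP R p] (h5 : 5 ≤ p) {a b : R}
    {c : ℕ → R} (h : IsSol a b c (p - 1)) :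
    PowerSeries.coeff (p - 1) (rel a b (uTrunc (p - 1) c)) = 8 * hasse4 p a b := by
  obtain ⟨m, hm⟩ : ∃ m, p = 2 * m + 1 := ((Fact.out : p.Prime).odd_of_ne_two (by omega))
  set n := p - 1 with hn
  have hnm : n = 2 * m := by omega
  set U := uTrunc n c with hUdef
  set v := vOf U with hv
  set e := PowerSeries.coeff n (rel a b U)
  obtain ⟨W, hW⟩ : PowerSeries.X ^ n ∣ rel a b U := X_pow_dvd_rel h
  have hU0 : PowerSeries.constantCoeff U = 1 := by
    simp [U, uTrunc, ← PowerSeries.coeff_zero_eq_constantCoeff_apply]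
  have hv0 : PowerSeries.constantCoeff v = -2 := by
    rw [← PowerSeries.coeff_zero_eq_constantCoeff_apply, hv, coeff_vOf,
      PowerSeries.coeff_zero_eq_constantCoeff_apply, hU0]
    simp
  have he : e = PowerSeries.constantCoeff W := by
    rw [show e = PowerSeries.coeff n (rel a b U) from rfl, hW, PowerSeries.coeff_X_pow_mul',
      if_pos le_rfl, Nat.sub_self, PowerSeries.coeff_zero_eq_constantCoeff_apply]
  set F := 4 * U ^ 3 - PowerSeries.C a * U * PowerSeries.X ^ 4 -
    PowerSeries.C b * PowerSeries.X ^ 6 with hF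
  have hFv : F = v ^ 2 - PowerSeries.X ^ n * W := by rw [← hW, hF, rel, hv]; ring
  have hp0 : (p : R) = 0 := CharP.cast_eq_zero R p
  have hm2 : 2 * (m : R) = -1 := by
    rw [eq_neg_iff_add_eq_zero, ← hp0, hm]
    push_cast
    ring
  -- the right hand side
  have right : 4 * PowerSeries.coeff n (F ^ m * v) = -e := by
    obtain ⟨Z, hZ⟩ : ∃ Z, (v ^ 2 + -(PowerSeries.X ^ n * W)) ^ m =
        (v ^ 2) ^ m + (m : R⟦X⟧) * (v ^ 2) ^ (m - 1) * -(PowerSeries.X ^ n * W) +
          Z * (-(PowerSeries.X ^ n * W)) ^ 2 := by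
      obtain ⟨k, hk⟩ := Polynomial.powAddExpansion (v ^ 2) (-(PowerSeries.X ^ n * W)) m
      exact ⟨k, by rw [hk]⟩
    obtain ⟨w, hw⟩ : ∃ w, v = PowerSeries.C (-2) + PowerSeries.X * w := by
      obtain ⟨w, hw⟩ := PowerSeries.X_dvd_iff.2 (show PowerSeries.constantCoeff
        (v - PowerSeries.C (-2 : R)) = 0 by simp [hv0])
      exact ⟨w, by rw [← hw]; ring⟩
    have : CharP R⟦X⟧ p := charP_of_injective_ringHom (f := PowerSeries.C)
      (fun x y hxy => by simpa using congrArg PowerSeries.constantCoeff hxy) p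
    have hvp : PowerSeries.coeff n (v ^ p) = 0 := by
      rw [hw, add_pow_char, mul_pow, ← map_pow, map_add, PowerSeries.coeff_C,
        if_neg (by omega), PowerSeries.coeff_X_pow_mul', if_neg (by omega), add_zero]
    have hexp : (v ^ 2 + -(PowerSeries.X ^ n * W)) ^ m * v = v ^ p -
        PowerSeries.X ^ n * ((m : R⟦X⟧) * (v ^ (n - 1) * W)) +
        PowerSeries.X ^ (n + 1) * (PowerSeries.X ^ (n - 1) * (Z * W ^ 2 * v)) := by
      rw [hZ, ← mul_assoc _ (PowerSeries.X ^ (n - 1)) _, ← pow_add,
        show n + 1 + (n - 1) = n + n by omega, ← pow_mul, ← pow_mul,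
        show n - 1 = 2 * (m - 1) + 1 by omega, hm]
      ring
    have h4 : (-2 : R) ^ (n - 1) * -2 = 1 := by
      rw [← pow_succ, show n - 1 + 1 = p - 1 by omega]
      have h2 : (-2 : ZMod p) ≠ 0 := neg_ne_zero.2 fun e2 => by
        have := Nat.le_of_dvd two_pos ((ZMod.natCast_eq_zero_iff 2 p).1 (by simpa using e2))
        omega
      have := congrArg (ZMod.castHom dvd_rfl R) (ZMod.pow_card_sub_one_eq_one h2)
      rwa [map_pow, map_neg, map_ofNat, map_one] at this
    rw [hFv, sub_eq_add_neg, hexp, map_add, map_sub, hvp,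
      PowerSeries.coeff_X_pow_mul' (n := n + 1), if_neg (by omega), add_zero,
      PowerSeries.coeff_X_pow_mul', if_pos le_rfl, Nat.sub_self,
      PowerSeries.coeff_zero_eq_constantCoeff_apply, map_mul, map_mul, map_pow, hv0, ← he,
      map_natCast]
    linear_combination (-2 * (m : R) * e) * (-1 : R) * h4 + e * hm2
  -- the left hand side
  have left : PowerSeries.coeff n (F ^ m * v) = -2 * hasse4 p a b := by
    set f : Polynomial R := Polynomial.C 4 * Polynomial.X ^ 3 - Polynomial.C a * Polynomial.X -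
      Polynomial.C b with hf
    have hdeg : f.natDegree ≤ 3 := by rw [hf]; compute_degree
    have hhom : F = MvPolynomial.aeval ![U, PowerSeries.X ^ 2] (f.homogenize 3) := by
      rw [hf, Polynomial.homogenize_sub, Polynomial.homogenize_sub, Polynomial.homogenize_C_mul,
        Polynomial.homogenize_C_mul, Polynomial.homogenize_C, Polynomial.homogenize_X_pow le_rfl,
        Polynomial.homogenize_X (by norm_num)]
      simp [hF, PowerSeries.algebraMap_eq, map_ofNat]
      ring
    have hpowm : ∀ k : ℕ, F ^ k =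
        MvPolynomial.aeval ![U, PowerSeries.X ^ 2] ((f ^ k).homogenize (3 * k)) := by
      intro k
      induction k with
      | zero => simp [Polynomial.homogenize_one]
      | succ k ih =>
        rw [pow_succ F k, pow_succ f k, Nat.mul_succ, Polynomial.homogenize_mul (m := 3 * k) _ _
          (Polynomial.natDegree_pow_le_of_le k hdeg |>.trans (by omega)) hdeg, map_mul, ih, ← hhom]
    have hterm : ∀ i ∈ Finset.range (3 * m + 1),
        PowerSeries.coeff n (U ^ i * (PowerSeries.X ^ 2) ^ (3 * m - i) * v) =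
          if i = n then -2 else 0 := by
      intro i hi
      rw [Finset.mem_range] at hi
      rw [← pow_mul, mul_right_comm, PowerSeries.coeff_mul_X_pow']
      by_cases hle : 2 * (3 * m - i) ≤ n
      · rw [if_pos hle]
        have key : ∀ d : ℕ, ((i : R) + 1) * PowerSeries.coeff d (U ^ i * v) =
            ((d : R) - 2 * ((i : R) + 1)) * PowerSeries.coeff d (U ^ (i + 1)) := fun d => by
          have e1 : PowerSeries.C ((i : R) + 1) * (U ^ i * v) =
              PowerSeries.X * d⁄dX R (U ^ (i + 1)) -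
                PowerSeries.C (2 * ((i : R) + 1)) * U ^ (i + 1) := by
            rw [PowerSeries.derivative_pow, hv, vOf_eq, Nat.add_sub_cancel]
            simp [map_ofNat]
            ring
          rw [← PowerSeries.coeff_C_mul, e1, map_sub, PowerSeries.coeff_C_mul, sub_mul]
          congr 1
          rcases d with _ | d
          · simp
          · rw [PowerSeries.coeff_succ_X_mul, PowerSeries.coeff_derivative]
            push_cast
            ring
        by_cases hin : i = n
        · rw [if_pos hin, show n - 2 * (3 * m - i) = 0 by omega,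
            PowerSeries.coeff_zero_eq_constantCoeff_apply, map_mul, map_pow, hU0, hv0]
          ring
        · rw [if_neg hin]
          have h2 := key (n - 2 * (3 * m - i))
          have hz : ((n - 2 * (3 * m - i) : ℕ) : R) - 2 * ((i : R) + 1) = 0 := by
            rw [Nat.cast_sub hle, hnm]
            push_cast [Nat.cast_sub (show i ≤ 3 * m by omega)]
            linear_combination (-2 : R) * hm2
          rw [hz, zero_mul, mul_eq_zero] at h2
          refine h2.resolve_left ?_
          rw [← Nat.cast_succ, CharP.cast_eq_zero_iff R p]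
          intro hd
          obtain ⟨k, hk⟩ := hd
          rcases k with _ | _ | k
          · simp at hk
          · omega
          · have : p * 2 ≤ p * (k + 1 + 1) := Nat.mul_le_mul_left p (by omega)
            omega
      · rw [if_neg hle, if_neg (by omega)]
    rw [hpowm, Polynomial.homogenize, map_sum, Finset.sum_mul, map_sum,
      Finset.Nat.sum_antidiagonal_eq_sum_range_succ_mk]
    rw [Finset.sum_congr rfl (g := fun i => (f ^ m).coeff i * if i = n then -2 else 0)
      fun i hi => by
        rw [MvPolynomial.aeval_monomial, Finsupp.prod_fintype _ _ (fun _ => pow_zero _)]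
        simp [Fin.prod_univ_two, PowerSeries.algebraMap_eq, mul_assoc, PowerSeries.coeff_C_mul]
        rw [← mul_assoc (U ^ i), hterm i hi]
        split_ifs <;> ring]
    simp only [mul_ite, mul_zero, Finset.sum_ite_eq', Finset.mem_range]
    rw [if_pos (by omega), hasse4, show (p - 1) / 2 = m by omega]
    ring
  rw [left] at right
  linear_combination right

end FA.HasseEis

end
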